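import Fermat.Agent.ES.AbsInj

/-!
# Project ES, block INJ (instantiation of `abstract_inj`) : shared definitions

* `chart K x`  : the functions integral over `K[x]`,
* `trF K x y`  : the trace `Tr_{F / K(x)} y`, as an element of `F`,
* `Codiff K x` : `{ω : Tr(ω h) ∈ K[x] for all h ∈ chart K x}`,
* `Omega K x`  : `{ω : ω ∈ Codiff K x, x ^ 2 ω ∈ Codiff K x⁻¹}` ("regular differentials `ω dx`").
-/

set_option autoImplicit false

noncomputable section

namespace Fermat.Agent.ES.TC

open IntermediateField

variable (K : Type*) {F : Type*} [Field K] [Field F] [Algebra K F]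

/-- The functions integral over `K[x]`. -/
def chart (x : F) : Subalgebra K F :=
  (integralClosure (Algebra.adjoin K {x}) F).restrictScalars K

theorem mem_chart {x y : F} : y ∈ chart K x ↔ IsIntegral (Algebra.adjoin K {x}) y := Iff.rfl

/-- `Tr_{F / K(x)} y` as an element of `F`. -/
def trF (x y : F) : F := ((Algebra.trace K⟮x⟯ F y : K⟮x⟯) : F)

theorem trF_add (x y z : F) : trF K x (y + z) = trF K x y + trF K x z := by
  simp [trF]

theorem trF_smul (x : F) (c : K) (y : F) : trF K x (c • y) = c • trF K x y := by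
  have h : c • y = (algebraMap K K⟮x⟯ c) • y := by
    rw [algebraMap_smul]
  rw [trF, h, map_smul, trF]
  rw [Algebra.smul_def, Algebra.smul_def]
  rfl

/-- The codifferent of `chart K x` over `K[x]`. -/
def Codiff (x : F) : Submodule K F where
  carrier := {ω | ∀ h ∈ chart K x, trF K x (h * ω) ∈ Algebra.adjoin K {x}}
  add_mem' := by
    intro a b ha hb h hh
    rw [mul_add, trF_add]
    exact add_mem (ha h hh) (hb h hh)
  zero_mem' := by
    intro h _
    simp [trF]
  smul_mem' := by
    intro c a ha h hh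
    rw [mul_smul_comm, trF_smul]
    exact Subalgebra.smul_mem _ (ha h hh) c

theorem mem_Codiff {x ω : F} :
    ω ∈ Codiff K x ↔ ∀ h ∈ chart K x, trF K x (h * ω) ∈ Algebra.adjoin K {x} := Iff.rfl

/-- "Regular differentials `ω dx`". -/
def Omega (x : F) : Submodule K F :=
  Codiff K x ⊓ (Codiff K x⁻¹).comap (LinearMap.mulLeft K (x ^ 2))

theorem mem_Omega {x ω : F} :
    ω ∈ Omega K x ↔ ω ∈ Codiff K x ∧ x ^ 2 * ω ∈ Codiff K x⁻¹ := Iff.rfl

end Fermat.Agent.ES.TC
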