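import Mathlib

/-!
# Project ES, block INJ : the abstract injectivity theorem

`K` a field, `F / K` a field with a valuation ring `O` ("Gauss valuation") and a reduction map
`red : O →+* Fb`, `Fb / k`.  No discreteness, no models: only dimensions of finite dimensional
spaces of functions on the generic and on the special fibre are compared.

Main result: `abstract_inj`.
-/

set_option autoImplicit false

noncomputable section

namespace Fermat.Agent.ES.AbsInj

open Module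

variable {K F k Fb : Type*} [Field K] [Field F] [Algebra K F] [Field k] [Field Fb] [Algebra k Fb]

/-- `f` is integral for the valuation ring `O` and reduces to `y`. -/
def Red (O : ValuationSubring F) (red : O →+* Fb) (f : F) (y : Fb) : Prop :=
  ∃ h : f ∈ O, red ⟨f, h⟩ = y

/-- `{f : (x^a f)^p w ∈ B1, (x^-b f)^p w ∈ B2}` : "`L(-div(w)/p + a (x)_0 + b (x)_∞)`". -/
def LwSet (B1 B2 : Subalgebra K F) (x w : F) (p a b : ℕ) : Set F :=
  {f | (x ^ a * f) ^ p * w ∈ B1 ∧ (x⁻¹ ^ b * f) ^ p * w ∈ B2}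

/-- `{y : x^a y ∈ B1, x^-b y ∈ B2}` : "`L(a (x)_0 + b (x)_∞)`". -/
def Lt (B1 B2 : Subalgebra K F) (x : F) (a b : ℕ) : Submodule K F :=
  (Subalgebra.toSubmodule B1).comap (LinearMap.mulLeft K (x ^ a)) ⊓
    (Subalgebra.toSubmodule B2).comap (LinearMap.mulLeft K (x⁻¹ ^ b))

theorem mem_Lt {B1 B2 : Subalgebra K F} {x : F} {a b : ℕ} {y : F} :
    y ∈ Lt B1 B2 x a b ↔ x ^ a * y ∈ B1 ∧ x⁻¹ ^ b * y ∈ B2 := Iff.rfl

section RedAPI

variable {O : ValuationSubring F} {red : O →+* Fb}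

theorem Red.mem {f : F} {y : Fb} (h : Red O red f y) : f ∈ O := h.1

theorem Red.unique {f : F} {y z : Fb} (h1 : Red O red f y) (h2 : Red O red f z) : y = z := by
  obtain ⟨hf, rfl⟩ := h1
  obtain ⟨_, rfl⟩ := h2
  rfl

theorem Red.of_mem {f : F} (h : f ∈ O) : Red O red f (red ⟨f, h⟩) := ⟨h, rfl⟩

theorem Red.zero : Red O red 0 0 := ⟨O.zero_mem, map_zero red⟩

theorem Red.one : Red O red 1 1 := ⟨O.one_mem, map_one red⟩

theorem Red.add {f g : F} {y z : Fb} (h1 : Red O red f y) (h2 : Red O red g z) :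
    Red O red (f + g) (y + z) := by
  obtain ⟨hf, rfl⟩ := h1
  obtain ⟨hg, rfl⟩ := h2
  exact ⟨O.add_mem _ _ hf hg, map_add red ⟨f, hf⟩ ⟨g, hg⟩⟩

theorem Red.mul {f g : F} {y z : Fb} (h1 : Red O red f y) (h2 : Red O red g z) :
    Red O red (f * g) (y * z) := by
  obtain ⟨hf, rfl⟩ := h1
  obtain ⟨hg, rfl⟩ := h2
  exact ⟨O.mul_mem _ _ hf hg, map_mul red ⟨f, hf⟩ ⟨g, hg⟩⟩

theorem Red.neg {f : F} {y : Fb} (h1 : Red O red f y) : Red O red (-f) (-y) := by
  obtain ⟨hf, rfl⟩ := h1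
  exact ⟨O.neg_mem _ hf, map_neg red ⟨f, hf⟩⟩

theorem Red.sub {f g : F} {y z : Fb} (h1 : Red O red f y) (h2 : Red O red g z) :
    Red O red (f - g) (y - z) := by
  rw [sub_eq_add_neg, sub_eq_add_neg]
  exact h1.add h2.neg

theorem Red.pow {f : F} {y : Fb} (h1 : Red O red f y) (n : ℕ) : Red O red (f ^ n) (y ^ n) := by
  induction n with
  | zero => simpa using Red.one
  | succ n ih => rw [pow_succ, pow_succ]; exact ih.mul h1

theorem Red.sum {ι : Type*} (s : Finset ι) {f : ι → F} {y : ι → Fb}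
    (h : ∀ i ∈ s, Red O red (f i) (y i)) : Red O red (∑ i ∈ s, f i) (∑ i ∈ s, y i) := by
  classical
  induction s using Finset.induction_on with
  | empty => simpa using Red.zero
  | insert i s hi ih =>
    rw [Finset.sum_insert hi, Finset.sum_insert hi]
    exact (h i (Finset.mem_insert_self i s)).add
      (ih fun j hj => h j (Finset.mem_insert_of_mem hj))

theorem Red.inv (hker : ∀ (f : F) (hf : f ∈ O), f⁻¹ ∉ O → red ⟨f, hf⟩ = 0)
    {f : F} {y : Fb} (h1 : Red O red f y) (hy : y ≠ 0) : Red O red f⁻¹ y⁻¹ := by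
  obtain ⟨hf, rfl⟩ := h1
  have hinv : f⁻¹ ∈ O := by
    by_contra h
    exact hy (hker f hf h)
  refine ⟨hinv, ?_⟩
  have hf0 : f ≠ 0 := by
    rintro rfl
    exact hy (map_zero red)
  have : red ⟨f, hf⟩ * red ⟨f⁻¹, hinv⟩ = 1 := by
    rw [← map_mul, ← map_one red]
    congr 1
    exact Subtype.ext (mul_inv_cancel₀ hf0)
  exact eq_inv_of_mul_eq_one_right this

theorem Red.natCast (n : ℕ) : Red O red (n : F) (n : Fb) :=
  ⟨natCast_mem O n, map_natCast red n⟩

end RedAPI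

section RedS

variable {O : ValuationSubring F} {red : O →+* Fb}

/-- The reduction of a `K`-subspace. -/
def redS (hkK : ∀ κ : k, ∃ c : K, Red O red (algebraMap K F c) (algebraMap k Fb κ))
    (L : Submodule K F) : Submodule k Fb where
  carrier := {y | ∃ f ∈ L, Red O red f y}
  add_mem' := by
    rintro y z ⟨f, hf, hy⟩ ⟨g, hg, hz⟩
    exact ⟨f + g, L.add_mem hf hg, hy.add hz⟩
  zero_mem' := ⟨0, L.zero_mem, Red.zero⟩
  smul_mem' := by
    rintro κ y ⟨f, hf, hy⟩
    obtain ⟨c, hc⟩ := hkK κ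
    refine ⟨c • f, L.smul_mem c hf, ?_⟩
    rw [Algebra.smul_def, Algebra.smul_def]
    exact hc.mul hy

theorem mem_redS {hkK : ∀ κ : k, ∃ c : K, Red O red (algebraMap K F c) (algebraMap k Fb κ)}
    {L : Submodule K F} {y : Fb} : y ∈ redS hkK L ↔ ∃ f ∈ L, Red O red f y := Iff.rfl

theorem redS_mono {hkK : ∀ κ : k, ∃ c : K, Red O red (algebraMap K F c) (algebraMap k Fb κ)}
    {L L' : Submodule K F} (h : L ≤ L') : redS hkK L ≤ redS hkK L' := by
  rintro y ⟨f, hf, hy⟩
  exact ⟨f, h hf, hy⟩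

/-- Lifts of `k`-independent elements are `K`-independent. -/
theorem linearIndependent_of_red
    (hKk : ∀ (c : K) (y : Fb), Red O red (algebraMap K F c) y → ∃ κ : k, y = algebraMap k Fb κ)
    {ι : Type*} [Finite ι] {u : ι → F} {y : ι → Fb} (hu : ∀ i, Red O red (u i) (y i))
    (hy : LinearIndependent k y) : LinearIndependent K u := by
  classical
  have := Fintype.ofFinite ι
  rw [Fintype.linearIndependent_iff]
  intro c hc
  by_contra hne
  push Not at hne
  obtain ⟨j, hj⟩ := hne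
  obtain ⟨i0, -, hi0⟩ := Finset.exists_max_image Finset.univ
    (fun i => O.valuation (algebraMap K F (c i))) ⟨j, Finset.mem_univ j⟩
  have hci0 : c i0 ≠ 0 := by
    intro h0
    have h1 := hi0 j (Finset.mem_univ j)
    simp only [h0, map_zero, le_zero_iff, map_eq_zero] at h1
    exact hj h1
  have hmem : ∀ i, algebraMap K F (c i / c i0) ∈ O := by
    intro i
    rw [← ValuationSubring.valuation_le_one_iff, map_div₀, map_div₀]
    have h1 := hi0 i (Finset.mem_univ i)
    have h2 : O.valuation (algebraMap K F (c i0)) ≠ 0 := by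
      simpa using hci0
    exact div_le_one_of_le₀ h1 zero_le
  choose κ hκ using fun i => hKk (c i / c i0) _ (Red.of_mem (red := red) (hmem i))
  have hred : ∀ i, Red O red (algebraMap K F (c i / c i0)) (algebraMap k Fb (κ i)) := by
    intro i
    rw [← hκ i]
    exact Red.of_mem (hmem i)
  have hsum : ∑ i, algebraMap K F (c i / c i0) * u i = 0 := by
    have : ∑ i, algebraMap K F (c i / c i0) * u i
        = algebraMap K F (c i0)⁻¹ * ∑ i, c i • u i := by
      rw [Finset.mul_sum]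
      refine Finset.sum_congr rfl fun i _ => ?_
      rw [Algebra.smul_def, ← mul_assoc, ← map_mul]
      congr 2
      field_simp
    rw [this, hc, mul_zero]
  have hsum' : Red O red (∑ i, algebraMap K F (c i / c i0) * u i)
      (∑ i, algebraMap k Fb (κ i) * y i) :=
    Red.sum _ fun i _ => (hred i).mul (hu i)
  rw [hsum] at hsum'
  have h0 : ∑ i, κ i • y i = 0 := by
    simp only [Algebra.smul_def]
    exact hsum'.unique Red.zero
  have hκ0 := (Fintype.linearIndependent_iff.mp hy) κ h0 i0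
  have h1 : Red O red (algebraMap K F (c i0 / c i0)) 1 := by
    rw [div_self hci0, map_one]
    exact Red.one
  have := (hred i0).unique h1
  rw [hκ0, map_zero] at this
  exact zero_ne_one this

/-- If the reduction of `L` is contained in a finite dimensional space `M` then `L` is finite
dimensional of dimension at most `dim M`. -/
theorem finite_of_redS_le
    (hkK : ∀ κ : k, ∃ c : K, Red O red (algebraMap K F c) (algebraMap k Fb κ))
    (hR : ∀ (m : ℕ) (v : Fin m → F), LinearIndependent K v →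
      ∃ (u : Fin m → F) (y : Fin m → Fb), (∀ i, u i ∈ Submodule.span K (Set.range v)) ∧
        (∀ i, Red O red (u i) (y i)) ∧ LinearIndependent k y)
    (L : Submodule K F) (M : Submodule k Fb) [Module.Finite k M] (h : redS hkK L ≤ M) :
    Module.Finite K L ∧ finrank K L ≤ finrank k M := by
  have hrank : Module.rank K L ≤ (finrank k M : ℕ) := by
    refine rank_le fun s hs => ?_
    -- an independent family of size `s.card`
    let e := s.equivFin
    let v : Fin s.card → F := fun i => ((e.symm i : L) : F)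
    have hv : LinearIndependent K v := by
      have h1 : LinearIndependent K (fun i : Fin s.card => ((e.symm i : s) : L)) :=
        hs.comp _ e.symm.injective
      exact h1.map' L.subtype (Submodule.ker_subtype L)
    obtain ⟨u, y, hu, hy, hind⟩ := hR _ v hv
    have hspan : Submodule.span K (Set.range v) ≤ L := by
      rw [Submodule.span_le]
      rintro _ ⟨i, rfl⟩
      exact (e.symm i : L).2
    have hyM : ∀ i, y i ∈ M := fun i => h ⟨u i, hspan (hu i), hy i⟩
    let y' : Fin s.card → M := fun i => ⟨y i, hyM i⟩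
    have hind' : LinearIndependent k y' :=
      LinearIndependent.of_comp M.subtype (by simpa [Function.comp_def, y'] using hind)
    simpa using hind'.fintype_card_le_finrank
  have hfin : Module.Finite K L := by
    rw [← Module.rank_lt_aleph0_iff]
    exact lt_of_le_of_lt hrank (Cardinal.natCast_lt_aleph0)
  exact ⟨hfin, Module.finrank_le_of_rank_le hrank⟩

/-- The reduction of a finite dimensional space has the same dimension. -/
theorem finrank_redS
    (hKk : ∀ (c : K) (y : Fb), Red O red (algebraMap K F c) y → ∃ κ : k, y = algebraMap k Fb κ)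
    (hkK : ∀ κ : k, ∃ c : K, Red O red (algebraMap K F c) (algebraMap k Fb κ))
    (hR : ∀ (m : ℕ) (v : Fin m → F), LinearIndependent K v →
      ∃ (u : Fin m → F) (y : Fin m → Fb), (∀ i, u i ∈ Submodule.span K (Set.range v)) ∧
        (∀ i, Red O red (u i) (y i)) ∧ LinearIndependent k y)
    (L : Submodule K F) [Module.Finite K L] :
    Module.Finite k (redS hkK L) ∧ finrank k (redS hkK L) = finrank K L := by
  have hrank : Module.rank k (redS hkK L) ≤ (finrank K L : ℕ) := by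
    refine rank_le fun s hs => ?_
    have hex : ∀ i : s, ∃ f ∈ L, Red O red f ((i : redS hkK L) : Fb) := fun i => (i : redS hkK L).2
    choose f hfL hf using hex
    have hy : LinearIndependent k (fun i : s => ((i : redS hkK L) : Fb)) :=
      hs.map' (redS hkK L).subtype (Submodule.ker_subtype _)
    have hind : LinearIndependent K f := linearIndependent_of_red hKk hf hy
    let f' : s → L := fun i => ⟨f i, hfL i⟩
    have hind' : LinearIndependent K f' :=
      LinearIndependent.of_comp L.subtype (by simpa [Function.comp_def, f'] using hind)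
    simpa using hind'.fintype_card_le_finrank
  have hfin : Module.Finite k (redS hkK L) := by
    rw [← Module.rank_lt_aleph0_iff]
    exact lt_of_le_of_lt hrank (Cardinal.natCast_lt_aleph0)
  refine ⟨hfin, le_antisymm (Module.finrank_le_of_rank_le hrank) ?_⟩
  exact (finite_of_redS_le hkK hR L (redS hkK L) le_rfl).2

end RedS

section Lw

/-- helper24's trick: `{f : f ^ p * w ∈ B}` is closed under addition if `B` is closed under
`p`-th roots. -/
theorem root_add {B : Subalgebra K F} {p : ℕ} (hroot : ∀ y : F, y ^ p ∈ B → y ∈ B) {w f g : F}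
    (hf : f ^ p * w ∈ B) (hg : g ^ p * w ∈ B) : (f + g) ^ p * w ∈ B := by
  rw [add_pow, Finset.sum_mul]
  refine Subalgebra.sum_mem _ fun m hm => ?_
  have hm' : m ≤ p := Nat.lt_succ_iff.mp (Finset.mem_range.mp hm)
  have h1 : f ^ m * g ^ (p - m) * w ∈ B := by
    apply hroot
    have : (f ^ m * g ^ (p - m) * w) ^ p = (f ^ p * w) ^ m * (g ^ p * w) ^ (p - m) := by
      obtain ⟨r, rfl⟩ := Nat.exists_eq_add_of_le hm'
      simp only [Nat.add_sub_cancel_left]
      ring
    rw [this]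
    exact B.mul_mem (B.pow_mem hf _) (B.pow_mem hg _)
  have h2 : f ^ m * g ^ (p - m) * (p.choose m : F) * w
      = (p.choose m : F) * (f ^ m * g ^ (p - m) * w) := by ring
  rw [h2]
  exact B.mul_mem (natCast_mem B _) h1

/-- `LwSet` as a subspace. -/
def Lw {p : ℕ} (hp0 : p ≠ 0) (B1 B2 : Subalgebra K F)
    (hroot1 : ∀ y : F, y ^ p ∈ B1 → y ∈ B1) (hroot2 : ∀ y : F, y ^ p ∈ B2 → y ∈ B2)
    (x w : F) (a b : ℕ) : Submodule K F where
  carrier := LwSet B1 B2 x w p a b
  add_mem' := by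
    intro f g hf hg
    refine ⟨?_, ?_⟩
    · rw [mul_add]
      exact root_add hroot1 hf.1 hg.1
    · rw [mul_add]
      exact root_add hroot2 hf.2 hg.2
  zero_mem' := by
    refine ⟨?_, ?_⟩
    · rw [mul_zero, zero_pow hp0, zero_mul]
      exact B1.zero_mem
    · rw [mul_zero, zero_pow hp0, zero_mul]
      exact B2.zero_mem
  smul_mem' := by
    intro c f hf
    refine ⟨?_, ?_⟩
    · have : (x ^ a * c • f) ^ p * w = algebraMap K F (c ^ p) * ((x ^ a * f) ^ p * w) := by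
        rw [Algebra.smul_def, map_pow]
        ring
      rw [this]
      exact B1.mul_mem (B1.algebraMap_mem _) hf.1
    · have : (x⁻¹ ^ b * c • f) ^ p * w = algebraMap K F (c ^ p) * ((x⁻¹ ^ b * f) ^ p * w) := by
        rw [Algebra.smul_def, map_pow]
        ring
      rw [this]
      exact B2.mul_mem (B2.algebraMap_mem _) hf.2

theorem mem_Lw {p : ℕ} {hp0 : p ≠ 0} {B1 B2 : Subalgebra K F}
    {hroot1 : ∀ y : F, y ^ p ∈ B1 → y ∈ B1} {hroot2 : ∀ y : F, y ^ p ∈ B2 → y ∈ B2}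
    {x w : F} {a b : ℕ} {f : F} :
    f ∈ Lw hp0 B1 B2 hroot1 hroot2 x w a b ↔
      (x ^ a * f) ^ p * w ∈ B1 ∧ (x⁻¹ ^ b * f) ^ p * w ∈ B2 := Iff.rfl

end Lw

section Scale

variable {O : ValuationSubring F} {red : O →+* Fb}

theorem Red.ne_zero_of_inv_mem {f : F} {y : Fb} (h : Red O red f y) (hf0 : f ≠ 0)
    (hinv : f⁻¹ ∈ O) : y ≠ 0 := by
  intro hy
  have h1 := h.mul (Red.of_mem (red := red) hinv)
  rw [mul_inv_cancel₀ hf0, hy, zero_mul] at h1
  exact one_ne_zero (Red.one.unique h1)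

theorem exists_scale_aux
    (hV : ∀ f : F, f ≠ 0 → ∃ c : K, c ≠ 0 ∧ algebraMap K F c * f ∈ O ∧
      (algebraMap K F c * f)⁻¹ ∈ O)
    {α β : F} (hα : α ≠ 0) (h : O.valuation β ≤ O.valuation α) :
    ∃ δ : K, δ ≠ 0 ∧ algebraMap K F δ * α ∈ O ∧ algebraMap K F δ * β ∈ O ∧
      (algebraMap K F δ * α)⁻¹ ∈ O := by
  obtain ⟨c, hc, h1, h2⟩ := hV α hα
  refine ⟨c, hc, h1, ?_, h2⟩
  rw [← ValuationSubring.valuation_le_one_iff] at h1 ⊢
  rw [map_mul] at h1 ⊢
  exact le_trans (mul_le_mul_right h _) h1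

end Scale

section Main

/-- `s⁻¹ · Lt a b`. -/
def sLt (Bt1 Bt2 : Subalgebra k Fb) (xb s : Fb) (a b : ℕ) : Submodule k Fb :=
  (Lt Bt1 Bt2 xb a b).comap (LinearMap.mulLeft k s)

theorem mem_sLt {Bt1 Bt2 : Subalgebra k Fb} {xb s : Fb} {a b : ℕ} {y : Fb} :
    y ∈ sLt Bt1 Bt2 xb s a b ↔ s * y ∈ Lt Bt1 Bt2 xb a b := Iff.rfl

/-- multiplication by `s` : `sLt ≃ Lt`. -/
def sLtEquiv (Bt1 Bt2 : Subalgebra k Fb) (xb : Fb) {s : Fb} (hs : s ≠ 0) (a b : ℕ) :
    sLt Bt1 Bt2 xb s a b ≃ₗ[k] Lt Bt1 Bt2 xb a b where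
  toFun y := ⟨s * y, y.2⟩
  map_add' y z := Subtype.ext (mul_add _ _ _)
  map_smul' c y := Subtype.ext (mul_smul_comm _ _ _)
  invFun y := ⟨s⁻¹ * y, by
    rw [mem_sLt, mul_inv_cancel_left₀ hs]
    exact y.2⟩
  left_inv y := Subtype.ext (inv_mul_cancel_left₀ hs _)
  right_inv y := Subtype.ext (mul_inv_cancel_left₀ hs _)

theorem card_le_finrank_of_mem {L : Submodule K F} [Module.Finite K L] {m : ℕ} {v : Fin m → F}
    (hv : LinearIndependent K v) (hL : ∀ i, v i ∈ L) : m ≤ finrank K L := by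
  let v' : Fin m → L := fun i => ⟨v i, hL i⟩
  have hind' : LinearIndependent K v' :=
    LinearIndependent.of_comp L.subtype (by simpa [Function.comp_def, v'] using hv)
  simpa using hind'.fintype_card_le_finrank

theorem abstract_inj
    (O : ValuationSubring F) (red : O →+* Fb)
    -- the kernel of `red` is the maximal ideal
    (hker : ∀ (f : F) (hf : f ∈ O), f⁻¹ ∉ O → red ⟨f, hf⟩ = 0)
    -- constants reduce to constants, surjectively
    (hKk : ∀ (c : K) (y : Fb), Red O red (algebraMap K F c) y → ∃ κ : k, y = algebraMap k Fb κ)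
    (hkK : ∀ κ : k, ∃ c : K, Red O red (algebraMap K F c) (algebraMap k Fb κ))
    -- (V) the value group of `F` is the value group of `K`
    (hV : ∀ f : F, f ≠ 0 → ∃ c : K, c ≠ 0 ∧ algebraMap K F c * f ∈ O ∧
      (algebraMap K F c * f)⁻¹ ∈ O)
    -- (R) finite dimensional subspaces have "orthonormal" bases
    (hR : ∀ (m : ℕ) (v : Fin m → F), LinearIndependent K v →
      ∃ (u : Fin m → F) (y : Fin m → Fb), (∀ i, u i ∈ Submodule.span K (Set.range v)) ∧
        (∀ i, Red O red (u i) (y i)) ∧ LinearIndependent k y)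
    (p : ℕ) (hp : (p : k) ≠ 0)
    -- the two charts on the generic fibre
    (B1 B2 : Subalgebra K F) (x : F) (hx1 : x ∈ B1) (hx2 : x⁻¹ ∈ B2)
    (hroot1 : ∀ y : F, y ^ p ∈ B1 → y ∈ B1) (hroot2 : ∀ y : F, y ^ p ∈ B2 → y ∈ B2)
    -- the two charts on the special fibre
    (Bt1 Bt2 : Subalgebra k Fb) (xb : Fb) (hxb : Red O red x xb) (hxb0 : xb ≠ 0)
    (hxb1 : xb ∈ Bt1) (hxb2 : xb⁻¹ ∈ Bt2)
    (hrootb1 : ∀ y : Fb, y ^ p ∈ Bt1 → y ∈ Bt1) (hrootb2 : ∀ y : Fb, y ^ p ∈ Bt2 → y ∈ Bt2)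
    -- (I) integral functions reduce to integral functions
    (hI1 : ∀ (f : F) (y : Fb), f ∈ B1 → Red O red f y → y ∈ Bt1)
    (hI2 : ∀ (f : F) (y : Fb), f ∈ B2 → Red O red f y → y ∈ Bt2)
    -- (C) constants of the special fibre
    (hC : ∀ y : Fb, y ∈ Bt1 → y ∈ Bt2 → ∃ κ : k, y = algebraMap k Fb κ)
    (hfin : ∀ a b : ℕ, Module.Finite k (Lt Bt1 Bt2 xb a b))
    -- the function
    (w : F) (s : Fb) (hs : s ≠ 0) (hws : Red O red w (s ^ p))
    -- (DIM)
    (a b : ℕ)
    (hdim1 : ∃ v : Fin (finrank k (Lt Bt1 Bt2 xb 0 b)) → F, LinearIndependent K v ∧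
      ∀ i, v i ∈ LwSet B1 B2 x w p 0 b)
    (hdim2 : ∃ v : Fin (finrank k (Lt Bt1 Bt2 xb a 0)) → F, LinearIndependent K v ∧
      ∀ i, v i ∈ LwSet B1 B2 x w p a 0) :
    ∃ f : F, f ≠ 0 ∧ f ^ p * w ∈ B1 ∧ f ^ p * w ∈ B2 := by
  classical
  have hp0 : p ≠ 0 := by
    rintro rfl
    exact hp Nat.cast_zero
  have hxinv : Red O red x⁻¹ xb⁻¹ := hxb.inv hker hxb0
  by_contra hcon
  -- notation
  set L : ℕ → ℕ → Submodule K F := fun a b => Lw hp0 B1 B2 hroot1 hroot2 x w a b with hLdef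
  set M : ℕ → ℕ → Submodule k Fb := fun a b => sLt Bt1 Bt2 xb s a b with hMdef
  have hMfin : ∀ a b, Module.Finite k (M a b) := fun a b =>
    haveI := hfin a b
    Module.Finite.equiv (sLtEquiv Bt1 Bt2 xb hs a b).symm
  have hMrank : ∀ a b, finrank k (M a b) = finrank k (Lt Bt1 Bt2 xb a b) := fun a b =>
    (sLtEquiv Bt1 Bt2 xb hs a b).finrank_eq
  -- Step 1
  have hredle : ∀ a b, redS hkK (L a b) ≤ M a b := by
    rintro a b y ⟨f, hf, hy⟩
    rw [hLdef] at hf
    obtain ⟨hf1, hf2⟩ := mem_Lw.mp hf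
    refine mem_sLt.mpr (mem_Lt.mpr ⟨?_, ?_⟩)
    · apply hrootb1
      have h1 : Red O red ((x ^ a * f) ^ p * w) ((xb ^ a * y) ^ p * s ^ p) :=
        (((hxb.pow a).mul hy).pow p).mul hws
      have h2 := hI1 _ _ hf1 h1
      have h3 : (xb ^ a * (s * y)) ^ p = (xb ^ a * y) ^ p * s ^ p := by ring
      rw [h3]
      exact h2
    · apply hrootb2
      have h1 : Red O red ((x⁻¹ ^ b * f) ^ p * w) ((xb⁻¹ ^ b * y) ^ p * s ^ p) :=
        (((hxinv.pow b).mul hy).pow p).mul hws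
      have h2 := hI2 _ _ hf2 h1
      have h3 : (xb⁻¹ ^ b * (s * y)) ^ p = (xb⁻¹ ^ b * y) ^ p * s ^ p := by ring
      rw [h3]
      exact h2
  have hLfin : ∀ a b, Module.Finite K (L a b) := fun a b =>
    haveI := hMfin a b
    (finite_of_redS_le hkK hR (L a b) (M a b) (hredle a b)).1
  have hLle : ∀ a b, finrank K (L a b) ≤ finrank k (M a b) := fun a b =>
    haveI := hMfin a b
    (finite_of_redS_le hkK hR (L a b) (M a b) (hredle a b)).2
  have hredfin : ∀ S : Submodule K F, Module.Finite K S → Module.Finite k (redS hkK S) :=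
    fun S hS => (finrank_redS hKk hkK hR S).1
  have hredrank : ∀ S : Submodule K F, Module.Finite K S →
      finrank k (redS hkK S) = finrank K S :=
    fun S hS => (finrank_redS hKk hkK hR S).2
  -- Step 2
  have hd1 : finrank k (M 0 b) ≤ finrank K (L 0 b) := by
    obtain ⟨v, hv, hvL⟩ := hdim1
    haveI := hLfin 0 b
    rw [hMrank]
    exact card_le_finrank_of_mem (L := L 0 b) hv hvL
  have hd2 : finrank k (M a 0) ≤ finrank K (L a 0) := by
    obtain ⟨v, hv, hvL⟩ := hdim2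
    haveI := hLfin a 0
    rw [hMrank]
    exact card_le_finrank_of_mem (L := L a 0) hv hvL
  have heq1 : redS hkK (L 0 b) = M 0 b := by
    haveI := hMfin 0 b
    refine Submodule.eq_of_le_of_finrank_le (hredle 0 b) ?_
    rw [hredrank _ (hLfin 0 b)]
    exact hd1
  have heq2 : redS hkK (L a 0) = M a 0 := by
    haveI := hMfin a 0
    refine Submodule.eq_of_le_of_finrank_le (hredle a 0) ?_
    rw [hredrank _ (hLfin a 0)]
    exact hd2
  -- Step 3 : the dimension count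
  have hinf : L 0 b ⊓ L a 0 = ⊥ := by
    rw [eq_bot_iff]
    rintro f ⟨hf1, hf2⟩
    rw [Submodule.mem_bot]
    by_contra hf0
    apply hcon
    have h1 := (mem_Lw.mp hf1).1
    have h2 := (mem_Lw.mp hf2).2
    rw [pow_zero, one_mul] at h1 h2
    exact ⟨f, hf0, h1, h2⟩
  set W : Submodule K F := L 0 b ⊔ L a 0 with hW
  have hWfin : Module.Finite K W := by
    haveI := hLfin 0 b
    haveI := hLfin a 0
    exact Submodule.finite_sup _ _
  have hWrank : finrank K W = finrank K (L 0 b) + finrank K (L a 0) := by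
    haveI := hLfin 0 b
    haveI := hLfin a 0
    have h := Submodule.finrank_sup_add_finrank_inf_eq (L 0 b) (L a 0)
    rw [hinf, finrank_bot, add_zero] at h
    exact h
  have hone1 : (1 : Fb) ∈ Lt Bt1 Bt2 xb 0 b := by
    refine mem_Lt.mpr ⟨?_, ?_⟩
    · rw [mul_one]; exact Bt1.pow_mem hxb1 _
    · rw [mul_one]; exact Bt2.pow_mem hxb2 _
  have hone2 : (1 : Fb) ∈ Lt Bt1 Bt2 xb a 0 := by
    refine mem_Lt.mpr ⟨?_, ?_⟩
    · rw [mul_one]; exact Bt1.pow_mem hxb1 _
    · rw [mul_one]; exact Bt2.pow_mem hxb2 _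
  have hVrank : finrank k (M 0 b ⊔ M a 0 : Submodule k Fb) < finrank K W := by
    haveI := hMfin 0 b
    haveI := hMfin a 0
    have h := Submodule.finrank_sup_add_finrank_inf_eq (M 0 b) (M a 0)
    have h1 : 1 ≤ finrank k (M 0 b ⊓ M a 0 : Submodule k Fb) := by
      rw [Submodule.one_le_finrank_iff]
      intro hbot
      have hmem : s⁻¹ ∈ (M 0 b ⊓ M a 0 : Submodule k Fb) := by
        refine ⟨mem_sLt.mpr ?_, mem_sLt.mpr ?_⟩
        · rw [mul_inv_cancel₀ hs]; exact hone1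
        · rw [mul_inv_cancel₀ hs]; exact hone2
      rw [hbot, Submodule.mem_bot] at hmem
      exact inv_ne_zero hs hmem
    rw [hWrank]
    omega
  obtain ⟨zb, hzbW, hzbV⟩ : ∃ zb ∈ redS hkK W, zb ∉ (M 0 b ⊔ M a 0 : Submodule k Fb) := by
    by_contra hno
    push Not at hno
    haveI := hMfin 0 b
    haveI := hMfin a 0
    have hle : redS hkK W ≤ (M 0 b ⊔ M a 0 : Submodule k Fb) := fun y hy => hno y hy
    have h1 := Submodule.finrank_mono hle
    rw [hredrank _ hWfin] at h1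
    omega
  obtain ⟨z, hzW, hz⟩ := hzbW
  have hzb0 : zb ≠ 0 := by
    rintro rfl
    exact hzbV (Submodule.zero_mem _)
  have hz0 : z ≠ 0 := by
    rintro rfl
    exact hzb0 (hz.unique Red.zero)
  obtain ⟨α', hα', β'', hβ'', hsum⟩ := Submodule.mem_sup.mp hzW
  set β' : F := -β'' with hβdef
  have hβ' : β' ∈ L a 0 := (L a 0).neg_mem hβ''
  have hzαβ : z = α' - β' := by rw [hβdef, sub_neg_eq_add, hsum]
  -- scaling
  obtain ⟨δ, hδ0, hδα, hδβ, hunit⟩ : ∃ δ : K, δ ≠ 0 ∧ algebraMap K F δ * α' ∈ O ∧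
      algebraMap K F δ * β' ∈ O ∧
      ((α' ≠ 0 ∧ (algebraMap K F δ * α')⁻¹ ∈ O) ∨ (β' ≠ 0 ∧ (algebraMap K F δ * β')⁻¹ ∈ O)) := by
    rcases le_total (O.valuation β') (O.valuation α') with h | h
    · have hα0 : α' ≠ 0 := by
        rintro rfl
        rw [map_zero, le_zero_iff, map_eq_zero] at h
        rw [h, sub_zero] at hzαβ
        exact hz0 hzαβ
      obtain ⟨δ, h1, h2, h3, h4⟩ := exists_scale_aux hV hα0 h
      exact ⟨δ, h1, h2, h3, Or.inl ⟨hα0, h4⟩⟩
    · have hβ0 : β' ≠ 0 := by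
        intro hb
        rw [hb, map_zero, le_zero_iff, map_eq_zero] at h
        rw [h, hb, sub_zero] at hzαβ
        exact hz0 hzαβ
      obtain ⟨δ, h1, h2, h3, h4⟩ := exists_scale_aux hV hβ0 h
      exact ⟨δ, h1, h3, h2, Or.inr ⟨hβ0, h4⟩⟩
  have hδF : algebraMap K F δ ≠ 0 := by simpa using hδ0
  set α : F := algebraMap K F δ * α' with hαdef
  set β : F := algebraMap K F δ * β' with hβdef'
  have hαL : α ∈ L 0 b := by
    rw [hαdef, ← Algebra.smul_def]
    exact (L 0 b).smul_mem δ hα'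
  have hβL : β ∈ L a 0 := by
    rw [hβdef', ← Algebra.smul_def]
    exact (L a 0).smul_mem δ hβ'
  obtain ⟨ya, hya⟩ : ∃ ya, Red O red α ya := ⟨_, Red.of_mem hδα⟩
  obtain ⟨yb, hyb⟩ : ∃ yb, Red O red β yb := ⟨_, Red.of_mem hδβ⟩
  have hyaM : ya ∈ M 0 b := by
    rw [← heq1]; exact ⟨α, hαL, hya⟩
  have hybM : yb ∈ M a 0 := by
    rw [← heq2]; exact ⟨β, hβL, hyb⟩
  have hαβ : α - β = algebraMap K F δ * z := by
    rw [hαdef, hβdef', hzαβ]; ring
  by_cases hδinv : (algebraMap K F δ)⁻¹ ∈ O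
  · -- then `z` reduces into `M 0 b + M a 0`
    obtain ⟨yd, hyd⟩ : ∃ yd, Red O red (algebraMap K F δ)⁻¹ yd := ⟨_, Red.of_mem hδinv⟩
    obtain ⟨κ, hκ⟩ : ∃ κ : k, yd = algebraMap k Fb κ := by
      refine hKk δ⁻¹ yd ?_
      rw [map_inv₀]
      exact hyd
    have h1 : Red O red z (yd * (ya - yb)) := by
      have : z = (algebraMap K F δ)⁻¹ * (α - β) := by
        rw [hαβ, inv_mul_cancel_left₀ hδF]
      rw [this]
      exact hyd.mul (hya.sub hyb)
    have h2 : zb = κ • (ya - yb) := by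
      rw [hz.unique h1, hκ, Algebra.smul_def]
    apply hzbV
    rw [h2]
    exact Submodule.smul_mem _ _ (Submodule.sub_mem _ (Submodule.mem_sup_left hyaM)
      (Submodule.mem_sup_right hybM))
  -- now `δ` is in the maximal ideal
  have hδO : algebraMap K F δ ∈ O := (O.mem_or_inv_mem _).resolve_right hδinv
  have hδred : Red O red (algebraMap K F δ) 0 := ⟨hδO, hker _ hδO hδinv⟩
  have hyab : ya = yb := by
    have h1 : Red O red (α - β) (0 * zb) := by
      rw [hαβ]; exact hδred.mul hz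
    have h2 := (hya.sub hyb).unique h1
    rw [zero_mul] at h2
    exact sub_eq_zero.mp h2
  subst hyab
  have hya0 : ya ≠ 0 := by
    rcases hunit with ⟨h0, h1⟩ | ⟨h0, h1⟩
    · exact hya.ne_zero_of_inv_mem (mul_ne_zero hδF h0) h1
    · exact hyb.ne_zero_of_inv_mem (mul_ne_zero hδF h0) h1
  obtain ⟨κ, hκ⟩ : ∃ κ : k, s * ya = algebraMap k Fb κ := by
    have h1 := (mem_Lt.mp (mem_sLt.mp hyaM)).1
    have h2 := (mem_Lt.mp (mem_sLt.mp hybM)).2
    rw [pow_zero, one_mul] at h1 h2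
    exact hC _ h1 h2
  have hκ0 : κ ≠ 0 := by
    rintro rfl
    rw [map_zero] at hκ
    exact (mul_ne_zero hs hya0) hκ
  -- Step (3)
  set P : Submodule K F := Lt B1 B2 x 0 (p * b) with hP
  set Q : Submodule K F := Lt B1 B2 x (p * a) 0 with hQ
  have hα0 : α ^ p * w ∈ P := by
    obtain ⟨h1, h2⟩ := mem_Lw.mp hαL
    refine mem_Lt.mpr ⟨?_, ?_⟩
    · rw [pow_zero, one_mul] at h1 ⊢
      exact h1
    · have : x⁻¹ ^ (p * b) * (α ^ p * w) = (x⁻¹ ^ b * α) ^ p * w := by
        rw [mul_comm p b, pow_mul]; ring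
      rw [this]
      exact h2
  have hβ0 : β ^ p * w ∈ Q := by
    obtain ⟨h1, h2⟩ := mem_Lw.mp hβL
    refine mem_Lt.mpr ⟨?_, ?_⟩
    · have : x ^ (p * a) * (β ^ p * w) = (x ^ a * β) ^ p * w := by
        rw [mul_comm p a, pow_mul]; ring
      rw [this]
      exact h1
    · rw [pow_zero, one_mul] at h2 ⊢
      exact h2
  set G : F := ∑ i ∈ Finset.range p, α ^ i * β ^ (p - 1 - i) with hG
  have hGred : Red O red G ((p : Fb) * ya ^ (p - 1)) := by
    rw [← geom_sum₂_self]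
    exact Red.sum _ fun i _ => (hya.pow i).mul (hyb.pow _)
  set z' : F := z * G * w with hz'
  have hz'red : Red O red z' (zb * ((p : Fb) * ya ^ (p - 1)) * s ^ p) := (hz.mul hGred).mul hws
  have hδz' : algebraMap K F δ * z' = α ^ p * w - β ^ p * w := by
    have h1 : G * (α - β) = α ^ p - β ^ p := geom_sum₂_mul α β p
    rw [hz', ← sub_mul, ← h1, hαβ]
    ring
  have hz'W0 : z' ∈ P ⊔ Q := by
    have h1 : δ • z' ∈ P ⊔ Q := by
      rw [Algebra.smul_def, hδz']
      exact Submodule.sub_mem _ (Submodule.mem_sup_left hα0) (Submodule.mem_sup_right hβ0)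
    have h2 := Submodule.smul_mem _ δ⁻¹ h1
    rwa [inv_smul_smul₀ hδ0] at h2
  -- Step (4)
  have hredP : redS hkK P ≤ Lt Bt1 Bt2 xb 0 (p * b) := by
    rintro y ⟨f, hf, hy⟩
    obtain ⟨h1, h2⟩ := mem_Lt.mp hf
    exact mem_Lt.mpr ⟨hI1 _ _ h1 ((hxb.pow _).mul hy), hI2 _ _ h2 ((hxinv.pow _).mul hy)⟩
  have hredQ : redS hkK Q ≤ Lt Bt1 Bt2 xb (p * a) 0 := by
    rintro y ⟨f, hf, hy⟩
    obtain ⟨h1, h2⟩ := mem_Lt.mp hf
    exact mem_Lt.mpr ⟨hI1 _ _ h1 ((hxb.pow _).mul hy), hI2 _ _ h2 ((hxinv.pow _).mul hy)⟩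
  have hPfin : Module.Finite K P :=
    haveI := hfin 0 (p * b)
    (finite_of_redS_le hkK hR P _ hredP).1
  have hQfin : Module.Finite K Q :=
    haveI := hfin (p * a) 0
    (finite_of_redS_le hkK hR Q _ hredQ).1
  have hPQfin : Module.Finite K (P ⊔ Q : Submodule K F) := Submodule.finite_sup _ _
  have hsup : redS hkK (P ⊔ Q) = redS hkK P ⊔ redS hkK Q := by
    haveI := hredfin P hPfin
    haveI := hredfin Q hQfin
    haveI := hredfin _ hPQfin
    symm
    refine Submodule.eq_of_le_of_finrank_le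
      (sup_le (redS_mono le_sup_left) (redS_mono le_sup_right)) ?_
    have h1 := Submodule.finrank_sup_add_finrank_inf_eq P Q
    have h2 := Submodule.finrank_sup_add_finrank_inf_eq (redS hkK P) (redS hkK Q)
    rw [hredrank _ hPfin, hredrank _ hQfin] at h2
    rw [hredrank _ hPQfin]
    have h3 : 1 ≤ finrank K (P ⊓ Q : Submodule K F) := by
      rw [Submodule.one_le_finrank_iff]
      intro hbot
      have hmem : (1 : F) ∈ (P ⊓ Q : Submodule K F) := by
        refine ⟨mem_Lt.mpr ⟨?_, ?_⟩, mem_Lt.mpr ⟨?_, ?_⟩⟩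
        · rw [mul_one]; exact B1.pow_mem hx1 _
        · rw [mul_one]; exact B2.pow_mem hx2 _
        · rw [mul_one]; exact B1.pow_mem hx1 _
        · rw [mul_one]; exact B2.pow_mem hx2 _
      rw [hbot, Submodule.mem_bot] at hmem
      exact one_ne_zero hmem
    have h4 : finrank k (redS hkK P ⊓ redS hkK Q : Submodule k Fb) ≤ 1 := by
      have hle : (redS hkK P ⊓ redS hkK Q : Submodule k Fb) ≤ Submodule.span k {(1 : Fb)} := by
        rintro y ⟨hy1, hy2⟩
        have h5 := (mem_Lt.mp (hredP hy1)).1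
        have h6 := (mem_Lt.mp (hredQ hy2)).2
        rw [pow_zero, one_mul] at h5 h6
        obtain ⟨c, rfl⟩ := hC y h5 h6
        rw [Submodule.mem_span_singleton]
        exact ⟨c, by rw [Algebra.smul_def, mul_one]⟩
      calc finrank k (redS hkK P ⊓ redS hkK Q : Submodule k Fb)
          ≤ finrank k (Submodule.span k {(1 : Fb)}) := Submodule.finrank_mono hle
        _ = 1 := finrank_span_singleton one_ne_zero
    omega
  obtain ⟨u, hu, v, hv, huv⟩ : ∃ u ∈ Lt Bt1 Bt2 xb 0 (p * b), ∃ v ∈ Lt Bt1 Bt2 xb (p * a) 0,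
      u + v = zb * ((p : Fb) * ya ^ (p - 1)) * s ^ p := by
    have h1 : zb * ((p : Fb) * ya ^ (p - 1)) * s ^ p ∈ redS hkK (P ⊔ Q) := ⟨z', hz'W0, hz'red⟩
    rw [hsup] at h1
    obtain ⟨u, hu, v, hv, huv⟩ := Submodule.mem_sup.mp h1
    exact ⟨u, hredP hu, v, hredQ hv, huv⟩
  -- Step (5)
  have hLW : W ≤ L a b := by
    refine sup_le ?_ ?_
    · intro f hf
      obtain ⟨h1, h2⟩ := mem_Lw.mp hf
      refine mem_Lw.mpr ⟨?_, h2⟩
      have : (x ^ a * f) ^ p * w = (x ^ a) ^ p * ((x ^ 0 * f) ^ p * w) := by ring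
      rw [this]
      exact B1.mul_mem (B1.pow_mem (B1.pow_mem hx1 _) _) h1
    · intro f hf
      obtain ⟨h1, h2⟩ := mem_Lw.mp hf
      refine mem_Lw.mpr ⟨h1, ?_⟩
      have : (x⁻¹ ^ b * f) ^ p * w = (x⁻¹ ^ b) ^ p * ((x⁻¹ ^ 0 * f) ^ p * w) := by ring
      rw [this]
      exact B2.mul_mem (B2.pow_mem (B2.pow_mem hx2 _) _) h2
  have ht : s * zb ∈ Lt Bt1 Bt2 xb a b := mem_sLt.mp (hredle a b ⟨z, hLW hzW, hz⟩)
  set c' : k := (p : k) * κ ^ (p - 1) with hc'
  have hc'0 : c' ≠ 0 := mul_ne_zero hp (pow_ne_zero _ hκ0)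
  have hkey : u + v = c' • (s * zb) := by
    rw [huv, Algebra.smul_def, hc', map_mul, map_pow, map_natCast, ← hκ]
    obtain ⟨r, rfl⟩ := Nat.exists_eq_succ_of_ne_zero hp0
    simp only [Nat.succ_eq_add_one, Nat.add_sub_cancel]
    ring
  set u' : Fb := c'⁻¹ • u with hu'
  set v' : Fb := c'⁻¹ • v with hv'
  have hu'L : u' ∈ Lt Bt1 Bt2 xb 0 (p * b) := Submodule.smul_mem _ _ hu
  have hv'L : v' ∈ Lt Bt1 Bt2 xb (p * a) 0 := Submodule.smul_mem _ _ hv
  have hkey' : u' + v' = s * zb := by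
    rw [hu', hv', ← smul_add, hkey, inv_smul_smul₀ hc'0]
  have hu'1 : u' ∈ Lt Bt1 Bt2 xb 0 b := by
    refine mem_Lt.mpr ⟨(mem_Lt.mp hu'L).1, ?_⟩
    have h1 : xb⁻¹ ^ b * u' = xb⁻¹ ^ b * (s * zb) - xb⁻¹ ^ b * (xb⁻¹ ^ 0 * v') := by
      rw [← hkey']; ring
    rw [h1]
    exact Bt2.sub_mem (mem_Lt.mp ht).2 (Bt2.mul_mem (Bt2.pow_mem hxb2 _) (mem_Lt.mp hv'L).2)
  have hv'1 : v' ∈ Lt Bt1 Bt2 xb a 0 := by
    refine mem_Lt.mpr ⟨?_, (mem_Lt.mp hv'L).2⟩
    have h1 : xb ^ a * v' = xb ^ a * (s * zb) - xb ^ a * (xb ^ 0 * u') := by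
      rw [← hkey']; ring
    rw [h1]
    exact Bt1.sub_mem (mem_Lt.mp ht).1 (Bt1.mul_mem (Bt1.pow_mem hxb1 _) (mem_Lt.mp hu'L).1)
  apply hzbV
  have hzb : zb = s⁻¹ * u' + s⁻¹ * v' := by
    rw [← mul_add, hkey', inv_mul_cancel_left₀ hs]
  rw [hzb]
  refine Submodule.add_mem _ (Submodule.mem_sup_left (mem_sLt.mpr ?_))
    (Submodule.mem_sup_right (mem_sLt.mpr ?_))
  · rw [mul_inv_cancel_left₀ hs]; exact hu'1
  · rw [mul_inv_cancel_left₀ hs]; exact hv'1

end Main

end Fermat.Agent.ES.AbsInj
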