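import Mathlib

/-!
# ES, package BN : Brauer--Nesbitt for two-dimensional representations

Two semisimple two-dimensional representations of a group over an algebraically closed field with
the same characteristic polynomials are isomorphic.
-/

set_option autoImplicit false
set_option linter.unusedSectionVars false

open Polynomial Module

namespace Fermat.Agent.ES.BN

section Charpoly

variable {κ : Type*} [Field κ] {V W : Type*} [AddCommGroup V] [Module κ V]
  [AddCommGroup W] [Module κ W] [FiniteDimensional κ V] [FiniteDimensional κ W]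

theorem trace_eq_neg_nextCoeff (f : End κ V) :
    LinearMap.trace κ V f = -f.charpoly.nextCoeff := by
  classical
  let b := Module.finBasis κ V
  rw [LinearMap.trace_eq_matrix_trace κ b, Matrix.trace_eq_neg_charpoly_nextCoeff,
    LinearMap.charpoly_toMatrix]

theorem trace_eq_of_charpoly_eq
    {f : End κ V} {g : End κ W} (h : f.charpoly = g.charpoly) :
    LinearMap.trace κ V f = LinearMap.trace κ W g := by
  rw [trace_eq_neg_nextCoeff, trace_eq_neg_nextCoeff, h]

theorem charpoly_eq_of_finrank_two (hV : finrank κ V = 2) (f : End κ V) :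
    f.charpoly = X ^ 2 - C (LinearMap.trace κ V f) * X + C (LinearMap.det f) := by
  classical
  let b := Module.finBasisOfFinrankEq κ V hV
  rw [← LinearMap.charpoly_toMatrix f b, Matrix.charpoly_fin_two,
    LinearMap.trace_eq_matrix_trace κ b, ← LinearMap.det_toMatrix b]

theorem det_eq_of_charpoly_eq (hV : finrank κ V = 2) (hW : finrank κ W = 2)
    {f : End κ V} {g : End κ W} (h : f.charpoly = g.charpoly) :
    LinearMap.det f = LinearMap.det g := by
  rw [charpoly_eq_of_finrank_two hV, charpoly_eq_of_finrank_two hW] at h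
  have := congrArg (fun p => p.coeff 0) h
  simpa using this

theorem trace_pow_succ_succ (hV : finrank κ V = 2) (f : End κ V) (j : ℕ) :
    LinearMap.trace κ V (f ^ (j + 2)) = LinearMap.trace κ V f * LinearMap.trace κ V (f ^ (j + 1))
      - LinearMap.det f * LinearMap.trace κ V (f ^ j) := by
  have h := LinearMap.aeval_self_charpoly f
  rw [charpoly_eq_of_finrank_two hV] at h
  simp only [map_add, map_sub, map_mul, map_pow, aeval_X, aeval_C] at h
  have h2 : f ^ 2 = LinearMap.trace κ V f • f - LinearMap.det f • (1 : End κ V) := by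
    rw [Algebra.algebraMap_eq_smul_one, Algebra.algebraMap_eq_smul_one, smul_mul_assoc,
      one_mul] at h
    rw [eq_sub_iff_add_eq, ← sub_eq_zero, ← h]
    abel
  have h3 : f ^ (j + 2) = LinearMap.trace κ V f • f ^ (j + 1) - LinearMap.det f • f ^ j := by
    rw [pow_add, h2, mul_sub, mul_smul_comm, mul_smul_comm, mul_one, ← pow_succ]
  rw [h3, map_sub, map_smul, map_smul, smul_eq_mul, smul_eq_mul]

theorem trace_pow_eq (hV : finrank κ V = 2) (hW : finrank κ W = 2)
    {f : End κ V} {g : End κ W} (h : f.charpoly = g.charpoly) (j : ℕ) :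
    LinearMap.trace κ V (f ^ j) = LinearMap.trace κ W (g ^ j) := by
  induction j using Nat.strong_induction_on with
  | _ j ih =>
    match j with
    | 0 => simp [hV, hW]
    | 1 => simpa using trace_eq_of_charpoly_eq h
    | (j + 2) =>
      rw [trace_pow_succ_succ hV, trace_pow_succ_succ hW, ih (j + 1) (by omega), ih j (by omega),
        trace_eq_of_charpoly_eq h, det_eq_of_charpoly_eq hV hW h]

/-- the characteristic polynomial of a power only depends on the characteristic polynomial. -/
theorem charpoly_pow_eq (hV : finrank κ V = 2) (hW : finrank κ W = 2)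
    {f : End κ V} {g : End κ W} (h : f.charpoly = g.charpoly) (j : ℕ) :
    (f ^ j).charpoly = (g ^ j).charpoly := by
  rw [charpoly_eq_of_finrank_two hV, charpoly_eq_of_finrank_two hW, trace_pow_eq hV hW h,
    map_pow LinearMap.det f, map_pow LinearMap.det g, det_eq_of_charpoly_eq hV hW h]

end Charpoly

section Burnside

variable {κ : Type*} [Field κ] [IsAlgClosed κ] {W : Type*} [AddCommGroup W] [Module κ W]
  [FiniteDimensional κ W]

/-- **Burnside's theorem**: a subalgebra of `End W` acting irreducibly is everything. -/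
theorem burnside [Nontrivial W] (S : Subalgebra κ (End κ W))
    (hirr : ∀ U : Submodule κ W, (∀ a ∈ S, ∀ u ∈ U, a u ∈ U) → U = ⊥ ∨ U = ⊤) : S = ⊤ := by
  have hsimple : IsSimpleModule S W := by
    rw [isSimpleModule_iff]
    refine { exists_pair_ne := ⟨⊥, ⊤, bot_ne_top⟩, eq_bot_or_eq_top := fun N => ?_ }
    rcases hirr (N.restrictScalars κ) (fun a ha u hu => N.smul_mem (⟨a, ha⟩ : S) hu) with h | h
    · left
      exact (Submodule.restrictScalars_eq_bot_iff _ _ _).mp h
    · right
      exact (Submodule.restrictScalars_eq_top_iff _ _ _).mp h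
  have hschur : Function.Bijective (algebraMap κ (End S W)) :=
    IsSimpleModule.algebraMap_end_bijective_of_isAlgClosed κ
  have hfin : Module.Finite (End S W) W := Module.Finite.of_restrictScalars_finite κ (End S W) W
  rw [eq_top_iff]
  intro f _
  let F : End (End S W) W :=
    { toFun := f
      map_add' := map_add f
      map_smul' := fun φ w => by
        obtain ⟨c, rfl⟩ := hschur.2 φ
        simp }
  obtain ⟨r, hr⟩ := Module.Finite.toModuleEnd_moduleEnd_surjective (R := S) (M := W) F
  have : (r : End κ W) = f := by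
    ext w
    exact congrArg (fun G : End (End S W) W => G w) hr
  rw [← this]
  exact r.2

end Burnside

section Defs

variable {G : Type*} [Monoid G] {κ : Type*} [Field κ] {V : Type*} [AddCommGroup V] [Module κ V]

/-- irreducible: no invariant subspace except `⊥`, `⊤`. -/
def IsIrr (ρ : G →* End κ V) : Prop :=
  ∀ U : Submodule κ V, (∀ g, ∀ u ∈ U, ρ g u ∈ U) → U = ⊥ ∨ U = ⊤

/-- sum of two characters. -/
def IsDiag (ρ : G →* End κ V) : Prop :=
  ∃ (b : Basis (Fin 2) κ V) (ψ : Fin 2 → G → κ), ∀ g i, ρ g (b i) = ψ i g • b i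

end Defs

section Alg

variable {κ : Type*} [Field κ] {A B C : Type*} [Ring A] [Ring B] [Ring C]
  [Algebra κ A] [Algebra κ B] [Algebra κ C]

theorem exists_algHom (α : A →ₐ[κ] B) (β : A →ₐ[κ] C) (hα : Function.Surjective α)
    (h1 : ∀ x, α x = 0 → β x = 0) : ∃ θ : B →ₐ[κ] C, ∀ x, θ (α x) = β x := by
  have hs : ∀ b, α (Function.surjInv hα b) = b := Function.surjInv_eq hα
  have hk : ∀ x, β (Function.surjInv hα (α x)) = β x := by
    intro x
    rw [← sub_eq_zero, ← map_sub]
    apply h1
    rw [map_sub, hs, sub_self]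
  refine ⟨{ toFun := fun b => β (Function.surjInv hα b)
            map_one' := by rw [← map_one α, hk, map_one]
            map_mul' := fun b b' => by
              conv_lhs => rw [← hs b, ← hs b', ← map_mul, hk, map_mul]
            map_zero' := by rw [← map_zero α, hk, map_zero]
            map_add' := fun b b' => by
              conv_lhs => rw [← hs b, ← hs b', ← map_add, hk, map_add]
            commutes' := fun c => by
              rw [← AlgHom.commutes α, hk, AlgHom.commutes] }, hk⟩

/-- two surjective algebra homomorphisms with the same kernel differ by an isomorphism. -/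
theorem exists_algEquiv (α : A →ₐ[κ] B) (β : A →ₐ[κ] C) (hα : Function.Surjective α)
    (hβ : Function.Surjective β) (h1 : ∀ x, α x = 0 → β x = 0) (h2 : ∀ x, β x = 0 → α x = 0) :
    ∃ θ : B ≃ₐ[κ] C, ∀ x, θ (α x) = β x := by
  obtain ⟨θ, hθ⟩ := exists_algHom α β hα h1
  obtain ⟨θ', hθ'⟩ := exists_algHom β α hβ h2
  refine ⟨AlgEquiv.ofAlgHom θ θ' ?_ ?_, hθ⟩
  · ext c
    obtain ⟨x, rfl⟩ := hβ c
    simp [hθ, hθ']
  · ext b
    obtain ⟨x, rfl⟩ := hα b
    simp [hθ, hθ']

end Alg

section Main

variable {G : Type*} [Group G] {κ : Type*} [Field κ]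
  {V W : Type*} [AddCommGroup V] [Module κ V] [AddCommGroup W] [Module κ W]
  [FiniteDimensional κ V] [FiniteDimensional κ W]

/-- the algebra homomorphism `κ[G] → End V`. -/
noncomputable abbrev lin (ρ : G →* End κ V) : MonoidAlgebra κ G →ₐ[κ] End κ V :=
  MonoidAlgebra.lift κ (End κ V) G ρ

theorem lin_surjective [IsAlgClosed κ] [Nontrivial V] {ρ : G →* End κ V} (h : IsIrr ρ) :
    Function.Surjective (lin ρ) := by
  rw [← AlgHom.range_eq_top]
  refine burnside _ fun U hU => h U fun g u hu => hU (ρ g) ⟨MonoidAlgebra.of κ G g, ?_⟩ u hu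
  simp

theorem trace_lin {ρ : G →* End κ V} {τ : G →* End κ W}
    (h : ∀ g, LinearMap.trace κ V (ρ g) = LinearMap.trace κ W (τ g)) (x : MonoidAlgebra κ G) :
    LinearMap.trace κ V (lin ρ x) = LinearMap.trace κ W (lin τ x) := by
  induction x using MonoidAlgebra.induction_on with
  | of g => simpa using h g
  | add x y hx hy => rw [map_add, map_add, map_add, map_add, hx, hy]
  | smul r x hx => rw [map_smul, map_smul, map_smul, map_smul, hx]

theorem eq_zero_of_trace_mul (a : End κ W) (h : ∀ z : End κ W, LinearMap.trace κ W (a * z) = 0) :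
    a = 0 := by
  ext w
  rw [LinearMap.zero_apply, ← Module.forall_dual_apply_eq_zero_iff κ]
  intro f
  have := h (f.smulRight w)
  have e : a * f.smulRight w = f.smulRight (a w) := by
    ext x
    simp
  rwa [e, LinearMap.trace_smulRight] at this

theorem lin_eq_zero {ρ : G →* End κ V} {τ : G →* End κ W}
    (h : ∀ g, LinearMap.trace κ V (ρ g) = LinearMap.trace κ W (τ g))
    (hτ : Function.Surjective (lin τ)) (x : MonoidAlgebra κ G) (hx : lin ρ x = 0) :
    lin τ x = 0 := by
  refine eq_zero_of_trace_mul _ fun z => ?_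
  obtain ⟨y, rfl⟩ := hτ z
  rw [← map_mul, ← trace_lin h, map_mul, hx, zero_mul, map_zero]

theorem exists_equiv_of_isIrr [IsAlgClosed κ] [Nontrivial V] [Nontrivial W]
    {ρ : G →* End κ V} {τ : G →* End κ W} (hρ : IsIrr ρ) (hτ : IsIrr τ)
    (h : ∀ g, LinearMap.trace κ V (ρ g) = LinearMap.trace κ W (τ g)) :
    ∃ e : V ≃ₗ[κ] W, ∀ g v, e (ρ g v) = τ g (e v) := by
  obtain ⟨θ, hθ⟩ := exists_algEquiv (lin ρ) (lin τ) (lin_surjective hρ) (lin_surjective hτ)
    (lin_eq_zero h (lin_surjective hτ)) (lin_eq_zero (fun g => (h g).symm) (lin_surjective hρ))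
  obtain ⟨T, hT⟩ := θ.eq_linearEquivConjAlgEquiv
  refine ⟨T, fun g v => ?_⟩
  have h1 : θ (ρ g) = τ g := by
    have := hθ (MonoidAlgebra.of κ G g)
    simpa using this
  rw [← h1, hT, LinearEquiv.conjAlgEquiv_apply]
  simp

theorem charpoly_of_diag {ρ : G →* End κ V} {b : Basis (Fin 2) κ V} {ψ : Fin 2 → G → κ}
    (h : ∀ g i, ρ g (b i) = ψ i g • b i) (g : G) :
    (ρ g).charpoly = (X - C (ψ 0 g)) * (X - C (ψ 1 g)) := by
  have hm : LinearMap.toMatrix b b (ρ g) = Matrix.diagonal fun i => ψ i g := by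
    ext i j
    rw [LinearMap.toMatrix_apply, h, map_smul, Finsupp.smul_apply, Basis.repr_self,
      Finsupp.single_apply, Matrix.diagonal_apply]
    by_cases hij : i = j
    · subst hij; simp
    · rw [if_neg (Ne.symm hij), if_neg hij, smul_zero]
  rw [← LinearMap.charpoly_toMatrix (ρ g) b, hm, Matrix.charpoly_diagonal, Fin.prod_univ_two]

theorem diag_mul {ρ : G →* End κ V} {b : Basis (Fin 2) κ V} {ψ : Fin 2 → G → κ}
    (h : ∀ g i, ρ g (b i) = ψ i g • b i) (i : Fin 2) (g g' : G) :
    ψ i (g * g') = ψ i g * ψ i g' := by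
  have h1 := h (g * g') i
  rw [map_mul, End.mul_apply, h g' i, map_smul, h g i, smul_smul] at h1
  have := smul_left_injective κ (b.ne_zero i) h1
  rw [← this, mul_comm]

theorem diag_ne_zero {ρ : G →* End κ V} {b : Basis (Fin 2) κ V} {ψ : Fin 2 → G → κ}
    (h : ∀ g i, ρ g (b i) = ψ i g • b i) (i : Fin 2) (g : G) : ψ i g ≠ 0 := by
  intro h0
  have h1 := h 1 i
  rw [map_one, End.one_apply] at h1
  have h2 : ψ i 1 = 1 := by
    have : (1 : κ) • b i = ψ i 1 • b i := by rw [one_smul]; exact h1
    exact (smul_left_injective κ (b.ne_zero i) this).symm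
  have h3 := diag_mul h i g g⁻¹
  rw [mul_inv_cancel, h2, h0, zero_mul] at h3
  exact one_ne_zero h3

theorem exists_equiv_of_isDiag {ρ : G →* End κ V} {τ : G →* End κ W} (hρ : IsDiag ρ)
    (hτ : IsDiag τ) (h : ∀ g, (ρ g).charpoly = (τ g).charpoly) :
    ∃ e : V ≃ₗ[κ] W, ∀ g v, e (ρ g v) = τ g (e v) := by
  obtain ⟨b, ψ, hb⟩ := hρ
  obtain ⟨b', ψ', hb'⟩ := hτ
  have hpoly : ∀ g, (X - C (ψ 0 g)) * (X - C (ψ 1 g)) = (X - C (ψ' 0 g)) * (X - C (ψ' 1 g)) := by
    intro g
    rw [← charpoly_of_diag hb, ← charpoly_of_diag hb', h]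
  have hroot : ∀ g, ψ' 0 g = ψ 0 g ∨ ψ' 0 g = ψ 1 g := by
    intro g
    have := congrArg (Polynomial.eval (ψ' 0 g)) (hpoly g)
    simp only [eval_mul, eval_sub, eval_X, eval_C, sub_self, zero_mul, mul_eq_zero,
      sub_eq_zero] at this
    exact this
  have hprod : ∀ g, ψ 0 g * ψ 1 g = ψ' 0 g * ψ' 1 g := by
    intro g
    have := congrArg (Polynomial.eval 0) (hpoly g)
    simpa using this
  have hσ : ∃ σ : Equiv.Perm (Fin 2), ∀ i g, ψ i g = ψ' (σ i) g := by
    by_cases hA : ∀ g, ψ' 0 g = ψ 0 g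
    · refine ⟨Equiv.refl _, fun i g => ?_⟩
      fin_cases i
      · exact (hA g).symm
      · have := hprod g
        rw [← hA g] at this
        exact mul_left_cancel₀ (diag_ne_zero hb' 0 g) this
    · by_cases hB : ∀ g, ψ' 0 g = ψ 1 g
      · refine ⟨Equiv.swap 0 1, fun i g => ?_⟩
        fin_cases i
        · have := hprod g
          rw [← hB g, mul_comm] at this
          simpa using mul_left_cancel₀ (diag_ne_zero hb' 0 g) this
        · simpa using (hB g).symm
      · exfalso
        push Not at hA hB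
        obtain ⟨a, ha⟩ := hA
        obtain ⟨c, hc⟩ := hB
        have ha' : ψ' 0 a = ψ 1 a := (hroot a).resolve_left ha
        have hc' : ψ' 0 c = ψ 0 c := (hroot c).resolve_right hc
        rcases hroot (a * c) with h1 | h1
        · rw [diag_mul hb', diag_mul hb, hc'] at h1
          exact ha (mul_right_cancel₀ (diag_ne_zero hb 0 c) h1)
        · rw [diag_mul hb', diag_mul hb, ha'] at h1
          exact hc (mul_left_cancel₀ (diag_ne_zero hb 1 a) h1)
  obtain ⟨σ, hσ⟩ := hσ
  refine ⟨b.equiv b' σ, fun g v => ?_⟩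
  have : (b.equiv b' σ).toLinearMap ∘ₗ ρ g = τ g ∘ₗ (b.equiv b' σ).toLinearMap := by
    refine b.ext fun i => ?_
    simp only [LinearMap.comp_apply, LinearEquiv.coe_coe, hb, map_smul, Basis.equiv_apply, hb', hσ]
  exact congrArg (fun f : V →ₗ[κ] W => f v) this

theorem false_of_isDiag_of_isIrr [IsAlgClosed κ] (hW : finrank κ W = 2)
    {ρ : G →* End κ V} {τ : G →* End κ W} (hρ : IsDiag ρ) (hτ : IsIrr τ)
    (h : ∀ g, LinearMap.trace κ V (ρ g) = LinearMap.trace κ W (τ g)) : False := by
  have : Nontrivial W := Module.nontrivial_of_finrank_pos (R := κ) (by omega)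
  obtain ⟨b, ψ, hb⟩ := hρ
  have hs := lin_surjective hτ
  have hd : ∀ x : MonoidAlgebra κ G, ∃ c : Fin 2 → κ, ∀ i, lin ρ x (b i) = c i • b i := by
    intro x
    induction x using MonoidAlgebra.induction_on with
    | of g => exact ⟨fun i => ψ i g, fun i => by simpa using hb g i⟩
    | add x y hx hy =>
      obtain ⟨c, hc⟩ := hx
      obtain ⟨c', hc'⟩ := hy
      exact ⟨c + c', fun i => by rw [map_add, LinearMap.add_apply, hc, hc', Pi.add_apply, add_smul]⟩
    | smul r x hx =>
      obtain ⟨c, hc⟩ := hx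
      exact ⟨r • c, fun i => by
        rw [map_smul, LinearMap.smul_apply, hc, Pi.smul_apply, smul_eq_mul, mul_smul]⟩
  have hcomm : ∀ z z' : End κ W, z * z' = z' * z := by
    intro z z'
    obtain ⟨x, rfl⟩ := hs z
    obtain ⟨y, rfl⟩ := hs z'
    rw [← sub_eq_zero, ← map_mul, ← map_mul, ← map_sub]
    apply lin_eq_zero h hs
    rw [map_sub, map_mul, map_mul, sub_eq_zero]
    obtain ⟨c, hc⟩ := hd x
    obtain ⟨c', hc'⟩ := hd y
    refine b.ext fun i => ?_
    rw [End.mul_apply, End.mul_apply, hc, hc', map_smul, map_smul, hc, hc', smul_comm]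
  let b' := Module.finBasisOfFinrankEq κ W hW
  have h1 := congrArg (fun f : End κ W => f (b' 1))
    (hcomm ((b'.coord 0).smulRight (b' 1)) ((b'.coord 1).smulRight (b' 0)))
  simp at h1
  exact b'.ne_zero 1 h1

/-- **Brauer--Nesbitt in dimension two.** -/
theorem brauer_nesbitt_two [IsAlgClosed κ] (hV : finrank κ V = 2) (hW : finrank κ W = 2)
    {ρ : G →* End κ V} {τ : G →* End κ W} (hρ : IsIrr ρ ∨ IsDiag ρ) (hτ : IsIrr τ ∨ IsDiag τ)
    (h : ∀ g, (ρ g).charpoly = (τ g).charpoly) :
    ∃ e : V ≃ₗ[κ] W, ∀ g v, e (ρ g v) = τ g (e v) := by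
  have : Nontrivial V := Module.nontrivial_of_finrank_pos (R := κ) (by omega)
  have : Nontrivial W := Module.nontrivial_of_finrank_pos (R := κ) (by omega)
  have htr : ∀ g, LinearMap.trace κ V (ρ g) = LinearMap.trace κ W (τ g) :=
    fun g => trace_eq_of_charpoly_eq (h g)
  rcases hρ with hρ | hρ <;> rcases hτ with hτ | hτ
  · exact exists_equiv_of_isIrr hρ hτ htr
  · exact (false_of_isDiag_of_isIrr hV hτ hρ fun g => (htr g).symm).elim
  · exact (false_of_isDiag_of_isIrr hW hρ hτ htr).elim
  · exact exists_equiv_of_isDiag hρ hτ h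

end Main

end Fermat.Agent.ES.BN
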