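import Mathlib
import Fermat.Agent.S14.Zeta

/-!
# ES / weak Chebotarev, analytic input

For every number field `K`:  `∑_ℓ cnt(K, ℓ) ℓ^{-s} = log (1/(s-1)) + O(1)` (`1 < s ≤ 2`), in a
finite-set form; `cnt(K, ℓ)` is the number of ideals of norm `ℓ`.
-/

set_option autoImplicit false

namespace Fermat.Agent.ES.Cheb

open NumberField Ideal Fermat.Agent.S14
open scoped nonZeroDivisors

variable (K : Type*) [Field K] [NumberField K]

/-- the finite set of ideals whose norm lies in `Λ` -/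
noncomputable def idealsOf (Λ : Finset ℕ) : Finset (Ideal (𝓞 K)) :=
  Λ.biUnion fun ℓ => (Ideal.finite_setOfPred_absNorm_eq (S := 𝓞 K) ℓ).toFinset

variable {K} in
lemma mem_idealsOf {Λ : Finset ℕ} {P : Ideal (𝓞 K)} : P ∈ idealsOf K Λ ↔ absNorm P ∈ Λ := by
  simp [idealsOf]

lemma sum_cnt_eq (Λ : Finset ℕ) (s : ℝ) :
    ∑ ℓ ∈ Λ, Zeta.cnt K ℓ * (ℓ : ℝ) ^ (-s) = ∑ P ∈ idealsOf K Λ, (absNorm P : ℝ) ^ (-s) := by
  classical
  rw [idealsOf, Finset.sum_biUnion]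
  · refine Finset.sum_congr rfl fun ℓ _ => ?_
    have h1 : ∀ P ∈ (Ideal.finite_setOfPred_absNorm_eq (S := 𝓞 K) ℓ).toFinset,
        (absNorm P : ℝ) ^ (-s) = (ℓ : ℝ) ^ (-s) := by
      intro P hP
      have : absNorm P = ℓ := by simpa using hP
      rw [this]
    rw [Finset.sum_congr rfl h1, Finset.sum_const, nsmul_eq_mul, Zeta.cnt]
    congr 2
    rw [← Nat.card_eq_card_finite_toFinset]
    rfl
  · intro a _ b _ hab
    rw [Function.onFun, Finset.disjoint_left]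
    intro P hPa hPb
    apply hab
    have h1 : absNorm P = a := by simpa using hPa
    have h2 : absNorm P = b := by simpa using hPb
    rw [← h1, h2]

variable {K} in
lemma isPrime_of_mem_idealsOf {Λ : Finset ℕ} (hΛ : ∀ ℓ ∈ Λ, ℓ.Prime) {P : Ideal (𝓞 K)}
    (hP : P ∈ idealsOf K Λ) : P.IsPrime ∧ P ≠ ⊥ := by
  have h := hΛ _ (mem_idealsOf.1 hP)
  refine ⟨Ideal.isPrime_of_irreducible_absNorm h, ?_⟩
  rintro rfl
  simp at h
  exact Nat.not_prime_zero h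

/-- [AN-U] -/
theorem sum_cnt_upper :
    ∃ C : ℝ, ∀ s : ℝ, 1 < s → s ≤ 2 → ∀ Λ : Finset ℕ, (∀ ℓ ∈ Λ, ℓ.Prime) →
      ∑ ℓ ∈ Λ, Zeta.cnt K ℓ * (ℓ : ℝ) ^ (-s) ≤ Real.log (1 / (s - 1)) + C := by
  obtain ⟨c, C, -, hb⟩ := zetaR_bounds K
  have hC : 0 < C := by
    have h1 := (hb 2 one_lt_two le_rfl).2
    have h2 := Zeta.one_le_zetaR K one_lt_two
    norm_num at h1
    linarith
  refine ⟨Real.log C, fun s hs hs2 Λ hΛ => ?_⟩
  rw [sum_cnt_eq]
  refine (sum_primes_le_log_zetaR K _ (fun P hP => isPrime_of_mem_idealsOf hΛ hP) hs).trans ?_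
  have hs' : 0 < s - 1 := by linarith
  have hζ : 0 < zetaR K s := lt_of_lt_of_le one_pos (Zeta.one_le_zetaR K hs)
  calc Real.log (zetaR K s) ≤ Real.log (C / (s - 1)) := Real.log_le_log hζ (hb s hs hs2).2
    _ = Real.log (1 / (s - 1)) + Real.log C := by
        rw [div_eq_mul_one_div, Real.log_mul hC.ne' (by positivity)]; ring

lemma exp_le_one_sub {x : ℝ} (h0 : 0 ≤ x) (h1 : x ≤ 1 / 2) :
    Real.exp (-(x + x ^ 2)) ≤ 1 - x := by
  have hq := Real.quadratic_le_exp_of_nonneg (x := x + x ^ 2) (by positivity)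
  have hpos := Real.exp_pos (x + x ^ 2)
  rw [Real.exp_neg, inv_le_comm₀ hpos (by linarith)]
  have h2 : (1 - x)⁻¹ ≤ 1 + (x + x ^ 2) + (x + x ^ 2) ^ 2 / 2 := by
    rw [inv_le_iff_one_le_mul₀ (by linarith)]
    have h3 : 0 ≤ x ^ 2 * (1 - x - x ^ 2 - x ^ 3) := by
      apply mul_nonneg (by positivity)
      have : x ^ 2 ≤ 1 / 4 := by nlinarith
      have : x ^ 3 ≤ 1 / 8 := by nlinarith
      linarith
    nlinarith
  exact h2.trans hq

lemma rpow_le_half {s : ℝ} (hs : 1 < s) (P : (Ideal (𝓞 K))⁰) (hP : (P : Ideal (𝓞 K)).IsPrime) :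
    (absNorm (P : Ideal (𝓞 K)) : ℝ) ^ (-s) ≤ 1 / 2 := by
  have h2 : 2 ≤ absNorm (P : Ideal (𝓞 K)) := by
    have h1 := Zeta.one_le_absNorm K P
    have hne : absNorm (P : Ideal (𝓞 K)) ≠ 1 := by
      rw [Ne, Ideal.absNorm_eq_one_iff]; exact hP.ne_top
    omega
  have h2' : (2 : ℝ) ≤ absNorm (P : Ideal (𝓞 K)) := by exact_mod_cast h2
  calc (absNorm (P : Ideal (𝓞 K)) : ℝ) ^ (-s) ≤ (2 : ℝ) ^ (-s) :=
        Real.rpow_le_rpow_of_nonpos (by norm_num) h2' (by linarith)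
    _ ≤ (2 : ℝ) ^ (-1 : ℝ) := Real.rpow_le_rpow_of_exponent_le (by norm_num) (by linarith)
    _ = 1 / 2 := by rw [Real.rpow_neg_one]; norm_num

open scoped Classical in
/-- the sieved zeta function is `≤ 2` for a suitable finite set of primes -/
lemma exists_sieve_le_two {s : ℝ} (hs : 1 < s) :
    ∃ F : Finset (Ideal (𝓞 K))⁰, (∀ P ∈ F, (P : Ideal (𝓞 K)).IsPrime) ∧
      (∏ P ∈ F, (1 - (absNorm (P : Ideal (𝓞 K)) : ℝ) ^ (-s))) * zetaR K s ≤ 2 := by
  set g : (Ideal (𝓞 K))⁰ → ℝ := fun I => (absNorm (I : Ideal (𝓞 K)) : ℝ) ^ (-s) with hgdef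
  have hg : Summable g := summable_absNorm_rpow K hs
  have hg0 : ∀ I, 0 ≤ g I := fun I => by simp only [hgdef]; positivity
  obtain ⟨T, hT⟩ : ∃ T : Finset (Ideal (𝓞 K))⁰, ∑' I, g I - 1 < ∑ I ∈ T, g I :=
    (hg.hasSum.eventually (lt_mem_nhds (by linarith))).exists
  set X : ℕ := T.sup (fun I => absNorm (I : Ideal (𝓞 K))) with hX
  set F : Finset (Ideal (𝓞 K))⁰ := (Ideal.finite_setOfPred_absNorm_le₀ (S := 𝓞 K) X).toFinset.filter
    (fun P => (P : Ideal (𝓞 K)).IsPrime) with hF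
  have hFmem : ∀ P : (Ideal (𝓞 K))⁰, P ∈ F ↔ absNorm (P : Ideal (𝓞 K)) ≤ X ∧
      (P : Ideal (𝓞 K)).IsPrime := by
    intro P
    simp [hF]
  have hFprime : ∀ P ∈ F, (P : Ideal (𝓞 K)).IsPrime := fun P hP => ((hFmem P).mp hP).2
  refine ⟨F, hFprime, ?_⟩
  rw [Zeta.sieve_real K hs F hFprime]
  have he : HasSum (fun I : (Ideal (𝓞 K))⁰ => (if I = 1 then (1 : ℝ) else 0) +
      (g I - if I ∈ T then g I else 0)) (1 + (∑' I, g I - ∑ I ∈ T, g I)) := by
    refine (hasSum_ite_eq 1 (1 : ℝ)).add (hg.hasSum.sub ?_)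
    have : HasSum (fun I : (Ideal (𝓞 K))⁰ => if I ∈ T then g I else 0)
        (∑ I ∈ T, if I ∈ T then g I else 0) :=
      hasSum_sum_of_ne_finset_zero (fun I hI => by simp [hI])
    have h2 : ∑ I ∈ T, (if I ∈ T then g I else 0) = ∑ I ∈ T, g I :=
      Finset.sum_congr rfl fun I hI => by simp [hI]
    rw [h2] at this
    exact this
  have hle : ∀ I : (Ideal (𝓞 K))⁰,
      (if (∀ P ∈ F, ¬ (P : Ideal (𝓞 K)) ∣ I) then (absNorm (I : Ideal (𝓞 K)) : ℝ) ^ (-s) else 0) ≤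
      (if I = 1 then (1 : ℝ) else 0) + (g I - if I ∈ T then g I else 0) := by
    intro I
    by_cases hc : ∀ P ∈ F, ¬ (P : Ideal (𝓞 K)) ∣ I
    · rw [if_pos hc]
      by_cases hIT : I ∈ T
      · have hI1 : I = 1 := by
          by_contra hne
          have hne' : (I : Ideal (𝓞 K)) ≠ ⊤ := by
            intro h
            exact hne (Subtype.ext (by simpa using h))
          obtain ⟨M, hM, hIM⟩ := Ideal.exists_le_maximal _ hne'
          have hM0 : M ≠ ⊥ := by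
            rintro rfl
            exact nonZeroDivisors.coe_ne_zero I (by simpa using hIM)
          have hdvd : M ∣ (I : Ideal (𝓞 K)) := Ideal.dvd_iff_le.2 hIM
          refine hc ⟨M, mem_nonZeroDivisors_of_ne_zero hM0⟩ ((hFmem _).2 ⟨?_, hM.isPrime⟩) hdvd
          have h1 : absNorm M ∣ absNorm (I : Ideal (𝓞 K)) := map_dvd absNorm hdvd
          have h2 : absNorm M ≤ absNorm (I : Ideal (𝓞 K)) :=
            Nat.le_of_dvd (Zeta.one_le_absNorm K I) h1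
          exact h2.trans
            (Finset.le_sup (f := fun I : (Ideal (𝓞 K))⁰ => absNorm (I : Ideal (𝓞 K))) hIT)
        subst hI1
        simp [hIT]
      · rw [if_neg hIT]
        have : (0 : ℝ) ≤ if I = 1 then (1 : ℝ) else 0 := by split_ifs <;> norm_num
        simp only [hgdef] at *
        linarith
    · rw [if_neg hc]
      have h1 : (0 : ℝ) ≤ if I = 1 then (1 : ℝ) else 0 := by split_ifs <;> norm_num
      have h2 : (0 : ℝ) ≤ g I - if I ∈ T then g I else 0 := by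
        split_ifs
        · simp
        · simpa using hg0 I
      linarith
  have hsum1 : Summable fun I : (Ideal (𝓞 K))⁰ =>
      if (∀ P ∈ F, ¬ (P : Ideal (𝓞 K)) ∣ I) then (absNorm (I : Ideal (𝓞 K)) : ℝ) ^ (-s) else 0 := by
    refine Summable.of_norm_bounded hg fun I => ?_
    split_ifs
    · rw [Real.norm_of_nonneg (by positivity)]
    · simpa using hg0 I
  have := hasSum_le hle hsum1.hasSum he
  linarith

/-- `log ζ_K(s) ≤ ∑_{P ∈ F} N(P)^{-s} + C` for a suitable finite set of primes. -/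
lemma exists_log_zetaR_le :
    ∃ C : ℝ, ∀ s : ℝ, 1 < s → ∃ F : Finset (Ideal (𝓞 K)), (∀ P ∈ F, P.IsPrime ∧ P ≠ ⊥) ∧
      Real.log (zetaR K s) ≤ ∑ P ∈ F, (absNorm P : ℝ) ^ (-s) + C := by
  classical
  refine ⟨Real.log 2 + zetaR K 2, fun s hs => ?_⟩
  obtain ⟨F, hF, h⟩ := exists_sieve_le_two K hs
  refine ⟨F.image Subtype.val, ?_, ?_⟩
  · intro P hP
    obtain ⟨Q, hQ, rfl⟩ := Finset.mem_image.1 hP
    exact ⟨hF Q hQ, nonZeroDivisors.coe_ne_zero Q⟩
  rw [Finset.sum_image (fun a _ b _ hab => Subtype.ext hab)]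
  set g : (Ideal (𝓞 K))⁰ → ℝ := fun I => (absNorm (I : Ideal (𝓞 K)) : ℝ) ^ (-s) with hgdef
  have hg0 : ∀ I, 0 ≤ g I := fun I => by simp only [hgdef]; positivity
  have hζ : 0 < zetaR K s := lt_of_lt_of_le one_pos (Zeta.one_le_zetaR K hs)
  have h1 : Real.exp (-∑ P ∈ F, (g P + g P ^ 2)) ≤ ∏ P ∈ F, (1 - g P) := by
    rw [← Finset.sum_neg_distrib, Real.exp_sum]
    exact Finset.prod_le_prod (fun _ _ => (Real.exp_pos _).le)
      fun P hP => exp_le_one_sub (hg0 P) (rpow_le_half K hs P (hF P hP))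
  have h2 : Real.exp (-∑ P ∈ F, (g P + g P ^ 2)) * zetaR K s ≤ 2 :=
    (mul_le_mul_of_nonneg_right h1 hζ.le).trans h
  have h3 : Real.log (zetaR K s) ≤ Real.log 2 + ∑ P ∈ F, (g P + g P ^ 2) := by
    have h4 : zetaR K s ≤ 2 * Real.exp (∑ P ∈ F, (g P + g P ^ 2)) := by
      rw [Real.exp_neg] at h2
      have hpos := Real.exp_pos (∑ P ∈ F, (g P + g P ^ 2))
      rw [inv_mul_le_iff₀ hpos] at h2
      linarith
    calc Real.log (zetaR K s) ≤ Real.log (2 * Real.exp (∑ P ∈ F, (g P + g P ^ 2))) :=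
          Real.log_le_log hζ h4
      _ = _ := by rw [Real.log_mul (by norm_num) (Real.exp_pos _).ne', Real.log_exp]
  have h5 : ∑ P ∈ F, g P ^ 2 ≤ zetaR K 2 := by
    have hsum := summable_absNorm_rpow K one_lt_two
    refine le_trans (Finset.sum_le_sum fun P _ => ?_)
      (hsum.sum_le_tsum F (fun I _ => by positivity))
    have hN : (1 : ℝ) ≤ absNorm (P : Ideal (𝓞 K)) := Zeta.one_le_absNorm' K P
    simp only [hgdef]
    rw [← Real.rpow_natCast, ← Real.rpow_mul (by positivity)]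
    exact Real.rpow_le_rpow_of_exponent_le hN (by push_cast; linarith)
  rw [Finset.sum_add_distrib] at h3
  linarith

/-- [AN-L] -/
theorem sum_cnt_lower :
    ∃ C : ℝ, ∀ s : ℝ, 1 < s → s ≤ 2 → ∃ Λ0 : Finset ℕ, (∀ ℓ ∈ Λ0, ℓ.Prime) ∧
      ∀ Λ : Finset ℕ, Λ0 ⊆ Λ → (∀ ℓ ∈ Λ, ℓ.Prime) →
        Real.log (1 / (s - 1)) - C ≤ ∑ ℓ ∈ Λ, Zeta.cnt K ℓ * (ℓ : ℝ) ^ (-s) := by
  classical
  obtain ⟨c, C0, hc, hb⟩ := zetaR_bounds K
  obtain ⟨C1, h1⟩ := exists_log_zetaR_le K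
  obtain ⟨C2, h2⟩ := sum_primes_not_degree_one_le K
  refine ⟨C1 + C2 - Real.log c, fun s hs hs2 => ?_⟩
  obtain ⟨F, hF, hFle⟩ := h1 s hs
  refine ⟨(F.filter fun P => (absNorm P).Prime).image absNorm, ?_, fun Λ hΛ0 hΛ => ?_⟩
  · intro ℓ hℓ
    obtain ⟨P, hP, rfl⟩ := Finset.mem_image.1 hℓ
    exact (Finset.mem_filter.1 hP).2
  rw [sum_cnt_eq]
  have hs' : 0 < s - 1 := by linarith
  have h3 : Real.log (1 / (s - 1)) + Real.log c ≤ Real.log (zetaR K s) := by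
    rw [← Real.log_mul (by positivity) hc.ne']
    refine Real.log_le_log (by positivity) ?_
    have := (hb s hs hs2).1
    rwa [div_eq_mul_one_div, mul_comm] at this
  have h4 : ∑ P ∈ F, (absNorm P : ℝ) ^ (-s) =
      ∑ P ∈ F.filter (fun P => (absNorm P).Prime), (absNorm P : ℝ) ^ (-s) +
      ∑ P ∈ F.filter (fun P => ¬ (absNorm P).Prime), (absNorm P : ℝ) ^ (-s) :=
    (Finset.sum_filter_add_sum_filter_not F _ _).symm
  have h5 : ∑ P ∈ F.filter (fun P => ¬ (absNorm P).Prime), (absNorm P : ℝ) ^ (-s) ≤ C2 := by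
    refine h2 _ (fun P hP => ?_) s hs
    obtain ⟨hPF, hPn⟩ := Finset.mem_filter.1 hP
    exact ⟨(hF P hPF).1, (hF P hPF).2, hPn⟩
  have h6 : ∑ P ∈ F.filter (fun P => (absNorm P).Prime), (absNorm P : ℝ) ^ (-s) ≤
      ∑ P ∈ idealsOf K Λ, (absNorm P : ℝ) ^ (-s) := by
    refine Finset.sum_le_sum_of_subset_of_nonneg (fun P hP => ?_) (fun _ _ _ => by positivity)
    exact mem_idealsOf.2 (hΛ0 (Finset.mem_image_of_mem _ hP))
  linarith

end Fermat.Agent.ES.Cheb
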