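import Mathlib
import Fermat.Agent.S14.Zeta
import Fermat.Agent.S14.KummerDensity

/-!
# ES / weak Chebotarev: separation of automorphisms modulo primes, fibres of degree one primes
-/

set_option autoImplicit false
set_option linter.unusedSectionVars false

namespace Fermat.Agent.ES.Cheb

open NumberField Ideal Fermat.Agent.S14
open scoped Pointwise

namespace Fib

lemma exists_smul_ne {K M : Type*} [Field K] [Field M] [NumberField M]
    [Algebra K M] {τ : M ≃ₐ[K] M} (hτ : τ ≠ 1) : ∃ x : 𝓞 M, τ • x ≠ x := by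
  by_contra h
  push Not at h
  apply hτ
  ext y
  obtain ⟨a, b, hb, rfl⟩ := IsFractionRing.div_surjective (𝓞 M) y
  have ha : τ (algebraMap (𝓞 M) M a) = algebraMap (𝓞 M) M a := congrArg (algebraMap (𝓞 M) M) (h a)
  have hb' : τ (algebraMap (𝓞 M) M b) = algebraMap (𝓞 M) M b := congrArg (algebraMap (𝓞 M) M) (h b)
  rw [map_div₀, ha, hb']
  rfl

/-- modulo an ideal of prime norm every element is congruent to an integer -/
lemma exists_int_sub_mem {M : Type*} [Field M] [NumberField M] {ℓ : ℕ} (hℓ : ℓ.Prime)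
    {I : Ideal (𝓞 M)} (hI : absNorm I = ℓ) (x : 𝓞 M) : ∃ n : ℤ, x - (n : 𝓞 M) ∈ I := by
  have : Fact ℓ.Prime := ⟨hℓ⟩
  have hcard : Nat.card (𝓞 M ⧸ I) = ℓ := by
    rw [← hI, Ideal.absNorm_apply, Submodule.cardQuot_apply]
  have h1 : (1 : 𝓞 M ⧸ I) ≠ 0 := by
    intro h
    have h2 : (1 : 𝓞 M) ∈ I := Ideal.Quotient.eq_zero_iff_mem.mp h
    have h3 : I = ⊤ := (eq_top_iff_one I).mpr h2
    rw [h3, absNorm_top] at hI
    exact hℓ.one_lt.ne hI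
  obtain ⟨n, hn⟩ := mem_zmultiples_of_prime_card hcard h1 (g' := Ideal.Quotient.mk I x)
  refine ⟨n, ?_⟩
  rw [← Ideal.Quotient.eq_zero_iff_mem, map_sub, ← hn, map_intCast]
  simp

lemma isPrime_of_absNorm {M : Type*} [Field M] [NumberField M] {ℓ : ℕ} (hℓ : ℓ.Prime)
    {I : Ideal (𝓞 M)} (hI : absNorm I = ℓ) : I.IsPrime :=
  isPrime_of_irreducible_absNorm (hI ▸ hℓ)

lemma natCast_mem_of_absNorm {M : Type*} [Field M] [NumberField M] {ℓ : ℕ}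
    {I : Ideal (𝓞 M)} (hI : absNorm I = ℓ) : (ℓ : 𝓞 M) ∈ I := hI ▸ absNorm_mem I

section

variable {K M : Type*} [Field K] [NumberField K] [Field M] [NumberField M] [Algebra K M]

lemma comap_smul (τ : M ≃ₐ[K] M) (I : Ideal (𝓞 M)) :
    (τ • I).comap (algebraMap (𝓞 K) (𝓞 M)) = I.comap (algebraMap (𝓞 K) (𝓞 M)) := by
  ext x
  rw [mem_comap, mem_comap, mem_pointwise_smul_iff_inv_smul_mem, KummerDensity.smul_algebraMap']

/-- the prime below a prime of norm `ℓ` has norm `ℓ` -/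
lemma absNorm_comap {ℓ : ℕ} (hℓ : ℓ.Prime) {I : Ideal (𝓞 M)} (hI : absNorm I = ℓ) :
    absNorm (I.comap (algebraMap (𝓞 K) (𝓞 M))) = ℓ := by
  rw [← hI, Ideal.absNorm_apply, Ideal.absNorm_apply, Submodule.cardQuot_apply,
    Submodule.cardQuot_apply]
  refine Nat.card_congr (Equiv.ofBijective
    (Ideal.quotientMap I (algebraMap (𝓞 K) (𝓞 M)) le_rfl) ⟨Ideal.quotientMap_injective, ?_⟩)
  intro y
  obtain ⟨x, rfl⟩ := Ideal.Quotient.mk_surjective y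
  obtain ⟨n, hn⟩ := exists_int_sub_mem hℓ hI x
  refine ⟨Ideal.Quotient.mk _ (n : 𝓞 K), ?_⟩
  rw [Ideal.quotientMap_mk, map_intCast, eq_comm, Ideal.Quotient.eq]
  exact hn

/-- an automorphism fixing a prime of norm `ℓ` acts trivially modulo it -/
lemma smul_sub_mem_of_smul_eq {ℓ : ℕ} (hℓ : ℓ.Prime) {I : Ideal (𝓞 M)} (hI : absNorm I = ℓ)
    {τ : M ≃ₐ[K] M} (hτ : τ • I = I) (x : 𝓞 M) : τ • x - x ∈ I := by
  obtain ⟨n, hn⟩ := exists_int_sub_mem hℓ hI x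
  have h1 : τ • (x - (n : 𝓞 M)) ∈ I := by
    have := smul_mem_pointwise_smul τ _ I hn
    rwa [hτ] at this
  have h2 : τ • (n : 𝓞 M) = (n : 𝓞 M) := by
    have := map_intCast (MulSemiringAction.toRingHom (M ≃ₐ[K] M) (𝓞 M) τ) n
    exact this
  rw [smul_sub, h2] at h1
  have := I.sub_mem h1 hn
  convert this using 1
  ring

end

end Fib

/-- [SEP] away from a finite set of primes no nontrivial automorphism acts trivially
modulo a prime. -/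
theorem exists_bad_primes (K M : Type*) [Field K] [NumberField K] [Field M] [NumberField M]
    [Algebra K M] :
    ∃ T0 : Finset ℕ, ∀ ℓ : ℕ, ℓ.Prime → ℓ ∉ T0 → ∀ 𝔮 : Ideal (𝓞 M), 𝔮.IsPrime → (ℓ : 𝓞 M) ∈ 𝔮 →
      ∀ τ : M ≃ₐ[K] M, (∀ x : 𝓞 M, τ • x - x ∈ 𝔮) → τ = 1 := by
  classical
  have : FiniteDimensional K M := FiniteDimensional.right ℚ K M
  let _ : Fintype (M ≃ₐ[K] M) := Fintype.ofFinite _
  let xx : (M ≃ₐ[K] M) → 𝓞 M := fun τ => if h : τ ≠ 1 then (Fib.exists_smul_ne h).choose else 0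
  let n : (M ≃ₐ[K] M) → ℕ := fun τ => absNorm (span {τ • xx τ - xx τ})
  refine ⟨Finset.univ.biUnion fun τ => (n τ).primeFactors, ?_⟩
  intro ℓ hℓ hT 𝔮 h𝔮 hℓ𝔮 τ hτ
  by_contra hne
  have hx : τ • xx τ ≠ xx τ := by
    simp only [xx, dif_pos hne]
    exact (Fib.exists_smul_ne hne).choose_spec
  have hn0 : n τ ≠ 0 := by
    simp only [n, Ne, absNorm_eq_zero_iff, span_singleton_eq_bot, sub_eq_zero]
    exact hx
  have hn𝔮 : (n τ : 𝓞 M) ∈ 𝔮 :=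
    (span_singleton_le_iff_mem _).mpr (hτ (xx τ)) (absNorm_mem _)
  have hndvd : ¬ ℓ ∣ n τ := by
    intro hd
    apply hT
    rw [Finset.mem_biUnion]
    exact ⟨τ, Finset.mem_univ _, Nat.mem_primeFactors.mpr ⟨hℓ, hd, hn0⟩⟩
  have hcop : Nat.Coprime ℓ (n τ) := (Nat.Prime.coprime_iff_not_dvd hℓ).mpr hndvd
  apply h𝔮.ne_top
  rw [eq_top_iff_one]
  have h1 : ((ℓ : ℤ) * Nat.gcdA ℓ (n τ) + (n τ : ℤ) * Nat.gcdB ℓ (n τ) : ℤ) = 1 := by
    rw [← Nat.gcd_eq_gcd_ab, hcop.gcd_eq_one]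
    rfl
  have h2 := congrArg (Int.cast : ℤ → 𝓞 M) h1
  push_cast at h2
  rw [← h2]
  exact 𝔮.add_mem (𝔮.mul_mem_right _ hℓ𝔮) (𝔮.mul_mem_right _ hn𝔮)

/-- [FIB] number of degree one primes of `M` in terms of those of `K`. -/
theorem cnt_eq (K M : Type*) [Field K] [NumberField K] [Field M] [NumberField M]
    [Algebra K M] [IsGalois K M] :
    ∃ T0 : Finset ℕ, ∀ ℓ : ℕ, ℓ.Prime → ℓ ∉ T0 →
      Zeta.cnt M ℓ = Module.finrank K M *
        Nat.card {𝔭 : Ideal (𝓞 K) // absNorm 𝔭 = ℓ ∧ ∃ 𝔮 : Ideal (𝓞 M), absNorm 𝔮 = ℓ ∧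
          𝔮.comap (algebraMap (𝓞 K) (𝓞 M)) = 𝔭} := by
  classical
  obtain ⟨T0, hT0⟩ := exists_bad_primes K M
  refine ⟨T0, fun ℓ hℓ hT => ?_⟩
  have : FiniteDimensional K M := FiniteDimensional.right ℚ K M
  have hgal : IsGaloisGroup (M ≃ₐ[K] M) (𝓞 K) (𝓞 M) :=
    IsGaloisGroup.of_isFractionRing (M ≃ₐ[K] M) (𝓞 K) (𝓞 M) K M
  set Base := {𝔭 : Ideal (𝓞 K) // absNorm 𝔭 = ℓ ∧ ∃ 𝔮 : Ideal (𝓞 M), absNorm 𝔮 = ℓ ∧
          𝔮.comap (algebraMap (𝓞 K) (𝓞 M)) = 𝔭} with hBase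
  let q0 : Base → Ideal (𝓞 M) := fun b => b.2.2.choose
  have hq0 : ∀ b : Base, absNorm (q0 b) = ℓ ∧ (q0 b).comap (algebraMap (𝓞 K) (𝓞 M)) = b.1 :=
    fun b => b.2.2.choose_spec
  let F : (M ≃ₐ[K] M) × Base → {I : Ideal (𝓞 M) // absNorm I = ℓ} := fun x =>
    ⟨x.1 • q0 x.2, by rw [KummerDensity.absNorm_smul]; exact (hq0 x.2).1⟩
  have hF : Function.Bijective F := by
    constructor
    · rintro ⟨τ, b⟩ ⟨τ', b'⟩ h
      have h1 : τ • q0 b = τ' • q0 b' := congrArg Subtype.val h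
      have h2 : b = b' := by
        apply Subtype.ext
        rw [← (hq0 b).2, ← (hq0 b').2, ← Fib.comap_smul τ, h1, Fib.comap_smul]
      subst h2
      have h3 : (τ'⁻¹ * τ) • q0 b = q0 b := by
        rw [mul_smul, h1, inv_smul_smul]
      have h4 := hT0 ℓ hℓ hT (q0 b) (Fib.isPrime_of_absNorm hℓ (hq0 b).1)
        (Fib.natCast_mem_of_absNorm (hq0 b).1) (τ'⁻¹ * τ)
        (Fib.smul_sub_mem_of_smul_eq hℓ (hq0 b).1 h3)
      have h5 : τ = τ' := by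
        rw [inv_mul_eq_one] at h4
        exact h4.symm
      rw [h5]
    · rintro ⟨I, hI⟩
      let b : Base := ⟨I.comap (algebraMap (𝓞 K) (𝓞 M)), Fib.absNorm_comap hℓ hI, I, hI, rfl⟩
      have hP : (q0 b).IsPrime := Fib.isPrime_of_absNorm hℓ (hq0 b).1
      have hQ : I.IsPrime := Fib.isPrime_of_absNorm hℓ hI
      have hPo : (q0 b).LiesOver b.1 := ⟨(hq0 b).2.symm⟩
      have hQo : I.LiesOver b.1 := ⟨rfl⟩
      obtain ⟨τ, hτ⟩ := exists_smul_eq_of_isGaloisGroup b.1 (q0 b) I (M ≃ₐ[K] M)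
      exact ⟨⟨τ, b⟩, Subtype.ext hτ⟩
  have hcard := Nat.card_congr (Equiv.ofBijective F hF)
  rw [Nat.card_prod, IsGalois.card_aut_eq_finrank] at hcard
  rw [Zeta.cnt, ← hcard]
  push_cast
  rfl

end Fermat.Agent.ES.Cheb
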