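import Mathlib

/-!
# ES / weak Chebotarev : Möbius combinatorics
-/

set_option autoImplicit false

namespace Fermat.Agent.ES.Cheb

open ArithmeticFunction

lemma sum_divisors_moebius (m : ℕ) :
    ∑ d ∈ m.divisors, (moebius d : ℝ) = if m = 1 then 1 else 0 := by
  have h := congrArg (fun f : ArithmeticFunction ℤ => f m) moebius_mul_coe_zeta
  simp only [coe_mul_zeta_apply, one_apply] at h
  have h2 : ((∑ d ∈ m.divisors, moebius d : ℤ) : ℝ) = ((if m = 1 then 1 else 0 : ℤ) : ℝ) := by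
    rw [h]
  push_cast at h2
  rw [h2]

/-- [MOB] -/
theorem sum_moebius_gcd (n j : ℕ) (hn : n ≠ 0) :
    ∑ d ∈ n.divisors with d ∣ j, (moebius d : ℝ) = if Nat.Coprime n j then 1 else 0 := by
  have h : n.divisors.filter (fun d => d ∣ j) = (Nat.gcd n j).divisors := by
    ext d
    simp only [Finset.mem_filter, Nat.mem_divisors, Nat.dvd_gcd_iff]
    constructor
    · rintro ⟨⟨h1, -⟩, h2⟩
      exact ⟨⟨h1, h2⟩, Nat.gcd_ne_zero_left hn⟩
    · rintro ⟨⟨h1, h2⟩, -⟩
      exact ⟨⟨h1, hn⟩, h2⟩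
  rw [h, sum_divisors_moebius]

theorem sum_moebius_div_pos (n : ℕ) (hn : n ≠ 0) :
    0 < ∑ d ∈ n.divisors, (moebius d : ℝ) / d := by
  have hn' : (0 : ℝ) < n := by exact_mod_cast Nat.pos_of_ne_zero hn
  have h1 : (n : ℝ) * ∑ d ∈ n.divisors, (moebius d : ℝ) / d =
      ∑ e ∈ Finset.range n, ∑ d ∈ n.divisors with d ∣ e + 1, (moebius d : ℝ) := by
    simp_rw [Finset.sum_filter]
    rw [Finset.sum_comm, Finset.mul_sum]
    refine Finset.sum_congr rfl fun d hd => ?_
    rw [← Finset.sum_filter, Finset.sum_const, Nat.card_multiples, nsmul_eq_mul,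
      Nat.cast_div (Nat.dvd_of_mem_divisors hd)
        (by exact_mod_cast (Nat.pos_of_mem_divisors hd).ne')]
    ring
  have h2 : (1 : ℝ) ≤ ∑ e ∈ Finset.range n, ∑ d ∈ n.divisors with d ∣ e + 1, (moebius d : ℝ) := by
    simp_rw [sum_moebius_gcd n _ hn]
    have h3 : (0 : ℕ) ∈ Finset.range n := Finset.mem_range.2 (Nat.pos_of_ne_zero hn)
    refine le_trans ?_ (Finset.single_le_sum (f := fun e => if Nat.Coprime n (e + 1) then (1 : ℝ)
      else 0) (fun e _ => by split_ifs <;> norm_num) h3)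
    simp
  rw [← h1] at h2
  by_contra hcon
  push Not at hcon
  nlinarith

end Fermat.Agent.ES.Cheb
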