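import Mathlib
import Fermat.Agent.ES.ChebFib

/-!
# Frobenius elements over degree one primes and the splitting criterion  (ES / WCHEB)
-/

set_option autoImplicit false

namespace Fermat.Agent.ES.Cheb

open NumberField Ideal
open scoped Pointwise

/-- [FROB] Frobenius elements over degree one primes. -/
theorem exists_frob (K L : Type*) [Field K] [NumberField K] [Field L] [NumberField L]
    [Algebra K L] [IsGalois K L] (ℓ : ℕ) (hℓ : ℓ.Prime) (𝔭 : Ideal (𝓞 K)) (h𝔭 : absNorm 𝔭 = ℓ) :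
    ∃ (𝔓 : Ideal (𝓞 L)) (c : L ≃ₐ[K] L), 𝔓.IsPrime ∧
      𝔓.comap (algebraMap (𝓞 K) (𝓞 L)) = 𝔭 ∧ ∀ x : 𝓞 L, c • x - x ^ ℓ ∈ 𝔓 := by
  have hp : 𝔭.IsPrime := Ideal.isPrime_of_irreducible_absNorm (by rw [h𝔭]; exact hℓ.prime.irreducible)
  obtain ⟨𝔓, -, h𝔓, hover⟩ :=
    Ideal.exists_ideal_over_prime_of_isIntegral 𝔭 (⊥ : Ideal (𝓞 L)) (by simp)
  have hne : 𝔓 ≠ ⊥ := by
    rintro rfl
    have : 𝔭 = ⊥ := by
      rw [← hover]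
      simp
    rw [this] at h𝔭
    simp at h𝔭
    exact hℓ.ne_zero h𝔭.symm
  have hfin : Finite (𝓞 L ⧸ 𝔓) := Ideal.finiteQuotientOfFreeOfNeBot 𝔓 hne
  obtain ⟨c, hc⟩ := IsArithFrobAt.exists_of_isInvariant (𝓞 K) (L ≃ₐ[K] L) 𝔓
  refine ⟨𝔓, c, h𝔓, hover, fun x => ?_⟩
  have := hc x
  rw [Ideal.under, hover, ← Submodule.cardQuot_apply, ← Ideal.absNorm_apply, h𝔭] at this
  exact this

/-- The absolute norm is invariant under ring automorphisms. -/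
lemma Split.absNorm_smul_eq (K M : Type*) [Field K] [NumberField K] [Field M] [NumberField M]
    [Algebra K M] (τ : M ≃ₐ[K] M) (𝔮 : Ideal (𝓞 M)) : absNorm (τ • 𝔮) = absNorm 𝔮 := by
  rw [Ideal.absNorm_apply, Ideal.absNorm_apply, Submodule.cardQuot_apply, Submodule.cardQuot_apply]
  exact (Nat.card_congr (Ideal.quotientEquiv 𝔮 (τ • 𝔮)
    (MulSemiringAction.toRingEquiv (M ≃ₐ[K] M) (𝓞 M) τ) rfl).toEquiv).symm

/-- A prime of a number ring containing `ℓ` modulo which `x ^ ℓ = x` identically has norm `ℓ`. -/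
lemma Split.absNorm_eq_of_forall_pow (M : Type*) [Field M] [NumberField M] (ℓ : ℕ) (hℓ : ℓ.Prime)
    (𝔮 : Ideal (𝓞 M)) (h𝔮 : 𝔮.IsPrime) (hmem : (ℓ : 𝓞 M) ∈ 𝔮) (hpow : ∀ x : 𝓞 M, x ^ ℓ - x ∈ 𝔮) :
    absNorm 𝔮 = ℓ := by
  classical
  have hne : 𝔮 ≠ ⊥ := by
    rintro rfl
    rw [Ideal.mem_bot] at hmem
    exact hℓ.ne_zero (by exact_mod_cast hmem)
  have hfin : Finite (𝓞 M ⧸ 𝔮) := Ideal.finiteQuotientOfFreeOfNeBot 𝔮 hne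
  have hmax : 𝔮.IsMaximal := h𝔮.isMaximal hne
  let _ : Field (𝓞 M ⧸ 𝔮) := Ideal.Quotient.field 𝔮
  let _ : Fintype (𝓞 M ⧸ 𝔮) := Fintype.ofFinite _
  have hchar : CharP (𝓞 M ⧸ 𝔮) ℓ := by
    rw [CharP.charP_iff_prime_eq_zero hℓ, ← map_natCast (Ideal.Quotient.mk 𝔮)]
    exact Ideal.Quotient.eq_zero_iff_mem.mpr hmem
  obtain ⟨n, -, hn⟩ := FiniteField.card (𝓞 M ⧸ 𝔮) ℓ
  have hle : Fintype.card (𝓞 M ⧸ 𝔮) ≤ ℓ := by
    have hroots : (Finset.univ : Finset (𝓞 M ⧸ 𝔮)) ⊆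
        (Polynomial.X ^ ℓ - Polynomial.X : Polynomial (𝓞 M ⧸ 𝔮)).roots.toFinset := by
      intro y _
      obtain ⟨x, rfl⟩ := Ideal.Quotient.mk_surjective y
      rw [Multiset.mem_toFinset, Polynomial.mem_roots (FiniteField.X_pow_card_sub_X_ne_zero _ hℓ.one_lt)]
      simp only [Polynomial.IsRoot.def, Polynomial.eval_sub, Polynomial.eval_pow, Polynomial.eval_X]
      rw [← map_pow, ← map_sub]
      exact Ideal.Quotient.eq_zero_iff_mem.mpr (hpow x)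
    calc Fintype.card (𝓞 M ⧸ 𝔮) = (Finset.univ : Finset (𝓞 M ⧸ 𝔮)).card := rfl
      _ ≤ _ := Finset.card_le_card hroots
      _ ≤ _ := Multiset.toFinset_card_le _
      _ ≤ _ := Polynomial.card_roots' _
      _ = ℓ := FiniteField.X_pow_card_sub_X_natDegree_eq _ hℓ.one_lt
  have hge : ℓ ≤ Fintype.card (𝓞 M ⧸ 𝔮) := by
    rw [hn]
    exact Nat.le_self_pow n.ne_zero ℓ
  rw [Ideal.absNorm_apply, Submodule.cardQuot_apply, Nat.card_eq_fintype_card]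
  exact le_antisymm hle hge

/-- Modulo a prime of norm `ℓ` one has `x ^ ℓ = x`. -/
lemma Split.pow_sub_mem_of_absNorm_eq (M : Type*) [Field M] [NumberField M] (ℓ : ℕ) (hℓ : ℓ.Prime)
    (𝔮 : Ideal (𝓞 M)) (hN : absNorm 𝔮 = ℓ) (x : 𝓞 M) : x ^ ℓ - x ∈ 𝔮 := by
  have h𝔮 : 𝔮.IsPrime :=
    Ideal.isPrime_of_irreducible_absNorm (by rw [hN]; exact hℓ.prime.irreducible)
  have hne : 𝔮 ≠ ⊥ := by
    rintro rfl
    simp at hN
    exact hℓ.ne_zero hN.symm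
  have hfin : Finite (𝓞 M ⧸ 𝔮) := Ideal.finiteQuotientOfFreeOfNeBot 𝔮 hne
  have hmax : 𝔮.IsMaximal := h𝔮.isMaximal hne
  let _ : Field (𝓞 M ⧸ 𝔮) := Ideal.Quotient.field 𝔮
  let _ : Fintype (𝓞 M ⧸ 𝔮) := Fintype.ofFinite _
  have hcard : Fintype.card (𝓞 M ⧸ 𝔮) = ℓ := by
    rw [← hN, Ideal.absNorm_apply, Submodule.cardQuot_apply, Nat.card_eq_fintype_card]
  rw [← Ideal.Quotient.eq_zero_iff_mem, map_sub, map_pow, sub_eq_zero]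
  conv_lhs => rw [← hcard]
  exact FiniteField.pow_card _

/-- [SPLIT], with the separation property [SEP] as a hypothesis. -/
theorem split_iff_of (K L : Type*) [Field K] [NumberField K] [Field L] [NumberField L]
    [Algebra K L] [IsGalois K L] (M : IntermediateField K L) [IsGalois K M]
    (ℓ : ℕ) (hℓ : ℓ.Prime)
    (hsep : ∀ 𝔮 : Ideal (𝓞 M), 𝔮.IsPrime → (ℓ : 𝓞 M) ∈ 𝔮 →
      ∀ τ : M ≃ₐ[K] M, (∀ x : 𝓞 M, τ • x - x ∈ 𝔮) → τ = 1)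
    (𝔓 : Ideal (𝓞 L)) (c : L ≃ₐ[K] L) (h𝔓 : 𝔓.IsPrime)
    (hℓ𝔓 : (ℓ : 𝓞 L) ∈ 𝔓) (hc : ∀ x : 𝓞 L, c • x - x ^ ℓ ∈ 𝔓) :
    ((∃ 𝔮 : Ideal (𝓞 M), absNorm 𝔮 = ℓ ∧ 𝔮.comap (algebraMap (𝓞 K) (𝓞 M)) =
          𝔓.comap (algebraMap (𝓞 K) (𝓞 L))) ↔ c ∈ M.fixingSubgroup) := by
  set 𝔮' : Ideal (𝓞 M) := 𝔓.comap (algebraMap (𝓞 M) (𝓞 L)) with h𝔮'
  have hq'prime : 𝔮'.IsPrime := Ideal.comap_isPrime _ _
  have hq'K : 𝔮'.comap (algebraMap (𝓞 K) (𝓞 M)) = 𝔓.comap (algebraMap (𝓞 K) (𝓞 L)) := by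
    rw [h𝔮', Ideal.comap_comap, ← IsScalarTower.algebraMap_eq]
  have hℓq' : (ℓ : 𝓞 M) ∈ 𝔮' := by
    rw [h𝔮', Ideal.mem_comap, map_natCast]
    exact hℓ𝔓
  constructor
  · rintro ⟨𝔮, hN, hK⟩
    have hqprime : 𝔮.IsPrime :=
      Ideal.isPrime_of_irreducible_absNorm (by rw [hN]; exact hℓ.prime.irreducible)
    obtain ⟨τ, hτ⟩ := Algebra.IsInvariant.exists_smul_of_under_eq (𝓞 K) (𝓞 M) (M ≃ₐ[K] M) 𝔮 𝔮'
      (hK.trans hq'K.symm)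
    have hN' : absNorm 𝔮' = ℓ := by rw [hτ, Split.absNorm_smul_eq, hN]
    have hc1 : c.restrictNormal M = 1 := by
      refine hsep 𝔮' hq'prime hℓq' _ fun x => ?_
      rw [h𝔮', Ideal.mem_comap, map_sub]
      have h1 := hc (algebraMap (𝓞 M) (𝓞 L) x)
      have h2 : algebraMap (𝓞 M) (𝓞 L) (c.restrictNormal M • x)
          = c • (algebraMap (𝓞 M) (𝓞 L) x) := by
        apply RingOfIntegers.ext
        exact AlgEquiv.restrictNormal_commutes c M (x : M)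
      have h3 : algebraMap (𝓞 M) (𝓞 L) (x ^ ℓ - x) ∈ 𝔓 :=
        Split.pow_sub_mem_of_absNorm_eq M ℓ hℓ 𝔮' hN' x
      rw [map_sub, map_pow] at h3
      rw [h2]
      have := 𝔓.add_mem h1 h3
      rwa [sub_add_sub_cancel] at this
    rw [IntermediateField.mem_fixingSubgroup_iff]
    intro x hx
    have := AlgEquiv.restrictNormal_commutes c M (⟨x, hx⟩ : M)
    rw [hc1] at this
    exact this.symm
  · intro hcM
    refine ⟨𝔮', Split.absNorm_eq_of_forall_pow M ℓ hℓ 𝔮' hq'prime hℓq' fun x => ?_, hq'K⟩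
    rw [h𝔮', Ideal.mem_comap, map_sub, map_pow]
    have h1 := hc (algebraMap (𝓞 M) (𝓞 L) x)
    have h2 : c • (algebraMap (𝓞 M) (𝓞 L) x) = algebraMap (𝓞 M) (𝓞 L) x := by
      apply RingOfIntegers.ext
      have := (IntermediateField.mem_fixingSubgroup_iff M c).mp hcM (x : M) (x : M).2
      exact this
    rw [h2] at h1
    have := 𝔓.neg_mem h1
    rwa [neg_sub] at this

/-- [SPLIT] -/
theorem split_iff (K L : Type*) [Field K] [NumberField K] [Field L] [NumberField L]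
    [Algebra K L] [IsGalois K L] (M : IntermediateField K L) [IsGalois K M] :
    ∃ T0 : Finset ℕ, ∀ ℓ : ℕ, ℓ.Prime → ℓ ∉ T0 → ∀ (𝔓 : Ideal (𝓞 L)) (c : L ≃ₐ[K] L), 𝔓.IsPrime →
      (ℓ : 𝓞 L) ∈ 𝔓 → (∀ x : 𝓞 L, c • x - x ^ ℓ ∈ 𝔓) →
      ((∃ 𝔮 : Ideal (𝓞 M), absNorm 𝔮 = ℓ ∧ 𝔮.comap (algebraMap (𝓞 K) (𝓞 M)) =
          𝔓.comap (algebraMap (𝓞 K) (𝓞 L))) ↔ c ∈ M.fixingSubgroup) := by
  obtain ⟨T0, hT0⟩ := exists_bad_primes K M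
  exact ⟨T0, fun ℓ hℓ hℓT 𝔓 c h𝔓 hmem hc =>
    split_iff_of K L M ℓ hℓ (hT0 ℓ hℓ hℓT) 𝔓 c h𝔓 hmem hc⟩

end Fermat.Agent.ES.Cheb
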