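import Mathlib
import Fermat.Agent.ES.ChebAN
import Fermat.Agent.ES.ChebMob
import Fermat.Agent.ES.ChebFib
import Fermat.Agent.ES.ChebSplit

/-!
# ES / weak Chebotarev : cyclic extensions have Frobenius elements generating the Galois group
-/

set_option autoImplicit false
set_option linter.style.haveILetI false
set_option linter.unusedSectionVars false

namespace Fermat.Agent.ES.Cheb

open NumberField Ideal Fermat.Agent.S14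
open scoped Pointwise

/-- The analytic contradiction: a finite linear combination with positive total mass of functions
all of "density one" cannot vanish outside a finite set of primes. -/
theorem analytic_contra {ι : Type*} (D : Finset ι) (a : ι → ℝ) (f : ι → ℕ → ℝ)
    (hκ : 0 < ∑ d ∈ D, a d)
    (hU : ∀ d, ∃ C : ℝ, ∀ s : ℝ, 1 < s → s ≤ 2 → ∀ Λ : Finset ℕ, (∀ ℓ ∈ Λ, ℓ.Prime) →
      ∑ ℓ ∈ Λ, f d ℓ * (ℓ : ℝ) ^ (-s) ≤ Real.log (1 / (s - 1)) + C)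
    (hL : ∀ d, ∃ C : ℝ, ∀ s : ℝ, 1 < s → s ≤ 2 → ∃ Λ0 : Finset ℕ, (∀ ℓ ∈ Λ0, ℓ.Prime) ∧
      ∀ Λ : Finset ℕ, Λ0 ⊆ Λ → (∀ ℓ ∈ Λ, ℓ.Prime) →
        Real.log (1 / (s - 1)) - C ≤ ∑ ℓ ∈ Λ, f d ℓ * (ℓ : ℝ) ^ (-s))
    (Tb : Finset ℕ) (hw : ∀ ℓ : ℕ, ℓ.Prime → ℓ ∉ Tb → ∑ d ∈ D, a d * f d ℓ = 0) : False := by
  classical
  choose Cu hCu using hU
  choose Cl hCl using hL
  set κ := ∑ d ∈ D, a d with hκdef
  set w : ℕ → ℝ := fun ℓ => ∑ d ∈ D, a d * f d ℓ with hwdef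
  set B : ℝ := ∑ ℓ ∈ Tb, |w ℓ| with hB
  set Ct : ℝ := ∑ d ∈ D, |a d| * (|Cu d| + |Cl d|) with hCt
  have hB0 : 0 ≤ B := Finset.sum_nonneg fun _ _ => abs_nonneg _
  have hCt0 : 0 ≤ Ct := Finset.sum_nonneg fun _ _ => by positivity
  set y : ℝ := (B + Ct + 1) / κ with hy
  have hy0 : 0 < y := by positivity
  set s : ℝ := 1 + Real.exp (-y) with hs
  have hs1 : 1 < s := by have := Real.exp_pos (-y); linarith
  have hs2 : s ≤ 2 := by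
    have : Real.exp (-y) ≤ 1 := Real.exp_le_one_iff.2 (by linarith)
    linarith
  have hlam : Real.log (1 / (s - 1)) = y := by
    have : s - 1 = Real.exp (-y) := by rw [hs]; ring
    rw [this, one_div, ← Real.exp_neg, neg_neg, Real.log_exp]
  choose Λ0 hΛ0p hΛ0 using fun d => hCl d s hs1 hs2
  set Λ : Finset ℕ := D.biUnion Λ0 with hΛ
  have hΛp : ∀ ℓ ∈ Λ, ℓ.Prime := by
    intro ℓ hℓ
    obtain ⟨d, -, hd⟩ := Finset.mem_biUnion.1 hℓ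
    exact hΛ0p d ℓ hd
  -- upper bound
  have h1 : ∑ ℓ ∈ Λ, w ℓ * (ℓ : ℝ) ^ (-s) ≤ B := by
    have h2 : ∀ ℓ ∈ Λ, w ℓ * (ℓ : ℝ) ^ (-s) ≤ if ℓ ∈ Tb then |w ℓ| else 0 := by
      intro ℓ hℓ
      by_cases hT : ℓ ∈ Tb
      · rw [if_pos hT]
        have h3 : (ℓ : ℝ) ^ (-s) ≤ 1 := by
          have h4 : (1 : ℝ) ≤ ℓ := by exact_mod_cast (hΛp ℓ hℓ).one_lt.le
          exact Real.rpow_le_one_of_one_le_of_nonpos h4 (by linarith)
        have h5 : (0 : ℝ) ≤ (ℓ : ℝ) ^ (-s) := by positivity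
        calc w ℓ * (ℓ : ℝ) ^ (-s) ≤ |w ℓ| * (ℓ : ℝ) ^ (-s) :=
              mul_le_mul_of_nonneg_right (le_abs_self _) h5
          _ ≤ |w ℓ| * 1 := mul_le_mul_of_nonneg_left h3 (abs_nonneg _)
          _ = |w ℓ| := mul_one _
      · rw [if_neg hT, hwdef]
        simp only
        rw [hw ℓ (hΛp ℓ hℓ) hT, zero_mul]
    refine (Finset.sum_le_sum h2).trans ?_
    rw [← Finset.sum_filter]
    exact Finset.sum_le_sum_of_subset_of_nonneg (fun ℓ hℓ => (Finset.mem_filter.1 hℓ).2)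
      (fun _ _ _ => abs_nonneg _)
  -- lower bound
  have h6 : ∑ ℓ ∈ Λ, w ℓ * (ℓ : ℝ) ^ (-s) = ∑ d ∈ D, a d * ∑ ℓ ∈ Λ, f d ℓ * (ℓ : ℝ) ^ (-s) := by
    simp only [hwdef, Finset.sum_mul, Finset.mul_sum]
    rw [Finset.sum_comm]
    refine Finset.sum_congr rfl fun d _ => Finset.sum_congr rfl fun ℓ _ => by ring
  have h7 : ∀ d ∈ D, a d * y - |a d| * (|Cu d| + |Cl d|) ≤
      a d * ∑ ℓ ∈ Λ, f d ℓ * (ℓ : ℝ) ^ (-s) := by
    intro d hd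
    have hu := hCu d s hs1 hs2 Λ hΛp
    have hl := hΛ0 d Λ (Finset.subset_biUnion_of_mem Λ0 hd) hΛp
    rw [hlam] at hu hl
    set S := ∑ ℓ ∈ Λ, f d ℓ * (ℓ : ℝ) ^ (-s)
    have h8 : |S - y| ≤ |Cu d| + |Cl d| := by
      rw [abs_le]
      constructor
      · have := le_abs_self (Cl d); have := abs_nonneg (Cu d); linarith
      · have := le_abs_self (Cu d); have := abs_nonneg (Cl d); linarith
    have h9 : -(|a d| * (|Cu d| + |Cl d|)) ≤ a d * (S - y) := by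
      have h10 : |a d * (S - y)| ≤ |a d| * (|Cu d| + |Cl d|) := by
        rw [abs_mul]; exact mul_le_mul_of_nonneg_left h8 (abs_nonneg _)
      exact (abs_le.1 h10).1
    nlinarith
  have h11 : κ * y - Ct ≤ ∑ ℓ ∈ Λ, w ℓ * (ℓ : ℝ) ^ (-s) := by
    rw [h6, hκdef, hCt, Finset.sum_mul, ← Finset.sum_sub_distrib]
    exact Finset.sum_le_sum h7
  have h12 : κ * y = B + Ct + 1 := by rw [hy]; field_simp
  linarith

section Cyc

variable (K L : Type*) [Field K] [NumberField K] [Field L] [NumberField L] [Algebra K L]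
  [IsGalois K L]

/-- the fixed field of `⟨g ^ d⟩` -/
noncomputable def Md (g : L ≃ₐ[K] L) (d : ℕ) : IntermediateField K L :=
  IntermediateField.fixedField (Subgroup.zpowers (g ^ d))

variable {K L}

lemma isGalois_Md {g : L ≃ₐ[K] L} (hg : ∀ τ : L ≃ₐ[K] L, τ ∈ Subgroup.zpowers g) (d : ℕ) :
    IsGalois K (Md K L g d) := by
  have : (Subgroup.zpowers (g ^ d)).Normal := by
    constructor
    intro h hh τ
    obtain ⟨k, rfl⟩ := Subgroup.mem_zpowers_iff.1 (hg τ)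
    obtain ⟨m, rfl⟩ := Subgroup.mem_zpowers_iff.1 hh
    have h1 : g ^ k * (g ^ d) ^ m * (g ^ k)⁻¹ = (g ^ d) ^ m := by group
    rw [h1]
    exact Subgroup.zpow_mem_zpowers _ _
  exact IsGalois.of_fixedField_normal_subgroup _

lemma finrank_Md {g : L ≃ₐ[K] L} (hg : ∀ τ : L ≃ₐ[K] L, τ ∈ Subgroup.zpowers g) {d : ℕ}
    (hd : d ∣ orderOf g) : Module.finrank K (Md K L g d) = d := by
  have hn : 0 < orderOf g := orderOf_pos g
  have hd0 : d ≠ 0 := by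
    rintro rfl
    exact hn.ne' (Nat.eq_zero_of_zero_dvd hd)
  have h1 := Module.finrank_mul_finrank K (Md K L g d) L
  have h2 : Module.finrank (Md K L g d) L = orderOf g / d := by
    rw [Md, IntermediateField.finrank_fixedField_eq_card, Nat.card_zpowers,
      orderOf_pow_of_dvd hd0 hd]
  have h3 : Module.finrank K L = orderOf g := by
    rw [← IsGalois.card_aut_eq_finrank, orderOf_eq_card_of_forall_mem_zpowers hg]
  rw [h2, h3] at h1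
  obtain ⟨e, he⟩ := hd
  rw [he, Nat.mul_div_cancel_left _ (Nat.pos_of_ne_zero hd0)] at h1
  have he0 : 0 < e := by
    rcases Nat.eq_zero_or_pos e with h | h
    · rw [h, mul_zero] at he; omega
    · exact h
  exact Nat.eq_of_mul_eq_mul_right he0 h1

lemma pow_mem_zpowers_pow_iff {G : Type*} [Group G] {g : G} {d : ℕ} (hd : d ∣ orderOf g) (j : ℕ) :
    g ^ j ∈ Subgroup.zpowers (g ^ d) ↔ d ∣ j := by
  constructor
  · intro h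
    obtain ⟨k, hk⟩ := Subgroup.mem_zpowers_iff.1 h
    have h1 : g ^ ((j : ℤ) - d * k) = 1 := by
      rw [zpow_sub, zpow_natCast, zpow_mul, zpow_natCast, hk, mul_inv_cancel]
    have h2 := orderOf_dvd_iff_zpow_eq_one.2 h1
    have h3 : (d : ℤ) ∣ (j : ℤ) - d * k := (Int.natCast_dvd_natCast.2 hd).trans h2
    have h4 : (d : ℤ) ∣ j := by
      have := dvd_add h3 (Dvd.intro k rfl : (d : ℤ) ∣ d * k)
      simpa using this
    exact Int.natCast_dvd_natCast.1 h4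
  · rintro ⟨e, rfl⟩
    rw [pow_mul]
    exact Subgroup.npow_mem_zpowers _ _

variable (K L) in
/-- [CYC] -/
theorem exists_frobenius_generator (g : L ≃ₐ[K] L)
    (hg : ∀ τ : L ≃ₐ[K] L, τ ∈ Subgroup.zpowers g) (T : Finset ℕ) :
    ∃ (ℓ : ℕ) (𝔓 : Ideal (𝓞 L)) (c : L ≃ₐ[K] L), ℓ.Prime ∧ ℓ ∉ T ∧ 𝔓.IsPrime ∧ (ℓ : 𝓞 L) ∈ 𝔓 ∧
      (∀ x : 𝓞 L, c • x - x ^ ℓ ∈ 𝔓) ∧ ∀ τ : L ≃ₐ[K] L, τ ∈ Subgroup.zpowers c := by
  classical
  by_contra hcon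
  push Not at hcon
  set n := orderOf g with hndef
  have hn : n ≠ 0 := (orderOf_pos g).ne'
  have hgal := isGalois_Md hg
  have hfib : ∀ d : ℕ, ∃ T0 : Finset ℕ, ∀ ℓ : ℕ, ℓ.Prime → ℓ ∉ T0 →
      Zeta.cnt (Md K L g d) ℓ = Module.finrank K (Md K L g d) *
        Nat.card {𝔭 : Ideal (𝓞 K) // absNorm 𝔭 = ℓ ∧ ∃ 𝔮 : Ideal (𝓞 (Md K L g d)), absNorm 𝔮 = ℓ ∧
          𝔮.comap (algebraMap (𝓞 K) (𝓞 (Md K L g d))) = 𝔭} := fun d => by
    haveI := hgal d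
    exact cnt_eq K (Md K L g d)
  have hspl : ∀ d : ℕ, ∃ T0 : Finset ℕ, ∀ ℓ : ℕ, ℓ.Prime → ℓ ∉ T0 →
      ∀ (𝔓 : Ideal (𝓞 L)) (c : L ≃ₐ[K] L), 𝔓.IsPrime →
      (ℓ : 𝓞 L) ∈ 𝔓 → (∀ x : 𝓞 L, c • x - x ^ ℓ ∈ 𝔓) →
      ((∃ 𝔮 : Ideal (𝓞 (Md K L g d)), absNorm 𝔮 = ℓ ∧
          𝔮.comap (algebraMap (𝓞 K) (𝓞 (Md K L g d))) =
          𝔓.comap (algebraMap (𝓞 K) (𝓞 L))) ↔ c ∈ (Md K L g d).fixingSubgroup) := fun d => by
    haveI := hgal d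
    exact split_iff K L (Md K L g d)
  choose T1 hT1 using hfib
  choose T2 hT2 using hspl
  refine analytic_contra n.divisors (fun d => (ArithmeticFunction.moebius d : ℝ) / d)
    (fun d ℓ => Zeta.cnt (Md K L g d) ℓ) (sum_moebius_div_pos n hn)
    (fun d => sum_cnt_upper _) (fun d => sum_cnt_lower _)
    (T ∪ n.divisors.biUnion (fun d => T1 d ∪ T2 d)) ?_
  intro ℓ hℓ hℓT
  have hℓT0 : ℓ ∉ T := fun h => hℓT (Finset.mem_union_left _ h)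
  have hℓT1 : ∀ d ∈ n.divisors, ℓ ∉ T1 d := fun d hd h =>
    hℓT (Finset.mem_union_right _ (Finset.mem_biUnion.2 ⟨d, hd, Finset.mem_union_left _ h⟩))
  have hℓT2 : ∀ d ∈ n.divisors, ℓ ∉ T2 d := fun d hd h =>
    hℓT (Finset.mem_union_right _ (Finset.mem_biUnion.2 ⟨d, hd, Finset.mem_union_right _ h⟩))
  -- the degree one primes of `K` above `ℓ`
  let S := {𝔭 : Ideal (𝓞 K) // absNorm 𝔭 = ℓ}
  haveI : Finite S := (Ideal.finite_setOfPred_absNorm_eq (S := 𝓞 K) ℓ).to_subtype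
  haveI : Fintype S := Fintype.ofFinite S
  have hfr : ∀ 𝔭 : S, ∃ (𝔓 : Ideal (𝓞 L)) (c : L ≃ₐ[K] L), 𝔓.IsPrime ∧
      𝔓.comap (algebraMap (𝓞 K) (𝓞 L)) = 𝔭.1 ∧ ∀ x : 𝓞 L, c • x - x ^ ℓ ∈ 𝔓 :=
    fun 𝔭 => exists_frob K L ℓ hℓ 𝔭.1 𝔭.2
  choose 𝔓 c h𝔓p h𝔓c hfrob using hfr
  have hj : ∀ 𝔭 : S, ∃ j : ℕ, g ^ j = c 𝔭 := fun 𝔭 =>
    Submonoid.mem_powers_iff _ _ |>.1 (mem_powers_iff_mem_zpowers.2 (hg (c 𝔭)))
  choose j hj using hj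
  have hmem : ∀ 𝔭 : S, (ℓ : 𝓞 L) ∈ 𝔓 𝔭 := by
    intro 𝔭
    have h1 : ((absNorm 𝔭.1 : ℕ) : 𝓞 K) ∈ 𝔭.1 := Ideal.absNorm_mem 𝔭.1
    rw [𝔭.2, ← h𝔓c 𝔭, Ideal.mem_comap, map_natCast] at h1
    exact h1
  have hncop : ∀ 𝔭 : S, ¬ Nat.Coprime n (j 𝔭) := by
    intro 𝔭 hcop
    obtain ⟨τ, hτ⟩ := hcon ℓ (𝔓 𝔭) (c 𝔭) hℓ hℓT0 (h𝔓p 𝔭) (hmem 𝔭) (hfrob 𝔭)
    apply hτ
    obtain ⟨m, hm⟩ := exists_pow_eq_self_of_coprime (x := g) hcop.symm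
    obtain ⟨k, rfl⟩ := Subgroup.mem_zpowers_iff.1 (hg τ)
    rw [← hj 𝔭]
    nth_rewrite 2 [← hm]
    exact Subgroup.zpow_mem (Subgroup.zpowers _) (Subgroup.npow_mem_zpowers _ _) _
  have hcnt : ∀ d ∈ n.divisors, Zeta.cnt (Md K L g d) ℓ =
      d * ∑ 𝔭 : S, (if d ∣ j 𝔭 then (1 : ℝ) else 0) := by
    intro d hd
    have hdn : d ∣ n := Nat.dvd_of_mem_divisors hd
    rw [hT1 d ℓ hℓ (hℓT1 d hd), finrank_Md hg hdn]
    congr 1
    rw [Finset.sum_boole]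
    congr 1
    rw [← Nat.card_congr (Equiv.subtypeSubtypeEquivSubtypeInter (fun 𝔭 : Ideal (𝓞 K) =>
      absNorm 𝔭 = ℓ) (fun 𝔭 => ∃ 𝔮 : Ideal (𝓞 (Md K L g d)), absNorm 𝔮 = ℓ ∧
          𝔮.comap (algebraMap (𝓞 K) (𝓞 (Md K L g d))) = 𝔭)), Nat.card_eq_fintype_card,
      Fintype.card_subtype]
    congr 1
    ext 𝔭
    simp only [Finset.mem_filter, Finset.mem_univ, true_and]
    have h1 := hT2 d ℓ hℓ (hℓT2 d hd) (𝔓 𝔭) (c 𝔭) (h𝔓p 𝔭) (hmem 𝔭) (hfrob 𝔭)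
    rw [h𝔓c 𝔭] at h1
    rw [h1, Md, IntermediateField.fixingSubgroup_fixedField, ← hj 𝔭,
      pow_mem_zpowers_pow_iff hdn]
  have h1 : ∀ d ∈ n.divisors, (ArithmeticFunction.moebius d : ℝ) / d * Zeta.cnt (Md K L g d) ℓ =
      ∑ 𝔭 : S, (if d ∣ j 𝔭 then (ArithmeticFunction.moebius d : ℝ) else 0) := by
    intro d hd
    have hd0 : (d : ℝ) ≠ 0 := by exact_mod_cast (Nat.pos_of_mem_divisors hd).ne'
    rw [hcnt d hd, Finset.mul_sum, Finset.mul_sum]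
    refine Finset.sum_congr rfl fun 𝔭 _ => ?_
    split_ifs
    · field_simp
    · simp
  show ∑ d ∈ n.divisors, (ArithmeticFunction.moebius d : ℝ) / d * Zeta.cnt (Md K L g d) ℓ = 0
  rw [Finset.sum_congr rfl h1, Finset.sum_comm]
  refine Finset.sum_eq_zero fun 𝔭 _ => ?_
  rw [← Finset.sum_filter, sum_moebius_gcd n (j 𝔭) hn, if_neg (hncop 𝔭)]

end Cyc

end Fermat.Agent.ES.Cheb
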