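import Mathlib
import Fermat.Agent.S14.Zeta
import Fermat.Agent.Lib.Frobenius

/-!
# Weak Chebotarev: transfer from cyclic extensions of number fields to `Gal(Qbar/Q)`
-/

set_option autoImplicit false
set_option linter.style.haveILetI false

namespace Fermat.Agent.ES.Cheb

open NumberField Ideal Fermat.Agent.S14
open scoped Pointwise

local notation "Qbar" => AlgebraicClosure ℚ
local notation "GQ" => (AlgebraicClosure ℚ ≃ₐ[ℚ] AlgebraicClosure ℚ)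

/-- A Frobenius element at `A` acts as `x ↦ x ^ ℓ` modulo the maximal ideal of `A`. -/
lemma frob_sub_pow_mem_nonunits (A : ValuationSubring Qbar) (σ : GQ) (ℓ : ℕ)
    (hσ : A.IsFrobeniusAt σ ℓ) {b : Qbar} (hb : b ∈ A) : σ b - b ^ ℓ ∈ A.nonunits := by
  have h := hσ.smul_residue_eq (IsLocalRing.residue A ⟨b, hb⟩)
  rw [← IsLocalRing.ResidueField.residue_smul, ← map_pow, ← sub_eq_zero, ← map_sub,
    IsLocalRing.residue_eq_zero_iff, ← ValuationSubring.coe_mem_nonunits_iff] at h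
  exact h

/-- [TRANS], with the two inputs [SEP] and [CYC] as hypotheses. -/
theorem weak_chebotarev_of
    (SEP : ∀ (K M : Type) [Field K] [NumberField K] [Field M] [NumberField M] [Algebra K M],
      ∃ T0 : Finset ℕ, ∀ ℓ : ℕ, ℓ.Prime → ℓ ∉ T0 → ∀ 𝔮 : Ideal (𝓞 M), 𝔮.IsPrime →
        (ℓ : 𝓞 M) ∈ 𝔮 → ∀ τ : M ≃ₐ[K] M, (∀ x : 𝓞 M, τ • x - x ∈ 𝔮) → τ = 1)
    (CYC : ∀ (K L : Type) [Field K] [NumberField K] [Field L] [NumberField L] [Algebra K L]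
      [IsGalois K L] (g : L ≃ₐ[K] L) (_ : ∀ τ : L ≃ₐ[K] L, τ ∈ Subgroup.zpowers g)
      (T : Finset ℕ),
      ∃ (ℓ : ℕ) (𝔓 : Ideal (𝓞 L)) (c : L ≃ₐ[K] L), ℓ.Prime ∧ ℓ ∉ T ∧ 𝔓.IsPrime ∧
        (ℓ : 𝓞 L) ∈ 𝔓 ∧ (∀ x : 𝓞 L, c • x - x ^ ℓ ∈ 𝔓) ∧
        ∀ τ : L ≃ₐ[K] L, τ ∈ Subgroup.zpowers c)
    (E : IntermediateField ℚ Qbar) [FiniteDimensional ℚ E] [IsGalois ℚ E]
    (T : Finset ℕ) (g : GQ) :
    ∃ (ℓ : ℕ) (A : ValuationSubring Qbar) (σ : GQ) (j k : ℕ), ℓ.Prime ∧ ℓ ∉ T ∧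
      A.LiesOverPrime ℓ ∧ A.IsFrobeniusAt σ ℓ ∧
      (∀ x ∈ E, σ x = (g ^ j) x) ∧ (∀ x ∈ E, g x = (σ ^ k) x) := by
  classical
  haveI : NumberField E := { to_charZero := inferInstance, to_finiteDimensional := inferInstance }
  -- the cyclic group generated by `g|E` and its fixed field
  let res : GQ →* (E ≃ₐ[ℚ] E) := AlgEquiv.restrictNormalHom E
  have hres : ∀ (τ : GQ) (x : E), ((res τ x : E) : Qbar) = τ (x : Qbar) := fun τ x =>
    AlgEquiv.restrictNormal_commutes τ E x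
  let gE : E ≃ₐ[ℚ] E := res g
  let C : Subgroup (E ≃ₐ[ℚ] E) := Subgroup.zpowers gE
  let K : IntermediateField ℚ E := IntermediateField.fixedField C
  haveI : NumberField K :=
    { to_charZero := inferInstance, to_finiteDimensional := inferInstance }
  have hfix : K.fixingSubgroup = C := IntermediateField.fixingSubgroup_fixedField C
  let e : K.fixingSubgroup ≃* (E ≃ₐ[K] E) := IntermediateField.fixingSubgroupEquiv K
  let down : (E ≃ₐ[K] E) →* (E ≃ₐ[ℚ] E) := AlgEquiv.restrictScalarsHom ℚ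
  have hdown : ∀ (τ : E ≃ₐ[K] E) (x : E), down τ x = τ x := fun τ x => rfl
  have hdown_inj : Function.Injective down := fun a b hab => by
    ext x
    rw [← hdown, ← hdown, hab]
  have hdown_e : ∀ τ : K.fixingSubgroup, down (e τ) = τ := fun τ => by
    ext x
    rfl
  have hgmem : gE ∈ K.fixingSubgroup := by
    rw [hfix]
    exact Subgroup.mem_zpowers gE
  let g' : E ≃ₐ[K] E := e ⟨gE, hgmem⟩
  have hg'down : down g' = gE := hdown_e _
  have hg' : ∀ τ : E ≃ₐ[K] E, τ ∈ Subgroup.zpowers g' := by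
    intro τ
    have h1 : down τ ∈ C := by
      rw [← hfix]
      obtain ⟨t, rfl⟩ := e.surjective τ
      rw [hdown_e]
      exact t.2
    obtain ⟨z, hz⟩ := Subgroup.mem_zpowers_iff.mp h1
    refine Subgroup.mem_zpowers_iff.mpr ⟨z, hdown_inj ?_⟩
    rw [map_zpow, hg'down, hz]
  obtain ⟨T0, hT0⟩ := SEP ℚ E
  obtain ⟨ℓ, 𝔓, c, hℓ, hℓT, h𝔓, hℓ𝔓, hc, hcgen⟩ := CYC K E g' hg' (T ∪ T0)
  rw [Finset.mem_union, not_or] at hℓT
  -- a valuation subring above `𝔓`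
  let f : 𝓞 E →+* Qbar := algebraMap (𝓞 E) Qbar
  have hf : ∀ x : 𝓞 E, f x = ((x : E) : Qbar) := fun x => rfl
  have hfinj : Function.Injective f := fun a b hab => by
    rw [hf, hf] at hab
    exact RingOfIntegers.ext (Subtype.ext hab)
  let I : Ideal f.range := 𝔓.map f.rangeRestrict
  have hI : I ≠ ⊤ := by
    intro h
    have h1 : (1 : f.range) ∈ I := by rw [h]; trivial
    obtain ⟨x, hx, hx1⟩ := (Ideal.mem_map_iff_of_surjective _ f.rangeRestrict_surjective).mp h1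
    have h2 : f x = f 1 := by
      rw [map_one]
      exact congrArg Subtype.val hx1
    rw [hfinj h2] at hx
    exact h𝔓.ne_top ((Ideal.eq_top_iff_one _).mpr hx)
  obtain ⟨A, -, hA⟩ := Ideal.image_subset_nonunits_valuationSubring I hI
  have hA𝔓 : ∀ x ∈ 𝔓, f x ∈ A.nonunits := fun x hx =>
    hA ⟨f.rangeRestrict x, Ideal.mem_map_of_mem _ hx, rfl⟩
  have hAℓ : A.LiesOverPrime ℓ := by
    have := hA𝔓 _ hℓ𝔓
    rwa [map_natCast] at this
  obtain ⟨σ, hσ⟩ := Lib.Frobenius.exists_isFrobeniusAt A hℓ hAℓ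
  have hint : ∀ x : 𝓞 E, f x ∈ A := fun x => by
    apply Lib.Frobenius.mem_of_isIntegral
    exact (RingOfIntegers.isIntegral x).map (IsScalarTower.toAlgHom ℤ (𝓞 E) Qbar)
  -- `𝔓` is exactly the contraction of the maximal ideal of `A`
  have h𝔓max : 𝔓.IsMaximal := by
    refine h𝔓.isMaximal ?_
    intro h0
    rw [h0, Ideal.mem_bot] at hℓ𝔓
    exact hℓ.ne_zero (by exact_mod_cast hℓ𝔓)
  let fA : 𝓞 E →+* A := f.codRestrict A.toSubring hint
  let 𝔓' : Ideal (𝓞 E) := (IsLocalRing.maximalIdeal A).comap fA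
  have h𝔓'mem : ∀ x : 𝓞 E, x ∈ 𝔓' ↔ f x ∈ A.nonunits := fun x => by
    rw [Ideal.mem_comap, ← ValuationSubring.coe_mem_nonunits_iff]
    rfl
  have h𝔓' : 𝔓 = 𝔓' := by
    refine h𝔓max.eq_of_le (Ideal.comap_isPrime _ _).ne_top ?_
    intro x hx
    exact (h𝔓'mem x).mpr (hA𝔓 x hx)
  have hmem𝔓 : ∀ x : 𝓞 E, x ∈ 𝔓 ↔ f x ∈ A.nonunits := fun x => by rw [h𝔓']; exact h𝔓'mem x
  -- `σ|E = c`
  let σE : E ≃ₐ[ℚ] E := res σ
  let cQ : E ≃ₐ[ℚ] E := down c
  have hσ𝔓 : ∀ x : 𝓞 E, σE • x - x ^ ℓ ∈ 𝔓 := fun x => by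
    rw [hmem𝔓, map_sub, map_pow]
    have := frob_sub_pow_mem_nonunits A σ ℓ hσ (hint x)
    rw [hf] at this ⊢
    rw [hf]
    rw [← hres] at this
    exact this
  have hτ : σE * cQ⁻¹ = 1 := by
    refine hT0 ℓ hℓ hℓT.2 𝔓 h𝔓 hℓ𝔓 _ fun x => ?_
    have h1 := hσ𝔓 (cQ⁻¹ • x)
    have h2 := hc (cQ⁻¹ • x)
    have h3 : c • (cQ⁻¹ • x) = x := by
      have : c • (cQ⁻¹ • x) = cQ • (cQ⁻¹ • x) := rfl
      rw [this, smul_inv_smul]
    rw [h3] at h2
    have h4 := 𝔓.sub_mem h1 h2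
    rw [mul_smul]
    convert h4 using 1
    ring
  have hσc : σE = cQ := mul_inv_eq_one.mp hτ
  -- powers
  haveI : Finite (E ≃ₐ[K] E) := inferInstance
  obtain ⟨j, hj⟩ := mem_powers_iff_mem_zpowers.mpr (hg' c)
  obtain ⟨k, hk⟩ := mem_powers_iff_mem_zpowers.mpr (hcgen g')
  refine ⟨ℓ, A, σ, j, k, hℓ, hℓT.1, hAℓ, hσ, fun x hx => ?_, fun x hx => ?_⟩
  · have h1 : res σ = res (g ^ j) := by
      rw [map_pow]
      change σE = gE ^ j
      rw [hσc, ← hg'down, ← map_pow]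
      exact congrArg down hj.symm
    have h2 := hres σ ⟨x, hx⟩
    rw [h1, hres] at h2
    exact h2.symm
  · have h1 : res g = res (σ ^ k) := by
      rw [map_pow]
      change gE = σE ^ k
      rw [hσc, ← hg'down, ← map_pow]
      exact congrArg down hk.symm
    have h2 := hres g ⟨x, hx⟩
    rw [h1, hres] at h2
    exact h2.symm

end Fermat.Agent.ES.Cheb
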