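import Mathlib
import Fermat.Agent.ES.ChebFib
import Fermat.Agent.ES.ChebCyc
import Fermat.Agent.ES.ChebTrans

/-!
# Weak Chebotarev for `Gal(Qbar/Q)`
-/

set_option autoImplicit false

namespace Fermat.Agent.ES.Cheb

open NumberField Ideal Fermat.Agent.S14
open scoped Pointwise

local notation "Qbar" => AlgebraicClosure ℚ
local notation "GQ" => (AlgebraicClosure ℚ ≃ₐ[ℚ] AlgebraicClosure ℚ)

/-- [TRANS] weak Chebotarev: for a finite Galois `E/ℚ` inside `Qbar`, a finite set `T` of primes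
and `g ∈ Gal(Qbar/ℚ)`, there is a Frobenius element `σ` at a prime `ℓ ∉ T` such that `σ|E` and
`g|E` generate the same cyclic subgroup of `Gal(E/ℚ)`. -/
theorem weak_chebotarev (E : IntermediateField ℚ Qbar) [FiniteDimensional ℚ E] [IsGalois ℚ E]
    (T : Finset ℕ) (g : GQ) :
    ∃ (ℓ : ℕ) (A : ValuationSubring Qbar) (σ : GQ) (j k : ℕ), ℓ.Prime ∧ ℓ ∉ T ∧
      A.LiesOverPrime ℓ ∧ A.IsFrobeniusAt σ ℓ ∧
      (∀ x ∈ E, σ x = (g ^ j) x) ∧ (∀ x ∈ E, g x = (σ ^ k) x) :=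
  weak_chebotarev_of (fun K M _ _ _ _ _ => exists_bad_primes K M)
    (fun K L _ _ _ _ _ _ g hg T => exists_frobenius_generator K L g hg T) E T g

end Fermat.Agent.ES.Cheb
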