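import Fermat.Agent.S24.FFDed

/-!
# Project ES: functions without zeros and poles are constant (any characteristic)
-/

set_option autoImplicit false

noncomputable section

namespace Fermat.Agent.ES.ConstAbs

open AlgebraicCurve IsDedekindDomain Polynomial IntermediateField WithZero

variable {K F : Type*} [Field K] [Field F] [Algebra K F]

/-- an element which is regular at all places lies in every Dedekind domain with fraction
field `F`. -/
theorem exists_algebraMap_eq_of_ord_nonneg {B : Type*} [CommRing B] [IsDedekindDomain B]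
    [Algebra B F] [IsFractionRing B F] [Algebra K B] [IsScalarTower K B F] (u : F)
    (h : ∀ Q : Place K F, 0 ≤ Q.ord u) : ∃ b : B, algebraMap B F b = u := by
  apply HeightOneSpectrum.mem_integers_of_valuation_le_one F u
  intro w
  have h1 := h (Place.ofHeightOneSpectrum (K := K) (F := F) w)
  rw [Fermat.Agent.S24.FF.ord_ofHeightOneSpectrum] at h1
  rcases eq_or_ne u 0 with rfl | hu
  · simp
  · have h2 : log (w.valuation F u) ≤ log (1 : ℤᵐ⁰) := by
      rw [log_one]; omega
    exact (log_le_log ((Valuation.ne_zero_iff _).mpr hu) one_ne_zero).mp h2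

theorem isIntegral_of_ord_nonneg (R E : Type*) [CommRing R] [IsDedekindDomain R] [Field E]
    [Algebra R E] [IsFractionRing R E] [Algebra E F] [Algebra R F] [IsScalarTower R E F]
    [FiniteDimensional E F] [Algebra.IsSeparable E F] [Algebra K R] [IsScalarTower K R F] (u : F)
    (h : ∀ Q : Place K F, 0 ≤ Q.ord u) : IsIntegral R u := by
  have : IsDedekindDomain (integralClosure R F) := integralClosure.isDedekindDomain R E F
  have : IsFractionRing (integralClosure R F) F :=
    integralClosure.isFractionRing_of_finite_extension E F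
  obtain ⟨b, rfl⟩ := exists_algebraMap_eq_of_ord_nonneg (K := K) (B := integralClosure R F) u h
  exact b.2

open scoped IntermediateField.algebraAdjoinAdjoin

theorem isPrincipalIdealRing_adjoin {y : F} (hy : Transcendental K y) :
    IsPrincipalIdealRing (Algebra.adjoin K {y}) :=
  IsPrincipalIdealRing.of_surjective (Polynomial.algEquivOfTranscendental K y hy).toRingEquiv
    (Polynomial.algEquivOfTranscendental K y hy).surjective

theorem isIntegral_adjoin_of_ord_nonneg {y : F} (hy : Transcendental K y)
    [FiniteDimensional K⟮y⟯ F] [Algebra.IsSeparable K⟮y⟯ F] (u : F)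
    (h : ∀ Q : Place K F, 0 ≤ Q.ord u) : IsIntegral (Algebra.adjoin K {y}) u := by
  have := isPrincipalIdealRing_adjoin hy
  exact isIntegral_of_ord_nonneg (K := K) (Algebra.adjoin K {y}) K⟮y⟯ u h

/-- the coefficients of the minimal polynomial over `K(y)` of an element integral over `K[y]`
lie in `K[y]`. -/
theorem coeff_minpoly_mem {y : F} (hy : Transcendental K y) {u : F}
    (hu : IsIntegral (Algebra.adjoin K {y}) u) (n : ℕ) :
    (((minpoly K⟮y⟯ u).coeff n : K⟮y⟯) : F) ∈ Algebra.adjoin K {y} := by
  have := isPrincipalIdealRing_adjoin hy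
  rw [minpoly.isIntegrallyClosed_eq_field_fractions' K⟮y⟯ hu, coeff_map]
  exact ((minpoly (Algebra.adjoin K {y}) u).coeff n).2

theorem mem_range_of_mem_adjoin {y : F} (hy : Transcendental K y) {x : F}
    (h1 : x ∈ Algebra.adjoin K {y}) (h2 : x ∈ Algebra.adjoin K {y⁻¹}) :
    ∃ c : K, x = algebraMap K F c := by
  obtain ⟨P, rfl⟩ := Algebra.adjoin_mem_exists_aeval _ _ h1
  obtain ⟨Q, hQ⟩ := Algebra.adjoin_mem_exists_aeval _ _ h2
  have hy0 : y ≠ 0 := by
    rintro rfl
    exact hy (isAlgebraic_zero)
  letI : Invertible y⁻¹ := invertibleOfNonzero (inv_ne_zero hy0)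
  have h3 := Polynomial.eval₂_reverse_mul_pow (algebraMap K F) y⁻¹ Q
  rw [invOf_eq_inv, inv_inv, ← aeval_def, ← aeval_def, hQ] at h3
  have h4 : aeval y Q.reverse = aeval y (P * X ^ Q.natDegree) := by
    rw [map_mul, map_pow, aeval_X, ← h3, mul_assoc, ← mul_pow, inv_mul_cancel₀ hy0, one_pow,
      mul_one]
  have h5 : Q.reverse = P * X ^ Q.natDegree := (transcendental_iff_injective.mp hy) h4
  rcases eq_or_ne P 0 with rfl | hP
  · exact ⟨0, by simp⟩
  · have h6 : (P * X ^ Q.natDegree).natDegree = P.natDegree + Q.natDegree := by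
      rw [natDegree_mul_X_pow _ hP]
    have h7 := Q.reverse_natDegree_le
    rw [h5, h6] at h7
    have h8 : P.natDegree = 0 := by omega
    rw [natDegree_eq_zero] at h8
    obtain ⟨c, rfl⟩ := h8
    exact ⟨c, by simp⟩

theorem adjoin_inv_eq (y : F) : K⟮y⁻¹⟯ = K⟮y⟯ := by
  apply le_antisymm
  · rw [adjoin_simple_le_iff]
    exact inv_mem (mem_adjoin_simple_self K y)
  · rw [adjoin_simple_le_iff]
    have h1 : (y⁻¹)⁻¹ ∈ K⟮y⁻¹⟯ := inv_mem (mem_adjoin_simple_self K _)
    rwa [inv_inv] at h1

theorem coe_coeff_minpoly_congr {E E' : IntermediateField K F} (h : E = E') (u : F) (n : ℕ) :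
    (((minpoly E u).coeff n : E) : F) = (((minpoly E' u).coeff n : E') : F) := by
  subst h; rfl

/-- **A function without poles is algebraic over the constants** (any characteristic). -/
theorem isAlgebraic_of_ord_nonneg {y : F} (hy : Transcendental K y)
    [FiniteDimensional K⟮y⟯ F] [Algebra.IsSeparable K⟮y⟯ F] (u : F)
    (h : ∀ Q : Place K F, 0 ≤ Q.ord u) : IsAlgebraic K u := by
  have hy' : Transcendental K y⁻¹ := by
    intro h1
    apply hy
    have := h1.inv
    rwa [inv_inv] at this
  have e := adjoin_inv_eq (K := K) y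
  have i1 : FiniteDimensional K⟮y⁻¹⟯ F := e ▸ inferInstance
  have i2 : Algebra.IsSeparable K⟮y⁻¹⟯ F := e ▸ inferInstance
  have h1 := isIntegral_adjoin_of_ord_nonneg hy u h
  have h2 := isIntegral_adjoin_of_ord_nonneg hy' u h
  have hc : ∀ n, ∃ c : K, (((minpoly K⟮y⟯ u).coeff n : K⟮y⟯) : F) = algebraMap K F c := by
    intro n
    refine mem_range_of_mem_adjoin hy (coeff_minpoly_mem hy h1 n) ?_
    rw [← coe_coeff_minpoly_congr e u n]
    exact coeff_minpoly_mem hy' h2 n
  choose c hc using hc
  have hint : IsIntegral K⟮y⟯ u := Algebra.IsIntegral.isIntegral u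
  set μ := minpoly K⟮y⟯ u with hμ
  refine ⟨∑ n ∈ Finset.range (μ.natDegree + 1), Polynomial.monomial n (c n), ?_, ?_⟩
  · intro h0
    have h3 := congrArg (fun p => Polynomial.coeff p μ.natDegree) h0
    simp only [Polynomial.finset_sum_coeff, Polynomial.coeff_monomial, Polynomial.coeff_zero] at h3
    rw [Finset.sum_ite_eq' ] at h3
    simp only [Finset.mem_range, Nat.lt_succ_self, if_true] at h3
    have h4 := hc μ.natDegree
    rw [h3, map_zero] at h4
    have h5 : μ.coeff μ.natDegree = 1 := (minpoly.monic hint)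
    rw [h5] at h4
    simp at h4
  · rw [map_sum]
    have h3 : aeval u μ = 0 := minpoly.aeval _ _
    rw [aeval_eq_sum_range] at h3
    rw [← h3]
    refine Finset.sum_congr rfl fun n _ => ?_
    rw [aeval_monomial, ← hc n, Algebra.smul_def]
    rfl

end Fermat.Agent.ES.ConstAbs
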