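import Mathlib

/-!
# ES : purity by trace duality, part B (over a PID)

`A` a PID, `S` a domain, finite free over `A`, `g : A` squarefree.  If `g` times the trace-dual basis
of an `A`-basis of `S` consists of elements `z i` of `S` which are nilpotent modulo `g`
(`z i ^ M i = g • u i`), then `S` is integrally closed.
-/

set_option autoImplicit false
set_option linter.unusedSectionVars false

namespace Fermat.Agent.ES.Purity

open Polynomial Module

section Matrix

variable {A : Type*} [CommRing A] [IsDomain A] [IsPrincipalIdealRing A]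
  {ι : Type*} [Fintype ι] [DecidableEq ι]

/-- a matrix which is nilpotent modulo a squarefree element has trace divisible by it -/
theorem dvd_trace_of_pow_eq (g : A) (hg : Squarefree g) (X Y : Matrix ι ι A) (M : ℕ)
    (h : X ^ M = g • Y) : g ∣ X.trace := by
  set q := Ideal.Quotient.mk (Ideal.span {g}) with hq
  have h1 : (X.map q) ^ M = 0 := by
    have : (X.map q) ^ M = (X ^ M).map q := by
      have := (RingHom.mapMatrix (m := ι) q).map_pow X M
      simpa [RingHom.mapMatrix_apply] using this.symm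
    rw [this, h]
    ext i j
    simp only [Matrix.map_apply, Matrix.smul_apply, smul_eq_mul, map_mul, Matrix.zero_apply]
    have : q g = 0 := by
      rw [hq, Ideal.Quotient.eq_zero_iff_mem]
      exact Ideal.mem_span_singleton_self g
    rw [this, zero_mul]
  have h2 : IsNilpotent (X.map q) := ⟨M, h1⟩
  have h3 : IsNilpotent (X.map q).trace := Matrix.isNilpotent_trace_of_isNilpotent h2
  have h4 : (X.map q).trace = q X.trace := by
    simp [Matrix.trace, map_sum]
  rw [h4] at h3
  obtain ⟨e, he⟩ := h3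
  rw [← map_pow, hq, Ideal.Quotient.eq_zero_iff_mem, Ideal.mem_span_singleton] at he
  rcases Nat.eq_zero_or_pos e with rfl | hpos
  · rw [pow_zero] at he
    exact (isUnit_of_dvd_one he).dvd
  · exact (hg.dvd_pow_iff_dvd hpos.ne').mp he

end Matrix

section L3

variable {A : Type*} [CommRing A] [IsDomain A] [IsPrincipalIdealRing A]
  {S : Type*} [CommRing S] [IsDomain S] [Algebra A S]
  {ι : Type*} [Fintype ι] [DecidableEq ι]

/-- the ideal of all `y` with `y (b0/s)^k ∈ S` for all `k` -/
def condIdeal (s : A) (b0 : S) : Ideal S where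
  carrier := {y | ∀ k : ℕ, algebraMap A S s ^ k ∣ y * b0 ^ k}
  add_mem' := fun ha hb k => by rw [add_mul]; exact dvd_add (ha k) (hb k)
  zero_mem' := fun k => by simp
  smul_mem' := fun c y hy k => by rw [smul_eq_mul, mul_assoc]; exact Dvd.dvd.mul_left (hy k) c

theorem mem_condIdeal {s : A} {b0 y : S} :
    y ∈ condIdeal s b0 ↔ ∀ k : ℕ, algebraMap A S s ^ k ∣ y * b0 ^ k := Iff.rfl

theorem exists_mem_condIdeal (hinj : Function.Injective (algebraMap A S)) {s : A} (hs : s ≠ 0)
    {b0 y : S} (hy : y ∈ condIdeal s b0) : ∃ y' ∈ condIdeal s b0, b0 * y = s • y' := by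
  have hs' : algebraMap A S s ≠ 0 := by
    rw [Ne, ← map_zero (algebraMap A S)]
    exact fun h => hs (hinj h)
  obtain ⟨y', hy'⟩ := hy 1
  rw [pow_one, pow_one] at hy'
  refine ⟨y', fun k => ?_, by rw [Algebra.smul_def, ← hy', mul_comm]⟩
  obtain ⟨w, hw⟩ := hy (k + 1)
  refine ⟨w, mul_left_cancel₀ hs' ?_⟩
  calc algebraMap A S s * (y' * b0 ^ k) = (y * b0) * b0 ^ k := by rw [hy']; ring
    _ = y * b0 ^ (k + 1) := by ring
    _ = algebraMap A S s * (algebraMap A S s ^ k * w) := by rw [hw]; ring

theorem mul_dvd_trace (hinj : Function.Injective (algebraMap A S)) (b : Basis ι A S)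
    (g s : A) (hs : s ≠ 0) (hg : Squarefree g) (b0 z u c : S) (M : ℕ) (hz : z ^ M = g • u)
    (hc : c ≠ 0) (hcs : ∀ k : ℕ, algebraMap A S s ^ k ∣ c * b0 ^ k) :
    s * g ∣ Algebra.trace A S (b0 * z) := by
  classical
  set I := condIdeal s b0 with hIdef
  have hI : I ≠ ⊥ := fun h => hc (by
    have : c ∈ I := hcs
    rw [h] at this
    simpa using this)
  obtain ⟨b', a, ab', hab⟩ := Ideal.exists_smith_normal_form b I hI
  have ha : ∀ i, a i ≠ 0 := by
    intro i hi
    apply ab'.ne_zero i
    apply Subtype.ext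
    rw [hab i, hi, zero_smul]
    rfl
  let N : S →ₐ[A] Matrix ι ι A :=
    (LinearMap.toMatrixAlgEquiv ab').toAlgHom.comp (Algebra.lsmul A A I)
  have hN : ∀ (w : S) (j k : ι), N w j k = ab'.repr (w • ab' k) j := by
    intro w j k
    simp [N, LinearMap.toMatrixAlgEquiv_apply]
  -- diagonal entries
  have htr : ∀ w : S, (N w).trace = Algebra.trace A S w := by
    intro w
    rw [Algebra.trace_eq_matrix_trace b', Matrix.trace, Matrix.trace]
    refine Finset.sum_congr rfl fun k _ => ?_
    rw [Matrix.diag_apply, Matrix.diag_apply, Algebra.leftMulMatrix_eq_repr_mul, hN]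
    have h1 : ((w • ab' k : I) : S) = ∑ j, (ab'.repr (w • ab' k) j * a j) • b' j := by
      conv_lhs => rw [← ab'.sum_repr (w • ab' k)]
      rw [AddSubmonoidClass.coe_finsetSum]
      refine Finset.sum_congr rfl fun j _ => ?_
      rw [Submodule.coe_smul_of_tower, hab j, smul_smul]
    have h2 : ((w • ab' k : I) : S) = ∑ j, (a k * b'.repr (w * b' k) j) • b' j := by
      rw [Submodule.coe_smul, hab k, smul_eq_mul, mul_smul_comm]
      conv_lhs => rw [← b'.sum_repr (w * b' k), Finset.smul_sum]
      refine Finset.sum_congr rfl fun j _ => ?_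
      rw [smul_smul]
    have h3 := congrArg (fun x => b'.repr x k) (h1.symm.trans h2)
    simp only [map_sum, map_smul, Finsupp.coe_finsetSum, Finsupp.coe_smul, Finset.sum_apply,
      Pi.smul_apply, Basis.repr_self, smul_eq_mul] at h3
    simp only [Finsupp.single_apply, mul_ite, mul_one, mul_zero, Finset.sum_ite_eq',
      Finset.mem_univ, if_true] at h3
    exact mul_right_cancel₀ (ha k) (by rw [h3, mul_comm])
  -- the matrix of b0 / s
  have hw : ∀ k, ∃ w ∈ I, b0 * (ab' k : S) = s • w := fun k =>
    exists_mem_condIdeal hinj hs (ab' k).2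
  choose w hwI hw using hw
  let Φ : Matrix ι ι A := fun j k => ab'.repr ⟨w k, hwI k⟩ j
  have hΦ : s • Φ = N b0 := by
    ext j k
    rw [Matrix.smul_apply, hN]
    have : b0 • ab' k = s • (⟨w k, hwI k⟩ : I) := by
      apply Subtype.ext
      rw [Submodule.coe_smul, smul_eq_mul, hw k]
      rfl
    rw [this, map_smul]
    rfl
  have hcomm : Commute Φ (N z) := by
    have h1 : s • (Φ * N z) = s • (N z * Φ) := by
      rw [← Matrix.smul_mul, hΦ, ← Matrix.mul_smul, hΦ, ← map_mul, ← map_mul, mul_comm]
    exact smul_right_injective _ hs h1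
  have hpow : (Φ * N z) ^ M = g • (Φ ^ M * N u) := by
    rw [hcomm.mul_pow, ← map_pow, hz, map_smul, Matrix.mul_smul]
  obtain ⟨r, hr⟩ := dvd_trace_of_pow_eq g hg _ _ M hpow
  refine ⟨r, ?_⟩
  rw [← htr, map_mul, ← hΦ, Matrix.smul_mul, Matrix.trace_smul, hr, smul_eq_mul, mul_assoc]

/-- **Theorem B, elementwise.** -/
theorem dvd_of_data (hinj : Function.Injective (algebraMap A S)) (b : Basis ι A S)
    (g : A) (hg : Squarefree g) (z u : ι → S) (M : ι → ℕ) (hz : ∀ i, z i ^ M i = g • u i)
    (htr : ∀ (y : S) (i : ι), Algebra.trace A S (y * z i) = g * b.repr y i)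
    (b0 : S) (s : A) (hs : s ≠ 0) (c : S) (hc : c ≠ 0)
    (hcs : ∀ k : ℕ, algebraMap A S s ^ k ∣ c * b0 ^ k) : algebraMap A S s ∣ b0 := by
  have hg0 : g ≠ 0 := hg.ne_zero
  have h1 : ∀ i, s ∣ b.repr b0 i := by
    intro i
    have := mul_dvd_trace hinj b g s hs hg b0 (z i) (u i) c (M i) (hz i) hc hcs
    rw [htr, mul_comm s g] at this
    exact (mul_dvd_mul_iff_left hg0).mp this
  choose r hr using h1
  refine ⟨∑ i, r i • b i, ?_⟩
  conv_lhs => rw [← b.sum_repr b0]
  rw [Finset.mul_sum]
  refine Finset.sum_congr rfl fun i _ => ?_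
  rw [hr i, mul_smul, Algebra.smul_def]

/-- **Theorem B.** -/
theorem isIntegrallyClosed_of_data (hinj : Function.Injective (algebraMap A S)) (b : Basis ι A S)
    (g : A) (hg : Squarefree g) (z u : ι → S) (M : ι → ℕ) (hz : ∀ i, z i ^ M i = g • u i)
    (htr : ∀ (y : S) (i : ι), Algebra.trace A S (y * z i) = g * b.repr y i) :
    IsIntegrallyClosed S := by
  classical
  have : Module.Finite A S := Module.Finite.of_basis b
  have : Algebra.IsIntegral A S := Algebra.IsIntegral.of_finite A S
  have : FaithfulSMul A S := (faithfulSMul_iff_algebraMap_injective A S).mpr hinj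
  rw [isIntegrallyClosed_iff (FractionRing S)]
  intro x hx
  let L := FractionRing S
  have hxA : IsIntegral A x := isIntegral_trans x hx
  have hSL : Function.Injective (algebraMap S L) := IsFractionRing.injective S L
  -- write x = b0 / s
  obtain ⟨n, d, hnd⟩ := IsLocalization.exists_mk'_eq (nonZeroDivisors S) x
  have hd0 : (d : S) ≠ 0 := nonZeroDivisors.coe_ne_zero d
  obtain ⟨b0, s, hs, hsb⟩ := Algebra.IsAlgebraic.exists_smul_eq_mul A n hd0
  have hs' : algebraMap A S s ≠ 0 := by
    rw [Ne, ← map_zero (algebraMap A S)]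
    exact fun h => hs (hinj h)
  have hxd : x * algebraMap S L d = algebraMap S L n := by
    rw [← hnd]; exact IsLocalization.mk'_spec _ _ _
  have hxs : algebraMap S L (algebraMap A S s) * x = algebraMap S L b0 := by
    have hd1 : algebraMap S L d ≠ 0 := by
      rw [Ne, ← map_zero (algebraMap S L)]
      exact fun h => hd0 (hSL h)
    apply mul_right_cancel₀ hd1
    rw [mul_assoc, hxd, ← map_mul, ← map_mul, ← Algebra.smul_def, hsb, mul_comm]
  -- a common denominator of the powers of x
  obtain ⟨T, hT⟩ := hxA.fg_adjoin_singleton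
  obtain ⟨c, hc⟩ := IsLocalization.exist_integer_multiples_of_finset (nonZeroDivisors S) T
  have hc0 : (c : S) ≠ 0 := nonZeroDivisors.coe_ne_zero c
  have hspan : ∀ v ∈ Submodule.span A (T : Set L), ∃ y : S, algebraMap S L y = (c : S) • v := by
    intro v hv
    induction hv using Submodule.span_induction with
    | mem v hv => exact hc v hv
    | zero => exact ⟨0, by simp⟩
    | add v w _ _ hv hw =>
      obtain ⟨y1, h1⟩ := hv
      obtain ⟨y2, h2⟩ := hw
      exact ⟨y1 + y2, by rw [map_add, h1, h2, smul_add]⟩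
    | smul a v _ hv =>
      obtain ⟨y1, h1⟩ := hv
      exact ⟨a • y1, by rw [Algebra.smul_def, map_mul, h1, ← IsScalarTower.algebraMap_apply,
        ← Algebra.smul_def, smul_comm]⟩
  have hpow : ∀ k : ℕ, ∃ y : S, algebraMap S L y = (c : S) • x ^ k := by
    intro k
    apply hspan
    rw [hT]
    exact pow_mem (Algebra.self_mem_adjoin_singleton A x) k
  have hcs : ∀ k : ℕ, algebraMap A S s ^ k ∣ (c : S) * b0 ^ k := by
    intro k
    obtain ⟨y, hy⟩ := hpow k
    refine ⟨y, hSL ?_⟩
    rw [map_mul, map_mul, map_pow, map_pow, ← hxs, hy, Algebra.smul_def]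
    ring
  obtain ⟨y, hy⟩ := dvd_of_data hinj b g hg z u M hz htr b0 s hs c hc0 hcs
  refine ⟨y, ?_⟩
  have hs1 : algebraMap S L (algebraMap A S s) ≠ 0 := by
    rw [Ne, ← map_zero (algebraMap S L)]
    exact fun h => hs' (hSL h)
  apply mul_left_cancel₀ hs1
  rw [hxs, hy, map_mul]

/-- **Theorem B, Dedekind form.** -/
theorem isDedekindDomain_of_data (hinj : Function.Injective (algebraMap A S)) (b : Basis ι A S)
    (g : A) (hg : Squarefree g) (z u : ι → S) (M : ι → ℕ) (hz : ∀ i, z i ^ M i = g • u i)
    (htr : ∀ (y : S) (i : ι), Algebra.trace A S (y * z i) = g * b.repr y i) :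
    IsDedekindDomain S := by
  have h1 : Module.Finite A S := Module.Finite.of_basis b
  have h2 : Algebra.IsIntegral A S := Algebra.IsIntegral.of_finite A S
  have h3 : IsNoetherianRing S := IsNoetherianRing.of_finite A S
  have h4 : Ring.DimensionLEOne S := Ring.DimensionLEOne.of_isIntegral A S
  have h5 : IsIntegrallyClosed S := isIntegrallyClosed_of_data hinj b g hg z u M hz htr
  exact { h3, h4, h5 with }

end L3

end Fermat.Agent.ES.Purity
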