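import Fermat.Agent.ES.ADefs
import Fermat.Agent.ES.ConstAbs
import Fermat.Agent.ES.PurityB

/-!
# Project ES, block INJ (instantiation of `abstract_inj`), package A-CODIFF

The codifferent reduces into the codifferent (tame ramification along a squarefree divisor).
-/

set_option autoImplicit false

namespace Fermat.Agent.ES.TC

open Fermat.Agent.ES.AbsInj IntermediateField Module Polynomial

namespace CodiffRed

/-- `X ^ M ∈ g B`, `g` squarefree `⟹ g ∣ Tr X`. -/
theorem dvd_trace (A K L B : Type*) [CommRing A] [IsDomain A] [IsPrincipalIdealRing A]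
    [Field K] [Algebra A K] [IsFractionRing A K] [Field L] [Algebra K L] [Algebra A L]
    [IsScalarTower A K L] [FiniteDimensional K L] [Algebra.IsSeparable K L]
    [CommRing B] [Algebra A B] [Algebra B L] [IsScalarTower A B L] [IsIntegralClosure B A L]
    (g : A) (hg : Squarefree g) (X Y : B) (M : ℕ) (h : X ^ M = g • Y) :
    ∃ t : A, Algebra.trace K L (algebraMap B L X) = algebraMap A K (g * t) := by
  classical
  have : IsDomain B := (IsIntegralClosure.algebraMap_injective B A L).isDomain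
  have : Module.Finite A B := IsIntegralClosure.finite A K L B
  have : Module.IsTorsionFree A L := Module.IsTorsionFree.trans_faithfulSMul A K L
  have : Module.IsTorsionFree A B := IsIntegralClosure.isTorsionFree A L
  have : Module.Free A B := Module.free_of_finite_type_torsion_free'
  have : IsLocalization (Algebra.algebraMapSubmonoid B (nonZeroDivisors A)) L :=
    IsIntegralClosure.isLocalization A K L B
  let b := Module.Free.chooseBasis A B
  have h1 : (Algebra.leftMulMatrix b X) ^ M = g • Algebra.leftMulMatrix b Y := by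
    rw [← map_pow, h, map_smul]
  obtain ⟨t, ht⟩ := Purity.dvd_trace_of_pow_eq g hg _ _ M h1
  refine ⟨t, ?_⟩
  rw [Algebra.trace_localization A (nonZeroDivisors A), Algebra.trace_eq_matrix_trace b, ht]


open scoped IntermediateField.algebraAdjoinAdjoin

/-- the purely "special fibre" part -/
theorem mem_Codiff_of_pow {k Fb : Type*} [Field k] [Field Fb] [Algebra k Fb]
    (xb : Fb) (hxbt : Transcendental k xb)
    [FiniteDimensional k⟮xb⟯ Fb] [Algebra.IsSeparable k⟮xb⟯ Fb]
    (gb : k[X]) (hgb : Squarefree gb) (ωb βb : Fb) (M : ℕ) (hM : 0 < M)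
    (hβ : βb ∈ chart k xb) (h : (aeval xb gb * ωb) ^ M = aeval xb gb * βb) :
    ωb ∈ Codiff k xb := by
  have hPID := ConstAbs.isPrincipalIdealRing_adjoin hxbt
  have hgb0 : aeval xb gb ≠ 0 := fun h0 => hgb.ne_zero (transcendental_iff.mp hxbt gb h0)
  -- `g` as an element of `k[xb]`
  let e := Polynomial.algEquivOfTranscendental k xb hxbt
  have hsq : Squarefree (e gb) := by
    intro y hy
    have h1 : e.symm y * e.symm y ∣ gb := by
      obtain ⟨c, hc⟩ := hy
      refine ⟨e.symm c, ?_⟩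
      rw [← map_mul, ← map_mul, ← hc, AlgEquiv.symm_apply_apply]
    have h2 := hgb _ h1
    have h3 := h2.map e
    rwa [AlgEquiv.apply_symm_apply] at h3
  have heg : ((e gb : Algebra.adjoin k {xb}) : Fb) = aeval xb gb := by
    simp [e]
  have hgmem : aeval xb gb ∈ chart k xb := by
    rw [mem_chart, ← heg]
    exact isIntegral_algebraMap (R := Algebra.adjoin k {xb}) (A := Fb) (x := e gb)
  have hz : aeval xb gb * ωb ∈ chart k xb := by
    rw [mem_chart]
    refine IsIntegral.of_pow hM ?_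
    rw [h]
    exact mul_mem (s := chart k xb) hgmem hβ
  intro hh hhmem
  have hX : hh * (aeval xb gb * ωb) ∈ integralClosure (Algebra.adjoin k {xb}) Fb :=
    mul_mem (s := chart k xb) hhmem hz
  have hY : hh ^ M * βb ∈ integralClosure (Algebra.adjoin k {xb}) Fb :=
    mul_mem (s := chart k xb) (pow_mem (S := chart k xb) hhmem M) hβ
  obtain ⟨t, ht⟩ := dvd_trace (Algebra.adjoin k {xb}) k⟮xb⟯ Fb
    (integralClosure (Algebra.adjoin k {xb}) Fb) (e gb) hsq ⟨_, hX⟩ ⟨_, hY⟩ M (by
      apply Subtype.ext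
      rw [Algebra.smul_def]
      change (hh * (aeval xb gb * ωb)) ^ M = ((e gb : Algebra.adjoin k {xb}) : Fb) * (hh ^ M * βb)
      rw [mul_pow, h, heg]
      ring)
  have ht' : Algebra.trace k⟮xb⟯ Fb (hh * (aeval xb gb * ωb))
      = algebraMap (Algebra.adjoin k {xb}) k⟮xb⟯ (e gb * t) := ht
  have hgK : algebraMap (Algebra.adjoin k {xb}) k⟮xb⟯ (e gb) ≠ 0 := by
    intro h0
    apply hgb0
    rw [← heg]
    exact congrArg Subtype.val h0
  have h5 : hh * (aeval xb gb * ωb)
      = algebraMap (Algebra.adjoin k {xb}) k⟮xb⟯ (e gb) • (hh * ωb) := by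
    rw [Algebra.smul_def]
    change _ = ((e gb : Algebra.adjoin k {xb}) : Fb) * (hh * ωb)
    rw [heg]
    ring
  rw [h5, map_smul, smul_eq_mul, map_mul (algebraMap (Algebra.adjoin k {xb}) k⟮xb⟯)] at ht'
  have h6 : Algebra.trace k⟮xb⟯ Fb (hh * ωb) = algebraMap (Algebra.adjoin k {xb}) k⟮xb⟯ t :=
    mul_left_cancel₀ hgK ht'
  rw [trF, h6]
  exact t.2

end CodiffRed

open CodiffRed in
/-- **A-CODIFF** -/
theorem codiff_red {K F k Fb : Type*} [Field K] [Field F] [Algebra K F] [Field k] [Field Fb]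
    [Algebra k Fb] (O : ValuationSubring F) (red : O →+* Fb)
    (hker : ∀ (f : F) (hf : f ∈ O), f⁻¹ ∉ O → red ⟨f, hf⟩ = 0)
    (x : F) (xb : Fb) (hxbt : Transcendental k xb)
    [FiniteDimensional k⟮xb⟯ Fb] [Algebra.IsSeparable k⟮xb⟯ Fb]
    (hI : ∀ f y, f ∈ chart K x → Red O red f y → y ∈ chart k xb)
    (g : K[X]) (gb : k[X]) (hg : Red O red (aeval x g) (aeval xb gb)) (hgb : Squarefree gb)
    (hRAM : ∀ ω ∈ Codiff K x, ∃ M : ℕ, 0 < M ∧ ∃ β ∈ chart K x,
      (aeval x g * ω) ^ M = aeval x g * β)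
    (ω : F) (ωb : Fb) (hω : ω ∈ Codiff K x) (hred : Red O red ω ωb) : ωb ∈ Codiff k xb := by
  have hgb0 : aeval xb gb ≠ 0 := fun h0 => hgb.ne_zero (transcendental_iff.mp hxbt gb h0)
  have hg0 : aeval x g ≠ 0 := by
    intro h0
    rw [h0] at hg
    exact hgb0 (Red.zero.unique hg).symm
  obtain ⟨M, hM, β, hβ, hz⟩ := hRAM ω hω
  have h1 : β = (aeval x g)⁻¹ * (aeval x g * ω) ^ M := by
    rw [hz, inv_mul_cancel_left₀ hg0]
  have h2 : Red O red β ((aeval xb gb)⁻¹ * (aeval xb gb * ωb) ^ M) := by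
    rw [h1]
    exact (hg.inv hker hgb0).mul ((hg.mul hred).pow M)
  refine mem_Codiff_of_pow xb hxbt gb hgb ωb _ M hM (hI _ _ hβ h2) ?_
  rw [mul_inv_cancel_left₀ hgb0]

end Fermat.Agent.ES.TC
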