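import Fermat.Agent.S28.Degree
import Fermat.Prelude.Def_FLTPrelim_Ramification

/-!
# Project ES: the residue field of a valuation subring of `ℚ̄` and the modular equation over it
-/

set_option autoImplicit false

noncomputable section

namespace Fermat.Agent.ES.ResField

open Fermat.Agent.S28 ModularCurve

local notation "Qbar" => AlgebraicClosure ℚ

variable (A : ValuationSubring Qbar)

theorem mem_of_isIntegral {x : Qbar} (hx : IsIntegral A x) : x ∈ A := by
  obtain ⟨a, ha⟩ := (IsIntegrallyClosed.isIntegral_iff (R := A) (K := Qbar)).mp hx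
  rw [← ha]
  exact a.2

instance isAlgClosed : IsAlgClosed (IsLocalRing.ResidueField A) := by
  apply IsAlgClosed.of_exists_root
  intro p hp hirr
  have hl : p ∈ Polynomial.lifts (IsLocalRing.residue A) := by
    rw [Polynomial.lifts_iff_coeff_lifts]
    intro n
    exact IsLocalRing.residue_surjective _
  obtain ⟨q, hq, hdeg, hmon⟩ := Polynomial.lifts_and_degree_eq_and_monic hl hp
  have hdeg' : (q.map A.subtype).degree ≠ 0 := by
    rw [hmon.degree_map, hdeg]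
    exact (Polynomial.degree_pos_of_irreducible hirr).ne'
  obtain ⟨x, hx⟩ := IsAlgClosed.exists_root (q.map A.subtype) hdeg'
  have hx1 : IsIntegral A x := by
    refine ⟨q, hmon, ?_⟩
    rw [Polynomial.IsRoot.def, Polynomial.eval_map] at hx
    exact hx
  have hxA := mem_of_isIntegral A hx1
  refine ⟨IsLocalRing.residue A ⟨x, hxA⟩, ?_⟩
  rw [← hq, Polynomial.eval_map, Polynomial.eval₂_hom]
  have : Polynomial.eval (⟨x, hxA⟩ : A) q = 0 := by
    apply Subtype.val_injective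
    rw [Polynomial.IsRoot.def, Polynomial.eval_map] at hx
    have h1 := Polynomial.hom_eval₂ q (RingHom.id A) A.subtype (⟨x, hxA⟩ : A)
    rw [RingHom.comp_id, Polynomial.eval₂_id] at h1
    exact h1.trans hx
  rw [this, map_zero]

variable {A}

theorem charP {ℓ : ℕ} (hℓ : ℓ.Prime) (hA : A.LiesOverPrime ℓ) :
    CharP (IsLocalRing.ResidueField A) ℓ := by
  rw [CharP.charP_iff_prime_eq_zero hℓ]
  obtain ⟨ha, hm⟩ := ValuationSubring.mem_nonunits_iff_exists_mem_maximalIdeal.mp hA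
  have h1 : IsLocalRing.residue A ⟨(ℓ : Qbar), ha⟩ = 0 :=
    (IsLocalRing.residue_eq_zero_iff _).mpr hm
  have h2 : (⟨(ℓ : Qbar), ha⟩ : A) = (ℓ : A) := Subtype.ext (by simp)
  rw [h2, map_natCast] at h1
  exact h1

/-- reduction of a primitive root of unity of order prime to the characteristic. -/
theorem isPrimitiveRoot_map {R k : Type*} [CommRing R] [IsDomain R] [Field k] (f : R →+* k)
    {ζ : R} {N : ℕ} (hζ : IsPrimitiveRoot ζ N) (hN : (N : k) ≠ 0) : IsPrimitiveRoot (f ζ) N := by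
  have hN0 : N ≠ 0 := by
    rintro rfl
    simp at hN
  obtain ⟨n, rfl⟩ : ∃ n, N = n + 1 := ⟨N - 1, by omega⟩
  have hprod := hζ.prod_one_sub_pow_eq_order
  have hprod' := congrArg f hprod
  rw [map_prod] at hprod'
  have hN0' : f ((n : R) + 1) ≠ 0 := by
    have : f ((n : R) + 1) = (((n + 1 : ℕ)) : k) := by simp
    rw [this]
    exact hN
  refine IsPrimitiveRoot.mk_of_lt _ (Nat.succ_pos n) ?_ ?_
  · rw [← map_pow, hζ.pow_eq_one, map_one]
  · intro l hl0 hl hcon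
    apply hN0'
    rw [← hprod']
    apply Finset.prod_eq_zero (i := l - 1) (Finset.mem_range.mpr (by omega))
    rw [Nat.sub_add_cancel hl0, map_sub, map_one, map_pow, hcon, sub_self]

theorem mem_of_pow_eq_one {x : Qbar} {n : ℕ} (hn : n ≠ 0) (h : x ^ n = 1) : x ∈ A := by
  apply mem_of_isIntegral
  refine ⟨Polynomial.X ^ n - 1, Polynomial.monic_X_pow_sub_C (1 : A) hn, ?_⟩
  simp [h]

/-- transfer of the modular equation from `ℂ` to a ring embedded in `ℂ`. -/
theorem transfer {R : Type*} [CommRing R] (ι : R →+* ℂ) (hι : Function.Injective ι) (N : ℕ)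
    [NeZero N] (ζR : Rˣ) (h : Units.map (ι : R →* ℂ) ζR = zetaC N) :
    ModEq R ζR N ∧ UnitEq R ζR N := by
  have hbij : Function.Bijective ι.rangeRestrict :=
    ⟨fun x y hxy => hι (congrArg Subtype.val hxy), ι.rangeRestrict_surjective⟩
  obtain ⟨e, he⟩ : ∃ e : R ≃+* ι.range, ∀ x, ((e x : ι.range) : ℂ) = ι x :=
    ⟨RingEquiv.ofBijective ι.rangeRestrict hbij, fun x => rfl⟩
  obtain ⟨ζO, hζO⟩ : ∃ ζO : (ι.range)ˣ, ζO = Units.map (e : R →* ι.range) ζR := ⟨_, rfl⟩
  have h1 : Units.map (ι.range.subtype : ι.range →* ℂ) ζO = zetaC N := by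
    rw [← h, hζO]
    ext
    exact he _
  have h2 : ModEq ι.range ζO N := Int'.modEq_subring _ ζO N (by rw [h1]; exact modEq_complex N)
  have h3 : UnitEq ι.range ζO N := Int'.unitEq_subring _ ζO N (by rw [h1]; exact unitEq_complex N)
  have h4 : Units.map ((e.symm : ι.range →+* R) : ι.range →* R) ζO = ζR := by
    rw [hζO]
    ext
    exact e.symm_apply_apply _
  have h5 := Int'.modEq_of_surjective (e.symm : ι.range →+* R) e.symm.surjective ζO N h2
  have h6 := Int'.unitEq_of_ringHom (e.symm : ι.range →+* R) ζO N h3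
  rw [h4] at h5 h6
  exact ⟨h5, h6⟩

/-- an embedding `ℚ̄ → ℂ`. -/
def iot : Qbar →+* ℂ :=
  haveI : Algebra.IsAlgebraic ℚ (AlgebraicClosure ℚ) := AlgebraicClosure.isAlgebraic ℚ
  ((IsAlgClosed.lift : AlgebraicClosure ℚ →ₐ[ℚ] ℂ) : AlgebraicClosure ℚ →+* ℂ)

theorem exists_zetaQ (N : ℕ) [NeZero N] : ∃ ζ₁ : Qbar, iot ζ₁ = (zetaC N : ℂ) := by
  have hN : N ≠ 0 := NeZero.ne N
  obtain ⟨ζ₀, hζ₀⟩ := IsAlgClosed.exists_root (Polynomial.cyclotomic N Qbar)
    (Polynomial.degree_cyclotomic_pos N Qbar (Nat.pos_of_ne_zero hN)).ne'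
  have h0 : IsPrimitiveRoot ζ₀ N := (Polynomial.isRoot_cyclotomic_iff).mp hζ₀
  have h1 : IsPrimitiveRoot (iot ζ₀) N := h0.map_of_injective iot.injective
  have h2 : ((zetaC N : ℂˣ) : ℂ) ^ N = 1 :=
    (IsPrimitiveRoot.coe_units_iff.mpr (Degree.isPrimitiveRoot_zetaC N)).pow_eq_one
  obtain ⟨i, -, hi⟩ := h1.eq_pow_of_pow_eq_one h2
  exact ⟨ζ₀ ^ i, by rw [map_pow, hi]⟩

/-- the modular equation and the unit equation over `A`. -/
theorem exists_zetaA (A : ValuationSubring Qbar) (N : ℕ) [NeZero N] :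
    ∃ ζ : Aˣ, IsPrimitiveRoot ζ N ∧ ModEq A ζ N ∧ UnitEq A ζ N := by
  have hN : N ≠ 0 := NeZero.ne N
  obtain ⟨ζ₁, hζ₁⟩ := exists_zetaQ N
  have hprim₁ : IsPrimitiveRoot ζ₁ N := by
    have : IsPrimitiveRoot (iot ζ₁) N := by
      rw [hζ₁]
      exact IsPrimitiveRoot.coe_units_iff.mpr (Degree.isPrimitiveRoot_zetaC N)
    exact IsPrimitiveRoot.of_map_of_injective this iot.injective
  have hmem : ζ₁ ∈ A := mem_of_pow_eq_one hN hprim₁.pow_eq_one
  have hmem' : ζ₁⁻¹ ∈ A := mem_of_pow_eq_one hN (by rw [inv_pow, hprim₁.pow_eq_one, inv_one])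
  have hζ₁0 : ζ₁ ≠ 0 := hprim₁.ne_zero hN
  obtain ⟨ζA, hζA⟩ : ∃ ζA : Aˣ, ((ζA : A) : Qbar) = ζ₁ :=
    ⟨⟨⟨ζ₁, hmem⟩, ⟨ζ₁⁻¹, hmem'⟩, Subtype.ext (mul_inv_cancel₀ hζ₁0),
      Subtype.ext (inv_mul_cancel₀ hζ₁0)⟩, rfl⟩
  have hinj : Function.Injective (iot.comp A.subtype) :=
    iot.injective.comp Subtype.val_injective
  have h := transfer (iot.comp A.subtype) hinj N ζA (by
    ext
    change iot ((ζA : A) : Qbar) = _
    rw [hζA, hζ₁])
  refine ⟨ζA, ?_, h.1, h.2⟩
  rw [← IsPrimitiveRoot.coe_units_iff]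
  apply IsPrimitiveRoot.of_map_of_injective (f := A.subtype) _ Subtype.val_injective
  change IsPrimitiveRoot ((ζA : A) : Qbar) N
  rw [hζA]
  exact hprim₁

theorem exists_zeta_of_surjective {R k : Type*} [CommRing R] [IsDomain R] [Field k] (f : R →+* k)
    (hf : Function.Surjective f) (N : ℕ) [NeZero N] (ζ : Rˣ) (hprim : IsPrimitiveRoot ζ N)
    (h1 : ModEq R ζ N) (h2 : UnitEq R ζ N) (hN : (N : k) ≠ 0) :
    ∃ ζ' : kˣ, IsPrimitiveRoot ζ' N ∧ ModEq k ζ' N ∧ UnitEq k ζ' N := by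
  refine ⟨Units.map (f : R →* k) ζ, ?_, Int'.modEq_of_surjective f hf ζ N h1,
    Int'.unitEq_of_ringHom f ζ N h2⟩
  rw [← IsPrimitiveRoot.coe_units_iff]
  exact isPrimitiveRoot_map f (IsPrimitiveRoot.coe_units_iff.mpr hprim) hN

/-- the modular equation and the unit equation over the residue field of `A`. -/
theorem exists_zeta (N ℓ : ℕ) [NeZero N] (hℓ : ℓ.Prime) (hℓN : ¬ ℓ ∣ N)
    (hA : A.LiesOverPrime ℓ) :
    ∃ ζ : (IsLocalRing.ResidueField A)ˣ, IsPrimitiveRoot ζ N ∧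
      ModEq (IsLocalRing.ResidueField A) ζ N ∧ UnitEq (IsLocalRing.ResidueField A) ζ N := by
  obtain ⟨ζA, hprim, h1, h2⟩ := exists_zetaA A N
  have hchar := charP hℓ hA
  have hNk : (N : IsLocalRing.ResidueField A) ≠ 0 := by
    rw [Ne, CharP.cast_eq_zero_iff _ ℓ]
    exact hℓN
  exact exists_zeta_of_surjective (IsLocalRing.residue A) IsLocalRing.residue_surjective N ζA
    hprim h1 h2 hNk

end Fermat.Agent.ES.ResField
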