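import Mathlib
import Fermat.Prelude.Def_ModularCurve_ReductionModL
import Fermat.Prelude.Def_EllipticCurve_FrobeniusTrace

/-!
# Project ES: the Prelude glue for S18

`S18` (injectivity of the reduction map on prime-to-`ℓ` torsion) follows from

* `Inj A N m`: a function `y₁ / y₂` (`y₁, y₂` with `A`-integral `q`-expansions and nonzero
  reductions) whose divisor is divisible by `m` and whose reduction is an `m`-th power is, up to
  a constant, an `m`-th power;
* `ConstK A N`: a function of the reduced function field without zeros and poles is constant.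
-/

set_option autoImplicit false
set_option synthInstance.maxHeartbeats 400000
set_option maxHeartbeats 1000000

noncomputable section

namespace Fermat.Agent.ES

open ModularCurve AlgebraicCurve HahnSeries

/-- The abstract injectivity statement (output of MODEL + MOD). -/
def Inj (A : ValuationSubring (AlgebraicClosure ℚ)) (N m : ℕ) : Prop :=
  ∀ (y₁ y₂ : LaurentSeries A)
    (h₁ : coeffMap A.subtype y₁ ∈ modularFunctionFieldBar N)
    (h₂ : coeffMap A.subtype y₂ ∈ modularFunctionFieldBar N),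
    coeffMap (IsLocalRing.residue A) y₁ ≠ 0 → coeffMap (IsLocalRing.residue A) y₂ ≠ 0 →
    coeffMap (IsLocalRing.residue A) y₁ ∈
      modularFunctionFieldFullC (IsLocalRing.ResidueField A) N →
    coeffMap (IsLocalRing.residue A) y₂ ∈
      modularFunctionFieldFullC (IsLocalRing.ResidueField A) N →
    (∃ s ∈ modularFunctionFieldFullC (IsLocalRing.ResidueField A) N,
      coeffMap (IsLocalRing.residue A) y₁ = s ^ m * coeffMap (IsLocalRing.residue A) y₂) →
    (∀ P : Place (AlgebraicClosure ℚ) (modularFunctionFieldBar N),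
      (m : ℤ) ∣ P.ord (⟨_, h₁⟩ : modularFunctionFieldBar N) -
        P.ord (⟨_, h₂⟩ : modularFunctionFieldBar N)) →
    ∃ u : modularFunctionFieldBar N, u ≠ 0 ∧
      ∀ P : Place (AlgebraicClosure ℚ) (modularFunctionFieldBar N),
        P.ord (⟨_, h₁⟩ : modularFunctionFieldBar N) -
          P.ord (⟨_, h₂⟩ : modularFunctionFieldBar N) = m * P.ord u

/-- A function of the reduced field without zeros and poles is constant. -/
def ConstK (A : ValuationSubring (AlgebraicClosure ℚ)) (N : ℕ) : Prop :=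
  ∀ u : modularFunctionFieldFullC (IsLocalRing.ResidueField A) N, u ≠ 0 →
    (∀ Q : Place (IsLocalRing.ResidueField A)
      (modularFunctionFieldFullC (IsLocalRing.ResidueField A) N), Q.ord u = 0) →
    ∃ c : IsLocalRing.ResidueField A,
      u = algebraMap _ (modularFunctionFieldFullC (IsLocalRing.ResidueField A) N) c

namespace S18Glue

theorem mem_of_pow_mem (A : ValuationSubring (AlgebraicClosure ℚ)) {x : AlgebraicClosure ℚ}
    {m : ℕ} (hm : m ≠ 0) (h : x ^ m ∈ A) : x ∈ A := by
  rcases A.mem_or_inv_mem x with hx | hx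
  · exact hx
  · rcases eq_or_ne x 0 with rfl | hx0
    · exact A.zero_mem
    · obtain ⟨n, rfl⟩ := Nat.exists_eq_succ_of_ne_zero hm
      have : x = x ^ (n + 1) * x⁻¹ ^ n := by
        rw [pow_succ, inv_pow]
        field_simp
      rw [this]
      exact A.mul_mem _ _ h (pow_mem hx n)

theorem exists_pow_eq (A : ValuationSubring (AlgebraicClosure ℚ)) {m : ℕ} (hm : m ≠ 0)
    (c : IsLocalRing.ResidueField A) : ∃ x : IsLocalRing.ResidueField A, x ^ m = c := by
  obtain ⟨a, rfl⟩ := IsLocalRing.residue_surjective c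
  obtain ⟨x, hx⟩ := IsAlgClosed.exists_pow_nat_eq (a : AlgebraicClosure ℚ)
    (Nat.pos_of_ne_zero hm)
  have hxA : x ∈ A := mem_of_pow_mem A hm (by rw [hx]; exact a.2)
  refine ⟨IsLocalRing.residue A ⟨x, hxA⟩, ?_⟩
  rw [← map_pow]
  congr 1
  exact Subtype.ext hx

section Closure

variable {L : Type*} [Field L] [Algebra ℚ L] {A : ValuationSubring L}
variable {k : Type*} [Field k] {π : A →+* k} {N : ℕ}
variable {r : Place L (laurentBaseChange L (modularFunctionFieldFull N)) →
  Place k (modularFunctionFieldFullC k N)}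

omit [Algebra ℚ L] in
theorem coeffMap_subtype_ne_zero {y : LaurentSeries A} (h : coeffMap π y ≠ 0) :
    coeffMap A.subtype y ≠ 0 := by
  intro h0
  apply h
  have hy : y = 0 := by
    ext n
    have := congrArg (fun z => HahnSeries.coeff z n) h0
    simpa using this
  rw [hy, map_zero]

/-- a divisor which is the divisor of a quotient of two integral functions, compatibly with
reduction. -/
def IsQuot (r : Place L (laurentBaseChange L (modularFunctionFieldFull N)) →
    Place k (modularFunctionFieldFullC k N)) (π : A →+* k)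
    (E : Divisor L (laurentBaseChange L (modularFunctionFieldFull N))) : Prop :=
  ∃ (y₁ y₂ : LaurentSeries A)
    (h₁ : coeffMap A.subtype y₁ ∈ laurentBaseChange L (modularFunctionFieldFull N))
    (h₂ : coeffMap A.subtype y₂ ∈ laurentBaseChange L (modularFunctionFieldFull N))
    (k₁ : coeffMap π y₁ ∈ modularFunctionFieldFullC k N)
    (k₂ : coeffMap π y₂ ∈ modularFunctionFieldFullC k N),
    coeffMap π y₁ ≠ 0 ∧ coeffMap π y₂ ≠ 0 ∧
    (∀ P, E P = P.ord (⟨_, h₁⟩ : laurentBaseChange L (modularFunctionFieldFull N)) -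
      P.ord (⟨_, h₂⟩ : laurentBaseChange L (modularFunctionFieldFull N))) ∧
    (∀ Q, Finsupp.mapDomain r E Q = Q.ord (⟨_, k₁⟩ : modularFunctionFieldFullC k N) -
      Q.ord (⟨_, k₂⟩ : modularFunctionFieldFullC k N))

theorem isQuot_of_mem_closure (hr : IsPlaceReductionAlong A π N r)
    {E : Divisor L (laurentBaseChange L (modularFunctionFieldFull N))}
    (hE : E ∈ AddSubgroup.closure (integralPrincipalDivisors A π N)) : IsQuot r π E := by
  induction hE using AddSubgroup.closure_induction with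
  | mem E hE =>
    obtain ⟨y, hy, hyk, hne, hEy⟩ := hE
    refine ⟨y, 1, hy, by rw [map_one]; exact one_mem _, hyk, by rw [map_one]; exact one_mem _,
      hne, by rw [map_one]; exact one_ne_zero, fun P => ?_, fun Q => ?_⟩
    · have h1 : (⟨coeffMap A.subtype (1 : LaurentSeries A), by rw [map_one]; exact one_mem _⟩ :
          laurentBaseChange L (modularFunctionFieldFull N)) = 1 := Subtype.ext (map_one _)
      rw [h1, Place.ord_one, sub_zero, hEy P]
    · have h1 : (⟨coeffMap π (1 : LaurentSeries A), by rw [map_one]; exact one_mem _⟩ :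
          modularFunctionFieldFullC k N) = 1 := Subtype.ext (map_one _)
      rw [h1, Place.ord_one, sub_zero]
      exact hr.2 y hy hyk hne E hEy Q
  | zero =>
    refine ⟨1, 1, by rw [map_one]; exact one_mem _, by rw [map_one]; exact one_mem _,
      by rw [map_one]; exact one_mem _, by rw [map_one]; exact one_mem _,
      by rw [map_one]; exact one_ne_zero, by rw [map_one]; exact one_ne_zero,
      fun P => by simp, fun Q => by simp⟩
  | add E E' _ _ hE hE' =>
    obtain ⟨y₁, y₂, h₁, h₂, k₁, k₂, n₁, n₂, hP, hQ⟩ := hE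
    obtain ⟨y₁', y₂', h₁', h₂', k₁', k₂', n₁', n₂', hP', hQ'⟩ := hE'
    refine ⟨y₁ * y₁', y₂ * y₂', by rw [map_mul]; exact mul_mem h₁ h₁',
      by rw [map_mul]; exact mul_mem h₂ h₂', by rw [map_mul]; exact mul_mem k₁ k₁',
      by rw [map_mul]; exact mul_mem k₂ k₂', by rw [map_mul]; exact mul_ne_zero n₁ n₁',
      by rw [map_mul]; exact mul_ne_zero n₂ n₂', fun P => ?_, fun Q => ?_⟩
    · have e1 : (⟨coeffMap A.subtype (y₁ * y₁'), by rw [map_mul]; exact mul_mem h₁ h₁'⟩ :
          laurentBaseChange L (modularFunctionFieldFull N)) = ⟨_, h₁⟩ * ⟨_, h₁'⟩ :=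
        Subtype.ext (map_mul _ _ _)
      have e2 : (⟨coeffMap A.subtype (y₂ * y₂'), by rw [map_mul]; exact mul_mem h₂ h₂'⟩ :
          laurentBaseChange L (modularFunctionFieldFull N)) = ⟨_, h₂⟩ * ⟨_, h₂'⟩ :=
        Subtype.ext (map_mul _ _ _)
      rw [e1, e2, Place.ord_mul, Place.ord_mul, Finsupp.add_apply, hP P, hP' P]
      · ring
      · exact fun h => coeffMap_subtype_ne_zero n₂ (congrArg Subtype.val h)
      · exact fun h => coeffMap_subtype_ne_zero n₂' (congrArg Subtype.val h)
      · exact fun h => coeffMap_subtype_ne_zero n₁ (congrArg Subtype.val h)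
      · exact fun h => coeffMap_subtype_ne_zero n₁' (congrArg Subtype.val h)
    · have e1 : (⟨coeffMap π (y₁ * y₁'), by rw [map_mul]; exact mul_mem k₁ k₁'⟩ :
          modularFunctionFieldFullC k N) = ⟨_, k₁⟩ * ⟨_, k₁'⟩ :=
        Subtype.ext (map_mul _ _ _)
      have e2 : (⟨coeffMap π (y₂ * y₂'), by rw [map_mul]; exact mul_mem k₂ k₂'⟩ :
          modularFunctionFieldFullC k N) = ⟨_, k₂⟩ * ⟨_, k₂'⟩ :=
        Subtype.ext (map_mul _ _ _)
      rw [e1, e2, Place.ord_mul, Place.ord_mul, Finsupp.mapDomain_add, Finsupp.add_apply, hQ Q,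
        hQ' Q]
      · ring
      · exact fun h => n₂ (congrArg Subtype.val h)
      · exact fun h => n₂' (congrArg Subtype.val h)
      · exact fun h => n₁ (congrArg Subtype.val h)
      · exact fun h => n₁' (congrArg Subtype.val h)
  | neg E _ hE =>
    obtain ⟨y₁, y₂, h₁, h₂, k₁, k₂, n₁, n₂, hP, hQ⟩ := hE
    refine ⟨y₂, y₁, h₂, h₁, k₂, k₁, n₂, n₁, fun P => ?_, fun Q => ?_⟩
    · rw [Finsupp.neg_apply, hP P]; ring
    · rw [← Finsupp.mapDomain.addMonoidHom_apply, map_neg, Finsupp.mapDomain.addMonoidHom_apply,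
        Finsupp.neg_apply, hQ Q]
      ring

end Closure

end S18Glue

open S18Glue

/-- **S18 from `Inj` and `ConstK`.** -/
theorem s18_of_inj (N : ℕ) [NeZero N] {ℓ : ℕ}
    [Fact ℓ.Prime] (A : ValuationSubring (AlgebraicClosure ℚ))
    (h : ModularCurve.ReductionInputsModL A N) (m : ℕ) (hm : ¬ ℓ ∣ m)
    (hinj : Inj A N m) (hconst : ConstK A N) (z : ModularCurve.JZero N)
    (hmz : m • z = 0) (hz : ModularCurve.reductionModL A N z = 0) :
    z = 0 := by
  have hm0 : m ≠ 0 := fun h0 => hm (h0 ▸ dvd_zero ℓ)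
  obtain ⟨D, rfl⟩ := Pic0.mk_surjective z
  have hr := isPlaceReductionModL_placeReductionModL h
  have hgen : PrincipalGeneratedByIntegral A (IsLocalRing.residue A) N := h.choose_spec.2
  -- `m D` is principal
  have hprin : m • (D : Divisor (AlgebraicClosure ℚ) (modularFunctionFieldBar N)) ∈
      Divisor.principal (K := AlgebraicClosure ℚ) (F := modularFunctionFieldBar N) := by
    have h1 : Pic0.mk (m • D) = 0 := hmz
    have h2 := (QuotientAddGroup.eq_zero_iff (m • D)).mp h1
    rw [AddSubgroup.mem_addSubgroupOf] at h2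
    simpa using h2
  obtain ⟨y₁, y₂, h₁, h₂, k₁, k₂, n₁, n₂, hP, hQ⟩ := isQuot_of_mem_closure hr (hgen hprin)
  -- the reduction of `D` is principal
  rw [reductionModL_mk h D] at hz
  have hz2 := (QuotientAddGroup.eq_zero_iff _).mp hz
  rw [AddSubgroup.mem_addSubgroupOf, coe_reductionDegZeroAlong] at hz2
  obtain ⟨g, hg0, hg⟩ := hz2
  -- the quotient has trivial divisor
  set Y₁ : modularFunctionFieldFullC (IsLocalRing.ResidueField A) N := ⟨_, k₁⟩ with hY₁
  set Y₂ : modularFunctionFieldFullC (IsLocalRing.ResidueField A) N := ⟨_, k₂⟩ with hY₂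
  have hY₁0 : Y₁ ≠ 0 := fun h0 => n₁ (congrArg Subtype.val h0)
  have hY₂0 : Y₂ ≠ 0 := fun h0 => n₂ (congrArg Subtype.val h0)
  have hord : ∀ Q : Place (IsLocalRing.ResidueField A)
      (modularFunctionFieldFullC (IsLocalRing.ResidueField A) N),
      Q.ord Y₁ - Q.ord Y₂ = m * Q.ord g := by
    intro Q
    rw [← hQ Q, ← hg Q, ← Finsupp.mapDomain.addMonoidHom_apply, map_nsmul,
      Finsupp.mapDomain.addMonoidHom_apply, Finsupp.smul_apply, nsmul_eq_mul]
  obtain ⟨c, hc⟩ := hconst (Y₁ * (Y₂ * g ^ m)⁻¹)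
    (mul_ne_zero hY₁0 (inv_ne_zero (mul_ne_zero hY₂0 (pow_ne_zero m hg0)))) (by
      intro Q
      have hpow : Q.ord (g ^ m) = m * Q.ord g := by
        have := Q.ord_zpow g (m : ℤ)
        rwa [zpow_natCast] at this
      rw [Q.ord_mul hY₁0 (inv_ne_zero (mul_ne_zero hY₂0 (pow_ne_zero m hg0))),
        Q.ord_inv, Q.ord_mul hY₂0 (pow_ne_zero m hg0), hpow]
      have := hord Q
      linarith)
  obtain ⟨c₁, hc₁⟩ := exists_pow_eq A hm0 c
  have hs : Y₁ = (algebraMap _ (modularFunctionFieldFullC (IsLocalRing.ResidueField A) N) c₁ * g)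
      ^ m * Y₂ := by
    rw [mul_pow, ← map_pow, hc₁, ← hc]
    field_simp
  obtain ⟨u, hu0, hu⟩ := hinj y₁ y₂ h₁ h₂ n₁ n₂ k₁ k₂
    ⟨_, (algebraMap _ (modularFunctionFieldFullC (IsLocalRing.ResidueField A) N) c₁ * g).2,
      congrArg Subtype.val hs⟩ (by
      intro P
      rw [← hP P, Finsupp.smul_apply, nsmul_eq_mul]
      exact dvd_mul_right _ _)
  -- conclusion
  refine (QuotientAddGroup.eq_zero_iff D).mpr ?_
  rw [AddSubgroup.mem_addSubgroupOf]
  refine ⟨u, hu0, fun P => ?_⟩
  have h3 := hu P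
  rw [← hP P, Finsupp.smul_apply, nsmul_eq_mul] at h3
  exact mul_left_cancel₀ (by exact_mod_cast hm0) h3

end Fermat.Agent.ES
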