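import Fermat.Agent.ES.FkSep
import Fermat.Agent.ES.ConstAbs
import Fermat.Agent.ES.ResField
import Fermat.Agent.ES.S18Glue

/-!
# Project ES: the constants of the reduced modular function field
-/

set_option autoImplicit false
set_option linter.style.haveILetI false

noncomputable section

namespace Fermat.Agent.ES

open Fermat.Agent.S28 ModularCurve AlgebraicCurve IntermediateField

namespace ConstKAux

/-- a Laurent series which is algebraic over the coefficient field is constant. -/
theorem const_of_isAlgebraic {k : Type*} [Field k] (x : LaurentSeries k) (h : IsAlgebraic k x) :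
    ∃ c : k, x = algebraMap k (LaurentSeries k) c := by
  refine ⟨x.coeff 0, ?_⟩
  by_contra hne
  set z := x - algebraMap k (LaurentSeries k) (x.coeff 0) with hz
  have hz0 : z ≠ 0 := sub_ne_zero.mpr hne
  have hzalg : IsAlgebraic k z := h.sub (isAlgebraic_algebraMap _)
  have hc0 : z.coeff 0 = 0 := by
    rw [hz, HahnSeries.coeff_sub, Ord.algebraMap_eq_C, HahnSeries.C_apply,
      HahnSeries.coeff_single_same, sub_self]
  rcases lt_trichotomy z.order 0 with hlt | heq | hgt
  · exact Ord.transcendental_of_order_neg hlt hzalg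
  · have := Ord.coeff_order_ne_zero' hz0
    rw [heq] at this
    exact this hc0
  · have h1 : (z⁻¹).order < 0 := by
      have h2 := HahnSeries.order_mul hz0 (inv_ne_zero hz0)
      rw [mul_inv_cancel₀ hz0, HahnSeries.order_one] at h2
      omega
    exact Ord.transcendental_of_order_neg h1 hzalg.inv

/-- a function of the reduced field without poles is constant. -/
theorem const_of_ord_nonneg {k : Type*} [Field k] [Infinite k] {N : ℕ} [NeZero N] (ζ : kˣ)
    (hζ : IsPrimitiveRoot ζ N) (h1 : ModEq k ζ N) (u : modularFunctionFieldFullC k N)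
    (h : ∀ Q : Place k (modularFunctionFieldFullC k N), 0 ≤ Q.ord u) :
    ∃ c : k, u = algebraMap k (modularFunctionFieldFullC k N) c := by
  haveI := FkSep.finiteDimensional ζ hζ h1
  haveI := FkSep.isSeparable ζ hζ h1
  have h2 := ConstAbs.isAlgebraic_of_ord_nonneg (FkSep.transcendental_jF k N) u h
  have h3 : IsAlgebraic k (u : LaurentSeries k) :=
    h2.algHom (modularFunctionFieldFullC k N).val
  obtain ⟨c, hc⟩ := const_of_isAlgebraic _ h3
  exact ⟨c, Subtype.ext hc⟩

end ConstKAux

theorem constK (A : ValuationSubring (AlgebraicClosure ℚ)) (N ℓ : ℕ) [NeZero N] (hℓ : ℓ.Prime)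
    (hℓN : ¬ ℓ ∣ N) (hA : A.LiesOverPrime ℓ) : ConstK A N := by
  intro u _ h
  obtain ⟨ζ, hζ, h1, -⟩ := ResField.exists_zeta N ℓ hℓ hℓN hA
  haveI : Infinite (IsLocalRing.ResidueField A) := IsAlgClosed.instInfinite
  exact ConstKAux.const_of_ord_nonneg ζ hζ h1 u fun Q => (h Q).ge

end Fermat.Agent.ES
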