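import Fermat.Agent.ES.InstDefs
import Fermat.Agent.S28.Ord

/-!
# ES, block INJ, instantiation : packages I-UP and I-DEF

* `bc_mem_of` : `K0(gen) ⊆ K0((q))` is mapped into `FF N` by the extension of coefficients,
* `exists_K0` : every finite subset of `FF N` is defined over a number field.
-/

set_option autoImplicit false

namespace Fermat.Agent.ES.Inst

open ModularCurve AlgebraicCurve Polynomial
open Fermat.Agent.S24 Fermat.Agent.S28 Fermat.Agent.ES.QE Fermat.Agent.ES.IDvr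

namespace InstUp

theorem bc_algebraMap (K0 : IntermediateField ℚ Kb) (c : K0) :
    bc K0 (algebraMap K0 (LaurentSeries K0) c) = algebraMap Kb (LaurentSeries Kb) (c : Kb) := by
  rw [algebraMap_laurentSeries_eq_single, algebraMap_laurentSeries_eq_single, bc, coeffMap_single]
  rfl

theorem bc_gen (K0 : IntermediateField ℚ Kb) (N : ℕ) (x : Gen N) :
    bc K0 (gen K0 N x) = gen Kb N x := coeffMap_gen _ N x

/-- `f` is defined over `K0`. -/
def IsDef (N : ℕ) (K0 : IntermediateField ℚ Kb) (f : LaurentSeries Kb) : Prop :=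
  ∃ f0 ∈ F0 K0 N, bc K0 f0 = f

variable {N : ℕ} {K0 : IntermediateField ℚ Kb}

theorem IsDef.add {f g : LaurentSeries Kb} (hf : IsDef N K0 f) (hg : IsDef N K0 g) :
    IsDef N K0 (f + g) := by
  obtain ⟨f0, hf0, rfl⟩ := hf
  obtain ⟨g0, hg0, rfl⟩ := hg
  exact ⟨f0 + g0, add_mem hf0 hg0, map_add _ _ _⟩

theorem IsDef.mul {f g : LaurentSeries Kb} (hf : IsDef N K0 f) (hg : IsDef N K0 g) :
    IsDef N K0 (f * g) := by
  obtain ⟨f0, hf0, rfl⟩ := hf
  obtain ⟨g0, hg0, rfl⟩ := hg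
  exact ⟨f0 * g0, mul_mem hf0 hg0, map_mul _ _ _⟩

theorem IsDef.neg {f : LaurentSeries Kb} (hf : IsDef N K0 f) : IsDef N K0 (-f) := by
  obtain ⟨f0, hf0, rfl⟩ := hf
  exact ⟨-f0, neg_mem hf0, map_neg _ _⟩

theorem IsDef.inv {f : LaurentSeries Kb} (hf : IsDef N K0 f) : IsDef N K0 f⁻¹ := by
  obtain ⟨f0, hf0, rfl⟩ := hf
  exact ⟨f0⁻¹, inv_mem hf0, map_inv₀ _ _⟩

theorem isDef_const {a : Kb} (ha : a ∈ K0) : IsDef N K0 (algebraMap Kb (LaurentSeries Kb) a) :=
  ⟨algebraMap K0 _ ⟨a, ha⟩, (F0 K0 N).algebraMap_mem _, bc_algebraMap K0 ⟨a, ha⟩⟩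

theorem isDef_gen (x : Gen N) : IsDef N K0 (gen Kb N x) :=
  ⟨gen K0 N x, IntermediateField.subset_adjoin _ _ ⟨x, rfl⟩, bc_gen K0 N x⟩

/-- extension of the coefficients `K0((q)) → K0'((q))`. -/
noncomputable def bc2 {K0 K0' : IntermediateField ℚ Kb} (h : K0 ≤ K0') :
    LaurentSeries K0 →+* LaurentSeries K0' :=
  coeffMap (IntermediateField.inclusion h : K0 →+* K0')

theorem bc_bc2 {K0 K0' : IntermediateField ℚ Kb} (h : K0 ≤ K0') (f : LaurentSeries K0) :
    bc K0' (bc2 h f) = bc K0 f := by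
  rw [bc, bc2, coeffMap_coeffMap]
  rfl

theorem bc2_mem {K0 K0' : IntermediateField ℚ Kb} (h : K0 ≤ K0') {f : LaurentSeries K0}
    (hf : f ∈ F0 K0 N) : bc2 h f ∈ F0 K0' N := by
  induction hf using IntermediateField.adjoin_induction with
  | mem y hy =>
    obtain ⟨x, rfl⟩ := hy
    rw [bc2, coeffMap_gen]
    exact IntermediateField.subset_adjoin _ _ ⟨x, rfl⟩
  | algebraMap c =>
    have : bc2 h (algebraMap K0 (LaurentSeries K0) c)
        = algebraMap K0' (LaurentSeries K0') (IntermediateField.inclusion h c) := by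
      rw [algebraMap_laurentSeries_eq_single, algebraMap_laurentSeries_eq_single, bc2,
        coeffMap_single]
      rfl
    rw [this]
    exact (F0 K0' N).algebraMap_mem _
  | add a b _ _ ha hb => rw [map_add]; exact add_mem ha hb
  | inv a _ ha => rw [map_inv₀]; exact inv_mem ha
  | mul a b _ _ ha hb => rw [map_mul]; exact mul_mem ha hb

theorem IsDef.mono {K0' : IntermediateField ℚ Kb} (h : K0 ≤ K0') {f : LaurentSeries Kb}
    (hf : IsDef N K0 f) : IsDef N K0' f := by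
  obtain ⟨f0, hf0, rfl⟩ := hf
  exact ⟨bc2 h f0, bc2_mem h hf0, bc_bc2 h f0⟩

theorem jdL_eq_gen {d : ℕ} [NeZero d] (hd : d ∣ N) (hN : N ≠ 0) :
    jdL d = gen Kb N (false, ⟨d, Nat.mem_divisors.2 ⟨hd, hN⟩⟩) := by
  rw [jdL_eq, gen]
  simp only [Bool.false_eq_true, if_false]
  rw [gX, qExp_eq]
  rfl

/-- every element of `FF N` is defined over a number field containing a given one. -/
theorem exists_isDef (N : ℕ) [NeZero N] (f : FF N) :
    ∀ (K1 : IntermediateField ℚ Kb), FiniteDimensional ℚ K1 →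
      ∃ K0 : IntermediateField ℚ Kb, FiniteDimensional ℚ K0 ∧ K1 ≤ K0 ∧
        IsDef N K0 (f : LaurentSeries Kb) := by
  induction f using FF_induction with
  | hc a =>
    intro K1 _
    have : Algebra.IsAlgebraic ℚ Kb := AlgebraicClosure.isAlgebraic ℚ
    obtain ⟨K0, h0, h1, h2⟩ := exists_numberField_ge K1 {a}
    exact ⟨K0, h0, h1, isDef_const (h2 a (Finset.mem_singleton_self a))⟩
  | hj d hd =>
    intro K1 h1
    refine ⟨K1, h1, le_rfl, ?_⟩
    rw [coe_jd, jdL_eq_gen hd (NeZero.ne N)]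
    exact isDef_gen _
  | hadd x y hx hy =>
    intro K1 h1
    obtain ⟨K2, h2, h12, hx2⟩ := hx K1 h1
    obtain ⟨K3, h3, h23, hy3⟩ := hy K2 h2
    exact ⟨K3, h3, h12.trans h23, (hx2.mono h23).add hy3⟩
  | hneg x hx =>
    intro K1 h1
    obtain ⟨K2, h2, h12, hx2⟩ := hx K1 h1
    exact ⟨K2, h2, h12, hx2.neg⟩
  | hmul x y hx hy =>
    intro K1 h1
    obtain ⟨K2, h2, h12, hx2⟩ := hx K1 h1
    obtain ⟨K3, h3, h23, hy3⟩ := hy K2 h2
    exact ⟨K3, h3, h12.trans h23, (hx2.mono h23).mul hy3⟩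
  | hinv x hx =>
    intro K1 h1
    obtain ⟨K2, h2, h12, hx2⟩ := hx K1 h1
    exact ⟨K2, h2, h12, hx2.inv⟩

end InstUp

open InstUp

/-- **I-UP**, with `gen_mem_FF` (I-GY) as a hypothesis. -/
theorem bc_mem_of (K0 : IntermediateField ℚ Kb) (N : ℕ)
    (hgen : ∀ x : Gen N, gen Kb N x ∈ modularFunctionFieldBar N) {f : LaurentSeries K0}
    (hf : f ∈ F0 K0 N) : bc K0 f ∈ modularFunctionFieldBar N := by
  induction hf using IntermediateField.adjoin_induction with
  | mem y hy =>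
    obtain ⟨x, rfl⟩ := hy
    rw [bc_gen]
    exact hgen x
  | algebraMap c =>
    rw [bc_algebraMap]
    exact (modularFunctionFieldBar N).algebraMap_mem _
  | add a b _ _ ha hb => rw [map_add]; exact add_mem ha hb
  | inv a _ ha => rw [map_inv₀]; exact inv_mem ha
  | mul a b _ _ ha hb => rw [map_mul]; exact mul_mem ha hb

/-- **I-DEF**: finite definability. -/
theorem exists_K0 (N : ℕ) [NeZero N] (K1 : IntermediateField ℚ Kb) [FiniteDimensional ℚ K1]
    (S : Finset (FF N)) :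
    ∃ K0 : IntermediateField ℚ Kb, FiniteDimensional ℚ K0 ∧ K1 ≤ K0 ∧
      ∀ f ∈ S, ∃ f0 ∈ F0 K0 N, bc K0 f0 = (f : LaurentSeries Kb) := by
  classical
  induction S using Finset.induction_on with
  | empty => exact ⟨K1, inferInstance, le_rfl, fun f hf => absurd hf (Finset.notMem_empty f)⟩
  | insert a S _ ih =>
    obtain ⟨K2, h2, h12, hS⟩ := ih
    obtain ⟨K3, h3, h23, ha⟩ := exists_isDef N a K2 h2
    refine ⟨K3, h3, h12.trans h23, fun f hf => ?_⟩
    rcases Finset.mem_insert.1 hf with rfl | hf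
    · exact ha
    · exact IsDef.mono h23 (hS f hf)

end Fermat.Agent.ES.Inst
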