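import Fermat.Agent.ES.TorsDefs
import Fermat.Agent.S24.Degree
import Fermat.Prelude.Thm_CongruenceSubgroup_one_mem_strictPeriods_Gamma0

/-!
# ES, block TORS, package RATIO : a quotient of two forms of equal weight on `Γ₀(N)` with algebraic
`q`-expansions lies in the image of the modular function field.
-/

set_option autoImplicit false
set_option linter.unusedSectionVars false
set_option synthInstance.maxHeartbeats 400000
set_option maxHeartbeats 1000000

namespace Fermat.Agent.ES

open UpperHalfPlane ModularForm CongruenceSubgroup ModularCurve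
open Fermat.Agent.S24 Fermat.Agent.S21 IntermediateField
open scoped MatrixGroups Manifold

namespace TRatio

open Fermat.Agent.S24.Degree

variable (N : ℕ) [NeZero N]

/-- generalisation of `S24.Degree.exists_relation`. -/
theorem exists_relation {ι : Type*} [Fintype ι] (hι : (Gamma0 N).index < Fintype.card ι)
    (X : ι → FractionRing (nice 1)) (hX : ∀ i, IsRatio N (niceToMer 1 (X i)))
    (y : ι → LaurentSeries Kb) (hy : ∀ i, niceToLaurent 1 (X i) = coeffMap iotaC (y i)) :
    ∃ (T : ℕ) (b : ι × Fin (T + 1) → Kb), b ≠ 0 ∧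
      ∑ m, HahnSeries.C (b m) * (((jF N : FF N) : LaurentSeries Kb) ^ (m.2 : ℕ) * y m.1) = 0 := by
  classical
  obtain ⟨w, g, hg, hg0, h⟩ := exists_common (N := N) Finset.univ (fun i => niceToMer 1 (X i)) hX
  choose f hf hfe using fun i => h i (Finset.mem_univ i)
  obtain ⟨T, a, ha, hrel⟩ := DegCount.exists_relation N hι w (fun i => (f i).1) hf
  refine ⟨T, ?_⟩
  have h0 : (∑ m : ι × Fin (T + 1), algebraMap ℂ Hol (a m) * jHol ^ (m.2 : ℕ) * f m.1 : Hol) = 0 := by
    apply Subtype.ext
    funext τ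
    have := hrel τ
    simpa [jHol, Finset.sum_apply] using this
  have h1 : ∑ m : ι × Fin (T + 1),
      toMer (algebraMap ℂ Hol (a m)) * toMer jHol ^ (m.2 : ℕ) * toMer (f m.1) = 0 := by
    have := congrArg toMer h0
    simpa only [toMer, map_sum, map_mul, map_pow, map_zero] using this
  have h2 : ∑ m : ι × Fin (T + 1),
      toMer (algebraMap ℂ Hol (a m)) * (Psi N (jF N) ^ (m.2 : ℕ) * niceToMer 1 (X m.1)) = 0 := by
    apply mul_right_cancel₀ (toMer_ne_zero hg0)
    rw [zero_mul, Finset.sum_mul, ← h1]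
    refine Finset.sum_congr rfl fun m _ => ?_
    rw [Psi_jF, ← hfe]
    ring
  have h3 : ∑ m : ι × Fin (T + 1),
      toFr 1 (algebraMap ℂ (nice 1) (a m)) * (Psi1 N (jF N) ^ (m.2 : ℕ) * X m.1) = 0 := by
    apply (niceToMer 1).injective
    rw [map_sum, map_zero, ← h2]
    refine Finset.sum_congr rfl fun m _ => ?_
    rw [(niceToMer 1).map_mul, (niceToMer 1).map_mul, (niceToMer 1).map_pow, toFr,
      niceToMer_algebraMap, AlgHom.commutes]
    rfl
  have h4 : ∑ m : ι × Fin (T + 1), HahnSeries.C (a m) *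
      coeffMap iotaC (((jF N : FF N) : LaurentSeries Kb) ^ (m.2 : ℕ) * y m.1) = 0 := by
    have := congrArg (niceToLaurent 1) h3
    rw [map_sum, map_zero] at this
    rw [← this]
    refine Finset.sum_congr rfl fun m _ => ?_
    rw [(niceToLaurent 1).map_mul, (niceToLaurent 1).map_mul, (niceToLaurent 1).map_pow,
      niceToLaurent_const, niceToLaurent_Psi1, iotaL_apply, hy, (coeffMap iotaC).map_mul,
      (coeffMap iotaC).map_pow]
  obtain ⟨m₀, hm₀⟩ := Function.ne_iff.mp ha
  obtain ⟨b, hb, hbrel⟩ := Descent.exists_relation iotaC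
    (fun m : ι × Fin (T + 1) => ((jF N : FF N) : LaurentSeries Kb) ^ (m.2 : ℕ) * y m.1) a m₀ hm₀ h4
  exact ⟨b, fun h => hb (by rw [h]; rfl), hbrel⟩

/-- polynomial relations for `j` are trivial -/
lemma eq_zero_of_sum_eq_zero {T : ℕ} (b : Fin (T + 1) → Kb)
    (h : ∑ k : Fin (T + 1), algebraMap Kb (FF N) (b k) * jF N ^ (k : ℕ) = 0) (k₀ : Fin (T + 1)) :
    b k₀ = 0 := by
  classical
  let P : Polynomial Kb := ∑ k : Fin (T + 1), Polynomial.C (b k) * Polynomial.X ^ (k : ℕ)
  have hP : Polynomial.aeval (jF N) P = 0 := by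
    simp only [P, map_sum, map_mul, map_pow, Polynomial.aeval_C, Polynomial.aeval_X]
    exact h
  have hP0 : P = 0 := by
    by_contra h
    exact transcendental_jF N ⟨P, h, hP⟩
  have hcoeff : P.coeff (k₀ : ℕ) = b k₀ := by
    simp only [P, Polynomial.finsetSum_coeff, Polynomial.coeff_C_mul, Polynomial.coeff_X_pow]
    rw [Finset.sum_eq_single k₀]
    · simp
    · intro k _ hk
      have : (k₀ : ℕ) ≠ (k : ℕ) := fun h => hk (Fin.ext h.symm)
      simp [this]
    · simp
  rw [hP0, Polynomial.coeff_zero] at hcoeff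
  exact hcoeff.symm

lemma coe_algebraMap (a : Kb) :
    ((algebraMap Kb (FF N) a : FF N) : LaurentSeries Kb) = HahnSeries.C a := by
  have : ((algebraMap Kb (FF N) a : FF N) : LaurentSeries Kb)
      = algebraMap Kb (LaurentSeries Kb) a := rfl
  rw [this, algebraMap_laurentSeries_eq_single]
  rfl

lemma mem_nice_one_of_isMF {k : ℤ} {f : ℍ → ℂ} (hf : IsMF (Gamma0 N) k f) : f ∈ nice 1 := by
  have := mem_nice_one (one_mem_strictPeriods_Gamma0 N) hf.toModularForm
  simpa using this

end TRatio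

open TRatio Fermat.Agent.S24.Degree

/-- **RATIO**, Laurent form: only the quotient is required to have an algebraic expansion. -/
theorem exists_Psi_mul_eq_of_laurent (N : ℕ) [NeZero N] (k : ℤ) (A B : Hol)
    (hA : S21.IsMF (Gamma0 N) k A.1) (hB : S21.IsMF (Gamma0 N) k B.1) (hB0 : B ≠ 0)
    (s : LaurentSeries Kb)
    (hs : coeffMap iotaC s * HahnSeries.ofPowerSeries ℤ ℂ (qExpansion 1 B.1)
      = HahnSeries.ofPowerSeries ℤ ℂ (qExpansion 1 A.1)) :
    ∃ x : FF N, Psi N x * toMer B = toMer A := by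
  classical
  -- the weight is a natural number
  have hk : 0 ≤ k := by
    by_contra hneg
    push Not at hneg
    exact hB0 (Subtype.ext (Fermat.Agent.S21.isMF_eq_zero_of_neg hneg hB))
  obtain ⟨w, rfl⟩ := Int.eq_ofNat_of_zero_le hk
  let A' : nice 1 := ⟨A.1, mem_nice_one_of_isMF N hA⟩
  let B' : nice 1 := ⟨B.1, mem_nice_one_of_isMF N hB⟩
  have hB'0 : B' ≠ 0 := fun h => hB0 (Subtype.ext (congrArg (fun z : nice 1 => z.1) h))
  have hfrB : toFr 1 B' ≠ 0 := fun h =>
    hB'0 (IsFractionRing.injective (nice 1) (FractionRing (nice 1)) (h.trans (map_zero _).symm))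
  have hA'L : niceToLaurent 1 (toFr 1 A') = HahnSeries.ofPowerSeries ℤ ℂ (qExpansion 1 A.1) := by
    rw [toFr, niceToLaurent_algebraMap]
    simp [A']
  have hB'L : niceToLaurent 1 (toFr 1 B') = HahnSeries.ofPowerSeries ℤ ℂ (qExpansion 1 B.1) := by
    rw [toFr, niceToLaurent_algebraMap]
    simp [B']
  have hA'M : niceToMer 1 (toFr 1 A') = toMer A := by
    rw [toFr, niceToMer_algebraMap]; rfl
  have hB'M : niceToMer 1 (toFr 1 B') = toMer B := by
    rw [toFr, niceToMer_algebraMap]; rfl
  set X0 : FractionRing (nice 1) := toFr 1 A' / toFr 1 B' with hX0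
  set y0 : LaurentSeries Kb := s with hy0
  have hLB0 : niceToLaurent 1 (toFr 1 B') ≠ 0 := fun h =>
    hfrB ((niceToLaurent 1).injective (h.trans (map_zero _).symm))
  have hX0L : niceToLaurent 1 X0 = coeffMap iotaC y0 := by
    rw [hX0, map_div₀, div_eq_iff hLB0, hA'L, hB'L, hs]
  have hX0M : niceToMer 1 X0 * toMer B = toMer A := by
    rw [hX0, map_div₀, hA'M, hB'M, div_mul_cancel₀ _ (toMer_ne_zero hB0)]
  -- it suffices to find `x` with `q`-expansion `y0`
  suffices H : ∃ x : FF N, (x : LaurentSeries Kb) = y0 by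
    obtain ⟨x, hx⟩ := H
    refine ⟨x, ?_⟩
    have : Psi1 N x = X0 := by
      apply (niceToLaurent 1).injective
      rw [niceToLaurent_Psi1, iotaL_apply, hx, hX0L]
    rw [Psi_apply, this, hX0M]
  -- the relation
  set n := Module.finrank Kb⟮jF N⟯ (FF N) with hn
  let θ := Module.finBasis Kb⟮jF N⟯ (FF N)
  have hcard : (Gamma0 N).index < Fintype.card (Option (Fin n)) := by
    rw [Fintype.card_option, Fintype.card_fin, hn, finrank_FF]
    exact Nat.lt_succ_self _
  obtain ⟨T, b, hb, hrel⟩ := TRatio.exists_relation N hcard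
    (fun i => i.elim X0 (fun i => Psi1 N (θ i)))
    (by
      rintro (_ | i)
      · exact ⟨w, A, B, hA, hB, hB0, hX0M⟩
      · exact isRatio_Psi N (fun d _ hd => isMF_comp_Dm N d hd isMF_E4)
          (fun d _ hd => isMF_comp_Dm N d hd isCF_Delta.isMF) (θ i))
    (fun i => i.elim y0 (fun i => ((θ i : FF N) : LaurentSeries Kb)))
    (by
      rintro (_ | i)
      · exact hX0L
      · exact niceToLaurent_Psi1 N (θ i))
  rw [Fintype.sum_prod_type, Fintype.sum_option] at hrel
  simp only [Option.elim] at hrel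
  -- the coefficients
  let c0 : FF N := ∑ k : Fin (T + 1), algebraMap Kb (FF N) (b (none, k)) * jF N ^ (k : ℕ)
  let c : Fin n → Kb⟮jF N⟯ := fun i =>
    ∑ k : Fin (T + 1), algebraMap Kb Kb⟮jF N⟯ (b (some i, k)) * (AdjoinSimple.gen Kb (jF N)) ^ (k : ℕ)
  have hcoe : ∀ i, algebraMap Kb⟮jF N⟯ (FF N) (c i)
      = ∑ k : Fin (T + 1), algebraMap Kb (FF N) (b (some i, k)) * jF N ^ (k : ℕ) := by
    intro i
    simp only [c, map_sum, map_mul, map_pow, AdjoinSimple.algebraMap_gen]
    rfl
  let z : FF N := ∑ i, c i • θ i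
  have hmain : (c0 : LaurentSeries Kb) * y0 + (z : LaurentSeries Kb) = 0 := by
    rw [← hrel]
    congr 1
    · simp only [c0, IntermediateField.coe_sum, IntermediateField.coe_mul, IntermediateField.coe_pow,
        coe_algebraMap, Finset.sum_mul]
      refine Finset.sum_congr rfl fun k _ => by ring
    · simp only [z, IntermediateField.coe_sum]
      refine Finset.sum_congr rfl fun i _ => ?_
      rw [Algebra.smul_def, hcoe, Finset.sum_mul, IntermediateField.coe_sum]
      refine Finset.sum_congr rfl fun k _ => ?_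
      simp only [IntermediateField.coe_mul, IntermediateField.coe_pow, coe_algebraMap]
      ring
  by_cases hc0 : c0 = 0
  · exfalso
    apply hb
    have hz : z = 0 := by
      apply Subtype.ext
      rw [hc0] at hmain
      simpa using hmain
    have hall := Fintype.linearIndependent_iff.mp θ.linearIndependent c hz
    funext ⟨i, k⟩
    rcases i with _ | i
    · exact eq_zero_of_sum_eq_zero N (fun k => b (none, k)) hc0 k
    · refine eq_zero_of_sum_eq_zero N (fun k => b (some i, k)) ?_ k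
      rw [← hcoe, hall i, map_zero]
  · refine ⟨-z / c0, ?_⟩
    have hc0' : (c0 : LaurentSeries Kb) ≠ 0 := fun h => hc0 (Subtype.ext h)
    rw [IntermediateField.coe_div, IntermediateField.coe_neg, div_eq_iff hc0']
    linear_combination -hmain

/-- **RATIO**. -/
theorem exists_Psi_mul_eq (N : ℕ) [NeZero N] (k : ℤ) (A B : Hol)
    (hA : S21.IsMF (Gamma0 N) k A.1) (hB : S21.IsMF (Gamma0 N) k B.1) (hB0 : B ≠ 0)
    (hAq : AlgQ A.1) (hBq : AlgQ B.1) : ∃ x : FF N, Psi N x * toMer B = toMer A := by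
  obtain ⟨sA, hsA⟩ := hAq
  obtain ⟨sB, hsB⟩ := hBq
  refine exists_Psi_mul_eq_of_laurent N k A B hA hB hB0
    (HahnSeries.ofPowerSeries ℤ Kb sA / HahnSeries.ofPowerSeries ℤ Kb sB) ?_
  have hne : HahnSeries.ofPowerSeries ℤ ℂ (qExpansion 1 B.1) ≠ 0 := by
    intro h
    let B' : nice 1 := ⟨B.1, mem_nice_one_of_isMF N hB⟩
    have hB'L : niceToLaurent 1 (toFr 1 B')
        = HahnSeries.ofPowerSeries ℤ ℂ (qExpansion 1 B.1) := by
      rw [toFr, niceToLaurent_algebraMap]
      simp [B']
    rw [h] at hB'L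
    have h1 : toFr 1 B' = 0 := (niceToLaurent 1).injective (hB'L.trans (map_zero _).symm)
    have h2 : B' = 0 :=
      IsFractionRing.injective (nice 1) (FractionRing (nice 1)) (h1.trans (map_zero _).symm)
    exact hB0 (Subtype.ext (congrArg (fun z : nice 1 => z.1) h2))
  rw [map_div₀, coeffMap_ofPowerSeries, coeffMap_ofPowerSeries, hsA, hsB, div_mul_cancel₀ _ hne]

end Fermat.Agent.ES
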