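import Fermat.Agent.ES.InstDefs
import Fermat.Agent.ES.InstUp
import Fermat.Agent.ES.TRatio
import Fermat.Agent.S28.Ord

/-!
# ES, block INJ, instantiation, package I-GY : the S28 generators `j(q^d)`, `H_d` lie in the
modular function field `ℚ̄(j(q^d) : d ∣ N)`
-/

set_option autoImplicit false

namespace Fermat.Agent.ES.Inst

open ModularCurve AlgebraicCurve UpperHalfPlane ModularForm CongruenceSubgroup
open Fermat.Agent.S24 Fermat.Agent.S28 Fermat.Agent.S21
open scoped MatrixGroups Manifold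

namespace InstGY

lemma deltaS_mul_deltaInvS (R : Type*) [CommRing R] : deltaS R * deltaInvS R = 1 := by
  rw [deltaS, deltaInvS, mul_mul_mul_comm, HahnSeries.single_mul_single, ← map_mul, ← map_mul,
    dedekindEtaUnit_mul_inv]
  simp

lemma ofPowerSeries_qHom_Dn : HahnSeries.ofPowerSeries ℤ ℂ (qHom 1 Dn) = deltaS ℂ := by
  have e2 : qHom 1 Dn = qExpansion 1 ModularForm.discriminant := by simp [Dn]
  rw [e2, qExpansion_discriminant, map_mul, HahnSeries.ofPowerSeries_X, deltaS]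

lemma deltaS_ne_zero : deltaS ℂ ≠ 0 := by
  intro h
  have := deltaS_mul_deltaInvS ℂ
  rw [h, zero_mul] at this
  exact zero_ne_one this

/-- `Δ(q^d) / Δ(q)` lies in the modular function field. -/
theorem quot_mem (N : ℕ) [NeZero N] (d : ℕ) [NeZero d] (hd : d ∣ N) :
    qExp Kb d (deltaS Kb) * deltaInvS Kb ∈ modularFunctionFieldBar N := by
  set s : LaurentSeries Kb := qExp Kb d (deltaS Kb) * deltaInvS Kb with hs
  let A : Hol := niceIncl 1 (scale d Dn)
  let B : Hol := niceIncl 1 Dn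
  have hA : IsMF (Gamma0 N) 12 A.1 := by
    have h1 := isMF_comp_Dm N d hd isCF_Delta.isMF
    have e : A.1 = fun τ => discriminant (S23.Prim.Dm d • τ) := by
      funext τ
      change (scale d Dn : ℍ → ℂ) τ = _
      rw [scale, utNice_apply, utZ_eq_Dm]
      rfl
    rw [e]
    exact h1
  have hB : IsMF (Gamma0 N) 12 B.1 := isCF_Delta.isMF.of_top
  have hB0 : B ≠ 0 := fun h => Dn_ne_zero (niceIncl_injective 1 (by rw [map_zero]; exact h))
  have hsC : coeffMap iotaC s = qExp ℂ d (deltaS ℂ) * deltaInvS ℂ := by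
    rw [hs, map_mul, Ord.coeffMap_qExp, Ord.coeffMap_deltaS, Ord.coeffMap_deltaInvS]
  have hqB : HahnSeries.ofPowerSeries ℤ ℂ (qExpansion 1 B.1) = deltaS ℂ := by
    rw [← ofPowerSeries_qHom_Dn]
    simp [B]
  have hqA : HahnSeries.ofPowerSeries ℤ ℂ (qExpansion 1 A.1) = qExp ℂ d (deltaS ℂ) := by
    rw [qExp_eq, ← ofPowerSeries_qHom_Dn, ← ofPowerSeries_qHom_scale]
    simp [A]
  have hrel : coeffMap iotaC s * HahnSeries.ofPowerSeries ℤ ℂ (qExpansion 1 B.1)
      = HahnSeries.ofPowerSeries ℤ ℂ (qExpansion 1 A.1) := by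
    rw [hsC, hqB, hqA, mul_assoc, mul_comm (deltaInvS ℂ), deltaS_mul_deltaInvS, mul_one]
  obtain ⟨x, hx⟩ := exists_Psi_mul_eq_of_laurent N 12 A B hA hB hB0 s hrel
  have hA'M : niceToMer 1 (toFr 1 (scale d Dn)) = toMer A := by
    rw [toFr, niceToMer_algebraMap]
  have hB'M : niceToMer 1 (toFr 1 Dn) = toMer B := by
    rw [toFr, niceToMer_algebraMap]
  have hAB' : Psi1 N x * toFr 1 Dn = toFr 1 (scale d Dn) := by
    apply (niceToMer 1).injective
    rw [map_mul, hA'M, hB'M, ← Psi_apply, hx]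
  have h2 := congrArg (niceToLaurent 1) hAB'
  rw [map_mul, niceToLaurent_Psi1, toFr, toFr, niceToLaurent_algebraMap, niceToLaurent_algebraMap,
    ofPowerSeries_qHom_scale, ofPowerSeries_qHom_Dn, ← qExp_eq] at h2
  have h3 : iotaL N x = coeffMap iotaC s := by
    apply mul_right_cancel₀ deltaS_ne_zero
    rw [h2, hsC, mul_assoc, mul_comm (deltaInvS ℂ), deltaS_mul_deltaInvS, mul_one]
  rw [iotaL_apply] at h3
  have h4 : (x : LaurentSeries Kb) = s := by
    ext n
    have := congrArg (fun z : LaurentSeries ℂ => z.coeff n) h3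
    simp only [coeffMap_coeff] at this
    exact iotaC.injective this
  rw [← h4]
  exact x.2

end InstGY

/-- **I-GY**. -/
theorem gen_mem_FF (N : ℕ) [NeZero N] (x : Gen N) : gen Kb N x ∈ modularFunctionFieldBar N := by
  obtain ⟨b, d, hd⟩ := x
  have hdN : d ∣ N := Nat.dvd_of_mem_divisors hd
  have : NeZero d := ⟨fun h => by
    rw [h, zero_dvd_iff] at hdN
    exact NeZero.ne N hdN⟩
  cases b with
  | false =>
    have e : gen Kb N (false, ⟨d, hd⟩) = jdL d := by
      rw [jdL_eq, jqNModC, ← qExp_eq]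
      rfl
    rw [e]
    exact jdL_mem hdN
  | true =>
    have e : gen Kb N (true, ⟨d, hd⟩)
        = (d : LaurentSeries Kb) ^ 12 * (qExp Kb d (deltaS Kb) * deltaInvS Kb) := by
      rw [← mul_assoc]
      rfl
    rw [e]
    exact mul_mem (pow_mem (natCast_mem _ d) 12) (InstGY.quot_mem N d hdN)

/-- **I-UP**. -/
theorem bc_mem (K0 : IntermediateField ℚ Kb) (N : ℕ) [NeZero N] {f : LaurentSeries K0}
    (hf : f ∈ F0 K0 N) : bc K0 f ∈ modularFunctionFieldBar N :=
  bc_mem_of K0 N (gen_mem_FF N) hf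

end Fermat.Agent.ES.Inst
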