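import Fermat.Agent.ES.UnramCount
import Fermat.Agent.S24.Loc4
import Fermat.Agent.S24.LocInf
import Fermat.Agent.S24.Degree

set_option autoImplicit false

/-!
# ES / TORS / UNRAM : a function with an (analytic) `p`-th root whose multiplier kills the parabolic
elements and the elements of finite order has a divisor divisible by `p`
-/

namespace Fermat.Agent.ES

open AlgebraicCurve IntermediateField UpperHalfPlane CongruenceSubgroup Fermat.Agent.S24
open Fermat.Agent.S21 (Umat)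
open scoped MatrixGroups

namespace Unram

attribute [local instance] Loc.fintypeCosets

/-- a point above `a`, with a generator of its stabiliser -/
lemma exists_point (a : Kb) : ∃ (τ₀ : ℍ) (e : ℕ) (s : SL(2, ℤ)), jfun τ₀ = iotaC a ∧ 0 < e ∧
    analyticOrderAt (fun z : ℂ => jfun (ofComplex z) - jfun τ₀) (τ₀ : ℂ) = e ∧
    (s⁻¹ : SL(2, ℤ)) • τ₀ = τ₀ ∧ IsPrimitiveRoot (1 / (denom (s⁻¹ : SL(2, ℤ)) τ₀) ^ 2) e ∧
    s ^ 12 = 1 := by
  by_cases h0 : a = 0
  · subst h0
    have hs : (Umat⁻¹ : SL(2, ℤ)) • rho = rho := by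
      rw [inv_smul_eq_iff, Umat_smul_rho]
    refine ⟨rho, 3, Umat, by rw [jfun_rho, map_zero], by norm_num, analyticOrderAt_jfun_rho, hs,
      ?_, ?_⟩
    · have hd : denom (Umat⁻¹ : SL(2, ℤ)) rho = -(rho : ℂ) := by
        rw [Loc.denom_eq, Matrix.SpecialLinearGroup.coe_inv, Umat_coe]
        simp [Matrix.adjugate_fin_two]
      have hr := rho_sq
      have hr0 : (rho : ℂ) ≠ 0 := by
        intro h
        rw [h] at hr
        norm_num at hr
      have h3 : (rho : ℂ) ^ 3 = 1 := by linear_combination ((rho : ℂ) - 1) * hr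
      have he : 1 / (denom (Umat⁻¹ : SL(2, ℤ)) rho) ^ 2 = (rho : ℂ) := by
        rw [hd, neg_sq, div_eq_iff (pow_ne_zero 2 hr0)]
        linear_combination -h3
      rw [he]
      refine IsPrimitiveRoot.mk_of_lt _ (by norm_num) h3 ?_
      intro l hl hl3 h
      interval_cases l
      · rw [pow_one] at h
        rw [h] at hr
        norm_num at hr
      · rw [h] at hr
        have : (rho : ℂ) = -2 := by linear_combination hr
        rw [this] at h
        norm_num at h
    · apply Subtype.ext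
      rw [Matrix.SpecialLinearGroup.coe_pow, Umat_coe]
      decide +kernel
  by_cases h1 : a = 1728
  · subst h1
    have hs : (ModularGroup.S⁻¹ : SL(2, ℤ)) • UpperHalfPlane.I = UpperHalfPlane.I := by
      rw [inv_smul_eq_iff, S_smul_I]
    refine ⟨UpperHalfPlane.I, 2, ModularGroup.S, by rw [jfun_I, map_ofNat], by norm_num,
      analyticOrderAt_jfun_I, hs, ?_, ?_⟩
    · have hd : denom (ModularGroup.S⁻¹ : SL(2, ℤ)) UpperHalfPlane.I = -Complex.I := by
        rw [Loc.denom_eq, Matrix.SpecialLinearGroup.coe_inv, ModularGroup.coe_S]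
        simp [Matrix.adjugate_fin_two]
      have he : 1 / (denom (ModularGroup.S⁻¹ : SL(2, ℤ)) UpperHalfPlane.I) ^ 2 = (-1 : ℂ) := by
        rw [hd, neg_sq, Complex.I_sq]
        norm_num
      rw [he]
      exact IsPrimitiveRoot.neg_one 0 (by norm_num)
    · apply Subtype.ext
      rw [Matrix.SpecialLinearGroup.coe_pow, ModularGroup.coe_S]
      decide +kernel
  obtain ⟨τ₀, hτ⟩ := jfun_surjective (iotaC a)
  refine ⟨τ₀, 1, 1, hτ, one_pos, ?_, by simp, ?_, one_pow _⟩
  · apply analyticOrderAt_jfun_generic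
    · rw [hτ]
      exact fun h => h0 ((Loc.iotaC_eq_zero_iff a).1 h)
    · rw [hτ]
      exact fun h => h1 ((Loc.iotaC_eq_1728_iff a).1 h)
  · rw [IsPrimitiveRoot.one_right_iff, Loc.denom_eq]
    simp

lemma conj_pow_eq_one {G : Type*} [Group G] (g x : G) (k : ℕ) (hx : x ^ k = 1) :
    (g⁻¹ * x * g) ^ k = 1 := by
  have h1 := conj_pow (a := g⁻¹) (b := x) (i := k)
  rw [inv_inv] at h1
  rw [h1, hx]
  group

lemma trace_conj_T_pow (g : SL(2, ℤ)) (n : ℕ) :
    ((g⁻¹ * ModularGroup.T ^ n * g : SL(2, ℤ)) : Matrix (Fin 2) (Fin 2) ℤ).trace ^ 2 = 4 := by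
  have h1 : ((g⁻¹ * ModularGroup.T ^ n * g : SL(2, ℤ)) : Matrix (Fin 2) (Fin 2) ℤ).trace
      = ((ModularGroup.T ^ n : SL(2, ℤ)) : Matrix (Fin 2) (Fin 2) ℤ).trace := by
    rw [Matrix.SpecialLinearGroup.coe_mul, Matrix.trace_mul_comm, ← Matrix.SpecialLinearGroup.coe_mul,
      mul_inv_cancel_left]
  rw [h1, ← zpow_natCast, ModularGroup.coe_T_zpow]
  simp [Matrix.trace_fin_two]

variable (N : ℕ) [NeZero N]

omit [NeZero N] in
/-- if `s ^ n` fixes the coset `c` then `c.out⁻¹ s ^ n c.out ∈ Γ₀(N)` -/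
lemma conj_mem (s : SL(2, ℤ)) (c : SL(2, ℤ) ⧸ Gamma0 N) (n : ℕ)
    (h : (MulAction.toPerm s : Equiv.Perm (SL(2, ℤ) ⧸ Gamma0 N))^[n] c = c) :
    c.out⁻¹ * s ^ n * c.out ∈ Gamma0 N := by
  have h1 : ∀ (n : ℕ) (c : SL(2, ℤ) ⧸ Gamma0 N),
      (MulAction.toPerm s : Equiv.Perm (SL(2, ℤ) ⧸ Gamma0 N))^[n] c = s ^ n • c := by
    intro n
    induction n with
    | zero => intro c; simp
    | succ n ih =>
      intro c
      rw [Function.iterate_succ_apply', ih, MulAction.toPerm_apply, pow_succ', mul_smul]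
  rw [h1] at h
  have h2 : (s ^ n • (c.out : SL(2, ℤ) ⧸ Gamma0 N)) = (c.out : SL(2, ℤ) ⧸ Gamma0 N) := by
    rw [QuotientGroup.out_eq', h]
  rw [MulAction.Quotient.smul_coe, smul_eq_mul, eq_comm, QuotientGroup.eq] at h2
  rwa [← mul_assoc] at h2

omit [NeZero N] in
/-- invariance of `act c.out h` under `s ^ n` -/
lemma act_pow_act (h : Mer) (s : SL(2, ℤ)) (c : SL(2, ℤ) ⧸ Gamma0 N) (n : ℕ)
    (hfix : act (c.out⁻¹ * s ^ n * c.out) h = h) :
    act (s ^ n) (act c.out h) = act c.out h := by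
  conv_rhs => rw [← hfix]
  rw [← act_mul_apply, ← act_mul_apply]
  congr 1
  group

section interior

variable (p : ℕ) (hp : 0 < p) (u : FF N) (hu : u ≠ 0) (h : Mer) (hh : h ^ p = Psi N u)
  (hfix : ∀ γ ∈ Gamma0 N, γ ^ 12 = 1 → act γ h = h)

include hp hu hh hfix

theorem dvd_ord_interior (a : Kb) (v : Place Kb (FF N))
    (hv : 0 < v.ord (jF N - algebraMap Kb (FF N) a)) : (p : ℤ) ∣ v.ord u := by
  obtain ⟨τ₀, e, s, hτ, he, hord, hs, hμ, hs12⟩ := exists_point a
  have hiter : ∀ (n : ℕ) (x : Mer), (Loc.moebGerm s⁻¹ hs)^[n] (Loc.germAt τ₀ x)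
      = Loc.germAt τ₀ (act (s ^ n) x) := by
    intro n
    induction n with
    | zero => intro x; rw [pow_zero, act_one]; rfl
    | succ n ih =>
      intro x
      rw [Function.iterate_succ_apply', ih, ← Loc.germAt_act s hs, ← act_mul_apply, pow_succ']
  refine UnramCount.dvd_ord_of_root (jF N - algebraMap Kb (FF N) a)
    (FF.transcendental_sub_const (transcendental_jF N) a)
    (Loc.sigmaAt N τ₀) (Loc.sigmaAt_injective N τ₀) iotaC (Loc.sigmaAt_const N τ₀)
    (fun i i' => by rw [Loc.sigmaAt_sub, Loc.sigmaAt_sub]) (Loc.card_cosets N (finrank_FF N) a) e he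
    (fun i => Loc.ord_sigmaAt_sub N τ₀ i a hτ hord)
    (Loc.moeb s⁻¹) (Loc.analyticAt_moeb s⁻¹ τ₀) (Loc.deriv_moeb_ne_zero s⁻¹ τ₀)
    (by rw [Loc.moeb_coe, hs])
    (by rw [Loc.deriv_moeb]; exact hμ) (MulAction.toPerm s)
    (fun i f => Loc.sigmaAt_smul N τ₀ s hs i f) p hp u hu
    (fun i => Loc.germAt τ₀ (act i.out h)) ?_ ?_ v hv
  · intro i
    rw [← map_pow, ← map_pow, hh]
    rfl
  · intro i
    have h1 := hiter (Function.minimalPeriod (MulAction.toPerm s : Equiv.Perm _) i) (act i.out h)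
    have hper : (MulAction.toPerm s : Equiv.Perm (SL(2, ℤ) ⧸ Gamma0 N))^[Function.minimalPeriod
        (MulAction.toPerm s : Equiv.Perm (SL(2, ℤ) ⧸ Gamma0 N)) i] i = i :=
      Function.iterate_minimalPeriod
    rw [act_pow_act N h s i _ (hfix _ (conj_mem N s i _ hper) (conj_pow_eq_one _ _ _ (by
      rw [← pow_mul, mul_comm, pow_mul, hs12, one_pow])))] at h1
    exact h1

end interior

section cusp

variable (p : ℕ) (hp : 0 < p) (u : FF N) (hu : u ≠ 0) (h : Mer) (hh : h ^ p = Psi N u)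
  (hfix : ∀ γ ∈ Gamma0 N, (γ : Matrix (Fin 2) (Fin 2) ℤ).trace ^ 2 = 4 → act γ h = h)
  (hcusp : ∀ g : SL(2, ℤ), act g h ∈ (niceToMer N).fieldRange)

include hp hu hh hfix hcusp

theorem dvd_ord_cusp (v : Place Kb (FF N)) (hv : 0 < v.ord (jF N)⁻¹) : (p : ℤ) ∣ v.ord u := by
  choose y hy using fun g : SL(2, ℤ) => RingHom.mem_fieldRange.1 (hcusp g)
  have hiter : ∀ (n : ℕ) (x : FractionRing (nice N)), (LocInf.rotGerm N)^[n] (LocInf.germCusp N x)
      = LocInf.germCusp N ((shiftFrac N)^[n] x) := by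
    intro n
    induction n with
    | zero => intro x; rfl
    | succ n ih =>
      intro x
      rw [Function.iterate_succ_apply', ih, ← LocInf.germCusp_shiftFrac,
        Function.iterate_succ_apply']
  have hiter2 : ∀ (n : ℕ) (x : FractionRing (nice N)), niceToMer N ((shiftFrac N)^[n] x)
      = act (ModularGroup.T ^ n) (niceToMer N x) := by
    intro n
    induction n with
    | zero => intro x; rw [pow_zero, act_one]; rfl
    | succ n ih =>
      intro x
      rw [Function.iterate_succ_apply', niceToMer_shiftFrac, ih, ← act_mul_apply, pow_succ']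
  refine UnramCount.dvd_ord_of_root (jF N)⁻¹ (FF.transcendental_inv (transcendental_jF N))
    (LocInf.sigmaInf N) (LocInf.sigmaInf_injective N) iotaC (LocInf.sigmaInf_const N)
    (fun i i' => by rw [map_inv₀, map_inv₀, LocInf.sigmaInf_jF, LocInf.sigmaInf_jF])
    (LocInf.card_cosets_inv N (finrank_FF N))
    N (Nat.pos_of_ne_zero (NeZero.ne N)) (LocInf.ord_sigmaInf_jF_inv N)
    (LocInf.rot N) (LocInf.analyticAt_rot N 0) (LocInf.deriv_rot_ne_zero N 0) (LocInf.rot_zero N)
    (by rw [LocInf.deriv_rot]; exact LocInf.isPrimitiveRoot_zetaInv N)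
    (MulAction.toPerm ModularGroup.T)
    (fun i f => LocInf.sigmaInf_smul N i f) p hp u hu
    (fun i => LocInf.germCusp N (y i.out)) ?_ ?_ v hv
  · intro i
    rw [← map_pow, LocInf.sigmaInf_apply]
    congr 1
    apply (niceToMer N).injective
    rw [map_pow, hy, niceToMer_sigmaCuspQ, ← map_pow, hh]
    rfl
  · intro i
    have h1 := hiter (Function.minimalPeriod (MulAction.toPerm ModularGroup.T : Equiv.Perm _) i)
      (y i.out)
    have hper : (MulAction.toPerm ModularGroup.T :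
        Equiv.Perm (SL(2, ℤ) ⧸ Gamma0 N))^[Function.minimalPeriod
        (MulAction.toPerm ModularGroup.T : Equiv.Perm (SL(2, ℤ) ⧸ Gamma0 N)) i] i = i :=
      Function.iterate_minimalPeriod
    have h2 : (shiftFrac N)^[Function.minimalPeriod
        (MulAction.toPerm ModularGroup.T : Equiv.Perm (SL(2, ℤ) ⧸ Gamma0 N)) i] (y i.out)
        = y i.out := by
      apply (niceToMer N).injective
      rw [hiter2, hy]
      exact act_pow_act N h ModularGroup.T i _ (hfix _ (conj_mem N ModularGroup.T i _ hper)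
        (trace_conj_T_pow _ _))
    rw [h2] at h1
    exact h1

end cusp

end Unram

/-- **[TORS-UNRAM]** a function `u ∈ FF N` whose pull-back to `ℍ` has a meromorphic `p`-th root `h`,
meromorphic at all cusps in the local parameter `q_N`, and fixed by the parabolic elements and the
elements of finite order of `Γ₀(N)`, has a divisor divisible by `p`. -/
theorem dvd_ord_of_root (N : ℕ) [NeZero N] (p : ℕ) (u : FF N) (hu : u ≠ 0) (h : Mer)
    (hh : h ^ p = Psi N u)
    (hfix : ∀ γ ∈ Gamma0 N,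
      ((γ : Matrix (Fin 2) (Fin 2) ℤ).trace ^ 2 = 4 ∨ γ ^ 12 = 1) → act γ h = h)
    (hcusp : ∀ g : SL(2, ℤ), act g h ∈ (niceToMer N).fieldRange) (v : Place Kb (FF N)) :
    (p : ℤ) ∣ v.ord u := by
  rcases Nat.eq_zero_or_pos p with rfl | hp
  · rw [pow_zero] at hh
    have h1 : u = 1 := (Psi N).injective (by rw [← hh, map_one])
    rw [h1, Place.ord_one]
    simp
  by_cases hj : 0 ≤ v.ord (jF N)
  · obtain ⟨a, ha⟩ := exists_sub_ord_pos (jF N) (transcendental_jF N) v hj
    exact Unram.dvd_ord_interior N p hp u hu h hh (fun γ hγ h12 => hfix γ hγ (Or.inr h12)) a v ha.1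
  · refine Unram.dvd_ord_cusp N p hp u hu h hh (fun γ hγ ht => hfix γ hγ (Or.inl ht)) hcusp v ?_
    rw [Place.ord_inv]
    omega

end Fermat.Agent.ES
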