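import Fermat.Agent.ES.CuspOrd2
import Fermat.Agent.ES.InstGY
import Fermat.Agent.ES.Unram
import Fermat.Agent.S21.PartA2

/-!
# ES : the divisors of `j(e τ)` and of `Δ(e τ) / Δ(τ)` on `X₀(N)`, `e ∣ N`
-/

set_option autoImplicit false

namespace Fermat.Agent.ES.CuspOrd

open UpperHalfPlane ModularForm CongruenceSubgroup ModularCurve AlgebraicCurve Filter Topology
open Fermat.Agent.S24 Fermat.Agent.S21 Fermat.Agent.ES Fermat.Agent.S23.Prim Fermat.Agent.S28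
open scoped MatrixGroups Manifold

variable (N : ℕ) [NeZero N]

/-- **RATIO**, for a given element of the function field. -/
theorem psi_of_laurent (k : ℤ) (A B : Hol)
    (hA : S21.IsMF (Gamma0 N) k A.1) (hB : S21.IsMF (Gamma0 N) k B.1) (hB0 : B ≠ 0) (y : FF N)
    (hs : coeffMap iotaC (y : LaurentSeries Kb) * HahnSeries.ofPowerSeries ℤ ℂ (qExpansion 1 B.1)
      = HahnSeries.ofPowerSeries ℤ ℂ (qExpansion 1 A.1)) :
    Psi N y * toMer B = toMer A := by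
  obtain ⟨x, hx⟩ := exists_Psi_mul_eq_of_laurent N k A B hA hB hB0 (y : LaurentSeries Kb) hs
  let A' : nice 1 := ⟨A.1, TRatio.mem_nice_one_of_isMF N hA⟩
  let B' : nice 1 := ⟨B.1, TRatio.mem_nice_one_of_isMF N hB⟩
  have hB'0 : B' ≠ 0 := fun h0 =>
    hB0 (Subtype.ext (congrArg (Subtype.val : nice 1 → ℍ → ℂ) h0))
  have k1 : Psi1 N x * toFr 1 B' = toFr 1 A' := by
    apply (niceToMer 1).injective
    rw [map_mul, ← Psi_apply, toFr, toFr, niceToMer_algebraMap, niceToMer_algebraMap]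
    exact hx
  have k2 : iotaL N x * HahnSeries.ofPowerSeries ℤ ℂ (S24.qHom 1 B')
      = HahnSeries.ofPowerSeries ℤ ℂ (S24.qHom 1 A') := by
    have := congrArg (niceToLaurent 1) k1
    rwa [map_mul, niceToLaurent_Psi1, toFr, toFr, niceToLaurent_algebraMap,
      niceToLaurent_algebraMap] at this
  have hLB : HahnSeries.ofPowerSeries ℤ ℂ (S24.qHom 1 B') ≠ 0 := by
    intro h0
    have h2 : S24.qHom 1 B' = 0 := HahnSeries.ofPowerSeries_injective (by rw [h0, map_zero])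
    exact hB'0 (S24.qHom_injective 1 (by rw [h2, map_zero]))
  have eA : S24.qHom 1 A' = qExpansion 1 A.1 := by simp [A']
  have eB : S24.qHom 1 B' = qExpansion 1 B.1 := by simp [B']
  have k3 : coeffMap iotaC (x : LaurentSeries Kb) = coeffMap iotaC (y : LaurentSeries Kb) := by
    apply mul_right_cancel₀ hLB
    rw [← iotaL_apply, k2, eA, eB, hs]
  have k4 : x = y := by
    apply Subtype.ext
    ext n
    apply iotaC.injective
    have := congrArg (fun y : LaurentSeries ℂ => y.coeff n) k3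
    simpa only [coeffMap_coeff] using this
  rw [← k4]
  exact hx

/-! ### the points of `ℍ` -/

section interior

attribute [local instance] Loc.fintypeCosets

/-- every place with `j` finite is given by a point of `ℍ` -/
theorem exists_interior (v : Place Kb (FF N)) (hv : 0 ≤ v.ord (jF N)) :
    ∃ (τ₀ : ℍ) (g : SL(2, ℤ)) (m : ℤ), 0 < m ∧
      ∀ f : FF N, f ≠ 0 → (Loc.germAt τ₀ (sigma N g f)).ord = m * v.ord f := by
  obtain ⟨a, ha⟩ := Place.exists_sub_ord_pos (jF N) (transcendental_jF N) v hv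
  obtain ⟨τ₀, e, s, hτ, he, hord, -, -, -⟩ := Unram.exists_point a
  obtain ⟨c, m, hm, h⟩ := Loc.exists_index (jF N - algebraMap Kb (FF N) a)
    (FF.transcendental_sub_const (transcendental_jF N) a)
    (Loc.sigmaAt N τ₀) (Loc.sigmaAt_injective N τ₀) iotaC (Loc.sigmaAt_const N τ₀)
    (fun i i' => by rw [Loc.sigmaAt_sub, Loc.sigmaAt_sub]) (Loc.card_cosets N (finrank_FF N) a) e he
    (fun i => Loc.ord_sigmaAt_sub N τ₀ i a hτ hord) v ha
  exact ⟨τ₀, c.out, m, hm, h⟩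

end interior

lemma ord_holGerm_eq_zero (τ₀ : ℍ) (G : Hol) (h : G.1 τ₀ ≠ 0) : (Loc.holGerm τ₀ G).ord = 0 := by
  have := Loc.ord_holGerm τ₀ G (n := 0) (by
    rw [Nat.cast_zero, (Loc.analyticAt_hol G τ₀).analyticOrderAt_eq_zero, Function.comp_apply,
      ofComplex_apply]
    exact h)
  simpa using this

lemma ord_holGerm_nonneg (τ₀ : ℍ) (G : Hol) : 0 ≤ (Loc.holGerm τ₀ G).ord := by
  by_cases hG : G = 0
  · rw [hG, map_zero, MerGerm.ord_zero]
  · have hne : analyticOrderAt ((G : ℍ → ℂ) ∘ ofComplex) (τ₀ : ℂ) ≠ ⊤ := by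
      intro htop
      rw [analyticOrderAt_eq_top] at htop
      apply hG
      apply Loc.holGerm_injective τ₀
      rw [map_zero, Loc.holGerm_apply, MerGerm.zero_eq_mk, MerGerm.mk_eq_mk_iff]
      exact htop.filter_mono nhdsWithin_le_nhds
    obtain ⟨n, hn⟩ := ENat.ne_top_iff_exists.1 hne
    rw [Loc.ord_holGerm τ₀ G hn.symm]
    exact Int.natCast_nonneg n

/-- a quotient `A / B` with `B` without zeros on `ℍ` has no poles outside the cusps -/
theorem ord_nonneg_of_ne (A B : Hol) (hB : ∀ τ, B.1 τ ≠ 0) (x : FF N)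
    (hx : Psi N x * toMer B = toMer A) (v : Place Kb (FF N)) (hv : 0 ≤ v.ord (jF N)) :
    0 ≤ v.ord x := by
  by_cases hx0 : x = 0
  · rw [hx0, Place.ord_zero]
  obtain ⟨τ₀, g, m, hm, h⟩ := exists_interior N v hv
  have h1 := congrArg (fun y => Loc.germAt τ₀ (act g y)) hx
  simp only [map_mul, act_toMer, Loc.germAt_toMer] at h1
  have hx1 : Loc.germAt τ₀ (act g (Psi N x)) ≠ 0 := by
    rw [Ne, map_eq_zero, map_eq_zero, map_eq_zero]
    exact hx0
  have hB1 : (Loc.holGerm τ₀ (actHol g B)).ord = 0 := ord_holGerm_eq_zero τ₀ _ (hB _)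
  have hB2 : Loc.holGerm τ₀ (actHol g B) ≠ 0 := by
    intro h0
    have h2 := Loc.holGerm_injective τ₀ (h0.trans (map_zero _).symm)
    have h3 := congrFun (congrArg (Subtype.val : Hol → ℍ → ℂ) h2) τ₀
    exact hB _ h3
  have h2 := congrArg MerGerm.ord h1
  rw [MerGerm.ord_mul hx1 hB2, hB1, add_zero] at h2
  have h3 := h x hx0
  rw [sigma_apply, h2] at h3
  have h4 := ord_holGerm_nonneg τ₀ (actHol g A)
  rw [h3] at h4
  exact nonneg_of_mul_nonneg_right h4 hm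

/-- a quotient `A / B` of two functions without zeros on `ℍ` is a unit outside the cusps -/
theorem ord_eq_zero_of_ne (A B : Hol) (hA : ∀ τ, A.1 τ ≠ 0) (hB : ∀ τ, B.1 τ ≠ 0) (x : FF N)
    (hx : Psi N x * toMer B = toMer A) (v : Place Kb (FF N)) (hv : 0 ≤ v.ord (jF N)) :
    v.ord x = 0 := by
  have h1 := ord_nonneg_of_ne N A B hB x hx v hv
  have hA0 : toMer A ≠ 0 := TUnram.toMer_ne_zero (fun h0 =>
    hA UpperHalfPlane.I (congrFun (congrArg (Subtype.val : Hol → ℍ → ℂ) h0) UpperHalfPlane.I))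
  have hx0 : Psi N x ≠ 0 := fun h0 => hA0 (by rw [← hx, h0, zero_mul])
  have h2 := ord_nonneg_of_ne N B A hA x⁻¹ (by
    rw [map_inv₀, ← hx]
    field_simp) v hv
  rw [Place.ord_inv] at h2
  omega

/-! ### the forms `Δ(e τ)`, `E₄(e τ)³` -/

/-- `Δ(e τ)` -/
noncomputable def DeHol (e : ℕ) [NeZero e] : Hol := niceIncl 1 (scale e Dn)

/-- `E₄(e τ)³` -/
noncomputable def EeHol (e : ℕ) [NeZero e] : Hol := niceIncl 1 (scale e (E4n ^ 3))

lemma DeHol_coe (e : ℕ) [NeZero e] : (DeHol e).1 = fun τ => Dn.1 (Dm e • τ) := by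
  funext τ
  change (scale e Dn : ℍ → ℂ) τ = _
  rw [scale, utNice_apply, utZ_eq_Dm]

lemma EeHol_coe (e : ℕ) [NeZero e] : (EeHol e).1 = fun τ => (E4n ^ 3 : nice 1).1 (Dm e • τ) := by
  funext τ
  change (scale e (E4n ^ 3) : ℍ → ℂ) τ = _
  rw [scale, utNice_apply, utZ_eq_Dm]

lemma isMF_Dn : IsMF ⊤ 12 Dn.1 := isCF_Delta.isMF

lemma isMF_E4n_cube : IsMF ⊤ 12 (E4n ^ 3 : nice 1).1 := (PartA2.IsMF.pow isMF_E4 3).congr_wt (by norm_num)

lemma isMF_DeHol (e : ℕ) [NeZero e] (he : e ∣ N) : IsMF (Gamma0 N) 12 (DeHol e).1 := by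
  rw [DeHol_coe]
  exact isMF_comp_Dm N e he isMF_Dn

lemma isMF_EeHol (e : ℕ) [NeZero e] (he : e ∣ N) : IsMF (Gamma0 N) 12 (EeHol e).1 := by
  rw [EeHol_coe]
  exact isMF_comp_Dm N e he isMF_E4n_cube

lemma DeHol_apply_ne_zero (e : ℕ) [NeZero e] (τ : ℍ) : (DeHol e).1 τ ≠ 0 := by
  rw [DeHol_coe]
  exact discriminant_ne_zero _

lemma DeHol_ne_zero (e : ℕ) [NeZero e] : DeHol e ≠ 0 := fun h0 =>
  DeHol_apply_ne_zero e UpperHalfPlane.I
    (congrFun (congrArg (Subtype.val : Hol → ℍ → ℂ) h0) UpperHalfPlane.I)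

lemma cOrd_DeHol (e : ℕ) [NeZero e] (he : e ∣ N) (δ : SL(2, ℤ)) :
    cOrd N (slashNice N 12 (DeHol e) (isMF_DeHol N e he) δ) * e = N * (T23.cg e δ : ℤ) ^ 2 := by
  have := cOrd_comp_Dm N e he 12 Dn isMF_Dn 1 (fun i hi => by
    have : i = 0 := by omega
    rw [this, qHom_Dn_coeff_zero]) (by rw [qHom_Dn_coeff_one]; exact one_ne_zero)
    (DeHol e) (DeHol_coe e) (isMF_DeHol N e he) δ
  simpa using this

lemma cOrd_EeHol (e : ℕ) [NeZero e] (he : e ∣ N) (δ : SL(2, ℤ)) :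
    cOrd N (slashNice N 12 (EeHol e) (isMF_EeHol N e he) δ) = 0 := by
  have := cOrd_comp_Dm N e he 12 (E4n ^ 3) isMF_E4n_cube 0 (fun i hi => absurd hi (by omega)) (by
    rw [map_pow, PowerSeries.coeff_zero_eq_constantCoeff_apply, map_pow,
      ← PowerSeries.coeff_zero_eq_constantCoeff_apply, qHom_E4n_coeff_zero]
    norm_num)
    (EeHol e) (EeHol_coe e) (isMF_EeHol N e he) δ
  have he0 : e ≠ 0 := NeZero.ne e
  simpa [he0] using this

lemma EeHol_ne_zero (e : ℕ) [NeZero e] : EeHol e ≠ 0 := by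
  intro h0
  have h1 : scale e (E4n ^ 3) = 0 := niceIncl_injective 1 (by rw [map_zero]; exact h0)
  have h2 : (E4n ^ 3 : nice 1) = 0 := scale_injective e (by rw [h1, map_zero])
  have h3 := congrArg (fun F => (qHom 1 F).coeff 0) h2
  simp only [map_pow, map_zero] at h3
  rw [PowerSeries.coeff_zero_eq_constantCoeff_apply, map_pow,
      ← PowerSeries.coeff_zero_eq_constantCoeff_apply, qHom_E4n_coeff_zero] at h3
  norm_num at h3

omit [NeZero N] in
lemma Psi_jd_mul (e : ℕ) [NeZero e] (he : e ∣ N) :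
    Psi N (jd N e he) * toMer (DeHol e) = toMer (EeHol e) := by
  rw [Psi_jd]
  unfold toMer
  rw [← map_mul]
  apply congrArg
  apply Subtype.ext
  funext τ
  change (jdHol e : ℍ → ℂ) τ * (DeHol e).1 τ = (EeHol e).1 τ
  rw [DeHol_coe, EeHol_coe, jdHol_apply']
  simp only [Subalgebra.coe_pow, Pi.pow_apply, E4n, Dn, jfun]
  rw [div_mul_cancel₀ _ (discriminant_ne_zero _)]

/-- **the order of `j(e τ)` at the cusp `δ ∞`** -/
theorem ord_cuspEmb_jd (e : ℕ) [NeZero e] (he : e ∣ N) (δ : SL(2, ℤ)) :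
    (cuspEmb N δ (jd N e he)).ord * e = -(N * (T23.cg e δ : ℤ) ^ 2) := by
  rw [ord_cuspEmb N 12 (EeHol e) (DeHol e) (isMF_EeHol N e he) (isMF_DeHol N e he)
    (EeHol_ne_zero e) (DeHol_ne_zero e) _ (Psi_jd_mul N e he) δ, cOrd_EeHol N e he, zero_sub,
    neg_mul, cOrd_DeHol N e he]

/-- `j(e τ)` has no pole outside the cusps -/
theorem ord_jd_nonneg (e : ℕ) [NeZero e] (he : e ∣ N) (v : Place Kb (FF N))
    (hv : 0 ≤ v.ord (jF N)) : 0 ≤ v.ord (jd N e he) :=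
  ord_nonneg_of_ne N _ _ (DeHol_apply_ne_zero e) _ (Psi_jd_mul N e he) v hv

/-- `Δ(e τ) / Δ(τ)` -/
noncomputable def HD (e : ℕ) [NeZero e] (he : e ∣ N) : FF N :=
  ⟨qExp Kb e (deltaS Kb) * deltaInvS Kb, Inst.InstGY.quot_mem N e he⟩

lemma coe_HD (e : ℕ) [NeZero e] (he : e ∣ N) :
    ((HD N e he : FF N) : LaurentSeries Kb) = qExp Kb e (deltaS Kb) * deltaInvS Kb := rfl

lemma Psi_HD_mul (e : ℕ) [NeZero e] (he : e ∣ N) :
    Psi N (HD N e he) * toMer (DeHol 1) = toMer (DeHol e) := by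
  apply psi_of_laurent N 12 (DeHol e) (DeHol 1) (isMF_DeHol N e he) (isMF_DeHol N 1 (one_dvd _))
    (DeHol_ne_zero 1)
  have hq : ∀ d : ℕ, ∀ [NeZero d], HahnSeries.ofPowerSeries ℤ ℂ (qExpansion 1 (DeHol d).1)
      = qExp ℂ d (deltaS ℂ) := by
    intro d _
    rw [qExp_eq, ← Inst.InstGY.ofPowerSeries_qHom_Dn, ← ofPowerSeries_qHom_scale]
    simp [DeHol]
  rw [hq e, hq 1, coe_HD, map_mul, Ord.coeffMap_qExp, Ord.coeffMap_deltaS, Ord.coeffMap_deltaInvS,
    qExp_eq ℂ 1, qExpand_one_apply, mul_assoc, mul_comm (deltaInvS ℂ),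
    Inst.InstGY.deltaS_mul_deltaInvS, mul_one]

lemma cg_one (δ : SL(2, ℤ)) : T23.cg 1 δ = 1 := by
  simp [T23.cg]

/-- **the order of `Δ(e τ) / Δ(τ)` at the cusp `δ ∞`** -/
theorem ord_cuspEmb_HD (e : ℕ) [NeZero e] (he : e ∣ N) (δ : SL(2, ℤ)) :
    (cuspEmb N δ (HD N e he)).ord * e = N * (T23.cg e δ : ℤ) ^ 2 - N * e := by
  have h1 := cOrd_DeHol N 1 (one_dvd _) δ
  rw [cg_one] at h1
  rw [ord_cuspEmb N 12 (DeHol e) (DeHol 1) (isMF_DeHol N e he) (isMF_DeHol N 1 (one_dvd _))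
    (DeHol_ne_zero e) (DeHol_ne_zero 1) _ (Psi_HD_mul N e he) δ, sub_mul, cOrd_DeHol N e he]
  have h2 : cOrd N (slashNice N 12 (DeHol 1) (isMF_DeHol N 1 (one_dvd _)) δ) = N := by
    simpa using h1
  rw [h2]

/-- `Δ(e τ) / Δ(τ)` is a unit outside the cusps -/
theorem ord_HD_eq_zero (e : ℕ) [NeZero e] (he : e ∣ N) (v : Place Kb (FF N))
    (hv : 0 ≤ v.ord (jF N)) : v.ord (HD N e he) = 0 :=
  ord_eq_zero_of_ne N _ _ (DeHol_apply_ne_zero e) (DeHol_apply_ne_zero 1) _ (Psi_HD_mul N e he) v hv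

/-- the order of `j` at the cusp `δ ∞` -/
theorem ord_cuspEmb_jF (δ : SL(2, ℤ)) : (cuspEmb N δ (jF N)).ord = -(N : ℤ) := by
  have := ord_cuspEmb_jd N 1 (one_dvd _) δ
  rw [cg_one] at this
  simpa [jF] using this

end Fermat.Agent.ES.CuspOrd
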