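import Fermat.Agent.ES.MuPar
import Fermat.Agent.S24.LocInf
import Fermat.Agent.S24.Degree

/-!
# ES : orders at the cuspidal places of `FF N` of a quotient of two modular forms

* `exists_cusp` : every place of `FF N` above `j = ∞` is given by the expansion at a cusp `δ ∞`;
* `ord_cusp_eq` : the order at that cusp of a quotient `A / B` of two forms on `Γ₀(N)` is the
  difference of the orders of `A ∣ δ`, `B ∣ δ`;
* `cOrd_eq_zero`, `cOrd_pos` : the order of a nice function in terms of its limit at `i∞`.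
-/

set_option autoImplicit false

namespace Fermat.Agent.ES.CuspOrd

open UpperHalfPlane ModularForm CongruenceSubgroup ModularCurve AlgebraicCurve Filter Topology
open Fermat.Agent.S24 Fermat.Agent.S21 Fermat.Agent.ES
open scoped MatrixGroups Manifold

section nice

variable (h : ℕ) [NeZero h]

/-- the order at `i∞` (in the variable `q_h`) of a nice function -/
noncomputable def cOrd (F : nice h) : ℤ := (LocInf.niceGerm h F).ord

lemma tendsto_nice (F : nice h) :
    Tendsto (F : ℍ → ℂ) atImInfty (𝓝 (cuspFunction (h : ℝ) (F : ℍ → ℂ) 0)) := by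
  have han := analyticAt_of_mem_nice h F.2
  have hcomp : (cuspFunction (h : ℝ) (F : ℍ → ℂ) ∘
      fun τ : ℍ ↦ Function.Periodic.qParam (h : ℝ) (τ : ℂ)) = (F : ℍ → ℂ) := by
    funext τ
    exact eq_cuspFunction τ (h_pos h).ne' (by simpa using F.2.1)
  have := han.continuousAt.tendsto.comp (qParam_tendsto_atImInfty (h_pos h))
  rwa [hcomp] at this

lemma cuspFunction_zero_eq (F : nice h) {l : ℂ} (hl : Tendsto (F : ℍ → ℂ) atImInfty (𝓝 l)) :
    cuspFunction (h : ℝ) (F : ℍ → ℂ) 0 = l :=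
  tendsto_nhds_unique (tendsto_nice h F) hl

lemma cOrd_eq_zero (F : nice h) {l : ℂ} (hl : Tendsto (F : ℍ → ℂ) atImInfty (𝓝 l))
    (h0 : l ≠ 0) : cOrd h F = 0 := by
  have := LocInf.ord_niceGerm h F (n := 0) (by
    rw [Nat.cast_zero, (analyticAt_of_mem_nice h F.2).analyticOrderAt_eq_zero,
      cuspFunction_zero_eq h F hl]
    exact h0)
  simpa [cOrd] using this

lemma exists_cOrd_eq (F : nice h) (hF : F ≠ 0) :
    ∃ n : ℕ, analyticOrderAt (cuspFunction (h : ℝ) (F : ℍ → ℂ)) 0 = n ∧ cOrd h F = n := by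
  have hne : analyticOrderAt (cuspFunction (h : ℝ) (F : ℍ → ℂ)) 0 ≠ ⊤ := by
    intro htop
    rw [analyticOrderAt_eq_top] at htop
    apply hF
    apply LocInf.niceGerm_injective h
    rw [map_zero, LocInf.niceGerm_apply, MerGerm.zero_eq_mk, MerGerm.mk_eq_mk_iff]
    exact htop.filter_mono nhdsWithin_le_nhds
  obtain ⟨n, hn⟩ := ENat.ne_top_iff_exists.1 hne
  exact ⟨n, hn.symm, LocInf.ord_niceGerm h F hn.symm⟩

lemma cOrd_nonneg (F : nice h) : 0 ≤ cOrd h F := by
  by_cases hF : F = 0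
  · rw [hF, cOrd, map_zero, MerGerm.ord_zero]
  · obtain ⟨n, -, hn⟩ := exists_cOrd_eq h F hF
    rw [hn]
    exact Int.natCast_nonneg n

lemma cOrd_pos (F : nice h) (hF : F ≠ 0) (hl : Tendsto (F : ℍ → ℂ) atImInfty (𝓝 0)) :
    0 < cOrd h F := by
  obtain ⟨n, hn, hn'⟩ := exists_cOrd_eq h F hF
  rw [hn']
  have : n ≠ 0 := by
    rintro rfl
    rw [Nat.cast_zero, (analyticAt_of_mem_nice h F.2).analyticOrderAt_eq_zero,
      cuspFunction_zero_eq h F hl] at hn
    exact hn rfl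
  exact_mod_cast Nat.pos_of_ne_zero this

end nice

variable (N : ℕ) [NeZero N]

/-- `A ∣[k] δ` as a nice function -/
noncomputable def slashNice (k : ℤ) (A : Hol) (hA : IsMF (Gamma0 N) k A.1) (δ : SL(2, ℤ)) :
    nice N := ⟨A.1 ∣[k] δ, MuPar.slash_mem_nice_of_isMF N N dvd_rfl k A.1 hA δ⟩

lemma slashNice_ne_zero (k : ℤ) (A : Hol) (hA : IsMF (Gamma0 N) k A.1) (δ : SL(2, ℤ))
    (hA0 : A ≠ 0) : slashNice N k A hA δ ≠ 0 := by
  intro h
  apply TUnram.slashHol_ne_zero k δ hA0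
  apply Subtype.ext
  exact congrArg (Subtype.val : nice N → ℍ → ℂ) h

/-- the expansion at the cusp `δ ∞` -/
noncomputable def cuspEmb (δ : SL(2, ℤ)) : FF N →+* MerGerm (0 : ℂ) :=
  (LocInf.germCusp N).comp (sigmaCusp N δ⁻¹)

theorem sigmaCusp_eq_div (k : ℤ) (A B : Hol) (hA : IsMF (Gamma0 N) k A.1)
    (hB : IsMF (Gamma0 N) k B.1) (hB0 : B ≠ 0) (x : FF N) (hx : Psi N x * toMer B = toMer A)
    (δ : SL(2, ℤ)) :
    sigmaCusp N δ⁻¹ x = toFr N (slashNice N k A hA δ) / toFr N (slashNice N k B hB δ) := by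
  apply (niceToMer N).injective
  have h1 : Psi N x = toMer A / toMer B := by
    rw [eq_div_iff (TUnram.toMer_ne_zero hB0), hx]
  rw [niceToMer_sigmaCusp, sigma_apply, h1, TUnram.act_div k δ⁻¹ A B hB0, inv_inv, map_div₀,
    niceToMer_toFr, niceToMer_toFr]
  rfl

/-- **the order at a cusp of a quotient of two forms** -/
theorem ord_cuspEmb (k : ℤ) (A B : Hol) (hA : IsMF (Gamma0 N) k A.1)
    (hB : IsMF (Gamma0 N) k B.1) (hA0 : A ≠ 0) (hB0 : B ≠ 0) (x : FF N)
    (hx : Psi N x * toMer B = toMer A) (δ : SL(2, ℤ)) :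
    (cuspEmb N δ x).ord = cOrd N (slashNice N k A hA δ) - cOrd N (slashNice N k B hB δ) := by
  have hA' : LocInf.niceGerm N (slashNice N k A hA δ) ≠ 0 := by
    rw [Ne, map_eq_zero_iff _ (LocInf.niceGerm_injective N)]
    exact slashNice_ne_zero N k A hA δ hA0
  have hB' : LocInf.niceGerm N (slashNice N k B hB δ) ≠ 0 := by
    rw [Ne, map_eq_zero_iff _ (LocInf.niceGerm_injective N)]
    exact slashNice_ne_zero N k B hB δ hB0
  rw [cuspEmb, RingHom.comp_apply, sigmaCusp_eq_div N k A B hA hB hB0 x hx δ, map_div₀,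
    LocInf.germCusp_toFr, LocInf.germCusp_toFr, div_eq_mul_inv,
    MerGerm.ord_mul hA' (inv_ne_zero hB'), MerGerm.ord_inv, cOrd, cOrd]
  ring

/-- **every place above `j = ∞` is a cusp** -/
theorem exists_cusp (v : Place Kb (FF N)) (hv : v.ord (jF N) < 0) :
    ∃ (δ : SL(2, ℤ)) (m : ℤ), 0 < m ∧ ∀ f : FF N, f ≠ 0 → (cuspEmb N δ f).ord = m * v.ord f := by
  classical
  letI : Fintype (SL(2, ℤ) ⧸ Gamma0 N) := Fintype.ofFinite _
  have hv' : 0 < v.ord (jF N)⁻¹ := by
    rw [Place.ord_inv]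
    omega
  obtain ⟨c, m, hm, h⟩ := Loc.exists_index (jF N)⁻¹ (FF.transcendental_inv (transcendental_jF N))
    (LocInf.sigmaInf N) (LocInf.sigmaInf_injective N) iotaC (LocInf.sigmaInf_const N)
    (fun i i' => by rw [map_inv₀, map_inv₀, LocInf.sigmaInf_jF, LocInf.sigmaInf_jF])
    (by
      rw [FF.finrank_congr (FF.adjoin_inv (jF N)), finrank_FF N, Subgroup.index,
        Nat.card_eq_fintype_card])
    N (Nat.pos_of_ne_zero (NeZero.ne N)) (LocInf.ord_sigmaInf_jF_inv N) v hv'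
  refine ⟨c.out⁻¹, m, hm, fun f hf => ?_⟩
  rw [← h f hf, cuspEmb, inv_inv]
  rfl

end Fermat.Agent.ES.CuspOrd
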