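import Fermat.Agent.ES.T23Modular

/-!
# ES : the values of `E₄(e τ)` at the cusps

`(E₄(e ·) ∣[4] γ)(τ) → (gcd(e, c) / e)⁴` as `Im τ → ∞`, `c` the lower left entry of `γ`.
-/

set_option autoImplicit false

namespace Fermat.Agent.ES.T23

open UpperHalfPlane ModularForm CongruenceSubgroup Fermat.Agent.S21 Fermat.Agent.S23
  Fermat.Agent.S23.Prim Filter Topology Matrix.SpecialLinearGroup
open scoped MatrixGroups Manifold

/-- `gcd(e, c)` -/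
def cg (e : ℕ) (γ : SL(2, ℤ)) : ℕ := Int.gcd (e : ℤ) (γ 1 0)

lemma cg_pos (e : ℕ) [NeZero e] (γ : SL(2, ℤ)) : 0 < cg e γ :=
  Int.gcd_pos_of_ne_zero_left _ (by exact_mod_cast NeZero.ne e)

lemma cg_dvd (e : ℕ) (γ : SL(2, ℤ)) : cg e γ ∣ e := by
  have := Int.gcd_dvd_left (e : ℤ) (γ 1 0)
  exact_mod_cast this

lemma cg_mul {e f : ℕ} (h : Nat.Coprime e f) (γ : SL(2, ℤ)) : cg (e * f) γ = cg e γ * cg f γ := by
  unfold cg
  rw [Int.gcd_def, Int.gcd_def, Int.gcd_def]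
  simp only [Int.natAbs_natCast, Nat.cast_mul, Int.natAbs_mul]
  rw [Nat.gcd_comm (e * f), Nat.gcd_comm e, Nat.gcd_comm f]
  exact Nat.Coprime.gcd_mul _ h

lemma cg_prime {r : ℕ} (hr : r.Prime) (γ : SL(2, ℤ)) :
    (cg r γ = r ∧ (r : ℤ) ∣ γ 1 0) ∨ (cg r γ = 1 ∧ ¬ (r : ℤ) ∣ γ 1 0) := by
  rcases (Nat.dvd_prime hr).1 (cg_dvd r γ) with h | h
  · right
    refine ⟨h, fun hd => ?_⟩
    have : (r : ℤ) ∣ (cg r γ : ℤ) := Int.dvd_coe_gcd dvd_rfl hd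
    rw [h] at this
    have h2 : r ∣ 1 := by exact_mod_cast this
    exact hr.one_lt.ne' (Nat.dvd_one.1 h2)
  · left
    refine ⟨h, ?_⟩
    have := Int.gcd_dvd_right (r : ℤ) (γ 1 0)
    rw [show Int.gcd (r : ℤ) (γ 1 0) = r from h] at this
    exact this

lemma coe_Vn (e : ℕ) [NeZero e] : (Vn e).1 = ⇑(u e) := by
  funext τ
  exact (u_apply e τ).symm

/-- the Hermite normal form of `diag(e,1) γ` has `a = gcd(e, c)`. -/
lemma decomp_a_eq (e : ℕ) [NeZero e] (γ δ : SL(2, ℤ)) (a b d : ℤ) (ha : 0 < (a : ℝ))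
    (hd : 0 < (d : ℝ))
    (hmat : Dm e * mapGL ℝ γ = mapGL ℝ δ * upperTriangularGL a b d (mul_pos ha hd).ne') :
    a = cg e γ := by
  have h00 := congrArg (fun M : GL (Fin 2) ℝ => (M : Matrix (Fin 2) (Fin 2) ℝ) 0 0) hmat
  have h10 := congrArg (fun M : GL (Fin 2) ℝ => (M : Matrix (Fin 2) (Fin 2) ℝ) 1 0) hmat
  simp [Dm, Matrix.mul_apply, Fin.sum_univ_two] at h00 h10
  have e00 : (e : ℤ) * γ 0 0 = δ 0 0 * a := by exact_mod_cast h00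
  have e10 : γ 1 0 = δ 1 0 * a := by exact_mod_cast h10
  have ha' : 0 < a := by exact_mod_cast ha
  have hγ := Matrix.det_fin_two γ.1
  rw [γ.2] at hγ
  have hδ := Matrix.det_fin_two δ.1
  rw [δ.2] at hδ
  have c1 : Int.gcd (δ 0 0) (δ 1 0) = 1 := by
    rw [← Int.isCoprime_iff_gcd_eq_one]
    exact ⟨δ 1 1, -δ 0 1, by
      have : δ.1 0 0 * δ.1 1 1 - δ.1 0 1 * δ.1 1 0 = 1 := hδ.symm
      linear_combination this⟩
  have c2 : Int.gcd (γ 0 0) (γ 1 0) = 1 := by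
    rw [← Int.isCoprime_iff_gcd_eq_one]
    exact ⟨γ 1 1, -γ 0 1, by
      have : γ.1 0 0 * γ.1 1 1 - γ.1 0 1 * γ.1 1 0 = 1 := hγ.symm
      linear_combination this⟩
  have k1 : Int.gcd ((e : ℤ) * γ 0 0) (γ 1 0) = a.natAbs := by
    rw [e00, e10, Int.gcd_mul_right, c1, one_mul]
  have k2 : Int.gcd ((e : ℤ) * γ 0 0) (γ 1 0) = cg e γ := by
    unfold cg
    rw [Int.gcd_def, Int.gcd_def, Int.natAbs_mul]
    exact Nat.Coprime.gcd_mul_right_cancel _ (by rwa [Int.gcd_def] at c2)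
  rw [← k2, k1, Int.natCast_natAbs, abs_of_pos ha']

/-- **the value of `E₄(e τ)` at the cusp `γ ∞`** -/
theorem tendsto_Vn_slash (e : ℕ) [NeZero e] (γ : SL(2, ℤ)) :
    Tendsto ((Vn e).1 ∣[(4 : ℤ)] γ) atImInfty (𝓝 (((cg e γ : ℂ) / e) ^ 4)) := by
  obtain ⟨δ, a, b, d, ha, hd, had, -, hmat⟩ := exists_decomp e γ
  have haeq := decomp_a_eq e γ δ a b d ha hd hmat
  have hN : (e : ℂ) ≠ 0 := by exact_mod_cast NeZero.ne e
  have hdC : (d : ℂ) ≠ 0 := by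
    have : (d : ℝ) ≠ 0 := hd.ne'
    exact_mod_cast this
  have key : ∀ τ : ℍ, (⇑(u e) ∣[(4 : ℤ)] γ) τ
      = E₄ (upperTriangularGL a b d (mul_pos ha hd).ne' • τ) * ((d : ℂ) ^ 4)⁻¹ := by
    intro τ
    rw [coe_u, SL_smul_slash, SL_slash, ← SlashAction.slash_mul]
    have : Dm e * (γ : GL (Fin 2) ℝ) = mapGL ℝ δ * upperTriangularGL a b d (mul_pos ha hd).ne' :=
      hmat
    rw [this, SlashAction.slash_mul]
    have hE : (⇑E₄ ∣[(4 : ℤ)] mapGL ℝ δ) = ⇑E₄ := E₄.slash_action_eq' _ ⟨δ, rfl⟩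
    rw [hE, Pi.smul_apply, slash_ut_apply _ _ (mul_pos ha hd), smul_eq_mul]
    have had' : (((a : ℝ) * (d : ℝ) : ℝ) : ℂ) = e := by exact_mod_cast had
    generalize E₄ (upperTriangularGL a b d (mul_pos ha hd).ne' • τ) = x
    rw [had']
    norm_num
    field_simp
  have hval : ((cg e γ : ℂ) / e) ^ 4 = 1 * ((d : ℂ) ^ 4)⁻¹ := by
    have h1 : (e : ℂ) = (cg e γ : ℂ) * d := by
      have : (e : ℤ) = (cg e γ : ℤ) * d := by rw [← haeq, had]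
      exact_mod_cast this
    have h2 : (cg e γ : ℂ) ≠ 0 := by exact_mod_cast (cg_pos e γ).ne'
    rw [h1]
    field_simp
  rw [hval, coe_Vn]
  have : (⇑(u e) ∣[(4 : ℤ)] γ) = fun τ : ℍ =>
      E₄ (upperTriangularGL a b d (mul_pos ha hd).ne' • τ) * ((d : ℂ) ^ 4)⁻¹ := funext key
  rw [this]
  exact (tendsto_E4.comp (tendsto_ut_smul ha hd)).mul_const _

end Fermat.Agent.ES.T23
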