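import Fermat.Agent.ES.CuspOrd
import Fermat.Agent.ES.HauptW1

/-!
# ES : the exact order at a cusp of `F(e τ)`, `F` of level one
-/

set_option autoImplicit false

namespace Fermat.Agent.ES.CuspOrd

open UpperHalfPlane ModularForm CongruenceSubgroup ModularCurve AlgebraicCurve Filter Topology
open Fermat.Agent.S24 Fermat.Agent.S21 Fermat.Agent.ES Fermat.Agent.S23.Prim
open Matrix.SpecialLinearGroup
open scoped MatrixGroups Manifold

/-- `F(e ·) ∣[k] γ = d⁻ᵏ F((a τ + b) / d)`, `a = gcd(e, c)`, `a d = e`. -/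
theorem comp_Dm_slash (k : ℤ) (f : ℍ → ℂ) (hf : IsMF ⊤ k f) (e : ℕ) [NeZero e] (γ : SL(2, ℤ)) :
    ∃ (a b d : ℤ) (ha : 0 < a) (hd : 0 < d), a = T23.cg e γ ∧ a * d = e ∧
      ∀ τ : ℍ, ((fun τ => f (Dm e • τ)) ∣[k] γ) τ
        = ((d : ℂ) ^ k)⁻¹ * f (utZ a b d ha hd • τ) := by
  obtain ⟨δ, a, b, d, ha, hd, had, -, hmat⟩ := exists_decomp e γ
  have haeq := T23.decomp_a_eq e γ δ a b d ha hd hmat
  refine ⟨a, b, d, by exact_mod_cast ha, by exact_mod_cast hd, haeq, had, fun τ => ?_⟩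
  have he0 : (e : ℂ) ≠ 0 := by exact_mod_cast NeZero.ne e
  have hdC : (d : ℂ) ≠ 0 := by
    have : (d : ℝ) ≠ 0 := hd.ne'
    exact_mod_cast this
  have e1 : (fun τ => f (Dm e • τ)) = (((e : ℂ) ^ (k - 1))⁻¹ • (f ∣[k] Dm e)) := by
    funext τ
    rw [Pi.smul_apply, DegMF.slash_Dm_apply', smul_eq_mul]
    have := zpow_ne_zero (k - 1) he0
    field_simp
  rw [e1, SL_smul_slash, SL_slash, ← SlashAction.slash_mul]
  have : Dm e * (γ : GL (Fin 2) ℝ) = mapGL ℝ δ * upperTriangularGL a b d (mul_pos ha hd).ne' :=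
    hmat
  rw [this, SlashAction.slash_mul]
  have hE : (f ∣[k] mapGL ℝ δ) = f := hf.inv δ trivial
  rw [hE, Pi.smul_apply, slash_ut_apply _ _ (mul_pos ha hd), smul_eq_mul]
  have had' : (((a : ℝ) * (d : ℝ) : ℝ) : ℂ) = e := by exact_mod_cast had
  rw [had', utZ, zpow_neg]
  have := zpow_ne_zero (k - 1) he0
  have hcast : (((d : ℝ) : ℂ)) = (d : ℂ) := by push_cast; rfl
  rw [hcast]
  field_simp

section nice

variable (h : ℕ) [NeZero h]

lemma cOrd_eq_of_coeff (F : nice h) (n : ℕ) (h1 : ∀ k < n, (qHom h F).coeff k = 0)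
    (h2 : (qHom h F).coeff n ≠ 0) : cOrd h F = n :=
  LocInf.ord_niceGerm h F ((analyticOrderAt_cuspFunction_eq_iff h F n).2 ⟨h1, h2⟩)

/-- the order of `c F((a τ + b) / d)` in the variable `q_h`, `a h = d k` -/
theorem cOrd_smul_utNice (a b d : ℤ) (ha : 0 < a) (hd : 0 < d) (k : ℕ) (hk : a * h = d * k)
    (c : ℂ) (hc : c ≠ 0) (F : nice 1) (n : ℕ) (h1 : ∀ i < n, (qHom 1 F).coeff i = 0)
    (h2 : (qHom 1 F).coeff n ≠ 0) :
    cOrd h (c • utNice a b d ha hd h ⟨k, hk⟩ F) = k * n := by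
  have hk0 : 0 < k := by
    rcases Nat.eq_zero_or_pos k with h0 | h0
    · exfalso
      rw [h0] at hk
      have : 0 < a * h := mul_pos ha (by exact_mod_cast Nat.pos_of_ne_zero (NeZero.ne h))
      simp at hk
      rcases hk with h1 | h1
      · omega
      · exact NeZero.ne h h1
    · exact h0
  have := cOrd_eq_of_coeff h (c • utNice a b d ha hd h ⟨k, hk⟩ F) (k * n) ?_ ?_
  · rw [this]
    push_cast
    ring
  · intro i hi
    rw [map_smul, PowerSeries.coeff_smul, qHom_utNice_coeff a b d ha hd h k hk F]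
    split_ifs with hd'
    · obtain ⟨m, rfl⟩ := hd'
      rw [Nat.mul_div_cancel_left _ hk0, h1 m (lt_of_mul_lt_mul_left hi (Nat.zero_le k))]
      simp
    · simp
  · rw [map_smul, PowerSeries.coeff_smul, qHom_utNice_coeff a b d ha hd h k hk F,
      if_pos (dvd_mul_right _ _), Nat.mul_div_cancel_left _ hk0]
    exact smul_ne_zero hc (mul_ne_zero h2 (pow_ne_zero _ (Complex.exp_ne_zero _)))

end nice

variable (N : ℕ) [NeZero N]

/-- **the exact order at the cusp `δ ∞` of `F(e τ)`** -/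
theorem cOrd_comp_Dm (e : ℕ) [NeZero e] (he : e ∣ N) (k : ℤ) (F : nice 1) (hF : IsMF ⊤ k F.1)
    (n : ℕ) (h1 : ∀ i < n, (qHom 1 F).coeff i = 0) (h2 : (qHom 1 F).coeff n ≠ 0)
    (A : Hol) (hA1 : A.1 = fun τ => F.1 (Dm e • τ)) (hA : IsMF (Gamma0 N) k A.1) (δ : SL(2, ℤ)) :
    cOrd N (slashNice N k A hA δ) * e = N * (T23.cg e δ : ℤ) ^ 2 * n := by
  obtain ⟨a, b, d, ha, hd, hag, had, hsl⟩ := comp_Dm_slash k F.1 hF e δ
  obtain ⟨N', hN'⟩ := he
  have hk : a * (N : ℤ) = d * ((a ^ 2 * N').toNat : ℤ) := by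
    rw [Int.toNat_of_nonneg (by positivity), hN']
    push_cast
    rw [← had]
    ring
  have hdC : (d : ℂ) ≠ 0 := by exact_mod_cast hd.ne'
  have e1 : slashNice N k A hA δ
      = ((d : ℂ) ^ k)⁻¹ • utNice a b d ha hd N ⟨_, hk⟩ F := by
    apply Subtype.ext
    funext τ
    change (A.1 ∣[k] δ) τ = ((d : ℂ) ^ k)⁻¹ • (utNice a b d ha hd N ⟨_, hk⟩ F : ℍ → ℂ) τ
    rw [hA1, hsl, utNice_apply, smul_eq_mul]
  rw [e1, cOrd_smul_utNice N a b d ha hd _ hk _ (inv_ne_zero (zpow_ne_zero k hdC)) F n h1 h2,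
    Int.toNat_of_nonneg (by positivity), ← hag, hN']
  push_cast
  rw [← had]
  ring

end Fermat.Agent.ES.CuspOrd
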