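import Fermat.Agent.ES.EisTw
import Fermat.Agent.S24.Hol

set_option autoImplicit false

/-!
# D-MULT : a holomorphic `n`-th root of a cusp form on `Γ₀(N)` is a cusp form with character
-/

namespace Fermat.Agent.ES.DMult

open UpperHalfPlane ModularForm Filter CongruenceSubgroup Fermat.Agent.S24
open scoped MatrixGroups Manifold Topology

/-- In the domain `Hol`: `a ^ n = b ^ n` implies `a = ζ b` with a constant `ζ`, `ζ ^ n = 1`. -/
lemma exists_root_smul {a b : Hol} {n : ℕ} (hn : n ≠ 0) (h : a ^ n = b ^ n) :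
    ∃ ζ : ℂ, ζ ^ n = 1 ∧ a = ζ • b := by
  have hω : IsPrimitiveRoot (Complex.exp (2 * Real.pi * Complex.I / n)) n :=
    Complex.isPrimitiveRoot_exp n hn
  set ω : ℂ := Complex.exp (2 * Real.pi * Complex.I / n) with hωdef
  have hinj : Function.Injective (algebraMap ℂ Hol) := (algebraMap ℂ Hol).injective
  have hω' : IsPrimitiveRoot (algebraMap ℂ Hol ω) n := hω.map_of_injective hinj
  have hprod := hω'.pow_sub_pow_eq_prod_sub_mul a b (Nat.pos_of_ne_zero hn)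
  rw [h, sub_self] at hprod
  obtain ⟨ξ, hξ, hξ0⟩ := Finset.prod_eq_zero_iff.mp hprod.symm
  have : NeZero n := ⟨hn⟩
  have hξ1 : ξ ^ n = 1 := (Polynomial.mem_nthRootsFinset (Nat.pos_of_ne_zero hn) 1).mp hξ
  obtain ⟨i, -, hi⟩ := hω'.eq_pow_of_pow_eq_one hξ1
  refine ⟨ω ^ i, ?_, ?_⟩
  · rw [← pow_mul, mul_comm, pow_mul, hω.pow_eq_one, one_pow]
  · rw [sub_eq_zero] at hξ0
    rw [hξ0, ← hi, ← map_pow, Algebra.smul_def]

lemma mdiff_slash {F : ℍ → ℂ} (hF : MDiff F) (k : ℤ) (g : SL(2, ℤ)) : MDiff (F ∣[k] g) := by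
  rw [SL_slash]
  exact hF.slash _ _

/-- function version -/
lemma exists_root_smul' {a b : ℍ → ℂ} (ha : MDiff a) (hb : MDiff b) {n : ℕ} (hn : n ≠ 0)
    (h : a ^ n = b ^ n) : ∃ ζ : ℂ, ζ ^ n = 1 ∧ a = ζ • b := by
  obtain ⟨ζ, h1, h2⟩ := exists_root_smul (a := ⟨a, ha⟩) (b := ⟨b, hb⟩) hn (Subtype.ext h)
  exact ⟨ζ, h1, congrArg Subtype.val h2⟩

/-- **D-MULT.** -/
theorem exists_character {N : ℕ} {k : ℤ} {n : ℕ} (hn : n ≠ 0) {F : ℍ → ℂ} (hF : MDiff F)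
    (hF0 : F ≠ 0) (hinv : ∀ γ ∈ Gamma0 N, (F ^ n) ∣[(n : ℤ) * k] γ = F ^ n) :
    ∃ χ : Gamma0 N →* ℂˣ, (∀ g, χ g ^ n = 1) ∧
      ∀ γ : Gamma0 N, F ∣[k] (γ : SL(2, ℤ)) = (χ γ : ℂ) • F := by
  classical
  have hex : ∀ γ : Gamma0 N, ∃ ζ : ℂ, ζ ^ n = 1 ∧ F ∣[k] (γ : SL(2, ℤ)) = ζ • F := by
    intro γ
    refine exists_root_smul' (mdiff_slash hF k γ) hF hn ?_
    rw [← EisTw.pow_slash, hinv γ γ.2]
  choose c hc1 hc2 using hex
  obtain ⟨z₀, hz₀⟩ : ∃ z, F z ≠ 0 := by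
    by_contra hh
    push Not at hh
    exact hF0 (funext hh)
  have huniq : ∀ a b : ℂ, a • F = b • F → a = b := by
    intro a b hab
    have := congrFun hab z₀
    simpa [hz₀] using this
  have hc0 : ∀ γ, c γ ≠ 0 := by
    intro γ h0
    have := hc1 γ
    rw [h0, zero_pow hn] at this
    exact zero_ne_one this
  have hmul : ∀ γ γ' : Gamma0 N, c (γ * γ') = c γ * c γ' := by
    intro γ γ'
    apply huniq
    rw [← hc2, Subgroup.coe_mul, SlashAction.slash_mul, hc2, SL_smul_slash, hc2, smul_smul]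
  have hone : c 1 = 1 := by
    apply huniq
    rw [← hc2, Subgroup.coe_one, SlashAction.slash_one, one_smul]
  refine ⟨{ toFun := fun γ => Units.mk0 (c γ) (hc0 γ)
            map_one' := by ext; simpa using hone
            map_mul' := fun γ γ' => by ext; simpa using hmul γ γ' }, fun g => ?_, fun γ => ?_⟩
  · ext
    simpa using hc1 g
  · simpa using hc2 γ

/-- If `F ^ n` tends to zero at `i∞`, so does `F`. -/
lemma isZeroAtImInfty_of_pow {n : ℕ} (hn : n ≠ 0) {f : ℍ → ℂ} (h : IsZeroAtImInfty (f ^ n)) :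
    IsZeroAtImInfty f := by
  rw [IsZeroAtImInfty, ZeroAtFilter, tendsto_zero_iff_norm_tendsto_zero] at h ⊢
  have h1 : Tendsto (fun z => (‖f z‖ ^ n) ^ ((n : ℝ)⁻¹)) atImInfty (𝓝 (0 ^ ((n : ℝ)⁻¹))) := by
    refine Tendsto.rpow_const ?_ (Or.inr (by positivity))
    simpa [norm_pow] using h
  rw [Real.zero_rpow (by positivity)] at h1
  refine h1.congr fun z => ?_
  rw [← Real.rpow_natCast, ← Real.rpow_mul (norm_nonneg _), mul_inv_cancel₀ (by exact_mod_cast hn),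
    Real.rpow_one]

theorem isZeroAtImInfty_slash_of_pow {Γ : Subgroup SL(2, ℤ)} {k : ℤ} {n : ℕ} (hn : n ≠ 0)
    {F : ℍ → ℂ} (h : S21.IsCF Γ ((n : ℤ) * k) (F ^ n)) (g : SL(2, ℤ)) :
    IsZeroAtImInfty (F ∣[k] g) := by
  refine isZeroAtImInfty_of_pow hn ?_
  rw [← EisTw.pow_slash]
  exact h.zero g

end Fermat.Agent.ES.DMult
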