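import Fermat.Agent.ES.BN

/-!
# ES, package E-ALG : from the quadratic relation `g² - a(g) g + χ(g) = 0` to a two-dimensional
semisimple representation with these characteristic polynomials
-/

set_option autoImplicit false
set_option linter.unusedSectionVars false

open Polynomial Module

namespace Fermat.Agent.ES

namespace EAlg

section PP

variable {G : Type*} [Group G] {κ : Type*} [Field κ] {W : Type*} [AddCommGroup W] [Module κ W]

/-- the graph of the "anti-involution" `ρ g ↦ χ g • ρ g⁻¹`, as a relation. -/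
def PP (ρ : G →* End κ W) (χ : G →* κˣ) : Submodule κ (End κ W × End κ W) :=
  Submodule.span κ (Set.range fun g : G => (ρ g, ((χ g : κˣ) : κ) • ρ g⁻¹))

variable {ρ : G →* End κ W} {χ : G →* κˣ} {a : G → κ}

lemma rho_mul_inv (g : G) : ρ g * ρ g⁻¹ = 1 := by rw [← map_mul, mul_inv_cancel, map_one]

lemma gen_add (h : ∀ g, ρ g * ρ g - a g • ρ g + ((χ g : κˣ) : κ) • (1 : End κ W) = 0) (g : G) :
    ρ g + ((χ g : κˣ) : κ) • ρ g⁻¹ = a g • (1 : End κ W) := by
  have h1 := congrArg (· * ρ g⁻¹) (h g)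
  simp only [add_mul, sub_mul, mul_assoc, rho_mul_inv, mul_one, smul_mul_assoc, one_mul,
    zero_mul] at h1
  rw [← sub_eq_zero]
  rw [← h1]
  abel

lemma PP_add (h : ∀ g, ρ g * ρ g - a g • ρ g + ((χ g : κˣ) : κ) • (1 : End κ W) = 0)
    (z : End κ W × End κ W) (hz : z ∈ PP ρ χ) : ∃ c : κ, z.1 + z.2 = c • (1 : End κ W) := by
  induction hz using Submodule.span_induction with
  | mem z hz =>
    obtain ⟨g, rfl⟩ := hz
    exact ⟨a g, gen_add h g⟩
  | zero => exact ⟨0, by simp⟩
  | add x y _ _ hx hy =>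
    obtain ⟨c, hc⟩ := hx
    obtain ⟨d, hd⟩ := hy
    refine ⟨c + d, ?_⟩
    rw [add_smul, ← hc, ← hd]
    simp only [Prod.fst_add, Prod.snd_add]
    abel
  | smul r x _ hx =>
    obtain ⟨c, hc⟩ := hx
    refine ⟨r * c, ?_⟩
    rw [mul_smul, ← hc]
    simp

lemma PP_mul (z : End κ W × End κ W) (hz : z ∈ PP ρ χ) (w : End κ W × End κ W)
    (hw : w ∈ PP ρ χ) : (z.1 * w.1, w.2 * z.2) ∈ PP ρ χ := by
  induction hz using Submodule.span_induction with
  | mem z hz =>
    obtain ⟨g, rfl⟩ := hz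
    induction hw using Submodule.span_induction with
    | mem w hw =>
      obtain ⟨g', rfl⟩ := hw
      refine Submodule.subset_span ⟨g * g', ?_⟩
      simp only [map_mul, mul_inv_rev, Units.val_mul, smul_mul_smul_comm, Prod.mk.injEq, true_and]
      rw [mul_comm]
    | zero =>
      have := zero_mem (PP ρ χ)
      rw [← Prod.mk_zero_zero] at this
      simpa using this
    | add x y _ _ hx hy =>
      have := add_mem hx hy
      simpa [mul_add, add_mul] using this
    | smul r x _ hx =>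
      have := Submodule.smul_mem _ r hx
      simpa [smul_comm r] using this
  | zero =>
    have := zero_mem (PP ρ χ)
    rw [← Prod.mk_zero_zero] at this
    simpa using this
  | add x y _ _ hx hy =>
    have := add_mem hx hy
    simpa [mul_add, add_mul] using this
  | smul r x _ hx =>
    have := Submodule.smul_mem _ r hx
    simpa using this

lemma PP_swap (z : End κ W × End κ W) (hz : z ∈ PP ρ χ) : (z.2, z.1) ∈ PP ρ χ := by
  induction hz using Submodule.span_induction with
  | mem z hz =>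
    obtain ⟨g, rfl⟩ := hz
    have h1 : (ρ g⁻¹, ((χ g⁻¹ : κˣ) : κ) • ρ g⁻¹⁻¹) ∈ PP ρ χ := Submodule.subset_span ⟨g⁻¹, rfl⟩
    have h2 := Submodule.smul_mem _ ((χ g : κˣ) : κ) h1
    have e : ((χ g : κˣ) : κ) * ((χ g⁻¹ : κˣ) : κ) = 1 := by
      rw [← Units.val_mul, ← map_mul, mul_inv_cancel, map_one, Units.val_one]
    simpa [smul_smul, e] using h2
  | zero =>
    have := zero_mem (PP ρ χ)
    rw [← Prod.mk_zero_zero] at this
    simpa using this
  | add x y _ _ hx hy =>
    have := add_mem hx hy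
    simpa using this
  | smul r x _ hx =>
    have := Submodule.smul_mem _ r hx
    simpa using this

lemma PP_norm (h : ∀ g, ρ g * ρ g - a g • ρ g + ((χ g : κˣ) : κ) • (1 : End κ W) = 0)
    (z : End κ W × End κ W) (hz : z ∈ PP ρ χ) : ∃ c : κ, z.1 * z.2 = c • (1 : End κ W) := by
  induction hz using Submodule.span_induction with
  | mem z hz =>
    obtain ⟨g, rfl⟩ := hz
    exact ⟨((χ g : κˣ) : κ), by simp [rho_mul_inv]⟩
  | zero => exact ⟨0, by simp⟩
  | add x y hx' hy' hx hy =>
    obtain ⟨c, hc⟩ := hx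
    obtain ⟨d, hd⟩ := hy
    obtain ⟨e, he⟩ := PP_add h _ (PP_mul x hx' _ (PP_swap y hy'))
    refine ⟨c + d + e, ?_⟩
    simp only at he
    rw [add_smul, add_smul, ← hc, ← hd, ← he]
    simp only [Prod.fst_add, Prod.snd_add, mul_add, add_mul]
    abel
  | smul r x _ hx =>
    obtain ⟨c, hc⟩ := hx
    refine ⟨r * r * c, ?_⟩
    rw [mul_smul, ← hc]
    simp [smul_smul]

/-- every element of `End W` is quadratic. -/
lemma exists_quadratic [IsAlgClosed κ] [FiniteDimensional κ W] [Nontrivial W]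
    (hirr : BN.IsIrr ρ)
    (h : ∀ g, ρ g * ρ g - a g • ρ g + ((χ g : κˣ) : κ) • (1 : End κ W) = 0) (x : End κ W) :
    ∃ t n : κ, x * x - t • x + n • (1 : End κ W) = 0 := by
  have hex : ∃ x', (x, x') ∈ PP ρ χ := by
    obtain ⟨z, rfl⟩ := BN.lin_surjective hirr x
    induction z using MonoidAlgebra.induction_on with
    | of g => exact ⟨((χ g : κˣ) : κ) • ρ g⁻¹, Submodule.subset_span ⟨g, by simp⟩⟩
    | add x y hx hy =>
      obtain ⟨x', hx'⟩ := hx
      obtain ⟨y', hy'⟩ := hy
      exact ⟨x' + y', by simpa using add_mem hx' hy'⟩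
    | smul r x hx =>
      obtain ⟨x', hx'⟩ := hx
      exact ⟨r • x', by simpa using Submodule.smul_mem _ r hx'⟩
  obtain ⟨x', hx'⟩ := hex
  obtain ⟨t, ht⟩ := PP_add h _ hx'
  obtain ⟨n, hn⟩ := PP_norm h _ hx'
  refine ⟨t, n, ?_⟩
  simp only at ht hn
  have e : x' = t • (1 : End κ W) - x := by rw [← ht]; abel
  rw [e, mul_sub, mul_smul_comm, mul_one] at hn
  rw [← hn]
  abel

lemma finrank_le_two [FiniteDimensional κ W]
    (hq : ∀ x : End κ W, ∃ t n : κ, x * x - t • x + n • (1 : End κ W) = 0) :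
    finrank κ W ≤ 2 := by
  by_contra hlt
  have h3 : 3 ≤ finrank κ W := by omega
  let b := Module.finBasis κ W
  let i0 : Fin (finrank κ W) := ⟨0, by omega⟩
  let i1 : Fin (finrank κ W) := ⟨1, by omega⟩
  let i2 : Fin (finrank κ W) := ⟨2, by omega⟩
  have h01 : i0 ≠ i1 := by simp [i0, i1, Fin.ext_iff]
  have h02 : i0 ≠ i2 := by simp [i0, i2, Fin.ext_iff]
  have h12 : i1 ≠ i2 := by simp [i1, i2, Fin.ext_iff]
  let x : End κ W := b.constr κ (fun i => if i = i0 then b i1 else if i = i1 then b i2 else 0)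
  have hx0 : x (b i0) = b i1 := by
    show b.constr κ _ (b i0) = _
    rw [Basis.constr_basis, if_pos rfl]
  have hx1 : x (b i1) = b i2 := by
    show b.constr κ _ (b i1) = _
    rw [Basis.constr_basis, if_neg h01.symm, if_pos rfl]
  obtain ⟨t, n, hx⟩ := hq x
  have h1 := congrArg (fun f : End κ W => b.repr (f (b i0)) i2) hx
  simp only [LinearMap.add_apply, LinearMap.sub_apply, End.mul_apply, LinearMap.smul_apply,
    End.one_apply, hx0, hx1, map_add, map_sub, map_smul, Basis.repr_self, Finsupp.add_apply,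
    Finsupp.sub_apply, Finsupp.smul_apply, Finsupp.single_apply, LinearMap.zero_apply, map_zero,
    Finsupp.zero_apply, if_true, if_neg h12, if_neg h02, smul_eq_mul, mul_zero, sub_zero,
    add_zero] at h1
  exact one_ne_zero h1

end PP

section Sub

variable {G : Type*} [Group G] {κ : Type*} [Field κ] {W : Type*} [AddCommGroup W] [Module κ W]

/-- restriction of a representation to a stable subspace. -/
def res (ρ : G →* End κ W) (U : Submodule κ W) (hU : ∀ g, ∀ u ∈ U, ρ g u ∈ U) :
    G →* End κ U where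
  toFun g := (ρ g).restrict (hU g)
  map_one' := by
    ext u
    simp
  map_mul' g g' := by
    ext u
    simp

lemma res_apply (ρ : G →* End κ W) (U : Submodule κ W) (hU : ∀ g, ∀ u ∈ U, ρ g u ∈ U) (g : G)
    (u : U) : ((res ρ U hU g u : U) : W) = ρ g u := rfl

lemma exists_irr [FiniteDimensional κ W] [Nontrivial W] (ρ : G →* End κ W) :
    ∃ (U : Submodule κ W) (hU : ∀ g, ∀ u ∈ U, ρ g u ∈ U), U ≠ ⊥ ∧ BN.IsIrr (res ρ U hU) := by
  obtain ⟨U, hUmin⟩ := exists_minimal_of_wellFoundedLT
    (fun U : Submodule κ W => U ≠ ⊥ ∧ ∀ g, ∀ u ∈ U, ρ g u ∈ U)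
    ⟨⊤, top_ne_bot, fun _ _ _ => Submodule.mem_top⟩
  obtain ⟨hne, hst⟩ := hUmin.prop
  refine ⟨U, hst, hne, fun U' hU' => ?_⟩
  by_cases hb : U' = ⊥
  · exact Or.inl hb
  right
  have hP : (U'.map U.subtype) ≠ ⊥ ∧ ∀ g, ∀ u ∈ U'.map U.subtype, ρ g u ∈ U'.map U.subtype := by
    constructor
    · intro h0
      apply hb
      rw [eq_bot_iff]
      intro u hu
      have h1 : (u : W) ∈ U'.map U.subtype := ⟨u, hu, rfl⟩
      rw [h0, Submodule.mem_bot] at h1
      rw [Submodule.mem_bot]
      exact Subtype.ext h1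
    · rintro g _ ⟨u, hu, rfl⟩
      exact ⟨res ρ U hst g u, hU' g u hu, rfl⟩
  have hle : U'.map U.subtype ≤ U := by
    rintro _ ⟨u, -, rfl⟩
    exact u.2
  have heq := hUmin.eq_of_le hP hle
  rw [eq_top_iff]
  intro u _
  have hu : (u : W) ∈ U'.map U.subtype := heq.ge u.2
  obtain ⟨u', hu', he⟩ := hu
  have : u' = u := Subtype.ext he
  rwa [← this]

lemma res_rel {ρ : G →* End κ W} {χ : G →* κˣ} {a : G → κ}
    (h : ∀ g, ρ g * ρ g - a g • ρ g + ((χ g : κˣ) : κ) • (1 : End κ W) = 0)
    (U : Submodule κ W) (hU : ∀ g, ∀ u ∈ U, ρ g u ∈ U) (g : G) :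
    res ρ U hU g * res ρ U hU g - a g • res ρ U hU g + ((χ g : κˣ) : κ) • (1 : End κ U) = 0 := by
  ext u
  have := congrArg (fun f : End κ W => f (u : W)) (h g)
  simpa [res_apply] using this

end Sub

section Two

variable {G : Type*} [Group G] {κ : Type*} [Field κ] {V : Type*} [AddCommGroup V] [Module κ V]
  [FiniteDimensional κ V]

lemma cayley_two (hV : finrank κ V = 2) (f : End κ V) :
    f * f - LinearMap.trace κ V f • f + LinearMap.det f • (1 : End κ V) = 0 := by
  have h := LinearMap.aeval_self_charpoly f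
  rw [BN.charpoly_eq_of_finrank_two hV] at h
  simp only [map_add, map_sub, map_mul, map_pow, aeval_X, aeval_C] at h
  rw [Algebra.algebraMap_eq_smul_one, Algebra.algebraMap_eq_smul_one, smul_mul_assoc,
    one_mul, sq] at h
  exact h

lemma charpoly_of_not_scalar (hV : finrank κ V = 2) (f : End κ V)
    (hf : ∀ s : κ, f ≠ s • (1 : End κ V)) (a c : κ)
    (h : f * f - a • f + c • (1 : End κ V) = 0) : f.charpoly = X ^ 2 - C a * X + C c := by
  have : Nontrivial V := Module.nontrivial_of_finrank_pos (R := κ) (by omega)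
  have hCH := cayley_two hV f
  set t := LinearMap.trace κ V f
  set d := LinearMap.det f
  have h1 : (t - a) • f = (d - c) • (1 : End κ V) := by
    rw [sub_smul, sub_smul]
    have := congrArg₂ (· - ·) h hCH
    simp only [sub_zero] at this
    rw [← sub_eq_zero]
    rw [← this]
    abel
  have hta : t = a := by
    by_contra hne
    have hne' : t - a ≠ 0 := sub_ne_zero.mpr hne
    apply hf ((t - a)⁻¹ * (d - c))
    rw [mul_smul, ← h1, smul_smul, inv_mul_cancel₀ hne', one_smul]
  have hdc : d = c := by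
    rw [hta, sub_self, zero_smul] at h1
    have h2 := congrArg (fun g : End κ V => g) h1.symm
    by_contra hne
    have hne' : d - c ≠ 0 := sub_ne_zero.mpr hne
    have : (1 : End κ V) = 0 := by
      have := congrArg (fun g : End κ V => (d - c)⁻¹ • g) h2
      simp only [smul_smul, inv_mul_cancel₀ hne', one_smul, smul_zero] at this
      exact this
    exact one_ne_zero this
  have hta' : LinearMap.trace κ V f = a := hta
  have hdc' : LinearMap.det f = c := hdc
  rw [BN.charpoly_eq_of_finrank_two hV, hta', hdc']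

lemma exists_not_scalar (hV : finrank κ V = 2) {τ : G →* End κ V} (hirr : BN.IsIrr τ) :
    ∃ g, ∀ s : κ, τ g ≠ s • (1 : End κ V) := by
  have : Nontrivial V := Module.nontrivial_of_finrank_pos (R := κ) (by omega)
  by_contra hcon
  push Not at hcon
  obtain ⟨v, hv⟩ := exists_ne (0 : V)
  rcases hirr (Submodule.span κ {v}) (by
    intro g u hu
    obtain ⟨s, hs⟩ := hcon g
    rw [hs]
    exact Submodule.smul_mem _ s hu) with h | h
  · exact hv ((Submodule.span_singleton_eq_bot).mp h)
  · have h1 := finrank_span_singleton (K := κ) hv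
    rw [h, finrank_top, hV] at h1
    omega

lemma charpoly_eq (hV : finrank κ V = 2) {τ : G →* End κ V} (hirr : BN.IsIrr τ)
    {χ : G →* κˣ} {a : G → κ}
    (h : ∀ g, τ g * τ g - a g • τ g + ((χ g : κˣ) : κ) • (1 : End κ V) = 0) (g : G) :
    (τ g).charpoly = X ^ 2 - C (a g) * X + C ((χ g : κˣ) : κ) := by
  have : Nontrivial V := Module.nontrivial_of_finrank_pos (R := κ) (by omega)
  by_cases hs : ∀ s : κ, τ g ≠ s • (1 : End κ V)
  · exact charpoly_of_not_scalar hV _ hs _ _ (h g)
  push Not at hs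
  obtain ⟨s, hs⟩ := hs
  have hs0 : s ≠ 0 := by
    rintro rfl
    have h1 : τ g * τ g⁻¹ = 1 := rho_mul_inv g
    rw [hs, zero_smul, zero_mul] at h1
    exact zero_ne_one h1
  obtain ⟨g0, hg0⟩ := exists_not_scalar hV hirr
  have hmul : τ (g * g0) = s • τ g0 := by rw [map_mul, hs, smul_mul_assoc, one_mul]
  have hns : ∀ r : κ, τ (g * g0) ≠ r • (1 : End κ V) := by
    intro r hr
    apply hg0 (s⁻¹ * r)
    rw [mul_smul, ← hr, hmul, smul_smul, inv_mul_cancel₀ hs0, one_smul]
  have c1 := charpoly_of_not_scalar hV _ hns _ _ (h (g * g0))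
  have c0 := charpoly_of_not_scalar hV _ hg0 _ _ (h g0)
  rw [BN.charpoly_eq_of_finrank_two hV] at c1 c0
  have d1 := congrArg (fun p => p.coeff 0) c1
  have d0 := congrArg (fun p => p.coeff 0) c0
  simp only [coeff_add, coeff_sub, coeff_X_pow, coeff_C_mul, coeff_X_zero, mul_zero, coeff_C_zero,
    OfNat.zero_ne_ofNat, if_false, sub_zero, zero_add] at d1 d0
  rw [hmul, LinearMap.det_smul, hV, d0, map_mul, Units.val_mul] at d1
  have hχ : ((χ g : κˣ) : κ) = s ^ 2 := (mul_right_cancel₀ (χ g0).ne_zero d1).symm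
  have hrel := h g
  rw [hs, hχ] at hrel
  have hrel2 : (s * s - a g * s + s ^ 2) • (1 : End κ V) = 0 := by
    rw [← hrel]
    simp only [smul_mul_smul_comm, mul_one, smul_smul, add_smul, sub_smul]
  have hrel3 : s * s - a g * s + s ^ 2 = 0 := by
    rcases smul_eq_zero.mp hrel2 with h0 | h0
    · exact h0
    · exact absurd h0 one_ne_zero
  have ha : a g = 2 * s := by
    have : s * (2 * s - a g) = 0 := by linear_combination hrel3
    rcases mul_eq_zero.mp this with h0 | h0
    · exact absurd h0 hs0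
    · linear_combination -h0
  rw [BN.charpoly_eq_of_finrank_two hV, hs, hχ, ha, map_smul, LinearMap.trace_one, hV,
    LinearMap.det_smul, hV, map_one]
  simp [mul_comm]

end Two

section One

variable {G : Type*} [Group G] {κ : Type*} [Field κ]

/-- the diagonal representation attached to two characters. -/
def diagRep (φ : Fin 2 → G →* κ) : G →* End κ (Fin 2 → κ) where
  toFun g := LinearMap.pi fun i => φ i g • LinearMap.proj i
  map_one' := by
    ext i j
    simp
  map_mul' g g' := by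
    ext i j
    simp [mul_assoc]

lemma diagRep_apply (φ : Fin 2 → G →* κ) (g : G) (v : Fin 2 → κ) (i : Fin 2) :
    diagRep φ g v i = φ i g * v i := rfl

lemma diagRep_basis (φ : Fin 2 → G →* κ) (g : G) (i : Fin 2) :
    diagRep φ g (Pi.basisFun κ (Fin 2) i) = φ i g • Pi.basisFun κ (Fin 2) i := by
  ext j
  rw [diagRep_apply, Pi.smul_apply, Pi.basisFun_apply, smul_eq_mul]
  by_cases hij : j = i
  · subst hij; rfl
  · rw [Pi.single_eq_of_ne hij, mul_zero, mul_zero]

/-- the twisted inverse character `g ↦ χ g * ψ g⁻¹`. -/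
def twInv (χ : G →* κˣ) (ψ : G →* κ) : G →* κ where
  toFun g := ((χ g : κˣ) : κ) * ψ g⁻¹
  map_one' := by simp
  map_mul' g g' := by
    rw [map_mul, Units.val_mul, mul_inv_rev, map_mul]
    ring

lemma twInv_apply (χ : G →* κˣ) (ψ : G →* κ) (g : G) :
    twInv χ ψ g = ((χ g : κˣ) : κ) * ψ g⁻¹ := rfl

variable {V : Type*} [AddCommGroup V] [Module κ V] [FiniteDimensional κ V]

lemma eq_det_smul (hV : finrank κ V = 1) (f : End κ V) : f = LinearMap.det f • (1 : End κ V) := by
  have : Nontrivial V := Module.nontrivial_of_finrank_pos (R := κ) (by omega)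
  obtain ⟨v, hv⟩ := exists_ne (0 : V)
  have hsp := (finrank_eq_one_iff_of_nonzero' v hv).mp hV
  obtain ⟨c, hc⟩ := hsp (f v)
  have hf : f = c • (1 : End κ V) := by
    ext w
    obtain ⟨d, rfl⟩ := hsp w
    rw [map_smul, ← hc, LinearMap.smul_apply, End.one_apply, smul_comm]
  have hd : LinearMap.det f = c := by
    rw [hf, LinearMap.det_smul, hV, pow_one, map_one, mul_one]
  rw [hd]
  exact hf

lemma one_case (hV : finrank κ V = 1) (σ : G →* End κ V) (χ : G →* κˣ) (a : G → κ)
    (h : ∀ g, σ g * σ g - a g • σ g + ((χ g : κˣ) : κ) • (1 : End κ V) = 0) :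
    ∃ τ : G →* End κ (Fin 2 → κ), BN.IsDiag τ ∧
      (∀ g, (τ g).charpoly = X ^ 2 - C (a g) * X + C ((χ g : κˣ) : κ)) ∧
      (∀ g, σ g = 1 → χ g = 1 → τ g = 1) := by
  have : Nontrivial V := Module.nontrivial_of_finrank_pos (R := κ) (by omega)
  set ψ : G →* κ := (LinearMap.det : End κ V →* κ).comp σ with hψ
  have hψa : ∀ g, ψ g = LinearMap.det (σ g) := fun g => rfl
  have hσ : ∀ g, σ g = ψ g • (1 : End κ V) := fun g => eq_det_smul hV (σ g)
  have hinv : ∀ g, ψ g * ψ g⁻¹ = 1 := fun g => by rw [← map_mul, mul_inv_cancel, map_one]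
  set φ : Fin 2 → G →* κ := ![ψ, twInv χ ψ] with hφ
  have hsum : ∀ g, ψ g + ((χ g : κˣ) : κ) * ψ g⁻¹ = a g := by
    intro g
    have h1 := gen_add h g
    rw [hσ g, hσ g⁻¹, smul_smul, ← add_smul] at h1
    exact smul_left_injective κ (one_ne_zero (α := End κ V)) h1
  refine ⟨diagRep φ, ⟨Pi.basisFun κ (Fin 2), fun i g => φ i g, fun g i => diagRep_basis φ g i⟩,
    fun g => ?_, fun g hg hχ => ?_⟩
  · rw [BN.charpoly_of_diag (b := Pi.basisFun κ (Fin 2)) (ψ := fun i g => φ i g)
      (fun g i => diagRep_basis φ g i) g]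
    have e0 : φ 0 g = ψ g := rfl
    have e1 : φ 1 g = ((χ g : κˣ) : κ) * ψ g⁻¹ := rfl
    rw [e0, e1, ← hsum g]
    have hprod : C (ψ g) * C (((χ g : κˣ) : κ) * ψ g⁻¹) = C ((χ g : κˣ) : κ) := by
      rw [← C_mul, mul_left_comm, hinv g, mul_one]
    rw [C_add]
    linear_combination hprod
  · have h1 : ψ g = 1 := by rw [hψa, hg, map_one]
    have h2 : ψ g⁻¹ = 1 := by
      have := hinv g
      rwa [h1, one_mul] at this
    ext i j
    have e : ∀ j : Fin 2, φ j g = 1 := by
      intro j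
      fin_cases j
      · exact h1
      · show ((χ g : κˣ) : κ) * ψ g⁻¹ = 1
        rw [hχ, h2, Units.val_one, one_mul]
    simp only [LinearMap.comp_apply, LinearMap.single_apply, End.one_apply]
    rw [diagRep_apply, e j, one_mul]

end One

end EAlg

open EAlg in
theorem end_alg {G : Type*} [Group G] {κ : Type} [Field κ] [IsAlgClosed κ] {W : Type}
    [AddCommGroup W] [Module κ W] [FiniteDimensional κ W] [Nontrivial W]
    (ρ : G →* Module.End κ W) (χ : G →* κˣ) (a : G → κ)
    (h : ∀ g, ρ g * ρ g - a g • ρ g + ((χ g : κˣ) : κ) • (1 : Module.End κ W) = 0) :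
    ∃ (V : Type) (_ : AddCommGroup V) (_ : Module κ V) (_ : FiniteDimensional κ V)
      (τ : G →* Module.End κ V),
      Module.finrank κ V = 2 ∧ (BN.IsIrr τ ∨ BN.IsDiag τ) ∧
      (∀ g, (τ g).charpoly = X ^ 2 - C (a g) * X + C ((χ g : κˣ) : κ)) ∧
      (∀ g, ρ g = 1 → χ g = 1 → τ g = 1) := by
  obtain ⟨U, hU, hne, hirr⟩ := exists_irr ρ
  have hnt : Nontrivial U := Submodule.nontrivial_iff_ne_bot.mpr hne
  have hrel := res_rel h U hU
  have hle : finrank κ U ≤ 2 := finrank_le_two (exists_quadratic hirr hrel)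
  have hpos : 0 < finrank κ U := Module.finrank_pos
  have hres1 : ∀ g, ρ g = 1 → res ρ U hU g = 1 := by
    intro g hg
    ext u
    rw [res_apply, hg]
    rfl
  have hcases : finrank κ U = 1 ∨ finrank κ U = 2 := by omega
  rcases hcases with h1 | h2
  · obtain ⟨τ, hd, hc, ht⟩ := one_case h1 (res ρ U hU) χ a hrel
    exact ⟨Fin 2 → κ, inferInstance, inferInstance, inferInstance, τ, by simp, Or.inr hd, hc,
      fun g hg hχ => ht g (hres1 g hg) hχ⟩
  · exact ⟨U, inferInstance, inferInstance, inferInstance, res ρ U hU, h2, Or.inl hirr,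
      charpoly_eq h2 hirr hrel, fun g hg _ => hres1 g hg⟩

end Fermat.Agent.ES
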