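import Fermat.Agent.ES.EDefs

/-!
# ES, package E-BC : reduction to an algebraically closed coefficient field
-/

set_option autoImplicit false

namespace Fermat.Agent.ES

open Polynomial Fermat.Agent.S24
open scoped TensorProduct

namespace EBC

/-- `ℤ̄` is "algebraically closed" for monic polynomials. -/
theorem exists_root_of_monic (f : (integralClosure ℤ ℂ)[X]) (hf : f.Monic) (hd : f.degree ≠ 0) :
    ∃ x : integralClosure ℤ ℂ, f.eval x = 0 := by
  have hd' : (f.map (algebraMap (integralClosure ℤ ℂ) ℂ)).degree ≠ 0 := by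
    rwa [hf.degree_map]
  obtain ⟨z, hz⟩ := IsAlgClosed.exists_root _ hd'
  have hz' : f.eval₂ (algebraMap (integralClosure ℤ ℂ) ℂ) z = 0 := by
    rwa [IsRoot.def, eval_map] at hz
  have hint : IsIntegral (integralClosure ℤ ℂ) z := ⟨f, hf, hz'⟩
  have hint2 : IsIntegral ℤ z := isIntegral_trans z hint
  refine ⟨⟨z, hint2⟩, ?_⟩
  apply Subtype.val_injective
  have := hz'
  rw [eval₂_eq_eval_map] at this
  have h2 : (algebraMap (integralClosure ℤ ℂ) ℂ) (f.eval ⟨z, hint2⟩) = 0 := by
    rw [← eval₂_at_apply, ← eval₂_eq_eval_map] at *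
    exact hz'
  exact h2

end EBC

theorem exists_factor_algClosed {p : ℕ} (hp : p.Prime) {k : Type} [Field k] [CharP k p]
    (φ : integralClosure ℤ ℂ →+* k) :
    ∃ (k₀ : Type) (_ : Field k₀) (_ : IsAlgClosed k₀) (_ : CharP k₀ p)
      (φ₀ : integralClosure ℤ ℂ →+* k₀) (ι : k₀ →+* k), φ = ι.comp φ₀ := by
  set m := RingHom.ker φ with hm
  have hprime : m.IsPrime := RingHom.ker_isPrime φ
  have hpm : (p : integralClosure ℤ ℂ) ∈ m := by
    rw [hm, RingHom.mem_ker, map_natCast]
    exact CharP.cast_eq_zero k p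
  -- `m` is maximal
  have hmax : m.IsMaximal := by
    have hcomap : (m.comap (algebraMap ℤ (integralClosure ℤ ℂ))).IsMaximal := by
      have hne : m.comap (algebraMap ℤ (integralClosure ℤ ℂ)) ≠ ⊥ := by
        intro h
        have : (p : ℤ) ∈ m.comap (algebraMap ℤ (integralClosure ℤ ℂ)) := by
          rw [Ideal.mem_comap]
          simpa using hpm
        rw [h, Ideal.mem_bot] at this
        exact hp.ne_zero (by exact_mod_cast this)
      exact (Ideal.comap_isPrime _ m).isMaximal hne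
    exact Ideal.isMaximal_of_isIntegral_of_isMaximal_comap m hcomap
  let _ : Field (integralClosure ℤ ℂ ⧸ m) := Ideal.Quotient.field m
  have halg : IsAlgClosed (integralClosure ℤ ℂ ⧸ m) := by
    apply IsAlgClosed.of_exists_root
    intro f hf hirr
    obtain ⟨g, hg, hgd, hgm⟩ := Polynomial.lifts_and_degree_eq_and_monic
      ((Polynomial.mem_lifts f).mpr
        (Polynomial.map_surjective _ Ideal.Quotient.mk_surjective f)) hf
    have hd : g.degree ≠ 0 := by
      rw [hgd]
      exact (Polynomial.degree_pos_of_irreducible hirr).ne'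
    obtain ⟨x, hx⟩ := EBC.exists_root_of_monic g hgm hd
    refine ⟨Ideal.Quotient.mk m x, ?_⟩
    rw [← hg, eval_map, eval₂_at_apply, hx, map_zero]
  have hchar : CharP (integralClosure ℤ ℂ ⧸ m) p := by
    have h0 : ((p : ℕ) : integralClosure ℤ ℂ ⧸ m) = 0 := by
      rw [← map_natCast (Ideal.Quotient.mk m)]
      exact Ideal.Quotient.eq_zero_iff_mem.mpr hpm
    exact (CharP.charP_iff_prime_eq_zero hp).mpr h0
  refine ⟨integralClosure ℤ ℂ ⧸ m, inferInstance, halg, hchar, Ideal.Quotient.mk m,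
    RingHom.kerLift φ, ?_⟩
  ext x
  rfl

theorem goodAt_baseChangeAlong {k₀ k : Type} [Field k₀] [Field k] (ι : k₀ →+* k)
    (ρ : ResidualGaloisRep k₀) (c : ℕ → k₀) (ℓ : ℕ) (h : GoodAt ρ c ℓ) :
    GoodAt (ρ.baseChangeAlong ι) (fun n => ι (c n)) ℓ := by
  let _ : Algebra k₀ k := ι.toAlgebra
  obtain ⟨h1, h2⟩ := h
  refine ⟨fun A hA σ hσ => ?_, fun A hA σ hσ => ?_⟩
  · show (ρ.ρ σ).baseChange k = 1
    rw [h1 A hA σ hσ, LinearMap.baseChange_one]
  · show ((ρ.ρ σ).baseChange k).charpoly = _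
    rw [LinearMap.charpoly_baseChange, h2 A hA σ hσ]
    rw [Polynomial.map_add, Polynomial.map_sub, Polynomial.map_mul, Polynomial.map_pow,
      Polynomial.map_X, Polynomial.map_C, Polynomial.map_C, map_natCast]
    rfl

end Fermat.Agent.ES
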