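import Fermat.Agent.ES.EDefs

/-!
# ES, block END, package E-CYC : the mod `p` cyclotomic character
-/

set_option autoImplicit false

namespace Fermat.Agent.ES

open Polynomial Fermat.Agent.S24

namespace ECyc

variable {A : ValuationSubring Kb}

theorem charP_residue {ℓ : ℕ} (hℓ : ℓ.Prime) (hA : A.LiesOverPrime ℓ) :
    CharP (IsLocalRing.ResidueField A) ℓ := by
  rw [CharP.charP_iff_prime_eq_zero hℓ]
  obtain ⟨ha, hm⟩ := ValuationSubring.mem_nonunits_iff_exists_mem_maximalIdeal.mp hA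
  have h1 : IsLocalRing.residue A ⟨(ℓ : Kb), ha⟩ = 0 :=
    (IsLocalRing.residue_eq_zero_iff _).mpr hm
  have h2 : (⟨(ℓ : Kb), ha⟩ : A) = (ℓ : A) := Subtype.ext (by simp)
  rw [h2, map_natCast] at h1
  exact h1

/-- reduction of a primitive root of unity of order prime to the characteristic. -/
theorem isPrimitiveRoot_map {R k : Type*} [CommRing R] [IsDomain R] [Field k] (f : R →+* k)
    {ζ : R} {N : ℕ} (hζ : IsPrimitiveRoot ζ N) (hN : (N : k) ≠ 0) : IsPrimitiveRoot (f ζ) N := by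
  have hN0 : N ≠ 0 := by
    rintro rfl
    simp at hN
  obtain ⟨n, rfl⟩ : ∃ n, N = n + 1 := ⟨N - 1, by omega⟩
  have hprod := hζ.prod_one_sub_pow_eq_order
  have hprod' := congrArg f hprod
  rw [map_prod] at hprod'
  have hN0' : f ((n : R) + 1) ≠ 0 := by
    have : f ((n : R) + 1) = (((n + 1 : ℕ)) : k) := by simp
    rw [this]
    exact hN
  refine IsPrimitiveRoot.mk_of_lt _ (Nat.succ_pos n) ?_ ?_
  · rw [← map_pow, hζ.pow_eq_one, map_one]
  · intro l hl0 hl hcon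
    apply hN0'
    rw [← hprod']
    apply Finset.prod_eq_zero (i := l - 1) (Finset.mem_range.mpr (by omega))
    rw [Nat.sub_add_cancel hl0, map_sub, map_one, map_pow, hcon, sub_self]

theorem mem_of_pow_eq_one {x : Kb} {n : ℕ} (hn : n ≠ 0) (h : x ^ n = 1) : x ∈ A := by
  have hx : IsIntegral A x := by
    refine ⟨Polynomial.X ^ n - 1, Polynomial.monic_X_pow_sub_C (1 : A) hn, ?_⟩
    simp [h]
  obtain ⟨a, ha⟩ := (IsIntegrallyClosed.isIntegral_iff (R := A) (K := Kb)).mp hx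
  rw [← ha]
  exact a.2

theorem exists_primitiveRoot (p : ℕ) [NeZero p] : ∃ ζ : Kb, IsPrimitiveRoot ζ p := by
  obtain ⟨ζ, hζ⟩ := IsAlgClosed.exists_root (Polynomial.cyclotomic p Kb)
    (Polynomial.degree_cyclotomic_pos p Kb (Nat.pos_of_ne_zero (NeZero.ne p))).ne'
  exact ⟨ζ, (Polynomial.isRoot_cyclotomic_iff).mp hζ⟩

/-- The key local computation: if an element `s` of the decomposition group acts on the residue
class of `ζ` as `x ↦ x ^ m`, then its cyclotomic character is `m`. -/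
theorem autToPow_eq {p : ℕ} [Fact p.Prime] {ζ : Kb} (hζ : IsPrimitiveRoot ζ p) {ℓ : ℕ}
    (hℓ : ℓ.Prime) (hℓp : ℓ ≠ p) (hA : A.LiesOverPrime ℓ) (s : A.decompositionSubgroup ℚ) (m : ℕ)
    (hs : ∀ z : IsLocalRing.ResidueField A, s • z = z ^ m) :
    ((hζ.autToPow ℚ (s : GQ) : (ZMod p)ˣ) : ZMod p) = (m : ZMod p) := by
  have hp : p.Prime := Fact.out
  have hζA : ζ ∈ A := mem_of_pow_eq_one hp.ne_zero hζ.pow_eq_one
  set ζA : A := ⟨ζ, hζA⟩ with hζAdef
  have h1 : IsPrimitiveRoot ζA p :=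
    IsPrimitiveRoot.of_map_of_injective (f := A.subtype) hζ Subtype.val_injective
  have := charP_residue hℓ hA
  have hpne : ((p : ℕ) : IsLocalRing.ResidueField A) ≠ 0 := by
    intro h0
    have := (CharP.cast_eq_zero_iff (IsLocalRing.ResidueField A) ℓ p).mp h0
    exact hℓp ((Nat.prime_dvd_prime_iff_eq hℓ hp).mp this)
  have h2 : IsPrimitiveRoot (IsLocalRing.residue A ζA) p :=
    isPrimitiveRoot_map (IsLocalRing.residue A) h1 hpne
  set v : ℕ := ((hζ.autToPow ℚ (s : GQ) : (ZMod p)ˣ) : ZMod p).val with hv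
  have h3 : ζ ^ v = (s : GQ) ζ := hζ.autToPow_spec ℚ (s : GQ)
  have h4 : s • ζA = ζA ^ v := Subtype.ext h3.symm
  have h5 := hs (IsLocalRing.residue A ζA)
  rw [← IsLocalRing.ResidueField.residue_smul, h4, map_pow] at h5
  have hfin : IsOfFinOrder (IsLocalRing.residue A ζA) :=
    isOfFinOrder_iff_pow_eq_one.mpr ⟨p, hp.pos, h2.pow_eq_one⟩
  have h6 : v ≡ m [MOD p] := by
    have := hfin.pow_eq_pow_iff_modEq.mp h5
    rwa [← h2.eq_orderOf] at this
  have h7 : ((v : ℕ) : ZMod p) = (m : ZMod p) := (ZMod.natCast_eq_natCast_iff _ _ _).mpr h6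
  rw [← h7, hv, ZMod.natCast_zmod_val]

end ECyc

open ECyc

/-- **E-CYC** : existence of the mod `p` cyclotomic character with values in `k`. -/
theorem exists_isCyc (p : ℕ) [Fact p.Prime] (k : Type) [Field k] [Algebra (ZMod p) k] :
    ∃ χ : GQ →* kˣ, IsCyc p χ := by
  have hp : p.Prime := Fact.out
  obtain ⟨ζ, hζ⟩ := exists_primitiveRoot p
  let χ0 : GQ →* (ZMod p)ˣ := hζ.autToPow ℚ
  let χ : GQ →* kˣ := (Units.map (algebraMap (ZMod p) k : ZMod p →* k)).comp χ0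
  have hχ : ∀ σ : GQ, ((χ σ : kˣ) : k) = algebraMap (ZMod p) k ((χ0 σ : (ZMod p)ˣ) : ZMod p) :=
    fun σ => rfl
  refine ⟨χ, ⟨IntermediateField.adjoin ℚ {ζ}, ?_, fun σ hσ => ?_⟩, fun ℓ hℓ hℓp A hA => ⟨?_, ?_⟩⟩
  · exact IntermediateField.adjoin.finiteDimensional
      (hζ.isIntegral hp.pos).tower_top
  · have h1 : σ ζ = ζ := hσ ζ (IntermediateField.mem_adjoin_simple_self ℚ ζ)
    have h2 : ζ ^ ((χ0 σ : (ZMod p)ˣ) : ZMod p).val = σ ζ := hζ.autToPow_spec ℚ σ
    rw [h1] at h2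
    have h3 : ((χ0 σ : (ZMod p)ˣ) : ZMod p).val = 1 :=
      hζ.pow_inj (ZMod.val_lt _) hp.one_lt (by rw [h2, pow_one])
    have h4 : χ0 σ = 1 := by
      ext
      rw [← ZMod.natCast_zmod_val ((χ0 σ : (ZMod p)ˣ) : ZMod p), h3]
      simp
    show (Units.map (algebraMap (ZMod p) k : ZMod p →* k)) (χ0 σ) = 1
    rw [h4, map_one]
  · rintro τ ⟨τ', hτ', rfl⟩
    have h1 : ∀ z : IsLocalRing.ResidueField A, τ' • z = z ^ 1 := fun z => by
      have := DFunLike.congr_fun (show MulSemiringAction.toRingAut (A.decompositionSubgroup ℚ)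
        (IsLocalRing.ResidueField A) τ' = 1 from hτ') z
      rw [pow_one]
      exact this
    have h2 := autToPow_eq hζ hℓ hℓp hA τ' 1 h1
    ext
    rw [hχ]
    show algebraMap (ZMod p) k ((hζ.autToPow ℚ (τ' : GQ) : (ZMod p)ˣ) : ZMod p) = _
    rw [h2]
    simp
  · intro σ hσ
    have h2 := autToPow_eq hζ hℓ hℓp hA ⟨σ, hσ.mem_decompositionSubgroup⟩ ℓ hσ.smul_residue_eq
    rw [hχ]
    show algebraMap (ZMod p) k ((hζ.autToPow ℚ σ : (ZMod p)ˣ) : ZMod p) = _
    rw [h2, map_natCast]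

end Fermat.Agent.ES
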