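import Fermat.Agent.ES.KDefs
import Fermat.Prelude.Def_GaloisRep_Residual

/-!
# ES, block END : shared definitions
-/

set_option autoImplicit false

namespace Fermat.Agent.ES

open Polynomial Fermat.Agent.S24

/-- `χ` is the mod `p` cyclotomic character with values in `k`. -/
def IsCyc (p : ℕ) {k : Type} [Field k] (χ : GQ →* kˣ) : Prop :=
  GaloisFactorsThroughFiniteLevel χ ∧
    ∀ ℓ : ℕ, ℓ.Prime → ℓ ≠ p → ∀ A : ValuationSubring Kb, A.LiesOverPrime ℓ →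
      (∀ τ ∈ A.inertiaSubgroupIn ℚ, χ τ = 1) ∧
      (∀ σ : GQ, A.IsFrobeniusAt σ ℓ → ((χ σ : kˣ) : k) = (ℓ : k))

/-- good behaviour of a residual representation at `ℓ`: unramified, and the characteristic
polynomial of every Frobenius is `X² - c_ℓ X + ℓ`. -/
def GoodAt {k : Type} [Field k] (ρ : ResidualGaloisRep k) (c : ℕ → k) (ℓ : ℕ) : Prop :=
  ρ.IsUnramifiedAt ℓ ∧ ∀ A : ValuationSubring Kb, A.LiesOverPrime ℓ →
    ∀ σ : GQ, A.IsFrobeniusAt σ ℓ → (ρ.ρ σ).charpoly = X ^ 2 - C (c ℓ) * X + C (ℓ : k)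

end Fermat.Agent.ES
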