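import Fermat.Agent.ES.Lat
import Fermat.Agent.S49.Modular

/-!
# ES, block END, package E-EIG : a normalised eigenform of level `N`, seen at level `M`, `N ∣ M`
-/

set_option autoImplicit false

namespace Fermat.Agent.ES

open CongruenceSubgroup ModularFormClass UpperHalfPlane
open scoped MatrixGroups

namespace EEig

/-- the arithmetic of the coefficients of a normalised eigenform. -/
theorem coeff_rel {N : ℕ} {g : CuspForm (Gamma0 N) 2} (hg : g.IsNormalizedEigenform)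
    (h0 : qCoeff g 0 = 0) {ℓ : ℕ} (hℓ : ℓ.Prime) (hℓN : ¬ ℓ ∣ N) (n : ℕ) :
    qCoeff g (ℓ * n) + (ℓ : ℂ) * (if ℓ ∣ n then qCoeff g (n / ℓ) else 0)
      = qCoeff g ℓ * qCoeff g n := by
  rcases Nat.eq_zero_or_pos n with rfl | hn
  · simp [h0]
  obtain ⟨r, m, hm, rfl⟩ := Nat.exists_eq_pow_mul_and_not_dvd hn.ne' ℓ hℓ.ne_one
  have hcop : ∀ s : ℕ, (ℓ ^ s).Coprime m := fun s =>
    Nat.Coprime.pow_left s ((Nat.Prime.coprime_iff_not_dvd hℓ).mpr hm)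
  cases r with
  | zero =>
    have h1 : ¬ ℓ ∣ ℓ ^ 0 * m := by simpa using hm
    rw [if_neg h1, mul_zero, add_zero, pow_zero, one_mul]
    have := hg.qCoeff_mul_of_coprime ℓ m (by simpa using hcop 1)
    exact this
  | succ r =>
    have h1 : ℓ ∣ ℓ ^ (r + 1) * m := Dvd.dvd.mul_right (dvd_pow_self ℓ (Nat.succ_ne_zero r)) m
    have h2 : ℓ ^ (r + 1) * m / ℓ = ℓ ^ r * m := by
      rw [pow_succ, mul_assoc, mul_comm ℓ m, ← mul_assoc]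
      exact Nat.mul_div_cancel _ hℓ.pos
    have h3 : ℓ * (ℓ ^ (r + 1) * m) = ℓ ^ (r + 2) * m := by ring
    rw [if_pos h1, h2, h3, hg.qCoeff_mul_of_coprime _ _ (hcop (r + 2)),
      hg.qCoeff_mul_of_coprime _ _ (hcop r), hg.qCoeff_mul_of_coprime _ _ (hcop (r + 1)),
      hg.qCoeff_prime_pow_of_not_dvd ℓ r hℓ hℓN]
    ring

end EEig

/-- **E-EIG**: a normalised eigenform of level `N`, seen at level `M`. -/
theorem exists_level_raise {N M : ℕ} [NeZero M] (hNM : N ∣ M)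
    {g : CuspForm (Gamma0 N) 2} (hg : g.IsNormalizedEigenform) :
    ∃ (g' : CuspForm (Gamma0 M) 2) (a : ℕ → integralClosure ℤ ℂ), g' ≠ 0 ∧
      (∀ ℓ : ℕ, ℓ.Prime → ¬ ℓ ∣ M → (a ℓ : ℂ) = ModularFormClass.qCoeff g ℓ) ∧
      ∀ (ℓ : ℕ) (hℓ : ℓ.Prime) (hℓM : ¬ ℓ ∣ M),
        CuspForm.heckeTLin 2 hℓ hℓM g' = (a ℓ : ℂ) • g' := by
  classical
  have hN0 : N ≠ 0 := by
    rintro rfl
    exact NeZero.ne M (Nat.eq_zero_of_zero_dvd hNM)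
  haveI : NeZero N := ⟨hN0⟩
  have hle : Gamma0 M ≤ Gamma0 N := by
    intro γ hγ
    rw [Gamma0_mem, ZMod.intCast_zmod_eq_zero_iff_dvd] at hγ ⊢
    exact (Int.natCast_dvd_natCast.mpr hNM).trans hγ
  have hcf : S21.IsCF (Gamma0 M) 2 g := (S21.isCF_coe g).mono hle
  set g' : CuspForm (Gamma0 M) 2 := hcf.toCuspForm with hg'
  have hcoe : (⇑g' : ℍ → ℂ) = ⇑g := rfl
  have hg'0 : g' ≠ 0 := by
    intro h
    have h1 : qCoeff (⇑g') 1 = 1 := by rw [hcoe]; exact hg.qCoeff_one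
    rw [h] at h1
    have h2 : qCoeff (⇑(0 : CuspForm (Gamma0 M) 2)) 1 = 0 := by
      have := S49.qCoeff_smul (N := M) 0 0 1
      simpa using this
    rw [h2] at h1
    exact zero_ne_one h1
  have h0 : qCoeff g 0 = 0 := S49.qCoeff_cusp_zero g
  have heig : ∀ (ℓ : ℕ) (hℓ : ℓ.Prime) (hℓM : ¬ ℓ ∣ M),
      CuspForm.heckeTLin 2 hℓ hℓM g' = qCoeff g ℓ • g' := by
    intro ℓ hℓ hℓM
    have hℓN : ¬ ℓ ∣ N := fun h => hℓM (h.trans hNM)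
    rw [← sub_eq_zero]
    apply S49.eq_zero_of_qCoeff
    intro n
    have e1 : CuspForm.heckeTLin 2 hℓ hℓM g' - qCoeff g ℓ • g'
        = CuspForm.heckeTLin 2 hℓ hℓM g' + (-(qCoeff g ℓ)) • g' := by
      rw [_root_.neg_smul, sub_eq_add_neg]
    rw [e1, S49.qCoeff_add, S49.qCoeff_smul, S49.qCoeff_heckeTLin, hcoe,
      EEig.coeff_rel hg h0 hℓ hℓN n]
    ring
  have hint : ∀ (ℓ : ℕ), ℓ.Prime → ¬ ℓ ∣ M → IsIntegral ℤ (qCoeff g ℓ) := by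
    intro ℓ hℓ hℓM
    have := Lat.isIntegral_div M 1 one_ne_zero (CuspForm.heckeTLin 2 hℓ hℓM)
      (fun f hf => by
        have := S16.hecke_mem_LamM (N := M) 1 (S := ∅)
          (CuspForm.heckeTLin_mem_heckeAlgebra hℓ hℓM (Set.notMem_empty ℓ)) f hf
        simpa using this) g' hg'0 (qCoeff g ℓ) (heig ℓ hℓ hℓM)
    simpa using this
  let a : ℕ → integralClosure ℤ ℂ := fun ℓ =>
    if h : ℓ.Prime ∧ ¬ ℓ ∣ M then ⟨qCoeff g ℓ, (hint ℓ h.1 h.2 : qCoeff g ℓ ∈ integralClosure ℤ ℂ)⟩ else 0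
  have ha : ∀ ℓ : ℕ, ℓ.Prime → ¬ ℓ ∣ M → (a ℓ : ℂ) = qCoeff g ℓ := by
    intro ℓ hℓ hℓM
    simp only [a]
    rw [dif_pos ⟨hℓ, hℓM⟩]
  refine ⟨g', a, hg'0, ha, ?_⟩
  intro ℓ hℓ hℓM
  rw [ha ℓ hℓ hℓM]
  exact heig ℓ hℓ hℓM

end Fermat.Agent.ES
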