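import Fermat.Agent.ES.EDefs
import Fermat.Agent.ES.BN
import Fermat.Agent.ES.Cheb

/-!
# ES, block END : E-GLUE

Two semisimple two dimensional residual representations whose Frobenius characteristic polynomials
agree outside a finite set of primes are isomorphic (weak Chebotarev + Brauer-Nesbitt), hence the
good behaviour at a prime can be transported from one to the other.
-/

set_option autoImplicit false

namespace Fermat.Agent.ES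

open Polynomial Fermat.Agent.S24

namespace EGlue

/-- two finite subextensions of `Kb/ℚ` are contained in a finite Galois one. -/
theorem exists_galois (L₁ L₂ : IntermediateField ℚ Kb) (h₁ : FiniteDimensional ℚ L₁)
    (h₂ : FiniteDimensional ℚ L₂) :
    ∃ E : IntermediateField ℚ Kb, FiniteDimensional ℚ E ∧ IsGalois ℚ E ∧ L₁ ≤ E ∧ L₂ ≤ E := by
  have h3 : FiniteDimensional ℚ (L₁ ⊔ L₂ : IntermediateField ℚ Kb) :=
    IntermediateField.finiteDimensional_sup L₁ L₂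
  refine ⟨IntermediateField.normalClosure ℚ (L₁ ⊔ L₂ : IntermediateField ℚ Kb) Kb,
    normalClosure.is_finiteDimensional _ _ _, ?_, ?_, ?_⟩
  · have : Normal ℚ (IntermediateField.normalClosure ℚ (L₁ ⊔ L₂ : IntermediateField ℚ Kb) Kb) :=
      normalClosure.normal _ _ _
    exact isGalois_iff.2 ⟨inferInstance, this⟩
  · exact le_sup_left.trans (IntermediateField.le_normalClosure _)
  · exact le_sup_right.trans (IntermediateField.le_normalClosure _)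

/-- if `ρ` is trivial on the elements fixing `L` and `g`, `h` agree on `L`, then `ρ g = ρ h`. -/
theorem map_eq_of_agree {M : Type} [Monoid M] (ρ : GQ →* M) (L : IntermediateField ℚ Kb)
    (hL : ∀ σ : GQ, (∀ x ∈ L, σ x = x) → ρ σ = 1) (g h : GQ) (hgh : ∀ x ∈ L, g x = h x) :
    ρ g = ρ h := by
  have h1 : ρ (h⁻¹ * g) = 1 := by
    refine hL _ fun x hx => ?_
    rw [AlgEquiv.mul_apply, hgh x hx]
    exact h.symm_apply_apply x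
  have h2 : ρ g = ρ h * ρ (h⁻¹ * g) := by
    rw [← map_mul, mul_inv_cancel_left]
  rw [h2, h1, mul_one]

theorem charpoly_eq {k : Type} [Field k] (ρ₁ ρ₂ : ResidualGaloisRep k)
    (T₁ T₂ : Finset ℕ) (c : ℕ → k)
    (H₁ : ∀ ℓ : ℕ, ℓ.Prime → ℓ ∉ T₁ → GoodAt ρ₁ c ℓ)
    (H₂ : ∀ ℓ : ℕ, ℓ.Prime → ℓ ∉ T₂ → GoodAt ρ₂ c ℓ) (g : GQ) :
    (ρ₁.ρ g).charpoly = (ρ₂.ρ g).charpoly := by
  classical
  obtain ⟨L₁, hL₁, h₁⟩ := ρ₁.factorsThroughFiniteLevel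
  obtain ⟨L₂, hL₂, h₂⟩ := ρ₂.factorsThroughFiniteLevel
  obtain ⟨E, hE, hG, h1E, h2E⟩ := exists_galois L₁ L₂ hL₁ hL₂
  obtain ⟨ℓ, A, σ, j, n, hℓ, hℓT, hA, hσ, -, hg⟩ := Cheb.weak_chebotarev E (T₁ ∪ T₂) g
  rw [Finset.mem_union, not_or] at hℓT
  rw [map_eq_of_agree ρ₁.ρ L₁ h₁ g (σ ^ n) fun x hx => hg x (h1E hx),
    map_eq_of_agree ρ₂.ρ L₂ h₂ g (σ ^ n) fun x hx => hg x (h2E hx), map_pow, map_pow]
  refine BN.charpoly_pow_eq ρ₁.finrank_eq ρ₂.finrank_eq ?_ n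
  rw [(H₁ ℓ hℓ hℓT.1).2 A hA σ hσ, (H₂ ℓ hℓ hℓT.2).2 A hA σ hσ]

end EGlue

/-- **E-GLUE**. -/
theorem glue {k : Type} [Field k] [IsAlgClosed k] (ρ₁ ρ₂ : ResidualGaloisRep k)
    (h₁ : BN.IsIrr ρ₁.ρ ∨ BN.IsDiag ρ₁.ρ) (h₂ : BN.IsIrr ρ₂.ρ ∨ BN.IsDiag ρ₂.ρ)
    (T₁ T₂ : Finset ℕ) (c : ℕ → k)
    (H₁ : ∀ ℓ : ℕ, ℓ.Prime → ℓ ∉ T₁ → GoodAt ρ₁ c ℓ)
    (H₂ : ∀ ℓ : ℕ, ℓ.Prime → ℓ ∉ T₂ → GoodAt ρ₂ c ℓ) :
    ∀ ℓ : ℕ, ℓ.Prime → (ℓ ∉ T₁ ∨ ℓ ∉ T₂) → GoodAt ρ₁ c ℓ := by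
  intro ℓ hℓ hT
  rcases hT with hT | hT
  · exact H₁ ℓ hℓ hT
  have hcp := EGlue.charpoly_eq ρ₁ ρ₂ T₁ T₂ c H₁ H₂
  obtain ⟨e, he⟩ := BN.brauer_nesbitt_two ρ₁.finrank_eq ρ₂.finrank_eq h₁ h₂ hcp
  obtain ⟨hu, hf⟩ := H₂ ℓ hℓ hT
  refine ⟨fun A hA τ hτ => ?_, fun A hA σ hσ => ?_⟩
  · ext v
    apply e.injective
    rw [he, hu A hA τ hτ]
    rfl
  · rw [hcp, hf A hA σ hσ]

end Fermat.Agent.ES
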