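import Fermat.Agent.ES.KInt
import Fermat.Prelude.Thm_ModularCurve_coeffMap_qExpand

/-!
# ES, block KRON, package K-CONG : the Kronecker congruence for formal series
-/

set_option autoImplicit false
set_option linter.style.haveILetI false

noncomputable section

namespace Fermat.Agent.ES

open ModularCurve Fermat.Agent.S24
open scoped Pointwise

namespace KCong

open KInt

section Frob

variable {κ : Type*} [CommRing κ] (ℓ : ℕ) [Fact ℓ.Prime] [CharP κ ℓ]

theorem coe_pow_char (f : PowerSeries κ) :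
    (HahnSeries.ofPowerSeries ℤ κ (f ^ ℓ)) =
      qExpand κ ℓ (coeffMap (frobenius κ ℓ) (HahnSeries.ofPowerSeries ℤ κ f)) := by
  have hℓ : ℓ ≠ 0 := (Fact.out : ℓ.Prime).ne_zero
  have h := MvPowerSeries.map_frobenius_expand (σ := Unit) (R := κ) ℓ hℓ (f := f)
  have h' : f ^ ℓ = (PowerSeries.expand ℓ hℓ f).map (frobenius κ ℓ) := h.symm
  ext n
  rw [PowerSeries.coeff_coe, h', PowerSeries.coeff_map]
  by_cases hn : (ℓ : ℤ) ∣ n
  · obtain ⟨m, rfl⟩ := hn
    rw [qExpand_coeff_mul, coeffMap_coeff, PowerSeries.coeff_coe]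
    have hpos : (0 : ℤ) < ℓ := by exact_mod_cast Nat.pos_of_ne_zero hℓ
    by_cases hm : m < 0
    · rw [if_pos hm, if_pos (mul_neg_of_pos_of_neg hpos hm), map_zero]
    · rw [if_neg hm, if_neg (by push Not at hm ⊢; positivity), Int.natAbs_mul, Int.natAbs_natCast,
        PowerSeries.coeff_expand_mul]
  · rw [qExpand_coeff_of_not_dvd _ _ hn]
    split_ifs with h0
    · rfl
    · rw [PowerSeries.coeff_expand_of_not_dvd, map_zero]
      intro hd
      apply hn
      rw [← Int.natCast_dvd_natCast, Int.natCast_natAbs] at hd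
      exact (dvd_abs _ _).1 hd

/-- In characteristic `ℓ`: `x(t) ^ ℓ = x^{(ℓ)}(t ^ ℓ)`. -/
theorem pow_char (x : LaurentSeries κ) :
    x ^ ℓ = qExpand κ ℓ (coeffMap (frobenius κ ℓ) x) := by
  have hx := LaurentSeries.single_order_mul_powerSeriesPart x
  set f := x.powerSeriesPart
  set k := x.order
  calc x ^ ℓ = (HahnSeries.single k 1 * HahnSeries.ofPowerSeries ℤ κ f) ^ ℓ := by rw [hx]
    _ = HahnSeries.single (ℓ • k) 1 * HahnSeries.ofPowerSeries ℤ κ (f ^ ℓ) := by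
        rw [mul_pow, HahnSeries.single_pow, one_pow, PowerSeries.coe_pow]
    _ = qExpand κ ℓ (coeffMap (frobenius κ ℓ) (HahnSeries.single k 1)) *
          qExpand κ ℓ (coeffMap (frobenius κ ℓ) (HahnSeries.ofPowerSeries ℤ κ f)) := by
        rw [coe_pow_char, coeffMap_single, qExpand_single, map_one (frobenius κ ℓ), nsmul_eq_mul]
    _ = _ := by rw [← map_mul, ← map_mul, hx]

end Frob

variable {A : ValuationSubring Kb}

theorem charP_residue {ℓ : ℕ} [Fact ℓ.Prime] (hA : A.LiesOverPrime ℓ) :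
    CharP (IsLocalRing.ResidueField A) ℓ := by
  rw [CharP.charP_iff_prime_eq_zero (Fact.out : ℓ.Prime)]
  have h1 : ((ℓ : A) : Kb) ∈ A.nonunits := by
    have : ((ℓ : A) : Kb) = (ℓ : Kb) := by simp
    rw [this]; exact hA
  rw [ValuationSubring.coe_mem_nonunits_iff, ← IsLocalRing.residue_eq_zero_iff, map_natCast] at h1
  exact h1

/-- `ℓ`-th roots of unity are `≡ 1`. -/
theorem sub_one_mem_nonunits {ℓ : ℕ} [Fact ℓ.Prime] (hA : A.LiesOverPrime ℓ) {ω : Kb}
    (hω : ω ^ ℓ = 1) : ω - 1 ∈ A.nonunits := by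
  have hℓ : ℓ ≠ 0 := (Fact.out : ℓ.Prime).ne_zero
  haveI := charP_residue hA
  have hmem : ω ∈ A := by
    rw [← A.valuation_le_one_iff]
    have h1 : A.valuation ω ^ ℓ = 1 := by rw [← map_pow, hω, map_one]
    rcases pow_eq_one_iff.1 h1 with h | h
    · exact h.le
    · exact absurd h hℓ
  set a : A := ⟨ω, hmem⟩
  have h2 : (IsLocalRing.residue A a - 1) ^ ℓ = 0 := by
    rw [sub_pow_char, one_pow, ← map_pow]
    have : a ^ ℓ = 1 := Subtype.ext (by simpa using hω)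
    rw [this, map_one, sub_self]
  have h3 := pow_eq_zero_iff hℓ |>.1 h2
  rw [← map_one (IsLocalRing.residue A), ← map_sub, IsLocalRing.residue_eq_zero_iff,
    ← ValuationSubring.coe_mem_nonunits_iff] at h3
  exact h3

theorem isIntA_qExpand {n : ℕ} [NeZero n] {x : LaurentSeries Kb} (hx : IsIntA A x) :
    IsIntA A (qExpand Kb n x) := by
  obtain ⟨a, rfl⟩ := isIntA_iff.1 hx
  rw [← coeffMap_qExpand]
  exact isIntA_iota _

theorem isIntA_of_qExpand {n : ℕ} [NeZero n] {x : LaurentSeries Kb}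
    (hx : IsIntA A (qExpand Kb n x)) : IsIntA A x := by
  intro k
  have := hx ((n : ℤ) * k)
  rwa [qExpand_coeff_mul] at this

theorem congA_qExpand {n : ℕ} [NeZero n] {x y : LaurentSeries Kb} (h : CongA A x y) :
    CongA A (qExpand Kb n x) (qExpand Kb n y) := by
  intro k
  by_cases hk : (n : ℤ) ∣ k
  · obtain ⟨m, rfl⟩ := hk
    rw [qExpand_coeff_mul, qExpand_coeff_mul]
    exact h m
  · rw [qExpand_coeff_of_not_dvd _ _ hk, qExpand_coeff_of_not_dvd _ _ hk, sub_self]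
    exact A.nonunits.zero_mem

theorem congA_of_qExpand {n : ℕ} [NeZero n] {x y : LaurentSeries Kb}
    (h : CongA A (qExpand Kb n x) (qExpand Kb n y)) : CongA A x y := by
  intro k
  have := h ((n : ℤ) * k)
  rwa [qExpand_coeff_mul, qExpand_coeff_mul] at this

theorem isIntA_pow {x : LaurentSeries Kb} (hx : IsIntA A x) (n : ℕ) : IsIntA A (x ^ n) := by
  obtain ⟨a, rfl⟩ := isIntA_iff.1 hx
  rw [← map_pow]
  exact isIntA_iota _

/-- `Q(t) ^ ℓ ≡ (σ Q)(t ^ ℓ)`. -/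
theorem congA_pow_char {ℓ : ℕ} [Fact ℓ.Prime] (hA : A.LiesOverPrime ℓ) {σ : GQ}
    (hσ : A.IsFrobeniusAt σ ℓ) {Q : LaurentSeries Kb} (hQ : IsIntA A Q) :
    CongA A (Q ^ ℓ) (qExpand Kb ℓ (coeffMap (σ : Kb →+* Kb) Q)) := by
  haveI := charP_residue hA
  have hσd := hσ.mem_decompositionSubgroup
  have hσQ : IsIntA A (coeffMap (σ : Kb →+* Kb) Q) := hQ.coeffMap hσd
  obtain ⟨a, ha⟩ := isIntA_iff.1 hQ
  obtain ⟨b, hb⟩ := isIntA_iff.1 hσQ
  rw [← hb, ← ha, ← map_pow, ← coeffMap_qExpand, congA_iota_iff, map_pow, pow_char ℓ,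
    coeffMap_qExpand]
  congr 1
  ext n
  rw [coeffMap_coeff, coeffMap_coeff, coeffMap_coeff, frobenius_def]
  have h1 := hσ.smul_residue_eq (IsLocalRing.residue A (a.coeff n))
  rw [← IsLocalRing.ResidueField.residue_smul] at h1
  rw [← h1]
  congr 1
  apply Subtype.ext
  have h2 : ((b.coeff n : A) : Kb) = (iota A b).coeff n := rfl
  rw [h2, hb, ← ha]
  rfl

theorem congA_twist {ℓ : ℕ} [Fact ℓ.Prime] (hA : A.LiesOverPrime ℓ) {ω : Kbˣ} (hω : ω ^ ℓ = 1)
    {P : LaurentSeries Kb} (hP : IsIntA A P) : CongA A (S28.twist ω P) P := by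
  intro n
  rw [S28.twist_coeff]
  have h1 : ((ω ^ n : Kbˣ) : Kb) ^ ℓ = 1 := by
    rw [← Units.val_pow_eq_pow_val, ← zpow_natCast, ← zpow_mul, mul_comm, zpow_mul, zpow_natCast,
      hω, one_zpow, Units.val_one]
  have h2 := sub_one_mem_nonunits hA h1
  have h3 : ((ω ^ n : Kbˣ) : Kb) * P.coeff n - P.coeff n = (((ω ^ n : Kbˣ) : Kb) - 1) * P.coeff n := by
    ring
  rw [h3, ValuationSubring.mem_nonunits_iff, map_mul]
  exact mul_lt_one_of_lt_of_le ((ValuationSubring.mem_nonunits_iff A).1 h2)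
    ((A.valuation_le_one_iff _).2 (hP n))

theorem congA_prod_twist {ℓ : ℕ} [Fact ℓ.Prime] (hA : A.LiesOverPrime ℓ) {ζ : Kbˣ}
    (hζ : ζ ^ ℓ = 1) {P : LaurentSeries Kb} (hP : IsIntA A P) (m : ℕ) :
    CongA A (∏ b ∈ Finset.range m, S28.twist (ζ ^ b) P) (P ^ m) := by
  induction m with
  | zero => simpa using CongA.refl (A := A) 1
  | succ m ih =>
    rw [Finset.prod_range_succ, pow_succ]
    have hω : (ζ ^ m) ^ ℓ = 1 := by rw [← pow_mul, mul_comm, pow_mul, hζ, one_pow]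
    exact CongA.mul (ih.isIntA (isIntA_pow hP m)) hP ih (congA_twist hA hω hP)

end KCong

open KCong KInt

/-- **K-CONG**: the Kronecker congruence, formal version. -/
theorem cong_formal (ℓ : ℕ) [Fact ℓ.Prime] (A : ValuationSubring Kb) (hA : A.LiesOverPrime ℓ)
    (σ : GQ) (hσ : A.IsFrobeniusAt σ ℓ) (ζ : Kbˣ) (hζ : ζ ^ ℓ = 1) (P T : LaurentSeries Kb)
    (hP : IsIntA A P)
    (hT : qExpand Kb ℓ T = qExpand Kb (ℓ ^ 2) P * ∏ b ∈ Finset.range ℓ, S28.twist (ζ ^ b) P) :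
    IsIntA A T ∧
      CongA A T (coeffMap (σ : Kb →+* Kb) P * (coeffMap ((σ⁻¹ : GQ) : Kb →+* Kb) P) ^ ℓ) := by
  have hσd := hσ.mem_decompositionSubgroup
  have hσd' : σ⁻¹ ∈ A.decompositionSubgroup ℚ := inv_mem hσd
  set P' := coeffMap ((σ⁻¹ : GQ) : Kb →+* Kb) P with hP'def
  have hP' : IsIntA A P' := hP.coeffMap hσd'
  have hσP : IsIntA A (coeffMap (σ : Kb →+* Kb) P) := hP.coeffMap hσd
  -- the product
  have h1 : CongA A (∏ b ∈ Finset.range ℓ, S28.twist (ζ ^ b) P)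
      (qExpand Kb ℓ (coeffMap (σ : Kb →+* Kb) P)) :=
    (congA_prod_twist hA hζ hP ℓ).trans (congA_pow_char hA hσ hP)
  -- the first factor
  have h2 : coeffMap (σ : Kb →+* Kb) P' = P := by
    ext n
    simp [hP'def]
  have h3 : CongA A (P' ^ ℓ) (qExpand Kb ℓ P) := by
    have := congA_pow_char hA hσ hP'
    rwa [h2] at this
  have h4 : qExpand Kb (ℓ ^ 2) P = qExpand Kb ℓ (qExpand Kb ℓ P) := by
    rw [qExpand_qExpand]
    exact qExpand_congr (by ring) P
  have h5 : CongA A (qExpand Kb (ℓ ^ 2) P) (qExpand Kb ℓ (P' ^ ℓ)) := by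
    rw [h4]
    exact congA_qExpand h3.symm
  have h6 : CongA A (qExpand Kb ℓ T)
      (qExpand Kb ℓ (coeffMap (σ : Kb →+* Kb) P * P' ^ ℓ)) := by
    rw [hT, map_mul, mul_comm (qExpand Kb ℓ (coeffMap (σ : Kb →+* Kb) P))]
    exact CongA.mul (isIntA_qExpand hP) (isIntA_qExpand hσP) h5 h1
  refine ⟨?_, congA_of_qExpand h6⟩
  exact isIntA_of_qExpand (h6.isIntA (isIntA_qExpand (hσP.mul (isIntA_pow hP' ℓ))))

end Fermat.Agent.ES
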