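import Mathlib
import Fermat.Prelude.Def_AlgebraicCurve_DivisorPushPull
import Fermat.Agent.S24.FFDed

set_option autoImplicit false
set_option linter.style.haveILetI false

/-!
# ES, block KRON, package K-NORM

If all orders of `y : E` are divisible by `p`, so are all orders of its norm to `F`.
-/

namespace Fermat.Agent.ES

open AlgebraicCurve IsDedekindDomain WithZero UniqueFactorizationMonoid

namespace KNorm

/-- the adic valuation of an integral element, as a count of normalized factors -/
lemma neg_log_valuation {R L : Type*} [CommRing R] [IsDedekindDomain R] [Field L] [Algebra R L]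
    [IsFractionRing R L] (P : HeightOneSpectrum R) {r : R} (hr : r ≠ 0) :
    - log (P.valuation L (algebraMap R L r)) =
      (Multiset.count P.asIdeal (normalizedFactors (Ideal.span {r})) : ℤ) := by
  classical
  rw [HeightOneSpectrum.valuation_of_algebraMap, HeightOneSpectrum.intValuation_if_neg _ hr,
    log_exp, neg_neg, Ideal.count_associates_factors_eq (by simpa using hr) P.isPrime P.ne_bot]

section

variable {O B : Type*} [CommRing O] [IsDedekindDomain O] [CommRing B] [IsDedekindDomain B]
  [Algebra O B] [Module.Finite O B] [Module.IsTorsionFree O B]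

lemma count_relNorm_prod (m : Ideal O) (s : Multiset (Ideal B)) (hs : ∀ P ∈ s, P ≠ ⊥) :
    Multiset.count m (normalizedFactors (Ideal.relNorm O s.prod)) =
      (s.map fun P => Multiset.count m (normalizedFactors (Ideal.relNorm O P))).sum := by
  classical
  induction s using Multiset.induction_on with
  | empty => rw [Multiset.prod_zero, map_one, normalizedFactors_one]; simp
  | cons a s ih =>
    have ha : a ≠ ⊥ := hs a (Multiset.mem_cons_self a s)
    have hs' : ∀ P ∈ s, P ≠ ⊥ := fun P hP => hs P (Multiset.mem_cons_of_mem hP)
    have hprod : s.prod ≠ ⊥ := by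
      intro h0
      rw [← Ideal.zero_eq_bot, Multiset.prod_eq_zero_iff] at h0
      exact hs' _ h0 rfl
    rw [Multiset.prod_cons, map_mul, normalizedFactors_mul, Multiset.count_add, ih hs',
      Multiset.map_cons, Multiset.sum_cons]
    · rw [Ideal.zero_eq_bot, Ne, Ideal.relNorm_eq_bot_iff]; exact ha
    · rw [Ideal.zero_eq_bot, Ne, Ideal.relNorm_eq_bot_iff]; exact hprod

lemma count_relNorm (m : Ideal O) (I : Ideal B) (hI : I ≠ ⊥) (S : Finset (Ideal B))
    (hS : (normalizedFactors I).toFinset ⊆ S) :
    (Multiset.count m (normalizedFactors (Ideal.relNorm O I)) : ℤ) =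
      ∑ P ∈ S, (Multiset.count P (normalizedFactors I) : ℤ) *
        (Multiset.count m (normalizedFactors (Ideal.relNorm O P)) : ℤ) := by
  classical
  have h1 := count_relNorm_prod (O := O) m (normalizedFactors I) (fun P hP => by
    have := (prime_of_normalized_factor P hP).ne_zero
    simpa using this)
  rw [Ideal.prod_normalizedFactors_eq_self hI, Finset.sum_multiset_map_count] at h1
  rw [h1, ← Finset.sum_subset hS]
  · push_cast
    simp
  · intro P _ hP
    rw [Multiset.mem_toFinset] at hP
    rw [Multiset.count_eq_zero_of_notMem hP]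
    simp

end

end KNorm

theorem dvd_ord_norm {K F E : Type*} [Field K] [CharZero K] [Field F] [Field E] [Algebra K F]
    [Algebra K E] [Algebra F E] [IsScalarTower K F E] [FiniteDimensional F E] (p : ℕ) (y : E)
    (hy : y ≠ 0) (h : ∀ w : Place K E, (p : ℤ) ∣ w.ord y) (v : Place K F) :
    (p : ℤ) ∣ v.ord (Algebra.norm F y) := by
  classical
  haveI : CharZero F := charZero_of_injective_algebraMap (algebraMap K F).injective
  let O := v.toValuationSubring
  let B := integralClosure O E
  haveI : IsDedekindDomain B := integralClosure.isDedekindDomain O F E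
  haveI : Module.Finite O B := IsIntegralClosure.finite O F E B
  haveI : IsFractionRing B E := IsIntegralClosure.isFractionRing_of_finite_extension O F E B
  letI : Algebra K B := ((algebraMap O B).comp (algebraMap K O)).toAlgebra
  haveI : IsScalarTower K B E := IsScalarTower.of_algebraMap_eq fun a => by
    change algebraMap K E a = algebraMap O E (algebraMap K O a)
    rw [IsScalarTower.algebraMap_apply K F E]
    rfl
  haveI : Module.IsTorsionFree O E := .trans_faithfulSMul O F E
  haveI : Module.IsTorsionFree O B := IsIntegralClosure.isTorsionFree O E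
  obtain ⟨b, d, hd, hbd⟩ := IsFractionRing.div_surjective B y
  have hd0 : d ≠ 0 := nonZeroDivisors.ne_zero hd
  have hb0 : b ≠ 0 := by
    rintro rfl
    rw [map_zero, zero_div] at hbd
    exact hy hbd.symm
  -- orders at the primes of `B`
  have hord : ∀ P : HeightOneSpectrum B,
      (Place.ofHeightOneSpectrum (K := K) (F := E) P).ord y =
        (Multiset.count P.asIdeal (normalizedFactors (Ideal.span {b})) : ℤ) -
          (Multiset.count P.asIdeal (normalizedFactors (Ideal.span {d})) : ℤ) := by
    intro P
    have hb1 : algebraMap B E b ≠ 0 := by simpa using hb0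
    have hd1 : algebraMap B E d ≠ 0 := by simpa using hd0
    rw [← hbd, div_eq_mul_inv, Place.ord_mul _ hb1 (inv_ne_zero hd1), Place.ord_inv,
      S24.FF.ord_ofHeightOneSpectrum, S24.FF.ord_ofHeightOneSpectrum,
      KNorm.neg_log_valuation P hb0, KNorm.neg_log_valuation P hd0]
    ring
  -- orders of the norms
  have hnorm : ∀ r : B, r ≠ 0 → Algebra.norm F (algebraMap B E r) ≠ 0 ∧
      v.ord (Algebra.norm F (algebraMap B E r)) =
      (Multiset.count v.heightOneSpectrum.asIdeal
        (normalizedFactors (Ideal.relNorm O (Ideal.span {r}))) : ℤ) := by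
    intro r hr
    have hr1 : algebraMap B E r ≠ 0 := by simpa using hr
    have hn0 : Algebra.norm F (algebraMap B E r) ≠ 0 := by
      rw [Ne, Algebra.norm_eq_zero_iff]; exact hr1
    refine ⟨hn0, ?_⟩
    have hi0 : Algebra.intNorm O B r ≠ 0 := by
      intro h0
      apply hn0
      rw [← Algebra.algebraMap_intNorm (A := O) (K := F) (L := E) (B := B), h0, map_zero]
    rw [← Algebra.algebraMap_intNorm (A := O) (K := F) (L := E) (B := B), Ideal.relNorm_singleton,
      ← KNorm.neg_log_valuation (L := F) v.heightOneSpectrum hi0]
    rfl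
  set S : Finset (Ideal B) := (normalizedFactors (Ideal.span {b})).toFinset ∪
    (normalizedFactors (Ideal.span {d})).toFinset with hS
  have hsb : Ideal.span {b} ≠ ⊥ := by simpa using hb0
  have hsd : Ideal.span {d} ≠ ⊥ := by simpa using hd0
  have e1 := KNorm.count_relNorm (O := O) v.heightOneSpectrum.asIdeal _ hsb S
    Finset.subset_union_left
  have e2 := KNorm.count_relNorm (O := O) v.heightOneSpectrum.asIdeal _ hsd S
    Finset.subset_union_right
  have hmul : Algebra.norm F y * Algebra.norm F (algebraMap B E d) =
      Algebra.norm F (algebraMap B E b) := by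
    have hd1 : algebraMap B E d ≠ 0 := by simpa using hd0
    rw [← map_mul, ← hbd, div_mul_cancel₀ _ hd1]
  have hy' : Algebra.norm F y ≠ 0 := by
    rw [Ne, Algebra.norm_eq_zero_iff]; exact hy
  have hsub : v.ord (Algebra.norm F y) = v.ord (Algebra.norm F (algebraMap B E b)) -
      v.ord (Algebra.norm F (algebraMap B E d)) := by
    rw [← hmul, v.ord_mul hy' (hnorm d hd0).1]
    ring
  rw [hsub, (hnorm b hb0).2, (hnorm d hd0).2, e1, e2, ← Finset.sum_sub_distrib]
  refine Finset.dvd_sum fun P hP => ?_
  rw [← sub_mul]
  refine Dvd.dvd.mul_right ?_ _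
  have hPp : Prime P := by
    rw [hS, Finset.mem_union, Multiset.mem_toFinset, Multiset.mem_toFinset] at hP
    rcases hP with hP | hP
    · exact prime_of_normalized_factor P hP
    · exact prime_of_normalized_factor P hP
  have := h (Place.ofHeightOneSpectrum (K := K) (F := E)
    (⟨P, Ideal.isPrime_of_prime hPp, hPp.ne_zero⟩ : HeightOneSpectrum B))
  rw [hord] at this
  exact this

end Fermat.Agent.ES

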