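import Fermat.Agent.ES.KDefs
import Fermat.Agent.S24.Degree
import Fermat.Agent.ES.KNorm

/-!
# ES, block KRON, package K-DIV: finiteness of `α`, integrality of `β`, and stability of
`pdivUnits` under the multiplicative Hecke operator
-/

set_option autoImplicit false
set_option linter.style.haveILetI false

namespace Fermat.Agent.ES

open ModularCurve AlgebraicCurve Fermat.Agent.S24
open scoped IntermediateField

namespace KDiv

section general

variable {A₁ A₂ E : Type*} [Field A₁] [Field A₂] [Field E] [Algebra A₁ E] [Algebra A₂ E]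

/-- enlarging the field of scalars (as subfields of `E`) preserves algebraicity -/
lemma isAlgebraic_of_range_le (h : (algebraMap A₁ E).range ≤ (algebraMap A₂ E).range) {x : E}
    (hx : IsAlgebraic A₁ x) : IsAlgebraic A₂ x := by
  obtain ⟨P, hP0, hP⟩ := hx
  have hl : P.map (algebraMap A₁ E) ∈ Polynomial.lifts (algebraMap A₂ E) := by
    rw [Polynomial.lifts_iff_coeff_lifts]
    intro n
    rw [Polynomial.coeff_map]
    exact h ⟨_, rfl⟩
  obtain ⟨Q, hQ⟩ := hl
  have hQ : Q.map (algebraMap A₂ E) = P.map (algebraMap A₁ E) := hQ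
  refine ⟨Q, ?_, ?_⟩
  · rintro rfl
    rw [Polynomial.map_zero] at hQ
    exact hP0 ((Polynomial.map_eq_zero _).mp hQ.symm)
  · rw [Polynomial.aeval_def, ← Polynomial.eval_map, hQ, Polynomial.eval_map, ← Polynomial.aeval_def,
      hP]

/-- enlarging the field of scalars (as subfields of `E`) preserves finiteness -/
lemma finite_of_range_le (h : (algebraMap A₁ E).range ≤ (algebraMap A₂ E).range)
    [Module.Finite A₁ E] : Module.Finite A₂ E := by
  obtain ⟨S, hS⟩ := (Module.Finite.fg_top : (⊤ : Submodule A₁ E).FG)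
  refine ⟨⟨S, ?_⟩⟩
  rw [eq_top_iff]
  intro x hxt
  clear hxt
  have hx : x ∈ Submodule.span A₁ (S : Set E) := by rw [hS]; trivial
  induction hx using Submodule.span_induction with
  | mem y hy => exact Submodule.subset_span hy
  | zero => exact zero_mem _
  | add y z _ _ hy hz => exact add_mem hy hz
  | smul c y _ hy =>
    obtain ⟨c', hc'⟩ := h ⟨c, rfl⟩
    have : c • y = c' • y := by
      rw [Algebra.smul_def, Algebra.smul_def, hc']
    rw [this]
    exact Submodule.smul_mem _ _ hy

end general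

section exchange

open IntermediateField.algebraAdjoinAdjoin

variable {K E : Type*} [Field K] [Field E] [Algebra K E]

/-- the exchange lemma, for subalgebras -/
lemma exchange_adjoin (a b : E) (hb : Transcendental K b)
    (hab : IsAlgebraic (Algebra.adjoin K {a}) b) : IsAlgebraic (Algebra.adjoin K {b}) a := by
  by_contra h
  have h' : Transcendental (Algebra.adjoin K ((id : E → E) '' {b})) ((id : E → E) a) := by
    rw [Set.image_id]
    exact h
  have hs : AlgebraicIndepOn K (id : E → E) {b} := by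
    rw [AlgebraicIndepOn, algebraicIndependent_singleton_iff (⟨b, rfl⟩ : ({b} : Set E))]
    exact hb
  have h1 := AlgebraicIndepOn.insert hs h'
  have hne : b ∉ ({a} : Set E) := by
    intro hba
    have hba' : b = a := hba
    apply h
    rw [← hba']
    exact isAlgebraic_algebraMap
      (⟨b, Algebra.self_mem_adjoin_singleton K b⟩ : Algebra.adjoin K {b})
  rw [Set.pair_comm] at h1
  have h2 := ((AlgebraicIndepOn.insert_iff hne).mp h1).2
  apply h2
  rw [Set.image_id]
  exact hab

/-- the exchange lemma, for fields -/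
lemma exchange_field (a b : E) (hb : Transcendental K b) (hab : IsAlgebraic K⟮a⟯ b) :
    IsAlgebraic K⟮b⟯ a := by
  have h1 : IsAlgebraic (Algebra.adjoin K {a}) b :=
    (IsFractionRing.isAlgebraic_iff (Algebra.adjoin K {a}) K⟮a⟯ E).mpr hab
  exact (IsFractionRing.isAlgebraic_iff (Algebra.adjoin K {b}) K⟮b⟯ E).mp
    (exchange_adjoin a b hb h1)

end exchange

section abstract

variable {K F E : Type*} [Field K] [Field F] [Field E] [Algebra K F] [Algebra K E]

/-- if `E` is finite over `K(j)` and `j` lies in the image of `α`, then `E` is finite along `α` -/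
lemma finiteAlong_of (α : F →ₐ[K] E) (j : E) (hj : j ∈ α.fieldRange) [Module.Finite K⟮j⟯ E] :
    FiniteAlong K α := by
  let _ := algebraAlong α
  show Module.Finite F E
  have hle : K⟮j⟯ ≤ α.fieldRange := by
    rw [IntermediateField.adjoin_le_iff, Set.singleton_subset_iff]
    exact hj
  refine finite_of_range_le (A₁ := K⟮j⟯) ?_
  rintro _ ⟨x, rfl⟩
  obtain ⟨y, hy⟩ := hle x.2
  exact ⟨y, hy⟩

/-- if `E` is algebraic over `K(j)` and `F` contains an element transcendental over `K`, then
`E` is integral along any `β : F → E` -/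
lemma integral_of (β : F →ₐ[K] E) (j : E) (t : F) (ht : Transcendental K t)
    [Algebra.IsAlgebraic K⟮j⟯ E] : β.toRingHom.IsIntegral := by
  let _ := algebraAlong β
  have := isScalarTower_along β
  set jl : E := β t with hjl
  have h1 : IsAlgebraic K⟮j⟯ jl := Algebra.IsAlgebraic.isAlgebraic _
  have h2 : Transcendental K jl := by
    intro h
    exact ht ((isAlgebraic_algHom_iff β β.injective).mp h)
  have h3 : IsAlgebraic K⟮jl⟯ j := exchange_field j jl h2 h1
  have h4 : IsAlgebraic F j := by
    refine isAlgebraic_of_range_le ?_ h3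
    have hle : K⟮jl⟯ ≤ β.fieldRange := by
      rw [IntermediateField.adjoin_le_iff, Set.singleton_subset_iff]
      exact ⟨t, rfl⟩
    rintro _ ⟨x, rfl⟩
    obtain ⟨y, hy⟩ := hle x.2
    exact ⟨y, hy⟩
  have : Algebra.IsAlgebraic F F⟮j⟯ :=
    IntermediateField.isAlgebraic_adjoin_simple h4.isIntegral
  intro x
  have h5 : IsAlgebraic K⟮j⟯ x := Algebra.IsAlgebraic.isAlgebraic _
  have h6 : IsAlgebraic F⟮j⟯ x := by
    refine isAlgebraic_of_range_le ?_ h5
    have hle : K⟮j⟯ ≤ (F⟮j⟯).restrictScalars K := by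
      rw [IntermediateField.adjoin_le_iff, Set.singleton_subset_iff]
      exact IntermediateField.mem_adjoin_simple_self F j
    rintro _ ⟨y, rfl⟩
    exact ⟨⟨y, hle y.2⟩, rfl⟩
  exact (h6.restrictScalars F).isIntegral

/-- abstract form of `heckeU_mem` -/
lemma dvd_ord_norm_along [CharZero K] (α β : F →ₐ[K] E) (hα : FiniteAlong K α)
    (hβ : β.toRingHom.IsIntegral) (p : ℕ) (u : F) (hu0 : u ≠ 0)
    (hu : ∀ v : Place K F, (p : ℤ) ∣ v.ord u) (v : Place K F) :
    (p : ℤ) ∣ v.ord (letI := algebraAlong α; Algebra.norm F (β u)) := by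
  letI := algebraAlong α
  haveI := isScalarTower_along α
  haveI : FiniteDimensional F E := hα
  refine dvd_ord_norm p (β u) ((map_ne_zero β).mpr hu0) (fun w => ?_) v
  rw [Place.ord_restrictAlong β hβ w u]
  exact Dvd.dvd.mul_left (hu _) _

end abstract

end KDiv

open KDiv

/-- **K-DIV** (1). -/
theorem heckeAlpha_finite (N ℓ : ℕ) [NeZero N] [NeZero ℓ] :
    FiniteAlong Kb (heckeAlphaBar Kb N ℓ) :=
  finiteAlong_of (heckeAlphaBar Kb N ℓ) (jF (N * ℓ)) ⟨jF N, Subtype.ext rfl⟩

/-- **K-DIV** (2). -/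
theorem heckeBeta_integral (N ℓ : ℕ) [NeZero N] [NeZero ℓ] : HeckeBetaBarIntegral Kb N ℓ := by
  have h1 : FiniteDimensional Kb⟮jF (N * ℓ)⟯ (FF (N * ℓ)) := finiteDimensional_FF (N * ℓ)
  have h2 : Algebra.IsAlgebraic Kb⟮jF (N * ℓ)⟯ (FF (N * ℓ)) := Algebra.IsAlgebraic.of_finite _ _
  exact integral_of (heckeBetaBar Kb N ℓ) (jF (N * ℓ)) (jF N) (transcendental_jF N)

/-- **K-DIV** (3). -/
theorem heckeU_mem (p N ℓ : ℕ) [NeZero N] [NeZero ℓ] (u : (FF N)ˣ) (hu : u ∈ pdivUnits p N) :
    heckeU N ℓ u ∈ pdivUnits p N := by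
  intro v
  exact dvd_ord_norm_along (heckeAlphaBar Kb N ℓ) (heckeBetaBar Kb N ℓ) (heckeAlpha_finite N ℓ)
    (heckeBeta_integral N ℓ) p (u : FF N) u.ne_zero hu v

end Fermat.Agent.ES
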