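import Fermat.Agent.ES.KDeg

/-!
# ES, block KRON, package K-EMB : the analytic product formula for the multiplicative Hecke operator
-/

set_option autoImplicit false

namespace Fermat.Agent.ES

open ModularCurve AlgebraicCurve Fermat.Agent.S24 Fermat.Agent.ES
open P2MW.S_ModularForm_heckeT_slash_eq_self_of_mem_Gamma0.ModularForm.HeckeSlashInvariance
open UpperHalfPlane ModularForm Matrix.SpecialLinearGroup
open scoped MatrixGroups

namespace KEmb

/-! ### generalities on `merMap` -/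

lemma merMap_comp (g h : GL (Fin 2) ℝ) (hg : 0 < g.det.val) (hh : 0 < h.det.val)
    (hgh : 0 < (h * g).det.val) (x : Mer) :
    merMap g hg (merMap h hh x) = merMap (h * g) hgh x := by
  have : (merMap g hg).comp (merMap h hh) = merMap (h * g) hgh := by
    apply Mer_ringHom_ext
    intro F
    rw [RingHom.comp_apply, merMap_toMer, merMap_toMer, merMap_toMer]
    apply congrArg toMer
    apply Subtype.ext
    funext τ
    simp [mul_smul]
  exact DFunLike.congr_fun this x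

lemma merMap_congr {g h : GL (Fin 2) ℝ} (e : g = h) (hg : 0 < g.det.val) (hh : 0 < h.det.val)
    (x : Mer) : merMap g hg x = merMap h hh x := by
  subst e
  rfl

lemma det_mapGL_pos (γ : SL(2, ℤ)) : 0 < (mapGL ℝ γ).det.val := det_SL_pos γ

lemma act_eq_merMap (γ : SL(2, ℤ)) (x : Mer) :
    act γ⁻¹ x = merMap (mapGL ℝ γ) (det_mapGL_pos γ) x := by
  rw [act]
  exact merMap_congr (by rw [inv_inv]; rfl) _ _ x

/-! ### `Psi` and the degeneracy maps -/

variable (N ℓ : ℕ) [NeZero N] [NeZero ℓ]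

lemma Psi_alpha (x : FF N) : Psi (N * ℓ) (heckeAlphaBar Kb N ℓ x) = Psi N x := by
  have : (Psi (N * ℓ)).comp (heckeAlphaBar Kb N ℓ : FF N →+* FF (N * ℓ)) = Psi N := by
    apply FF_ringHom_ext
    · intro a
      rw [RingHom.comp_apply, RingHom.coe_coe, AlgHom.commutes, Psi_const, Psi_const]
    · intro d _ hd
      rw [RingHom.comp_apply, RingHom.coe_coe, KDeg.heckeAlpha_jd, Psi_jd, Psi_jd]
  exact DFunLike.congr_fun this x

lemma heckeBeta_jd (d : ℕ) [NeZero d] (hd : d ∣ N) :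
    haveI : NeZero (ℓ * d) := ⟨mul_ne_zero (NeZero.ne ℓ) (NeZero.ne d)⟩
    heckeBetaBar Kb N ℓ (jd N d hd) = jd (N * ℓ) (ℓ * d) (by rw [mul_comm]; exact mul_dvd_mul_right hd ℓ) := by
  apply Subtype.ext
  rw [coe_heckeBetaBar, coe_jd, coe_jd, jdL_eq, jdL_eq, jqNModC, jqNModC, qExpand_qExpand]

lemma Psi_beta (x : FF N) :
    Psi (N * ℓ) (heckeBetaBar Kb N ℓ x)
      = merMap (heckeDiagMatrix ℓ) (det_heckeDiagMatrix_pos ℓ) (Psi N x) := by
  have : (Psi (N * ℓ)).comp (heckeBetaBar Kb N ℓ : FF N →+* FF (N * ℓ))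
      = (merMap (heckeDiagMatrix ℓ) (det_heckeDiagMatrix_pos ℓ)).comp (Psi N) := by
    apply FF_ringHom_ext
    · intro a
      rw [RingHom.comp_apply, RingHom.coe_coe, AlgHom.commutes, Psi_const, RingHom.comp_apply,
        Psi_const, merMap_toMer, AlgHom.commutes]
    · intro d _ hd
      haveI : NeZero (ℓ * d) := ⟨mul_ne_zero (NeZero.ne ℓ) (NeZero.ne d)⟩
      rw [RingHom.comp_apply, RingHom.coe_coe, heckeBeta_jd, Psi_jd, RingHom.comp_apply, Psi_jd,
        merMap_toMer]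
      apply congrArg toMer
      apply Subtype.ext
      funext τ
      rw [compHom_apply, jdHol_apply', jdHol_apply']
      apply congrArg jfun
      apply UpperHalfPlane.ext
      rw [Fermat.Agent.S23.Prim.coe_Dm_smul, Fermat.Agent.S23.Prim.coe_Dm_smul,
        coe_heckeDiagMatrix_smul (NeZero.ne ℓ)]
      push_cast
      ring
  exact DFunLike.congr_fun this x

/-! ### the norm as a product of conjugates -/

theorem norm_eq_prod {F E M : Type*} [Field F] [Field E] [Field M] [Algebra F E] [CharZero F]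
    [FiniteDimensional F E] {X : Type*} [Fintype X] (φ : F →+* M) (σ : X → (E →+* M))
    (hinj : Function.Injective σ) (hφ : ∀ i (c : F), σ i (algebraMap F E c) = φ c)
    (hcard : Fintype.card X = Module.finrank F E) (f : E) :
    φ (Algebra.norm F f) = ∏ i, σ i f := by
  classical
  let Ω := AlgebraicClosure M
  letI : Algebra F M := φ.toAlgebra
  letI : Algebra F Ω := ((algebraMap M Ω).comp (algebraMap F M)).toAlgebra
  let τ : X → (E →ₐ[F] Ω) := fun i =>
    { ((algebraMap M Ω).comp (σ i)) with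
      commutes' := fun y => by
        change algebraMap M Ω (σ i (algebraMap F E y)) = algebraMap M Ω (φ y)
        rw [hφ] }
  have hτ : Function.Injective τ := by
    intro i i' h
    apply hinj
    ext f
    have := congrArg (fun ψ : E →ₐ[F] Ω => ψ f) h
    exact (algebraMap M Ω).injective this
  have hbij : Function.Bijective τ := by
    rw [Fintype.bijective_iff_injective_and_card]
    exact ⟨hτ, by rw [hcard, AlgHom.card]⟩
  have h1 := Algebra.norm_eq_prod_embeddings F Ω f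
  rw [← (Equiv.ofBijective τ hbij).prod_comp] at h1
  apply (algebraMap M Ω).injective
  rw [map_prod]
  exact h1

/-! ### the coset representatives -/

section reps

variable (N ℓ : ℕ)

/-- the integer `t` with `1 + N t ≡ N b` modulo `ℓ` -/
noncomputable def tt (b : ZMod ℓ) : ℤ := ((b - (N : ZMod ℓ)⁻¹ : ZMod ℓ).val : ℤ)

/-- representatives of `Γ₀(N ℓ) \ Γ₀(N)` -/
noncomputable def gx (x : OnePoint (ZMod ℓ)) : SL(2, ℤ) :=
  x.elim 1 fun b => ⟨!![1, tt N ℓ b; N, 1 + N * tt N ℓ b], by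
    rw [Matrix.det_fin_two_of]; ring⟩

lemma gx_infty : gx N ℓ OnePoint.infty = 1 := rfl

lemma gx_coe_10 (b : ZMod ℓ) : gx N ℓ (b : OnePoint (ZMod ℓ)) 1 0 = N := rfl

lemma gx_coe_11 (b : ZMod ℓ) : gx N ℓ (b : OnePoint (ZMod ℓ)) 1 1 = 1 + N * tt N ℓ b := rfl

lemma gx_mem (x : OnePoint (ZMod ℓ)) : gx N ℓ x ∈ CongruenceSubgroup.Gamma0 N := by
  induction x using OnePoint.rec with
  | infty => exact one_mem _
  | coe b => rw [CongruenceSubgroup.Gamma0_mem, gx_coe_10]; simp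

variable {N ℓ} [Fact ℓ.Prime]

lemma natCast_ne_zero (hℓN : ¬ ℓ ∣ N) : (N : ZMod ℓ) ≠ 0 := by
  rwa [Ne, ZMod.natCast_eq_zero_iff]

lemma exists_gx' (hℓN : ¬ ℓ ∣ N) (x : OnePoint (ZMod ℓ)) :
    ∃ g' ∈ CongruenceSubgroup.Gamma0 N,
      heckeDiagMatrix ℓ * mapGL ℝ (gx N ℓ x) = mapGL ℝ g' * heckeRep ℓ x := by
  have hℓ : ℓ ≠ 0 := (Fact.out : ℓ.Prime).ne_zero
  induction x using OnePoint.rec with
  | infty => exact ⟨1, one_mem _, by rw [gx_infty, map_one, mul_one, one_mul]; rfl⟩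
  | coe b =>
    obtain ⟨e, he⟩ : (ℓ : ℤ) ∣ gx N ℓ (b : OnePoint (ZMod ℓ)) 1 1
        - gx N ℓ (b : OnePoint (ZMod ℓ)) 1 0 * b.val := by
      rw [← ZMod.intCast_zmod_eq_zero_iff_dvd, gx_coe_10, gx_coe_11, tt]
      push_cast
      rw [ZMod.natCast_zmod_val, ZMod.natCast_zmod_val]
      have := natCast_ne_zero hℓN
      field_simp
      ring
    obtain ⟨g', hg', hmul⟩ := heckeDiagMatrix_mul_of_eq hℓ (gx N ℓ (b : OnePoint (ZMod ℓ))) b.val e
      (by linear_combination he)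
    refine ⟨g', ?_, hmul⟩
    rw [CongruenceSubgroup.Gamma0_mem, hg', gx_coe_10]
    simp

lemma gx_injective (hℓN : ¬ ℓ ∣ N) {x y : OnePoint (ZMod ℓ)}
    (h : gx N ℓ x * (gx N ℓ y)⁻¹ ∈ CongruenceSubgroup.Gamma0 (N * ℓ)) : x = y := by
  have hN0 := natCast_ne_zero hℓN
  have h1 : (((gx N ℓ x * (gx N ℓ y)⁻¹) 1 0 : ℤ) : ZMod ℓ) = 0 := by
    rw [CongruenceSubgroup.Gamma0_mem, ZMod.intCast_zmod_eq_zero_iff_dvd] at h
    rw [ZMod.intCast_zmod_eq_zero_iff_dvd]
    exact (Int.natCast_dvd_natCast.mpr (dvd_mul_left ℓ N)).trans h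
  have h2 : (gx N ℓ x * (gx N ℓ y)⁻¹) 1 0
      = gx N ℓ x 1 0 * gx N ℓ y 1 1 - gx N ℓ x 1 1 * gx N ℓ y 1 0 := by
    simp [Matrix.SpecialLinearGroup.coe_inv, Matrix.adjugate_fin_two, Matrix.mul_apply,
      Fin.sum_univ_two]
    ring
  rw [h2] at h1
  induction x using OnePoint.rec with
  | infty =>
    induction y using OnePoint.rec with
    | infty => rfl
    | coe b' =>
      rw [gx_infty, gx_coe_10] at h1
      simp at h1
      exact absurd h1 hN0
  | coe b =>
    induction y using OnePoint.rec with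
    | infty =>
      rw [gx_infty, gx_coe_10] at h1
      simp at h1
      exact absurd h1 hN0
    | coe b' =>
      rw [gx_coe_10, gx_coe_10, gx_coe_11, gx_coe_11, tt, tt] at h1
      push_cast at h1
      rw [ZMod.natCast_zmod_val, ZMod.natCast_zmod_val] at h1
      congr 1
      have h3 : (N : ZMod ℓ) * (N : ZMod ℓ) * (b' - b) = 0 := by linear_combination h1
      have := (mul_eq_zero.mp h3).resolve_left (mul_ne_zero hN0 hN0)
      exact (sub_eq_zero.mp this).symm

end reps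

/-! ### the embeddings -/

section emb

variable (N ℓ : ℕ) [NeZero N] [Fact ℓ.Prime]

/-- the `ℓ + 1` embeddings of `FF (N ℓ)` over `FF N` -/
noncomputable def tau (x : OnePoint (ZMod ℓ)) : FF (N * ℓ) →+* Mer := sigma (N * ℓ) (gx N ℓ x)⁻¹

lemma act_Psi_of_mem {g : SL(2, ℤ)} (hg : g ∈ CongruenceSubgroup.Gamma0 N) (y : FF N) :
    act g (Psi N y) = Psi N y := by
  have := sigma_mul_of_mem N 1 g hg
  rw [one_mul, sigma_one] at this
  rw [← sigma_apply, this]

lemma tau_alpha (x : OnePoint (ZMod ℓ)) (y : FF N) :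
    tau N ℓ x (heckeAlphaBar Kb N ℓ y) = Psi N y := by
  rw [tau, sigma_apply, Psi_alpha, act_Psi_of_mem N (inv_mem (gx_mem N ℓ x))]

variable {N ℓ}

lemma tau_beta (hℓN : ¬ ℓ ∣ N) (x : OnePoint (ZMod ℓ)) (u : FF N) :
    tau N ℓ x (heckeBetaBar Kb N ℓ u) = merMap (heckeRep ℓ x) (heckeRep_det_pos ℓ x) (Psi N u) := by
  obtain ⟨g', hg', hmul⟩ := exists_gx' hℓN x
  have hpos : 0 < (heckeDiagMatrix ℓ * mapGL ℝ (gx N ℓ x)).det.val := by
    rw [map_mul, Units.val_mul]
    exact mul_pos (det_heckeDiagMatrix_pos ℓ) (det_mapGL_pos _)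
  have hpos' : 0 < (mapGL ℝ g' * heckeRep ℓ x).det.val := by
    rw [map_mul, Units.val_mul]
    exact mul_pos (det_mapGL_pos _) (heckeRep_det_pos ℓ x)
  rw [tau, sigma_apply, Psi_beta, act_eq_merMap, merMap_comp _ _ _ _ hpos,
    merMap_congr hmul hpos hpos', ← merMap_comp _ _ (heckeRep_det_pos ℓ x) (det_mapGL_pos g') hpos',
    ← act_eq_merMap, act_Psi_of_mem N (inv_mem hg')]

lemma tau_injective (hℓN : ¬ ℓ ∣ N) : Function.Injective (tau N ℓ) := by
  haveI : NeZero (N * ℓ) := ⟨mul_ne_zero (NeZero.ne N) (Fact.out : ℓ.Prime).ne_zero⟩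
  intro x y h
  rw [tau, tau, sigma_eq_iff, inv_inv] at h
  exact gx_injective hℓN h

end emb

end KEmb

/-- **K-EMB**: the analytic product formula. -/
theorem Psi_heckeMul (N ℓ : ℕ) [NeZero N] [Fact ℓ.Prime] (hℓN : ¬ ℓ ∣ N) (u : FF N) :
    Psi N (heckeMul N ℓ u)
      = ∏ x : OnePoint (ZMod ℓ), merMap (heckeRep ℓ x) (heckeRep_det_pos ℓ x) (Psi N u) := by
  rw [heckeMul_apply]
  letI := algebraAlong (heckeAlphaBar Kb N ℓ)
  have hfr : Module.finrank (FF N) (FF (N * ℓ)) = ℓ + 1 := finrank_heckeAlpha N ℓ hℓN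
  haveI : FiniteDimensional (FF N) (FF (N * ℓ)) :=
    Module.finite_of_finrank_pos (by rw [hfr]; exact Nat.succ_pos _)
  have hcard : Fintype.card (OnePoint (ZMod ℓ)) = Module.finrank (FF N) (FF (N * ℓ)) := by
    rw [hfr]
    exact (Fintype.card_option (α := ZMod ℓ)).trans (by rw [ZMod.card])
  rw [KEmb.norm_eq_prod (Psi N) (KEmb.tau N ℓ) (KEmb.tau_injective hℓN)
    (fun x c => KEmb.tau_alpha N ℓ x c) hcard]
  exact Finset.prod_congr rfl fun x _ => KEmb.tau_beta hℓN x u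

end Fermat.Agent.ES
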