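import Fermat.Agent.ES.KDefs
import Fermat.Prelude.Thm_ModularCurve_coeffMap_qExpand

/-!
# ES, block KRON, package K-GAL: Galois equivariance of the multiplicative Hecke operator and
smoothness of the Galois action on the modular function field
-/

set_option autoImplicit false

namespace Fermat.Agent.ES

open ModularCurve AlgebraicCurve Fermat.Agent.S24

/-- **K-GAL** (1): the multiplicative Hecke operator commutes with the Galois action. -/
theorem gal_heckeMul (N ℓ : ℕ) [NeZero N] [NeZero ℓ] (σ : GQ) (u : FF N) :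
    gal N σ (heckeMul N ℓ u) = heckeMul N ℓ (gal N σ u) := by
  let _ := algebraAlong (heckeAlphaBar Kb N ℓ)
  have he : RingHom.comp (algebraMap (FF N) (FF (N * ℓ))) (gal N σ : FF N →+* FF N)
      = RingHom.comp (gal (N * ℓ) σ : FF (N * ℓ) →+* FF (N * ℓ))
        (algebraMap (FF N) (FF (N * ℓ))) := by
    ext x
    rfl
  have h1 := Algebra.norm_eq_of_equiv_equiv (gal N σ) (gal (N * ℓ) σ) he (heckeBetaBar Kb N ℓ u)
  have h2 : gal (N * ℓ) σ (heckeBetaBar Kb N ℓ u) = heckeBetaBar Kb N ℓ (gal N σ u) := by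
    apply Subtype.ext
    show coeffMap (σ : Kb →+* Kb) (qExpand Kb ℓ (u : LaurentSeries Kb))
      = qExpand Kb ℓ (coeffMap (σ : Kb →+* Kb) (u : LaurentSeries Kb))
    exact coeffMap_qExpand _ ℓ _
  rw [heckeMul_apply, heckeMul_apply, h1, RingEquiv.apply_symm_apply, h2]

/-- **K-GAL** (2): every element of the modular function field is fixed by an open subgroup. -/
theorem exists_finite_fixing (N : ℕ) (u : FF N) :
    ∃ L : IntermediateField ℚ Kb, FiniteDimensional ℚ L ∧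
      ∀ σ : GQ, (∀ x ∈ L, σ x = x) → gal N σ u = u := by
  induction u using FF_induction with
  | hc a =>
    refine ⟨IntermediateField.adjoin ℚ {a},
      IntermediateField.adjoin.finiteDimensional
        ((AlgebraicClosure.isAlgebraic ℚ).isAlgebraic a).isIntegral, ?_⟩
    intro σ hσ
    have : gal N σ (algebraMap Kb (FF N) a) = algebraMap Kb (FF N) (σ a) :=
      arithmeticRingAut_algebraMap _ σ a
    rw [this, hσ a (IntermediateField.mem_adjoin_simple_self ℚ a)]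
  | hj d hd =>
    refine ⟨⊥, inferInstance, ?_⟩
    intro σ _
    apply Subtype.ext
    show coeffMap (σ : Kb →+* Kb) (jdL d) = jdL d
    exact coeffMap_coeffEmb σ _
  | hadd x y hx hy =>
    obtain ⟨L₁, h₁, hL₁⟩ := hx
    obtain ⟨L₂, h₂, hL₂⟩ := hy
    refine ⟨L₁ ⊔ L₂, IntermediateField.finiteDimensional_sup L₁ L₂, ?_⟩
    intro σ hσ
    rw [map_add, hL₁ σ fun a ha => hσ a ((le_sup_left : L₁ ≤ L₁ ⊔ L₂) ha),
      hL₂ σ fun a ha => hσ a ((le_sup_right : L₂ ≤ L₁ ⊔ L₂) ha)]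
  | hneg x hx =>
    obtain ⟨L₁, h₁, hL₁⟩ := hx
    exact ⟨L₁, h₁, fun σ hσ => by rw [map_neg, hL₁ σ hσ]⟩
  | hmul x y hx hy =>
    obtain ⟨L₁, h₁, hL₁⟩ := hx
    obtain ⟨L₂, h₂, hL₂⟩ := hy
    refine ⟨L₁ ⊔ L₂, IntermediateField.finiteDimensional_sup L₁ L₂, ?_⟩
    intro σ hσ
    rw [map_mul, hL₁ σ fun a ha => hσ a ((le_sup_left : L₁ ≤ L₁ ⊔ L₂) ha),
      hL₂ σ fun a ha => hσ a ((le_sup_right : L₂ ≤ L₁ ⊔ L₂) ha)]
  | hinv x hx =>
    obtain ⟨L₁, h₁, hL₁⟩ := hx
    exact ⟨L₁, h₁, fun σ hσ => by rw [map_inv₀, hL₁ σ hσ]⟩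

end Fermat.Agent.ES
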