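import Fermat.Agent.ES.KDefs
import Fermat.Agent.S28.LamZ

/-!
# ES, block KRON, package K-GAUSS : every modular function is a constant times a quotient of
`A`-primitive ones
-/

set_option autoImplicit false
set_option linter.unusedSectionVars false

noncomputable section

namespace Fermat.Agent.ES

open ModularCurve AlgebraicCurve Fermat.Agent.S24 Fermat.Agent.S28

namespace KGauss

variable (ℓ : ℕ) [hℓ : Fact ℓ.Prime]

/-- `ℤ_(ℓ) → ℚ̄` -/
def phi : Zl ℓ →+* Kb := (algebraMap ℚ Kb).comp (algebraMap (Zl ℓ) ℚ)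

/-- `ℤ_(ℓ)((q)) → ℚ̄((q))` -/
def emb : LaurentSeries (Zl ℓ) →+* LaurentSeries Kb := coeffMap (phi ℓ)

lemma emb_coeff (f : LaurentSeries (Zl ℓ)) (n : ℤ) : (emb ℓ f).coeff n = phi ℓ (f.coeff n) := rfl

/-- normalisation of a non-zero `ℓ`-integral series -/
lemma exists_pow_mul_aux : ∀ (n : ℕ) (w : LaurentSeries (Zl ℓ)),
    (∃ (n₀ : ℤ) (y : Zl ℓ), w.coeff n₀ = (ℓ : Zl ℓ) ^ n * y ∧ ¬ (ℓ : Zl ℓ) ∣ y) →
    ∃ (a : ℕ) (w' : LaurentSeries (Zl ℓ)), w = (ℓ : LaurentSeries (Zl ℓ)) ^ a * w' ∧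
      redI ℓ w' ≠ 0 := by
  intro n
  induction n with
  | zero =>
    rintro w ⟨n₀, y, hy, hndvd⟩
    refine ⟨0, w, by simp, fun h => ?_⟩
    obtain ⟨w₁, rfl⟩ := (redI_eq_zero_iff ℓ w).mp h
    rw [LamZ.natCast_mul_coeff, pow_zero, one_mul] at hy
    exact hndvd ⟨_, hy.symm⟩
  | succ n ih =>
    rintro w ⟨n₀, y, hy, hndvd⟩
    by_cases h : redI ℓ w = 0
    · obtain ⟨w₁, rfl⟩ := (redI_eq_zero_iff ℓ w).mp h
      rw [LamZ.natCast_mul_coeff, pow_succ', mul_assoc] at hy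
      have hy' := mul_left_cancel₀ (LamZ.natCast_Zl_ne_zero ℓ) hy
      obtain ⟨a, w', hw', hr⟩ := ih w₁ ⟨n₀, y, hy', hndvd⟩
      exact ⟨a + 1, w', by rw [hw', pow_succ', mul_assoc], hr⟩
    · exact ⟨0, w, by simp, h⟩

lemma exists_pow_mul (w : LaurentSeries (Zl ℓ)) (hw : w ≠ 0) :
    ∃ (a : ℕ) (w' : LaurentSeries (Zl ℓ)), w = (ℓ : LaurentSeries (Zl ℓ)) ^ a * w' ∧
      redI ℓ w' ≠ 0 := by
  obtain ⟨n₀, hn₀⟩ : ∃ n₀, w.coeff n₀ ≠ 0 := by
    by_contra h
    push Not at h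
    exact hw (HahnSeries.ext (funext h))
  obtain ⟨n, y, hy, hxy⟩ := WfDvdMonoid.max_power_factor hn₀ (prime_natCast_Zl ℓ).irreducible
  exact exists_pow_mul_aux ℓ n w ⟨n₀, y, hxy, hy⟩

lemma isUnit_of_resl_ne_zero {x : Zl ℓ} (hx : resl ℓ x ≠ 0) : IsUnit x := by
  have hden : IsUnit (((x : ℚ).den : ℤ) : Zl ℓ) := LamZ.isUnit_intCast ℓ (LamZ.not_dvd_den ℓ x)
  have hmul : x * (((x : ℚ).den : ℤ) : Zl ℓ) = (((x : ℚ).num : ℤ) : Zl ℓ) := by
    apply Subtype.ext
    push_cast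
    exact Rat.mul_den_eq_num _
  have hnum : ¬ (ℓ : ℤ) ∣ (x : ℚ).num := by
    intro hd
    apply hx
    have h1 : resl ℓ (((x : ℚ).num : ℤ) : Zl ℓ) = 0 := by
      rw [map_intCast]
      exact (ZMod.intCast_zmod_eq_zero_iff_dvd _ _).mpr hd
    rw [← hmul, map_mul] at h1
    exact (mul_eq_zero.mp h1).resolve_right (hden.map (resl ℓ)).ne_zero
  have := LamZ.isUnit_intCast ℓ hnum
  rw [← hmul] at this
  exact isUnit_of_mul_isUnit_left this

section val

variable {ℓ} {A : ValuationSubring Kb}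

lemma val_intCast_le (m : ℤ) : A.valuation (m : Kb) ≤ 1 :=
  (A.valuation_le_one_iff _).mpr (intCast_mem A m)

lemma val_intCast_eq_one (hA : A.LiesOverPrime ℓ) {m : ℤ} (hm : ¬ (ℓ : ℤ) ∣ m) :
    A.valuation (m : Kb) = 1 := by
  refine le_antisymm (val_intCast_le m) (not_lt.mp fun hlt => ?_)
  have hcop : IsCoprime (ℓ : ℤ) m :=
    (Nat.prime_iff_prime_int.mp hℓ.out).coprime_iff_not_dvd.mpr hm
  obtain ⟨a, b, hab⟩ := hcop
  have h1 : ((a : Kb) * (ℓ : Kb) + (b : Kb) * (m : Kb)) = 1 := by exact_mod_cast congrArg (Int.cast : ℤ → Kb) hab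
  have hl : A.valuation (ℓ : Kb) < 1 := hA
  have h2 : A.valuation ((a : Kb) * (ℓ : Kb)) < 1 := by
    rw [map_mul]
    exact lt_of_le_of_lt (mul_le_of_le_one_left' (val_intCast_le a)) hl
  have h3 : A.valuation ((b : Kb) * (m : Kb)) < 1 := by
    rw [map_mul]
    exact lt_of_le_of_lt (mul_le_of_le_one_left' (val_intCast_le b)) hlt
  have h4 := A.valuation.map_add_lt h2 h3
  rw [h1, map_one] at h4
  exact lt_irrefl _ h4

lemma val_phi_le (hA : A.LiesOverPrime ℓ) (x : Zl ℓ) : A.valuation (phi ℓ x) ≤ 1 := by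
  have hmul : phi ℓ x * (((x : ℚ).den : ℤ) : Kb) = (((x : ℚ).num : ℤ) : Kb) := by
    have h : (x : ℚ) * (((x : ℚ).den : ℤ) : ℚ) = (((x : ℚ).num : ℤ) : ℚ) := by
      push_cast
      exact Rat.mul_den_eq_num _
    have := congrArg (algebraMap ℚ Kb) h
    rw [map_mul, map_intCast, map_intCast] at this
    exact this
  have h1 := congrArg A.valuation hmul
  rw [map_mul, val_intCast_eq_one hA (LamZ.not_dvd_den ℓ x), mul_one] at h1
  rw [h1]
  exact val_intCast_le _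

lemma val_phi_eq_one (hA : A.LiesOverPrime ℓ) {x : Zl ℓ} (hx : IsUnit x) :
    A.valuation (phi ℓ x) = 1 := by
  obtain ⟨y, hy⟩ := hx.exists_right_inv
  have h1 := congrArg (fun z => A.valuation (phi ℓ z)) hy
  simp only [map_mul, map_one] at h1
  refine le_antisymm (val_phi_le hA x) (not_lt.mp fun hlt => ?_)
  have := mul_lt_one_of_lt_of_le hlt (val_phi_le hA y)
  rw [h1] at this
  exact lt_irrefl _ this

lemma isPrimA_iff {x : LaurentSeries Kb} :
    IsPrimA A x ↔ (∀ n, A.valuation (x.coeff n) ≤ 1) ∧ ∃ n, A.valuation (x.coeff n) = 1 := by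
  constructor
  · rintro ⟨h1, n, hn⟩
    have h1' : ∀ n, A.valuation (x.coeff n) ≤ 1 := fun n => (A.valuation_le_one_iff _).mpr (h1 n)
    exact ⟨h1', n, le_antisymm (h1' n) (not_lt.mp hn)⟩
  · rintro ⟨h1, n, hn⟩
    exact ⟨fun n => (A.valuation_le_one_iff _).mp (h1 n), n, fun h => (ne_of_lt h) hn⟩

/-- the key induction -/
theorem exists_smul_isPrimA (hA : A.LiesOverPrime ℓ) : ∀ (r : ℕ) (c : Fin r → Kb)
    (f : Fin r → LaurentSeries (Zl ℓ)), (∑ i, c i • emb ℓ (f i)) ≠ 0 →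
    ∃ c₀ : Kb, c₀ ≠ 0 ∧ IsPrimA A (c₀ • ∑ i, c i • emb ℓ (f i)) := by
  intro r
  induction r with
  | zero => intro c f h; simp at h
  | succ r ih =>
    intro c f hx
    rw [Fin.sum_univ_castSucc] at hx ⊢
    set cl := c (Fin.last r) with hcl
    set fl := f (Fin.last r) with hfl
    by_cases hf0 : fl = 0
    · rw [hf0, map_zero, smul_zero, add_zero] at hx ⊢
      exact ih _ _ hx
    obtain ⟨a, g, hfg, hg⟩ := exists_pow_mul ℓ fl hf0
    obtain ⟨n, hn⟩ : ∃ n, resl ℓ (g.coeff n) ≠ 0 := by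
      by_contra h
      push Not at h
      exact hg (HahnSeries.ext (funext h))
    have hu : IsUnit (g.coeff n) := isUnit_of_resl_ne_zero ℓ hn
    obtain ⟨υ, hυ⟩ := hu.exists_right_inv
    set G := emb ℓ g with hG
    have hGint : ∀ m, A.valuation (G.coeff m) ≤ 1 := fun m => val_phi_le hA _
    have hGn : A.valuation (G.coeff n) = 1 := val_phi_eq_one hA hu
    -- the modified family
    let f' : Fin r → LaurentSeries (Zl ℓ) := fun i =>
      f i.castSucc - HahnSeries.C ((f i.castSucc).coeff n * υ) * g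
    set x' := ∑ i : Fin r, c i.castSucc • emb ℓ (f' i) with hx'
    set c' : Kb := cl * (ℓ : Kb) ^ a + ∑ i : Fin r, c i.castSucc * phi ℓ ((f i.castSucc).coeff n * υ)
      with hc'
    have hembC : ∀ (t : Zl ℓ) (w : LaurentSeries (Zl ℓ)),
        emb ℓ (HahnSeries.C t * w) = phi ℓ t • emb ℓ w := by
      intro t w
      ext m
      rw [emb_coeff, HahnSeries.C_mul_eq_smul, HahnSeries.coeff_smul, HahnSeries.coeff_smul,
        emb_coeff, smul_eq_mul, smul_eq_mul, map_mul]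
    have hdecomp : (∑ i : Fin r, c i.castSucc • emb ℓ (f i.castSucc)) + cl • emb ℓ fl
        = x' + c' • G := by
      have h1 : emb ℓ fl = ((ℓ : Kb) ^ a) • G := by
        rw [hfg, map_mul, map_pow, map_natCast]
        ext m
        rw [← Nat.cast_pow, LamZ.natCast_mul_coeff, HahnSeries.coeff_smul, smul_eq_mul]
        push_cast
        rfl
      have h2 : ∀ i : Fin r, c i.castSucc • emb ℓ (f i.castSucc) = c i.castSucc • emb ℓ (f' i)
          + (c i.castSucc * phi ℓ ((f i.castSucc).coeff n * υ)) • G := by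
        intro i
        simp only [f', map_sub, hembC, smul_sub, mul_smul]
        abel
      rw [Finset.sum_congr rfl fun i _ => h2 i, Finset.sum_add_distrib, h1, hc', add_smul,
        Finset.sum_smul, mul_smul]
      abel
    have hx'n : x'.coeff n = 0 := by
      rw [hx', HahnSeries.coeff_sum]
      refine Finset.sum_eq_zero fun i _ => ?_
      rw [HahnSeries.coeff_smul, emb_coeff]
      have : (f' i).coeff n = 0 := by
        simp only [f', HahnSeries.coeff_sub, HahnSeries.C_mul_eq_smul, HahnSeries.coeff_smul,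
          smul_eq_mul]
        rw [mul_assoc, mul_comm υ, hυ, mul_one, sub_self]
      rw [this, map_zero, smul_zero]
    rw [hdecomp] at hx ⊢
    by_cases hx'0 : x' = 0
    · rw [hx'0, zero_add] at hx ⊢
      have hc'0 : c' ≠ 0 := by
        rintro h
        rw [h, zero_smul] at hx
        exact hx rfl
      refine ⟨c'⁻¹, inv_ne_zero hc'0, ?_⟩
      rw [smul_smul, inv_mul_cancel₀ hc'0, one_smul]
      exact isPrimA_iff.mpr ⟨hGint, n, hGn⟩
    obtain ⟨c₁, hc₁, hprim⟩ := ih _ _ hx'0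
    rw [← hx'] at hprim
    obtain ⟨hint, n', hn'⟩ := isPrimA_iff.mp hprim
    simp only [HahnSeries.coeff_smul, smul_eq_mul] at hint hn'
    set t := c₁ * c' with ht
    rcases le_or_gt (A.valuation t) 1 with hle | hgt
    · refine ⟨c₁, hc₁, isPrimA_iff.mpr ⟨fun m => ?_, ?_⟩⟩
      · simp only [HahnSeries.coeff_smul, HahnSeries.coeff_add, smul_eq_mul]
        rw [mul_add, ← mul_assoc, ← ht]
        refine (A.valuation.map_add _ _).trans (max_le (hint m) ?_)
        rw [map_mul]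
        exact mul_le_one' hle (hGint m)
      · rcases hle.lt_or_eq with hlt | heq
        · refine ⟨n', ?_⟩
          simp only [HahnSeries.coeff_smul, HahnSeries.coeff_add, smul_eq_mul]
          rw [mul_add, ← mul_assoc, ← ht]
          have h2 : A.valuation (t * G.coeff n') < A.valuation (c₁ * x'.coeff n') := by
            rw [hn', map_mul]
            exact mul_lt_one_of_lt_of_le hlt (hGint n')
          rw [A.valuation.map_add_eq_of_lt_left h2, hn']
        · refine ⟨n, ?_⟩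
          simp only [HahnSeries.coeff_smul, HahnSeries.coeff_add, smul_eq_mul]
          rw [hx'n, zero_add, ← mul_assoc, ← ht, map_mul, heq, hGn, one_mul]
    · have ht0 : t ≠ 0 := by
        rintro h
        rw [h, map_zero] at hgt
        exact not_lt_zero hgt
      have hc'0 : c' ≠ 0 := right_ne_zero_of_mul ht0
      have htinv : A.valuation t⁻¹ < 1 := by
        rw [map_inv₀]
        exact inv_lt_one_of_one_lt₀ hgt
      have hrew : ∀ m, c'⁻¹ * x'.coeff m = t⁻¹ * (c₁ * x'.coeff m) := by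
        intro m
        rw [ht]
        field_simp
      refine ⟨c'⁻¹, inv_ne_zero hc'0, isPrimA_iff.mpr ⟨fun m => ?_, n, ?_⟩⟩
      · simp only [HahnSeries.coeff_smul, HahnSeries.coeff_add, smul_eq_mul]
        rw [mul_add, ← mul_assoc, inv_mul_cancel₀ hc'0, one_mul, hrew]
        refine (A.valuation.map_add _ _).trans (max_le ?_ (hGint m))
        rw [map_mul]
        exact mul_le_one' htinv.le (hint m)
      · simp only [HahnSeries.coeff_smul, HahnSeries.coeff_add, smul_eq_mul]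
        rw [hx'n, zero_add, ← mul_assoc, inv_mul_cancel₀ hc'0, one_mul, hGn]

end val

/-- the two scalar multiplications on `ℚ̄((q))` agree -/
lemma algebraMap_mul_eq_smul (c : Kb) (x : LaurentSeries Kb) :
    algebraMap Kb (LaurentSeries Kb) c * x = c • x := by
  rw [LaurentSeries.algebraMap_apply, HahnSeries.C_mul_eq_smul]

/-- the `ℚ̄`-algebra generated by the `ℓ`-integral rational series -/
def W : Subalgebra Kb (LaurentSeries Kb) := Algebra.adjoin Kb (Set.range (emb ℓ))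

lemma exists_rep {x : LaurentSeries Kb} (hx : x ∈ W ℓ) :
    ∃ (r : ℕ) (c : Fin r → Kb) (f : Fin r → LaurentSeries (Zl ℓ)),
      x = ∑ i, c i • emb ℓ (f i) := by
  have h1 : x ∈ Subalgebra.toSubmodule (W ℓ) := hx
  rw [W, Algebra.adjoin_eq_span] at h1
  have h2 : Submonoid.closure (Set.range (emb ℓ)) = (emb ℓ).range.toSubmonoid := by
    have : Set.range (emb ℓ) = ((emb ℓ).range.toSubmonoid : Set (LaurentSeries Kb)) := rfl
    rw [this, Submonoid.closure_eq]
  rw [h2] at h1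
  obtain ⟨r, c, g, hg⟩ := (@Submodule.mem_span_set' Kb (LaurentSeries Kb) _ _ Algebra.toModule
    x _).mp h1
  have hg' : ∀ i, ∃ w, emb ℓ w = (g i : LaurentSeries Kb) := fun i => (g i).2
  choose f hf using hg'
  refine ⟨r, c, f, ?_⟩
  rw [← hg]
  refine Finset.sum_congr rfl fun i _ => ?_
  rw [hf, Algebra.smul_def, algebraMap_mul_eq_smul]

variable {ℓ} in
lemma exists_smul_isPrimA_of_mem {A : ValuationSubring Kb} (hA : A.LiesOverPrime ℓ)
    {x : LaurentSeries Kb} (hx : x ∈ W ℓ) (h0 : x ≠ 0) : ∃ c₀ : Kb, c₀ ≠ 0 ∧ IsPrimA A (c₀ • x) := by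
  obtain ⟨r, c, f, rfl⟩ := exists_rep ℓ hx
  exact exists_smul_isPrimA hA r c f h0

/-- every modular function is a quotient of two elements of `W` -/
theorem exists_quot (N : ℕ) (x : FF N) :
    ∃ P Q : FF N, Q ≠ 0 ∧ (P : LaurentSeries Kb) ∈ W ℓ ∧ (Q : LaurentSeries Kb) ∈ W ℓ ∧
      x * Q = P := by
  induction x using FF_induction with
  | hc a =>
    exact ⟨algebraMap Kb (FF N) a, 1, one_ne_zero, (W ℓ).algebraMap_mem a, (W ℓ).one_mem,
      mul_one _⟩
  | hj d hd =>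
    refine ⟨jd N d hd, 1, one_ne_zero, ?_, (W ℓ).one_mem, mul_one _⟩
    apply Algebra.subset_adjoin
    refine ⟨jqNModC (Zl ℓ) d, ?_⟩
    show coeffMap (phi ℓ) (jqNModC (Zl ℓ) d) = jdL d
    rw [coeffMap_jqNModC, jdL_eq]
  | hadd x y hx hy =>
    obtain ⟨P, Q, hQ, hP1, hQ1, h⟩ := hx
    obtain ⟨P', Q', hQ', hP1', hQ1', h'⟩ := hy
    refine ⟨P * Q' + P' * Q, Q * Q', mul_ne_zero hQ hQ',
      (W ℓ).add_mem ((W ℓ).mul_mem hP1 hQ1') ((W ℓ).mul_mem hP1' hQ1), (W ℓ).mul_mem hQ1 hQ1', ?_⟩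
    rw [← h, ← h']
    ring
  | hneg x hx =>
    obtain ⟨P, Q, hQ, hP1, hQ1, h⟩ := hx
    exact ⟨-P, Q, hQ, (W ℓ).neg_mem hP1, hQ1, by rw [← h]; ring⟩
  | hmul x y hx hy =>
    obtain ⟨P, Q, hQ, hP1, hQ1, h⟩ := hx
    obtain ⟨P', Q', hQ', hP1', hQ1', h'⟩ := hy
    refine ⟨P * P', Q * Q', mul_ne_zero hQ hQ', (W ℓ).mul_mem hP1 hP1', (W ℓ).mul_mem hQ1 hQ1', ?_⟩
    rw [← h, ← h']
    ring
  | hinv x hx =>
    obtain ⟨P, Q, hQ, hP1, hQ1, h⟩ := hx
    by_cases hx0 : x = 0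
    · exact ⟨0, 1, one_ne_zero, (W ℓ).zero_mem, (W ℓ).one_mem, by rw [hx0]; simp⟩
    · refine ⟨Q, P, ?_, hQ1, hP1, ?_⟩
      · rw [← h]
        exact mul_ne_zero hx0 hQ
      · rw [← h, ← mul_assoc, inv_mul_cancel₀ hx0, one_mul]

end KGauss

/-- **K-GAUSS**: every function is a constant times a quotient of primitive ones. -/
theorem exists_prim (N ℓ : ℕ) [Fact ℓ.Prime] (A : ValuationSubring Kb) (hA : A.LiesOverPrime ℓ)
    (u : FF N) (hu : u ≠ 0) :
    ∃ (e : Kb) (P Q : FF N), e ≠ 0 ∧ IsPrimA A (P : LaurentSeries Kb) ∧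
      IsPrimA A (Q : LaurentSeries Kb) ∧ u * Q = algebraMap Kb (FF N) e * P := by
  obtain ⟨P, Q, hQ, hP1, hQ1, h⟩ := KGauss.exists_quot ℓ N u
  have hP : P ≠ 0 := by
    rw [← h]
    exact mul_ne_zero hu hQ
  have hP' : (P : LaurentSeries Kb) ≠ 0 := fun h0 => hP (Subtype.ext h0)
  have hQ' : (Q : LaurentSeries Kb) ≠ 0 := fun h0 => hQ (Subtype.ext h0)
  obtain ⟨c₁, hc₁, hp₁⟩ := KGauss.exists_smul_isPrimA_of_mem hA hP1 hP'
  obtain ⟨c₂, hc₂, hp₂⟩ := KGauss.exists_smul_isPrimA_of_mem hA hQ1 hQ'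
  have hcoe : ∀ (c : Kb) (y : FF N), ((algebraMap Kb (FF N) c * y : FF N) : LaurentSeries Kb)
      = c • (y : LaurentSeries Kb) := fun c y => KGauss.algebraMap_mul_eq_smul c _
  refine ⟨c₂ / c₁, algebraMap Kb (FF N) c₁ * P, algebraMap Kb (FF N) c₂ * Q,
    div_ne_zero hc₂ hc₁, by rw [hcoe]; exact hp₁, by rw [hcoe]; exact hp₂, ?_⟩
  rw [mul_left_comm, h, ← mul_assoc, ← map_mul, div_mul_cancel₀ _ hc₁]

end Fermat.Agent.ES
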