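import Fermat.Agent.ES.KDeg
import Fermat.Agent.S24.Cusp
import Fermat.Agent.S28.Ord
import Fermat.Prelude.Thm_ModularCurve_coeffMap_qExpand

/-!
# ES, block KRON, package K-QEXP : the formal product formula for the multiplicative Hecke operator
-/

set_option autoImplicit false

namespace Fermat.Agent.ES

open ModularCurve AlgebraicCurve Fermat.Agent.S24 UpperHalfPlane
open P2MW.S_ModularForm_heckeT_slash_eq_self_of_mem_Gamma0.ModularForm.HeckeSlashInvariance
open scoped MatrixGroups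

namespace KQExp

/-- `F ↦ F((aτ+b)/d)` on fraction fields. -/
noncomputable def utFrac (a b d : ℤ) (ha : 0 < a) (hd : 0 < d) (h : ℕ) (hdvd : d ∣ a * h) :
    FractionRing (nice 1) →+* FractionRing (nice h) :=
  IsFractionRing.lift (g := (algebraMap (nice h) (FractionRing (nice h))).comp
      (utNice a b d ha hd h hdvd).toRingHom)
    ((IsFractionRing.injective (nice h) (FractionRing (nice h))).comp
      (utNice_injective a b d ha hd h hdvd))

lemma utFrac_algebraMap (a b d : ℤ) (ha : 0 < a) (hd : 0 < d) (h : ℕ) (hdvd : d ∣ a * h)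
    (F : nice 1) :
    utFrac a b d ha hd h hdvd (algebraMap (nice 1) (FractionRing (nice 1)) F)
      = algebraMap (nice h) (FractionRing (nice h)) (utNice a b d ha hd h hdvd F) :=
  IsFractionRing.lift_algebraMap _ _

lemma frac_ext {E : Type*} [Field E] {φ ψ : FractionRing (nice 1) →+* E}
    (h : ∀ F : nice 1, φ (algebraMap (nice 1) (FractionRing (nice 1)) F)
      = ψ (algebraMap (nice 1) (FractionRing (nice 1)) F)) : φ = ψ :=
  IsLocalization.ringHom_ext (nonZeroDivisors (nice 1)) (RingHom.ext h)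

lemma niceToMer_utFrac (a b d : ℤ) (ha : 0 < a) (hd : 0 < d) (h : ℕ) (hdvd : d ∣ a * h)
    (x : FractionRing (nice 1)) :
    niceToMer h (utFrac a b d ha hd h hdvd x)
      = merMap (utZ a b d ha hd) (det_utZ_pos a b d ha hd) (niceToMer 1 x) := by
  have : (niceToMer h).comp (utFrac a b d ha hd h hdvd)
      = (merMap (utZ a b d ha hd) (det_utZ_pos a b d ha hd)).comp (niceToMer 1) := by
    apply frac_ext
    intro F
    simp only [RingHom.comp_apply]
    rw [utFrac_algebraMap, niceToMer_algebraMap, niceToMer_algebraMap, merMap_toMer]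
    rfl
  exact congrArg (fun φ => φ x) this

/-- `exp (2πi b / d)` as a unit. -/
noncomputable def om (b d : ℤ) : ℂˣ :=
  Units.mk0 (Complex.exp (2 * Real.pi * Complex.I * b / d)) (Complex.exp_ne_zero _)

lemma niceToLaurent_utFrac (a b d : ℤ) (ha : 0 < a) (hd : 0 < d) (h : ℕ) [NeZero h] (k : ℕ)
    [NeZero k] (hk : a * h = d * k) (x : FractionRing (nice 1)) :
    niceToLaurent h (utFrac a b d ha hd h ⟨k, hk⟩ x)
      = qExpand ℂ k (S28.twist (om b d) (niceToLaurent 1 x)) := by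
  have : (niceToLaurent h).comp (utFrac a b d ha hd h ⟨k, hk⟩)
      = ((qExpand ℂ k).comp (S28.twist (om b d))).comp (niceToLaurent 1) := by
    apply frac_ext
    intro F
    simp only [RingHom.comp_apply]
    rw [utFrac_algebraMap, niceToLaurent_algebraMap, niceToLaurent_algebraMap]
    ext n
    by_cases hn : (k : ℤ) ∣ n
    · obtain ⟨m, rfl⟩ := hn
      rw [qExpand_coeff_mul, S28.twist_coeff]
      change ((qHom h (utNice a b d ha hd h ⟨k, hk⟩ F) : PowerSeries ℂ) : LaurentSeries ℂ).coeff _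
        = _ * ((qHom 1 F : PowerSeries ℂ) : LaurentSeries ℂ).coeff m
      rw [PowerSeries.coeff_coe, PowerSeries.coeff_coe]
      have hk0 : (0 : ℤ) < k := by exact_mod_cast Nat.pos_of_ne_zero (NeZero.ne k)
      by_cases hm : m < 0
      · rw [if_pos hm, if_pos (mul_neg_of_pos_of_neg hk0 hm), mul_zero]
      · rw [if_neg hm, if_neg (by push Not at hm ⊢; positivity)]
        obtain ⟨m', rfl⟩ := Int.eq_ofNat_of_zero_le (not_lt.1 hm)
        have e : ((k : ℤ) * (m' : ℤ)).natAbs = k * m' := by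
          rw [← Nat.cast_mul, Int.natAbs_natCast]
        rw [e, Int.natAbs_natCast, qHom_utNice_coeff a b d ha hd h k hk F, if_pos (dvd_mul_right _ _),
          Nat.mul_div_cancel_left _ (Nat.pos_of_ne_zero (NeZero.ne k)), mul_comm, zpow_natCast,
          Units.val_pow_eq_pow_val]
        rfl
    · rw [qExpand_coeff_of_not_dvd k _ hn]
      change ((qHom h (utNice a b d ha hd h ⟨k, hk⟩ F) : PowerSeries ℂ) : LaurentSeries ℂ).coeff _
        = 0
      rw [PowerSeries.coeff_coe]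
      split_ifs with hn0
      · rfl
      · obtain ⟨n', rfl⟩ := Int.eq_ofNat_of_zero_le (not_lt.1 hn0)
        rw [Int.natAbs_natCast, qHom_utNice_coeff a b d ha hd h k hk F, if_neg]
        intro hdv
        exact hn (by exact_mod_cast hdv)
  exact congrArg (fun φ => φ x) this

lemma merMap_congr {g g' : GL (Fin 2) ℝ} (h : g = g') (hg : 0 < g.det.val) (hg' : 0 < g'.det.val) :
    merMap g hg = merMap g' hg' := by
  subst h
  rfl

lemma merMap_one (h1 : 0 < (1 : GL (Fin 2) ℝ).det.val) : merMap 1 h1 = RingHom.id Mer := by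
  apply Mer_ringHom_ext
  intro F
  rw [merMap_toMer, RingHom.id_apply]
  congr 1
  apply Subtype.ext
  funext τ
  simp

lemma utZ_one : utZ 1 0 1 one_pos one_pos = 1 := by
  apply Units.ext
  ext i j
  fin_cases i <;> fin_cases j <;> simp [utZ, ModularForm.upperTriangularGL]

lemma heckeDiag_eq (ℓ : ℕ) (hℓ : 0 < (ℓ : ℤ)) :
    ModularForm.heckeDiagMatrix ℓ = utZ ℓ 0 1 hℓ one_pos := by
  have h0 : ℓ ≠ 0 := by rintro rfl; simp at hℓ
  apply Units.ext
  rw [ModularForm.val_heckeDiagMatrix h0]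
  ext i j
  fin_cases i <;> fin_cases j <;> simp [utZ, ModularForm.upperTriangularGL]

lemma heckeMatrix_eq (ℓ b : ℕ) (hℓ : 0 < (ℓ : ℤ)) :
    ModularForm.heckeMatrix ℓ b = utZ 1 b ℓ one_pos hℓ := by
  have h0 : ℓ ≠ 0 := by rintro rfl; simp at hℓ
  apply Units.ext
  rw [ModularForm.val_heckeMatrix h0]
  ext i j
  fin_cases i <;> fin_cases j <;> simp [utZ, ModularForm.upperTriangularGL]

lemma prod_zmod {M : Type*} [CommMonoid M] (ℓ : ℕ) [NeZero ℓ] (g : ℕ → M) :
    ∏ j : ZMod ℓ, g j.val = ∏ b ∈ Finset.range ℓ, g b := by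
  obtain ⟨n, rfl⟩ := Nat.exists_eq_succ_of_ne_zero (NeZero.ne ℓ)
  exact Fin.prod_univ_eq_prod_range g (n + 1)

lemma om_zero (d : ℤ) : om 0 d = 1 := by
  apply Units.ext
  simp [om]

lemma om_natCast (b : ℕ) (d : ℤ) : om b d = om 1 d ^ b := by
  apply Units.ext
  rw [Units.val_pow_eq_pow_val]
  simp only [om, Units.val_mk0]
  rw [← Complex.exp_nat_mul]
  congr 1
  push_cast
  ring

lemma om_pow (ℓ : ℕ) [NeZero ℓ] : om 1 ℓ ^ ℓ = 1 := by
  rw [← om_natCast]
  apply Units.ext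
  simp only [om, Units.val_mk0, Units.val_one]
  have : (ℓ : ℂ) ≠ 0 := by exact_mod_cast NeZero.ne ℓ
  rw [show (2 * Real.pi * Complex.I * ((ℓ : ℕ) : ℤ) / ((ℓ : ℕ) : ℤ) : ℂ) = 2 * Real.pi * Complex.I by
    push_cast; field_simp]
  exact Complex.exp_two_pi_mul_I

/-- a root of unity of `ℚ̄` mapping to `exp (2πi/ℓ)`. -/
lemma exists_zeta (ℓ : ℕ) [NeZero ℓ] :
    ∃ ζ : Kbˣ, ζ ^ ℓ = 1 ∧ Units.map (iotaC : Kb →* ℂ) ζ = om 1 ℓ := by
  obtain ⟨ζ, hζ⟩ := HasEnoughRootsOfUnity.exists_primitiveRoot Kb ℓ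
  have h1 : IsPrimitiveRoot (iotaC ζ) ℓ := hζ.map_of_injective iotaC.injective
  have h2 : ((om 1 ℓ : ℂˣ) : ℂ) ^ ℓ = 1 := by
    rw [← Units.val_pow_eq_pow_val, om_pow, Units.val_one]
  obtain ⟨i, -, hi⟩ := h1.eq_pow_of_pow_eq_one h2
  refine ⟨(hζ.isUnit (NeZero.ne ℓ)).unit ^ i, ?_, ?_⟩
  · apply Units.ext
    simp only [Units.val_pow_eq_pow_val, IsUnit.unit_spec, Units.val_one]
    rw [← pow_mul, mul_comm, pow_mul, hζ.pow_eq_one, one_pow]
  · apply Units.ext
    rw [← hi]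
    simp

/-- The product formula over `ℂ`, in the variable `t = q^(1/ℓ)`. -/
theorem formula_C (N ℓ : ℕ) [NeZero N] [Fact ℓ.Prime] (u : FF N)
    (hPsi : Psi N (heckeMul N ℓ u)
      = ∏ x : OnePoint (ZMod ℓ), merMap (heckeRep ℓ x) (heckeRep_det_pos ℓ x) (Psi N u)) :
    qExpand ℂ ℓ (iotaL N (heckeMul N ℓ u))
      = qExpand ℂ (ℓ ^ 2) (iotaL N u)
        * ∏ b ∈ Finset.range ℓ, S28.twist (om 1 ℓ ^ b) (iotaL N u) := by
  have hℓ : 0 < (ℓ : ℤ) := by exact_mod_cast (Fact.out : ℓ.Prime).pos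
  have k1 : (1 : ℤ) * (ℓ : ℕ) = 1 * (ℓ : ℕ) := rfl
  have k2 : (ℓ : ℤ) * (ℓ : ℕ) = 1 * ((ℓ ^ 2 : ℕ) : ℤ) := by push_cast; ring
  have k3 : (1 : ℤ) * (ℓ : ℕ) = (ℓ : ℤ) * ((1 : ℕ) : ℤ) := by push_cast; ring
  have key : utFrac 1 0 1 one_pos one_pos ℓ ⟨_, k1⟩ (Psi1 N (heckeMul N ℓ u))
      = utFrac ℓ 0 1 hℓ one_pos ℓ ⟨_, k2⟩ (Psi1 N u)
        * ∏ b ∈ Finset.range ℓ, utFrac 1 b ℓ one_pos hℓ ℓ ⟨_, k3⟩ (Psi1 N u) := by
    apply (niceToMer ℓ).injective
    rw [map_mul, map_prod, niceToMer_utFrac, niceToMer_utFrac, ← Psi_apply, ← Psi_apply,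
      merMap_congr utZ_one _ (by simp), merMap_one, RingHom.id_apply, hPsi]
    have : ∀ f : OnePoint (ZMod ℓ) → Mer, ∏ x, f x = f OnePoint.infty * ∏ j : ZMod ℓ, f j :=
      fun f => Fintype.prod_option f
    rw [this]
    congr 1
    · exact congrArg (fun φ => φ (Psi N u)) (merMap_congr (heckeDiag_eq ℓ hℓ) _ _)
    · rw [← prod_zmod ℓ (fun b => niceToMer ℓ (utFrac 1 b ℓ one_pos hℓ ℓ ⟨_, k3⟩ (Psi1 N u)))]
      refine Finset.prod_congr rfl fun j _ => ?_
      rw [niceToMer_utFrac, ← Psi_apply]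
      exact congrArg (fun φ => φ (Psi N u)) (merMap_congr (heckeMatrix_eq ℓ j.val hℓ) _ _)
  have := congrArg (niceToLaurent ℓ) key
  rw [map_mul, map_prod, niceToLaurent_utFrac 1 0 1 one_pos one_pos ℓ ℓ k1,
    niceToLaurent_utFrac ℓ 0 1 hℓ one_pos ℓ (ℓ ^ 2) k2, om_zero, S28.Ord.twist_one,
    S28.Ord.twist_one, niceToLaurent_Psi1, niceToLaurent_Psi1] at this
  rw [this]
  congr 1
  refine Finset.prod_congr rfl fun b _ => ?_
  rw [niceToLaurent_utFrac 1 b ℓ one_pos hℓ ℓ 1 k3, qExpand_one_apply, niceToLaurent_Psi1,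
    om_natCast]

end KQExp

/-- **K-QEXP** (existential form, sufficient for `K-MAIN`), with the analytic product formula
`Psi_heckeMul` (package K-EMB) as a hypothesis. -/
theorem exists_qExpand_heckeMul_of (N ℓ : ℕ) [NeZero N] [Fact ℓ.Prime]
    (hPsi : ∀ u : FF N, Psi N (heckeMul N ℓ u)
      = ∏ x : OnePoint (ZMod ℓ), merMap (heckeRep ℓ x) (heckeRep_det_pos ℓ x) (Psi N u)) :
    ∃ ζ : Kbˣ, ζ ^ ℓ = 1 ∧ ∀ u : FF N,
      qExpand Kb ℓ ((heckeMul N ℓ u : FF N) : LaurentSeries Kb)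
        = qExpand Kb (ℓ ^ 2) (u : LaurentSeries Kb)
          * ∏ b ∈ Finset.range ℓ, S28.twist (ζ ^ b) (u : LaurentSeries Kb) := by
  obtain ⟨ζ, hζ, hζ'⟩ := KQExp.exists_zeta ℓ
  refine ⟨ζ, hζ, fun u => ?_⟩
  have hinj : Function.Injective (coeffMap iotaC) := by
    intro x y hxy
    ext n
    have := congrArg (fun s => s.coeff n) hxy
    simp only [coeffMap_coeff] at this
    exact iotaC.injective this
  apply hinj
  rw [coeffMap_qExpand, map_mul, coeffMap_qExpand, map_prod]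
  have := KQExp.formula_C N ℓ u (hPsi u)
  rw [iotaL_apply, iotaL_apply] at this
  rw [this]
  congr 1
  refine Finset.prod_congr rfl fun b _ => ?_
  rw [S28.Ord.coeffMap_twist, map_pow, hζ']

end Fermat.Agent.ES
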