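import Fermat.Agent.ES.KInt
import Fermat.Agent.ES.KCong
import Fermat.Agent.ES.KGauss
import Fermat.Agent.ES.KQExp
import Fermat.Agent.ES.KDiv
import Fermat.Agent.ES.KGal
import Fermat.Agent.ES.KEmb

/-!
# ES, block KRON : assembly
-/

set_option autoImplicit false

namespace Fermat.Agent.ES

open ModularCurve AlgebraicCurve Fermat.Agent.S24

theorem galV_comm_heckeV (p N ℓ : ℕ) [NeZero N] [NeZero ℓ] (σ : GQ) :
    galV p N σ * heckeV p N ℓ = heckeV p N ℓ * galV p N σ := by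
  ext x
  obtain ⟨u, rfl⟩ := KV.mk_surjective x
  rw [Module.End.mul_apply, Module.End.mul_apply, heckeV_mk p N ℓ (heckeU_mem p N ℓ), galV_mk,
    galV_mk, heckeV_mk p N ℓ (heckeU_mem p N ℓ)]
  congr 1
  apply Subtype.ext
  apply Units.ext
  exact gal_heckeMul N ℓ σ _

theorem galV_smooth (p N : ℕ) (x : KV p N) :
    ∃ L : IntermediateField ℚ Kb, FiniteDimensional ℚ L ∧
      ∀ σ : GQ, (∀ a ∈ L, σ a = a) → galV p N σ x = x := by
  obtain ⟨u, rfl⟩ := KV.mk_surjective x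
  obtain ⟨L, hL, h⟩ := exists_finite_fixing N ((u : (FF N)ˣ) : FF N)
  refine ⟨L, hL, fun σ hσ => ?_⟩
  rw [galV_mk]
  congr 1
  apply Subtype.ext
  apply Units.ext
  exact h σ hσ

namespace KMain

lemma map_ne_zero' {N : ℕ} (f : FF N →* FF N) {x : FF N} (hx : x ≠ 0) : f x ≠ 0 := by
  intro h
  have : f x * f x⁻¹ = 1 := by rw [← map_mul, mul_inv_cancel₀ hx, map_one]
  rw [h, zero_mul] at this
  exact zero_ne_one this

lemma IsPrimA.ne_zero {A : ValuationSubring Kb} {x : LaurentSeries Kb} (hx : IsPrimA A x) :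
    x ≠ 0 := by
  rintro rfl
  obtain ⟨n, hn⟩ := hx.2
  apply hn
  rw [HahnSeries.coeff_zero]
  exact (ValuationSubring.mem_nonunits_iff A).2 (by simp)

/-- The key consequence of `INJ`: two multiplicative operators which are congruent on primitive
functions induce the same map on the Kummer group. -/
theorem mk_eq_of_cong (p N ℓ : ℕ) [NeZero p] [Fact ℓ.Prime] (A : ValuationSubring Kb)
    (hA : A.LiesOverPrime ℓ) (hINJ : INJ p N A) (f g : FF N →* FF N)
    (hfg : ∀ P : FF N, IsPrimA A (P : LaurentSeries Kb) →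
      IsPrimA A (g P : LaurentSeries Kb) ∧ CongA A (f P : LaurentSeries Kb) (g P : LaurentSeries Kb))
    (u : pdivUnits p N) (hf : Units.map f (u : (FF N)ˣ) ∈ pdivUnits p N)
    (hg : Units.map g (u : (FF N)ˣ) ∈ pdivUnits p N) :
    KV.mk (⟨Units.map f u, hf⟩ : pdivUnits p N) = KV.mk ⟨Units.map g u, hg⟩ := by
  have hp : 0 < p := Nat.pos_of_ne_zero (NeZero.ne p)
  set u0 : FF N := ((u : (FF N)ˣ) : FF N) with hu0
  have hu0ne : u0 ≠ 0 := (u : (FF N)ˣ).ne_zero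
  obtain ⟨e, P, Q, he, hP, hQ, hrel⟩ := exists_prim N ℓ A hA u0 hu0ne
  obtain ⟨e0, he0⟩ := IsAlgClosed.exists_pow_nat_eq e hp
  have he0ne : e0 ≠ 0 := by
    rintro rfl
    rw [zero_pow hp.ne'] at he0
    exact he he0.symm
  set a : FF N := algebraMap Kb (FF N) e0 with ha
  have hane : a ≠ 0 := by
    rw [ha]
    exact (map_ne_zero _).2 he0ne
  have hrel' : u0 * Q = a ^ p * P := by rw [hrel, ha, ← map_pow, he0]
  have hPne : P ≠ 0 := fun h => IsPrimA.ne_zero hP (by rw [h]; rfl)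
  have hQne : Q ≠ 0 := fun h => IsPrimA.ne_zero hQ (by rw [h]; rfl)
  have hfrel : f u0 * f Q = f a ^ p * f P := by rw [← map_mul, hrel', map_mul, map_pow]
  have hgrel : g u0 * g Q = g a ^ p * g P := by rw [← map_mul, hrel', map_mul, map_pow]
  obtain ⟨hgP, hcP⟩ := hfg P hP
  obtain ⟨hgQ, hcQ⟩ := hfg Q hQ
  have hfP : IsPrimA A (f P : LaurentSeries Kb) := CongA.isPrimA hcP hgP
  have hfQ : IsPrimA A (f Q : LaurentSeries Kb) := CongA.isPrimA hcQ hgQ
  have n1 := map_ne_zero' f hu0ne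
  have n2 := map_ne_zero' g hu0ne
  have n3 := map_ne_zero' f hPne
  have n4 := map_ne_zero' g hPne
  have n5 := map_ne_zero' f hQne
  have n6 := map_ne_zero' g hQne
  have n7 := map_ne_zero' f hane
  have n8 := map_ne_zero' g hane
  set w : FF N := (f P * g Q) / (f Q * g P) with hw
  have hwne : w ≠ 0 := div_ne_zero (mul_ne_zero n3 n6) (mul_ne_zero n5 n4)
  have hkey : f u0 = g u0 * ((f a / g a) ^ p * w) := by
    have h1 : f u0 = f a ^ p * f P / f Q := by rw [eq_div_iff n5]; exact hfrel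
    have h2 : g u0 = g a ^ p * g P / g Q := by rw [eq_div_iff n6]; exact hgrel
    rw [h1, h2, hw, div_pow]
    field_simp
  have hwdiv : IsPDiv p N w := by
    refine ⟨hwne, fun v => ?_⟩
    have h1 : (p : ℤ) ∣ v.ord (f u0) := hf v
    have h2 : (p : ℤ) ∣ v.ord (g u0) := hg v
    rw [hkey, Place.ord_mul v n2 (mul_ne_zero (pow_ne_zero _ (div_ne_zero n7 n8)) hwne),
      Place.ord_mul v (pow_ne_zero _ (div_ne_zero n7 n8)) hwne, ← zpow_natCast, Place.ord_zpow] at h1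
    have h3 : (p : ℤ) ∣ (p : ℤ) * v.ord (f a / g a) := dvd_mul_right _ _
    have := (Int.dvd_add_right h3).1 ((Int.dvd_add_right h2).1 h1)
    exact this
  have hgauss : GaussOne A N w := by
    refine ⟨f P * g Q, f Q * g P, IsPrimA.mul hfQ hgP, IsIntA.mul hfP.1 hgQ.1, ?_, ?_⟩
    · have := CongA.mul hfP.1 hfQ.1 hcP (CongA.symm hcQ)
      rw [mul_comm (g P : LaurentSeries Kb)] at this
      exact this
    · rw [hw]
      field_simp
  obtain ⟨z, hz⟩ := hINJ w hwdiv hgauss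
  have hzne : z ≠ 0 := by
    rintro rfl
    rw [zero_pow hp.ne'] at hz
    exact hwne hz
  rw [KV.mk_eq_iff]
  refine ⟨Units.mk0 (f a / g a * z) (mul_ne_zero (div_ne_zero n7 n8) hzne), ?_⟩
  apply Units.ext
  change f u0 = g u0 * (f a / g a * z) ^ p
  rw [hkey, hz, mul_pow]

/-- `x ↦ σ x * (σ⁻¹ x) ^ ℓ`. -/
noncomputable def frobHom (N ℓ : ℕ) (σ : GQ) : FF N →* FF N where
  toFun x := gal N σ x * (gal N σ⁻¹ x) ^ ℓ
  map_one' := by simp
  map_mul' x y := by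
    rw [map_mul, map_mul, mul_pow]
    ring

end KMain

theorem galV_inertia (p N ℓ : ℕ) [NeZero p] [Fact ℓ.Prime] (A : ValuationSubring Kb)
    (hA : A.LiesOverPrime ℓ) (hINJ : INJ p N A) (τ : GQ) (hτ : τ ∈ A.inertiaSubgroupIn ℚ) :
    galV p N τ = 1 := by
  ext x
  obtain ⟨u, rfl⟩ := KV.mk_surjective x
  rw [galV_mk, Module.End.one_apply]
  have hdec : τ ∈ A.decompositionSubgroup ℚ := by
    obtain ⟨t, -, rfl⟩ := hτ
    exact t.2
  have := KMain.mk_eq_of_cong p N ℓ A hA hINJ ((gal N τ : FF N ≃+* FF N) : FF N →* FF N)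
    (MonoidHom.id _) (fun P hP => ⟨hP, congA_coeffMap_of_mem_inertia hτ hP.1⟩) u
    (galU_mem p N τ u u.2) (by simp)
  rw [show (⟨galU N τ u, galU_mem p N τ u u.2⟩ : pdivUnits p N)
    = ⟨Units.map ((gal N τ : FF N ≃+* FF N) : FF N →* FF N) u, galU_mem p N τ u u.2⟩ from rfl, this]
  congr 1

theorem heckeV_galV (p N ℓ : ℕ) [NeZero p] [NeZero N] [Fact ℓ.Prime] (hℓN : ¬ ℓ ∣ N)
    (A : ValuationSubring Kb) (hA : A.LiesOverPrime ℓ) (hINJ : INJ p N A) (σ : GQ)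
    (hσ : A.IsFrobeniusAt σ ℓ) (x : KV p N) :
    heckeV p N ℓ x = galV p N σ x + ℓ • galV p N σ⁻¹ x := by
  obtain ⟨u, rfl⟩ := KV.mk_surjective x
  have hdec : σ ∈ A.decompositionSubgroup ℚ := hσ.mem_decompositionSubgroup
  have hdec' : σ⁻¹ ∈ A.decompositionSubgroup ℚ := inv_mem hdec
  obtain ⟨ζ, hζ, hform⟩ := exists_qExpand_heckeMul_of N ℓ (Psi_heckeMul N ℓ hℓN)
  have e : ∀ hg, (⟨Units.map (KMain.frobHom N ℓ σ) (u : (FF N)ˣ), hg⟩ : pdivUnits p N)
      = ⟨galU N σ u, galU_mem p N σ u u.2⟩ * ⟨galU N σ⁻¹ u, galU_mem p N σ⁻¹ u u.2⟩ ^ ℓ := by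
    intro hg
    apply Subtype.ext
    apply Units.ext
    rfl
  have hg : Units.map (KMain.frobHom N ℓ σ) (u : (FF N)ˣ) ∈ pdivUnits p N := by
    have : Units.map (KMain.frobHom N ℓ σ) (u : (FF N)ˣ)
        = galU N σ u * (galU N σ⁻¹ u) ^ ℓ := by
      apply Units.ext
      rfl
    rw [this]
    exact mul_mem (galU_mem p N σ u u.2) (pow_mem (galU_mem p N σ⁻¹ u u.2) ℓ)
  have := KMain.mk_eq_of_cong p N ℓ A hA hINJ (heckeMul N ℓ) (KMain.frobHom N ℓ σ)
    (fun P hP => ⟨IsPrimA.mul (IsPrimA.coeffMap hdec hP) (IsPrimA.pow (IsPrimA.coeffMap hdec' hP) ℓ),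
      (cong_formal ℓ A hA σ hσ ζ hζ _ _ hP.1 (hform P)).2⟩)
    u (heckeU_mem p N ℓ u u.2) hg
  rw [heckeV_mk p N ℓ (heckeU_mem p N ℓ), galV_mk, galV_mk, ← KV.mk_pow, ← KV.mk_mul, ← e hg]
  exact this

theorem eichler_shimura (p N ℓ : ℕ) [NeZero p] [NeZero N] [Fact ℓ.Prime] (hℓN : ¬ ℓ ∣ N)
    (A : ValuationSubring Kb) (hA : A.LiesOverPrime ℓ) (hINJ : INJ p N A) (σ : GQ)
    (hσ : A.IsFrobeniusAt σ ℓ) :
    galV p N σ * galV p N σ - heckeV p N ℓ * galV p N σ + (ℓ : Module.End (ZMod p) (KV p N)) = 0 := by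
  ext x
  have h := heckeV_galV p N ℓ hℓN A hA hINJ σ hσ (galV p N σ x)
  have h2 : galV p N σ⁻¹ (galV p N σ x) = x := by
    rw [← Module.End.mul_apply, ← map_mul, inv_mul_cancel, map_one, Module.End.one_apply]
  rw [h2] at h
  simp only [LinearMap.add_apply, LinearMap.sub_apply, Module.End.mul_apply, LinearMap.zero_apply,
    Module.End.natCast_apply, h]
  abel

end Fermat.Agent.ES
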