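import Fermat.Agent.ES.EDefs
import Fermat.Agent.ES.KMain

/-!
# ES, block END, package E-SPAN : the Galois span of a Hecke eigenvector in `k ⊗ KV`
-/

set_option autoImplicit false

namespace Fermat.Agent.ES

open ModularCurve AlgebraicCurve Fermat.Agent.S24
open scoped TensorProduct

namespace ESpan

variable (p N : ℕ) [Fact p.Prime] (k : Type) [Field k] [Algebra (ZMod p) k]

/-- The Galois action on `k ⊗ KV`. -/
noncomputable def R : GQ →* Module.End k (k ⊗[ZMod p] KV p N) where
  toFun σ := (galV p N σ).baseChange k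
  map_one' := by rw [map_one, LinearMap.baseChange_one]
  map_mul' σ τ := by rw [map_mul, LinearMap.baseChange_mul]

lemma R_apply (σ : GQ) : R p N k σ = (galV p N σ).baseChange k := rfl

/-- every element of `k ⊗ KV` is fixed by an open subgroup -/
lemma R_smooth (x : k ⊗[ZMod p] KV p N) :
    ∃ L : IntermediateField ℚ Kb, FiniteDimensional ℚ L ∧
      ∀ σ : GQ, (∀ a ∈ L, σ a = a) → R p N k σ x = x := by
  induction x using TensorProduct.induction_on with
  | zero => exact ⟨⊥, inferInstance, fun σ _ => map_zero _⟩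
  | tmul a v =>
    obtain ⟨L, hL, h⟩ := galV_smooth p N v
    refine ⟨L, hL, fun σ hσ => ?_⟩
    rw [R_apply, LinearMap.baseChange_tmul, h σ hσ]
  | add x y hx hy =>
    obtain ⟨L, hL, h⟩ := hx
    obtain ⟨L', hL', h'⟩ := hy
    refine ⟨L ⊔ L', IntermediateField.finiteDimensional_sup L L', fun σ hσ => ?_⟩
    rw [map_add, h σ fun a ha => hσ a ((le_sup_left : L ≤ L ⊔ L') ha),
      h' σ fun a ha => hσ a ((le_sup_right : L' ≤ L ⊔ L') ha)]

variable {p N k}

/-- The span of the Galois orbit. -/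
noncomputable def W (x : k ⊗[ZMod p] KV p N) : Submodule k (k ⊗[ZMod p] KV p N) :=
  Submodule.span k (Set.range fun σ : GQ => R p N k σ x)

lemma mem_W_self (x : k ⊗[ZMod p] KV p N) : x ∈ W x :=
  Submodule.subset_span ⟨1, by simp⟩

lemma R_mem_W (x : k ⊗[ZMod p] KV p N) (τ : GQ) {w : k ⊗[ZMod p] KV p N} (hw : w ∈ W x) :
    R p N k τ w ∈ W x := by
  induction hw using Submodule.span_induction with
  | mem y hy =>
    obtain ⟨σ, rfl⟩ := hy
    refine Submodule.subset_span ⟨τ * σ, ?_⟩
    simp only [map_mul, Module.End.mul_apply]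
  | zero => rw [map_zero]; exact zero_mem _
  | add y z _ _ hy hz => rw [map_add]; exact add_mem hy hz
  | smul a y _ hy => rw [map_smul]; exact Submodule.smul_mem _ _ hy

lemma finite_orbit (x : k ⊗[ZMod p] KV p N) : (Set.range fun σ : GQ => R p N k σ x).Finite := by
  obtain ⟨L, hL, h⟩ := R_smooth p N k x
  let g : GQ → (L →ₐ[ℚ] Kb) := fun σ => (σ : Kb →ₐ[ℚ] Kb).comp L.val
  have hg : ∀ σ σ' : GQ, g σ = g σ' → R p N k σ x = R p N k σ' x := by
    intro σ σ' hσ
    have h1 : R p N k (σ'⁻¹ * σ) x = x := by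
      apply h
      intro a ha
      have := congrArg (fun f => f ⟨a, ha⟩) hσ
      change σ a = σ' a at this
      change σ'⁻¹ (σ a) = a
      rw [this]
      exact σ'.symm_apply_apply a
    have h2 := congrArg (R p N k σ') h1
    rwa [← Module.End.mul_apply, ← map_mul, mul_inv_cancel_left] at h2
  have : Finite (L →ₐ[ℚ] Kb) := inferInstance
  refine (Set.finite_range fun t : L →ₐ[ℚ] Kb => R p N k (Function.invFun g t) x).subset ?_
  rintro _ ⟨σ, rfl⟩
  exact ⟨g σ, hg _ _ (Function.invFun_eq ⟨σ, rfl⟩)⟩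

/-- The Galois representation on `W x`. -/
noncomputable def rho (x : k ⊗[ZMod p] KV p N) : GQ →* Module.End k (W x) where
  toFun σ := (R p N k σ).restrict fun _ hw => R_mem_W x σ hw
  map_one' := by
    ext w
    simp
  map_mul' σ τ := by
    ext w
    simp

lemma coe_rho (x : k ⊗[ZMod p] KV p N) (σ : GQ) (w : W x) :
    ((rho x σ w : W x) : k ⊗[ZMod p] KV p N) = R p N k σ w := rfl

lemma rho_finiteLevel (x : k ⊗[ZMod p] KV p N) : GaloisFactorsThroughFiniteLevel (rho x) := by
  obtain ⟨L, hL, h⟩ := R_smooth p N k x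
  refine ⟨IntermediateField.normalClosure ℚ L Kb, inferInstance, fun σ hσ => ?_⟩
  have key : ∀ w ∈ W x, R p N k σ w = w := by
    intro w hw
    induction hw using Submodule.span_induction with
    | mem y hy =>
      obtain ⟨τ, rfl⟩ := hy
      have h1 : R p N k (τ⁻¹ * σ * τ) x = x := by
        apply h
        intro a ha
        have hmem : τ a ∈ IntermediateField.normalClosure ℚ L Kb :=
          AlgHom.fieldRange_le_normalClosure ((τ : Kb →ₐ[ℚ] Kb).comp L.val) ⟨⟨a, ha⟩, rfl⟩
        change τ⁻¹ (σ (τ a)) = a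
        rw [hσ _ hmem]
        exact τ.symm_apply_apply a
      have h2 := congrArg (R p N k τ) h1
      simp only [← Module.End.mul_apply, ← map_mul] at h2 ⊢
      rwa [← mul_assoc, ← mul_assoc, mul_inv_cancel, one_mul] at h2
    | zero => exact map_zero _
    | add y z _ _ hy hz => rw [map_add, hy, hz]
    | smul a y _ hy => rw [map_smul, hy]
  ext w
  exact key w w.2

/-- every element of `W x` is an eigenvector of the Hecke operator -/
lemma hecke_W [NeZero N] (ℓ : ℕ) [NeZero ℓ] (x : k ⊗[ZMod p] KV p N) (c : k)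
    (hc : (heckeV p N ℓ).baseChange k x = c • x) {w : k ⊗[ZMod p] KV p N} (hw : w ∈ W x) :
    (heckeV p N ℓ).baseChange k w = c • w := by
  induction hw using Submodule.span_induction with
  | mem y hy =>
    obtain ⟨τ, rfl⟩ := hy
    have h1 : (heckeV p N ℓ).baseChange k * (galV p N τ).baseChange k
        = (galV p N τ).baseChange k * (heckeV p N ℓ).baseChange k := by
      rw [← LinearMap.baseChange_mul, ← LinearMap.baseChange_mul, galV_comm_heckeV]
    have h2 := congrArg (fun f => f x) h1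
    simp only [Module.End.mul_apply] at h2
    change (heckeV p N ℓ).baseChange k ((galV p N τ).baseChange k x) = c • (galV p N τ).baseChange k x
    rw [h2, hc, map_smul]
  | zero => rw [map_zero, smul_zero]
  | add y z _ _ hy hz => rw [map_add, hy, hz, smul_add]
  | smul a y _ hy => rw [map_smul, hy, smul_comm]

end ESpan

/-- **E-SPAN**. -/
theorem exists_W (p N : ℕ) [Fact p.Prime] [NeZero N] (k : Type) [Field k] [Algebra (ZMod p) k]
    (c : ℕ → k) (x : k ⊗[ZMod p] KV p N) (hx : x ≠ 0)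
    (hc : ∀ (ℓ : ℕ) [Fact ℓ.Prime], ¬ ℓ ∣ N → (heckeV p N ℓ).baseChange k x = c ℓ • x) :
    ∃ (W : Type) (_ : AddCommGroup W) (_ : Module k W) (_ : FiniteDimensional k W)
      (_ : Nontrivial W) (ρ : GQ →* Module.End k W), GaloisFactorsThroughFiniteLevel ρ ∧
      ∀ ℓ : ℕ, ℓ.Prime → ¬ ℓ ∣ N → ∀ A : ValuationSubring Kb, A.LiesOverPrime ℓ → INJ p N A →
        (∀ τ ∈ A.inertiaSubgroupIn ℚ, ρ τ = 1) ∧
        (∀ σ : GQ, A.IsFrobeniusAt σ ℓ →
          ρ σ * ρ σ - c ℓ • ρ σ + (ℓ : k) • (1 : Module.End k W) = 0) := by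
  refine ⟨ESpan.W x, inferInstance, inferInstance,
    FiniteDimensional.span_of_finite k (ESpan.finite_orbit x),
    ⟨⟨⟨x, ESpan.mem_W_self x⟩, 0, fun h => hx (congrArg Subtype.val h)⟩⟩,
    ESpan.rho x, ESpan.rho_finiteLevel x, ?_⟩
  intro ℓ hℓ hℓN A hA hINJ
  have : Fact ℓ.Prime := ⟨hℓ⟩
  refine ⟨fun τ hτ => ?_, fun σ hσ => ?_⟩
  · ext w
    rw [ESpan.coe_rho, ESpan.R_apply, galV_inertia p N ℓ A hA hINJ τ hτ, LinearMap.baseChange_one]
    rfl
  · ext w
    have h := eichler_shimura p N ℓ hℓN A hA hINJ σ hσ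
    have h1 := congrArg (fun f => (LinearMap.baseChange k f) (w : k ⊗[ZMod p] KV p N)) h
    have e : (ℓ : Module.End (ZMod p) (KV p N)) = (ℓ : ZMod p) • (1 : Module.End (ZMod p) (KV p N)) := by
      rw [Nat.cast_smul_eq_nsmul, nsmul_eq_mul, mul_one]
    simp only [e, LinearMap.baseChange_add, LinearMap.baseChange_sub, LinearMap.baseChange_mul,
      LinearMap.baseChange_smul, LinearMap.baseChange_one, LinearMap.baseChange_zero,
      LinearMap.add_apply, LinearMap.sub_apply, Module.End.mul_apply, LinearMap.smul_apply,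
      Module.End.one_apply, LinearMap.zero_apply] at h1
    have hH : (heckeV p N ℓ).baseChange k ((galV p N σ).baseChange k (w : k ⊗[ZMod p] KV p N))
        = c ℓ • (galV p N σ).baseChange k (w : k ⊗[ZMod p] KV p N) :=
      ESpan.hecke_W ℓ x (c ℓ) (hc ℓ hℓN) (ESpan.R_mem_W x σ w.2)
    rw [hH] at h1
    simp only [LinearMap.add_apply, LinearMap.sub_apply, Module.End.mul_apply, LinearMap.smul_apply,
      Module.End.one_apply, LinearMap.zero_apply, Submodule.coe_add, Submodule.coe_sub,
      Submodule.coe_smul, ESpan.coe_rho, ZeroMemClass.coe_zero]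
    rw [← h1, ESpan.R_apply]
    congr 1
    rw [← algebraMap_smul k (ℓ : ZMod p) (w : k ⊗[ZMod p] KV p N), map_natCast]

end Fermat.Agent.ES
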