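import Fermat.Agent.ES.EDefs
import Fermat.Agent.ES.Cheb
import Fermat.Agent.ES.EGlue

/-!
# ES, block END : E-SPREAD

The quadratic relation `ρ(σ)² - c_ℓ ρ(σ) + ℓ = 0` at Frobenius elements spreads, by weak
Chebotarev, to a quadratic relation `ρ(g)² - a(g) ρ(g) + χ(g) = 0` for every `g`.
-/

set_option autoImplicit false

namespace Fermat.Agent.ES

open Polynomial Fermat.Agent.S24

namespace ESpread

/-- the Lucas sequence `L₀ = 2`, `L₁ = a`, `L_{j+2} = a L_{j+1} - b L_j`. -/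
def lucas {k : Type*} [Field k] (a b : k) : ℕ → k
  | 0 => 2
  | 1 => a
  | (j + 2) => a * lucas a b (j + 1) - b * lucas a b j

/-- a quadratic relation for `x` gives a quadratic relation for all powers of `x`. -/
theorem quad_pow {k R : Type*} [Field k] [Ring R] [Algebra k R] (x : R) (a b : k)
    (h : x * x - a • x + b • (1 : R) = 0) (j : ℕ) :
    x ^ j * x ^ j - lucas a b j • x ^ j + b ^ j • (1 : R) = 0 := by
  set y : R := a • (1 : R) - x with hy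
  have hxy : x * y = b • (1 : R) := by
    rw [hy, mul_sub, mul_smul_comm, mul_one]
    have : a • x - x * x - b • (1 : R) = 0 := by
      rw [← neg_eq_zero, ← h]; abel
    exact sub_eq_zero.1 this
  have hyx : y * x = b • (1 : R) := by
    rw [← hxy, hy, mul_sub, sub_mul, mul_smul_comm, smul_mul_assoc, mul_one, one_mul]
  have hsum : x + y = a • (1 : R) := by rw [hy]; abel
  have key : ∀ j : ℕ, x ^ j + y ^ j = lucas a b j • (1 : R) ∧
      x ^ (j + 1) + y ^ (j + 1) = lucas a b (j + 1) • (1 : R) := by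
    intro j
    induction j with
    | zero =>
      refine ⟨?_, ?_⟩
      · rw [pow_zero, pow_zero, lucas, ofNat_smul_eq_nsmul, two_nsmul]
      · rw [zero_add, pow_one, pow_one, hsum, lucas]
    | succ j ih =>
      refine ⟨ih.2, ?_⟩
      have h1 : x ^ (j + 1 + 1) + y ^ (j + 1 + 1)
          = (x + y) * (x ^ (j + 1) + y ^ (j + 1)) - (x * y) * y ^ j - (y * x) * x ^ j := by
        rw [pow_succ' x (j + 1), pow_succ' y (j + 1), add_mul, mul_add, mul_add, mul_assoc x y,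
          mul_assoc y x, ← pow_succ' y j, ← pow_succ' x j]
        abel
      rw [h1, hsum, ih.2, hxy, hyx, sub_sub, ← mul_add, add_comm (y ^ j), ih.1, lucas]
      simp only [smul_mul_assoc, one_mul, smul_smul, sub_smul]
  have hc : Commute x y := by rw [Commute, SemiconjBy, hxy, hyx]
  have h2 : x ^ j * y ^ j = b ^ j • (1 : R) := by
    rw [← hc.mul_pow, hxy, _root_.smul_pow, one_pow]
  have h3 : x ^ j = lucas a b j • (1 : R) - y ^ j := by rw [← (key j).1]; abel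
  calc x ^ j * x ^ j - lucas a b j • x ^ j + b ^ j • (1 : R)
      = x ^ j * (lucas a b j • (1 : R) - y ^ j) - lucas a b j • x ^ j + b ^ j • (1 : R) := by
        rw [← h3]
    _ = 0 := by
        rw [mul_sub, h2, mul_smul_comm, mul_one]; abel

end ESpread

/-- **E-SPREAD**. -/
theorem exists_trace_fn (p : ℕ) {k : Type} [Field k] {W : Type} [AddCommGroup W] [Module k W]
    [Nontrivial W] (ρ : GQ →* Module.End k W) (hρ : GaloisFactorsThroughFiniteLevel ρ)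
    (χ : GQ →* kˣ) (hχ : IsCyc p χ) (T : Finset ℕ) (hpT : p ∈ T) (c : ℕ → k)
    (h : ∀ ℓ : ℕ, ℓ.Prime → ℓ ∉ T → ∀ A : ValuationSubring Kb, A.LiesOverPrime ℓ →
      ∀ σ : GQ, A.IsFrobeniusAt σ ℓ →
        ρ σ * ρ σ - c ℓ • ρ σ + (ℓ : k) • (1 : Module.End k W) = 0) :
    ∃ a : GQ → k, (∀ g, ρ g * ρ g - a g • ρ g + ((χ g : kˣ) : k) • (1 : Module.End k W) = 0) ∧
      ∀ ℓ : ℕ, ℓ.Prime → ℓ ∉ T → ∀ A : ValuationSubring Kb, A.LiesOverPrime ℓ →
        ∀ σ : GQ, A.IsFrobeniusAt σ ℓ → a σ = c ℓ := by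
  obtain ⟨L₁, hL₁, h₁⟩ := hρ
  obtain ⟨⟨L₂, hL₂, h₂⟩, hcyc⟩ := hχ
  obtain ⟨E, hE, hG, h1E, h2E⟩ := EGlue.exists_galois L₁ L₂ hL₁ hL₂
  have hne : ∀ ℓ : ℕ, ℓ ∉ T → ℓ ≠ p := fun ℓ hℓ hp => hℓ (hp ▸ hpT)
  have hex : ∀ g : GQ, ∃ a : k,
      ρ g * ρ g - a • ρ g + ((χ g : kˣ) : k) • (1 : Module.End k W) = 0 := by
    intro g
    obtain ⟨ℓ, A, σ, j, n, hℓ, hℓT, hA, hσ, -, hg⟩ := Cheb.weak_chebotarev E T g
    refine ⟨ESpread.lucas (c ℓ) (ℓ : k) n, ?_⟩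
    rw [EGlue.map_eq_of_agree ρ L₁ h₁ g (σ ^ n) fun x hx => hg x (h1E hx),
      EGlue.map_eq_of_agree χ L₂ h₂ g (σ ^ n) fun x hx => hg x (h2E hx), map_pow, map_pow,
      Units.val_pow_eq_pow_val, (hcyc ℓ hℓ (hne ℓ hℓT) A hA).2 σ hσ]
    exact ESpread.quad_pow (ρ σ) (c ℓ) (ℓ : k) (h ℓ hℓ hℓT A hA σ hσ) n
  choose a ha using hex
  refine ⟨a, ha, fun ℓ hℓ hℓT A hA σ hσ => ?_⟩
  have h1 := ha σ
  rw [(hcyc ℓ hℓ (hne ℓ hℓT) A hA).2 σ hσ] at h1
  have h2 := h ℓ hℓ hℓT A hA σ hσ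
  have h3 : (a σ - c ℓ) • ρ σ = 0 := by
    rw [sub_smul]
    have : a σ • ρ σ - c ℓ • ρ σ
        = (ρ σ * ρ σ - c ℓ • ρ σ + (ℓ : k) • (1 : Module.End k W))
          - (ρ σ * ρ σ - a σ • ρ σ + (ℓ : k) • (1 : Module.End k W)) := by abel
    rw [this, h1, h2, sub_zero]
  have h4 : (a σ - c ℓ) • (1 : Module.End k W) = 0 := by
    have h5 : ρ σ * ρ σ⁻¹ = 1 := by rw [← map_mul, mul_inv_cancel, map_one]
    rw [← h5, ← smul_mul_assoc, h3, zero_mul]
  rcases smul_eq_zero.1 h4 with h6 | h6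
  · exact sub_eq_zero.1 h6
  · exact absurd h6 one_ne_zero

end Fermat.Agent.ES
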