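import Fermat.Agent.ES.EDefs
import Fermat.Agent.ES.BN
import Fermat.Agent.ES.EAlg
import Fermat.Agent.ES.ECyc
import Fermat.Agent.ES.ESpan
import Fermat.Agent.ES.ESpread

/-!
# ES, block END, package E-LEVEL : the residual representation at one level
(assembly of E-SPAN, E-CYC, E-SPREAD, E-ALG)
-/

set_option autoImplicit false

namespace Fermat.Agent.ES

open Polynomial ModularCurve AlgebraicCurve Fermat.Agent.S24 CongruenceSubgroup Fermat.Agent.ES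
open scoped TensorProduct

/-- **E-LEVEL**. -/
theorem level_rep (p M : ℕ) [Fact p.Prime] [NeZero M] (k : Type) [Field k] [IsAlgClosed k]
    [Algebra (ZMod p) k] (c : ℕ → k)
    (hINJ : ∀ ℓ : ℕ, ℓ.Prime → ¬ ℓ ∣ M * p → ∀ A : ValuationSubring Kb, A.LiesOverPrime ℓ →
      INJ p M A)
    (x : k ⊗[ZMod p] KV p M) (hx : x ≠ 0)
    (hc : ∀ (ℓ : ℕ) [Fact ℓ.Prime], ¬ ℓ ∣ M → (heckeV p M ℓ).baseChange k x = c ℓ • x) :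
    ∃ ρ : ResidualGaloisRep k, (BN.IsIrr ρ.ρ ∨ BN.IsDiag ρ.ρ) ∧
      ∀ ℓ : ℕ, ℓ.Prime → ¬ ℓ ∣ M * p → GoodAt ρ c ℓ := by
  have hp : p.Prime := Fact.out
  have hMp : M * p ≠ 0 := mul_ne_zero (NeZero.ne M) hp.ne_zero
  have hpT : p ∈ (M * p).primeFactors :=
    Nat.mem_primeFactors.2 ⟨hp, Dvd.intro_left M rfl, hMp⟩
  have hT : ∀ ℓ : ℕ, ℓ.Prime → (ℓ ∉ (M * p).primeFactors ↔ ¬ ℓ ∣ M * p) := by
    intro ℓ hℓ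
    rw [Nat.mem_primeFactors]
    constructor
    · intro h hd
      exact h ⟨hℓ, hd, hMp⟩
    · intro h hd
      exact h hd.2.1
  have hM : ∀ ℓ : ℕ, ¬ ℓ ∣ M * p → ¬ ℓ ∣ M := fun ℓ h hd => h (Dvd.dvd.mul_right hd p)
  have hℓp : ∀ ℓ : ℕ, ¬ ℓ ∣ M * p → ℓ ≠ p := by
    rintro ℓ h rfl
    exact h (Dvd.intro_left M rfl)
  obtain ⟨W, _, _, _, _, ρ, hρ, hW⟩ := exists_W p M k c x hx hc
  obtain ⟨χ, hχ⟩ := exists_isCyc p k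
  obtain ⟨a, ha, haσ⟩ := exists_trace_fn p ρ hρ χ hχ (M * p).primeFactors hpT c
    (fun ℓ hℓ hℓT A hA σ hσ =>
      (hW ℓ hℓ (hM ℓ ((hT ℓ hℓ).1 hℓT)) A hA (hINJ ℓ hℓ ((hT ℓ hℓ).1 hℓT) A hA)).2 σ hσ)
  obtain ⟨V, _, _, _, τ, hV, hss, hcp, hone⟩ := end_alg ρ χ a ha
  have hlevel : GaloisFactorsThroughFiniteLevel τ := by
    obtain ⟨L₁, hL₁, h₁⟩ := hρ
    obtain ⟨L₂, hL₂, h₂⟩ := hχ.1
    refine ⟨L₁ ⊔ L₂, IntermediateField.finiteDimensional_sup L₁ L₂, fun σ hσ => ?_⟩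
    exact hone σ (h₁ σ fun y hy => hσ y ((le_sup_left : L₁ ≤ L₁ ⊔ L₂) hy))
      (h₂ σ fun y hy => hσ y ((le_sup_right : L₂ ≤ L₁ ⊔ L₂) hy))
  refine ⟨{ V := V, finrank_eq := hV, ρ := τ, factorsThroughFiniteLevel := hlevel }, hss,
    fun ℓ hℓ hℓMp => ⟨fun A hA σ hσ => ?_, fun A hA σ hσ => ?_⟩⟩
  · exact hone σ ((hW ℓ hℓ (hM ℓ hℓMp) A hA (hINJ ℓ hℓ hℓMp A hA)).1 σ hσ)
      ((hχ.2 ℓ hℓ (hℓp ℓ hℓMp) A hA).1 σ hσ)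
  · change (τ σ).charpoly = _
    rw [hcp σ, haσ ℓ hℓ ((hT ℓ hℓ).2 hℓMp) A hA σ hσ, (hχ.2 ℓ hℓ (hℓp ℓ hℓMp) A hA).2 σ hσ]

end Fermat.Agent.ES
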