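import Fermat.Agent.ES.ELevel
import Fermat.Agent.ES.EBC
import Fermat.Agent.ES.EEig

/-!
# ES, block END, package E-S29 : the residual representation attached to a weight two eigenform,
with `INJ` (good reduction) and `exists_eigenvector` (TORS) as hypotheses.
-/

set_option autoImplicit false

namespace Fermat.Agent.ES

open Polynomial ModularCurve AlgebraicCurve Fermat.Agent.S24 CongruenceSubgroup Fermat.Agent.ES
open scoped TensorProduct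

/-- the trivial two dimensional residual representation. -/
noncomputable def trivRep (k : Type) [Field k] : ResidualGaloisRep k where
  V := Fin 2 → k
  finrank_eq := by simp
  ρ := 1
  factorsThroughFiniteLevel := ⟨⊥, inferInstance, fun _ _ => rfl⟩

/-- level `0` is vacuous. -/
theorem s29_zero {g : CuspForm (Gamma0 0) 2} {p : ℕ} {k : Type} [Field k]
    (φ : integralClosure ℤ ℂ →+* k) :
    ∃ ρ : ResidualGaloisRep k, ρ.IsAttachedTo g φ ∧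
      ∀ ℓ : ℕ, ℓ.Prime → ¬ ℓ ∣ 0 * p → ρ.IsUnramifiedAt ℓ :=
  ⟨trivRep k, fun ℓ _ h => absurd (dvd_zero ℓ) h,
    fun ℓ _ h => absurd (by rw [zero_mul]; exact dvd_zero ℓ) h⟩

/-- The statement of TORS-SUPP at level `N` and exponent `p`. -/
def HasEigenvectors (N p : ℕ) [NeZero N] [Fact p.Prime] : Prop :=
  ∀ (g : CuspForm (Gamma0 N) 2) (_ : g ≠ 0) (a : ℕ → integralClosure ℤ ℂ)
    (_ : ∀ (ℓ : ℕ) (hℓ : ℓ.Prime) (hℓN : ¬ ℓ ∣ N),
      CuspForm.heckeTLin 2 hℓ hℓN g = (a ℓ : ℂ) • g)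
    (k : Type) [Field k] [Algebra (ZMod p) k] (φ : integralClosure ℤ ℂ →+* k),
    ∃ x : k ⊗[ZMod p] KV p N, x ≠ 0 ∧
      ∀ (ℓ : ℕ) [Fact ℓ.Prime], ¬ ℓ ∣ N → (heckeV p N ℓ).baseChange k x = φ (a ℓ) • x

/-- **E-S29**, level `N > 0`. -/
theorem s29_of {N : ℕ} [NeZero N] {g : CuspForm (Gamma0 N) 2} (hg : g.IsNormalizedEigenform)
    {p : ℕ} [Fact p.Prime] {k : Type} [Field k] [CharP k p]
    (φ : integralClosure ℤ ℂ →+* k)
    (hINJ : ∀ ℓ : ℕ, ℓ.Prime → ¬ ℓ ∣ N * p → ∀ A : ValuationSubring Kb, A.LiesOverPrime ℓ →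
      INJ p N A)
    (hEV : HasEigenvectors N p) :
    ∃ ρ : ResidualGaloisRep k, ρ.IsAttachedTo g φ ∧
      ∀ ℓ : ℕ, ℓ.Prime → ¬ ℓ ∣ N * p → ρ.IsUnramifiedAt ℓ := by
  have hp : p.Prime := Fact.out
  obtain ⟨k₀, _, _, _, φ₀, ι, rfl⟩ := exists_factor_algClosed hp φ
  letI : Algebra (ZMod p) k₀ := ZMod.algebra k₀ p
  obtain ⟨g', a, hg', ha, heig⟩ := exists_level_raise (dvd_refl N) hg
  obtain ⟨x, hx, hxe⟩ := hEV g' hg' a heig k₀ φ₀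
  obtain ⟨ρ, -, hρ⟩ := level_rep p N k₀ (fun ℓ => φ₀ (a ℓ)) hINJ x hx hxe
  have hgood : ∀ ℓ : ℕ, ℓ.Prime → ¬ ℓ ∣ N * p →
      GoodAt (ρ.baseChangeAlong ι) (fun n => ι (φ₀ (a n))) ℓ := fun ℓ hℓ h =>
    goodAt_baseChangeAlong ι ρ _ ℓ (hρ ℓ hℓ h)
  refine ⟨ρ.baseChangeAlong ι, ?_, fun ℓ hℓ h => (hgood ℓ hℓ h).1⟩
  intro ℓ hℓ hℓN hℓk A hA σ hσ
  have hℓp : ¬ ℓ ∣ N * p := by
    intro h
    rcases (Nat.Prime.dvd_mul hℓ).1 h with h | h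
    · exact hℓN h
    · have : ℓ = p := (Nat.prime_dvd_prime_iff_eq hℓ hp).1 h
      subst this
      exact hℓk (CharP.cast_eq_zero k ℓ)
  exact ⟨a ℓ, ha ℓ hℓ hℓN, (hgood ℓ hℓ hℓp).2 A hA σ hσ⟩

end Fermat.Agent.ES
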