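import Mathlib

/-!
# Project ES: self-duality of a valuation ring from a primitive element with unit different
(Mathlib only)
-/

set_option autoImplicit false
set_option linter.style.haveILetI false

noncomputable section

namespace Fermat.Agent.ES.ETCore

open Polynomial
open scoped Pointwise

variable {K E : Type*} [Field K] [Field E] [Algebra K E]

theorem mem_of_isIntegralElem (O : ValuationSubring E) {x : E} (hx : IsIntegral O x) : x ∈ O := by
  obtain ⟨a, ha⟩ := (IsIntegrallyClosed.isIntegral_iff (R := O) (K := E)).mp hx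
  rw [← ha]
  exact a.2

/-- **ET-CORE**. -/
theorem et_core [FiniteDimensional K E] [Algebra.IsSeparable K E] (O : ValuationSubring E) (θ : E)
    (hθ : Algebra.adjoin K {θ} = ⊤) (P : K[X]) (hP : P.Monic)
    (hcoeff : ∀ n, algebraMap K E (P.coeff n) ∈ O) (hroot : aeval θ P = 0)
    (hder0 : aeval θ (derivative P) ≠ 0) (hder : (aeval θ (derivative P))⁻¹ ∈ O)
    (z : E) (hz : ∀ i : ℕ, algebraMap K E (Algebra.trace K E (z * θ ^ i)) ∈ O) : z ∈ O := by
  set A' : ValuationSubring K := O.comap (algebraMap K E) with hA'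
  letI : Algebra A' E := ((algebraMap K E).comp (algebraMap A' K)).toAlgebra
  haveI : IsScalarTower A' K E := IsScalarTower.of_algebraMap_eq fun _ => rfl
  haveI : Module.IsTorsionFree A' E := Module.isTorsionFree_iff_algebraMap_injective.mpr
    ((algebraMap K E).injective.comp Subtype.val_injective)
  have hmemO : ∀ a : A', algebraMap A' E a ∈ O := fun a => a.2
  -- lift `P`
  have hl : P ∈ Polynomial.lifts (algebraMap A' K) := by
    rw [Polynomial.lifts_iff_coeff_lifts]
    intro n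
    exact ⟨⟨P.coeff n, hcoeff n⟩, rfl⟩
  obtain ⟨q, hq, -, hqm⟩ := Polynomial.lifts_and_degree_eq_and_monic hl hP
  have hq0 : aeval θ q = 0 := by
    rw [← aeval_map_algebraMap K, hq, hroot]
  have hint : IsIntegral A' θ := ⟨q, hqm, hq0⟩
  -- `θ ∈ O`
  let φ : A' →+* O := (algebraMap A' E).codRestrict O.toSubring hmemO
  have hθO : θ ∈ O := by
    apply mem_of_isIntegralElem
    refine ⟨q.map φ, hqm.map φ, ?_⟩
    rw [eval₂_map]
    exact hq0
  have haevalO : ∀ f : A'[X], aeval θ f ∈ O := by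
    intro f
    rw [aeval_eq_sum_range]
    refine O.toSubring.sum_mem fun i _ => ?_
    rw [Algebra.smul_def]
    exact O.mul_mem _ _ (hmemO _) (O.pow_mem hθO i)
  -- the minimal polynomial
  obtain ⟨Q, hQ⟩ := minpoly.isIntegrallyClosed_dvd hint hq0
  have hd : aeval θ (derivative P) =
      aeval θ (derivative (minpoly A' θ)) * aeval θ Q := by
    rw [← hq, derivative_map, aeval_map_algebraMap, hQ, derivative_mul, map_add, map_mul, map_mul,
      minpoly.aeval, zero_mul, add_zero]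
  set d := aeval θ (derivative (minpoly A' θ)) with hdd
  have hd0 : d ≠ 0 := fun h => hder0 (by rw [hd, h, zero_mul])
  have hdinv : d⁻¹ ∈ O := by
    have : d⁻¹ = aeval θ Q * (aeval θ (derivative P))⁻¹ := by
      rw [hd, mul_inv]
      have hQ0 : aeval θ Q ≠ 0 := fun h => hder0 (by rw [hd, h, mul_zero])
      field_simp
    rw [this]
    exact O.mul_mem _ _ (haevalO Q) hder
  have hmin : aeval θ (derivative (minpoly K θ)) = d := by
    rw [minpoly.isIntegrallyClosed_eq_field_fractions' K hint, derivative_map,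
      aeval_map_algebraMap]
  have hdual := traceForm_dualSubmodule_adjoin A' K hθ hint
  have hzmem : z ∈ (Algebra.traceForm K E).dualSubmodule
      (Subalgebra.toSubmodule (Algebra.adjoin A' {θ})) := by
    rw [LinearMap.BilinForm.mem_dualSubmodule]
    intro y hy
    rw [Subalgebra.mem_toSubmodule, Algebra.adjoin_singleton_eq_range_aeval] at hy
    obtain ⟨f, rfl⟩ := hy
    rw [Algebra.traceForm_apply, Submodule.mem_one]
    have h1 : Algebra.trace K E (z * (aeval θ f : E)) =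
        ∑ i ∈ Finset.range (f.natDegree + 1),
          algebraMap A' K (f.coeff i) * Algebra.trace K E (z * θ ^ i) := by
      rw [aeval_eq_sum_range, Finset.mul_sum, map_sum]
      refine Finset.sum_congr rfl fun i _ => ?_
      rw [← smul_eq_mul (algebraMap A' K (f.coeff i)), ← map_smul, mul_smul_comm,
        algebraMap_smul]
    refine ⟨∑ i ∈ Finset.range (f.natDegree + 1),
      f.coeff i * ⟨Algebra.trace K E (z * θ ^ i), hz i⟩, ?_⟩
    change _ = Algebra.trace K E (z * (aeval θ f : E))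
    rw [h1, map_sum]
    refine Finset.sum_congr rfl fun i _ => ?_
    rw [map_mul]
    rfl
  rw [hdual, hmin] at hzmem
  obtain ⟨y, hy, rfl⟩ := hzmem
  rw [SetLike.mem_coe, Subalgebra.mem_toSubmodule, Algebra.adjoin_singleton_eq_range_aeval] at hy
  obtain ⟨f, rfl⟩ := hy
  exact O.mul_mem _ _ hdinv (haevalO f)

/-- a root of a monic polynomial with coefficients in `O` lies in `O`. -/
theorem mem_of_root (O : ValuationSubring E) (θ : E) (P : K[X]) (hP : P.Monic)
    (hcoeff : ∀ n, algebraMap K E (P.coeff n) ∈ O) (hroot : aeval θ P = 0) : θ ∈ O := by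
  apply mem_of_isIntegralElem
  have hl : P.map (algebraMap K E) ∈ Polynomial.lifts (algebraMap O E) := by
    rw [Polynomial.lifts_iff_coeff_lifts]
    intro n
    rw [coeff_map]
    exact ⟨⟨_, hcoeff n⟩, rfl⟩
  obtain ⟨q, hq, -, hqm⟩ := Polynomial.lifts_and_degree_eq_and_monic hl (hP.map _)
  refine ⟨q, hqm, ?_⟩
  rw [← eval_map, hq, eval_map_algebraMap, hroot]

/-- **(ET)** in the shape of the hypothesis `hET` of `Purity.isDedekindDomain_quotient`. -/
theorem hET_of_core (𝔸 K E B : Type*) [CommRing 𝔸]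
    [Field K] [Algebra 𝔸 K]
    [Field E] [Algebra K E] [Algebra 𝔸 E] [IsScalarTower 𝔸 K E]
    [FiniteDimensional K E] [Algebra.IsSeparable K E]
    [CommRing B] [Algebra 𝔸 B] [Algebra B E] [IsScalarTower 𝔸 B E]
    (π : 𝔸) (hπ : algebraMap 𝔸 K π ≠ 0) (O : ValuationSubring E)
    (h𝔸O : ∀ a : 𝔸, algebraMap 𝔸 E a ∈ O)
    (hloc : ∀ g ∈ O, ∃ σ : 𝔸, algebraMap 𝔸 K σ ≠ 0 ∧ (algebraMap 𝔸 E σ)⁻¹ ∈ O ∧
      ∃ b : B, algebraMap B E b = algebraMap 𝔸 E σ * g)
    (hsat : ∀ b : B, (algebraMap 𝔸 E π)⁻¹ * algebraMap B E b ∈ O → algebraMap 𝔸 B π ∣ b)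
    (θ : E) (hθ : Algebra.adjoin K {θ} = ⊤) (P : K[X]) (hP : P.Monic)
    (hcoeff : ∀ n, algebraMap K E (P.coeff n) ∈ O) (hroot : aeval θ P = 0)
    (hder0 : aeval θ (derivative P) ≠ 0) (hder : (aeval θ (derivative P))⁻¹ ∈ O) :
    ∀ x : B, (∀ y : B, ∃ a : 𝔸,
        Algebra.trace K E (algebraMap B E (x * y)) = algebraMap 𝔸 K (π * a)) →
        algebraMap 𝔸 B π ∣ x := by
  intro x hx
  apply hsat
  apply et_core O θ hθ P hP hcoeff hroot hder0 hder
  intro i
  have hθO : θ ∈ O := mem_of_root O θ P hP hcoeff hroot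
  obtain ⟨σ, hσ0, hσ, b, hb⟩ := hloc (θ ^ i) (O.pow_mem hθO i)
  obtain ⟨a, ha⟩ := hx b
  have hσE : algebraMap 𝔸 E σ ≠ 0 := by
    rw [IsScalarTower.algebraMap_apply 𝔸 K E]
    exact (_root_.map_ne_zero _).mpr hσ0
  have hπE : algebraMap 𝔸 E π ≠ 0 := by
    rw [IsScalarTower.algebraMap_apply 𝔸 K E]
    exact (_root_.map_ne_zero _).mpr hπ
  have h1 : (algebraMap 𝔸 E π)⁻¹ * algebraMap B E x * θ ^ i =
      (algebraMap 𝔸 K π * algebraMap 𝔸 K σ)⁻¹ • algebraMap B E (x * b) := by
    rw [Algebra.smul_def, map_inv₀, map_mul, ← IsScalarTower.algebraMap_apply 𝔸 K E,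
      ← IsScalarTower.algebraMap_apply 𝔸 K E, map_mul, hb]
    field_simp
  rw [h1, map_smul, ha, smul_eq_mul, map_mul (algebraMap 𝔸 K)]
  have h2 : (algebraMap 𝔸 K π * algebraMap 𝔸 K σ)⁻¹ * (algebraMap 𝔸 K π * algebraMap 𝔸 K a) =
      (algebraMap 𝔸 K σ)⁻¹ * algebraMap 𝔸 K a := by
    field_simp
  rw [h2, map_mul, map_inv₀, ← IsScalarTower.algebraMap_apply 𝔸 K E,
    ← IsScalarTower.algebraMap_apply 𝔸 K E]
  exact O.mul_mem _ _ hσ (h𝔸O a)

end Fermat.Agent.ES.ETCore
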