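import Fermat.Agent.ES.QEFin
import Fermat.Agent.ES.ETCore

/-!
# Project ES: the hypothesis `hET` of `Purity` for every coordinate of a `QData`,
from a primitive element with unit different
-/

set_option autoImplicit false
set_option linter.style.haveILetI false
set_option linter.unusedSectionVars false

open ModularCurve Polynomial

noncomputable section

namespace Fermat.Agent.ES.QE

variable {R K k : Type*} [CommRing R] [IsDomain R] [IsNoetherianRing R] [IsIntegrallyClosed R]
  [Field K] [Algebra R K] [IsFractionRing R K] [Field k]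

/-- A primitive element of the function field over `K(j)` with unit different. -/
structure QData.Theta (D : QData R K k) where
  /-- the `q`-expansion of `θ` -/
  θW : LaurentSeries R
  mem : D.inc θW ∈ D.F0
  /-- a monic polynomial over `R[j]` killing `θ` -/
  P : R[X][X]
  monic : P.Monic
  root : eval₂ (evS (jqModC R)) θW P = 0
  der : D.red (eval₂ (evS (jqModC R)) θW (derivative P)) ≠ 0
  /-- number of powers needed -/
  n : ℕ
  span : ∀ f ∈ D.F0, ∃ (s : K[X]) (a : Fin n → K[X]), s ≠ 0 ∧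
    evS (jqModC K) s * f = ∑ r, evS (jqModC K) (a r) * D.inc θW ^ (r : ℕ)

variable {D : QData R K k} (X : D.Coord) (T : D.Theta)

section Inst

variable {Kx : Type*} [Field Kx] [Algebra R[X] Kx] [IsFractionRing R[X] Kx] [Algebra Kx D.F0]
  [Algebra R[X] D.F0] [IsScalarTower R[X] Kx D.F0]
  (h1 : ∀ σ : R[X], algebraMap R[X] D.F0 σ = X.phiF σ)

/-- `j` as an element of `K(x)`. -/
def QData.Coord.jK (Kx : Type*) [Field Kx] [Algebra R[X] Kx] : Kx :=
  algebraMap R[X] Kx X.P / algebraMap R[X] Kx X.Q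

include h1 in
lemma QData.Coord.algebraMap_jK : algebraMap Kx D.F0 (X.jK Kx) = D.jF := by
  have hQ : X.phiF X.Q ≠ 0 := by
    rw [Ne, map_eq_zero_iff _ X.phiF_injective]
    rintro h
    exact X.Q_prim (h ▸ dvd_zero _)
  rw [QData.Coord.jK, map_div₀, ← IsScalarTower.algebraMap_apply, ← IsScalarTower.algebraMap_apply,
    h1, h1, ← X.jF_mul, mul_div_assoc, div_self hQ, mul_one]

/-- `c ↦ c(j)` with values in `K(x)`. -/
def QData.Coord.psi (Kx : Type*) [Field Kx] [Algebra R[X] Kx] : R[X] →+* Kx :=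
  eval₂RingHom ((algebraMap R[X] Kx).comp C) (X.jK Kx)

include h1 in
lemma QData.Coord.coe_psi :
    ((algebraMap D.F0 (LaurentSeries K)).comp ((algebraMap Kx D.F0).comp (X.psi Kx))) =
      D.inc.comp (evS (jqModC R)) := by
  apply Polynomial.ringHom_ext
  · intro a
    simp only [RingHom.comp_apply, QData.Coord.psi, coe_eval₂RingHom, eval₂_C, evS_C]
    rw [← IsScalarTower.algebraMap_apply R[X] Kx D.F0, h1]
    change X.phi (C a) = _
    rw [X.phi_apply, evS_C]
  · simp only [RingHom.comp_apply, QData.Coord.psi, coe_eval₂RingHom, eval₂_X, evS_X]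
    rw [X.algebraMap_jK h1, D.inc_j]
    rfl

include h1 in
lemma QData.Coord.coe_aeval (θ : D.F0) (θW : LaurentSeries R)
    (hθ : (θ : LaurentSeries K) = D.inc θW) (Q : R[X][X]) :
    ((aeval θ (Q.map (X.psi Kx)) : D.F0) : LaurentSeries K) =
      D.inc (eval₂ (evS (jqModC R)) θW Q) := by
  change algebraMap D.F0 (LaurentSeries K) _ = _
  rw [aeval_def, eval₂_map, hom_eval₂, hom_eval₂, X.coe_psi h1]
  congr 1

include h1 in
/-- polynomials in `j` over `K` lie in `K(x)`. -/
lemma QData.Coord.exists_Kx (c : K[X]) :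
    ∃ κ : Kx, ((algebraMap Kx D.F0 κ : D.F0) : LaurentSeries K) = evS (jqModC K) c := by
  induction c using Polynomial.induction_on' with
  | add p q hp hq =>
    obtain ⟨κ₁, h₁⟩ := hp
    obtain ⟨κ₂, h₂⟩ := hq
    exact ⟨κ₁ + κ₂, by rw [map_add, map_add, IntermediateField.coe_add, h₁, h₂]⟩
  | monomial n a =>
    obtain ⟨r₁, r₂, hr₂, rfl⟩ := IsFractionRing.div_surjective (A := R) a
    have hC : ∀ r : R, ((algebraMap Kx D.F0 (algebraMap R[X] Kx (C r)) : D.F0) : LaurentSeries K)
        = HahnSeries.C (algebraMap R K r) := by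
      intro r
      rw [← IsScalarTower.algebraMap_apply R[X] Kx D.F0, h1, X.coe_phiF, X.phi_apply, evS_C]
      exact coeffMap_C _ _
    refine ⟨algebraMap R[X] Kx (C r₁) / algebraMap R[X] Kx (C r₂) * X.jK Kx ^ n, ?_⟩
    rw [map_mul, map_pow, map_div₀, X.algebraMap_jK h1, IntermediateField.coe_mul,
      IntermediateField.coe_pow, IntermediateField.coe_div, hC, hC,
      ← C_mul_X_pow_eq_monomial, map_mul, map_pow, evS_C, evS_X, map_div₀]
    rfl

/-- `θ` as an element of the function field. -/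
def QData.Theta.θ : D.F0 := ⟨D.inc T.θW, T.mem⟩

include h1 in
lemma QData.Theta.adjoin_eq_top : Algebra.adjoin Kx {T.θ} = ⊤ := by
  rw [eq_top_iff]
  intro f _
  obtain ⟨s, a, hs, h⟩ := T.span f f.2
  obtain ⟨κs, hκs⟩ := X.exists_Kx (Kx := Kx) h1 s
  choose κ hκ using fun r => X.exists_Kx (Kx := Kx) h1 (a r)
  have hκs0 : algebraMap Kx D.F0 κs ≠ 0 := by
    intro h0
    rw [h0] at hκs
    exact evS_jqModC_ne_zero hs hκs.symm
  have h2 : algebraMap Kx D.F0 κs * f = ∑ r, algebraMap Kx D.F0 (κ r) * T.θ ^ (r : ℕ) := by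
    apply Subtype.ext
    rw [IntermediateField.coe_mul, hκs, h, IntermediateField.coe_sum]
    refine Finset.sum_congr rfl fun r _ => ?_
    rw [IntermediateField.coe_mul, IntermediateField.coe_pow, hκ]
    rfl
  have h3 : f = algebraMap Kx D.F0 κs⁻¹ * ∑ r, algebraMap Kx D.F0 (κ r) * T.θ ^ (r : ℕ) := by
    rw [← h2, map_inv₀, ← mul_assoc, inv_mul_cancel₀ hκs0, one_mul]
  rw [h3]
  refine Subalgebra.mul_mem _ (Subalgebra.algebraMap_mem _ _) (Subalgebra.sum_mem _ fun r _ => ?_)
  exact Subalgebra.mul_mem _ (Subalgebra.algebraMap_mem _ _)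
    (Subalgebra.pow_mem _ (Algebra.subset_adjoin (Set.mem_singleton _)) _)

variable [FiniteDimensional Kx D.F0] [Algebra.IsSeparable Kx D.F0]
  [Algebra R[X] X.chart] [Algebra X.chart D.F0] [IsScalarTower R[X] X.chart D.F0]
  (h2 : ∀ b : X.chart, algebraMap X.chart D.F0 b = (b : D.F0))

include h1 h2 T in
/-- **(ET)**: the hypothesis `hET` of `Purity.isDedekindDomain_quotient` for the chart of `X`. -/
theorem QData.Coord.hET :
    ∀ x : X.chart, (∀ y : X.chart, ∃ a : R[X],
        Algebra.trace Kx D.F0 (algebraMap X.chart D.F0 (x * y)) = algebraMap R[X] Kx (C D.ϖ * a)) →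
        algebraMap R[X] X.chart (C D.ϖ) ∣ x := by
  have hder := X.coe_aeval (Kx := Kx) h1 T.θ T.θW rfl (derivative T.P)
  have hδ0 : D.inc (eval₂ (evS (jqModC R)) T.θW (derivative T.P)) ≠ 0 := by
    intro h0
    apply T.der
    rw [D.inc_injective (h0.trans (map_zero _).symm), map_zero]
  refine ETCore.hET_of_core R[X] Kx D.F0 X.chart (C D.ϖ) ?_ D.gaussO ?_ ?_ ?_ T.θ
    (T.adjoin_eq_top X h1) (T.P.map (X.psi Kx)) (T.monic.map _) ?_ ?_ ?_ ?_
  · rw [Ne, map_eq_zero_iff _ (IsFractionRing.injective R[X] Kx)]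
    exact D.prime_C_ϖ.ne_zero
  · intro a
    rw [h1]
    exact X.chart_le_gaussO (X.phiF_mem_chart a)
  · intro g hg
    obtain ⟨σ, hσ, hint⟩ := X.exists_mul_isIntegralElem g.2 hg
    refine ⟨σ, ?_, ?_, ⟨X.phiF σ * g, ?_⟩, ?_⟩
    · rw [Ne, map_eq_zero_iff _ (IsFractionRing.injective R[X] Kx)]
      rintro rfl
      exact hσ (dvd_zero _)
    · rw [h1]
      exact X.phiF_inv_mem_gaussO hσ
    · rw [X.mem_chart, IntermediateField.coe_mul, X.coe_phiF]
      exact hint
    · rw [h2, h1]
  · intro b hb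
    rw [h1, X.phiF_C_ϖ, h2] at hb
    have hy := X.chart_sat b.2 hb (by
      rw [← mul_assoc, mul_inv_cancel₀ D.ϖF_ne_zero, one_mul])
    refine ⟨⟨_, hy⟩, ?_⟩
    have hinj : Function.Injective (algebraMap X.chart D.F0) := by
      intro u v huv
      rw [h2, h2] at huv
      exact Subtype.ext huv
    apply hinj
    rw [map_mul, ← IsScalarTower.algebraMap_apply R[X] X.chart D.F0, h1, X.phiF_C_ϖ, h2, h2,
      ← mul_assoc, mul_inv_cancel₀ D.ϖF_ne_zero, one_mul]
  · intro n
    rw [coeff_map, D.mem_gaussO]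
    have := congrArg (fun f => f (T.P.coeff n)) (X.coe_psi (Kx := Kx) h1)
    simp only [RingHom.comp_apply] at this
    change algebraMap D.F0 (LaurentSeries K) _ ∈ _
    rw [this]
    exact QData.inc_mem_LamRing _
  · apply Subtype.ext
    rw [X.coe_aeval h1 T.θ T.θW rfl, T.root, map_zero]
    rfl
  · intro h0
    rw [derivative_map] at h0
    rw [h0] at hder
    exact hδ0 hder.symm
  · rw [derivative_map, D.mem_gaussO, IntermediateField.coe_inv, hder]
    exact ⟨_, 1, T.der, by rw [map_one, mul_inv_cancel₀ hδ0]⟩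

end Inst

end Fermat.Agent.ES.QE
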