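import Mathlib
import Fermat.Prelude.Def_FLTPrelim_Ramification

/-!
# ES, block INJ (instantiation), package I-DVR

`A` a valuation subring of `ℚ̄` (or of any field `L` of characteristic zero) lying over the
prime `ℓ`, `K0 ≤ L` a number field.  Then `R0 := A ∩ K0` is a discrete valuation ring.
-/

set_option autoImplicit false

noncomputable section

namespace Fermat.Agent.ES.IDvr

open IsDedekindDomain IsLocalRing

variable {L : Type*} [Field L] [CharZero L]

/-- `A ∩ K0`. -/
def R0 (K0 : IntermediateField ℚ L) (A : ValuationSubring L) : ValuationSubring K0 :=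
  A.comap (algebraMap K0 L)

variable (K0 : IntermediateField ℚ L) (A : ValuationSubring L)

theorem mem_R0 (x : K0) : x ∈ R0 K0 A ↔ (x : L) ∈ A := Iff.rfl

theorem mem_nonunits_R0 (x : K0) : x ∈ (R0 K0 A).nonunits ↔ (x : L) ∈ A.nonunits := by
  rw [ValuationSubring.mem_nonunits_iff_or, ValuationSubring.mem_nonunits_iff_or, mem_R0]
  simp

theorem liesOverPrime_R0 {ℓ : ℕ} (hA : A.LiesOverPrime ℓ) : (R0 K0 A).LiesOverPrime ℓ := by
  change ((ℓ : K0)) ∈ (R0 K0 A).nonunits
  rw [mem_nonunits_R0]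
  have h : (ℓ : L) ∈ A.nonunits := hA
  simpa using h

/-- the inclusion `A ∩ K0 → A` -/
def incl : R0 K0 A →+* A where
  toFun x := ⟨((x : K0) : L), x.2⟩
  map_one' := rfl
  map_mul' _ _ := rfl
  map_zero' := rfl
  map_add' _ _ := rfl

@[simp] theorem coe_incl (x : R0 K0 A) : ((incl K0 A x : A) : L) = ((x : K0) : L) := rfl

theorem incl_injective : Function.Injective (incl K0 A) := by
  intro x y h
  apply Subtype.ext
  apply Subtype.ext
  exact congrArg (fun z : A => (z : L)) h

instance : IsLocalHom (incl K0 A) where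
  map_nonunit x hx := by
    by_contra hnu
    have h1 : x ∈ maximalIdeal (R0 K0 A) := (mem_maximalIdeal x).2 hnu
    rw [← ValuationSubring.coe_mem_nonunits_iff, mem_nonunits_R0] at h1
    have h2 : ((incl K0 A x : A) : L) ∈ A.nonunits := h1
    rw [ValuationSubring.coe_mem_nonunits_iff, mem_maximalIdeal] at h2
    exact h2 hx

/-- the induced map on residue fields -/
def resMap : ResidueField (R0 K0 A) →+* ResidueField A := ResidueField.map (incl K0 A)

theorem resMap_residue (x : R0 K0 A) :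
    resMap K0 A (residue _ x) = residue A (incl K0 A x) := ResidueField.map_residue _ _

theorem resMap_injective : Function.Injective (resMap K0 A) := (resMap K0 A).injective

/-! ### General valuation subrings lying over a prime -/

section general

variable {M : Type*} [Field M] (V : ValuationSubring M)

theorem natCast_isUnit {ℓ : ℕ} (hℓ : ℓ.Prime) (hV : V.LiesOverPrime ℓ) {m : ℕ} (hm : ¬ ℓ ∣ m) :
    IsUnit (m : V) := by
  by_contra hnu
  have h1 : (m : V) ∈ maximalIdeal V := (mem_maximalIdeal _).2 hnu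
  have h2 : (ℓ : V) ∈ maximalIdeal V := by
    rw [← ValuationSubring.coe_mem_nonunits_iff]
    have h : (ℓ : M) ∈ V.nonunits := hV
    simpa using h
  have hcop : IsCoprime (ℓ : ℤ) (m : ℤ) :=
    Nat.isCoprime_iff_coprime.2 ((Nat.Prime.coprime_iff_not_dvd hℓ).2 hm)
  obtain ⟨a, b, hab⟩ := hcop
  have h3 : (1 : V) ∈ maximalIdeal V := by
    have e : (1 : V) = (a : V) * (ℓ : V) + (b : V) * (m : V) := by
      have := congrArg (Int.cast : ℤ → V) hab
      push_cast at this
      exact this.symm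
    rw [e]
    exact add_mem (Ideal.mul_mem_left _ _ h2) (Ideal.mul_mem_left _ _ h1)
  exact (Ideal.ne_top_iff_one _).1 (maximalIdeal.isMaximal V).ne_top h3

theorem charP_residue {ℓ : ℕ} (hℓ : ℓ.Prime) (hV : V.LiesOverPrime ℓ) :
    CharP (ResidueField V) ℓ := by
  have h2 : (ℓ : V) ∈ maximalIdeal V := by
    rw [← ValuationSubring.coe_mem_nonunits_iff]
    have h : (ℓ : M) ∈ V.nonunits := hV
    simpa using h
  have h0 : ((ℓ : ℕ) : ResidueField V) = 0 := by
    have := (residue_eq_zero_iff (ℓ : V)).2 h2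
    simpa using this
  exact (CharP.charP_iff_prime_eq_zero hℓ).2 h0

theorem ne_top_of_liesOver {ℓ : ℕ} (hℓ : ℓ.Prime) [CharZero M] (hV : V.LiesOverPrime ℓ) :
    V ≠ ⊤ := by
  rintro rfl
  have h1 : (ℓ : M) ∈ (⊤ : ValuationSubring M).nonunits := hV
  rw [ValuationSubring.mem_nonunits_iff_or] at h1
  rcases h1 with h1 | h1
  · exact hℓ.ne_zero (by exact_mod_cast h1)
  · exact h1 (ValuationSubring.mem_top _)

/-- a valuation subring of a number field lying over a prime is a discrete valuation ring -/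
theorem isDVR_of_numberField [NumberField M] {ℓ : ℕ} (hℓ : ℓ.Prime) (hV : V.LiesOverPrime ℓ) :
    IsDiscreteValuationRing V := by
  have hO : ∀ a : NumberField.RingOfIntegers M, algebraMap _ M a ∈ V.toSubring := by
    intro a
    have h1 : IsIntegral ℤ (algebraMap _ M a) := NumberField.RingOfIntegers.isIntegral_coe a
    have h2 : IsIntegral V (algebraMap _ M a) := h1.tower_top
    obtain ⟨y, hy⟩ := IsIntegrallyClosed.isIntegral_iff.mp h2
    exact hy ▸ y.2
  let φ : NumberField.RingOfIntegers M →+* V :=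
    (algebraMap (NumberField.RingOfIntegers M) M).codRestrict V.toSubring hO
  have hφ : ∀ a, ((φ a : V) : M) = algebraMap _ M a := fun a => rfl
  have hprime : ((maximalIdeal V).comap φ).IsPrime := Ideal.comap_isPrime φ _
  have hne : (maximalIdeal V).comap φ ≠ ⊥ := by
    intro hbot
    have h1 : (ℓ : NumberField.RingOfIntegers M) ∈ (maximalIdeal V).comap φ := by
      rw [Ideal.mem_comap, ← ValuationSubring.coe_mem_nonunits_iff, hφ]
      have h : (ℓ : M) ∈ V.nonunits := hV
      simpa using h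
    rw [hbot, Ideal.mem_bot] at h1
    exact hℓ.ne_zero (by exact_mod_cast h1)
  let v : HeightOneSpectrum (NumberField.RingOfIntegers M) := ⟨_, hprime, hne⟩
  have hle : HeightOneSpectrum.valuationSubringAtPrime M v ≤ V := by
    rintro x ⟨a, s, hs, rfl⟩
    have hs' : IsUnit (φ s) := by
      by_contra hnu
      exact hs ((mem_maximalIdeal _).2 hnu)
    obtain ⟨u, hu⟩ := hs'
    have h1 : ((u : V) : M) * (((u⁻¹ : Vˣ) : V) : M) = 1 := by
      have h2 : (u : V) * ((u⁻¹ : Vˣ) : V) = 1 := Units.mul_inv u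
      exact congrArg Subtype.val h2
    rw [hu, hφ] at h1
    have e : (algebraMap _ M s)⁻¹ = (((u⁻¹ : Vˣ) : V) : M) := inv_eq_of_mul_eq_one_right h1
    rw [e]
    exact V.mul_mem _ _ (hO a) (((u⁻¹ : Vˣ) : V)).2
  have heq := ValuationSubring.eq_of_le_of_ne_top _ hle (ne_top_of_liesOver V hℓ hV)
  have hpid : IsPrincipalIdealRing V := heq ▸ (inferInstance :
    IsPrincipalIdealRing (HeightOneSpectrum.valuationSubringAtPrime M v))
  exact
    { not_a_field' := by
        intro hbot
        have h : (ℓ : M) ∈ V.nonunits := hV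
        obtain ⟨hmem, h1⟩ := ValuationSubring.mem_nonunits_iff_exists_mem_maximalIdeal.1 h
        rw [hbot, Ideal.mem_bot] at h1
        have h2 : (ℓ : M) = 0 := congrArg Subtype.val h1
        exact hℓ.ne_zero (by exact_mod_cast h2) }

end general

/-! ### The ring `A ∩ K0` -/

instance numberField [FiniteDimensional ℚ K0] : NumberField K0 where
  to_charZero := inferInstance
  to_finiteDimensional := inferInstance

/-- **I-DVR (1)**. -/
theorem isDVR [FiniteDimensional ℚ K0] {ℓ : ℕ} (hℓ : ℓ.Prime) (hA : A.LiesOverPrime ℓ) :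
    IsDiscreteValuationRing (R0 K0 A) :=
  isDVR_of_numberField (R0 K0 A) hℓ (liesOverPrime_R0 K0 A hA)

/-- **I-DVR (2)**: a uniformiser. -/
theorem exists_unif [FiniteDimensional ℚ K0] {ℓ : ℕ} (hℓ : ℓ.Prime) (hA : A.LiesOverPrime ℓ) :
    ∃ ϖ : R0 K0 A, Irreducible ϖ ∧ ϖ ≠ 0 ∧
      RingHom.ker (residue (R0 K0 A)) = Ideal.span {ϖ} := by
  have := isDVR K0 A hℓ hA
  obtain ⟨ϖ, hϖ⟩ := IsDiscreteValuationRing.exists_irreducible (R0 K0 A)
  exact ⟨ϖ, hϖ, hϖ.ne_zero, by rw [ker_residue, hϖ.maximalIdeal_eq]⟩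

/-- **I-DVR (4)**. -/
theorem natCast_isUnit_R0 {ℓ : ℕ} (hℓ : ℓ.Prime) (hA : A.LiesOverPrime ℓ) {m : ℕ}
    (hm : ¬ ℓ ∣ m) : IsUnit (m : R0 K0 A) :=
  natCast_isUnit _ hℓ (liesOverPrime_R0 K0 A hA) hm

theorem charP_residue_R0 {ℓ : ℕ} (hℓ : ℓ.Prime) (hA : A.LiesOverPrime ℓ) :
    CharP (ResidueField (R0 K0 A)) ℓ :=
  charP_residue _ hℓ (liesOverPrime_R0 K0 A hA)

/-- **I-DVR (5)**: every finite set of algebraic numbers lies in a number field. -/
theorem exists_numberField [Algebra.IsAlgebraic ℚ L] (S : Finset L) :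
    ∃ K0 : IntermediateField ℚ L, FiniteDimensional ℚ K0 ∧ ∀ x ∈ S, x ∈ K0 := by
  refine ⟨IntermediateField.adjoin ℚ (S : Set L), ?_, fun x hx =>
    IntermediateField.subset_adjoin ℚ _ hx⟩
  exact IntermediateField.finiteDimensional_adjoin fun x _ =>
    (Algebra.IsAlgebraic.isAlgebraic x).isIntegral

/-- enlarging a number field by a finite set -/
theorem exists_numberField_ge [Algebra.IsAlgebraic ℚ L] (K1 : IntermediateField ℚ L)
    [FiniteDimensional ℚ K1] (S : Finset L) :
    ∃ K0 : IntermediateField ℚ L, FiniteDimensional ℚ K0 ∧ K1 ≤ K0 ∧ ∀ x ∈ S, x ∈ K0 := by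
  obtain ⟨K2, hK2, hS⟩ := exists_numberField S
  exact ⟨K1 ⊔ K2, IntermediateField.finiteDimensional_sup K1 K2, le_sup_left,
    fun x hx => (le_sup_right : K2 ≤ K1 ⊔ K2) (hS x hx)⟩

end Fermat.Agent.ES.IDvr

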