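import Fermat.Agent.S24.Psi
import Fermat.Agent.S28.DegDefs
import Fermat.Prelude.Def_ModularCurve_HeckeOperator
import Fermat.Prelude.Def_EllipticCurve_FrobeniusTrace

/-!
# ES, block KRON : shared definitions

* `IsPDiv p N u` : `u ∈ FF N` is nonzero and `p ∣ ord_v u` at all places,
* `KV p N`       : the Kummer group `{u : p ∣ div u} / (FF N)ˣ ^ p` (written additively, an
                   `ℤ/p`-module; `p` is an arbitrary natural number),
* `gal N σ`, `galV p N` : the Galois action on coefficients,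
* `heckeMul N ℓ`, `heckeV p N ℓ` : the multiplicative Hecke operator
                   `u ↦ Norm_{FF (N ℓ) / FF N} (u (q ^ ℓ))`,
* `IsIntA`, `IsPrimA`, `CongA`, `GaussOne`, `INJ` : integrality of `q`-expansions with respect to a
                   valuation subring `A` of `ℚ̄`.
-/

set_option autoImplicit false

noncomputable section

namespace Fermat.Agent.ES

open ModularCurve AlgebraicCurve Fermat.Agent.S24

/-- The absolute Galois group of `ℚ`. -/
abbrev GQ : Type := Kb ≃ₐ[ℚ] Kb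

/-- The Galois action on coefficients of `q`-expansions. -/
abbrev gal (N : ℕ) (σ : GQ) : FF N ≃+* FF N := arithmeticRingAut (modularFunctionFieldFull N) σ

/-- `u ≠ 0` and the divisor of `u` is divisible by `p`. -/
def IsPDiv (p N : ℕ) (u : FF N) : Prop :=
  u ≠ 0 ∧ ∀ v : Place Kb (FF N), (p : ℤ) ∣ v.ord u

/-- The multiplicative Hecke operator `u ↦ Norm_{FF (N ℓ) / FF N} (u (q ^ ℓ))`. -/
def heckeMul (N ℓ : ℕ) [NeZero N] [NeZero ℓ] : FF N →* FF N :=
  letI := algebraAlong (heckeAlphaBar Kb N ℓ)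
  (Algebra.norm (FF N)).comp ((heckeBetaBar Kb N ℓ : FF N →ₐ[Kb] FF (N * ℓ)) : FF N →* FF (N * ℓ))

theorem heckeMul_apply (N ℓ : ℕ) [NeZero N] [NeZero ℓ] (u : FF N) :
    heckeMul N ℓ u =
      letI := algebraAlong (heckeAlphaBar Kb N ℓ)
      Algebra.norm (FF N) (heckeBetaBar Kb N ℓ u) := rfl

/-! ### The Kummer group -/

/-- The units of `FF N` whose divisor is divisible by `p`. -/
def pdivUnits (p N : ℕ) : Subgroup (FF N)ˣ where
  carrier := {u | ∀ v : Place Kb (FF N), (p : ℤ) ∣ v.ord (u : FF N)}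
  one_mem' := fun v => by simp
  mul_mem' := fun {a b} ha hb v => by
    rw [Units.val_mul, Place.ord_mul v a.ne_zero b.ne_zero]
    exact dvd_add (ha v) (hb v)
  inv_mem' := fun {a} ha v => by
    rw [Units.val_inv_eq_inv_val, Place.ord_inv]
    exact (dvd_neg).2 (ha v)

theorem mem_pdivUnits {p N : ℕ} {u : (FF N)ˣ} :
    u ∈ pdivUnits p N ↔ ∀ v : Place Kb (FF N), (p : ℤ) ∣ v.ord (u : FF N) := Iff.rfl

theorem mem_pdivUnits_iff {p N : ℕ} {u : (FF N)ˣ} : u ∈ pdivUnits p N ↔ IsPDiv p N (u : FF N) :=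
  ⟨fun h => ⟨u.ne_zero, h⟩, fun h => h.2⟩

/-- The `p`-th powers. -/
def ppow (p N : ℕ) : Subgroup (FF N)ˣ := (powMonoidHom p : (FF N)ˣ →* (FF N)ˣ).range

theorem mem_ppow {p N : ℕ} {u : (FF N)ˣ} : u ∈ ppow p N ↔ ∃ z : (FF N)ˣ, z ^ p = u := Iff.rfl

/-- The Kummer group `{u : p ∣ div u} / p`-th powers, written additively. -/
def KV (p N : ℕ) : Type := Additive (pdivUnits p N ⧸ (ppow p N).subgroupOf (pdivUnits p N))

instance (p N : ℕ) : AddCommGroup (KV p N) :=
  inferInstanceAs (AddCommGroup (Additive (pdivUnits p N ⧸ (ppow p N).subgroupOf (pdivUnits p N))))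

namespace KV

variable {p N : ℕ}

/-- The class of a unit with `p`-divisible divisor. -/
def mk (u : pdivUnits p N) : KV p N := Additive.ofMul (QuotientGroup.mk u)

theorem mk_surjective : Function.Surjective (mk : pdivUnits p N → KV p N) := by
  intro x
  obtain ⟨u, hu⟩ := QuotientGroup.mk_surjective (Additive.toMul x)
  exact ⟨u, congrArg Additive.ofMul hu⟩

theorem mk_mul (u u' : pdivUnits p N) : mk (u * u') = mk u + mk u' := rfl

theorem mk_one : mk (1 : pdivUnits p N) = 0 := rfl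

theorem mk_inv (u : pdivUnits p N) : mk u⁻¹ = - mk u := rfl

theorem mk_pow (u : pdivUnits p N) (n : ℕ) : mk (u ^ n) = n • mk u := rfl

theorem mk_eq_zero_iff (u : pdivUnits p N) : mk u = 0 ↔ ∃ z : (FF N)ˣ, z ^ p = (u : (FF N)ˣ) := by
  have : mk u = 0 ↔ (QuotientGroup.mk u : pdivUnits p N ⧸ (ppow p N).subgroupOf (pdivUnits p N)) = 1 :=
    Iff.rfl
  rw [this, QuotientGroup.eq_one_iff, Subgroup.mem_subgroupOf, mem_ppow]

theorem mk_eq_iff (u u' : pdivUnits p N) :
    mk u = mk u' ↔ ∃ z : (FF N)ˣ, (u : (FF N)ˣ) = u' * z ^ p := by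
  rw [← sub_eq_zero, sub_eq_add_neg, ← mk_inv, ← mk_mul, mk_eq_zero_iff]
  constructor
  · rintro ⟨z, hz⟩
    refine ⟨z, ?_⟩
    rw [hz]
    simp
  · rintro ⟨z, hz⟩
    refine ⟨z, ?_⟩
    simp [hz]

theorem nsmul_eq_zero (x : KV p N) : p • x = 0 := by
  obtain ⟨u, rfl⟩ := mk_surjective x
  rw [← mk_pow, mk_eq_zero_iff]
  exact ⟨u, rfl⟩

instance : Module (ZMod p) (KV p N) := AddCommGroup.zmodModule nsmul_eq_zero

/-- An endomorphism of the unit group preserving `pdivUnits` induces an endomorphism of `KV`. -/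
def lift (φ : (FF N)ˣ →* (FF N)ˣ) (h : ∀ u ∈ pdivUnits p N, φ u ∈ pdivUnits p N) :
    KV p N →+ KV p N :=
  MonoidHom.toAdditive (QuotientGroup.map _ _
    ((φ.comp (pdivUnits p N).subtype).codRestrict (pdivUnits p N) fun u => h u u.2) (by
      rintro ⟨u, hu⟩ hu'
      rw [Subgroup.mem_subgroupOf, mem_ppow] at hu'
      obtain ⟨z, hz⟩ := hu'
      rw [Subgroup.mem_comap, Subgroup.mem_subgroupOf, mem_ppow]
      refine ⟨φ z, ?_⟩
      rw [← map_pow, hz]
      rfl))

theorem lift_mk (φ : (FF N)ˣ →* (FF N)ˣ) (h : ∀ u ∈ pdivUnits p N, φ u ∈ pdivUnits p N)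
    (u : pdivUnits p N) : lift φ h (mk u) = mk ⟨φ u, h u u.2⟩ := rfl

end KV

/-! ### Galois and Hecke action on `KV` -/

/-- The Galois action on units. -/
def galU (N : ℕ) (σ : GQ) : (FF N)ˣ →* (FF N)ˣ := Units.map ((gal N σ : FF N ≃+* FF N) : FF N →* FF N)

theorem galU_mem (p N : ℕ) (σ : GQ) (u : (FF N)ˣ) (hu : u ∈ pdivUnits p N) :
    galU N σ u ∈ pdivUnits p N := by
  intro v
  have h := SemilinearAut.ord_smul (arithmeticGalois (modularFunctionFieldFull N) σ)
    ((arithmeticGalois (modularFunctionFieldFull N) σ)⁻¹ • v) (u : FF N)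
  rw [smul_inv_smul] at h
  have e : ((galU N σ u : (FF N)ˣ) : FF N)
      = arithmeticGalois (modularFunctionFieldFull N) σ • (u : FF N) := rfl
  rw [e, h]
  exact hu _

/-- The Galois representation on the Kummer group. -/
def galV (p N : ℕ) : GQ →* Module.End (ZMod p) (KV p N) where
  toFun σ := (KV.lift (galU N σ) (galU_mem p N σ)).toZModLinearMap p
  map_one' := by
    ext x
    obtain ⟨u, rfl⟩ := KV.mk_surjective x
    change KV.lift (galU N 1) (galU_mem p N 1) (KV.mk u) = KV.mk u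
    rw [KV.lift_mk]
    congr 1
  map_mul' σ τ := by
    ext x
    obtain ⟨u, rfl⟩ := KV.mk_surjective x
    change KV.lift (galU N (σ * τ)) (galU_mem p N (σ * τ)) (KV.mk u)
      = KV.lift (galU N σ) (galU_mem p N σ) (KV.lift (galU N τ) (galU_mem p N τ) (KV.mk u))
    rw [KV.lift_mk, KV.lift_mk, KV.lift_mk]
    congr 1

theorem galV_mk (p N : ℕ) (σ : GQ) (u : pdivUnits p N) :
    galV p N σ (KV.mk u) = KV.mk ⟨galU N σ u, galU_mem p N σ u u.2⟩ := rfl

/-- The Hecke operator on units. -/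
def heckeU (N ℓ : ℕ) [NeZero N] [NeZero ℓ] : (FF N)ˣ →* (FF N)ˣ := Units.map (heckeMul N ℓ)

open Classical in
/-- The Hecke operator on the Kummer group (junk value `0` if `heckeMul` did not preserve
`pdivUnits`; it does, see `heckeU_mem` in `KDiv.lean`). -/
def heckeV (p N ℓ : ℕ) [NeZero N] [NeZero ℓ] : Module.End (ZMod p) (KV p N) :=
  if h : ∀ u ∈ pdivUnits p N, heckeU N ℓ u ∈ pdivUnits p N then
    (KV.lift (heckeU N ℓ) h).toZModLinearMap p
  else 0

theorem heckeV_mk (p N ℓ : ℕ) [NeZero N] [NeZero ℓ]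
    (h : ∀ u ∈ pdivUnits p N, heckeU N ℓ u ∈ pdivUnits p N) (u : pdivUnits p N) :
    heckeV p N ℓ (KV.mk u) = KV.mk ⟨heckeU N ℓ u, h u u.2⟩ := by
  rw [heckeV, dif_pos h]
  rfl

/-! ### Integrality of `q`-expansions -/

/-- All coefficients lie in `A`. -/
def IsIntA (A : ValuationSubring Kb) (x : LaurentSeries Kb) : Prop := ∀ n, x.coeff n ∈ A

/-- All coefficients lie in `A` and some coefficient is a unit of `A`. -/
def IsPrimA (A : ValuationSubring Kb) (x : LaurentSeries Kb) : Prop :=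
  IsIntA A x ∧ ∃ n, x.coeff n ∉ A.nonunits

/-- Coefficientwise congruence modulo the maximal ideal of `A`. -/
def CongA (A : ValuationSubring Kb) (x y : LaurentSeries Kb) : Prop :=
  ∀ n, x.coeff n - y.coeff n ∈ A.nonunits

/-- `w = y₁ / y₂` with `y₁ ≡ y₂ ≢ 0` modulo the maximal ideal of `A`: "`w ≡ 1` for the Gauss
valuation". -/
def GaussOne (A : ValuationSubring Kb) (N : ℕ) (w : FF N) : Prop :=
  ∃ y₁ y₂ : FF N, IsPrimA A (y₂ : LaurentSeries Kb) ∧ IsIntA A (y₁ : LaurentSeries Kb) ∧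
    CongA A (y₁ : LaurentSeries Kb) (y₂ : LaurentSeries Kb) ∧ w * y₂ = y₁

/-- **The injectivity statement** (output of the blocks RH / MODEL / MOD). -/
def INJ (p N : ℕ) (A : ValuationSubring Kb) : Prop :=
  ∀ w : FF N, IsPDiv p N w → GaussOne A N w → ∃ z : FF N, w = z ^ p

end Fermat.Agent.ES
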