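import Fermat.Agent.ES.QEFin
import Fermat.Agent.ES.KDefs
import Fermat.Agent.ES.IDvr

/-!
# ES, block INJ, instantiation : shared definitions

* `IDvr.R0 K0 A = A ∩ K0` (helper2), `res0 K0 A : R0 K0 A →+* kA A` (residue field of `A`),
* `F0 K N = K(gen K N) ⊆ K((q))` (the S28 generators `j(q^d)`, `H_d`, `d ∣ N`),
* `bc K0 : K0((q)) → ℚ̄((q))`,
* `ZCoord N ℓ` : a coordinate `x` of the base line given by integral data
  (`x = j`, `t₂`, `t₃`), `ZCoord.Unram` : unramifiedness outside `x ∈ {0, a, ∞}`.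
-/

set_option autoImplicit false

noncomputable section

namespace Fermat.Agent.ES.Inst

open ModularCurve AlgebraicCurve Polynomial
open Fermat.Agent.S24 Fermat.Agent.S28 Fermat.Agent.ES.QE Fermat.Agent.ES.IDvr

/-- the residue field of `A`. -/
abbrev kA (A : ValuationSubring Kb) : Type := IsLocalRing.ResidueField A

/-- the reduction `A ∩ K0 → A / 𝔪`. -/
def res0 (K0 : IntermediateField ℚ Kb) (A : ValuationSubring Kb) : R0 K0 A →+* kA A :=
  (IsLocalRing.residue A).comp (incl K0 A)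

/-- the function field `K(j(q^d), H_d : d ∣ N) ⊆ K((q))`. -/
def F0 (K : Type*) [Field K] (N : ℕ) : IntermediateField K (LaurentSeries K) :=
  IntermediateField.adjoin K (Set.range (gen K N))

/-- extension of the coefficients `K0((q)) → ℚ̄((q))`. -/
def bc (K0 : IntermediateField ℚ Kb) : LaurentSeries K0 →+* LaurentSeries Kb :=
  coeffMap (algebraMap K0 Kb)

/-- `x(q) ∈ ℤ((q))` with coefficients mapped to `S`. -/
def zS (S : Type*) [CommRing S] (x : LaurentSeries ℤ) : LaurentSeries S :=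
  coeffMap (Int.castRingHom S) x

/-- A coordinate on the base line, given by integral data: `x = q⁻¹ + ⋯ ∈ ℤ((q))`,
`j Q(x) = P(x)`; `a` is a unit modulo `ℓ`.
(`x = j`, `a = 1728`, `ℓ ≥ 5`; `x = t₂`, `a = -64`, `ℓ = 3`; `x = t₃`, `a = -27`, `ℓ = 2`.) -/
structure ZCoord (N ℓ : ℕ) where
  /-- the `q`-expansion of `x` -/
  xZ : LaurentSeries ℤ
  /-- the `q`-expansion of `1 / x` -/
  yZ : LaurentSeries ℤ
  mul_eq : xZ * yZ = 1
  coeff_neg_one : xZ.coeff (-1) = 1
  coeff_of_lt : ∀ n : ℤ, n < -1 → xZ.coeff n = 0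
  /-- numerator of `j` -/
  P : ℤ[X]
  /-- denominator of `j` -/
  Q : ℤ[X]
  rel : jqModC ℤ * evS xZ Q = evS xZ P
  Q_prim : Q.map (Int.castRingHom (ZMod ℓ)) ≠ 0
  mem : zS Kb xZ ∈ modularFunctionFieldBar N
  /-- the second branch value -/
  a : ℤ
  a_prim : ¬ (ℓ : ℤ) ∣ a

/-- the coordinate as an element of `FF N`. -/
def ZCoord.xF {N ℓ : ℕ} (Z : ZCoord N ℓ) : FF N := ⟨zS Kb Z.xZ, Z.mem⟩

/-- (U) at the level of the places of `FF N`: `x` is unramified outside `x ∈ {0, a, ∞}`. -/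
def ZCoord.Unram {N ℓ : ℕ} (Z : ZCoord N ℓ) : Prop :=
  ∀ c : Kb, c ≠ 0 → c ≠ (Z.a : Kb) → ∀ v : Place Kb (FF N),
    0 < v.ord (Z.xF - algebraMap Kb (FF N) c) → v.ord (Z.xF - algebraMap Kb (FF N) c) = 1

/-- the ramification polynomial of the chart `R[x]`. -/
def gFin (R : Type*) [CommRing R] (a : ℤ) : R[X] := X * (X - C (a : R))

/-- the ramification polynomial of the chart `R[1/x]`. -/
def gInf (R : Type*) [CommRing R] (a : ℤ) : R[X] := X * (1 - C (a : R) * X)

section Abs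

variable {R K k : Type*} [CommRing R] [IsDomain R] [IsNoetherianRing R] [IsIntegrallyClosed R]
  [Field K] [Algebra R K] [IsFractionRing R K] [Field k] {D : QData R K k}

/-- `ϖ` as an element of the chart. -/
def ϖB (X : D.Coord) : X.chart := ⟨D.ϖF, by rw [← X.phiF_C_ϖ]; exact X.phiF_mem_chart _⟩

/-- `z` is integral over `K[x]`. -/
def IsIntK (X : D.Coord) (z : D.F0) : Prop := ∃ c : ℕ, D.ϖF ^ c * z ∈ X.chart

/-- (U′) (helper4): `B_K / (f)` is reduced for every irreducible `f ∈ K[x]` not dividing `g`. -/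
def UPrime (X : D.Coord) (g : R[X]) : Prop :=
  ∀ f : R[X], Irreducible (f.map (algebraMap R K)) →
    ¬ f.map (algebraMap R K) ∣ g.map (algebraMap R K) →
    ∀ z : D.F0, IsIntK X z → IsIntK X (z ^ 2 / X.phiF f) → IsIntK X (z / X.phiF f)

end Abs

end Fermat.Agent.ES.Inst
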