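import Fermat.Agent.ES.FkEmb
import Fermat.Agent.S28.Upper
import Fermat.Agent.S28.LamGen
import Fermat.Agent.S28.Integral

/-!
# Project ES: the `θ`-block (primitive element with unit different), in the language of S28
-/

set_option autoImplicit false
set_option linter.style.haveILetI false

noncomputable section

namespace Fermat.Agent.ES.Theta

open Fermat.Agent.S28 ModularCurve Polynomial
open scoped MatrixGroups

section General

variable {R : Type*} [CommRing R] (ζ : Rˣ) {N : ℕ} [NeZero N]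

/-- the trivial coset. -/
abbrev a0 (N : ℕ) : Cos N := ((1 : SL(2, ℤ)) : Cos N)

omit [NeZero N] in
theorem rep_a0_mem : rep (a0 N) ∈ CongruenceSubgroup.Gamma0 N := (rep_mem_Gamma0_iff _).mpr rfl

/-- `c ↦ c(j)` as a ring homomorphism. -/
abbrev jHom (R : Type*) [CommRing R] : R[X] →+* LaurentSeries R := (aeval (jqModC R)).toRingHom

theorem qExp_comp_jHom (R : Type*) [CommRing R] (N : ℕ) [NeZero N] :
    (qExp R N).comp (jHom R) = (aeval (Jt R N)).toRingHom := by
  apply Polynomial.ringHom_ext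
  · intro a
    simp only [RingHom.comp_apply, AlgHom.toRingHom_eq_coe, RingHom.coe_coe, aeval_C]
    rw [Ord.algebraMap_eq_C, HahnSeries.C_apply, qExp_eq, qExpand_single, mul_zero]
  · simp only [RingHom.comp_apply, AlgHom.toRingHom_eq_coe, RingHom.coe_coe, aeval_X]
    rfl

theorem aeval_Jt_injective (R : Type*) [CommRing R] (N : ℕ) [NeZero N] :
    Function.Injective (aeval (R := R) (Jt R N)).toRingHom := by
  rw [injective_iff_map_eq_zero]
  intro p hp
  by_contra h0
  rw [← qExp_comp_jHom, RingHom.comp_apply] at hp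
  have := Ord.qExp_injective (R := R) N (hp.trans (map_zero _).symm)
  exact Lam.aeval_jqModC_ne_zero R h0 this

/-- the characteristic polynomial of `θ = ev0 U`. -/
theorem exists_poly [Nontrivial R] (hR : ModEq R ζ N) (U : MvPolynomial (Gen N) R) :
    ∃ P : R[X][X], P.Monic ∧ P.natDegree = Fintype.card (Cos N) ∧
      P.map (aeval (Jt R N)).toRingHom = ∏ a : Cos N, (X - C (ev R ζ N (rep a) U)) := by
  obtain ⟨P, hP⟩ := hR U
  have hm : (P.map (aeval (Jt R N)).toRingHom).Monic := by
    rw [hP]; exact monic_prod_X_sub_C _ _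
  refine ⟨P, Polynomial.monic_of_injective (aeval_Jt_injective R N) hm, ?_, hP⟩
  rw [← natDegree_map_eq_of_injective (aeval_Jt_injective R N), hP,
    natDegree_finsetProd_X_sub_C_eq_card, Finset.card_univ]

theorem qExp_eval₂ (P : R[X][X]) (x : LaurentSeries R) :
    qExp R N (eval₂ (jHom R) x P) = eval (qExp R N x) (P.map (aeval (Jt R N)).toRingHom) := by
  rw [hom_eval₂, qExp_comp_jHom, eval_map]

/-- `P(j, θ) = 0`. -/
theorem eval₂_eq_zero (hζ : ζ ^ N = 1) (U : MvPolynomial (Gen N) R) (P : R[X][X])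
    (hP : P.map (aeval (Jt R N)).toRingHom = ∏ a : Cos N, (X - C (ev R ζ N (rep a) U))) :
    eval₂ (jHom R) (ev0 R N U) P = 0 := by
  apply Ord.qExp_injective (R := R) N
  rw [map_zero, qExp_eval₂, hP, eval_prod]
  apply Finset.prod_eq_zero (Finset.mem_univ (a0 N))
  rw [ev_of_mem_Gamma0 ζ hζ rep_a0_mem]
  simp

open Classical in
/-- `P_Y(j, θ) = ∏_{a ≠ a₀} (θ - θ_a)`. -/
theorem qExp_eval₂_derivative (hζ : ζ ^ N = 1) (U : MvPolynomial (Gen N) R) (P : R[X][X])
    (hP : P.map (aeval (Jt R N)).toRingHom = ∏ a : Cos N, (X - C (ev R ζ N (rep a) U))) :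
    qExp R N (eval₂ (jHom R) (ev0 R N U) (derivative P)) =
      ∏ a ∈ Finset.univ.erase (a0 N), (ev R ζ N (rep (a0 N)) U - ev R ζ N (rep a) U) := by
  rw [qExp_eval₂, ← derivative_map, hP, ← Finset.mul_prod_erase _ _ (Finset.mem_univ (a0 N)),
    derivative_mul, eval_add, eval_mul, eval_mul, ← ev_of_mem_Gamma0 ζ hζ rep_a0_mem]
  simp [eval_prod]

end General

section Reduction

variable {R k : Type*} [CommRing R] [Field k] (g : R →+* k) (ζ : Rˣ) {N : ℕ} [NeZero N]

/-- the different of `θ` is a Gauss unit. -/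
theorem coeffMap_derivative_ne_zero (hζ : ζ ^ N = 1) (U : MvPolynomial (Gen N) R)
    (hU : Function.Injective fun a : Cos N =>
      ev k (Units.map (g : R →* k) ζ) N (rep a) (MvPolynomial.map g U))
    (P : R[X][X])
    (hP : P.map (aeval (Jt R N)).toRingHom = ∏ a : Cos N, (X - C (ev R ζ N (rep a) U))) :
    coeffMap g (eval₂ (jHom R) (ev0 R N U) (derivative P)) ≠ 0 := by
  classical
  intro h0
  have h1 := congrArg (qExp k N) h0
  rw [map_zero, ← Ord.coeffMap_qExp, qExp_eval₂_derivative ζ hζ U P hP, map_prod,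
    Finset.prod_eq_zero_iff] at h1
  obtain ⟨a, ha, h2⟩ := h1
  rw [map_sub, coeffMap_ev, coeffMap_ev, sub_eq_zero] at h2
  exact (Finset.ne_of_mem_erase ha) (hU h2).symm

end Reduction

section CharZero

variable {K : Type*} [Field K] [CharZero K] (ζ : Kˣ) {N : ℕ} [NeZero N]

omit [CharZero K] in
theorem exists_relation (hζ : ζ ^ N = 1) (h1 : ModEq K ζ N) (U : MvPolynomial (Gen N) K) :
    ∃ c : Fin (Fintype.card (Cos N) + 1) → K[X], c ≠ 0 ∧
      ∑ i, aeval (jqModC K) (c i) * (MvPolynomial.aeval (gen K N) U) ^ (i : ℕ) = 0 := by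
  obtain ⟨P, hm, hdeg, hP⟩ := exists_poly ζ h1 U
  have h0 := eval₂_eq_zero ζ hζ U P hP
  rw [eval₂_eq_sum_range, hdeg, Finset.sum_range] at h0
  refine ⟨fun i => P.coeff i, ?_, h0⟩
  intro hc
  have h2 : P.coeff (Fintype.card (Cos N)) = 0 := congrFun hc (Fin.last _)
  rw [← hdeg] at h2
  rw [show P.coeff P.natDegree = 1 from hm] at h2
  exact one_ne_zero h2

/-- the powers of a separating element span the function field over `K(j)`. -/
theorem span_theta (hζ : IsPrimitiveRoot ζ N) (h1 : ModEq K ζ N) (h2 : UnitEq K ζ N)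
    (U : MvPolynomial (Gen N) K)
    (hU : Function.Injective fun a : Cos N => ev K ζ N (rep a) U)
    (f : LaurentSeries K) (hf : f ∈ IntermediateField.adjoin K (Set.range (gen K N))) :
    ∃ (s : K[X]) (a : Fin (Fintype.card (Cos N)) → K[X]), s ≠ 0 ∧
      aeval (jqModC K) s * f = ∑ r, aeval (jqModC K) (a r) * ev0 K N U ^ (r : ℕ) := by
  have hN : (N : K) ≠ 0 := Nat.cast_ne_zero.mpr (NeZero.ne N)
  have hx₀ : gen K N (FkEmb.x1 N) = jqModC K := by
    have := FkEmb.ev0_x1 (N := N) K
    rwa [ev0, MvPolynomial.aeval_X] at this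
  refine Upper.span_abstract (jqModC K) (transcendental_jqModC K) (gen K N) _ hx₀
    (Fintype.card (Cos N)) (exists_relation ζ hζ.pow_eq_one h1)
    (fun r => ev0 K N U ^ (r : ℕ)) ?_ (FkEmb.indep_of_injective ζ hζ hN h1 h2 U hU) f hf
  intro r
  apply pow_mem
  apply IntermediateField.algebra_adjoin_le_adjoin K (Set.range (gen K N))
  rw [Algebra.adjoin_range_eq_range_aeval]
  exact ⟨_, rfl⟩

end CharZero

section Lift

variable {R K k : Type*} [CommRing R] [Field K] [Field k] (ι : R →+* K) (g : R →+* k) (ζ : Rˣ)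
  {N : ℕ} [NeZero N]

omit [NeZero N] in
/-- a polynomial over `R` which separates the conjugates after reduction separates them over `K`.-/
theorem injective_of_reduction (hι : Function.Injective ι) (U : MvPolynomial (Gen N) R)
    (hU : Function.Injective fun a : Cos N =>
      ev k (Units.map (g : R →* k) ζ) N (rep a) (MvPolynomial.map g U)) :
    Function.Injective fun a : Cos N =>
      ev K (Units.map (ι : R →* K) ζ) N (rep a) (MvPolynomial.map ι U) := by
  intro a b hab
  simp only [← coeffMap_ev] at hab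
  have h1 : ev R ζ N (rep a) U = ev R ζ N (rep b) U := Int'.coeffMap_injective ι hι hab
  apply hU
  simp only [← coeffMap_ev, h1]

end Lift

end Fermat.Agent.ES.Theta
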