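import Fermat.Agent.ES.ETGlue
import Fermat.Agent.ES.Theta
import Fermat.Agent.ES.ResField
import Fermat.Agent.ES.InstDefs

/-!
# Project ES: existence of the structure `QData.Theta` for the `q`-expansion data of level `N`
over `A ∩ K0`, for every sufficiently large number field `K0`
-/

set_option autoImplicit false
set_option linter.style.haveILetI false
set_option linter.unusedSectionVars false

open ModularCurve Polynomial

noncomputable section

namespace Fermat.Agent.ES.Inst

open Fermat.Agent.S24 Fermat.Agent.S28 Fermat.Agent.ES.QE Fermat.Agent.ES.IDvr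

namespace ETInst

section Abstract

variable {R K k : Type*} [CommRing R] [IsDomain R] [IsNoetherianRing R] [IsIntegrallyClosed R]
  [Field K] [CharZero K] [Algebra R K] [IsFractionRing R K] [Field k]

/-- the abstract construction of `Theta`. -/
theorem nonempty_theta (N : ℕ) [NeZero N] (D : QData R K k)
    (hF : D.F0 = IntermediateField.adjoin K (Set.range (gen K N)))
    (ζ : Rˣ) (hζ : IsPrimitiveRoot ζ N) (h1 : ModEq R ζ N)
    (h1K : ModEq K (Units.map (algebraMap R K : R →* K) ζ) N)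
    (h2K : UnitEq K (Units.map (algebraMap R K : R →* K) ζ) N)
    (U : MvPolynomial (Gen N) R)
    (hU : Function.Injective fun a : Cos N =>
      ev k (Units.map (D.res : R →* k) ζ) N (rep a) (MvPolynomial.map D.res U)) :
    Nonempty D.Theta := by
  obtain ⟨P, hmon, -, hP⟩ := Theta.exists_poly ζ h1 U
  have hj : Theta.jHom R = evS (jqModC R) := by
    refine RingHom.ext fun p => ?_
    exact aeval_eq_evS _ _
  have hinj : Function.Injective (algebraMap R K) := IsFractionRing.injective R K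
  have hζK : IsPrimitiveRoot (Units.map (algebraMap R K : R →* K) ζ) N := by
    rw [← IsPrimitiveRoot.coe_units_iff]
    exact (IsPrimitiveRoot.coe_units_iff.mpr hζ).map_of_injective hinj
  refine ⟨⟨ev0 R N U, ?_, P, hmon, ?_, ?_, Fintype.card (Cos N), ?_⟩⟩
  · change coeffMap (algebraMap R K) (ev0 R N U) ∈ D.F0
    rw [coeffMap_ev0, hF]
    apply IntermediateField.algebra_adjoin_le_adjoin K (Set.range (gen K N))
    rw [Algebra.adjoin_range_eq_range_aeval]
    exact ⟨_, rfl⟩
  · rw [← hj]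
    exact Theta.eval₂_eq_zero ζ hζ.pow_eq_one U P hP
  · rw [← hj]
    exact Theta.coeffMap_derivative_ne_zero D.res ζ hζ.pow_eq_one U hU P hP
  · intro f hf
    rw [hF] at hf
    obtain ⟨s, a, hs, h⟩ := Theta.span_theta _ hζK h1K h2K (MvPolynomial.map (algebraMap R K) U)
      (Theta.injective_of_reduction (algebraMap R K) D.res ζ hinj U hU) f hf
    refine ⟨s, a, hs, ?_⟩
    simp only [aeval_eq_evS] at h
    rw [h]
    refine Finset.sum_congr rfl fun r _ => ?_
    congr 2
    exact (coeffMap_ev0 _ _ _).symm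

end Abstract

end ETInst

/-- **(ET), instantiated**: for every sufficiently large number field `K0` the `q`-expansion data
of level `N` over `A ∩ K0` have a primitive element with unit different. -/
theorem exists_K1_theta (N ℓ : ℕ) [NeZero N] (hℓ : ℓ.Prime) (hℓN : ¬ ℓ ∣ N)
    (A : ValuationSubring Kb) (hA : A.LiesOverPrime ℓ) :
    ∃ K1 : IntermediateField ℚ Kb, FiniteDimensional ℚ K1 ∧
      ∀ K0 : IntermediateField ℚ Kb, FiniteDimensional ℚ K0 → K1 ≤ K0 →
        ∀ [IsDiscreteValuationRing (R0 K0 A)] (D : QData (R0 K0 A) K0 (kA A)),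
          D.F0 = F0 K0 N → D.res = res0 K0 A → Nonempty D.Theta := by
  classical
  have hN : N ≠ 0 := NeZero.ne N
  obtain ⟨ζ₁, hζ₁⟩ := ResField.exists_zetaQ N
  have hprim₁ : IsPrimitiveRoot ζ₁ N := by
    have : IsPrimitiveRoot (ResField.iot ζ₁) N := by
      rw [hζ₁]
      exact IsPrimitiveRoot.coe_units_iff.mpr (Degree.isPrimitiveRoot_zetaC N)
    exact IsPrimitiveRoot.of_map_of_injective this ResField.iot.injective
  have hpow : ζ₁ ^ N = 1 := hprim₁.pow_eq_one
  have hζ₁0 : ζ₁ ≠ 0 := hprim₁.ne_zero hN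
  have hmem : ζ₁ ∈ A := ResField.mem_of_pow_eq_one (A := A) hN hpow
  have hmem' : ζ₁⁻¹ ∈ A := ResField.mem_of_pow_eq_one (A := A) hN (by rw [inv_pow, hpow, inv_one])
  obtain ⟨ζA, hζA⟩ : ∃ ζA : Aˣ, ((ζA : A) : Kb) = ζ₁ :=
    ⟨⟨⟨ζ₁, hmem⟩, ⟨ζ₁⁻¹, hmem'⟩, Subtype.ext (mul_inv_cancel₀ hζ₁0),
      Subtype.ext (inv_mul_cancel₀ hζ₁0)⟩, rfl⟩
  have hprimA : IsPrimitiveRoot (ζA : A) N := by
    apply IsPrimitiveRoot.of_map_of_injective (f := A.subtype) _ Subtype.val_injective
    change IsPrimitiveRoot ((ζA : A) : Kb) N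
    rw [hζA]
    exact hprim₁
  have hchar := ResField.charP (A := A) hℓ hA
  have hNk : (N : kA A) ≠ 0 := by
    rw [Ne, CharP.cast_eq_zero_iff _ ℓ]
    exact hℓN
  have hinf : Infinite (kA A) := IsAlgClosed.instInfinite
  have hprimk : IsPrimitiveRoot (Units.map (IsLocalRing.residue A : A →* kA A) ζA) N := by
    rw [← IsPrimitiveRoot.coe_units_iff]
    exact ResField.isPrimitiveRoot_map (IsLocalRing.residue A) hprimA hNk
  obtain ⟨Ubar, hUbar⟩ := FkEmb.exists_theta _ hprimk
  obtain ⟨UA, hUA⟩ := MvPolynomial.map_surjective (IsLocalRing.residue A)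
    IsLocalRing.residue_surjective Ubar
  have halg : Algebra.IsAlgebraic ℚ Kb := AlgebraicClosure.isAlgebraic ℚ
  obtain ⟨K1, hK1, hS⟩ := exists_numberField
    (insert ζ₁ (UA.coeffs.image (Subtype.val : A → Kb)) : Finset Kb)
  refine ⟨K1, hK1, fun K0 hK0 hle hdvr D hF hres => ?_⟩
  have hζK0 : ζ₁ ∈ K0 := hle (hS ζ₁ (Finset.mem_insert_self _ _))
  obtain ⟨ζR, hζR⟩ : ∃ ζR : (R0 K0 A)ˣ, (((ζR : R0 K0 A) : K0) : Kb) = ζ₁ := by
    refine ⟨⟨⟨⟨ζ₁, hζK0⟩, hmem⟩, ⟨⟨ζ₁⁻¹, K0.inv_mem hζK0⟩, hmem'⟩, ?_, ?_⟩, rfl⟩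
    · apply Subtype.val_injective
      apply Subtype.val_injective
      exact mul_inv_cancel₀ hζ₁0
    · apply Subtype.val_injective
      apply Subtype.val_injective
      exact inv_mul_cancel₀ hζ₁0
  have hinclζ : Units.map (incl K0 A : R0 K0 A →* A) ζR = ζA := by
    ext
    change (((ζR : R0 K0 A) : K0) : Kb) = ((ζA : A) : Kb)
    rw [hζR, hζA]
  have hprimR : IsPrimitiveRoot ζR N := by
    rw [← IsPrimitiveRoot.coe_units_iff]
    apply IsPrimitiveRoot.of_map_of_injective (f := incl K0 A) _ (incl_injective K0 A)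
    have : incl K0 A (ζR : R0 K0 A) = (ζA : A) := congrArg Units.val hinclζ
    rw [this]
    exact hprimA
  have hK := ResField.transfer (ResField.iot.comp (algebraMap K0 Kb))
    (ResField.iot.injective.comp (algebraMap K0 Kb).injective) N
    (Units.map (algebraMap (R0 K0 A) K0 : R0 K0 A →* K0) ζR) (by
      ext
      change ResField.iot (((ζR : R0 K0 A) : K0) : Kb) = _
      rw [hζR, hζ₁])
  have hR := ResField.transfer
    ((ResField.iot.comp (algebraMap K0 Kb)).comp (R0 K0 A).subtype)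
    ((ResField.iot.injective.comp (algebraMap K0 Kb).injective).comp Subtype.val_injective) N ζR (by
      ext
      change ResField.iot (((ζR : R0 K0 A) : K0) : Kb) = _
      rw [hζR, hζ₁])
  obtain ⟨U0, hU0⟩ : ∃ U0 : MvPolynomial (Gen N) (R0 K0 A),
      MvPolynomial.map (incl K0 A) U0 = UA := by
    have : UA ∈ Set.range (MvPolynomial.map (incl K0 A) :
        MvPolynomial (Gen N) (R0 K0 A) → MvPolynomial (Gen N) A) := by
      rw [MvPolynomial.mem_range_map_iff_coeffs_subset]
      intro c hc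
      have hc' : (c : Kb) ∈ K0 :=
        hle (hS _ (Finset.mem_insert_of_mem (Finset.mem_image_of_mem _ hc)))
      exact ⟨⟨⟨(c : Kb), hc'⟩, c.2⟩, Subtype.ext rfl⟩
    exact this
  refine ETInst.nonempty_theta N D hF ζR hprimR hR.1 hK.1 hK.2 U0 ?_
  have e1 : Units.map (D.res : R0 K0 A →* kA A) ζR
      = Units.map (IsLocalRing.residue A : A →* kA A) ζA := by
    rw [hres, ← hinclζ]
    rfl
  have e2 : MvPolynomial.map D.res U0 = Ubar := by
    rw [hres, res0, ← MvPolynomial.map_map, hU0, hUA]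
  rw [e1, e2]
  exact hUbar

end Fermat.Agent.ES.Inst
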