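import Mathlib
import Fermat.Agent.S21.Defs

set_option autoImplicit false

/-!
# Weighted and twisted Eisenstein series

`eisW w k z = ∑_v w(v) (v₀ z + v₁)^(-k)` for a bounded weight `w` on `ℤ²`, and the special case
`w(bottom row of g) = χ(g)⁻¹` for a unitary character `χ` of `Γ₀(N)` trivial on the stabiliser
of `∞`.
-/

namespace Fermat.Agent.ES.EisTw

open UpperHalfPlane ModularForm Filter EisensteinSeries Matrix CongruenceSubgroup
open scoped MatrixGroups Manifold Topology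

/-- Weighted Eisenstein series. -/
noncomputable def eisW (w : (Fin 2 → ℤ) → ℂ) (k : ℤ) (z : ℍ) : ℂ :=
  ∑' v : Fin 2 → ℤ, w v * eisSummand k v z

variable {w : (Fin 2 → ℤ) → ℂ} {k : ℤ}

lemma norm_term_le (hw : ∀ v, ‖w v‖ ≤ 1) (v : Fin 2 → ℤ) (z : ℍ) :
    ‖w v * eisSummand k v z‖ ≤ ‖eisSummand k v z‖ := by
  rw [norm_mul]
  exact mul_le_of_le_one_left (norm_nonneg _) (hw v)

lemma summable_norm_term (hw : ∀ v, ‖w v‖ ≤ 1) (hk : 3 ≤ k) (z : ℍ) :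
    Summable fun v : Fin 2 → ℤ => ‖w v * eisSummand k v z‖ :=
  (summable_norm_eisSummand hk z).of_nonneg_of_le (fun _ => norm_nonneg _)
    (fun v => norm_term_le hw v z)

lemma summable_term (hw : ∀ v, ‖w v‖ ≤ 1) (hk : 3 ≤ k) (z : ℍ) :
    Summable fun v : Fin 2 → ℤ => w v * eisSummand k v z :=
  (summable_norm_term hw hk z).of_norm

lemma coe_mul_coe_inv (g : SL(2, ℤ)) : (g : Matrix (Fin 2) (Fin 2) ℤ) *
    ((g⁻¹ : SL(2, ℤ)) : Matrix (Fin 2) (Fin 2) ℤ) = 1 :=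
  congrArg (fun x : SL(2, ℤ) => (x : Matrix (Fin 2) (Fin 2) ℤ)) (mul_inv_cancel g)

lemma coe_inv_mul_coe (g : SL(2, ℤ)) : ((g⁻¹ : SL(2, ℤ)) : Matrix (Fin 2) (Fin 2) ℤ) *
    (g : Matrix (Fin 2) (Fin 2) ℤ) = 1 :=
  congrArg (fun x : SL(2, ℤ) => (x : Matrix (Fin 2) (Fin 2) ℤ)) (inv_mul_cancel g)

/-- Right multiplication by `g ∈ SL(2,ℤ)` as a permutation of `ℤ²`. -/
def vmEquiv (g : SL(2, ℤ)) : (Fin 2 → ℤ) ≃ (Fin 2 → ℤ) where
  toFun v := v ᵥ* (g : Matrix (Fin 2) (Fin 2) ℤ)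
  invFun v := v ᵥ* ((g⁻¹ : SL(2, ℤ)) : Matrix (Fin 2) (Fin 2) ℤ)
  left_inv v := by
    show (v ᵥ* (g : Matrix (Fin 2) (Fin 2) ℤ)) ᵥ* ((g⁻¹ : SL(2, ℤ)) : Matrix (Fin 2) (Fin 2) ℤ) = v
    rw [vecMul_vecMul, coe_mul_coe_inv, vecMul_one]
  right_inv v := by
    show (v ᵥ* ((g⁻¹ : SL(2, ℤ)) : Matrix (Fin 2) (Fin 2) ℤ)) ᵥ* (g : Matrix (Fin 2) (Fin 2) ℤ) = v
    rw [vecMul_vecMul, coe_inv_mul_coe, vecMul_one]

lemma eisW_slash (w : (Fin 2 → ℤ) → ℂ) (k : ℤ) (g : SL(2, ℤ)) :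
    eisW w k ∣[k] g =
      eisW (fun v => w (v ᵥ* ((g⁻¹ : SL(2, ℤ)) : Matrix (Fin 2) (Fin 2) ℤ))) k := by
  ext1 z
  rw [SL_slash_apply, _root_.zpow_neg, mul_inv_eq_iff_eq_mul₀ (zpow_ne_zero _ <| denom_ne_zero _ z)]
  simp only [eisW]
  rw [← tsum_mul_right]
  rw [← (vmEquiv g).tsum_eq
    (fun v => w (v ᵥ* ((g⁻¹ : SL(2, ℤ)) : Matrix (Fin 2) (Fin 2) ℤ)) * eisSummand k v z *
      denom g z ^ k)]
  refine tsum_congr fun v => ?_
  have h1 : (vmEquiv g v) ᵥ* ((g⁻¹ : SL(2, ℤ)) : Matrix (Fin 2) (Fin 2) ℤ) = v :=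
    (vmEquiv g).left_inv v
  rw [h1, eisSummand_SL2_apply]
  simp only [vmEquiv, Equiv.coe_fn_mk]
  ring

/-- The majorant `∑_v ‖(v₀ z + v₁)^(-k)‖`. -/
noncomputable def majS (k : ℤ) (z : ℍ) : ℝ := ∑' v : Fin 2 → ℤ, ‖eisSummand k v z‖

lemma norm_eisW_le (hw : ∀ v, ‖w v‖ ≤ 1) (hk : 3 ≤ k) (z : ℍ) : ‖eisW w k z‖ ≤ majS k z := by
  refine (norm_tsum_le_tsum_norm (summable_norm_term hw hk z)).trans ?_
  exact (summable_norm_term hw hk z).tsum_le_tsum (fun v => norm_term_le hw v z)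
    (summable_norm_eisSummand hk z)

lemma denom_T_zpow (n : ℤ) (z : ℍ) : denom (ModularGroup.T ^ n : SL(2, ℤ)) z = 1 := by
  have h : ((ModularGroup.T ^ n : SL(2, ℤ)) : Matrix (Fin 2) (Fin 2) ℤ) = !![1, n; 0, 1] :=
    ModularGroup.coe_T_zpow n
  rw [ModularGroup.denom_apply, h]
  simp

lemma majS_T_zpow (k : ℤ) (n : ℤ) (z : ℍ) : majS k ((ModularGroup.T ^ n : SL(2, ℤ)) • z) = majS k z := by
  simp only [majS]
  rw [← (vmEquiv (ModularGroup.T ^ n)).tsum_eq (fun v => ‖eisSummand k v z‖)]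
  refine tsum_congr fun v => ?_
  rw [eisSummand_SL2_apply, denom_T_zpow, _root_.one_zpow, one_mul]
  rfl

/-- Termwise bound on a vertical strip. -/
lemma norm_eisSummand_le_of_mem_verticalStrip (hk : 3 ≤ k) (v : Fin 2 → ℤ) {A B : ℝ} (hB : 0 < B)
    {z : ℍ} (hz : z ∈ verticalStrip A B) :
    ‖eisSummand k v z‖ ≤ r ⟨⟨A, B⟩, hB⟩ ^ (-k : ℝ) * ‖v‖ ^ (-k : ℝ) := by
  have hk' : (0 : ℝ) ≤ k := by
    have : (0 : ℤ) ≤ k := by omega
    exact_mod_cast this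
  have := summand_bound_of_mem_verticalStrip hk' v hB hz
  simpa only [eisSummand, norm_zpow, ← Real.rpow_intCast, Int.cast_neg] using this

lemma summable_bound (hk : 3 ≤ k) (c : ℝ) :
    Summable fun v : Fin 2 → ℤ => c * ‖v‖ ^ (-k : ℝ) := by
  have hk' : (2 : ℝ) < k := by norm_cast
  exact (summable_one_div_norm_rpow hk').mul_left c

lemma exists_majS_le (hk : 3 ≤ k) : ∃ C : ℝ, ∀ z : ℍ, 1 ≤ z.im → majS k z ≤ C := by
  refine ⟨∑' v : Fin 2 → ℤ, r ⟨⟨1, 1⟩, one_pos⟩ ^ (-k : ℝ) * ‖v‖ ^ (-k : ℝ), fun z hz => ?_⟩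
  obtain ⟨n, hn⟩ := ModularGroup_T_zpow_mem_verticalStrip z (N := 1) one_pos
  rw [← majS_T_zpow k ((1 : ℕ) * n) z]
  refine (summable_norm_eisSummand hk _).tsum_le_tsum (fun v => ?_) (summable_bound hk _)
  refine norm_eisSummand_le_of_mem_verticalStrip hk v one_pos ?_
  exact ⟨by simpa using hn.1, hz.trans hn.2⟩

lemma isBoundedAtImInfty_eisW (hw : ∀ v, ‖w v‖ ≤ 1) (hk : 3 ≤ k) :
    IsBoundedAtImInfty (eisW w k) := by
  obtain ⟨C, hC⟩ := exists_majS_le hk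
  rw [isBoundedAtImInfty_iff]
  exact ⟨C, 1, fun z hz => (norm_eisW_le hw hk z).trans (hC z hz)⟩

lemma isBoundedAtImInfty_eisW_slash (hw : ∀ v, ‖w v‖ ≤ 1) (hk : 3 ≤ k) (g : SL(2, ℤ)) :
    IsBoundedAtImInfty (eisW w k ∣[k] g) := by
  rw [eisW_slash]
  exact isBoundedAtImInfty_eisW (fun v => hw _) hk

theorem eisW_tendstoLocallyUniformly (hw : ∀ v, ‖w v‖ ≤ 1) (hk : 3 ≤ k) :
    TendstoLocallyUniformly (fun (s : Finset (Fin 2 → ℤ)) ↦ (∑ x ∈ s, w x * eisSummand k x ·))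
      (eisW w k ·) Filter.atTop := by
  simp only [tendstoLocallyUniformly_iff_forall_isCompact, eisW]
  intro K hK
  obtain ⟨A, B, hB, HABK⟩ := subset_verticalStrip_of_isCompact hK
  refine (tendstoUniformlyOn_tsum (hu := summable_bound hk (r ⟨⟨A, B⟩, hB⟩ ^ (-k : ℝ)))
    (fun p z hz ↦ ?_)).mono HABK
  exact (norm_term_le hw p z).trans (norm_eisSummand_le_of_mem_verticalStrip hk p hB hz)

lemma eisW_tendstoLocallyUniformlyOn (hw : ∀ v, ‖w v‖ ≤ 1) (hk : 3 ≤ k) :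
    TendstoLocallyUniformlyOn (fun (s : Finset (Fin 2 → ℤ)) ↦
      ↑ₕ(fun (z : ℍ) ↦ ∑ x ∈ s, w x * eisSummand k x z)) (↑ₕ(eisW w k))
          Filter.atTop {z : ℂ | 0 < z.im} := by
  rw [← upperHalfPlaneSet, ← range_coe, ← Set.image_univ]
  apply TendstoLocallyUniformlyOn.comp (s := ⊤) _ _ _ (OpenPartialHomeomorph.continuousOn_symm _)
  · simp only [Set.top_eq_univ, tendstoLocallyUniformlyOn_univ]
    exact eisW_tendstoLocallyUniformly hw hk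
  · simp only [Topology.IsOpenEmbedding.toOpenPartialHomeomorph_target, Set.top_eq_univ,
      Set.mapsTo_range_iff, Set.mem_univ, forall_const]

theorem mdifferentiable_eisW (hw : ∀ v, ‖w v‖ ≤ 1) (hk : 3 ≤ k) : MDiff (eisW w k) := by
  rw [UpperHalfPlane.mdifferentiable_iff]
  refine (eisW_tendstoLocallyUniformlyOn hw hk).differentiableOn
    (Eventually.of_forall fun s ↦ ?_) isOpen_upperHalfPlaneSet
  have : (↑ₕ(fun (z : ℍ) ↦ ∑ x ∈ s, w x * eisSummand k x z)) =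
      fun z : ℂ => ∑ x ∈ s, w x * (↑ₕ(eisSummand k x)) z := by
    funext z
    simp [Function.comp]
  rw [this]
  exact DifferentiableOn.fun_sum
    fun x _ ↦ (eisSummand_extension_differentiableOn k x).const_mul (w x)

/-! ### The limit at `i∞` -/

lemma tendsto_eisSummand_zero (hk : 3 ≤ k) {v : Fin 2 → ℤ} (hv : v 0 ≠ 0) :
    Tendsto (eisSummand k v) atImInfty (𝓝 0) := by
  rw [tendsto_zero_iff_norm_tendsto_zero]
  have h1 : Tendsto (fun z : ℍ => ‖(v 0 : ℂ) * (z : ℂ) + v 1‖) atImInfty atTop := by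
    refine tendsto_atTop_mono (f := fun z : ℍ => z.im) (fun z => ?_) tendsto_comap
    have h2 : |((v 0 : ℂ) * (z : ℂ) + v 1).im| ≤ ‖(v 0 : ℂ) * (z : ℂ) + v 1‖ :=
      Complex.abs_im_le_norm _
    have h3 : ((v 0 : ℂ) * (z : ℂ) + v 1).im = (v 0 : ℝ) * z.im := by
      simp
    rw [h3, abs_mul, abs_of_pos z.im_pos] at h2
    have h4 : (1 : ℝ) ≤ |(v 0 : ℝ)| := by
      have : (1 : ℤ) ≤ |v 0| := Int.one_le_abs hv
      exact_mod_cast this
    nlinarith [z.im_pos]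
  have h5 : Tendsto (fun x : ℝ => x ^ (-k)) atTop (𝓝 0) :=
    tendsto_zpow_atTop_zero (by omega)
  have h6 := h5.comp h1
  simp only [eisSummand, norm_zpow]
  exact h6

/-- The value of the limit at `i∞`. -/
noncomputable def limW (w : (Fin 2 → ℤ) → ℂ) (k : ℤ) : ℂ :=
  ∑' v : Fin 2 → ℤ, if v 0 = 0 then w v * (v 1 : ℂ) ^ (-k) else 0

lemma tendsto_eisW_strip (hw : ∀ v, ‖w v‖ ≤ 1) (hk : 3 ≤ k) :
    Tendsto (eisW w k) (atImInfty ⊓ 𝓟 {z : ℍ | |z.re| ≤ 1}) (𝓝 (limW w k)) := by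
  refine tendsto_tsum_of_dominated_convergence
    (summable_bound hk (r ⟨⟨1, 1⟩, one_pos⟩ ^ (-k : ℝ))) (fun v => ?_) ?_
  · by_cases hv : v 0 = 0
    · simp only [hv, if_true, eisSummand, Int.cast_zero, zero_mul, zero_add]
      exact tendsto_const_nhds
    · simp only [hv, if_false]
      have := ((tendsto_eisSummand_zero hk hv).const_mul (w v)).mono_left
        (inf_le_left : atImInfty ⊓ 𝓟 {z : ℍ | |z.re| ≤ 1} ≤ atImInfty)
      simpa using this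
  · rw [eventually_inf_principal]
    have : {z : ℍ | 1 ≤ z.im} ∈ atImInfty := (atImInfty_mem _).2 ⟨1, fun z hz => hz⟩
    filter_upwards [this] with z hz hz' v
    exact (norm_term_le hw v z).trans
      (norm_eisSummand_le_of_mem_verticalStrip hk v one_pos ⟨hz', hz⟩)

lemma tendsto_of_periodic {f : ℍ → ℂ} {L : ℂ}
    (hper : ∀ (n : ℤ) (z : ℍ), f ((ModularGroup.T ^ n : SL(2, ℤ)) • z) = f z)
    (h : Tendsto f (atImInfty ⊓ 𝓟 {z : ℍ | |z.re| ≤ 1}) (𝓝 L)) : Tendsto f atImInfty (𝓝 L) := by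
  intro U hU
  have h1 := h hU
  rw [mem_map, mem_inf_principal, atImInfty_mem] at h1
  obtain ⟨A, hA⟩ := h1
  rw [mem_map, atImInfty_mem]
  refine ⟨A, fun z hz => ?_⟩
  obtain ⟨n, hn⟩ := ModularGroup_T_zpow_mem_verticalStrip z (N := 1) one_pos
  have h2 := hA _ (hz.trans hn.2) (by simpa using hn.1)
  simp only [Set.mem_preimage] at h2 ⊢
  rwa [hper] at h2

/-! ### Twisted Eisenstein series -/

/-- The bottom row of a matrix in `SL(2,ℤ)`. -/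
def brow (g : SL(2, ℤ)) : Fin 2 → ℤ := (g : Matrix (Fin 2) (Fin 2) ℤ) 1

lemma brow_mul (g h : SL(2, ℤ)) : brow (g * h) = brow g ᵥ* (h : Matrix (Fin 2) (Fin 2) ℤ) := by
  show ((g : Matrix (Fin 2) (Fin 2) ℤ) * (h : Matrix (Fin 2) (Fin 2) ℤ)) 1 = _
  rw [Matrix.mul_apply_eq_vecMul]
  rfl

lemma brow_one : brow 1 = ![0, 1] := by
  funext i
  fin_cases i <;> simp [brow]

section Twisted

variable (N : ℕ) (χ : Gamma0 N →* ℂˣ)

open Classical in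
/-- The weight attached to a character `χ` of `Γ₀(N)`. -/
noncomputable def twW (v : Fin 2 → ℤ) : ℂ :=
  if h : ∃ g : Gamma0 N, brow (g : SL(2, ℤ)) = v then (((χ h.choose)⁻¹ : ℂˣ) : ℂ) else 0

variable {N χ}

lemma chi_eq_of_brow_eq (hpar : ∀ g : Gamma0 N, (g : SL(2, ℤ)) 1 0 = 0 → χ g = 1)
    {g g' : Gamma0 N} (h : brow (g : SL(2, ℤ)) = brow (g' : SL(2, ℤ))) : χ g = χ g' := by
  have h1 : brow ((g' * g⁻¹ : Gamma0 N) : SL(2, ℤ)) = ![0, 1] := by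
    rw [Subgroup.coe_mul, brow_mul, ← h, ← brow_mul, ← Subgroup.coe_mul, mul_inv_cancel,
      Subgroup.coe_one, brow_one]
  have h2 : ((g' * g⁻¹ : Gamma0 N) : SL(2, ℤ)) 1 0 = 0 := by
    have := congrFun h1 0
    simpa [brow] using this
  have h3 := hpar _ h2
  rw [map_mul, map_inv, mul_inv_eq_one] at h3
  exact h3.symm

lemma twW_brow (hpar : ∀ g : Gamma0 N, (g : SL(2, ℤ)) 1 0 = 0 → χ g = 1) (g : Gamma0 N) :
    twW N χ (brow (g : SL(2, ℤ))) = (((χ g)⁻¹ : ℂˣ) : ℂ) := by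
  have h : ∃ g' : Gamma0 N, brow (g' : SL(2, ℤ)) = brow (g : SL(2, ℤ)) := ⟨g, rfl⟩
  rw [twW, dif_pos h, chi_eq_of_brow_eq hpar h.choose_spec]

lemma twW_of_not {v : Fin 2 → ℤ} (h : ¬ ∃ g : Gamma0 N, brow (g : SL(2, ℤ)) = v) :
    twW N χ v = 0 := by
  rw [twW, dif_neg h]

lemma norm_twW_le (hχ : ∀ g, ‖(χ g : ℂ)‖ = 1) (v : Fin 2 → ℤ) : ‖twW N χ v‖ ≤ 1 := by
  by_cases h : ∃ g : Gamma0 N, brow (g : SL(2, ℤ)) = v
  · rw [twW, dif_pos h, Units.val_inv_eq_inv_val, norm_inv, hχ, inv_one]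
  · rw [twW_of_not h, norm_zero]
    exact zero_le_one

lemma twW_vecMul_inv (hpar : ∀ g : Gamma0 N, (g : SL(2, ℤ)) 1 0 = 0 → χ g = 1) (γ : Gamma0 N)
    (v : Fin 2 → ℤ) :
    twW N χ (v ᵥ* (((γ : SL(2, ℤ))⁻¹ : SL(2, ℤ)) : Matrix (Fin 2) (Fin 2) ℤ)) =
      (χ γ : ℂ) * twW N χ v := by
  by_cases h : ∃ g : Gamma0 N, brow (g : SL(2, ℤ)) = v
  · obtain ⟨g, rfl⟩ := h
    rw [← brow_mul, ← Subgroup.coe_inv, ← Subgroup.coe_mul, twW_brow hpar, twW_brow hpar, map_mul,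
      map_inv, mul_inv, inv_inv, Units.val_mul, mul_comm]
  · rw [twW_of_not h, mul_zero]
    refine twW_of_not ?_
    rintro ⟨g, hg⟩
    refine h ⟨g * γ, ?_⟩
    rw [Subgroup.coe_mul, brow_mul, hg, vecMul_vecMul, coe_inv_mul_coe, vecMul_one]

lemma twW_eq_zero_of (v : Fin 2 → ℤ) (h0 : v 0 = 0) (h1 : v ≠ ![0, 1]) (h2 : v ≠ ![0, -1]) :
    twW N χ v = 0 := by
  refine twW_of_not ?_
  rintro ⟨g, rfl⟩
  have hdet := Matrix.SpecialLinearGroup.det_coe (g : SL(2, ℤ))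
  rw [Matrix.det_fin_two] at hdet
  have h00 : (g : SL(2, ℤ)) 1 0 = 0 := h0
  rw [h00, mul_zero, sub_zero] at hdet
  rcases Int.eq_one_or_neg_one_of_mul_eq_one' hdet with ⟨-, h⟩ | ⟨-, h⟩
  · apply h1
    funext i
    fin_cases i
    · exact h00
    · exact h
  · apply h2
    funext i
    fin_cases i
    · exact h00
    · exact h

lemma limW_twW (hpar : ∀ g : Gamma0 N, (g : SL(2, ℤ)) 1 0 = 0 → χ g = 1) (hk2 : Even k) :
    limW (twW N χ) k = 2 := by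
  have hne : (![0, 1] : Fin 2 → ℤ) ≠ ![0, -1] := by
    intro h
    have := congrFun h 1
    simp at this
  have e1 : twW N χ ![0, 1] = 1 := by
    have := twW_brow hpar (1 : Gamma0 N)
    rw [Subgroup.coe_one, brow_one] at this
    simpa using this
  have e2 : twW N χ ![0, -1] = 1 := by
    have hm : (-1 : SL(2, ℤ)) ∈ Gamma0 N := by
      rw [Gamma0_mem]
      simp
    have hb : brow (-1 : SL(2, ℤ)) = ![0, -1] := by
      funext i
      fin_cases i <;> simp [brow]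
    have := twW_brow hpar (⟨-1, hm⟩ : Gamma0 N)
    rw [hpar ⟨-1, hm⟩ (by simp)] at this
    simp only [hb] at this
    simpa using this
  rw [limW, tsum_eq_sum (s := {![0, 1], ![0, -1]})]
  · rw [Finset.sum_pair hne]
    simp only [Matrix.cons_val_zero, if_true, Matrix.cons_val_one, Matrix.cons_val_fin_one, e1, e2]
    have : ((-1 : ℤ) : ℂ) ^ (-k) = 1 := by
      rw [Int.cast_neg, Int.cast_one]
      exact hk2.neg.neg_one_zpow
    rw [this]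
    norm_num
  · intro v hv
    simp only [Finset.mem_insert, Finset.mem_singleton, not_or] at hv
    by_cases h0 : v 0 = 0
    · rw [if_pos h0, twW_eq_zero_of v h0 hv.1 hv.2, zero_mul]
    · rw [if_neg h0]

variable (N χ) in
/-- The twisted Eisenstein series of weight `k`, normalised by `E → 1` at `i∞`. -/
noncomputable def twEis (k : ℤ) : ℍ → ℂ := (2⁻¹ : ℂ) • eisW (twW N χ) k

theorem mdifferentiable_twEis (hχ : ∀ g, ‖(χ g : ℂ)‖ = 1) (hk : 3 ≤ k) : MDiff (twEis N χ k) :=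
  (mdifferentiable_eisW (norm_twW_le hχ) hk).const_smul _

theorem twEis_slash (hpar : ∀ g : Gamma0 N, (g : SL(2, ℤ)) 1 0 = 0 → χ g = 1) (k : ℤ)
    (γ : Gamma0 N) : twEis N χ k ∣[k] (γ : SL(2, ℤ)) = (χ γ : ℂ) • twEis N χ k := by
  rw [twEis, SL_smul_slash, eisW_slash]
  have : eisW (fun v => twW N χ
      (v ᵥ* (((γ : SL(2, ℤ))⁻¹ : SL(2, ℤ)) : Matrix (Fin 2) (Fin 2) ℤ))) k =
      (χ γ : ℂ) • eisW (twW N χ) k := by
    funext z
    simp only [eisW, Pi.smul_apply, smul_eq_mul, twW_vecMul_inv hpar, mul_assoc, tsum_mul_left]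
  rw [this, smul_comm]

theorem twEis_smul (hpar : ∀ g : Gamma0 N, (g : SL(2, ℤ)) 1 0 = 0 → χ g = 1) (k : ℤ)
    (γ : Gamma0 N) (z : ℍ) :
    twEis N χ k ((γ : SL(2, ℤ)) • z) = (χ γ : ℂ) * denom (γ : SL(2, ℤ)) z ^ k * twEis N χ k z := by
  have h := congrFun (twEis_slash hpar k γ) z
  rw [SL_slash_apply, _root_.zpow_neg,
    mul_inv_eq_iff_eq_mul₀ (zpow_ne_zero _ <| denom_ne_zero _ z)] at h
  rw [h, Pi.smul_apply, smul_eq_mul]
  ring

theorem isBoundedAtImInfty_twEis_slash (hχ : ∀ g, ‖(χ g : ℂ)‖ = 1) (hk : 3 ≤ k) (g : SL(2, ℤ)) :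
    IsBoundedAtImInfty (twEis N χ k ∣[k] g) := by
  rw [twEis, SL_smul_slash]
  exact (isBoundedAtImInfty_eisW_slash (norm_twW_le hχ) hk g).const_smul_left _

theorem tendsto_twEis (hχ : ∀ g, ‖(χ g : ℂ)‖ = 1)
    (hpar : ∀ g : Gamma0 N, (g : SL(2, ℤ)) 1 0 = 0 → χ g = 1) (hk : 3 ≤ k) (hk2 : Even k) :
    Tendsto (twEis N χ k) atImInfty (𝓝 1) := by
  refine tendsto_of_periodic (fun n z => ?_) ?_
  · have hm : (ModularGroup.T ^ n : SL(2, ℤ)) ∈ Gamma0 N := by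
      rw [Gamma0_mem, ModularGroup.coe_T_zpow]
      simp
    have h := twEis_smul hpar k ⟨_, hm⟩ z
    have h0 : χ ⟨_, hm⟩ = 1 := hpar _ (by
      show (ModularGroup.T ^ n : SL(2, ℤ)) 1 0 = 0
      rw [ModularGroup.coe_T_zpow]
      simp)
    rw [h0] at h
    simp only [denom_T_zpow, _root_.one_zpow, Units.val_one, one_mul] at h
    exact h
  · have h := (tendsto_eisW_strip (norm_twW_le hχ) hk).const_smul (2⁻¹ : ℂ)
    rw [limW_twW hpar hk2] at h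
    have e : (2⁻¹ : ℂ) • (2 : ℂ) = 1 := by norm_num
    rw [e] at h
    exact h

theorem twEis_ne_zero (hχ : ∀ g, ‖(χ g : ℂ)‖ = 1)
    (hpar : ∀ g : Gamma0 N, (g : SL(2, ℤ)) 1 0 = 0 → χ g = 1) (hk : 3 ≤ k) (hk2 : Even k) :
    twEis N χ k ≠ 0 := by
  intro h
  have h1 := tendsto_twEis hχ hpar hk hk2
  rw [h] at h1
  have h2 : Tendsto (0 : ℍ → ℂ) atImInfty (𝓝 0) := tendsto_const_nhds
  exact one_ne_zero (tendsto_nhds_unique h1 h2)

end Twisted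

/-- Slash of a power. -/
theorem pow_slash (f : ℍ → ℂ) (k : ℤ) (n : ℕ) (g : SL(2, ℤ)) :
    (f ^ n) ∣[(n : ℤ) * k] g = (f ∣[k] g) ^ n := by
  induction n with
  | zero =>
    simp only [pow_zero, Nat.cast_zero, zero_mul]
    exact is_invariant_one g
  | succ n ih =>
    rw [pow_succ, pow_succ, ← ih, ← mul_slash_SL2]
    congr 1
    push_cast
    ring

lemma norm_eq_one_of_pow {N : ℕ} {χ : Gamma0 N →* ℂˣ} {n : ℕ} (hn0 : n ≠ 0)
    (hn : ∀ g, χ g ^ n = 1) (g : Gamma0 N) : ‖(χ g : ℂ)‖ = 1 := by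
  refine Complex.norm_eq_one_of_pow_eq_one (n := n) ?_ hn0
  have := congrArg (fun u : ℂˣ => (u : ℂ)) (hn g)
  simpa using this

/-- If `χ ^ n = 1` then the `n`-th power of the twisted Eisenstein series is a modular form on
`Γ₀(N)`. -/
theorem isMF_twEis_pow {N : ℕ} {χ : Gamma0 N →* ℂˣ} {k : ℤ} {n : ℕ} (hn0 : n ≠ 0)
    (hn : ∀ g, χ g ^ n = 1)
    (hpar : ∀ g : Gamma0 N, (g : SL(2, ℤ)) 1 0 = 0 → χ g = 1) (hk : 3 ≤ k) :
    S21.IsMF (Gamma0 N) ((n : ℤ) * k) (twEis N χ k ^ n) where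
  holo := (mdifferentiable_twEis (norm_eq_one_of_pow hn0 hn) hk).pow n
  inv γ hγ := by
    rw [pow_slash, twEis_slash hpar k ⟨γ, hγ⟩, smul_pow]
    have := congrArg (fun u : ℂˣ => (u : ℂ)) (hn ⟨γ, hγ⟩)
    simp only [Units.val_pow_eq_pow_val, Units.val_one] at this
    rw [this, one_smul]
  bdd g := by
    rw [pow_slash]
    have h := isBoundedAtImInfty_twEis_slash (k := k) (norm_eq_one_of_pow hn0 hn) hk g
    clear hn
    induction n with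
    | zero => exact absurd rfl hn0
    | succ m ih =>
      rcases Nat.eq_zero_or_pos m with rfl | hm
      · simpa using h
      · rw [pow_succ]
        exact (ih hm.ne').mul h

/-- Summary: existence of a twisted Eisenstein series. -/
theorem exists_twisted {N : ℕ} (χ : Gamma0 N →* ℂˣ) {n : ℕ} (hn0 : n ≠ 0)
    (hn : ∀ g, χ g ^ n = 1)
    (hpar : ∀ g : Gamma0 N, (g : SL(2, ℤ)) 1 0 = 0 → χ g = 1) {k : ℤ} (hk : 3 ≤ k)
    (hk2 : Even k) :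
    ∃ E : ℍ → ℂ, MDiff E ∧
      (∀ γ : Gamma0 N, E ∣[k] (γ : SL(2, ℤ)) = (χ γ : ℂ) • E) ∧
      (∀ (γ : Gamma0 N) (z : ℍ),
        E ((γ : SL(2, ℤ)) • z) = (χ γ : ℂ) * denom (γ : SL(2, ℤ)) z ^ k * E z) ∧
      (∀ g : SL(2, ℤ), IsBoundedAtImInfty (E ∣[k] g)) ∧
      Tendsto E atImInfty (𝓝 1) ∧ S21.IsMF (Gamma0 N) ((n : ℤ) * k) (E ^ n) :=
  ⟨twEis N χ k, mdifferentiable_twEis (norm_eq_one_of_pow hn0 hn) hk, twEis_slash hpar k,
    twEis_smul hpar k, isBoundedAtImInfty_twEis_slash (norm_eq_one_of_pow hn0 hn) hk,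
    tendsto_twEis (norm_eq_one_of_pow hn0 hn) hpar hk hk2, isMF_twEis_pow hn0 hn hpar hk⟩

/-- The untwisted series is a modular form on `Γ₀(N)` tending to `1` at `i∞`. -/
theorem isMF_twEis_one (N : ℕ) {k : ℤ} (hk : 3 ≤ k) :
    S21.IsMF (Gamma0 N) k (twEis N 1 k) := by
  have h := isMF_twEis_pow (N := N) (χ := 1) (k := k) (n := 1) one_ne_zero (fun _ => by simp)
    (fun _ _ => rfl) hk
  simpa using h

end Fermat.Agent.ES.EisTw
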