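import Fermat.Agent.S28.DegL

/-!
# Project ES: conjugates of the modular functions over an infinite field, primitive element
-/

set_option autoImplicit false
set_option linter.style.haveILetI false

noncomputable section

namespace Fermat.Agent.ES.FkEmb

open Fermat.Agent.S28 ModularCurve Polynomial
open scoped MatrixGroups

section Abstract

open Irr

variable {k R κ Λ σ I : Type*} [Field k]
  [CommRing R]
  [Field κ] [Algebra R κ] [Algebra k κ]
  [Field Λ] [Algebra k Λ] [Algebra R Λ] [Algebra κ Λ] [IsScalarTower k κ Λ] [IsScalarTower R κ Λ]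
  [Fintype I]
  {e : I → MvPolynomial σ k →ₐ[k] Λ}

/-- if the degree is maximal, all the `e i` factor through `e i₀`. -/
theorem ker_le_aux [Infinite k] [Finite σ] [DecidableEq I] [IsDomain R] [IsFractionRing R κ]
    [FaithfulSMul R Λ] (hP : HasPoly R e) (he : Function.Injective e) (i₀ : I)
    (m : Fin (Fintype.card I) → MvPolynomial σ k)
    (hm : ∀ c : Fin (Fintype.card I) → R, ∑ r, algebraMap R Λ (c r) * e i₀ (m r) = 0 → c = 0)
    (i : I) (V : MvPolynomial σ k) (hV : e i₀ V = 0) : e i V = 0 := by
  have h1 := hP.finiteDimensional (κ := κ) i₀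
  have h2 := hP.isSeparable_fieldE (κ := κ) he i₀
  have hcard := hP.card_idxSet (κ := κ) i₀
  have hli : LinearIndependent κ fun r => liftHom κ (e i₀) (m r) := by
    rw [← LinearIndependent.iff_fractionRing R κ, Fintype.linearIndependent_iff]
    intro g hg
    have h3 := hm g (by
      have h4 := congrArg (fun x : fieldE κ (e i₀) => (x : Λ)) hg
      simp only [AddSubmonoidClass.coe_finsetSum, ZeroMemClass.coe_zero] at h4
      rw [← h4]
      refine Finset.sum_congr rfl fun r _ => ?_
      rw [Algebra.smul_def]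
      rfl)
    intro r
    rw [h3]; rfl
  have hle := hli.fintype_card_le_finrank
  rw [Fintype.card_fin, ← hcard] at hle
  have huniv : hP.idxSet (κ := κ) i₀ = Finset.univ :=
    Finset.eq_univ_of_card _ (le_antisymm (Finset.card_le_univ _) hle)
  have hi : i ∈ hP.idxSet (κ := κ) i₀ := by rw [huniv]; exact Finset.mem_univ i
  obtain ⟨τ, -, hτ⟩ := Finset.mem_image.mp hi
  have h5 := hP.idx_spec (κ := κ) i₀ τ
  rw [hτ] at h5
  have h6 := congrArg (fun F => F V) h5
  simp only [compHom_apply, bigHom_apply] at h6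
  have h7 : liftHom κ (e i₀) V = 0 := Subtype.ext hV
  rw [h7, map_zero] at h6
  exact (map_eq_zero (algebraMap Λ (AlgebraicClosure Λ))).mp h6.symm

end Abstract

/-- if the degree is maximal, all the `e i` factor through `e i₀`. -/
theorem ker_le {k Λ σ I : Type*} [Field k] [Infinite k] [Field Λ] [Algebra k Λ] [Finite σ]
    [Fintype I] [DecidableEq I] (J : Λ) (hJ : Transcendental k J)
    (e : I → MvPolynomial σ k →ₐ[k] Λ) (he : Function.Injective e) (i₀ : I)
    (hP : ∀ U : MvPolynomial σ k, ∃ P : Polynomial (Polynomial k),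
      P.map (Polynomial.aeval J).toRingHom = ∏ i, (Polynomial.X - Polynomial.C (e i U)))
    (m : Fin (Fintype.card I) → MvPolynomial σ k)
    (hm : ∀ c : Fin (Fintype.card I) → Polynomial k,
      ∑ r, Polynomial.aeval J (c r) * e i₀ (m r) = 0 → c = 0)
    (i : I) (V : MvPolynomial σ k) (hV : e i₀ V = 0) : e i V = 0 := by
  let _ : Algebra (Polynomial k) Λ := (Polynomial.aeval J).toRingHom.toAlgebra
  have halg : ∀ p : Polynomial k, algebraMap (Polynomial k) Λ p = Polynomial.aeval J p :=
    fun _ => rfl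
  have : IsScalarTower k (Polynomial k) Λ := IsScalarTower.of_algebraMap_eq fun c => by
    rw [halg, Polynomial.algebraMap_eq, Polynomial.aeval_C]
  have : FaithfulSMul (Polynomial k) Λ :=
    (faithfulSMul_iff_algebraMap_injective _ _).2 (transcendental_iff_injective.1 hJ)
  let _ : Algebra (FractionRing (Polynomial k)) Λ := FractionRing.liftAlgebra (Polynomial k) Λ
  have : IsScalarTower (Polynomial k) (FractionRing (Polynomial k)) Λ :=
    FractionRing.isScalarTower_liftAlgebra (Polynomial k) Λ
  have : IsScalarTower k (FractionRing (Polynomial k)) Λ :=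
    IsScalarTower.of_algebraMap_eq fun c => by
      rw [IsScalarTower.algebraMap_apply k (Polynomial k) (FractionRing (Polynomial k)),
        ← IsScalarTower.algebraMap_apply (Polynomial k) (FractionRing (Polynomial k)) Λ,
        ← IsScalarTower.algebraMap_apply k (Polynomial k) Λ]
  exact ker_le_aux (R := Polynomial k) (κ := FractionRing (Polynomial k)) (e := e) hP he i₀ m hm
    i V hV

/-- a polynomial separating finitely many distinct algebra homomorphisms. -/
theorem exists_separating {k Λ σ I : Type*} [Field k] [Infinite k] [Field Λ] [Algebra k Λ]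
    [Finite I] (e : I → MvPolynomial σ k →ₐ[k] Λ) (he : Function.Injective e) :
    ∃ U : MvPolynomial σ k, Function.Injective fun i => e i U := by
  by_contra hcon
  push Not at hcon
  let p : {q : I × I // q.1 ≠ q.2} → Submodule k (MvPolynomial σ k) := fun q =>
    (AlgHom.equalizer (e q.1.1) (e q.1.2)).toSubmodule
  have hcov : ⋃ o, (p o : Set (MvPolynomial σ k)) = Set.univ := by
    refine Set.eq_univ_of_forall fun V => ?_
    rw [Set.mem_iUnion]
    have hV := hcon V
    simp only [Function.Injective, not_forall] at hV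
    obtain ⟨a, b, hab, hne⟩ := hV
    exact ⟨⟨(a, b), hne⟩, hab⟩
  obtain ⟨q, ho⟩ := Subspace.exists_eq_top_of_iUnion_eq_univ hcov
  apply q.2
  apply he
  ext1 s
  have : (MvPolynomial.X s : MvPolynomial σ k) ∈
      (AlgHom.equalizer (e q.1.1) (e q.1.2)).toSubmodule := by
    have h : p q = (AlgHom.equalizer (e q.1.1) (e q.1.2)).toSubmodule := rfl
    rw [← h, ho]; trivial
  exact this

section Concrete

variable {k : Type*} [Field k] [Infinite k] (ζ : kˣ) {N : ℕ} [NeZero N]

/-- **All conjugates have the same kernel.** -/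
theorem ev_eq_zero (hζ : IsPrimitiveRoot ζ N) (hN : (N : k) ≠ 0) (h1 : ModEq k ζ N)
    (h2 : UnitEq k ζ N) (V : MvPolynomial (Gen N) k) (hV : ev0 k N V = 0) (a : Cos N) :
    ev k ζ N (rep a) V = 0 := by
  classical
  obtain ⟨m, hm⟩ := degL ζ hζ hN h1 h2
  have hmem : rep ((1 : SL(2, ℤ)) : Cos N) ∈ CongruenceSubgroup.Gamma0 N :=
    (rep_mem_Gamma0_iff _).mpr rfl
  refine ker_le (Jt k N) (transcendental_Jt k N) (fun i : Cos N => ev k ζ N (rep i))
    (ev_injective ζ hζ) ((1 : SL(2, ℤ)) : Cos N) h1 (fun r => MvPolynomial.monomial (m r) 1) ?_ a V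
    ?_
  · intro c hc
    apply hm c
    apply Ord.qExp_injective (R := k) N
    rw [map_zero, map_sum, ← hc]
    refine Finset.sum_congr rfl fun r _ => ?_
    rw [map_mul, ev_of_mem_Gamma0 ζ hζ.pow_eq_one hmem, DegL.qExp_aeval]
    rfl
  · rw [ev_of_mem_Gamma0 ζ hζ.pow_eq_one hmem, hV, map_zero]

/-- the label of the generator `j`. -/
def x1 (N : ℕ) [NeZero N] : Gen N := (false, ⟨1, Nat.one_mem_divisors.mpr (NeZero.ne N)⟩)

omit [Infinite k] in
theorem ev0_x1 (R : Type*) [CommRing R] : ev0 R N (MvPolynomial.X (x1 N)) = jqModC R := by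
  rw [ev0, MvPolynomial.aeval_X, gen]
  simp only [x1, Bool.false_eq_true, if_false, gX]
  exact Ord.qExp_one _

theorem ev_x1 {R : Type*} [CommRing R] (ζ : Rˣ) (hζ : ζ ^ N = 1) (γ : SL(2, ℤ)) :
    ev R ζ N γ (MvPolynomial.X (x1 N)) = Jt R N := by
  rw [ev, MvPolynomial.aeval_X, cgen]
  simp only [x1, Bool.false_eq_true, if_false]
  exact cX_one ζ hζ γ

/-- **Powers of a separating element are independent over `k[j]`.** -/
theorem indep_of_injective (hζ : IsPrimitiveRoot ζ N) (hN : (N : k) ≠ 0) (h1 : ModEq k ζ N)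
    (h2 : UnitEq k ζ N) (U : MvPolynomial (Gen N) k)
    (hU : Function.Injective fun a : Cos N => ev k ζ N (rep a) U)
    (c : Fin (Fintype.card (Cos N)) → Polynomial k)
    (hc : ∑ r, Polynomial.aeval (jqModC k) (c r) * ev0 k N U ^ (r : ℕ) = 0) : c = 0 := by
  set V : MvPolynomial (Gen N) k :=
    ∑ r, Polynomial.aeval (MvPolynomial.X (x1 N) : MvPolynomial (Gen N) k) (c r) * U ^ (r : ℕ)
    with hV
  have hV0 : ev0 k N V = 0 := by
    rw [hV, map_sum, ← hc]
    refine Finset.sum_congr rfl fun r _ => ?_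
    rw [map_mul, map_pow, ← Polynomial.aeval_algHom_apply, ev0_x1]
  have hVa : ∀ a : Cos N, ∑ r, Polynomial.aeval (Jt k N) (c r) * ev k ζ N (rep a) U ^ (r : ℕ) = 0 := by
    intro a
    rw [← ev_eq_zero ζ hζ hN h1 h2 V hV0 a, hV, map_sum]
    refine Finset.sum_congr rfl fun r _ => ?_
    rw [map_mul, map_pow, ← Polynomial.aeval_algHom_apply, ev_x1 ζ hζ.pow_eq_one]
  set Q : Polynomial (LaurentSeries k) :=
    ∑ r : Fin (Fintype.card (Cos N)), Polynomial.C (Polynomial.aeval (Jt k N) (c r)) *
      Polynomial.X ^ (r : ℕ) with hQ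
  have hQ0 : Q = 0 := by
    refine Polynomial.eq_zero_of_natDegree_lt_card_of_eval_eq_zero Q hU (fun a => ?_) ?_
    · rw [hQ, Polynomial.eval_finsetSum, ← hVa a]
      refine Finset.sum_congr rfl fun r _ => ?_
      simp
    · have h3 := Polynomial.degree_sum_fin_lt fun r => Polynomial.aeval (Jt k N) (c r)
      by_cases hq : Q = 0
      · rw [hq, Polynomial.natDegree_zero]
        exact Fintype.card_pos
      · exact (Polynomial.natDegree_lt_iff_degree_lt hq).mpr h3
  funext r
  have h4 := congrArg (fun p => Polynomial.coeff p (r : ℕ)) hQ0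
  simp only [hQ, Polynomial.finsetSum_coeff, Polynomial.coeff_C_mul, Polynomial.coeff_X_pow,
    Polynomial.coeff_zero] at h4
  rw [Finset.sum_eq_single r] at h4
  · simp only [if_true, mul_one] at h4
    exact (transcendental_iff.mp (transcendental_Jt k N)) _ h4
  · intro b _ hb
    rw [if_neg (fun h => hb (Fin.ext h.symm)), mul_zero]
  · intro h; exact absurd (Finset.mem_univ r) h

/-- **Existence of a primitive element** with pairwise distinct conjugates. -/
theorem exists_theta (hζ : IsPrimitiveRoot ζ N) :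
    ∃ U : MvPolynomial (Gen N) k, Function.Injective fun a : Cos N => ev k ζ N (rep a) U :=
  exists_separating (fun a : Cos N => ev k ζ N (rep a)) (ev_injective ζ hζ)

end Concrete

end Fermat.Agent.ES.FkEmb
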