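import Fermat.Agent.ES.FkSep

/-!
# ES, block INJ (route `abstract_inj`), package A-FK

The function field of the special fibre `Fk k N = k(j(q^d), H_d : d ∣ N)` is finite and separable
over `k(j)` (copy of `FkSep` with all the generators `S28.gen`).
-/

set_option autoImplicit false
set_option linter.style.haveILetI false

noncomputable section

namespace Fermat.Agent.ES

open Fermat.Agent.S28 ModularCurve IntermediateField Polynomial
open scoped MatrixGroups

/-- `k(j(q^d), H_d : d ∣ N)`. -/
def Fk (k : Type*) [Field k] (N : ℕ) : IntermediateField k (LaurentSeries k) :=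
  IntermediateField.adjoin k (Set.range (S28.gen k N))

theorem gen_mem_Fk (k : Type*) [Field k] (N : ℕ) (x : S28.Gen N) : S28.gen k N x ∈ Fk k N :=
  IntermediateField.subset_adjoin k _ ⟨x, rfl⟩

theorem jqModC_mem_Fk (k : Type*) [Field k] (N : ℕ) [NeZero N] :
    ModularCurve.jqModC k ∈ Fk k N := by
  have h1 : (1 : ℕ) ∈ N.divisors := Nat.mem_divisors.mpr ⟨one_dvd N, NeZero.ne N⟩
  have h := gen_mem_Fk k N (false, ⟨1, h1⟩)
  have e : S28.gen k N (false, ⟨1, h1⟩) = jqModC k := by
    rw [gen]
    simp only [Bool.false_eq_true, if_false, gX]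
    rw [qExp_eq, qExpand_one_apply]
  rwa [e] at h

/-- `j` as an element of `Fk k N`. -/
def jk (k : Type*) [Field k] (N : ℕ) [NeZero N] : Fk k N := ⟨_, jqModC_mem_Fk k N⟩

namespace FkN

variable (k : Type*) [Field k] (N : ℕ) [NeZero N]

theorem transcendental_jk : Transcendental k (jk k N) := by
  have h := transcendental_jqModC k
  rw [transcendental_iff_injective] at h ⊢
  intro p q hpq
  apply h
  have := congrArg (Fk k N).val hpq
  rw [← Polynomial.aeval_algHom_apply, ← Polynomial.aeval_algHom_apply] at this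
  exact this

/-- `x ↦ x(t^N)`. -/
def phi : Fk k N →ₐ[k] LaurentSeries k := (qExpandAlgHomC k N).comp (Fk k N).val

theorem phi_apply (x : Fk k N) : phi k N x = qExp k N (x : LaurentSeries k) := by
  rw [qExp_eq]
  rfl

variable {k N}

theorem sep_of_eq_ev0 [Infinite k] (ζ : kˣ) (hζ : IsPrimitiveRoot ζ N) (h1 : ModEq k ζ N)
    (U : MvPolynomial (Gen N) k) (x : Fk k N) (hx : (x : LaurentSeries k) = ev0 k N U) :
    IsIntegral k⟮jk k N⟯ x ∧ IsSeparable k⟮jk k N⟯ x := by
  have hmem : rep ((1 : SL(2, ℤ)) : Cos N) ∈ CongruenceSubgroup.Gamma0 N :=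
    (rep_mem_Gamma0_iff _).mpr rfl
  refine FkSep.abstract_sep (phi k N) (jk k N) (transcendental_jk k N)
    (fun i : Cos N => ev k ζ N (rep i)) (ev_injective ζ hζ) ?_ ((1 : SL(2, ℤ)) : Cos N) U x ?_
  · have : phi k N (jk k N) = Jt k N := phi_apply k N _
    rw [this]
    exact h1
  · rw [phi_apply, hx, ev_of_mem_Gamma0 ζ hζ.pow_eq_one hmem]

/-- the generators, as elements of the field. -/
def genSet (k : Type*) [Field k] (N : ℕ) : Set (Fk k N) :=
  {x | (x : LaurentSeries k) ∈ Set.range (S28.gen k N)}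

omit [NeZero N] in
theorem finite_genSet : (genSet k N).Finite :=
  (Set.finite_range (S28.gen k N)).preimage Subtype.val_injective.injOn

omit [NeZero N] in
theorem adjoin_genSet (E : IntermediateField k (Fk k N)) :
    IntermediateField.adjoin E (genSet k N) = ⊤ := by
  rw [eq_top_iff]
  intro x _
  have h : Fk k N ≤
      ((IntermediateField.adjoin E (genSet k N)).restrictScalars k).map (Fk k N).val := by
    refine (IntermediateField.adjoin_le_iff (F := k) (S := Set.range (S28.gen k N))).mpr ?_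
    intro z hz
    have hz' : z ∈ Fk k N := IntermediateField.subset_adjoin k _ hz
    exact ⟨⟨z, hz'⟩, IntermediateField.subset_adjoin E _ hz, rfl⟩
  obtain ⟨x', hx', hxx⟩ := h x.2
  have : x' = x := Subtype.ext hxx
  rw [← this]
  exact hx'

theorem sep_of_mem_genSet [Infinite k] (ζ : kˣ) (hζ : IsPrimitiveRoot ζ N) (h1 : ModEq k ζ N)
    (x : Fk k N) (hx : x ∈ genSet k N) :
    IsIntegral k⟮jk k N⟯ x ∧ IsSeparable k⟮jk k N⟯ x := by
  obtain ⟨g, hg⟩ := hx
  refine sep_of_eq_ev0 ζ hζ h1 (MvPolynomial.X g) x ?_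
  rw [← hg, ev0, MvPolynomial.aeval_X]

end FkN

open FkN in
/-- **A-FK**. -/
theorem Fk_finite_separable {k : Type*} [Field k] [Infinite k] {N : ℕ} [NeZero N] (ζ : kˣ)
    (hζ : IsPrimitiveRoot ζ N) (h1 : S28.ModEq k ζ N) :
    FiniteDimensional k⟮jk k N⟯ (Fk k N) ∧ Algebra.IsSeparable k⟮jk k N⟯ (Fk k N) := by
  constructor
  · haveI : Finite (genSet k N) := finite_genSet.to_subtype
    have h := IntermediateField.finiteDimensional_adjoin (K := k⟮jk k N⟯) (S := genSet k N)
      fun x hx => (sep_of_mem_genSet ζ hζ h1 x hx).1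
    rw [adjoin_genSet] at h
    exact (IntermediateField.topEquiv (F := k⟮jk k N⟯) (E := Fk k N)).toLinearEquiv.finiteDimensional
  · rw [← separableClosure.eq_top_iff, eq_top_iff, ← adjoin_genSet k⟮jk k N⟯,
      IntermediateField.adjoin_le_iff]
    intro x hx
    exact mem_separableClosure_iff.mpr (sep_of_mem_genSet ζ hζ h1 x hx).2

end Fermat.Agent.ES
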