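import Fermat.Agent.S28.DegL
import Fermat.Prelude.Def_ModularCurve_X0ModL

/-!
# Project ES: the reduced modular function field is finite and separable over `k(j)`
-/

set_option autoImplicit false
set_option linter.style.haveILetI false

noncomputable section

namespace Fermat.Agent.ES.FkSep

open Fermat.Agent.S28 ModularCurve IntermediateField Polynomial
open scoped MatrixGroups

/-- pure field theory: an element whose image under `φ` is one of the "conjugates" is integral
and separable over `k(y)`. -/
theorem abstract_sep {k F Λ σ I : Type*} [Field k] [Infinite k] [Field F] [Algebra k F] [Field Λ]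
    [Algebra k Λ] [Fintype I] (φ : F →ₐ[k] Λ) (y : F) (hy : Transcendental k y)
    (e : I → MvPolynomial σ k →ₐ[k] Λ) (he : Function.Injective e)
    (hP : ∀ U : MvPolynomial σ k, ∃ P : Polynomial (Polynomial k),
      P.map (Polynomial.aeval (φ y)).toRingHom = ∏ i, (X - C (e i U)))
    (i₀ : I) (U : MvPolynomial σ k) (x : F) (hx : φ x = e i₀ U) :
    IsIntegral k⟮y⟯ x ∧ IsSeparable k⟮y⟯ x := by
  letI a1 : Algebra (Polynomial k) Λ := (Polynomial.aeval (φ y)).toRingHom.toAlgebra
  letI a2 : Algebra k⟮y⟯ Λ := (φ.toRingHom.comp (algebraMap k⟮y⟯ F)).toAlgebra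
  letI a3 : Algebra (Polynomial k) k⟮y⟯ :=
    (Polynomial.aeval (AdjoinSimple.gen k y)).toRingHom.toAlgebra
  have h1 : ∀ p : Polynomial k, algebraMap (Polynomial k) Λ p = Polynomial.aeval (φ y) p :=
    fun _ => rfl
  have h2 : ∀ z : k⟮y⟯, algebraMap k⟮y⟯ Λ z = φ (z : F) := fun _ => rfl
  have h3 : ∀ p : Polynomial k,
      algebraMap (Polynomial k) k⟮y⟯ p = Polynomial.aeval (AdjoinSimple.gen k y) p := fun _ => rfl
  haveI t1 : IsScalarTower k k⟮y⟯ Λ := IsScalarTower.of_algebraMap_eq fun c => by
    rw [h2]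
    exact (φ.commutes c).symm
  haveI t2 : IsScalarTower (Polynomial k) k⟮y⟯ Λ := IsScalarTower.of_algebraMap_eq fun p => by
    rw [h1, h2, h3]
    have h4 := Polynomial.aeval_algHom_apply (k⟮y⟯.val) (AdjoinSimple.gen k y) p
    have h5 : ((Polynomial.aeval (AdjoinSimple.gen k y) p : k⟮y⟯) : F) = Polynomial.aeval y p := by
      rw [← AdjoinSimple.coe_gen k y]
      exact h4.symm
    rw [h5, Polynomial.aeval_algHom_apply]
  haveI t3 : FaithfulSMul (Polynomial k) Λ :=
    (faithfulSMul_iff_algebraMap_injective _ _).2 (by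
      have : Transcendental k (φ y) := by
        rw [transcendental_iff_injective] at hy ⊢
        intro p q hpq
        apply hy
        apply (φ : F →+* Λ).injective
        change φ _ = φ _
        rw [← Polynomial.aeval_algHom_apply, ← Polynomial.aeval_algHom_apply]
        exact hpq
      exact transcendental_iff_injective.1 this)
  have hP' : Irr.HasPoly (Polynomial k) e := hP
  have hsep : IsSeparable k⟮y⟯ (e i₀ U) := hP'.isSeparable he i₀ U
  have hint : IsIntegral k⟮y⟯ (e i₀ U) := (hP'.isIntegral i₀ U).tower_top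
  let ψ : F →ₐ[k⟮y⟯] Λ := { φ.toRingHom with commutes' := fun z => rfl }
  have hψ : ψ x = e i₀ U := hx
  rw [← hψ] at hsep hint
  refine ⟨(isIntegral_algHom_iff ψ ψ.injective).mp hint, ?_⟩
  rw [IsSeparable, minpoly.algHom_eq ψ ψ.injective] at hsep
  exact hsep

section Main

variable (k : Type*) [Field k] (N : ℕ) [NeZero N]

/-- `j` as an element of the reduced function field. -/
def jF : modularFunctionFieldFullC k N := ⟨jqModC k, jqModC_mem_full k N⟩

theorem transcendental_jF : Transcendental k (jF k N) := by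
  have h := transcendental_jqModC k
  rw [transcendental_iff_injective] at h ⊢
  intro p q hpq
  apply h
  have := congrArg (modularFunctionFieldFullC k N).val hpq
  rw [← Polynomial.aeval_algHom_apply, ← Polynomial.aeval_algHom_apply] at this
  exact this

/-- `x ↦ x(t^N)`. -/
def phi : modularFunctionFieldFullC k N →ₐ[k] LaurentSeries k :=
  (qExpandAlgHomC k N).comp (modularFunctionFieldFullC k N).val

theorem phi_apply (x : modularFunctionFieldFullC k N) :
    phi k N x = qExp k N (x : LaurentSeries k) := by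
  rw [qExp_eq]
  rfl

variable {k N}

theorem sep_of_eq_ev0 [Infinite k] (ζ : kˣ) (hζ : IsPrimitiveRoot ζ N) (h1 : ModEq k ζ N)
    (U : MvPolynomial (Gen N) k) (x : modularFunctionFieldFullC k N)
    (hx : (x : LaurentSeries k) = ev0 k N U) :
    IsIntegral k⟮jF k N⟯ x ∧ IsSeparable k⟮jF k N⟯ x := by
  have hmem : rep ((1 : SL(2, ℤ)) : Cos N) ∈ CongruenceSubgroup.Gamma0 N :=
    (rep_mem_Gamma0_iff _).mpr rfl
  refine abstract_sep (phi k N) (jF k N) (transcendental_jF k N)
    (fun i : Cos N => ev k ζ N (rep i)) (ev_injective ζ hζ) ?_ ((1 : SL(2, ℤ)) : Cos N) U x ?_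
  · have : phi k N (jF k N) = Jt k N := phi_apply k N _
    rw [this]
    exact h1
  · rw [phi_apply, hx, ev_of_mem_Gamma0 ζ hζ.pow_eq_one hmem]

/-- the generators, as elements of the field. -/
def genSet (k : Type*) [Field k] (N : ℕ) : Set (modularFunctionFieldFullC k N) :=
  {x | (x : LaurentSeries k) ∈ divisorExpansionsC k N}

theorem finite_genSet : (genSet k N).Finite := by
  have h : (divisorExpansionsC k N).Finite := by
    apply Set.Finite.subset ((N.divisors : Set ℕ).toFinite.image fun d => qExp k d (jqModC k))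
    rintro x ⟨d, hd, hdN, rfl⟩
    exact ⟨d, by simpa using ⟨hdN, NeZero.ne N⟩, by simp only [qExp_eq]⟩
  exact h.preimage Subtype.val_injective.injOn

theorem adjoin_genSet (E : IntermediateField k (modularFunctionFieldFullC k N)) :
    IntermediateField.adjoin E (genSet k N) = ⊤ := by
  rw [eq_top_iff]
  intro x _
  have h : modularFunctionFieldFullC k N ≤
      ((IntermediateField.adjoin E (genSet k N)).restrictScalars k).map
        (modularFunctionFieldFullC k N).val := by
    refine (IntermediateField.adjoin_le_iff (F := k) (S := divisorExpansionsC k N)).mpr ?_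
    intro z hz
    have hz' : z ∈ modularFunctionFieldFullC k N := IntermediateField.subset_adjoin k _ hz
    exact ⟨⟨z, hz'⟩, IntermediateField.subset_adjoin E _ hz, rfl⟩
  obtain ⟨x', hx', hxx⟩ := h x.2
  have : x' = x := Subtype.ext hxx
  rw [← this]
  exact hx'

theorem sep_of_mem_genSet [Infinite k] (ζ : kˣ) (hζ : IsPrimitiveRoot ζ N) (h1 : ModEq k ζ N)
    (x : modularFunctionFieldFullC k N) (hx : x ∈ genSet k N) :
    IsIntegral k⟮jF k N⟯ x ∧ IsSeparable k⟮jF k N⟯ x := by
  obtain ⟨d, hd, hdN, hxd⟩ := hx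
  refine sep_of_eq_ev0 ζ hζ h1
    (MvPolynomial.X (false, ⟨d, Nat.mem_divisors.mpr ⟨hdN, NeZero.ne N⟩⟩)) x ?_
  rw [hxd, ev0, MvPolynomial.aeval_X, gen]
  simp only [Bool.false_eq_true, if_false, gX]
  rw [qExp_eq]

theorem finiteDimensional [Infinite k] (ζ : kˣ) (hζ : IsPrimitiveRoot ζ N) (h1 : ModEq k ζ N) :
    FiniteDimensional k⟮jF k N⟯ (modularFunctionFieldFullC k N) := by
  haveI : Finite (genSet k N) := finite_genSet.to_subtype
  have h := IntermediateField.finiteDimensional_adjoin (K := k⟮jF k N⟯) (S := genSet k N)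
    fun x hx => (sep_of_mem_genSet ζ hζ h1 x hx).1
  rw [adjoin_genSet] at h
  exact (IntermediateField.topEquiv (F := k⟮jF k N⟯)
    (E := modularFunctionFieldFullC k N)).toLinearEquiv.finiteDimensional

theorem isSeparable [Infinite k] (ζ : kˣ) (hζ : IsPrimitiveRoot ζ N) (h1 : ModEq k ζ N) :
    Algebra.IsSeparable k⟮jF k N⟯ (modularFunctionFieldFullC k N) := by
  rw [← separableClosure.eq_top_iff, eq_top_iff, ← adjoin_genSet k⟮jF k N⟯,
    IntermediateField.adjoin_le_iff]
  intro x hx
  exact mem_separableClosure_iff.mpr (sep_of_mem_genSet ζ hζ h1 x hx).2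

end Main

end Fermat.Agent.ES.FkSep
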