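import Fermat.Agent.ES.KDefs

/-!
# ES, block KRON, package K-INT : calculus of `IsIntA`, `IsPrimA`, `CongA`
-/

set_option autoImplicit false

noncomputable section

namespace Fermat.Agent.ES

open ModularCurve Fermat.Agent.S24
open scoped Pointwise

namespace KInt

variable {A : ValuationSubring Kb}

/-- The lift of an integral series to a series with coefficients in `A`. -/
def ofInt {x : LaurentSeries Kb} (hx : IsIntA A x) : LaurentSeries A where
  coeff n := ⟨x.coeff n, hx n⟩
  isPWO_support' := x.isPWO_support.mono (by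
    intro n hn h
    exact hn (Subtype.ext h))

variable (A) in
/-- The inclusion `A((q)) → ℚ̄((q))`. -/
abbrev iota : LaurentSeries A →+* LaurentSeries Kb := coeffMap A.subtype

variable (A) in
/-- The reduction `A((q)) → κ((q))`. -/
abbrev red : LaurentSeries A →+* LaurentSeries (IsLocalRing.ResidueField A) :=
  coeffMap (IsLocalRing.residue A)

theorem iota_ofInt {x : LaurentSeries Kb} (hx : IsIntA A x) : iota A (ofInt hx) = x := by
  ext n; rfl

theorem isIntA_iota (a : LaurentSeries A) : IsIntA A (iota A a) := fun n => (a.coeff n).2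

theorem isIntA_iff {x : LaurentSeries Kb} : IsIntA A x ↔ ∃ a, iota A a = x :=
  ⟨fun hx => ⟨ofInt hx, iota_ofInt hx⟩, by rintro ⟨a, rfl⟩; exact isIntA_iota a⟩

theorem iota_injective : Function.Injective (iota A) := by
  intro a b h
  ext n
  have := congrArg (fun z => z.coeff n) h
  exact this

theorem congA_iota_iff (a b : LaurentSeries A) :
    CongA A (iota A a) (iota A b) ↔ red A a = red A b := by
  have key : ∀ n, ((iota A a).coeff n - (iota A b).coeff n ∈ A.nonunits ↔
      (red A a).coeff n = (red A b).coeff n) := by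
    intro n
    have h1 : (iota A a).coeff n - (iota A b).coeff n = ((a.coeff n - b.coeff n : A) : Kb) := rfl
    rw [h1, ValuationSubring.coe_mem_nonunits_iff, ← IsLocalRing.residue_eq_zero_iff, map_sub,
      sub_eq_zero]
    rfl
  constructor
  · intro h
    ext n
    exact (key n).1 (h n)
  · intro h n
    exact (key n).2 (by rw [h])

theorem isPrimA_iota_iff (a : LaurentSeries A) : IsPrimA A (iota A a) ↔ red A a ≠ 0 := by
  have key : ∀ n, ((iota A a).coeff n ∈ A.nonunits ↔ (red A a).coeff n = 0) := by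
    intro n
    have h1 : (iota A a).coeff n = ((a.coeff n : A) : Kb) := rfl
    rw [h1, ValuationSubring.coe_mem_nonunits_iff, ← IsLocalRing.residue_eq_zero_iff]
    rfl
  constructor
  · rintro ⟨-, n, hn⟩ h
    exact hn ((key n).2 (by rw [h]; rfl))
  · intro h
    refine ⟨isIntA_iota a, ?_⟩
    by_contra hcon
    push Not at hcon
    apply h
    ext n
    exact (key n).1 (hcon n)

theorem nonunits_subset {a : Kb} (ha : a ∈ A.nonunits) : a ∈ A :=
  ValuationSubring.nonunits_subset ha

theorem smul_mem_of_mem_decomposition {σ : GQ} (hσ : σ ∈ A.decompositionSubgroup ℚ) {a : Kb}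
    (ha : a ∈ A) : σ a ∈ A := by
  have h1 : σ • A = A := hσ
  have h2 : σ • a ∈ σ • A := ValuationSubring.smul_mem_pointwise_smul σ a A ha
  rw [h1] at h2
  exact h2

theorem map_notMem_nonunits {σ : GQ} (hσ : σ ∈ A.decompositionSubgroup ℚ) {a : Kb}
    (ha : a ∈ A) (ha' : a ∉ A.nonunits) : σ a ∉ A.nonunits := by
  intro h
  have hv : A.valuation a = 1 := by
    have h1 := (A.valuation_le_one_iff a).2 ha
    have h2 : ¬ A.valuation a < 1 := fun h => ha' ((ValuationSubring.mem_nonunits_iff A).2 h)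
    exact le_antisymm h1 (not_lt.1 h2)
  have ha0 : a ≠ 0 := by
    rintro rfl
    simp at hv
  have hinv : a⁻¹ ∈ A := by
    rw [← A.valuation_le_one_iff, map_inv₀, hv, inv_one]
  have h3 := smul_mem_of_mem_decomposition hσ hinv
  have h4 : A.valuation (σ a * σ a⁻¹) < 1 := by
    rw [map_mul]
    have h5 := (ValuationSubring.mem_nonunits_iff A).1 h
    have h6 := (A.valuation_le_one_iff _).2 h3
    exact mul_lt_one_of_lt_of_le h5 h6
  rw [← map_mul, mul_inv_cancel₀ ha0, map_one, map_one] at h4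
  exact lt_irrefl _ h4

end KInt

open KInt

variable {A : ValuationSubring Kb}

theorem IsIntA.mul {x y : LaurentSeries Kb} (hx : IsIntA A x)
    (hy : IsIntA A y) : IsIntA A (x * y) := by
  obtain ⟨a, rfl⟩ := isIntA_iff.1 hx
  obtain ⟨b, rfl⟩ := isIntA_iff.1 hy
  rw [← map_mul]
  exact isIntA_iota _

theorem IsPrimA.mul {x y : LaurentSeries Kb} (hx : IsPrimA A x)
    (hy : IsPrimA A y) : IsPrimA A (x * y) := by
  obtain ⟨a, rfl⟩ := isIntA_iff.1 hx.1
  obtain ⟨b, rfl⟩ := isIntA_iff.1 hy.1
  rw [← map_mul, isPrimA_iota_iff, map_mul]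
  exact mul_ne_zero ((isPrimA_iota_iff a).1 hx) ((isPrimA_iota_iff b).1 hy)

theorem IsPrimA.one : IsPrimA A (1 : LaurentSeries Kb) := by
  have : (1 : LaurentSeries Kb) = iota A 1 := (map_one _).symm
  rw [this, isPrimA_iota_iff, map_one]
  exact one_ne_zero

theorem IsPrimA.pow {x : LaurentSeries Kb} (hx : IsPrimA A x) (n : ℕ) :
    IsPrimA A (x ^ n) := by
  induction n with
  | zero => rw [pow_zero]; exact IsPrimA.one
  | succ n ih => rw [pow_succ]; exact ih.mul hx

theorem CongA.symm {x y : LaurentSeries Kb} (h : CongA A x y) :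
    CongA A y x := by
  intro n
  have := A.nonunits.neg_mem (h n)
  simpa using this

theorem CongA.refl (x : LaurentSeries Kb) : CongA A x x := by
  intro n
  rw [sub_self]
  exact A.nonunits.zero_mem

theorem CongA.trans {x y z : LaurentSeries Kb} (h : CongA A x y)
    (h' : CongA A y z) : CongA A x z := by
  intro n
  have := A.nonunits.add_mem (h n) (h' n)
  simpa using this

theorem CongA.isIntA {x y : LaurentSeries Kb} (h : CongA A x y)
    (hy : IsIntA A y) : IsIntA A x := by
  intro n
  have := A.add_mem _ _ (nonunits_subset (h n)) (hy n)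
  simpa using this

theorem CongA.mul {x y x' y' : LaurentSeries Kb} (hx : IsIntA A x)
    (hy' : IsIntA A y') (h : CongA A x x') (h' : CongA A y y') : CongA A (x * y) (x' * y') := by
  have hx' : IsIntA A x' := h.symm.isIntA hx
  have hy : IsIntA A y := h'.isIntA hy'
  obtain ⟨a, rfl⟩ := isIntA_iff.1 hx
  obtain ⟨b, rfl⟩ := isIntA_iff.1 hy
  obtain ⟨a', rfl⟩ := isIntA_iff.1 hx'
  obtain ⟨b', rfl⟩ := isIntA_iff.1 hy'
  rw [← map_mul, ← map_mul, congA_iota_iff, map_mul, map_mul, (congA_iota_iff a a').1 h,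
    (congA_iota_iff b b').1 h']

theorem CongA.isPrimA {x y : LaurentSeries Kb} (h : CongA A x y)
    (hy : IsPrimA A y) : IsPrimA A x := by
  have hx : IsIntA A x := h.isIntA hy.1
  obtain ⟨a, rfl⟩ := isIntA_iff.1 hx
  obtain ⟨b, rfl⟩ := isIntA_iff.1 hy.1
  rw [isPrimA_iota_iff, (congA_iota_iff a b).1 h]
  exact (isPrimA_iota_iff b).1 hy

theorem IsIntA.coeffMap {σ : GQ} (hσ : σ ∈ A.decompositionSubgroup ℚ)
    {x : LaurentSeries Kb} (hx : IsIntA A x) : IsIntA A (coeffMap (σ : Kb →+* Kb) x) :=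
  fun n => smul_mem_of_mem_decomposition hσ (hx n)

theorem IsPrimA.coeffMap {σ : GQ} (hσ : σ ∈ A.decompositionSubgroup ℚ)
    {x : LaurentSeries Kb} (hx : IsPrimA A x) : IsPrimA A (coeffMap (σ : Kb →+* Kb) x) := by
  obtain ⟨h1, n, hn⟩ := hx
  exact ⟨h1.coeffMap hσ, n, map_notMem_nonunits hσ (h1 n) hn⟩

theorem congA_coeffMap_of_mem_inertia {τ : GQ}
    (hτ : τ ∈ A.inertiaSubgroupIn ℚ) {x : LaurentSeries Kb} (hx : IsIntA A x) :
    CongA A (coeffMap (τ : Kb →+* Kb) x) x := by
  obtain ⟨τ', hτ', rfl⟩ := hτ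
  intro n
  have h1 : ∀ z : IsLocalRing.ResidueField A, τ' • z = z := fun z => by
    have := DFunLike.congr_fun (show MulSemiringAction.toRingAut (A.decompositionSubgroup ℚ)
      (IsLocalRing.ResidueField A) τ' = 1 from hτ') z
    exact this
  set a : A := ⟨x.coeff n, hx n⟩ with ha
  have h2 := h1 (IsLocalRing.residue A a)
  rw [← IsLocalRing.ResidueField.residue_smul, ← sub_eq_zero, ← map_sub,
    IsLocalRing.residue_eq_zero_iff, ← ValuationSubring.coe_mem_nonunits_iff] at h2
  exact h2

end Fermat.Agent.ES
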