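import Fermat.Agent.ES.ADefs
import Fermat.Agent.ES.KGauss
import Fermat.Agent.ES.KInt

/-!
# ES, block INJ (route `abstract_inj`), package A-GAUSS

The Gauss valuation ring `gaussO` of `FF N` attached to a valuation ring `A` of `ℚ̄` above `ℓ`, the
reduction map `gaussRed : gaussO →+* κ((q))`, and the hypotheses `hker`, `hKk`, `hkK`, `hV` of
`AbsInj.abstract_inj`.
-/

set_option autoImplicit false

noncomputable section

namespace Fermat.Agent.ES

open ModularCurve AlgebraicCurve Fermat.Agent.S24 Fermat.Agent.ES.AbsInj Module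

variable (A : ValuationSubring Kb)

/-! ### reduction of integral series -/

/-- The reduction of an integral series (junk value `0` otherwise). -/
def redL (x : LaurentSeries Kb) : LaurentSeries (IsLocalRing.ResidueField A) :=
  open Classical in if h : IsIntA A x then KInt.red A (KInt.ofInt h) else 0

namespace Gauss

/-- the residue field of `A` -/
abbrev kA : Type := IsLocalRing.ResidueField A

variable {A}

theorem redL_iota (a : LaurentSeries A) : redL A (KInt.iota A a) = KInt.red A a := by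
  rw [redL, dif_pos (KInt.isIntA_iota a)]
  rfl

theorem redL_coeff {x : LaurentSeries Kb} (hx : IsIntA A x) (n : ℤ) :
    (redL A x).coeff n = IsLocalRing.residue A ⟨x.coeff n, hx n⟩ := by
  rw [redL, dif_pos hx]
  rfl

theorem isIntA_add {x y : LaurentSeries Kb} (hx : IsIntA A x) (hy : IsIntA A y) :
    IsIntA A (x + y) := fun n => A.add_mem _ _ (hx n) (hy n)

theorem isIntA_neg {x : LaurentSeries Kb} (hx : IsIntA A x) : IsIntA A (-x) :=
  fun n => A.neg_mem _ (hx n)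

theorem isIntA_zero : IsIntA A (0 : LaurentSeries Kb) := fun _ => A.zero_mem

theorem redL_add {x y : LaurentSeries Kb} (hx : IsIntA A x) (hy : IsIntA A y) :
    redL A (x + y) = redL A x + redL A y := by
  obtain ⟨a, rfl⟩ := KInt.isIntA_iff.1 hx
  obtain ⟨b, rfl⟩ := KInt.isIntA_iff.1 hy
  rw [← map_add, redL_iota, redL_iota, redL_iota, map_add]

theorem redL_mul {x y : LaurentSeries Kb} (hx : IsIntA A x) (hy : IsIntA A y) :
    redL A (x * y) = redL A x * redL A y := by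
  obtain ⟨a, rfl⟩ := KInt.isIntA_iff.1 hx
  obtain ⟨b, rfl⟩ := KInt.isIntA_iff.1 hy
  rw [← map_mul, redL_iota, redL_iota, redL_iota, map_mul]

theorem redL_neg {x : LaurentSeries Kb} (hx : IsIntA A x) : redL A (-x) = - redL A x := by
  obtain ⟨a, rfl⟩ := KInt.isIntA_iff.1 hx
  rw [← map_neg, redL_iota, redL_iota, map_neg]

theorem redL_one : redL A (1 : LaurentSeries Kb) = 1 := by
  have := redL_iota (A := A) 1
  rwa [map_one, map_one] at this

theorem redL_zero : redL A (0 : LaurentSeries Kb) = 0 := by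
  have := redL_iota (A := A) 0
  rwa [map_zero, map_zero] at this

theorem isPrimA_iff_redL {x : LaurentSeries Kb} : IsPrimA A x ↔ IsIntA A x ∧ redL A x ≠ 0 := by
  constructor
  · intro h
    refine ⟨h.1, ?_⟩
    obtain ⟨a, rfl⟩ := KInt.isIntA_iff.1 h.1
    rw [redL_iota]
    exact (KInt.isPrimA_iota_iff a).1 h
  · rintro ⟨h1, h2⟩
    obtain ⟨a, rfl⟩ := KInt.isIntA_iff.1 h1
    rw [redL_iota] at h2
    exact (KInt.isPrimA_iota_iff a).2 h2

theorem redL_ne_zero_of_isPrimA {x : LaurentSeries Kb} (h : IsPrimA A x) : redL A x ≠ 0 :=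
  (isPrimA_iff_redL.1 h).2

/-! ### the Gauss valuation ring -/

variable (A) (N : ℕ)

/-- `u = P / Q` with `P` integral and `Q` primitive. -/
def IsGInt (u : FF N) : Prop :=
  ∃ P Q : FF N, IsIntA A (P : LaurentSeries Kb) ∧ IsPrimA A (Q : LaurentSeries Kb) ∧ u * Q = P

variable {A N}

theorem ne_zero_of_isPrimA {Q : FF N} (hQ : IsPrimA A (Q : LaurentSeries Kb)) : Q ≠ 0 := by
  rintro rfl
  obtain ⟨-, n, hn⟩ := hQ
  apply hn
  show (0 : Kb) ∈ A.nonunits
  rw [ValuationSubring.mem_nonunits_iff]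
  simp

theorem coe_algebraMap_mul (c : Kb) (y : FF N) :
    ((algebraMap Kb (FF N) c * y : FF N) : LaurentSeries Kb) = c • (y : LaurentSeries Kb) :=
  KGauss.algebraMap_mul_eq_smul c _

theorem isIntA_smul {c : Kb} (hc : c ∈ A) {x : LaurentSeries Kb} (hx : IsIntA A x) :
    IsIntA A (c • x) := fun n => by
  rw [HahnSeries.coeff_smul]
  exact A.mul_mem _ _ hc (hx n)

theorem IsGInt.mul {u v : FF N} (hu : IsGInt A N u) (hv : IsGInt A N v) : IsGInt A N (u * v) := by
  obtain ⟨P, Q, hP, hQ, h⟩ := hu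
  obtain ⟨P', Q', hP', hQ', h'⟩ := hv
  exact ⟨P * P', Q * Q', IsIntA.mul hP hP', IsPrimA.mul hQ hQ', by
    rw [← h, ← h']; ring⟩

theorem IsGInt.add {u v : FF N} (hu : IsGInt A N u) (hv : IsGInt A N v) : IsGInt A N (u + v) := by
  obtain ⟨P, Q, hP, hQ, h⟩ := hu
  obtain ⟨P', Q', hP', hQ', h'⟩ := hv
  exact ⟨P * Q' + P' * Q, Q * Q', isIntA_add (IsIntA.mul hP hQ'.1) (IsIntA.mul hP' hQ.1),
    IsPrimA.mul hQ hQ', by rw [← h, ← h']; ring⟩

theorem IsGInt.neg {u : FF N} (hu : IsGInt A N u) : IsGInt A N (-u) := by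
  obtain ⟨P, Q, hP, hQ, h⟩ := hu
  exact ⟨-P, Q, isIntA_neg hP, hQ, by rw [← h]; ring⟩

theorem IsGInt.of_isIntA {u : FF N} (hu : IsIntA A (u : LaurentSeries Kb)) : IsGInt A N u :=
  ⟨u, 1, hu, IsPrimA.one, mul_one u⟩

theorem isGInt_or_inv {ℓ : ℕ} [Fact ℓ.Prime] (hA : A.LiesOverPrime ℓ) (u : FF N) :
    IsGInt A N u ∨ IsGInt A N u⁻¹ := by
  by_cases hu : u = 0
  · left
    rw [hu]
    exact IsGInt.of_isIntA isIntA_zero
  obtain ⟨e, P, Q, he, hP, hQ, h⟩ := exists_prim N ℓ A hA u hu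
  rcases A.mem_or_inv_mem e with h1 | h1
  · left
    exact ⟨algebraMap Kb (FF N) e * P, Q, by rw [coe_algebraMap_mul]; exact isIntA_smul h1 hP.1,
      hQ, h⟩
  · right
    refine ⟨algebraMap Kb (FF N) e⁻¹ * Q, P, by
      rw [coe_algebraMap_mul]; exact isIntA_smul h1 hQ.1, hP, ?_⟩
    have he' : algebraMap Kb (FF N) e ≠ 0 := by simpa using he
    rw [map_inv₀]
    field_simp
    rw [mul_comm, ← h, mul_comm]

/-! ### the reduction map -/

variable (A N) in
open Classical in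
/-- The reduction of a Gauss-integral function (junk value `0` otherwise). -/
def redFun (u : FF N) : LaurentSeries (kA A) :=
  if h : IsGInt A N u then
    redL A (h.choose : LaurentSeries Kb) / redL A (h.choose_spec.choose : LaurentSeries Kb) else 0

theorem redFun_eq {u P Q : FF N} (hP : IsIntA A (P : LaurentSeries Kb))
    (hQ : IsPrimA A (Q : LaurentSeries Kb)) (h : u * Q = P) :
    redFun A N u = redL A (P : LaurentSeries Kb) / redL A (Q : LaurentSeries Kb) := by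
  have hu : IsGInt A N u := ⟨P, Q, hP, hQ, h⟩
  rw [redFun, dif_pos hu]
  obtain ⟨hP', hQ', h'⟩ := hu.choose_spec.choose_spec
  generalize hu.choose_spec.choose = Q' at hP' hQ' h' ⊢
  generalize hu.choose = P' at hP' hQ' h' ⊢
  rw [div_eq_div_iff (redL_ne_zero_of_isPrimA hQ') (redL_ne_zero_of_isPrimA hQ), ← redL_mul hP' hQ.1,
    ← redL_mul hP hQ'.1]
  congr 1
  have : P' * Q = P * Q' := by rw [← h, ← h']; ring
  exact congrArg (fun z : FF N => (z : LaurentSeries Kb)) this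

theorem redFun_of_isIntA {u : FF N} (hu : IsIntA A (u : LaurentSeries Kb)) :
    redFun A N u = redL A (u : LaurentSeries Kb) := by
  rw [redFun_eq hu IsPrimA.one (mul_one u)]
  have : ((1 : FF N) : LaurentSeries Kb) = 1 := rfl
  rw [this, redL_one, div_one]

theorem redFun_mul {u v : FF N} (hu : IsGInt A N u) (hv : IsGInt A N v) :
    redFun A N (u * v) = redFun A N u * redFun A N v := by
  obtain ⟨P, Q, hP, hQ, h⟩ := hu
  obtain ⟨P', Q', hP', hQ', h'⟩ := hv
  rw [redFun_eq hP hQ h, redFun_eq hP' hQ' h',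
    redFun_eq (P := P * P') (Q := Q * Q') (IsIntA.mul hP hP') (IsPrimA.mul hQ hQ')
      (by rw [← h, ← h']; ring)]
  have e1 : ((P * P' : FF N) : LaurentSeries Kb) = (P : LaurentSeries Kb) * P' := rfl
  have e2 : ((Q * Q' : FF N) : LaurentSeries Kb) = (Q : LaurentSeries Kb) * Q' := rfl
  rw [e1, e2, redL_mul hP hP', redL_mul hQ.1 hQ'.1, div_mul_div_comm]

theorem redFun_add {u v : FF N} (hu : IsGInt A N u) (hv : IsGInt A N v) :
    redFun A N (u + v) = redFun A N u + redFun A N v := by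
  obtain ⟨P, Q, hP, hQ, h⟩ := hu
  obtain ⟨P', Q', hP', hQ', h'⟩ := hv
  rw [redFun_eq hP hQ h, redFun_eq hP' hQ' h',
    redFun_eq (P := P * Q' + P' * Q) (Q := Q * Q')
      (isIntA_add (IsIntA.mul hP hQ'.1) (IsIntA.mul hP' hQ.1)) (IsPrimA.mul hQ hQ')
      (by rw [← h, ← h']; ring)]
  have e1 : ((P * Q' + P' * Q : FF N) : LaurentSeries Kb)
      = (P : LaurentSeries Kb) * Q' + (P' : LaurentSeries Kb) * Q := rfl
  have e2 : ((Q * Q' : FF N) : LaurentSeries Kb) = (Q : LaurentSeries Kb) * Q' := rfl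
  rw [e1, e2, redL_add (IsIntA.mul hP hQ'.1) (IsIntA.mul hP' hQ.1), redL_mul hP hQ'.1,
    redL_mul hP' hQ.1, redL_mul hQ.1 hQ'.1,
    div_add_div _ _ (redL_ne_zero_of_isPrimA hQ) (redL_ne_zero_of_isPrimA hQ')]
  congr 1
  ring

theorem redFun_one : redFun A N (1 : FF N) = 1 := by
  rw [redFun_of_isIntA IsPrimA.one.1]
  exact redL_one

theorem redFun_zero : redFun A N (0 : FF N) = 0 := by
  rw [redFun_of_isIntA isIntA_zero]
  exact redL_zero

/-- the kernel of the reduction is the maximal ideal -/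
theorem redFun_eq_zero {u : FF N} (hu : IsGInt A N u) (hinv : ¬ IsGInt A N u⁻¹) :
    redFun A N u = 0 := by
  obtain ⟨P, Q, hP, hQ, h⟩ := hu
  rw [redFun_eq hP hQ h]
  by_contra hne
  have hP0 : redL A (P : LaurentSeries Kb) ≠ 0 := fun h0 => hne (by rw [h0, zero_div])
  have hPp : IsPrimA A (P : LaurentSeries Kb) := isPrimA_iff_redL.2 ⟨hP, hP0⟩
  apply hinv
  refine ⟨Q, P, hQ.1, hPp, ?_⟩
  have hu0 : u ≠ 0 := by
    rintro rfl
    rw [zero_mul] at h
    exact ne_zero_of_isPrimA hPp h.symm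
  rw [← h, ← mul_assoc, inv_mul_cancel₀ hu0, one_mul]

theorem isGInt_inv_of_redFun_ne_zero {u : FF N} (hu : IsGInt A N u) (h : redFun A N u ≠ 0) :
    IsGInt A N u⁻¹ := by
  by_contra hinv
  exact h (redFun_eq_zero hu hinv)

theorem redFun_inv {u : FF N} (hu : IsGInt A N u) (h : redFun A N u ≠ 0) :
    redFun A N u⁻¹ = (redFun A N u)⁻¹ := by
  have hinv := isGInt_inv_of_redFun_ne_zero hu h
  have hu0 : u ≠ 0 := by
    rintro rfl
    apply h
    rw [redFun_of_isIntA isIntA_zero]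
    exact redL_zero
  have h1 : redFun A N u * redFun A N u⁻¹ = 1 := by
    rw [← redFun_mul hu hinv, mul_inv_cancel₀ hu0, redFun_of_isIntA IsPrimA.one.1]
    exact redL_one
  exact eq_inv_of_mul_eq_one_right h1

/-! ### constants -/

theorem coe_algebraMap (c : Kb) :
    ((algebraMap Kb (FF N) c : FF N) : LaurentSeries Kb) = HahnSeries.C c := by
  have : ((algebraMap Kb (FF N) c : FF N) : LaurentSeries Kb)
      = algebraMap Kb (LaurentSeries Kb) c := rfl
  rw [this, LaurentSeries.algebraMap_apply]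

theorem isIntA_C {c : Kb} (hc : c ∈ A) : IsIntA A (HahnSeries.C c : LaurentSeries Kb) := by
  intro n
  rw [HahnSeries.C_apply, HahnSeries.coeff_single]
  split_ifs
  · exact hc
  · exact A.zero_mem

theorem redL_C {c : Kb} (hc : c ∈ A) :
    redL A (HahnSeries.C c : LaurentSeries Kb) = HahnSeries.C (IsLocalRing.residue A ⟨c, hc⟩) := by
  ext n
  rw [redL_coeff (isIntA_C hc)]
  simp only [HahnSeries.C_apply, HahnSeries.coeff_single]
  split_ifs with h
  · rfl
  · exact map_zero _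

theorem mem_of_isGInt_algebraMap {c : Kb} (h : IsGInt A N (algebraMap Kb (FF N) c)) : c ∈ A := by
  obtain ⟨P, Q, hP, hQ, h⟩ := h
  rcases A.mem_or_inv_mem c with h1 | h1
  · exact h1
  by_contra hc
  have hc0 : c ≠ 0 := by
    rintro rfl
    exact hc A.zero_mem
  -- `c⁻¹` is a non unit
  have hnu : c⁻¹ ∈ A.nonunits := by
    rw [ValuationSubring.mem_nonunits_iff_exists_mem_maximalIdeal]
    refine ⟨h1, ?_⟩
    rw [IsLocalRing.mem_maximalIdeal, mem_nonunits_iff]
    intro hunit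
    obtain ⟨v, hv⟩ := hunit.exists_right_inv
    apply hc
    have h2 : c⁻¹ * (v : Kb) = 1 := congrArg Subtype.val hv
    have h3 : (v : Kb) = c := by
      field_simp at h2
      exact h2
    rw [← h3]
    exact v.2
  obtain ⟨-, n, hn⟩ := hQ
  apply hn
  have h4 : (Q : LaurentSeries Kb) = c⁻¹ • (P : LaurentSeries Kb) := by
    rw [← coe_algebraMap_mul, ← h, ← mul_assoc, ← map_mul, inv_mul_cancel₀ hc0, map_one, one_mul]
  rw [h4, HahnSeries.coeff_smul, smul_eq_mul]
  rw [ValuationSubring.mem_nonunits_iff] at hnu ⊢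
  exact lt_of_le_of_lt (by
    rw [map_mul]
    exact mul_le_of_le_one_right' ((A.valuation_le_one_iff _).2 (hP n))) hnu

theorem redFun_algebraMap {c : Kb} (hc : c ∈ A) :
    redFun A N (algebraMap Kb (FF N) c) = HahnSeries.C (IsLocalRing.residue A ⟨c, hc⟩) := by
  rw [redFun_of_isIntA (by rw [coe_algebraMap]; exact isIntA_C hc), coe_algebraMap, redL_C hc]

end Gauss

open Gauss

section Main

variable (N : ℕ)

local notation "kA" => IsLocalRing.ResidueField A

/-- The Gauss valuation ring of `FF N`. -/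
def gaussO (ℓ : ℕ) [Fact ℓ.Prime] (hA : A.LiesOverPrime ℓ) : ValuationSubring (FF N) where
  carrier := {u | IsGInt A N u}
  mul_mem' := IsGInt.mul
  one_mem' := IsGInt.of_isIntA IsPrimA.one.1
  add_mem' := IsGInt.add
  zero_mem' := IsGInt.of_isIntA isIntA_zero
  neg_mem' := IsGInt.neg
  mem_or_inv_mem' := isGInt_or_inv hA

theorem mem_gaussO (ℓ : ℕ) [Fact ℓ.Prime] (hA : A.LiesOverPrime ℓ) (u : FF N) :
    u ∈ gaussO A N ℓ hA ↔ ∃ P Q : FF N, IsIntA A (P : LaurentSeries Kb) ∧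
      IsPrimA A (Q : LaurentSeries Kb) ∧ u * Q = P := Iff.rfl

/-- The reduction map into `κ((q))`. -/
def gaussRed (ℓ : ℕ) [Fact ℓ.Prime] (hA : A.LiesOverPrime ℓ) :
    gaussO A N ℓ hA →+* LaurentSeries kA where
  toFun u := redFun A N u
  map_one' := redFun_one
  map_mul' u v := redFun_mul u.2 v.2
  map_zero' := redFun_zero
  map_add' u v := redFun_add u.2 v.2

variable (ℓ : ℕ) [Fact ℓ.Prime] (hA : A.LiesOverPrime ℓ)

theorem gaussRed_apply (u : gaussO A N ℓ hA) : gaussRed A N ℓ hA u = redFun A N u := rfl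

theorem gaussRed_spec (u P Q : FF N) (hP : IsIntA A (P : LaurentSeries Kb))
    (hQ : IsPrimA A (Q : LaurentSeries Kb)) (h : u * Q = P) :
    Red (gaussO A N ℓ hA) (gaussRed A N ℓ hA) u
      (redL A (P : LaurentSeries Kb) / redL A (Q : LaurentSeries Kb)) :=
  ⟨⟨P, Q, hP, hQ, h⟩, redFun_eq hP hQ h⟩

theorem gaussRed_of_isIntA (u : FF N) (hu : IsIntA A (u : LaurentSeries Kb)) :
    Red (gaussO A N ℓ hA) (gaussRed A N ℓ hA) u (redL A (u : LaurentSeries Kb)) :=
  ⟨IsGInt.of_isIntA hu, redFun_of_isIntA hu⟩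

theorem gauss_hker : ∀ (f : FF N) (hf : f ∈ gaussO A N ℓ hA), f⁻¹ ∉ gaussO A N ℓ hA →
    gaussRed A N ℓ hA ⟨f, hf⟩ = 0 :=
  fun _ hf hinv => redFun_eq_zero hf hinv

theorem gauss_hKk : ∀ (c : Kb) (y : LaurentSeries kA),
    Red (gaussO A N ℓ hA) (gaussRed A N ℓ hA) (algebraMap Kb (FF N) c) y →
      ∃ κ : kA, y = algebraMap kA (LaurentSeries kA) κ := by
  rintro c y ⟨hc, rfl⟩
  have hcA : c ∈ A := mem_of_isGInt_algebraMap hc
  refine ⟨IsLocalRing.residue A ⟨c, hcA⟩, ?_⟩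
  rw [LaurentSeries.algebraMap_apply]
  exact redFun_algebraMap hcA

theorem gauss_hkK : ∀ κ : kA, ∃ c : Kb,
    Red (gaussO A N ℓ hA) (gaussRed A N ℓ hA) (algebraMap Kb (FF N) c)
      (algebraMap kA (LaurentSeries kA) κ) := by
  intro κ
  obtain ⟨c, rfl⟩ := IsLocalRing.residue_surjective κ
  refine ⟨c, IsGInt.of_isIntA (by rw [coe_algebraMap]; exact isIntA_C c.2), ?_⟩
  rw [LaurentSeries.algebraMap_apply]
  exact redFun_algebraMap c.2

theorem gauss_hV : ∀ f : FF N, f ≠ 0 → ∃ c : Kb, c ≠ 0 ∧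
    algebraMap Kb (FF N) c * f ∈ gaussO A N ℓ hA ∧
      (algebraMap Kb (FF N) c * f)⁻¹ ∈ gaussO A N ℓ hA := by
  intro f hf
  obtain ⟨e, P, Q, he, hP, hQ, h⟩ := exists_prim N ℓ A hA f hf
  have he' : algebraMap Kb (FF N) e ≠ 0 := by simpa using he
  have hP0 : P ≠ 0 := ne_zero_of_isPrimA hP
  have hQ0 : Q ≠ 0 := ne_zero_of_isPrimA hQ
  have h1 : algebraMap Kb (FF N) e⁻¹ * f * Q = P := by
    rw [mul_assoc, h, ← mul_assoc, ← map_mul, inv_mul_cancel₀ he, map_one, one_mul]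
  refine ⟨e⁻¹, inv_ne_zero he, ⟨P, Q, hP.1, hQ, h1⟩, ⟨Q, P, hQ.1, hP, ?_⟩⟩
  rw [← h1]
  have h2 : algebraMap Kb (FF N) e⁻¹ * f ≠ 0 :=
    mul_ne_zero (by simpa using he) hf
  rw [← mul_assoc, inv_mul_cancel₀ h2, one_mul]

end Main

end Fermat.Agent.ES
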