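import Fermat.Agent.ES.ADefs
import Fermat.Agent.ES.ConstAbs

/-!
# Project ES, block INJ (instantiation of `abstract_inj`), package A-INT

Integral functions reduce to integral functions, from an "orthonormal" basis of `F / K(x)`.
-/

set_option autoImplicit false

namespace Fermat.Agent.ES.TC

open Fermat.Agent.ES.AbsInj IntermediateField Module Polynomial

namespace IntAbs

variable {K F k Fb : Type*} [Field K] [Field F] [Algebra K F] [Field k] [Field Fb] [Algebra k Fb]

/-- among finitely many elements, not all zero, one has the largest valuation -/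
lemma exists_max {ι : Type*} [Finite ι] (O : ValuationSubring F) (a : ι → F)
    (h : ∃ i, a i ≠ 0) : ∃ j, a j ≠ 0 ∧ ∀ i, a i / a j ∈ O := by
  classical
  cases nonempty_fintype ι
  obtain ⟨i0, hi0⟩ := h
  obtain ⟨j, -, hj⟩ := Finset.exists_max_image Finset.univ (fun i => O.valuation (a i))
    ⟨i0, Finset.mem_univ _⟩
  have hj0 : a j ≠ 0 := by
    intro h0
    have h1 := hj i0 (Finset.mem_univ _)
    rw [h0, map_zero] at h1
    exact hi0 ((map_eq_zero _).1 (le_antisymm h1 zero_le))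
  refine ⟨j, hj0, fun i => ?_⟩
  rw [← ValuationSubring.valuation_le_one_iff, map_div₀]
  exact div_le_one_of_le₀ (hj i (Finset.mem_univ _)) zero_le

variable {O : ValuationSubring F} {red : O →+* Fb}

/-- `Pb` is the coefficientwise reduction of `P`. -/
def PRed (O : ValuationSubring F) (red : O →+* Fb) (P : K[X]) (Pb : k[X]) : Prop :=
  ∀ i, Red O red (algebraMap K F (P.coeff i)) (algebraMap k Fb (Pb.coeff i))

lemma PRed.aeval {P : K[X]} {Pb : k[X]} (h : PRed O red P Pb) {x : F} {xb : Fb}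
    (hx : Red O red x xb) : Red O red (aeval x P) (aeval xb Pb) := by
  rw [aeval_eq_sum_range' (n := max P.natDegree Pb.natDegree + 1) (by omega),
    aeval_eq_sum_range' (n := max P.natDegree Pb.natDegree + 1) (by omega)]
  refine Red.sum _ fun i _ => ?_
  rw [Algebra.smul_def, Algebra.smul_def]
  exact (h i).mul (hx.pow i)

lemma exists_prim
    (hKk : ∀ (c : K) (y : Fb), Red O red (algebraMap K F c) y → ∃ κ : k, y = algebraMap k Fb κ)
    (P : K[X]) (hP : P ≠ 0) :
    ∃ c : K, c ≠ 0 ∧ ∃ Pb : k[X], Pb ≠ 0 ∧ PRed O red (C c * P) Pb := by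
  classical
  obtain ⟨j, hj, hmax⟩ := exists_max O
    (fun i : Fin (P.natDegree + 1) => algebraMap K F (P.coeff i))
    ⟨⟨P.natDegree, by omega⟩, by
      simpa using hP⟩
  have hj' : P.coeff j ≠ 0 := by
    intro h
    exact hj (by simp [h])
  have hmem : ∀ i : ℕ, algebraMap K F ((P.coeff j)⁻¹ * P.coeff i) ∈ O := by
    intro i
    by_cases hi : i < P.natDegree + 1
    · have := hmax ⟨i, hi⟩
      rw [map_mul, map_inv₀, mul_comm, ← div_eq_mul_inv]
      exact this
    · rw [coeff_eq_zero_of_natDegree_lt (p := P) (n := i) (by omega), mul_zero, map_zero]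
      exact O.zero_mem
  have H : ∀ i : ℕ, ∃ κ : k, Red O red (algebraMap K F ((P.coeff j)⁻¹ * P.coeff i))
      (algebraMap k Fb κ) := by
    intro i
    obtain ⟨κ, hκ⟩ := hKk _ _ (Red.of_mem (red := red) (hmem i))
    exact ⟨κ, hκ ▸ Red.of_mem (hmem i)⟩
  choose κ hκ using H
  have hκ0 : ∀ i, P.natDegree + 1 ≤ i → κ i = 0 := by
    intro i hi
    have h1 := hκ i
    rw [coeff_eq_zero_of_natDegree_lt (p := P) (n := i) (by omega), mul_zero, map_zero] at h1
    have h2 := Red.zero.unique h1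
    exact (map_eq_zero (algebraMap k Fb)).1 h2.symm
  have hcoeff : ∀ i, (∑ n ∈ Finset.range (P.natDegree + 1), monomial n (κ n)).coeff i = κ i := by
    intro i
    rw [finsetSum_coeff]
    simp only [coeff_monomial]
    rw [Finset.sum_ite_eq']
    split_ifs with hi
    · rfl
    · rw [Finset.mem_range, not_lt] at hi
      exact (hκ0 i hi).symm
  refine ⟨(P.coeff j)⁻¹, inv_ne_zero hj', ∑ n ∈ Finset.range (P.natDegree + 1), monomial n (κ n),
    ?_, fun i => ?_⟩
  · intro h0
    have h1 := hκ j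
    rw [inv_mul_cancel₀ hj', map_one] at h1
    have h2 := Red.one.unique h1
    have h3 : κ j = 0 := by rw [← hcoeff, h0, coeff_zero]
    rw [h3, map_zero] at h2
    exact one_ne_zero h2
  · rw [coeff_C_mul, hcoeff]
    exact hκ i

section

variable (hker : ∀ (f : F) (hf : f ∈ O), f⁻¹ ∉ O → red ⟨f, hf⟩ = 0)
  (hKk : ∀ (c : K) (y : Fb), Red O red (algebraMap K F c) y → ∃ κ : k, y = algebraMap k Fb κ)
  {x : F} {xb : Fb} (hxb : Red O red x xb) (hxbt : Transcendental k xb)

include hKk hxb hxbt in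
lemma aeval_unit (P : K[X]) (hP : P ≠ 0) :
    ∃ c : K, c ≠ 0 ∧ ∃ Pb : k[X], aeval xb Pb ≠ 0 ∧
      Red O red (algebraMap K F c * aeval x P) (aeval xb Pb) := by
  obtain ⟨c, hc, Pb, hPb, h⟩ := exists_prim hKk P hP
  refine ⟨c, hc, Pb, fun h0 => hPb (transcendental_iff.mp hxbt Pb h0), ?_⟩
  have := h.aeval hxb
  rwa [map_mul, aeval_C] at this

include hKk hxb hxbt in
lemma transcendental_x : Transcendental K x := by
  rw [transcendental_iff]
  intro P hP
  by_contra h0
  obtain ⟨c, -, Pb, hPb, h⟩ := aeval_unit hKk hxb hxbt P h0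
  rw [hP, mul_zero] at h
  exact hPb (Red.zero.unique h).symm

include hker hKk in
lemma const_of_mul {c : K} {e : F} {y y' : Fb} (h' : Red O red (algebraMap K F c * e) y')
    (hy' : y' ≠ 0) (h : Red O red e y) : ∃ κ : k, y = algebraMap k Fb κ * y' := by
  have hce : algebraMap K F c * e ≠ 0 := by
    intro h0
    rw [h0] at h'
    exact hy' (Red.zero.unique h').symm
  have hc : algebraMap K F c ≠ 0 := left_ne_zero_of_mul hce
  have he : e ≠ 0 := right_ne_zero_of_mul hce
  have h1 := h.mul (h'.inv hker hy')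
  have h2 : e * (algebraMap K F c * e)⁻¹ = algebraMap K F c⁻¹ := by
    rw [map_inv₀]
    field_simp
  rw [h2] at h1
  obtain ⟨κ, hκ⟩ := hKk _ _ h1
  refine ⟨κ, ?_⟩
  rw [← hκ, mul_assoc, inv_mul_cancel₀ hy', mul_one]

include hker hKk hxb hxbt in
lemma adjoin_red {e : F} {y : Fb} (he : e ∈ Algebra.adjoin K {x}) (h : Red O red e y) :
    y ∈ Algebra.adjoin k {xb} := by
  obtain ⟨P, rfl⟩ := Algebra.adjoin_mem_exists_aeval _ _ he
  rcases eq_or_ne P 0 with rfl | hP
  · rw [map_zero] at h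
    rw [← Red.zero.unique h]
    exact zero_mem _
  · obtain ⟨c, -, Pb, hPb, h'⟩ := aeval_unit hKk hxb hxbt P hP
    obtain ⟨κ, rfl⟩ := const_of_mul hker hKk h' hPb h
    exact mul_mem (Subalgebra.algebraMap_mem _ κ) (aeval_mem_adjoin_singleton k xb)

include hker hKk hxb hxbt in
lemma field_red {e : F} {y : Fb} (he : e ∈ K⟮x⟯) (h : Red O red e y) : y ∈ k⟮xb⟯ := by
  obtain ⟨r, s, rfl⟩ := (mem_adjoin_simple_iff K e).1 he
  by_cases h0 : aeval x r / aeval x s = 0
  · rw [h0] at h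
    rw [← Red.zero.unique h]
    exact zero_mem _
  · have hr : r ≠ 0 := by
      rintro rfl
      exact h0 (by simp)
    have hs : s ≠ 0 := by
      rintro rfl
      exact h0 (by simp)
    obtain ⟨c, hc, rb, hrb, h1⟩ := aeval_unit hKk hxb hxbt r hr
    obtain ⟨d, hd, sb, hsb, h2⟩ := aeval_unit hKk hxb hxbt s hs
    have h3 := h1.mul (h2.inv hker hsb)
    have h4 : algebraMap K F c * aeval x r * (algebraMap K F d * aeval x s)⁻¹
        = algebraMap K F (c / d) * (aeval x r / aeval x s) := by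
      rw [map_div₀, mul_inv, div_eq_mul_inv, div_eq_mul_inv]
      ring
    rw [h4] at h3
    obtain ⟨κ, rfl⟩ := const_of_mul hker hKk h3 (mul_ne_zero hrb (inv_ne_zero hsb)) h
    have hm : ∀ Q : k[X], aeval xb Q ∈ k⟮xb⟯ := fun Q =>
      (mem_adjoin_simple_iff k _).2 ⟨Q, 1, by simp⟩
    exact mul_mem (IntermediateField.algebraMap_mem _ κ) (mul_mem (hm rb) (inv_mem (hm sb)))

variable {ι : Type*} [Fintype ι] {b : ι → F} {bb : ι → Fb} (hb : ∀ i, Red O red (b i) (bb i))
  (hind : LinearIndependent k⟮xb⟯ bb)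

include hker hKk hxb hxbt hb hind in
lemma key (a : ι → F) (ha : ∀ i, a i ∈ K⟮x⟯) (j : ι) (hj : a j ≠ 0)
    (hmax : ∀ i, a i / a j ∈ O) (hz : Red O red ((∑ i, a i * b i) / a j) 0) : False := by
  have h1 : ∀ i, Red O red (a i / a j) (red ⟨_, hmax i⟩) := fun i => Red.of_mem (hmax i)
  have h2 : ∀ i, red ⟨_, hmax i⟩ ∈ k⟮xb⟯ := fun i =>
    field_red hker hKk hxb hxbt (div_mem (ha i) (ha j)) (h1 i)
  have h3 : (∑ i, a i * b i) / a j = ∑ i, a i / a j * b i := by
    rw [Finset.sum_div]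
    refine Finset.sum_congr rfl fun i _ => ?_
    ring
  rw [h3] at hz
  have h4 := (Red.sum Finset.univ fun i _ => (h1 i).mul (hb i)).unique hz
  have h5 := Fintype.linearIndependent_iff.1 hind (fun i => ⟨_, h2 i⟩) (by
    rw [← h4]
    rfl) j
  have h6 : red ⟨_, hmax j⟩ = 0 := congrArg Subtype.val h5
  have h7 := h1 j
  rw [h6] at h7
  rw [div_self hj] at h7
  exact one_ne_zero (Red.one.unique h7)

include hker hKk hxb hxbt hb hind in
lemma coeff_mem (a : ι → F) (ha : ∀ i, a i ∈ K⟮x⟯) (hu : ∑ i, a i * b i ∈ O) (i : ι) :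
    a i ∈ O := by
  by_contra hi
  have hi0 : a i ≠ 0 := by
    intro h
    exact hi (h ▸ O.zero_mem)
  obtain ⟨j, hj, hmax⟩ := exists_max O a ⟨i, hi0⟩
  have hjO : a j ∉ O := by
    intro h
    apply hi
    have := O.mul_mem _ _ (hmax i) h
    rwa [div_mul_cancel₀ _ hj] at this
  have hinv : (a j)⁻¹ ∈ O := (O.mem_or_inv_mem (a j)).resolve_left hjO
  have h0 : Red O red (a j)⁻¹ 0 := ⟨hinv, hker _ hinv (by rwa [inv_inv])⟩
  have h1 := (Red.of_mem (red := red) hu).mul h0
  rw [mul_zero, ← div_eq_mul_inv] at h1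
  exact key hker hKk hxb hxbt hb hind a ha j hj hmax h1

include hker hKk hxb hxbt hb hind in
lemma linearIndependent_b : LinearIndependent K⟮x⟯ b := by
  rw [Fintype.linearIndependent_iff]
  intro g hg
  by_contra hne
  push Not at hne
  obtain ⟨i, hi⟩ := hne
  obtain ⟨j, hj, hmax⟩ := exists_max O (fun i => (g i : F)) ⟨i, by simpa using hi⟩
  refine key hker hKk hxb hxbt hb hind (fun i => (g i : F)) (fun i => (g i).2) j hj hmax ?_
  have : ∑ i, (g i : F) * b i = 0 := hg
  rw [this, zero_div]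
  exact Red.zero


include hker hKk hxb hxbt hb hind in
/-- elements of `O` are integral over `O ∩ K(x)` -/
lemma isIntegral_comap (hspan : ∀ f : F, ∃ a : ι → F, (∀ i, a i ∈ K⟮x⟯) ∧ f = ∑ i, a i * b i)
    (f : F) (hf : f ∈ O) : IsIntegral (O.comap (algebraMap K⟮x⟯ F)) f := by
  classical
  have hmemN : ∀ n : F, n ∈ Submodule.span (O.comap (algebraMap K⟮x⟯ F)) (Set.range b) ↔ n ∈ O := by
    intro n
    constructor
    · intro hn
      induction hn using Submodule.span_induction with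
      | mem y hy =>
        obtain ⟨i, rfl⟩ := hy
        exact (hb i).mem
      | zero => exact O.zero_mem
      | add y z _ _ hy hz => exact O.add_mem _ _ hy hz
      | smul r y _ hy => exact O.mul_mem _ _ r.2 hy
    · intro hn
      obtain ⟨a, ha, rfl⟩ := hspan n
      have h1 := coeff_mem hker hKk hxb hxbt hb hind a ha hn
      refine Submodule.sum_mem _ fun i _ => ?_
      have h2 : a i * b i = (⟨⟨a i, ha i⟩, h1 i⟩ : O.comap (algebraMap K⟮x⟯ F)) • b i := rfl
      rw [h2]
      exact Submodule.smul_mem _ _ (Submodule.subset_span ⟨i, rfl⟩)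
  refine isIntegral_of_smul_mem_submodule (M := F)
    (Submodule.span (O.comap (algebraMap K⟮x⟯ F)) (Set.range b)) ?_
    ⟨Finset.univ.image b, by simp⟩ f ?_
  · intro h0
    have h1 : (1 : F) ∈ Submodule.span (O.comap (algebraMap K⟮x⟯ F)) (Set.range b) :=
      (hmemN 1).2 O.one_mem
    rw [h0, Submodule.mem_bot] at h1
    exact one_ne_zero h1
  · intro n hn
    exact (hmemN _).2 (O.mul_mem _ _ hf ((hmemN n).1 hn))

include hker hKk hxb hxbt hb hind in
theorem chart_red (hspan : ∀ f : F, ∃ a : ι → F, (∀ i, a i ∈ K⟮x⟯) ∧ f = ∑ i, a i * b i)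
    (f : F) (y : Fb) (hf : f ∈ chart K x) (hy : Red O red f y) : y ∈ chart k xb := by
  have hxt : Transcendental K x := transcendental_x hKk hxb hxbt
  have hfO : f ∈ O := hy.mem
  -- the coefficients of the minimal polynomial
  have hc1 : ∀ n, (((minpoly K⟮x⟯ f).coeff n : K⟮x⟯) : F) ∈ Algebra.adjoin K {x} :=
    ConstAbs.coeff_minpoly_mem hxt hf
  have hc2 : ∀ n, (((minpoly K⟮x⟯ f).coeff n : K⟮x⟯) : F) ∈ O := by
    intro n
    rw [minpoly.isIntegrallyClosed_eq_field_fractions' K⟮x⟯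
      (isIntegral_comap hker hKk hxb hxbt hb hind hspan f hfO), coeff_map]
    exact ((minpoly (O.comap (algebraMap K⟮x⟯ F)) f).coeff n).2
  have hint : IsIntegral K⟮x⟯ f := by
    have h1 : IsIntegral (Algebra.adjoin K {x}) f := hf
    open scoped IntermediateField.algebraAdjoinAdjoin in
    exact h1.tower_top
  -- the subring `K[x] ∩ O` of `O`
  let T0 : Subring O := (Algebra.adjoin K {x}).toSubring.comap O.subtype
  let φ : T0 →+* Algebra.adjoin k {xb} :=
    (red.comp T0.subtype).codRestrict (Algebra.adjoin k {xb}) (fun e =>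
      adjoin_red hker hKk hxb hxbt e.2 (Red.of_mem (red := red) e.1.2))
  have hlift : (minpoly K⟮x⟯ f).map (algebraMap K⟮x⟯ F) ∈
      Polynomial.lifts (O.subtype.comp T0.subtype) := by
    rw [lifts_iff_coeff_lifts]
    intro n
    rw [coeff_map]
    exact ⟨⟨⟨_, hc2 n⟩, hc1 n⟩, rfl⟩
  obtain ⟨q, hq, -, hqm⟩ := lifts_and_natDegree_eq_and_monic hlift
    ((minpoly.monic hint).map _)
  have h1 : eval₂ (O.subtype.comp T0.subtype) f q = 0 := by
    rw [← eval_map, hq, eval_map, ← aeval_def, minpoly.aeval]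
  have h2 : eval₂ T0.subtype (⟨f, hfO⟩ : O) q = 0 := by
    apply Subtype.ext
    have := hom_eval₂ q T0.subtype O.subtype (⟨f, hfO⟩ : O)
    rw [ZeroMemClass.coe_zero, ← h1]
    exact this
  have h3 : eval₂ (red.comp T0.subtype) (red ⟨f, hfO⟩) q = 0 := by
    rw [← hom_eval₂, h2, map_zero]
  have hy' : red ⟨f, hfO⟩ = y := (Red.of_mem hfO).unique hy
  rw [hy'] at h3
  refine ⟨q.map φ, hqm.map _, ?_⟩
  rw [eval₂_map]
  exact h3

end

end IntAbs

open IntAbs in
/-- **A-INT** -/
theorem int_abs {K F k Fb : Type*} [Field K] [Field F] [Algebra K F] [Field k] [Field Fb]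
    [Algebra k Fb] (O : ValuationSubring F) (red : O →+* Fb)
    (hker : ∀ (f : F) (hf : f ∈ O), f⁻¹ ∉ O → red ⟨f, hf⟩ = 0)
    (hKk : ∀ (c : K) (y : Fb), Red O red (algebraMap K F c) y → ∃ κ : k, y = algebraMap k Fb κ)
    (x : F) (xb : Fb) (hxb : Red O red x xb) (hxbt : Transcendental k xb)
    [FiniteDimensional K⟮x⟯ F]
    (b : Fin (finrank K⟮x⟯ F) → F) (bb : Fin (finrank K⟮x⟯ F) → Fb)
    (hb : ∀ i, Red O red (b i) (bb i)) (hind : LinearIndependent k⟮xb⟯ bb) :
    (∀ f y, f ∈ chart K x → Red O red f y → y ∈ chart k xb) ∧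
    (∀ f y, f ∈ chart K x⁻¹ → Red O red f y → y ∈ chart k xb⁻¹) ∧
    (∀ f y, Red O red f y → y ∈ Submodule.span k⟮xb⟯ (Set.range bb)) := by
  have hli := linearIndependent_b hker hKk hxb hxbt hb hind
  have htop := hli.span_eq_top_of_card_eq_finrank' (by simp)
  have hspan : ∀ f : F, ∃ a : Fin (finrank K⟮x⟯ F) → F, (∀ i, a i ∈ K⟮x⟯) ∧
      f = ∑ i, a i * b i := by
    intro f
    have hf : f ∈ Submodule.span K⟮x⟯ (Set.range b) := htop ▸ Submodule.mem_top
    obtain ⟨c, hc⟩ := (Submodule.mem_span_range_iff_exists_fun _).1 hf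
    exact ⟨fun i => (c i : F), fun i => (c i).2, hc.symm⟩
  have hxb0 : xb ≠ 0 := by
    rintro rfl
    exact hxbt isAlgebraic_zero
  refine ⟨chart_red hker hKk hxb hxbt hb hind hspan, ?_, ?_⟩
  · have hxbt' : Transcendental k xb⁻¹ := by
      intro h1
      apply hxbt
      have := h1.inv
      rwa [inv_inv] at this
    have hind' : LinearIndependent k⟮xb⁻¹⟯ bb := (ConstAbs.adjoin_inv_eq (K := k) xb) ▸ hind
    refine chart_red hker hKk (hxb.inv hker hxb0) hxbt' hb hind' ?_
    intro f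
    obtain ⟨a, ha, hf⟩ := hspan f
    exact ⟨a, fun i => by rw [ConstAbs.adjoin_inv_eq]; exact ha i, hf⟩
  · intro f y hy
    obtain ⟨a, ha, rfl⟩ := hspan f
    have h1 := coeff_mem hker hKk hxb hxbt hb hind a ha hy.mem
    have h2 : ∀ i, red ⟨_, h1 i⟩ ∈ k⟮xb⟯ := fun i =>
      field_red hker hKk hxb hxbt (ha i) (Red.of_mem (h1 i))
    have h3 := (Red.sum Finset.univ fun i _ => (Red.of_mem (red := red) (h1 i)).mul (hb i)).unique hy
    rw [← h3]
    refine Submodule.sum_mem _ fun i _ => ?_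
    have h4 : red ⟨_, h1 i⟩ * bb i = (⟨_, h2 i⟩ : k⟮xb⟯) • bb i := rfl
    rw [h4]
    exact Submodule.smul_mem _ _ (Submodule.subset_span ⟨i, rfl⟩)

end Fermat.Agent.ES.TC
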