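import Fermat.Agent.ES.Gauss

/-!
# ES, block INJ (route `abstract_inj`), package A-ORTH

`gauss_hR` : every finite dimensional `ℚ̄`-subspace of `FF N` has a basis of Gauss-integral
functions whose reductions are linearly independent over the residue field.
-/

set_option autoImplicit false

noncomputable section

namespace Fermat.Agent.ES

open ModularCurve AlgebraicCurve Fermat.Agent.S24 Fermat.Agent.ES.AbsInj Module

namespace Orth

open Gauss

/-- a hyperplane section -/
lemma finrank_inf_ker {K V : Type*} [Field K] [AddCommGroup V] [Module K V] (W : Submodule K V)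
    [Module.Finite K W] (φ : V →ₗ[K] K) {w : V} (hw : w ∈ W) (hφ : φ w ≠ 0) :
    finrank K (W ⊓ LinearMap.ker φ : Submodule K V) + 1 = finrank K W := by
  have h1 := LinearMap.finrank_range_add_finrank_ker (φ.domRestrict W)
  have h2 : LinearMap.range (φ.domRestrict W) = ⊤ := by
    rw [LinearMap.range_eq_top]
    intro c
    refine ⟨(c / φ w) • ⟨w, hw⟩, ?_⟩
    simp [LinearMap.domRestrict_apply, hφ]
  rw [h2, finrank_top, finrank_self] at h1
  have h3 : finrank K (LinearMap.ker (φ.domRestrict W))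
      = finrank K (W ⊓ LinearMap.ker φ : Submodule K V) := by
    rw [LinearMap.ker_domRestrict]
    have : Submodule.comap W.subtype (LinearMap.ker φ)
        = Submodule.comap W.subtype (W ⊓ LinearMap.ker φ) := by
      ext x; simp
    rw [this]
    exact (Submodule.comapSubtypeEquivOfLe inf_le_left).finrank_eq
  omega

variable {A : ValuationSubring Kb} {N : ℕ}

theorem coe_smul (c : Kb) (f : FF N) :
    ((c • f : FF N) : LaurentSeries Kb) = c • (f : LaurentSeries Kb) := by
  rw [Algebra.smul_def, coe_algebraMap_mul]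

/-- the coefficient functionals -/
def coeffL (N : ℕ) (n : ℤ) : FF N →ₗ[Kb] Kb where
  toFun f := (f : LaurentSeries Kb).coeff n
  map_add' _ _ := rfl
  map_smul' c f := by
    show ((c • f : FF N) : LaurentSeries Kb).coeff n = c * (f : LaurentSeries Kb).coeff n
    rw [coe_smul, HahnSeries.coeff_smul, smul_eq_mul]

theorem coeffL_apply (n : ℤ) (f : FF N) : coeffL N n f = (f : LaurentSeries Kb).coeff n := rfl

theorem coeff_C_mul {k : Type*} [Field k] (c : k) (y : LaurentSeries k) (n : ℤ) :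
    (HahnSeries.C c * y).coeff n = c * y.coeff n := by
  rw [HahnSeries.C_mul_eq_smul, HahnSeries.coeff_smul, smul_eq_mul]

/-- **Gaussian elimination with the coefficient functionals.** -/
theorem core : ∀ (d : ℕ) (W : Submodule Kb (FF N)), finrank Kb W = d →
    (∀ w ∈ W, w ≠ 0 → ∃ c : Kb, c ≠ 0 ∧ IsPrimA A ((c • w : FF N) : LaurentSeries Kb)) →
    ∃ u : Fin d → FF N, (∀ i, u i ∈ W) ∧ (∀ i, IsIntA A (u i : LaurentSeries Kb)) ∧
      ∀ c : Fin d → kA A,
        ∑ i, HahnSeries.C (c i) * redL A (u i : LaurentSeries Kb) = 0 → ∀ i, c i = 0 := by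
  intro d
  induction d with
  | zero =>
    intro W _ _
    exact ⟨Fin.elim0, fun i => i.elim0, fun i => i.elim0, fun _ _ i => i.elim0⟩
  | succ d ih =>
    intro W hW hgood
    have : Module.Finite Kb W := Module.finite_of_finrank_pos (by omega)
    have hbot : W ≠ ⊥ := by
      rintro rfl
      rw [finrank_bot] at hW
      omega
    obtain ⟨w, hwW, hw0⟩ := Submodule.exists_mem_ne_zero_of_ne_bot hbot
    obtain ⟨c₀, hc₀, hprim⟩ := hgood w hwW hw0
    set w₁ : FF N := c₀ • w with hw₁
    have hw₁W : w₁ ∈ W := W.smul_mem c₀ hwW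
    obtain ⟨n₀, hn₀⟩ := hprim.2
    have hφ : coeffL N n₀ w₁ ≠ 0 := by
      intro h0
      apply hn₀
      rw [coeffL_apply] at h0
      rw [h0, ValuationSubring.mem_nonunits_iff]
      simp
    have hrank := finrank_inf_ker W (coeffL N n₀) hw₁W hφ
    obtain ⟨u', hu'W, hu'int, hu'ind⟩ := ih (W ⊓ LinearMap.ker (coeffL N n₀)) (by omega)
      (fun w hw hw0 => hgood w hw.1 hw0)
    refine ⟨Fin.cons w₁ u', ?_, ?_, ?_⟩
    · intro i
      refine Fin.cases ?_ (fun j => ?_) i
      · simpa using hw₁W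
      · simpa using (hu'W j).1
    · intro i
      refine Fin.cases ?_ (fun j => ?_) i
      · simpa using hprim.1
      · simpa using hu'int j
    · intro c hc
      rw [Fin.sum_univ_succ] at hc
      simp only [Fin.cons_zero, Fin.cons_succ] at hc
      -- the coefficient at `n₀`
      have h1 : ∀ j, (redL A (u' j : LaurentSeries Kb)).coeff n₀ = 0 := by
        intro j
        rw [redL_coeff (hu'int j)]
        have : (u' j : LaurentSeries Kb).coeff n₀ = 0 := (hu'W j).2
        have h2 : (⟨(u' j : LaurentSeries Kb).coeff n₀, hu'int j n₀⟩ : A) = 0 := Subtype.ext this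
        rw [h2, map_zero]
      have h2 : (redL A (w₁ : LaurentSeries Kb)).coeff n₀ ≠ 0 := by
        rw [redL_coeff hprim.1]
        intro h0
        rw [IsLocalRing.residue_eq_zero_iff, ← ValuationSubring.coe_mem_nonunits_iff] at h0
        exact hn₀ h0
      have h3 := congrArg (fun z : LaurentSeries (kA A) => z.coeff n₀) hc
      simp only [HahnSeries.coeff_add, HahnSeries.coeff_sum, coeff_C_mul, h1, mul_zero,
        Finset.sum_const_zero, add_zero, HahnSeries.coeff_zero] at h3
      have hc0 : c 0 = 0 := (mul_eq_zero.1 h3).resolve_right h2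
      rw [hc0, map_zero, zero_mul, zero_add] at hc
      have hrest := hu'ind (fun j => c j.succ) hc
      intro i
      refine Fin.cases hc0 (fun j => hrest j) i

variable (N) in
/-- the functions whose expansion lies in `KGauss.W ℓ` -/
def WN (ℓ : ℕ) : Subalgebra Kb (FF N) := (KGauss.W ℓ).comap (modularFunctionFieldBar N).val

theorem mem_WN {ℓ : ℕ} {f : FF N} : f ∈ WN N ℓ ↔ (f : LaurentSeries Kb) ∈ KGauss.W ℓ := Iff.rfl

/-- the statement with an explicit form of linear independence -/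
theorem hR_aux (ℓ : ℕ) [Fact ℓ.Prime] (hA : A.LiesOverPrime ℓ) (m : ℕ) (v : Fin m → FF N)
    (hv : LinearIndependent Kb v) :
    ∃ (u : Fin m → FF N) (y : Fin m → LaurentSeries (kA A)),
      (∀ i, u i ∈ Submodule.span Kb (Set.range v)) ∧
      (∀ i, Red (gaussO A N ℓ hA) (gaussRed A N ℓ hA) (u i) (y i)) ∧
      ∀ c : Fin m → kA A, ∑ i, HahnSeries.C (c i) * y i = 0 → ∀ i, c i = 0 := by
  classical
  -- a common denominator
  choose P Q hQ0 hP hQ hPQ using fun i => KGauss.exists_quot ℓ N (v i)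
  set Q₀ : FF N := ∏ i, Q i with hQ₀
  have hQ₀0 : Q₀ ≠ 0 := Finset.prod_ne_zero_iff.2 fun i _ => hQ0 i
  have hPW : ∀ i, P i ∈ WN N ℓ := fun i => mem_WN.2 (hP i)
  have hQW : ∀ i, Q i ∈ WN N ℓ := fun i => mem_WN.2 (hQ i)
  have hQ₀W : Q₀ ∈ WN N ℓ := Subalgebra.prod_mem (WN N ℓ) fun i _ => hQW i
  obtain ⟨c₀, hc₀, hprim⟩ := KGauss.exists_smul_isPrimA_of_mem hA (mem_WN.1 hQ₀W)
    (fun h => hQ₀0 (Subtype.ext h))
  set Q₁ : FF N := c₀ • Q₀ with hQ₁
  have hQ₁prim : IsPrimA A (Q₁ : LaurentSeries Kb) := by rw [hQ₁, coe_smul]; exact hprim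
  have hQ₁0 : Q₁ ≠ 0 := ne_zero_of_isPrimA hQ₁prim
  have hvW : ∀ i, Q₁ * v i ∈ WN N ℓ := by
    intro i
    have h1 : Q₁ * v i = c₀ • (P i * ∏ j ∈ Finset.univ.erase i, Q j) := by
      rw [hQ₁, hQ₀, ← Finset.mul_prod_erase Finset.univ Q (Finset.mem_univ i), ← hPQ i,
        smul_mul_assoc]
      congr 1
      ring
    rw [h1]
    exact (WN N ℓ).smul_mem ((WN N ℓ).mul_mem (hPW i)
      (Subalgebra.prod_mem (WN N ℓ) fun j _ => hQW j)) c₀
  set S : Submodule Kb (FF N) := Submodule.span Kb (Set.range v) with hS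
  set μ : FF N →ₗ[Kb] FF N := LinearMap.mulLeft Kb Q₁ with hμ
  have hμinj : Function.Injective μ := fun a b hab => mul_left_cancel₀ hQ₁0 hab
  have hrank : finrank Kb (S.map μ) = m := by
    rw [← (Submodule.equivMapOfInjective μ hμinj S).finrank_eq, hS, finrank_span_eq_card hv,
      Fintype.card_fin]
  have hle : S ≤ (Subalgebra.toSubmodule (WN N ℓ)).comap μ := by
    rw [hS, Submodule.span_le]
    rintro _ ⟨i, rfl⟩
    exact hvW i
  obtain ⟨u', hu'W, hu'int, hu'ind⟩ := core (A := A) m (S.map μ) hrank (by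
    rintro _ ⟨x, hx, rfl⟩ h0
    obtain ⟨c, hc, hp⟩ := KGauss.exists_smul_isPrimA_of_mem hA (mem_WN.1 (hle hx))
      (fun h => h0 (Subtype.ext h))
    exact ⟨c, hc, by rw [coe_smul]; exact hp⟩)
  choose x hxS hx using hu'W
  have hrQ : redL A (Q₁ : LaurentSeries Kb) ≠ 0 := redL_ne_zero_of_isPrimA hQ₁prim
  refine ⟨x, fun i => redL A (u' i : LaurentSeries Kb) / redL A (Q₁ : LaurentSeries Kb), hxS,
    fun i => gaussRed_spec A N ℓ hA (x i) (u' i) Q₁ (hu'int i) hQ₁prim (by
      rw [← hx i, mul_comm]; rfl), fun c hc => hu'ind c ?_⟩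
  have h1 : (∑ i, HahnSeries.C (c i) * redL A (u' i : LaurentSeries Kb))
      / redL A (Q₁ : LaurentSeries Kb) = 0 := by
    rw [Finset.sum_div, ← hc]
    exact Finset.sum_congr rfl fun i _ => by rw [mul_div_assoc]
  exact (div_eq_zero_iff.1 h1).resolve_right hrQ

end Orth

section Main

variable (A : ValuationSubring Kb) (N : ℕ)

local notation "kA" => IsLocalRing.ResidueField A

variable (ℓ : ℕ) [Fact ℓ.Prime] (hA : A.LiesOverPrime ℓ)

/-- **A-ORTH** (module structure `HahnSeries.instModule` on `κ((q))`). -/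
theorem gauss_hR : ∀ (m : ℕ) (v : Fin m → FF N), LinearIndependent Kb v →
    ∃ (u : Fin m → FF N) (y : Fin m → LaurentSeries kA),
      (∀ i, u i ∈ Submodule.span Kb (Set.range v)) ∧
      (∀ i, Red (gaussO A N ℓ hA) (gaussRed A N ℓ hA) (u i) (y i)) ∧
      LinearIndependent kA y := by
  intro m v hv
  obtain ⟨u, y, h1, h2, h3⟩ := Orth.hR_aux ℓ hA m v hv
  refine ⟨u, y, h1, h2, ?_⟩
  rw [Fintype.linearIndependent_iff]
  intro c hc
  apply h3 c
  rw [← hc]
  exact Finset.sum_congr rfl fun i _ => HahnSeries.C_mul_eq_smul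

/-- **A-ORTH** (module structure coming from `Algebra κ κ((q))`, as needed by `abstract_inj`). -/
theorem gauss_hR' : ∀ (m : ℕ) (v : Fin m → FF N), LinearIndependent Kb v →
    ∃ (u : Fin m → FF N) (y : Fin m → LaurentSeries kA),
      (∀ i, u i ∈ Submodule.span Kb (Set.range v)) ∧
      (∀ i, Red (gaussO A N ℓ hA) (gaussRed A N ℓ hA) (u i) (y i)) ∧
      @LinearIndependent _ kA _ y _ _ Algebra.toModule := by
  intro m v hv
  obtain ⟨u, y, h1, h2, h3⟩ := Orth.hR_aux ℓ hA m v hv
  refine ⟨u, y, h1, h2, ?_⟩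
  let _ : Module kA (LaurentSeries kA) := Algebra.toModule
  refine Fintype.linearIndependent_iff.2 fun c hc => h3 c ?_
  rw [← hc]
  refine Finset.sum_congr rfl fun i _ => ?_
  rw [Algebra.smul_def, LaurentSeries.algebraMap_apply]

end Main

end Fermat.Agent.ES
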