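import Fermat.Agent.ES.OrthoN
import Fermat.Agent.ES.Orth
import Fermat.Agent.ES.IntAbs
import Fermat.Agent.ES.FkN
import Fermat.Agent.ES.ConstK

/-!
# ES, block INJ (route `abstract_inj`), package A-COD

The reduction map of the Gauss valuation ring of `FF N` takes its values in
`Fk κ N = κ(j(q^d), H_d : d ∣ N)`; transport of the properties of `gaussRed`.
-/

set_option autoImplicit false

noncomputable section

namespace Fermat.Agent.ES

open Fermat.Agent.ES.AbsInj Fermat.Agent.ES.TC IntermediateField Module Polynomial AlgebraicCurve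
open Fermat.Agent.S24

theorem transcendental_jk (k : Type*) [Field k] (N : ℕ) [NeZero N] :
    Transcendental k (jk k N) := FkN.transcendental_jk k N

theorem Fk_const {k : Type*} [Field k] {N : ℕ} (y : Fk k N) (h : IsAlgebraic k y) :
    ∃ c : k, y = algebraMap k (Fk k N) c := by
  obtain ⟨c, hc⟩ := ConstKAux.const_of_isAlgebraic _ (h.algHom (Fk k N).val)
  exact ⟨c, Subtype.ext hc⟩

section Cod

variable (A : ValuationSubring Kb) (N : ℕ) [NeZero N] (ℓ : ℕ) [Fact ℓ.Prime] (hℓN : ¬ ℓ ∣ N)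
  (hA : A.LiesOverPrime ℓ)

local notation "kA" => IsLocalRing.ResidueField A

namespace GaussK

theorem red_jF : Red (gaussO A N ℓ hA) (gaussRed A N ℓ hA) (jF N) (ModularCurve.jqModC kA) := by
  have h1 : (1 : ℕ) ∈ N.divisors := Nat.mem_divisors.mpr ⟨one_dvd N, NeZero.ne N⟩
  have e : ∀ (k : Type) [Field k], S28.gen k N (false, ⟨1, h1⟩) = ModularCurve.jqModC k := by
    intro k _
    rw [S28.gen]
    simp only [Bool.false_eq_true, if_false, S28.gX]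
    rw [S28.qExp_eq, ModularCurve.qExpand_one_apply]
  obtain ⟨u, hu1, hu2, hu3⟩ := exists_gen_lift A N (false, ⟨1, h1⟩)
  have hu : u = jF N := Subtype.ext (by rw [hu1, e, coe_jF'])
  rw [e] at hu3
  rw [← hu, ← hu3]
  exact gaussRed_of_isIntA A N ℓ hA u hu2

theorem span_of_orthonormal (b : Fin (finrank Kb⟮jF N⟯ (FF N)) → FF N)
    (hb1 : ∀ i, IsIntA A (b i : LaurentSeries Kb))
    (hb3 : LinearIndependent kA⟮ModularCurve.jqModC kA⟯ (fun i => redL A (b i : LaurentSeries Kb)))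
    (f : FF N) (y : LaurentSeries kA) (h : Red (gaussO A N ℓ hA) (gaussRed A N ℓ hA) f y) :
    y ∈ Submodule.span kA⟮ModularCurve.jqModC kA⟯
      (Set.range fun i => redL A (b i : LaurentSeries Kb)) :=
  (int_abs (K := Kb) (k := kA) (gaussO A N ℓ hA) (gaussRed A N ℓ hA) (gauss_hker A N ℓ hA)
    (gauss_hKk A N ℓ hA) (jF N) (ModularCurve.jqModC kA) (red_jF A N ℓ hA)
    (S28.transcendental_jqModC kA) b (fun i => redL A (b i : LaurentSeries Kb))
    (fun i => gaussRed_of_isIntA A N ℓ hA _ (hb1 i)) hb3).2.2 f y h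

theorem adjoin_jq_le (k : Type*) [Field k] (N : ℕ) [NeZero N] :
    k⟮ModularCurve.jqModC k⟯ ≤ Fk k N :=
  adjoin_simple_le_iff.mpr (jqModC_mem_Fk k N)

theorem map_adjoin_jk (k : Type*) [Field k] (N : ℕ) [NeZero N] :
    (k⟮jk k N⟯).map (Fk k N).val = k⟮ModularCurve.jqModC k⟯ := by
  rw [IntermediateField.adjoin_map, Set.image_singleton]
  rfl

theorem coe_mem_adjoin_jq {k : Type*} [Field k] {N : ℕ} [NeZero N] (z : k⟮jk k N⟯) :
    ((z : Fk k N) : LaurentSeries k) ∈ k⟮ModularCurve.jqModC k⟯ := by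
  rw [← map_adjoin_jk k N]
  exact ⟨z, z.2, rfl⟩

theorem mem_adjoin_jk {k : Type*} [Field k] {N : ℕ} [NeZero N] (z : Fk k N)
    (hz : (z : LaurentSeries k) ∈ k⟮ModularCurve.jqModC k⟯) : z ∈ k⟮jk k N⟯ := by
  rw [← map_adjoin_jk k N] at hz
  obtain ⟨z', hz', e⟩ := hz
  have : z' = z := Subtype.ext e
  rwa [← this]

end GaussK

open GaussK

include hℓN in
theorem gaussRed_mem_Fk (u : gaussO A N ℓ hA) : gaussRed A N ℓ hA u ∈ Fk kA N := by
  obtain ⟨b, hb1, hb2, hb3⟩ := exists_orthonormal A N ℓ hℓN hA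
  have h := span_of_orthonormal A N ℓ hA b hb1 hb3 u _ (Red.of_mem u.2)
  have e : gaussRed A N ℓ hA ⟨u, u.2⟩ = gaussRed A N ℓ hA u := rfl
  rw [e] at h
  generalize gaussRed A N ℓ hA u = z at h
  induction h using Submodule.span_induction with
  | mem y hy =>
    obtain ⟨i, rfl⟩ := hy
    exact hb2 i
  | zero => exact zero_mem _
  | add y z _ _ hy hz => exact add_mem hy hz
  | smul r y _ hy => exact mul_mem (adjoin_jq_le kA N r.2) hy

def redK : gaussO A N ℓ hA →+* Fk kA N :=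
  (gaussRed A N ℓ hA).codRestrict (Fk kA N).toSubfield.toSubring (gaussRed_mem_Fk A N ℓ hℓN hA)

theorem red_redK_iff (f : FF N) (y : Fk kA N) :
    Red (gaussO A N ℓ hA) (redK A N ℓ hℓN hA) f y ↔
      Red (gaussO A N ℓ hA) (gaussRed A N ℓ hA) f (y : LaurentSeries kA) := by
  constructor
  · rintro ⟨h, rfl⟩
    exact ⟨h, rfl⟩
  · rintro ⟨h, e⟩
    exact ⟨h, Subtype.ext e⟩

theorem redK_hker : ∀ (f : FF N) (hf : f ∈ gaussO A N ℓ hA), f⁻¹ ∉ gaussO A N ℓ hA →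
    redK A N ℓ hℓN hA ⟨f, hf⟩ = 0 :=
  fun f hf h => Subtype.ext (gauss_hker A N ℓ hA f hf h)

theorem redK_hKk : ∀ (c : Kb) (y : Fk kA N),
    Red (gaussO A N ℓ hA) (redK A N ℓ hℓN hA) (algebraMap Kb (FF N) c) y →
      ∃ κ : kA, y = algebraMap kA (Fk kA N) κ := by
  intro c y h
  obtain ⟨κ, hκ⟩ := gauss_hKk A N ℓ hA c _ ((red_redK_iff A N ℓ hℓN hA _ _).1 h)
  exact ⟨κ, Subtype.ext hκ⟩

theorem redK_hkK : ∀ κ : kA, ∃ c : Kb,
    Red (gaussO A N ℓ hA) (redK A N ℓ hℓN hA) (algebraMap Kb (FF N) c)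
      (algebraMap kA (Fk kA N) κ) := by
  intro κ
  obtain ⟨c, hc⟩ := gauss_hkK A N ℓ hA κ
  exact ⟨c, (red_redK_iff A N ℓ hℓN hA _ _).2 hc⟩

theorem redK_hR : ∀ (m : ℕ) (v : Fin m → FF N), LinearIndependent Kb v →
    ∃ (u : Fin m → FF N) (y : Fin m → Fk kA N),
      (∀ i, u i ∈ Submodule.span Kb (Set.range v)) ∧
      (∀ i, Red (gaussO A N ℓ hA) (redK A N ℓ hℓN hA) (u i) (y i)) ∧
      LinearIndependent kA y := by
  intro m v hv
  obtain ⟨u, y, h1, h2, h3⟩ := gauss_hR' A N ℓ hA m v hv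
  have hy : ∀ i, y i ∈ Fk kA N := fun i => by
    obtain ⟨h, e⟩ := h2 i
    rw [← e]
    exact gaussRed_mem_Fk A N ℓ hℓN hA _
  refine ⟨u, fun i => ⟨y i, hy i⟩, h1, fun i => (red_redK_iff A N ℓ hℓN hA _ _).2 (h2 i), ?_⟩
  let _ : Module kA (LaurentSeries kA) := Algebra.toModule
  exact LinearIndependent.of_comp (Fk kA N).val.toLinearMap h3

theorem redK_surjective : ∀ y : Fk kA N, ∃ f : FF N,
    Red (gaussO A N ℓ hA) (redK A N ℓ hℓN hA) f y := by
  rintro ⟨y, hy⟩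
  suffices h : ∃ f : FF N, Red (gaussO A N ℓ hA) (gaussRed A N ℓ hA) f y by
    obtain ⟨f, hf⟩ := h
    exact ⟨f, (red_redK_iff A N ℓ hℓN hA _ _).2 hf⟩
  induction hy using IntermediateField.adjoin_induction with
  | mem x hx =>
    obtain ⟨g, rfl⟩ := hx
    obtain ⟨u, -, hu2, hu3⟩ := exists_gen_lift A N g
    exact ⟨u, hu3 ▸ gaussRed_of_isIntA A N ℓ hA u hu2⟩
  | algebraMap κ =>
    obtain ⟨c, hc⟩ := gauss_hkK A N ℓ hA κ
    exact ⟨_, hc⟩
  | add x y _ _ hx hy =>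
    obtain ⟨f, hf⟩ := hx
    obtain ⟨g, hg⟩ := hy
    exact ⟨_, hf.add hg⟩
  | inv x _ hx =>
    obtain ⟨f, hf⟩ := hx
    rcases eq_or_ne x 0 with rfl | h0
    · exact ⟨0, by rw [inv_zero]; exact Red.zero⟩
    · exact ⟨_, hf.inv (gauss_hker A N ℓ hA) h0⟩
  | mul x y _ _ hx hy =>
    obtain ⟨f, hf⟩ := hx
    obtain ⟨g, hg⟩ := hy
    exact ⟨_, hf.mul hg⟩

theorem redK_jF : Red (gaussO A N ℓ hA) (redK A N ℓ hℓN hA) (jF N) (jk kA N) :=
  (red_redK_iff A N ℓ hℓN hA _ _).2 (red_jF A N ℓ hA)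

theorem redK_of_isIntA (u : FF N) (hu : IsIntA A (u : LaurentSeries Kb)) (y : Fk kA N)
    (hy : (y : LaurentSeries kA) = redL A (u : LaurentSeries Kb)) :
    Red (gaussO A N ℓ hA) (redK A N ℓ hℓN hA) u y :=
  (red_redK_iff A N ℓ hℓN hA _ _).2 (hy ▸ gaussRed_of_isIntA A N ℓ hA u hu)

theorem redK_of_gaussOne (w : FF N) (hw : GaussOne A N w) :
    Red (gaussO A N ℓ hA) (redK A N ℓ hℓN hA) w 1 := by
  obtain ⟨y₁, y₂, h2, h1, hc, e⟩ := hw
  have h := gaussRed_spec A N ℓ hA w y₁ y₂ h1 h2 e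
  have hE : redL A (y₁ : LaurentSeries Kb) = redL A (y₂ : LaurentSeries Kb) := by
    ext n
    rw [Gauss.redL_coeff h1, Gauss.redL_coeff h2.1, ← sub_eq_zero, ← map_sub,
      IsLocalRing.residue_eq_zero_iff]
    obtain ⟨ha, hm⟩ := ValuationSubring.mem_nonunits_iff_exists_mem_maximalIdeal.1 (hc n)
    exact hm
  rw [hE, div_self (Gauss.redL_ne_zero_of_isPrimA h2)] at h
  exact (red_redK_iff A N ℓ hℓN hA _ _).2 h

namespace GaussK

theorem exists_basis :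
    ∃ (b : Fin (finrank Kb⟮jF N⟯ (FF N)) → FF N) (bb : Fin (finrank Kb⟮jF N⟯ (FF N)) → Fk kA N),
      (∀ i, Red (gaussO A N ℓ hA) (redK A N ℓ hℓN hA) (b i) (bb i)) ∧
      LinearIndependent kA⟮jk kA N⟯ bb ∧ ⊤ ≤ Submodule.span kA⟮jk kA N⟯ (Set.range bb) := by
  obtain ⟨b, hb1, hb2, hb3⟩ := exists_orthonormal A N ℓ hℓN hA
  refine ⟨b, fun i => ⟨_, hb2 i⟩, fun i => redK_of_isIntA A N ℓ hℓN hA _ (hb1 i) _ rfl, ?_, ?_⟩
  · rw [Fintype.linearIndependent_iff] at hb3 ⊢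
    intro g hg i
    have h := hb3 (fun i => ⟨_, coe_mem_adjoin_jq (g i)⟩) (by
      have := congrArg (Fk kA N).val hg
      rw [map_sum, map_zero] at this
      exact this) i
    have h' : ((g i : Fk kA N) : LaurentSeries kA) = 0 := congrArg Subtype.val h
    exact Subtype.ext (Subtype.ext h')
  · rintro y -
    obtain ⟨f, hf⟩ := redK_surjective A N ℓ hℓN hA y
    have h := span_of_orthonormal A N ℓ hA b hb1 hb3 f _ ((red_redK_iff A N ℓ hℓN hA _ _).1 hf)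
    obtain ⟨c, hc⟩ := (Submodule.mem_span_range_iff_exists_fun _).1 h
    refine (Submodule.mem_span_range_iff_exists_fun _).2
      ⟨fun i => ⟨⟨c i, adjoin_jq_le kA N (c i).2⟩, mem_adjoin_jk _ (c i).2⟩, ?_⟩
    apply Subtype.ext
    rw [← hc]
    exact map_sum (Fk kA N).val _ _

end GaussK

theorem exists_orthonormalK :
    ∃ (b : Fin (finrank Kb⟮jF N⟯ (FF N)) → FF N) (bb : Fin (finrank Kb⟮jF N⟯ (FF N)) → Fk kA N),
      (∀ i, Red (gaussO A N ℓ hA) (redK A N ℓ hℓN hA) (b i) (bb i)) ∧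
      LinearIndependent kA⟮jk kA N⟯ bb := by
  obtain ⟨b, bb, h1, h2, -⟩ := exists_basis A N ℓ hℓN hA
  exact ⟨b, bb, h1, h2⟩

include hℓN hA in
theorem finrank_Fk : finrank kA⟮jk kA N⟯ (Fk kA N) = finrank Kb⟮jF N⟯ (FF N) := by
  obtain ⟨b, bb, -, h2, h3⟩ := exists_basis A N ℓ hℓN hA
  rw [Module.finrank_eq_card_basis (Basis.mk h2 h3), Fintype.card_fin]

end Cod

end Fermat.Agent.ES
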