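import Fermat.Agent.S24.FFDed

/-!
# ES, instantiation of `inj_abs` : the witnesses of `hdiv`

If the divisor of `w` is divisible by `m` on an affine chart (a Dedekind domain `B`), then
`(w) = 𝔡 ^ m` and `1 ∈ 𝔡⁻¹ 𝔡`: there are finitely many `g i`, `g' i` with `g i ^ m * w ∈ B`,
`g' i ^ m * w⁻¹ ∈ B` and `∑ g i * g' i = 1`.
-/

set_option autoImplicit false

noncomputable section

namespace Fermat.Agent.ES.HDiv

open IsDedekindDomain FractionalIdeal nonZeroDivisors WithZero AlgebraicCurve IntermediateField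

section Abs

variable {B F : Type*} [CommRing B] [IsDedekindDomain B] [Field F] [Algebra B F]
  [IsFractionRing B F]

/-- the adic valuation of `w` is the multiplicity of the prime in the fractional ideal `(w)`. -/
theorem log_valuation (v : HeightOneSpectrum B) (w : F) (hw : w ≠ 0) :
    log (v.valuation F w) = - count F v (spanSingleton B⁰ w) := by
  classical
  obtain ⟨n, d, hd, rfl⟩ := IsFractionRing.div_surjective (A := B) w
  have hd0 : d ≠ 0 := nonZeroDivisors.ne_zero hd
  have hn0 : n ≠ 0 := by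
    rintro rfl
    simp at hw
  have hI : spanSingleton B⁰ (algebraMap B F n / algebraMap B F d)
      = spanSingleton B⁰ (algebraMap B F d)⁻¹ * ((Ideal.span {n} : Ideal B) : FractionalIdeal B⁰ F) := by
    rw [coeIdeal_span_singleton, spanSingleton_mul_spanSingleton, div_eq_inv_mul]
  have hI0 : spanSingleton B⁰ (algebraMap B F n / algebraMap B F d) ≠ 0 := by
    rw [Ne, spanSingleton_eq_zero_iff]
    exact hw
  rw [count_well_defined F v hI0 hI, map_div₀, v.valuation_of_algebraMap, v.valuation_of_algebraMap,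
    log_div (v.intValuation_ne_zero n hn0) (v.intValuation_ne_zero d hd0),
    v.intValuation_if_neg hn0, v.intValuation_if_neg hd0, log_exp, log_exp]
  ring

/-- a fractional ideal all of whose multiplicities are divisible by `m` is an `m`-th power. -/
theorem exists_pow_eq (m : ℕ) (I : FractionalIdeal B⁰ F) (hI : I ≠ 0)
    (h : ∀ v : HeightOneSpectrum B, (m : ℤ) ∣ count F v I) :
    ∃ D : FractionalIdeal B⁰ F, D ≠ 0 ∧ D ^ m = I := by
  classical
  set exps : HeightOneSpectrum B → ℤ := fun v => count F v I / m with hexps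
  have hfin : ∀ᶠ v : HeightOneSpectrum B in Filter.cofinite, exps v = 0 := by
    filter_upwards [finite_factors I] with v hv
    simp [hexps, hv]
  set D : FractionalIdeal B⁰ F :=
    ∏ᶠ v : HeightOneSpectrum B, (v.asIdeal : FractionalIdeal B⁰ F) ^ exps v with hD
  have hD0 : D ≠ 0 := by
    rw [hD, finprod_eq_finsetProd_of_mulSupport_subset (s := hfin.toFinset)]
    · exact Finset.prod_ne_zero_iff.2 fun v _ => zpow_ne_zero _ (coeIdeal_ne_zero.mpr v.ne_bot)
    · rw [Set.Finite.coe_toFinset]
      intro v hv h0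
      rw [Function.mem_mulSupport, h0, zpow_zero] at hv
      exact hv rfl
  refine ⟨D, hD0, ?_⟩
  rw [← finprod_heightOneSpectrum_factorization' F (pow_ne_zero m hD0),
    ← finprod_heightOneSpectrum_factorization' F hI]
  refine finprod_congr fun v => ?_
  rw [count_pow, hD, count_finprod F v exps hfin, hexps]
  congr 1
  exact Int.mul_ediv_cancel' (h v)

omit [IsDedekindDomain B] [IsFractionRing B F] in
/-- elements of a product of submodules are finite sums of products. -/
theorem exists_sum_of_mem_mul {M N : Submodule B F} {x : F} (hx : x ∈ M * N) :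
    ∃ (n : ℕ) (g g' : Fin n → F), (∀ i, g i ∈ M) ∧ (∀ i, g' i ∈ N) ∧ ∑ i, g i * g' i = x := by
  induction hx using Submodule.mul_induction_on' with
  | mem_mul_mem a ha b hb =>
    exact ⟨1, fun _ => a, fun _ => b, fun _ => ha, fun _ => hb, by simp⟩
  | add x _ y _ hx hy =>
    obtain ⟨n₁, g₁, g₁', h₁, h₁', e₁⟩ := hx
    obtain ⟨n₂, g₂, g₂', h₂, h₂', e₂⟩ := hy
    refine ⟨n₁ + n₂, Fin.append g₁ g₂, Fin.append g₁' g₂', ?_, ?_, ?_⟩
    · intro i
      refine Fin.addCases (fun j => ?_) (fun j => ?_) i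
      · rw [Fin.append_left]; exact h₁ j
      · rw [Fin.append_right]; exact h₂ j
    · intro i
      refine Fin.addCases (fun j => ?_) (fun j => ?_) i
      · rw [Fin.append_left]; exact h₁' j
      · rw [Fin.append_right]; exact h₂' j
    · rw [Fin.sum_univ_add]
      simp only [Fin.append_left, Fin.append_right]
      rw [e₁, e₂]

/-- **HDIV, abstract form.** -/
theorem exists_witness_of_dedekind (m : ℕ) (w : F) (hw : w ≠ 0)
    (h : ∀ v : HeightOneSpectrum B, (m : ℤ) ∣ log (v.valuation F w)) :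
    ∃ (n : ℕ) (g g' : Fin n → F), (∀ i, ∃ b : B, algebraMap B F b = g i ^ m * w) ∧
      (∀ i, ∃ b : B, algebraMap B F b = g' i ^ m * w⁻¹) ∧ ∑ i, g i * g' i = 1 := by
  have hI0 : spanSingleton B⁰ w ≠ 0 := by
    rw [Ne, spanSingleton_eq_zero_iff]
    exact hw
  obtain ⟨D, hD0, hD⟩ := exists_pow_eq m (spanSingleton B⁰ w) hI0 (fun v => by
    have := h v
    rw [log_valuation v w hw] at this
    exact (dvd_neg.1 this))
  have h1 : (1 : F) ∈ ((D⁻¹ * D : FractionalIdeal B⁰ F) : Submodule B F) := by
    rw [inv_mul_cancel₀ hD0]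
    exact one_mem_one B⁰
  rw [FractionalIdeal.coe_mul] at h1
  obtain ⟨n, g, g', hg, hg', e⟩ := exists_sum_of_mem_mul h1
  refine ⟨n, g, g', fun i => ?_, fun i => ?_, e⟩
  · have h2 : g i ^ m ∈ (D⁻¹) ^ m := by
      rw [← FractionalIdeal.mem_coe, FractionalIdeal.coe_pow]
      exact Submodule.pow_mem_pow _ (hg i) m
    rw [inv_pow, hD, spanSingleton_inv, mem_spanSingleton] at h2
    obtain ⟨b, hb⟩ := h2
    refine ⟨b, ?_⟩
    rw [← hb, Algebra.smul_def, mul_assoc, inv_mul_cancel₀ hw, mul_one]
  · have h2 : g' i ^ m ∈ D ^ m := by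
      rw [← FractionalIdeal.mem_coe, FractionalIdeal.coe_pow]
      exact Submodule.pow_mem_pow _ (hg' i) m
    rw [hD, mem_spanSingleton] at h2
    obtain ⟨b, hb⟩ := h2
    refine ⟨b, ?_⟩
    rw [← hb, Algebra.smul_def, mul_assoc, mul_inv_cancel₀ hw, mul_one]

end Abs

section Place

variable {K F : Type*} [Field K] [Field F] [Algebra K F]

open scoped IntermediateField.algebraAdjoinAdjoin

/-- **HDIV for a function field**: chart `y ≠ ∞`. -/
theorem exists_witness {y : F} (hy : Transcendental K y) [FiniteDimensional K⟮y⟯ F]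
    [Algebra.IsSeparable K⟮y⟯ F] (m : ℕ) (w : F) (hw : w ≠ 0)
    (hdiv : ∀ v : Place K F, (m : ℤ) ∣ v.ord w) :
    ∃ (n : ℕ) (g g' : Fin n → F), (∀ i, IsIntegral (Algebra.adjoin K {y}) (g i ^ m * w)) ∧
      (∀ i, IsIntegral (Algebra.adjoin K {y}) (g' i ^ m * w⁻¹)) ∧ ∑ i, g i * g' i = 1 := by
  have : IsPrincipalIdealRing (Algebra.adjoin K {y}) :=
    IsPrincipalIdealRing.of_surjective (Polynomial.algEquivOfTranscendental K y hy).toRingEquiv
      (Polynomial.algEquivOfTranscendental K y hy).surjective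
  have : IsDedekindDomain (integralClosure (Algebra.adjoin K {y}) F) :=
    integralClosure.isDedekindDomain (Algebra.adjoin K {y}) K⟮y⟯ F
  have : IsFractionRing (integralClosure (Algebra.adjoin K {y}) F) F :=
    integralClosure.isFractionRing_of_finite_extension K⟮y⟯ F
  obtain ⟨n, g, g', hg, hg', e⟩ := exists_witness_of_dedekind
    (B := integralClosure (Algebra.adjoin K {y}) F) m w hw (fun v => by
      have := hdiv (Place.ofHeightOneSpectrum (K := K) (F := F) v)
      rw [Fermat.Agent.S24.FF.ord_ofHeightOneSpectrum] at this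
      exact (dvd_neg.1 this))
  refine ⟨n, g, g', fun i => ?_, fun i => ?_, e⟩
  · obtain ⟨b, hb⟩ := hg i
    rw [← hb]
    exact b.2
  · obtain ⟨b, hb⟩ := hg' i
    rw [← hb]
    exact b.2

end Place

end Fermat.Agent.ES.HDiv
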