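import Fermat.Agent.ES.QEChart2

/-!
# ES, block MOD : finiteness of the charts over `R[x]`
-/

set_option autoImplicit false
set_option linter.unusedSectionVars false
open ModularCurve Polynomial
noncomputable section
namespace Fermat.Agent.ES.QE

/-- finiteness of the integral closure, in ring hom form. -/
theorem hfin_abstract {A L : Type*} [CommRing A] [IsDomain A] [IsNoetherianRing A]
    [IsIntegrallyClosed A] [Field L] [CharZero L] (φ : A →+* L) (hφ : Function.Injective φ)
    (T : Subring L) (hT : ∀ a, φ a ∈ T) {n : ℕ} (b : Fin n → L)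
    (hspan : ∀ f : L, ∃ (c : Fin n → A) (d : A), d ≠ 0 ∧ φ d * f = ∑ i, φ (c i) * b i) :
    ∃ S : Finset L, ∀ f, φ.IsIntegralElem f → f ∈ Submodule.span T (S : Set L) := by
  classical
  let _ : Algebra A L := φ.toAlgebra
  have hinj : Function.Injective (algebraMap A L) := hφ
  let _ : Algebra (FractionRing A) L := (IsFractionRing.lift hinj).toAlgebra
  have : IsScalarTower A (FractionRing A) L :=
    IsScalarTower.of_algebraMap_eq' (RingHom.ext fun a =>
      (IsFractionRing.lift_algebraMap hinj a).symm)
  have : CharZero A := φ.charZero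
  have : CharZero (FractionRing A) :=
    charZero_of_injective_algebraMap (IsFractionRing.injective A (FractionRing A))
  have : FiniteDimensional (FractionRing A) L := by
    refine ⟨⟨Finset.univ.image b, ?_⟩⟩
    rw [eq_top_iff]
    intro f _
    obtain ⟨c, d, hd, h⟩ := hspan f
    have hd' : φ d ≠ 0 := by rwa [Ne, map_eq_zero_iff _ hφ]
    have hf : f = ∑ i, (algebraMap A (FractionRing A) (c i) / algebraMap A (FractionRing A) d) •
        b i := by
      apply mul_left_cancel₀ hd'
      rw [h, Finset.mul_sum]
      refine Finset.sum_congr rfl fun i _ => ?_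
      rw [Algebra.smul_def, map_div₀, ← IsScalarTower.algebraMap_apply,
        ← IsScalarTower.algebraMap_apply]
      show φ (c i) * b i = φ d * (φ (c i) / φ d * b i)
      field_simp
    rw [hf]
    refine Submodule.sum_mem _ fun i _ => Submodule.smul_mem _ _ (Submodule.subset_span ?_)
    simp
  have hfin : Module.Finite A (integralClosure A L) :=
    IsIntegralClosure.finite A (FractionRing A) L (integralClosure A L)
  obtain ⟨S, hS⟩ := hfin.fg_top
  refine ⟨S.image Subtype.val, fun f hf => ?_⟩
  have key : ∀ c : integralClosure A L, c ∈ Submodule.span A (S : Set (integralClosure A L)) →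
      (c : L) ∈ Submodule.span T ((S.image Subtype.val : Finset L) : Set L) := by
    intro c hc
    induction hc using Submodule.span_induction with
    | mem x hx =>
      refine Submodule.subset_span ?_
      rw [Finset.coe_image]
      exact ⟨x, hx, rfl⟩
    | zero => exact Submodule.zero_mem _
    | add x y _ _ hx hy => exact Submodule.add_mem _ hx hy
    | smul a x _ hx =>
      have : ((a • x : integralClosure A L) : L) = (⟨φ a, hT a⟩ : T) • (x : L) := by
        rw [Subring.smul_def, smul_eq_mul]
        exact Algebra.smul_def a (x : L)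
      rw [this]
      exact Submodule.smul_mem _ _ hx
  exact key ⟨f, hf⟩ (by rw [hS]; trivial)

variable {R K k : Type*} [CommRing R] [IsDomain R] [IsNoetherianRing R] [IsIntegrallyClosed R]
  [Field K] [Algebra R K] [IsFractionRing R K] [Field k] {D : QData R K k} (X : D.Coord)

lemma QData.Coord.phiF_injective : Function.Injective X.phiF := by
  intro a b h
  exact X.phi_injective (congrArg Subtype.val h)

/-- `j` in the function field. -/
def QData.jF (D : QData R K k) : D.F0 := ⟨jqModC K, D.j_mem⟩

/-- the basis in the function field. -/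
def QData.bF (D : QData R K k) (i : Fin D.n) : D.F0 := ⟨D.inc (D.b i), D.mem i⟩

lemma QData.Coord.jF_mul : D.jF * X.phiF X.Q = X.phiF X.P := by
  apply Subtype.ext
  rw [IntermediateField.coe_mul, X.coe_phiF, X.coe_phiF, X.phi_apply, X.phi_apply, ← X.rel,
    map_mul, D.inc_j]
  rfl

lemma QData.Coord.phiF_mem_closure (σ : R[X]) :
    X.phiF σ ∈ Subring.closure ((D.RF : Set D.F0) ∪ {X.x}) := by
  induction σ using Polynomial.induction_on' with
  | add p q hp hq => rw [map_add]; exact add_mem hp hq
  | monomial n a =>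
    rw [← C_mul_X_pow_eq_monomial, map_mul, map_pow, X.phiF_X, X.phiF_C]
    have h1 : algebraMap K D.F0 (algebraMap R K a) ∈
        Subring.closure ((D.RF : Set D.F0) ∪ {X.x}) :=
      Subring.subset_closure (Set.mem_union_left _ ⟨a, rfl⟩)
    have h2 : X.x ∈ Subring.closure ((D.RF : Set D.F0) ∪ {X.x}) :=
      Subring.subset_closure (Set.mem_union_right _ (Set.mem_singleton _))
    exact mul_mem h1 (pow_mem h2 n)

/-- every function is a combination of the basis with coefficients in `R[j]`, up to a
denominator in `R[j]`. -/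
lemma QData.exists_span_R (D : QData R K k) {f : LaurentSeries K} (hf : f ∈ D.F0) :
    ∃ (s : R[X]) (r : Fin D.n → R[X]), s ≠ 0 ∧
      D.inc (evS (jqModC R) s) * f = D.inc (D.mW r) := by
  by_cases hf0 : f = 0
  · refine ⟨1, 0, one_ne_zero, ?_⟩
    have : D.mW (0 : Fin D.n → R[X]) = 0 := by simp [QData.mW]
    rw [hf0, mul_zero, this, map_zero]
  obtain ⟨a, c, s, r, hs, -, h⟩ := D.exists_normal_form hf hf0
  refine ⟨C D.ϖ ^ a * s, fun i => C D.ϖ ^ c * r i, ?_, ?_⟩
  · refine mul_ne_zero (pow_ne_zero _ D.prime_C_ϖ.ne_zero) ?_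
    rintro rfl
    exact hs (dvd_zero _)
  · have e2 : D.inc (HahnSeries.C D.ϖ) = D.ϖE := D.inc_ϖW
    rw [D.mW_C_pow_mul, map_mul, map_pow, evS_C, map_mul, map_mul, map_pow, map_pow, D.inc_ϖW, e2]
    exact h

/-- the same over `R[x]`. -/
lemma QData.Coord.exists_span (f : D.F0) :
    ∃ (c : Fin D.n → R[X]) (d : R[X]), d ≠ 0 ∧ X.phiF d * f = ∑ i, X.phiF (c i) * D.bF i := by
  obtain ⟨s, r, hs, h⟩ := D.exists_span_R f.2
  set M : ℕ := max s.natDegree (Finset.univ.sup (fun i => (r i).natDegree)) with hM
  obtain ⟨d, hd⟩ := X.pow_mul_mem_range s M (le_max_left _ _)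
  have hc : ∀ i, ∃ σ : R[X], evS X.xW σ = evS X.xW X.Q ^ M * evS (jqModC R) (r i) := fun i =>
    X.pow_mul_mem_range (r i) M ((Finset.le_sup (f := fun i => (r i).natDegree)
      (Finset.mem_univ i)).trans (le_max_right _ _))
  choose c hc using hc
  refine ⟨c, d, ?_, ?_⟩
  · rintro rfl
    rw [map_zero] at hd
    have hQ : evS X.xW X.Q ≠ 0 := X.evS_ne_zero (fun h0 => X.Q_prim (h0 ▸ dvd_zero _))
    exact (mul_ne_zero (pow_ne_zero M hQ) (evS_jqModC_ne_zero hs)) hd.symm
  · apply Subtype.ext
    rw [IntermediateField.coe_mul, X.coe_phiF, X.phi_apply, hd, map_mul, mul_assoc, h,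
      IntermediateField.coe_sum, QData.mW, map_sum, Finset.mul_sum]
    refine Finset.sum_congr rfl fun i _ => ?_
    rw [IntermediateField.coe_mul, X.coe_phiF, X.phi_apply, hc, map_mul, map_mul, mul_assoc]
    rfl

/-- **hfin**: the chart is contained in a finitely generated `R[x]`-module. -/
theorem QData.Coord.hfin [CharZero K] : ∃ S : Finset D.F0, ∀ f ∈ X.chart,
    f ∈ Submodule.span (Subring.closure ((D.RF : Set D.F0) ∪ {X.x})) (S : Set D.F0) := by
  have : CharZero D.F0 := charZero_of_injective_algebraMap (algebraMap K D.F0).injective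
  obtain ⟨S, hS⟩ := hfin_abstract X.phiF X.phiF_injective _ X.phiF_mem_closure D.bF X.exists_span
  refine ⟨S, fun f hf => hS f ?_⟩
  exact S28.Lam.isIntegralElem_of_map_comp X.phiF (algebraMap D.F0 (LaurentSeries K))
    (algebraMap D.F0 (LaurentSeries K)).injective hf

end Fermat.Agent.ES.QE
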