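import Fermat.Agent.ES.HDivFF
import Fermat.Agent.ES.QEFin
import Fermat.Agent.S24.FFDeg

/-!
# ES, block INJ : `hdiv`, descent from `ℚ̄` to a number field and to the chart
-/

set_option autoImplicit false

noncomputable section

namespace Fermat.Agent.ES.HDivDesc

open AlgebraicCurve Polynomial IntermediateField ModularCurve Fermat.Agent.ES.QE Fermat.Agent.S24

/-! ### abstract integrality lemmas -/

/-- `L[X]` is integral over `K[X]` if `L / K` is algebraic. -/
theorem isIntegral_mapRingHom (K L : Type*) [Field K] [Field L] [Algebra K L]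
    [Algebra.IsAlgebraic K L] : (mapRingHom (algebraMap K L)).IsIntegral := by
  intro p
  induction p using Polynomial.induction_on' with
  | add p q hp hq => exact hp.add _ hq
  | monomial n a =>
    rw [← C_mul_X_pow_eq_monomial]
    refine RingHom.IsIntegralElem.mul _ ?_ ?_
    · obtain ⟨P, hP, hPa⟩ := (Algebra.IsAlgebraic.isAlgebraic (R := K) a).isIntegral
      refine ⟨P.map C, hP.map _, ?_⟩
      rw [eval₂_map]
      have : (mapRingHom (algebraMap K L)).comp C = (C : L →+* L[X]).comp (algebraMap K L) := by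
        ext x; simp
      rw [this, ← hom_eval₂, hPa, map_zero]
    · have : (X : L[X]) ^ n = mapRingHom (algebraMap K L) (X ^ n) := by simp
      rw [this]
      exact RingHom.isIntegralElem_map _

/-- transitivity of integrality, for ring homs and elements. -/
theorem isIntegralElem_comp {A B E : Type*} [CommRing A] [CommRing B] [CommRing E] (f : A →+* B)
    (g : B →+* E) (hf : f.IsIntegral) {x : E} (hx : g.IsIntegralElem x) :
    (g.comp f).IsIntegralElem x := by
  let _ := f.toAlgebra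
  let _ := g.toAlgebra
  let _ := (g.comp f).toAlgebra
  have : IsScalarTower A B E := IsScalarTower.of_algebraMap_eq fun _ => rfl
  have : Algebra.IsIntegral A B := ⟨hf⟩
  exact isIntegral_trans (R := A) (A := B) x hx

/-- integrality descends along an injective ring hom. -/
theorem isIntegralElem_of_injective {A E E' : Type*} [CommRing A] [CommRing E] [CommRing E']
    (f : A →+* E) (φ : E →+* E') (hφ : Function.Injective φ) {x : E}
    (hx : (φ.comp f).IsIntegralElem (φ x)) : f.IsIntegralElem x := by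
  obtain ⟨P, hP, h⟩ := hx
  refine ⟨P, hP, hφ ?_⟩
  rw [map_zero, hom_eval₂, h]

/-- **descent of integrality** from `L[x]` to `K[x]`, `L / K` algebraic. -/
theorem isIntegralElem_descent (K L : Type*) [Field K] [Field L] [Algebra K L]
    [Algebra.IsAlgebraic K L] (x f : LaurentSeries K)
    (h : (evS (coeffMap (algebraMap K L) x)).IsIntegralElem (coeffMap (algebraMap K L) f)) :
    (evS x).IsIntegralElem f := by
  apply isIntegralElem_of_injective (evS x) (coeffMap (algebraMap K L))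
    (coeffMap_injective (algebraMap K L).injective)
  have e : (coeffMap (algebraMap K L)).comp (evS x)
      = (evS (coeffMap (algebraMap K L) x)).comp (mapRingHom (algebraMap K L)) := by
    refine RingHom.ext fun p => ?_
    exact coeffMap_evS _ _ _
  rw [e]
  exact isIntegralElem_comp _ _ (isIntegral_mapRingHom K L) h

/-- clearing denominators in an integral equation. -/
theorem exists_pow_mul_isIntegralElem {A B E : Type*} [CommRing A] [CommRing B] [CommRing E]
    [Nontrivial E] (φA : A →+* E) (φB : B →+* E) (q : E)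
    (hq : ∀ b : B, ∃ M : ℕ, ∀ M', M ≤ M' → q ^ M' * φB b ∈ Set.range φA) {h : E}
    (hh : φB.IsIntegralElem h) : ∃ c : ℕ, φA.IsIntegralElem (q ^ c * h) := by
  obtain ⟨P, hP, hroot⟩ := hh
  choose Mf hMf using hq
  set M : ℕ := (Finset.range (P.natDegree + 1)).sup (fun i => Mf (P.coeff i)) with hM
  refine ⟨M, ?_⟩
  set Q : E[X] := (P.map φB).scaleRoots (q ^ M) with hQ
  have hQm : Q.Monic := (monic_scaleRoots_iff _).mpr (hP.map _)
  have hQr : Q.eval (q ^ M * h) = 0 := by
    rw [hQ, scaleRoots_eval_mul, eval_map, hroot, mul_zero]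
  have hQl : Q ∈ lifts φA := by
    rw [lifts_iff_coeff_lifts]
    intro i
    rw [hQ, coeff_scaleRoots, coeff_map, hP.natDegree_map]
    rcases lt_trichotomy i P.natDegree with hi | hi | hi
    · have h1 : Mf (P.coeff i) ≤ M * (P.natDegree - i) := by
        calc Mf (P.coeff i) ≤ M :=
              Finset.le_sup (f := fun i => Mf (P.coeff i)) (Finset.mem_range.mpr (by omega))
          _ = M * 1 := (mul_one M).symm
          _ ≤ M * (P.natDegree - i) := Nat.mul_le_mul_left M (by omega)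
      rw [← pow_mul, mul_comm]
      exact hMf _ _ h1
    · refine ⟨1, ?_⟩
      rw [hi, hP.coeff_natDegree, map_one, map_one, Nat.sub_self, pow_zero, mul_one]
    · refine ⟨0, ?_⟩
      rw [coeff_eq_zero_of_natDegree_lt hi, map_zero, map_zero, zero_mul]
  obtain ⟨Q', h1, -, h2⟩ := lifts_and_natDegree_eq_and_monic hQl hQm
  exact ⟨Q', h2, by rw [eval₂_eq_eval_map, h1, hQr]⟩

/-! ### from `K[x]`-integrality to the chart -/

section QD

variable {R K k : Type*} [CommRing R] [IsDomain R] [IsNoetherianRing R] [IsIntegrallyClosed R]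
  [Field K] [Algebra R K] [IsFractionRing R K] [Field k] {D : QData R K k} (X : D.Coord)

/-- `K = R[1/ϖ]`. -/
def IsAway (D : QData R K k) : Prop :=
  ∀ a : K, ∃ (n : ℕ) (r : R), algebraMap R K D.ϖ ^ n * a = algebraMap R K r

theorem exists_pow_mul_mem_range (hK : IsAway D) (b : K[X]) :
    ∃ M : ℕ, ∀ M', M ≤ M' → D.ϖE ^ M' * evS (D.inc X.xW) b ∈ Set.range X.phi := by
  induction b using Polynomial.induction_on' with
  | add p q hp hq =>
    obtain ⟨M1, h1⟩ := hp
    obtain ⟨M2, h2⟩ := hq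
    refine ⟨max M1 M2, fun M' hM' => ?_⟩
    obtain ⟨a1, ha1⟩ := h1 M' (le_trans (le_max_left _ _) hM')
    obtain ⟨a2, ha2⟩ := h2 M' (le_trans (le_max_right _ _) hM')
    exact ⟨a1 + a2, by rw [map_add, map_add, mul_add, ha1, ha2]⟩
  | monomial n a =>
    obtain ⟨M, r, hr⟩ := hK a
    refine ⟨M, fun M' hM' => ?_⟩
    obtain ⟨e, rfl⟩ := Nat.exists_eq_add_of_le hM'
    refine ⟨C (D.ϖ ^ e * r) * Polynomial.X ^ n, ?_⟩
    have e1 : X.phi (C (D.ϖ ^ e * r) * Polynomial.X ^ n)
        = HahnSeries.C (algebraMap R K (D.ϖ ^ e * r)) * D.inc X.xW ^ n := by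
      rw [X.phi_apply, map_mul, map_pow, evS_C, evS_X, map_mul, map_pow]
      congr 1
      exact coeffMap_C _ _
    have e2 : evS (D.inc X.xW) (monomial n a) = HahnSeries.C a * D.inc X.xW ^ n := by
      rw [← C_mul_X_pow_eq_monomial, map_mul, map_pow, evS_C, evS_X]
    rw [e1, e2, map_mul, map_pow, ← hr, QData.ϖE, map_mul, map_mul, map_pow, map_pow, pow_add]
    ring

/-- an element integral over `K[x]` becomes integral over `R[x]` after multiplication by a power
of `ϖ`. -/
theorem exists_pow_mul_mem_chart (hK : IsAway D) (f : D.F0)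
    (hf : (evS (D.inc X.xW)).IsIntegralElem (f : LaurentSeries K)) :
    ∃ c : ℕ, ∀ c', c ≤ c' → D.ϖF ^ c' * f ∈ X.chart := by
  obtain ⟨c, hc⟩ := exists_pow_mul_isIntegralElem X.phi (evS (D.inc X.xW)) D.ϖE
    (exists_pow_mul_mem_range X hK) hf
  refine ⟨c, fun c' hc' => ?_⟩
  obtain ⟨e, rfl⟩ := Nat.exists_eq_add_of_le hc'
  have h1 : D.ϖF ^ c * f ∈ X.chart := by
    rw [X.mem_chart]
    simpa [D.coe_ϖF] using hc
  have h2 : D.ϖF ∈ X.chart := X.RF_le_chart D.ϖF_mem_RF
  rw [pow_add, mul_comm (D.ϖF ^ c), mul_assoc]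
  exact X.chart.mul_mem (X.chart.pow_mem h2 e) h1

/-- **`hdiv`** in the shape of `Model.inj_abs`, from a `K[x]`-integral family. -/
theorem hdiv (hK : IsAway D) (m : ℕ) (hm : 0 < m) (w : D.F0) (n : ℕ) (g g' : Fin n → D.F0)
    (hg : ∀ i, (evS (D.inc X.xW)).IsIntegralElem ((g i ^ m * w : D.F0) : LaurentSeries K))
    (hg' : ∀ i, (evS (D.inc X.xW)).IsIntegralElem ((g' i ^ m * w⁻¹ : D.F0) : LaurentSeries K))
    (hs : ∑ i, g i * g' i = 1) :
    ∃ (c : ℕ) (ι : Type) (_ : Fintype ι) (g g' : ι → D.F0), (∀ i, g i ∈ Model.MM m w X.chart) ∧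
      (∀ i, g' i ∈ Model.MM m w⁻¹ X.chart) ∧ D.ϖF ^ c = ∑ i, g i * g' i := by
  choose c hc using fun i => exists_pow_mul_mem_chart X hK _ (hg i)
  choose c' hc' using fun i => exists_pow_mul_mem_chart X hK _ (hg' i)
  set a : ℕ := Finset.univ.sup c + Finset.univ.sup c' with ha
  refine ⟨a + a, Fin n, inferInstance, fun i => D.ϖF ^ a * g i, fun i => D.ϖF ^ a * g' i,
    fun i => ?_, fun i => ?_, ?_⟩
  · rw [Model.mem_MM, mul_pow, ← pow_mul, mul_assoc]
    refine hc i _ ?_
    calc c i ≤ Finset.univ.sup c := Finset.le_sup (f := c) (Finset.mem_univ i)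
      _ ≤ a := Nat.le_add_right _ _
      _ = a * 1 := (mul_one a).symm
      _ ≤ a * m := Nat.mul_le_mul_left a hm
  · rw [Model.mem_MM, mul_pow, ← pow_mul, mul_assoc]
    refine hc' i _ ?_
    calc c' i ≤ Finset.univ.sup c' := Finset.le_sup (f := c') (Finset.mem_univ i)
      _ ≤ a := Nat.le_add_left _ _
      _ = a * 1 := (mul_one a).symm
      _ ≤ a * m := Nat.mul_le_mul_left a hm
  · have : ∀ i, D.ϖF ^ a * g i * (D.ϖF ^ a * g' i) = D.ϖF ^ (a + a) * (g i * g' i) := by
      intro i; rw [pow_add]; ring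
    simp only [this]
    rw [← Finset.mul_sum, hs, mul_one]

/-- the same with raw `q`-series. -/
theorem hdiv_raw (hK : IsAway D) (m : ℕ) (hm : 0 < m) (w : D.F0) (n : ℕ)
    (g g' : Fin n → LaurentSeries K) (hgm : ∀ i, g i ∈ D.F0) (hgm' : ∀ i, g' i ∈ D.F0)
    (hg : ∀ i, (evS (D.inc X.xW)).IsIntegralElem (g i ^ m * (w : LaurentSeries K)))
    (hg' : ∀ i, (evS (D.inc X.xW)).IsIntegralElem (g' i ^ m * (w : LaurentSeries K)⁻¹))
    (hs : ∑ i, g i * g' i = 1) :
    ∃ (c : ℕ) (ι : Type) (_ : Fintype ι) (g g' : ι → D.F0), (∀ i, g i ∈ Model.MM m w X.chart) ∧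
      (∀ i, g' i ∈ Model.MM m w⁻¹ X.chart) ∧ D.ϖF ^ c = ∑ i, g i * g' i := by
  refine hdiv X hK m hm w n (fun i => ⟨g i, hgm i⟩) (fun i => ⟨g' i, hgm' i⟩) (fun i => ?_)
    (fun i => ?_) ?_
  · simpa using hg i
  · simpa using hg' i
  · apply Subtype.ext
    simpa using hs

end QD

/-! ### from `IsIntegral (Algebra.adjoin K {y})` to `evS` -/

theorem isIntegralElem_of_isIntegral_adjoin {K : Type*} [Field K]
    {F : IntermediateField K (LaurentSeries K)} {y z : F}
    (h : IsIntegral (Algebra.adjoin K {y}) z) :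
    (evS (y : LaurentSeries K)).IsIntegralElem (z : LaurentSeries K) := by
  set y' : Algebra.adjoin K {y} := ⟨y, Algebra.self_mem_adjoin_singleton K y⟩ with hy'
  have hsurj : Function.Surjective (aeval y' : K[X] →ₐ[K] Algebra.adjoin K {y}) := by
    rintro ⟨b, hb⟩
    obtain ⟨P, hP⟩ := Algebra.adjoin_mem_exists_aeval _ _ hb
    refine ⟨P, Subtype.ext ?_⟩
    show (Algebra.adjoin K {y}).val (aeval y' P) = b
    rw [← hP, ← Polynomial.aeval_algHom_apply]
    rfl
  have h1 := isIntegralElem_comp (aeval y' : K[X] →ₐ[K] Algebra.adjoin K {y}).toRingHom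
    (algebraMap (Algebra.adjoin K {y}) F) (RingHom.isIntegral_of_surjective _ hsurj) h
  obtain ⟨P, hP, hroot⟩ := h1
  refine ⟨P, hP, ?_⟩
  have h2 := congrArg (F.val : F →+* LaurentSeries K) hroot
  rw [map_zero, hom_eval₂] at h2
  have e : evS (y : LaurentSeries K) = (F.val : F →+* LaurentSeries K).comp
      ((algebraMap (Algebra.adjoin K {y}) F).comp
        (aeval y' : K[X] →ₐ[K] Algebra.adjoin K {y}).toRingHom) := by
    refine RingHom.ext fun p => ?_
    rw [← aeval_eq_evS]
    show aeval (F.val y) p = F.val ((Algebra.adjoin K {y}).val (aeval y' p))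
    rw [← Polynomial.aeval_algHom_apply, ← Polynomial.aeval_algHom_apply]
    rfl
  rw [e]
  exact h2

/-! ### descent of elements to a number field -/

section Desc

variable (S : Set (LaurentSeries ℚ))

/-- the field generated over `K` by a set of rational `q`-series. -/
def FK (K : Type*) [Field K] [Algebra ℚ K] : IntermediateField K (LaurentSeries K) :=
  IntermediateField.adjoin K (⇑(coeffEmb K) '' S)

variable (L : Type*) [Field L] [Algebra ℚ L]

theorem coeffMap_coeffEmb' (K1 : IntermediateField ℚ L) (x : LaurentSeries ℚ) :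
    coeffMap (algebraMap K1 L) (coeffEmb K1 x) = coeffEmb L x := by
  ext n
  rw [coeffMap_coeff, coeffEmb_coeff, coeffEmb_coeff]
  exact (IsScalarTower.algebraMap_apply ℚ K1 L _).symm

theorem coeffMap_algebraMap' (K1 : IntermediateField ℚ L) (a : K1) :
    coeffMap (algebraMap K1 L) (algebraMap K1 (LaurentSeries K1) a)
      = algebraMap L (LaurentSeries L) (a : L) := by
  rw [algebraMap_eq_C (A := K1) a, algebraMap_eq_C (A := L) (a : L), QE.coeffMap_C]
  rfl

/-- base change of the fields `FK`. -/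
theorem coeffMap_mem_FK (K1 : IntermediateField ℚ L) {f : LaurentSeries K1} (hf : f ∈ FK S K1) :
    coeffMap (algebraMap K1 L) f ∈ FK S L := by
  induction hf using IntermediateField.adjoin_induction with
  | mem x hx =>
    obtain ⟨z, hz, rfl⟩ := hx
    rw [coeffMap_coeffEmb']
    exact IntermediateField.subset_adjoin _ _ ⟨z, hz, rfl⟩
  | algebraMap a =>
    rw [coeffMap_algebraMap']
    exact IntermediateField.algebraMap_mem _ _
  | add x y _ _ hx hy => rw [map_add]; exact add_mem hx hy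
  | inv x _ hx => rw [map_inv₀]; exact inv_mem hx
  | mul x y _ _ hx hy => rw [map_mul]; exact mul_mem hx hy

/-- **every element of `FK S L` is defined over a number field.** -/
theorem exists_descent [Algebra.IsAlgebraic ℚ L] {f : LaurentSeries L} (hf : f ∈ FK S L) :
    ∃ K0 : IntermediateField ℚ L, FiniteDimensional ℚ K0 ∧
      ∀ K1 : IntermediateField ℚ L, K0 ≤ K1 →
        ∃ f1 ∈ FK S K1, coeffMap (algebraMap K1 L) f1 = f := by
  induction hf using IntermediateField.adjoin_induction with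
  | mem x hx =>
    obtain ⟨z, hz, rfl⟩ := hx
    refine ⟨⊥, inferInstance, fun K1 _ => ⟨coeffEmb K1 z,
      IntermediateField.subset_adjoin _ _ ⟨z, hz, rfl⟩, coeffMap_coeffEmb' L K1 z⟩⟩
  | algebraMap a =>
    refine ⟨ℚ⟮a⟯, IntermediateField.adjoin.finiteDimensional
      (Algebra.IsAlgebraic.isAlgebraic a).isIntegral, fun K1 h1 => ?_⟩
    have ha : a ∈ K1 := h1 (IntermediateField.mem_adjoin_simple_self ℚ a)
    exact ⟨algebraMap K1 _ ⟨a, ha⟩, IntermediateField.algebraMap_mem _ _,
      coeffMap_algebraMap' L K1 ⟨a, ha⟩⟩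
  | add x y _ _ hx hy =>
    obtain ⟨K0, h0, hx⟩ := hx
    obtain ⟨K0', h0', hy⟩ := hy
    refine ⟨K0 ⊔ K0', IntermediateField.finiteDimensional_sup K0 K0', fun K1 h1 => ?_⟩
    obtain ⟨x1, hx1, rfl⟩ := hx K1 (le_trans le_sup_left h1)
    obtain ⟨y1, hy1, rfl⟩ := hy K1 (le_trans le_sup_right h1)
    exact ⟨x1 + y1, add_mem hx1 hy1, map_add _ _ _⟩
  | inv x _ hx =>
    obtain ⟨K0, h0, hx⟩ := hx
    refine ⟨K0, h0, fun K1 h1 => ?_⟩
    obtain ⟨x1, hx1, rfl⟩ := hx K1 h1
    exact ⟨x1⁻¹, inv_mem hx1, map_inv₀ _ _⟩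
  | mul x y _ _ hx hy =>
    obtain ⟨K0, h0, hx⟩ := hx
    obtain ⟨K0', h0', hy⟩ := hy
    refine ⟨K0 ⊔ K0', IntermediateField.finiteDimensional_sup K0 K0', fun K1 h1 => ?_⟩
    obtain ⟨x1, hx1, rfl⟩ := hx K1 (le_trans le_sup_left h1)
    obtain ⟨y1, hy1, rfl⟩ := hy K1 (le_trans le_sup_right h1)
    exact ⟨x1 * y1, mul_mem hx1 hy1, map_mul _ _ _⟩

/-- the same for a finite family. -/
theorem exists_descent_family [Algebra.IsAlgebraic ℚ L] {n : ℕ} (f : Fin n → LaurentSeries L)
    (hf : ∀ i, f i ∈ FK S L) :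
    ∃ K0 : IntermediateField ℚ L, FiniteDimensional ℚ K0 ∧
      ∀ K1 : IntermediateField ℚ L, K0 ≤ K1 →
        ∀ i, ∃ f1 ∈ FK S K1, coeffMap (algebraMap K1 L) f1 = f i := by
  choose K0 h0 h using fun i => exists_descent S L (hf i)
  have := h0
  exact ⟨⨆ i, K0 i, IntermediateField.finiteDimensional_iSup_of_finite,
    fun K1 h1 i => h i K1 (le_trans (le_iSup K0 i) h1)⟩

end Desc

/-! ### the witnesses of `hdiv` over a number field -/

theorem exists_witness_charZero {K F : Type*} [Field K] [Field F] [Algebra K F] [CharZero K]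
    [FF.IsFF K F] {y : F} (hy : Transcendental K y) (m : ℕ) (w : F) (hw : w ≠ 0)
    (hdiv : ∀ v : Place K F, (m : ℤ) ∣ v.ord w) :
    ∃ (n : ℕ) (g g' : Fin n → F), (∀ i, IsIntegral (Algebra.adjoin K {y}) (g i ^ m * w)) ∧
      (∀ i, IsIntegral (Algebra.adjoin K {y}) (g' i ^ m * w⁻¹)) ∧ ∑ i, g i * g' i = 1 := by
  have := FF.finiteDimensional_adjoin hy
  exact HDiv.exists_witness hy m w hw hdiv

instance isFF_FF (N : ℕ) [NeZero N] : FF.IsFF Kb (FF N) :=
  ⟨⟨jF N, transcendental_jF N, inferInstance⟩⟩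

/-- **HDIV over a number field**: `S` any set of rational `q`-series generating `FF N` over `ℚ̄`,
`y` a non constant function with rational `q`-expansion `yQ`. -/
theorem exists_family_descent (N : ℕ) [NeZero N] (S : Set (LaurentSeries ℚ))
    (hS : modularFunctionFieldBar N = FK S Kb) (m : ℕ) (w : FF N) (hw : IsPDiv m N w)
    (yQ : LaurentSeries ℚ) (y : FF N) (hy : (y : LaurentSeries Kb) = coeffEmb Kb yQ)
    (hytr : Transcendental Kb y) :
    ∃ K0 : IntermediateField ℚ Kb, FiniteDimensional ℚ K0 ∧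
      ∀ K1 : IntermediateField ℚ Kb, K0 ≤ K1 →
        ∀ w1 : LaurentSeries K1, coeffMap (algebraMap K1 Kb) w1 = (w : LaurentSeries Kb) →
          ∃ (n : ℕ) (g g' : Fin n → LaurentSeries K1),
            (∀ i, g i ∈ FK S K1) ∧ (∀ i, g' i ∈ FK S K1) ∧
            (∀ i, (evS (coeffEmb K1 yQ)).IsIntegralElem (g i ^ m * w1)) ∧
            (∀ i, (evS (coeffEmb K1 yQ)).IsIntegralElem (g' i ^ m * w1⁻¹)) ∧
            ∑ i, g i * g' i = 1 := by
  obtain ⟨n, G, G', hG, hG', hsum⟩ := exists_witness_charZero hytr m w hw.1 hw.2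
  have halg : Algebra.IsAlgebraic ℚ Kb := AlgebraicClosure.isAlgebraic ℚ
  obtain ⟨K0, h0, hK0⟩ := exists_descent_family S Kb (fun i => (G i : LaurentSeries Kb))
    (fun i => hS ▸ (G i).2)
  obtain ⟨K0', h0', hK0'⟩ := exists_descent_family S Kb (fun i => (G' i : LaurentSeries Kb))
    (fun i => hS ▸ (G' i).2)
  refine ⟨K0 ⊔ K0', IntermediateField.finiteDimensional_sup K0 K0', fun K1 h1 w1 hw1 => ?_⟩
  choose g hgm hg using hK0 K1 (le_trans le_sup_left h1)
  choose g' hgm' hg' using hK0' K1 (le_trans le_sup_right h1)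
  have : Algebra.IsAlgebraic K1 Kb := Algebra.IsAlgebraic.tower_top (K := ℚ) K1
  refine ⟨n, g, g', hgm, hgm', fun i => ?_, fun i => ?_, ?_⟩
  · apply isIntegralElem_descent K1 Kb
    rw [coeffMap_coeffEmb', ← hy, map_mul, map_pow, hg, hw1]
    exact isIntegralElem_of_isIntegral_adjoin (hG i)
  · apply isIntegralElem_descent K1 Kb
    rw [coeffMap_coeffEmb', ← hy, map_mul, map_pow, map_inv₀, hg', hw1]
    exact isIntegralElem_of_isIntegral_adjoin (hG' i)
  · apply coeffMap_injective (algebraMap K1 Kb).injective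
    rw [map_sum, map_one]
    simp only [map_mul, hg, hg']
    have := congrArg (fun z : FF N => (z : LaurentSeries Kb)) hsum
    simpa using this

end Fermat.Agent.ES.HDivDesc
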