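import Fermat.Agent.ES.HDiv
import Fermat.Agent.ES.ConstAbs
import Fermat.Agent.ES.KDefs
import Fermat.Agent.S24.Degree

/-!
# ES, block INJ : `hdiv` over `ℚ̄` for the two `j`-charts of `FF N`
(instantiation of helper22's `HDiv.exists_witness`)
-/

set_option autoImplicit false

namespace Fermat.Agent.ES.HDivFF

open Fermat.Agent.S24 IntermediateField

/-- chart `ℚ̄[j]` -/
theorem exists_witness_jF (N : ℕ) [NeZero N] (m : ℕ) (w : FF N) (hw : IsPDiv m N w) :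
    ∃ (n : ℕ) (g g' : Fin n → FF N),
      (∀ i, IsIntegral (Algebra.adjoin Kb {jF N}) (g i ^ m * w)) ∧
      (∀ i, IsIntegral (Algebra.adjoin Kb {jF N}) (g' i ^ m * w⁻¹)) ∧ ∑ i, g i * g' i = 1 :=
  HDiv.exists_witness (transcendental_jF N) m w hw.1 hw.2

/-- chart `ℚ̄[1/j]` -/
theorem exists_witness_jF_inv (N : ℕ) [NeZero N] (m : ℕ) (w : FF N) (hw : IsPDiv m N w) :
    ∃ (n : ℕ) (g g' : Fin n → FF N),
      (∀ i, IsIntegral (Algebra.adjoin Kb {(jF N)⁻¹}) (g i ^ m * w)) ∧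
      (∀ i, IsIntegral (Algebra.adjoin Kb {(jF N)⁻¹}) (g' i ^ m * w⁻¹)) ∧ ∑ i, g i * g' i = 1 := by
  have hy' : Transcendental Kb (jF N)⁻¹ := by
    intro h1
    apply transcendental_jF N
    have := h1.inv
    rwa [inv_inv] at this
  have e := ConstAbs.adjoin_inv_eq (K := Kb) (jF N)
  have i1 : FiniteDimensional Kb⟮(jF N)⁻¹⟯ (FF N) := e ▸ inferInstance
  have i2 : Algebra.IsSeparable Kb⟮(jF N)⁻¹⟯ (FF N) := e ▸ inferInstance
  exact HDiv.exists_witness hy' m w hw.1 hw.2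

end Fermat.Agent.ES.HDivFF
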