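import Fermat.Agent.ES.T23Laurent
import Fermat.Agent.ES.TRatio

/-!
# ES : the Hauptmoduln `t₂`, `t₃` lie in the modular function field of level `N`, `M ∣ N`.
-/

set_option autoImplicit false

namespace Fermat.Agent.ES.T23

open UpperHalfPlane ModularForm CongruenceSubgroup ModularCurve
open Fermat.Agent.S24 Fermat.Agent.S21 Fermat.Agent.S23 Fermat.Agent.S16
open scoped MatrixGroups Manifold

/-- **RATIO** with the conclusion at the level of `q`-expansions. -/
theorem mem_FF_of_laurent (N : ℕ) [NeZero N] (k : ℤ) (A B : Hol)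
    (hA : S21.IsMF (Gamma0 N) k A.1) (hB : S21.IsMF (Gamma0 N) k B.1) (hB0 : B ≠ 0)
    (s : LaurentSeries Kb)
    (hs : coeffMap iotaC s * HahnSeries.ofPowerSeries ℤ ℂ (qExpansion 1 B.1)
      = HahnSeries.ofPowerSeries ℤ ℂ (qExpansion 1 A.1)) :
    s ∈ modularFunctionFieldBar N := by
  obtain ⟨x, hx⟩ := exists_Psi_mul_eq_of_laurent N k A B hA hB hB0 s hs
  let A' : nice 1 := ⟨A.1, TRatio.mem_nice_one_of_isMF N hA⟩
  let B' : nice 1 := ⟨B.1, TRatio.mem_nice_one_of_isMF N hB⟩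
  have hB'0 : B' ≠ 0 := fun h0 =>
    hB0 (Subtype.ext (congrArg (Subtype.val : nice 1 → ℍ → ℂ) h0))
  have k1 : Psi1 N x * toFr 1 B' = toFr 1 A' := by
    apply (niceToMer 1).injective
    rw [map_mul, ← Psi_apply, toFr, toFr, niceToMer_algebraMap, niceToMer_algebraMap]
    exact hx
  have k2 : iotaL N x * HahnSeries.ofPowerSeries ℤ ℂ (S24.qHom 1 B')
      = HahnSeries.ofPowerSeries ℤ ℂ (S24.qHom 1 A') := by
    have := congrArg (niceToLaurent 1) k1
    rwa [map_mul, niceToLaurent_Psi1, toFr, toFr, niceToLaurent_algebraMap,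
      niceToLaurent_algebraMap] at this
  have hLB : HahnSeries.ofPowerSeries ℤ ℂ (S24.qHom 1 B') ≠ 0 := by
    intro h0
    have h2 : S24.qHom 1 B' = 0 := HahnSeries.ofPowerSeries_injective (by rw [h0, map_zero])
    exact hB'0 (S24.qHom_injective 1 (by rw [h2, map_zero]))
  have eA : S24.qHom 1 A' = qExpansion 1 A.1 := by simp [A']
  have eB : S24.qHom 1 B' = qExpansion 1 B.1 := by simp [B']
  have k3 : coeffMap iotaC (x : LaurentSeries Kb) = coeffMap iotaC s := by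
    apply mul_right_cancel₀ hLB
    rw [← iotaL_apply, k2, eA, eB, hs]
  have k4 : (x : LaurentSeries Kb) = s := by
    ext n
    apply iotaC.injective
    have := congrArg (fun y : LaurentSeries ℂ => y.coeff n) k3
    simpa only [coeffMap_coeff] using this
  rw [← k4]
  exact x.2

lemma tR_mem_of (M N : ℕ) [NeZero M] [NeZero N] (hM : 1 < M) (hMN : M ∣ N) (Bf : niceAlg)
    (hBf : IsMF (Gamma0 M) 4 Bf.1)
    (hq : S23.qHom Bf = PowerSeries.map (Int.castRingHom ℂ) (bb M)) :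
    tR Kb M ∈ modularFunctionFieldBar N := by
  have hle := Gamma0_le_of_dvd hMN
  have hqA := qHom_An M
  rw [S23.qHom_apply] at hq hqA
  refine mem_FF_of_laurent N 4 ⟨Bf.1, Bf.2.2.1⟩ ⟨(An M).1, (An M).2.2.1⟩ (hBf.mono hle)
    ((isMF_An M).mono hle) ?_ (tR Kb M) ?_
  · intro h0
    have h1 : (An M).1 = 0 := congrArg (Subtype.val : Hol → ℍ → ℂ) h0
    rw [h1, qExpansion_zero] at hqA
    have h2 := congrArg (PowerSeries.coeff 1) hqA
    rw [PowerSeries.coeff_map, map_zero, aa_eq] at h2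
    have h3 : PowerSeries.coeff 1 (PowerSeries.X * a1 M) = 1 := by
      rw [show (1 : ℕ) = 0 + 1 from rfl, PowerSeries.coeff_succ_X_mul,
        PowerSeries.coeff_zero_eq_constantCoeff_apply, constantCoeff_a1 hM]
    rw [h3] at h2
    simp at h2
  · show coeffMap iotaC (tR Kb M) * HahnSeries.ofPowerSeries ℤ ℂ (qExpansion 1 (An M).1)
      = HahnSeries.ofPowerSeries ℤ ℂ (qExpansion 1 Bf.1)
    rw [hq, hqA, coeffMap_tR, tR, ← coeffMap_ofPowerSeries, ← coeffMap_ofPowerSeries, ← map_mul,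
      tq_mul_aa hM]

/-- `t₂ ∈ ℚ̄(X₀(N))` for `2 ∣ N` -/
theorem tR_two_mem (N : ℕ) [NeZero N] (h : 2 ∣ N) : tR Kb 2 ∈ modularFunctionFieldBar N :=
  tR_mem_of 2 N (by norm_num) h B2n isMF_B2n qHom_B2n

/-- `t₃ ∈ ℚ̄(X₀(N))` for `3 ∣ N` -/
theorem tR_three_mem (N : ℕ) [NeZero N] (h : 3 ∣ N) : tR Kb 3 ∈ modularFunctionFieldBar N :=
  tR_mem_of 3 N (by norm_num) h B3n isMF_B3n qHom_B3n

end Fermat.Agent.ES.T23
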