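import Mathlib

set_option autoImplicit false
set_option linter.unusedSectionVars false

/-!
# ES : tame ramification in characteristic zero

`g · (codifferent) ≤ rad (g B)` if `B / A` is unramified outside `g = 0` and all residue fields of `A`
have characteristic zero.
-/

namespace Fermat.Agent.ES.Ram

open Ideal Algebra nonZeroDivisors

attribute [local instance] FractionRing.liftAlgebra FractionRing.isScalarTower_liftAlgebra
  Ideal.Quotient.field

section T

variable (A : Type*) {B : Type*} [CommRing A] [CommRing B] [Algebra A B]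
  [IsDedekindDomain A] [IsDedekindDomain B] [Module.IsTorsionFree A B] [Module.Finite A B]

/-- **Lemma T** (tame bound): if `p B = P * Q` with `P ≠ ⊤` coprime to `Q` and `A / p` has
characteristic zero, then `P` does not divide the different. -/
theorem not_dvd_differentIdeal_of_charZero
    [Algebra.IsSeparable (FractionRing A) (FractionRing B)]
    {p : Ideal A} [p.IsMaximal] [CharZero (A ⧸ p)] (P Q : Ideal B) (hPtop : P ≠ ⊤)
    (hPQ : IsCoprime P Q) (hP : P * Q = Ideal.map (algebraMap A B) p) :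
    ¬ P ∣ differentIdeal A B := by
  let _ : Algebra (A ⧸ p) (B ⧸ Q) := Ideal.Quotient.algebraQuotientOfLEComap (by
      rw [← Ideal.map_le_iff_le_comap, ← hP]
      exact Ideal.mul_le_right (I := P) (J := Q))
  let _ : Algebra (A ⧸ p) (B ⧸ P) := Ideal.Quotient.algebraQuotientOfLEComap (by
      rw [← Ideal.map_le_iff_le_comap, ← hP]
      exact Ideal.mul_le_left (I := P) (J := Q))
  have : IsScalarTower A (A ⧸ p) (B ⧸ Q) := .of_algebraMap_eq' rfl
  have : IsScalarTower A (A ⧸ p) (B ⧸ P) := .of_algebraMap_eq' rfl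
  have : Module.Finite (A ⧸ p) (B ⧸ Q) :=
    Module.Finite.of_restrictScalars_finite A (A ⧸ p) (B ⧸ Q)
  have : Module.Finite (A ⧸ p) (B ⧸ P) :=
    Module.Finite.of_restrictScalars_finite A (A ⧸ p) (B ⧸ P)
  have : Nontrivial (B ⧸ P) := Ideal.Quotient.nontrivial_iff.mpr hPtop
  let e : (B ⧸ p.map (algebraMap A B)) ≃ₐ[A ⧸ p] ((B ⧸ P) × B ⧸ Q) :=
    { __ := (Ideal.quotEquivOfEq hP.symm).trans (Ideal.quotientMulEquivQuotientProd P Q hPQ),
      commutes' := Quotient.ind fun _ ↦ rfl }
  obtain ⟨y, hy⟩ := Ideal.Quotient.mk_surjective (e.symm (1, 0))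
  refine not_dvd_differentIdeal_of_intTrace_not_mem A P Q hP y ?_ ?_
  · have := congr((e $hy).2)
    simp at this
    simpa [e, Ideal.Quotient.eq_zero_iff_mem] using this
  · rw [← Ideal.Quotient.eq_zero_iff_mem, ← Algebra.trace_quotient_eq_of_isDedekindDomain,
      hy, Algebra.trace_eq_of_algEquiv, Algebra.trace_prod_apply]
    simp only [map_zero, add_zero]
    have h1 : Algebra.trace (A ⧸ p) (B ⧸ P) 1 = (Module.finrank (A ⧸ p) (B ⧸ P) : A ⧸ p) := by
      have := Algebra.trace_algebraMap (R := A ⧸ p) (S := B ⧸ P) 1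
      simpa using this
    rw [h1, Nat.cast_eq_zero]
    exact Module.finrank_pos.ne'

end T

section Main

variable (A K L B : Type*) [CommRing A] [Field K] [CommRing B] [Field L]
  [Algebra A K] [Algebra B L] [Algebra A B] [Algebra K L] [Algebra A L]
  [IsScalarTower A K L] [IsScalarTower A B L] [IsFractionRing A K]
  [FiniteDimensional K L] [Algebra.IsSeparable K L] [IsIntegralClosure B A L]
  [IsDedekindDomain A] [IsDedekindDomain B] [IsFractionRing B L]
  [Module.IsTorsionFree A B] [Module.Finite A B]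

include K L in
lemma isSeparable_fractionRing : Algebra.IsSeparable (FractionRing A) (FractionRing B) := by
  have H : RingHom.comp (algebraMap (FractionRing A) (FractionRing B))
      ↑(FractionRing.algEquiv A K).symm.toRingEquiv =
        RingHom.comp ↑(FractionRing.algEquiv B L).symm.toRingEquiv (algebraMap K L) := by
    apply IsLocalization.ringHom_ext A⁰
    ext
    simp only [RingHom.coe_comp, RingHom.coe_coe,
      AlgEquiv.coe_ringEquiv, Function.comp_apply, AlgEquiv.commutes,
      ← IsScalarTower.algebraMap_apply]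
    rw [IsScalarTower.algebraMap_apply A B L, AlgEquiv.commutes, ← IsScalarTower.algebraMap_apply]
  exact Algebra.IsSeparable.of_equiv_equiv _ _ H

variable {B}

include K L in
/-- the exact exponent `e` of a prime `Q` in `p B`, and the tame bound for the different. -/
lemma exists_exponent [Algebra ℚ A] (Q : Ideal B) (hQ : Prime Q) :
    ∃ e : ℕ, 1 ≤ e ∧ Q ^ e ∣ (Q.comap (algebraMap A B)).map (algebraMap A B) ∧
      ¬ Q ^ (e + 1) ∣ (Q.comap (algebraMap A B)).map (algebraMap A B) ∧
      ¬ Q ^ e ∣ differentIdeal A B := by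
  have := isSeparable_fractionRing A K L B
  have hQp : Q.IsPrime := Ideal.isPrime_of_prime hQ
  have hQ0 : Q ≠ ⊥ := hQ.ne_zero
  have hQmax : Q.IsMaximal := hQp.isMaximal hQ0
  set p := Q.comap (algebraMap A B) with hp
  have hpmax : p.IsMaximal := Ideal.isMaximal_comap_of_isIntegral_of_isMaximal Q
  have hint : Algebra.IsIntegral A B := IsIntegralClosure.isIntegral_algebra A L
  have hp0 : p ≠ ⊥ := Ideal.IsIntegral.comap_ne_bot (R := A) hQ0
  have hchar : CharZero (A ⧸ p) := algebraRat.charZero _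
  have hmap0 : p.map (algebraMap A B) ≠ ⊥ :=
    (Ideal.map_eq_bot_iff_of_injective (FaithfulSMul.algebraMap_injective A B)).not.mpr hp0
  have hfin : FiniteMultiplicity Q (p.map (algebraMap A B)) :=
    FiniteMultiplicity.of_prime_left hQ hmap0
  obtain ⟨c, hc, hQc⟩ := hfin.exists_eq_pow_mul_and_not_dvd
  set e := multiplicity Q (p.map (algebraMap A B)) with he
  have hQdvd : Q ∣ p.map (algebraMap A B) := by
    rw [Ideal.dvd_iff_le, Ideal.map_le_iff_le_comap]
  have he1 : 1 ≤ e := by
    by_contra hcon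
    have he0 : e = 0 := by omega
    rw [he0, pow_zero, one_mul] at hc
    exact hQc (hc ▸ hQdvd)
  have hcop : IsCoprime (Q ^ e) c := by
    apply IsCoprime.pow_left
    rw [Ideal.isCoprime_iff_sup_eq]
    by_contra hne
    have hle : c ≤ Q := by
      have h1 : Q ⊔ c = Q := (hQmax.eq_of_le hne le_sup_left).symm
      rw [← h1]; exact le_sup_right
    exact hQc (Ideal.dvd_iff_le.mpr hle)
  have htop : Q ^ e ≠ ⊤ := by
    intro h
    have : Q ^ e ≤ Q := Ideal.pow_le_self (by omega)
    rw [h, top_le_iff] at this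
    exact hQp.ne_top this
  refine ⟨e, he1, ⟨c, hc⟩, ?_, ?_⟩
  · rw [hc, pow_succ, mul_dvd_mul_iff_left (pow_ne_zero _ hQ0)]
    exact hQc
  · exact not_dvd_differentIdeal_of_charZero A (Q ^ e) c htop hcop hc.symm

variable {A}

include K L in
/-- key divisibility. -/
lemma different_mul_dvd [Algebra ℚ A] (g : A) (hg : g ≠ 0)
    (hU : ∀ Q : Ideal B, Q.IsPrime → Q ≠ ⊥ → algebraMap A B g ∉ Q →
      ¬ Q ^ 2 ∣ (Q.comap (algebraMap A B)).map (algebraMap A B))
    (J : Ideal B) (hJ : J = ⊤ ∨ (J.IsPrime ∧ algebraMap A B g ∈ J)) :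
    differentIdeal A B * J ∣ Ideal.span {algebraMap A B g} := by
  have := isSeparable_fractionRing A K L B
  have hD0 : differentIdeal A B ≠ ⊥ := differentIdeal_ne_bot
  have hgB : algebraMap A B g ≠ 0 := by
    rw [Ne, FaithfulSMul.algebraMap_eq_zero_iff]; exact hg
  have hJ0 : J ≠ ⊥ := by
    rcases hJ with rfl | ⟨_, hgJ⟩
    · exact top_ne_bot
    · rintro rfl
      exact hgB (by simpa using hgJ)
  rw [UniqueFactorizationMonoid.dvd_iff_emultiplicity_le (mul_ne_zero hD0 hJ0)]
  intro Q hQ
  have hQp : Q.IsPrime := Ideal.isPrime_of_prime hQ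
  have hQ0 : Q ≠ ⊥ := hQ.ne_zero
  have hQmax : Q.IsMaximal := hQp.isMaximal hQ0
  obtain ⟨e, he1, hdiv, hndiv, hD⟩ := exists_exponent A K L Q hQ
  rw [emultiplicity_mul hQ]
  by_cases hgQ : algebraMap A B g ∈ Q
  · have h1 : emultiplicity Q (differentIdeal A B) + 1 ≤ e :=
      Order.add_one_le_of_lt (emultiplicity_lt_iff_not_dvd.mpr hD)
    have h2 : (e : ℕ∞) ≤ emultiplicity Q (Ideal.span {algebraMap A B g}) := by
      apply le_emultiplicity_of_pow_dvd
      refine hdiv.trans ?_
      rw [Ideal.dvd_iff_le, Ideal.span_singleton_le_iff_mem]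
      exact Ideal.mem_map_of_mem _ (Ideal.mem_comap.mpr hgQ)
    have h3 : emultiplicity Q J ≤ 1 := by
      have : ¬ Q ^ 2 ∣ J := by
        rcases hJ with rfl | ⟨hJp, _⟩
        · intro h
          have h' := Ideal.dvd_iff_le.mp h
          have : Q ^ 2 ≤ Q := Ideal.pow_le_self (by norm_num)
          exact hQp.ne_top (top_le_iff.mp (h'.trans this))
        · intro h
          have hJprime : Prime J := Ideal.prime_of_isPrime hJ0 hJp
          obtain ⟨c, hc⟩ := h
          rw [pow_two, mul_assoc] at hc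
          rcases hJprime.irreducible.isUnit_or_isUnit hc with h | h
          · exact hQ.not_isUnit h
          · exact hQ.not_isUnit (isUnit_of_mul_isUnit_left h)
      have := emultiplicity_lt_iff_not_dvd.mpr this
      simpa using this
    calc emultiplicity Q (differentIdeal A B) + emultiplicity Q J
        ≤ emultiplicity Q (differentIdeal A B) + 1 := by gcongr
      _ ≤ e := h1
      _ ≤ _ := h2
  · have he : e = 1 := by
      by_contra hne
      have h2 : 2 ≤ e := by omega
      exact hU Q hQp hQ0 hgQ ((pow_dvd_pow Q h2).trans hdiv)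
    rw [he, pow_one] at hD
    have h1 : emultiplicity Q (differentIdeal A B) = 0 := emultiplicity_eq_zero.mpr hD
    have h2 : emultiplicity Q J = 0 := by
      rw [emultiplicity_eq_zero]
      rcases hJ with rfl | ⟨_, hgJ⟩
      · intro h
        exact hQp.ne_top (top_le_iff.mp (Ideal.dvd_iff_le.mp h))
      · intro h
        exact hgQ (Ideal.dvd_iff_le.mp h hgJ)
    rw [h1, h2]
    simp

include K in
/-- **RAM**: in characteristic zero, if `B / A` is unramified outside `g = 0`, then
`g · (codifferent) ≤ rad (g B)`. -/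
theorem smul_mem_radical [Algebra ℚ A] (g : A) (hg : g ≠ 0)
    (hU : ∀ Q : Ideal B, Q.IsPrime → Q ≠ ⊥ → algebraMap A B g ∉ Q →
      ¬ Q ^ 2 ∣ (Q.comap (algebraMap A B)).map (algebraMap A B))
    (y : L) (hy : y ∈ Submodule.traceDual A K (1 : Submodule B L)) :
    ∃ z ∈ (Ideal.span {algebraMap A B g}).radical, algebraMap B L z = algebraMap A L g * y := by
  have hy' : y ∈ FractionalIdeal.dual A K (1 : FractionalIdeal B⁰ L) := by
    rw [← FractionalIdeal.mem_coe, FractionalIdeal.coe_dual_one]
    exact hy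
  have hd0 : FractionalIdeal.dual A K (1 : FractionalIdeal B⁰ L) ≠ 0 :=
    FractionalIdeal.dual_ne_zero A K one_ne_zero
  have key : ∀ J : Ideal B, (J = ⊤ ∨ (J.IsPrime ∧ algebraMap A B g ∈ J)) →
      ∃ z ∈ J, algebraMap B L z = algebraMap A L g * y := by
    intro J hJ
    obtain ⟨c, hc⟩ := different_mul_dvd K L g hg hU J hJ
    have h1 : algebraMap A L g * y ∈
        ((Ideal.span {algebraMap A B g} : Ideal B) : FractionalIdeal B⁰ L) *
          FractionalIdeal.dual A K (1 : FractionalIdeal B⁰ L) := by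
      apply FractionalIdeal.mul_mem_mul _ hy'
      rw [FractionalIdeal.mem_coeIdeal]
      exact ⟨algebraMap A B g, Ideal.mem_span_singleton_self _,
        (IsScalarTower.algebraMap_apply A B L g).symm⟩
    rw [hc, mul_assoc, FractionalIdeal.coeIdeal_mul, coeIdeal_differentIdeal A K L B,
      mul_comm, ← mul_assoc, mul_inv_cancel₀ hd0, one_mul, FractionalIdeal.mem_coeIdeal] at h1
    obtain ⟨z, hz, hz'⟩ := h1
    exact ⟨z, (Ideal.mul_le_left (I := J) (J := c)) hz, hz'⟩
  obtain ⟨z, -, hz⟩ := key ⊤ (Or.inl rfl)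
  refine ⟨z, ?_, hz⟩
  rw [Ideal.radical_eq_sInf, Ideal.mem_sInf]
  rintro J ⟨hJle, hJp⟩
  obtain ⟨z', hz'J, hz'⟩ := key J (Or.inr ⟨hJp, hJle (Ideal.mem_span_singleton_self _)⟩)
  have : z = z' := IsFractionRing.injective B L (hz.trans hz'.symm)
  rw [this]; exact hz'J

end Main

end Fermat.Agent.ES.Ram
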