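import Fermat.Agent.S24.FFMain
import Fermat.Agent.ES.Ram

/-!
# ES / INJ : descent of "unramified outside `g`" from `ℚ̄` to a subfield of constants

* `exists_place_over` : a nonzero prime `Q` of a ring `B0 ⊆ E` over which the integral closure of
  `Kb[y]` in `E` is integral lies under a place of `E / Kb`.
* `ord_aeval_eq` : the order of `P(y)` at a place where `y = a`, `a` a simple root of `P`.
-/

set_option autoImplicit false
set_option linter.style.haveILetI false
set_option linter.unusedSectionVars false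

namespace Fermat.Agent.ES.UDesc

open Polynomial AlgebraicCurve IsDedekindDomain IntermediateField Fermat.Agent.S24

noncomputable section

section Local

variable {Kb E : Type*} [Field Kb] [Field E] [Algebra Kb E]

/-- `P(y)` is a unit at a place where `y = a`, if `P(a) ≠ 0`. -/
theorem ord_aeval_of_eval_ne_zero (v : Place Kb E) (y : E) (a : Kb)
    (hv : 0 < v.ord (y - algebraMap Kb E a)) (S : Kb[X]) (hSa : S.eval a ≠ 0) :
    aeval y S ≠ 0 ∧ v.ord (aeval y S) = 0 := by
  obtain ⟨T, hT⟩ := X_sub_C_dvd_sub_C_eval (a := a) (p := S)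
  have hy0 : y - algebraMap Kb E a ≠ 0 := by
    intro h
    rw [h, Place.ord_zero] at hv
    exact lt_irrefl _ hv
  have hymem : y ∈ v.toValuationSubring := by
    have h1 : y - algebraMap Kb E a ∈ v.toValuationSubring :=
      (FF.mem_iff_ord_nonneg v hy0).2 hv.le
    have := v.toValuationSubring.add_mem _ _ h1 (v.algebraMap_mem' a)
    simpa using this
  have e1 : aeval y S = algebraMap Kb E (S.eval a) + (y - algebraMap Kb E a) * aeval y T := by
    have := congrArg (aeval y) hT
    simp only [map_sub, map_mul, aeval_X, aeval_C] at this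
    rw [← this]; ring
  have hc0 : algebraMap Kb E (S.eval a) ≠ 0 := by
    simpa using hSa
  constructor
  · rw [e1]
    intro h
    rcases eq_or_ne (aeval y T) 0 with h0 | h0
    · rw [h0, mul_zero, add_zero] at h
      exact hc0 h
    · have h2 : algebraMap Kb E (S.eval a) = - ((y - algebraMap Kb E a) * aeval y T) := by
        linear_combination h
      have h3 := congrArg v.ord h2
      rw [FF.ord_algebraMap, FF.ord_neg, Place.ord_mul v hy0 h0] at h3
      have := FF.ord_nonneg_of_mem v (FF.aeval_mem v hymem T)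
      omega
  · rw [e1]
    rcases eq_or_ne (aeval y T) 0 with h0 | h0
    · rw [h0, mul_zero, add_zero, FF.ord_algebraMap]
    · rw [Place.ord_add_eq_of_lt v hc0, FF.ord_algebraMap]
      rw [FF.ord_algebraMap, Place.ord_mul v hy0 h0]
      have := FF.ord_nonneg_of_mem v (FF.aeval_mem v hymem T)
      omega

/-- the order of `P(y)` at a place where `y = a`, for a simple root `a` of `P`. -/
theorem ord_aeval_eq (v : Place Kb E) (y : E) (a : Kb)
    (hv : 0 < v.ord (y - algebraMap Kb E a)) (P : Kb[X]) (hP : P.IsRoot a)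
    (hP' : P.derivative.eval a ≠ 0) : v.ord (aeval y P) = v.ord (y - algebraMap Kb E a) := by
  obtain ⟨S, hS⟩ := dvd_iff_isRoot.2 hP
  have hSa : S.eval a ≠ 0 := by
    rw [hS] at hP'
    simpa [derivative_mul] using hP'
  have hy0 : y - algebraMap Kb E a ≠ 0 := by
    intro h
    rw [h, Place.ord_zero] at hv
    exact lt_irrefl _ hv
  obtain ⟨hSne, hS0⟩ := ord_aeval_of_eval_ne_zero v y a hv S hSa
  rw [hS, map_mul, map_sub, aeval_X, aeval_C, Place.ord_mul v hy0 hSne, hS0, add_zero]

end Local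

section Poly

variable {Kb E : Type*} [Field Kb] [Field E] [Algebra Kb E]
  [Algebra Kb[X] E] [Algebra (RatFunc Kb) E] [IsScalarTower Kb[X] (RatFunc Kb) E]
  [IsScalarTower Kb Kb[X] E] [FiniteDimensional (RatFunc Kb) E] [CharZero Kb]

local notation "𝓑" => FunctionField.ringOfIntegers Kb E

/-- a nonzero prime of a ring under the integral closure of `Kb[X]` lies under a place. -/
theorem exists_place_over_aux {B0 : Type*} [CommRing B0] (ψ : B0 →+* E)
    (hψ : Function.Injective ψ) (hint : ∀ b, IsIntegral Kb[X] (ψ b))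
    (hint' : ∀ e : E, IsIntegral Kb[X] e → ψ.IsIntegralElem e)
    (Q : Ideal B0) [Q.IsPrime] (hQ : Q ≠ ⊥) :
    ∃ v : Place Kb E, (∀ e : E, IsIntegral Kb[X] e → e ∈ v.toValuationSubring) ∧
      ∀ (n : ℕ) (b : B0), b ∈ Q ^ n → b ≠ 0 → (n : ℤ) ≤ v.ord (ψ b) := by
  let φ : B0 →+* 𝓑 := ψ.codRestrict (integralClosure Kb[X] E).toSubring hint
  have hφ : ∀ b, algebraMap 𝓑 E (φ b) = ψ b := fun b => rfl
  have hφinj : Function.Injective φ := by
    intro a b h
    exact hψ (by rw [← hφ, ← hφ, h])
  letI : Algebra B0 𝓑 := φ.toAlgebra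
  haveI : Algebra.IsIntegral B0 𝓑 := ⟨fun e => by
    obtain ⟨p, hp, hp0⟩ := hint' (algebraMap 𝓑 E e) e.2
    refine ⟨p, hp, ?_⟩
    apply FaithfulSMul.algebraMap_injective 𝓑 E
    rw [map_zero, ← hp0, hom_eval₂]
    rfl⟩
  obtain ⟨Q', -, hQ'p, hQ'⟩ := Ideal.exists_ideal_over_prime_of_isIntegral Q (⊥ : Ideal 𝓑) (by
    intro b hb
    have : φ b = 0 := hb
    rw [hφinj (this.trans (map_zero φ).symm)]
    exact Q.zero_mem)
  have hQ'bot : Q' ≠ ⊥ := by
    rintro rfl
    apply hQ
    rw [← hQ', eq_bot_iff]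
    intro b hb
    have : φ b = 0 := hb
    rw [hφinj (this.trans (map_zero φ).symm)]
    exact Ideal.zero_mem _
  let w : HeightOneSpectrum 𝓑 := ⟨Q', hQ'p, hQ'bot⟩
  refine ⟨Place.ofHeightOneSpectrum (K := Kb) (F := E) w, ?_, ?_⟩
  · intro e he
    exact w.valuation_le_one (⟨e, he⟩ : 𝓑)
  · intro n b hb hb0
    have h1 : φ b ∈ Q' ^ n := by
      have h2 : (Q.map φ) ^ n ≤ Q' ^ n :=
        Ideal.pow_right_mono (Ideal.map_le_iff_le_comap.2 hQ'.ge) n
      apply h2
      rw [← Ideal.map_pow]
      exact Ideal.mem_map_of_mem φ hb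
    rw [FF.ord_ofHeightOneSpectrum, ← hφ, HeightOneSpectrum.valuation_of_algebraMap]
    have h3 : w.intValuation (φ b) ≤ WithZero.exp (-(n : ℤ)) :=
      (w.intValuation_le_pow_iff_mem _ _).2 h1
    have h4 : w.intValuation (φ b) ≠ 0 :=
      w.intValuation_ne_zero _ fun h => hb0 (hφinj (h.trans (map_zero φ).symm))
    have h5 := (WithZero.log_le_log h4 WithZero.exp_ne_zero).2 h3
    rw [WithZero.log_exp] at h5
    omega

end Poly

section Adjoin

variable {Kb E : Type*} [Field Kb] [Field E] [Algebra Kb E] [CharZero Kb]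

/-- a nonzero prime of a ring `B0 ⊆ E`, integral over `Kb[y]` and over which the integral closure
of `Kb[y]` is integral, lies under a place of `E / Kb` at which `y` is finite. -/
theorem exists_place_over (y : E) (hy : Transcendental Kb y) [FiniteDimensional Kb⟮y⟯ E]
    {B0 : Type*} [CommRing B0] (ψ : B0 →+* E) (hψ : Function.Injective ψ)
    (hint : ∀ b, ((aeval y : Kb[X] →ₐ[Kb] E) : Kb[X] →+* E).IsIntegralElem (ψ b))
    (hint' : ∀ e : E, ((aeval y : Kb[X] →ₐ[Kb] E) : Kb[X] →+* E).IsIntegralElem e →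
      ψ.IsIntegralElem e)
    (Q : Ideal B0) [Q.IsPrime] (hQ : Q ≠ ⊥) :
    ∃ v : Place Kb E, y ∈ v.toValuationSubring ∧
      ∀ (n : ℕ) (b : B0), b ∈ Q ^ n → b ≠ 0 → (n : ℤ) ≤ v.ord (ψ b) := by
  letI a1 : Algebra Kb[X] E := (aeval y : Kb[X] →ₐ[Kb] E).toRingHom.toAlgebra
  let i : RatFunc Kb ≃+* Kb⟮y⟯ := (RatFunc.algEquivOfTranscendental y hy).toRingEquiv
  letI a2 : Algebra (RatFunc Kb) E := ((algebraMap Kb⟮y⟯ E).comp i.toRingHom).toAlgebra
  haveI t1 : IsScalarTower Kb[X] (RatFunc Kb) E := IsScalarTower.of_algebraMap_eq fun P => by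
    show aeval y P = ((RatFunc.algEquivOfTranscendental y hy (algebraMap _ _ P) : Kb⟮y⟯) : E)
    rw [RatFunc.algEquivOfTranscendental_algebraMap]
    have := aeval_algebraMap_apply E (AdjoinSimple.gen Kb y) P
    rw [AdjoinSimple.algebraMap_gen] at this
    exact this
  haveI t2 : IsScalarTower Kb Kb[X] E := IsScalarTower.of_algebraMap_eq fun a => by
    show algebraMap Kb E a = aeval y (C a)
    simp
  haveI fd : FiniteDimensional (RatFunc Kb) E :=
    Module.Finite.of_equiv_equiv i.symm (RingEquiv.refl E) (by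
      ext x
      show algebraMap Kb⟮y⟯ E (i (i.symm x)) = algebraMap Kb⟮y⟯ E x
      rw [RingEquiv.apply_symm_apply])
  obtain ⟨v, hv1, hv2⟩ := exists_place_over_aux (Kb := Kb) (E := E) ψ hψ hint hint' Q hQ
  refine ⟨v, hv1 y ?_, hv2⟩
  have : y = algebraMap Kb[X] E X := by
    show y = aeval y X
    simp
  rw [this]
  exact isIntegral_algebraMap

end Adjoin

section Descent

variable {K0 F0 : Type*} [Field K0] [CharZero K0] [Field F0] [Algebra K0[X] F0]
  {B : Type*} [CommRing B] [Algebra K0[X] B] [Algebra B F0] [IsScalarTower K0[X] B F0]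
  [IsIntegralClosure B K0[X] F0]
  {Kb E : Type*} [Field Kb] [Field E] [Algebra Kb E] [CharZero Kb] [IsAlgClosed Kb]

/-- `Kb[X]` is integral over `K0[X]` if `Kb` is integral over `K0`. -/
theorem mapRingHom_isIntegral (κ : K0 →+* Kb) (hκ : ∀ c : Kb, κ.IsIntegralElem c) :
    (mapRingHom κ).IsIntegral := by
  intro p
  induction p using Polynomial.induction_on' with
  | add p q hp hq => exact RingHom.IsIntegralElem.add _ hp hq
  | monomial n a =>
    rw [← C_mul_X_pow_eq_monomial]
    refine RingHom.IsIntegralElem.mul _ ?_ ?_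
    · obtain ⟨q, hq, hq0⟩ := hκ a
      refine ⟨q.map C, hq.map C, ?_⟩
      rw [eval₂_map]
      have : (mapRingHom κ).comp C = (C : Kb →+* Kb[X]).comp κ := by
        ext x : 1
        simp
      rw [this, ← hom_eval₂, hq0, map_zero]
    · have : (X : Kb[X]) ^ n = mapRingHom κ (X ^ n) := by simp
      rw [this]
      exact (mapRingHom κ).isIntegralElem_map

/-- **(U) descends**: if all places of `E / Kb` over the points `y = a`, `g(a) ≠ 0`, are unramified
over the `y`-line, then all primes of the integral closure of `K0[x]` in `F0 ⊆ E` not containing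
`g(x)` are unramified over `K0[x]`. -/
theorem not_sq_dvd (κ : K0 →+* Kb) (hκ : ∀ c : Kb, κ.IsIntegralElem c) (ι : F0 →+* E)
    (y : E) (hy : Transcendental Kb y) [FiniteDimensional Kb⟮y⟯ E]
    (hC : ∀ a : K0, ι (algebraMap K0[X] F0 (C a)) = algebraMap Kb E (κ a))
    (hX : ι (algebraMap K0[X] F0 X) = y) (g : K0[X])
    (hU : ∀ a : Kb, (g.map κ).eval a ≠ 0 → ∀ v : Place Kb E,
      0 < v.ord (y - algebraMap Kb E a) → v.ord (y - algebraMap Kb E a) = 1)
    (Q : Ideal B) (hQp : Q.IsPrime) (hQ : Q ≠ ⊥) (hgQ : algebraMap K0[X] B g ∉ Q) :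
    ¬ Q ^ 2 ∣ (Q.comap (algebraMap K0[X] B)).map (algebraMap K0[X] B) := by
  intro hdvd
  let α : Kb[X] →+* E := ((aeval y : Kb[X] →ₐ[Kb] E) : Kb[X] →+* E)
  let ψ : B →+* E := ι.comp (algebraMap B F0)
  have hψ : Function.Injective ψ :=
    ι.injective.comp (IsIntegralClosure.algebraMap_injective B K0[X] F0)
  have hcomp : α.comp (mapRingHom κ) = ψ.comp (algebraMap K0[X] B) := by
    apply Polynomial.ringHom_ext
    · intro a
      show aeval y (map κ (C a)) = ι (algebraMap B F0 (algebraMap K0[X] B (C a)))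
      rw [← IsScalarTower.algebraMap_apply, hC, map_C, aeval_C]
    · show aeval y (map κ X) = ι (algebraMap B F0 (algebraMap K0[X] B X))
      rw [← IsScalarTower.algebraMap_apply, hX, map_X, aeval_X]
  have hcomp' : ∀ P : K0[X], ψ (algebraMap K0[X] B P) = aeval y (P.map κ) := fun P =>
    (congrArg (fun f : K0[X] →+* E => f P) hcomp).symm
  have hint : ∀ b, α.IsIntegralElem (ψ b) := by
    intro b
    obtain ⟨p, hp, hp0⟩ := IsIntegralClosure.isIntegral K0[X] F0 b
    refine ⟨p.map (mapRingHom κ), hp.map _, ?_⟩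
    rw [eval₂_map, hcomp, ← hom_eval₂, hp0, map_zero]
  have hint' : ∀ e : E, α.IsIntegralElem e → ψ.IsIntegralElem e := by
    intro e he
    have h1 : (α.comp (mapRingHom κ)).IsIntegralElem e := by
      letI : Algebra K0[X] Kb[X] := (mapRingHom κ).toAlgebra
      letI : Algebra Kb[X] E := α.toAlgebra
      letI : Algebra K0[X] E := (α.comp (mapRingHom κ)).toAlgebra
      haveI : IsScalarTower K0[X] Kb[X] E := IsScalarTower.of_algebraMap_eq fun _ => rfl
      haveI : Algebra.IsIntegral K0[X] Kb[X] := ⟨mapRingHom_isIntegral κ hκ⟩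
      exact isIntegral_trans (R := K0[X]) (A := Kb[X]) e he
    rw [hcomp] at h1
    exact RingHom.IsIntegralElem.of_comp h1
  obtain ⟨v, hyv, hv⟩ := exists_place_over y hy ψ hψ hint hint' Q hQ
  haveI : IsDomain B := (IsIntegralClosure.algebraMap_injective B K0[X] F0).isDomain _
  haveI : Algebra.IsIntegral K0[X] B := IsIntegralClosure.isIntegral_algebra K0[X] F0
  set 𝔭 : Ideal K0[X] := Q.comap (algebraMap K0[X] B) with h𝔭
  haveI : 𝔭.IsPrime := Ideal.comap_isPrime _ _
  have h𝔭0 : 𝔭 ≠ ⊥ := Ideal.IsIntegral.comap_ne_bot K0[X] hQ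
  set P := Submodule.IsPrincipal.generator 𝔭 with hPdef
  have hPmem : P ∈ 𝔭 := Submodule.IsPrincipal.generator_mem 𝔭
  have hPprime : Prime P := Submodule.IsPrincipal.prime_generator_of_isPrime 𝔭 h𝔭0
  have hPirr : Irreducible P := hPprime.irreducible
  have hPsep : P.Separable := hPirr.separable
  have hPb0 : P.map κ ≠ 0 := (Polynomial.map_ne_zero_iff κ.injective).2 hPprime.ne_zero
  have hb0 : algebraMap K0[X] B P ≠ 0 := by
    intro h
    have := hcomp' P
    rw [h, map_zero] at this
    exact (transcendental_iff.1 hy _ this.symm |> hPb0)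
  have h2 : (2 : ℤ) ≤ v.ord (aeval y (P.map κ)) := by
    rw [← hcomp']
    exact_mod_cast hv 2 _ (Ideal.le_of_dvd hdvd (Ideal.mem_map_of_mem _ hPmem)) hb0
  obtain ⟨a, ha⟩ := Place.exists_sub_ord_pos y hy v (FF.ord_nonneg_of_mem v hyv)
  have hroot : (P.map κ).IsRoot a := by
    by_contra hne
    have := (ord_aeval_of_eval_ne_zero v y a ha (P.map κ) hne).2
    omega
  have hroot' : eval a (P.map κ) = 0 := hroot
  have hder : (P.map κ).derivative.eval a ≠ 0 := by
    obtain ⟨u, w, huw⟩ := hPsep.map (f := κ)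
    intro h0
    have := congrArg (eval a) huw
    rw [eval_add, eval_mul, eval_mul, hroot', h0, mul_zero, mul_zero, add_zero, eval_one] at this
    exact zero_ne_one this
  have hga : (g.map κ).eval a ≠ 0 := by
    intro h0
    rcases hPirr.isCoprime_or_dvd g with ⟨u, w, huw⟩ | hdvdg
    · have := congrArg (fun p => eval a (p.map κ)) huw
      simp only [Polynomial.map_add, Polynomial.map_mul, eval_add, eval_mul, hroot', h0,
        mul_zero, add_zero, Polynomial.map_one, eval_one] at this
      exact zero_ne_one this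
    · apply hgQ
      have : g ∈ 𝔭 := Ideal.mem_of_dvd 𝔭 hdvdg hPmem
      exact this
  rw [ord_aeval_eq v y a ha _ hroot hder, hU a hga v ha] at h2
  omega

end Descent

end

end Fermat.Agent.ES.UDesc
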