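import Fermat.Agent.ES.T23Laurent
import Fermat.Agent.ES.UDesc
import Fermat.Agent.S24.Degree
import Fermat.Agent.S24.Loc4

/-!
# ES : (U) at the places of `FF N` for the coordinates `t₂`, `t₃`

`t₂` is unramified outside `{0, -64, ∞}` and `t₃` outside `{0, -27, ∞}`.
-/

set_option autoImplicit false
set_option linter.unusedSectionVars false
set_option synthInstance.maxHeartbeats 400000

namespace Fermat.Agent.ES.T23

open Polynomial AlgebraicCurve IntermediateField ModularCurve Fermat.Agent.S24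

noncomputable section

variable {N : ℕ} [NeZero N]

local notation "κ" => algebraMap Kb (FF N)

lemma ord_sub_of_ne (v : Place Kb (FF N)) (t : FF N) (c d : Kb)
    (hv : 0 < v.ord (t - κ c)) (hcd : c ≠ d) : t - κ d ≠ 0 ∧ v.ord (t - κ d) = 0 := by
  have := UDesc.ord_aeval_of_eval_ne_zero v t c hv (X - C d) (by simpa [sub_ne_zero] using hcd)
  simpa using this

lemma ne_zero_of_ord_pos (v : Place Kb (FF N)) {x : FF N} (hv : 0 < v.ord x) : x ≠ 0 := by
  intro h
  rw [h, Place.ord_zero] at hv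
  exact lt_irrefl _ hv

/-- the order of `j - j₀` in terms of the order of `t - c`. -/
lemma ord_jF_sub_eq_mul (v : Place Kb (FF N)) (t : FF N) (c j₀ : Kb) (hv : 0 < v.ord (t - κ c))
    (e : ℕ) (q h : FF N) (hq : q ≠ 0 ∧ v.ord q = 0) (hh : h ≠ 0 ∧ v.ord h = 0)
    (hrel : (jF N - κ j₀) * q = (t - κ c) ^ e * h) :
    v.ord (jF N - κ j₀) = e * v.ord (t - κ c) := by
  have ht0 := ne_zero_of_ord_pos v hv
  have hj0 : jF N - κ j₀ ≠ 0 := by
    intro h0
    rw [h0, zero_mul] at hrel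
    exact mul_ne_zero (pow_ne_zero e ht0) hh.1 hrel.symm
  have := congrArg v.ord hrel
  rw [Place.ord_mul v hj0 hq.1, Place.ord_mul v (pow_ne_zero e ht0) hh.1, hq.2, hh.2,
    FF.ord_pow] at this
  linarith

lemma eq_one_of_mul_dvd {e : ℕ} {x : ℤ} (he : 0 < e) (hx : 0 < x) (h : (e : ℤ) * x ∣ (e : ℤ)) :
    x = 1 := by
  have h1 : (e : ℤ) * x ≤ e := Int.le_of_dvd (by exact_mod_cast he) h
  have h2 : (0 : ℤ) < e := by exact_mod_cast he
  nlinarith

theorem ord_jF_dvd_three (v : Place Kb (FF N)) (hv : 0 < v.ord (jF N - κ 0)) :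
    v.ord (jF N - κ 0) ∣ ((3 : ℕ) : ℤ) :=
  Loc.interior_ord_dvd N (finrank_FF N) 0 rho (by rw [jfun_rho, map_zero]) 3 (by norm_num)
    analyticOrderAt_jfun_rho v hv

theorem ord_jF_sub_dvd_two (v : Place Kb (FF N)) (hv : 0 < v.ord (jF N - κ 1728)) :
    v.ord (jF N - κ 1728) ∣ ((2 : ℕ) : ℤ) :=
  Loc.interior_ord_dvd N (finrank_FF N) 1728 UpperHalfPlane.I (by rw [jfun_I, map_ofNat]) 2
    (by norm_num) analyticOrderAt_jfun_I v hv

/-- special fibres: ramification index `e` of `t ↦ j` equal to the bound. -/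
lemma ord_eq_one_of_dvd (v : Place Kb (FF N)) (t : FF N) (c j₀ : Kb) (hv : 0 < v.ord (t - κ c))
    (e : ℕ) (he : 0 < e) (q h : FF N) (hq : q ≠ 0 ∧ v.ord q = 0) (hh : h ≠ 0 ∧ v.ord h = 0)
    (hrel : (jF N - κ j₀) * q = (t - κ c) ^ e * h)
    (hdvd : 0 < v.ord (jF N - κ j₀) → v.ord (jF N - κ j₀) ∣ (e : ℤ)) :
    v.ord (t - κ c) = 1 := by
  have h1 := ord_jF_sub_eq_mul v t c j₀ hv e q h hq hh hrel
  have h2 : 0 < v.ord (jF N - κ j₀) := by
    rw [h1]
    exact mul_pos (by exact_mod_cast he) hv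
  have h3 := hdvd h2
  rw [h1] at h3
  exact eq_one_of_mul_dvd he hv h3

/-- generic fibres. -/
lemma ord_eq_one_of_generic (v : Place Kb (FF N)) (t : FF N) (c : Kb) (hv : 0 < v.ord (t - κ c))
    (P Q : Kb[X]) (hrel : jF N * aeval t Q = aeval t P) (hQ : Q.eval c ≠ 0)
    (h0 : P.eval c ≠ 0) (h1 : P.eval c ≠ 1728 * Q.eval c) :
    v.ord (t - κ c) = 1 := by
  set j₀ : Kb := P.eval c / Q.eval c with hj₀
  have hq := UDesc.ord_aeval_of_eval_ne_zero v t c hv Q hQ
  set G : Kb[X] := P - C j₀ * Q with hG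
  have hGt : (jF N - κ j₀) * aeval t Q = aeval t G := by
    rw [hG, map_sub, map_mul, aeval_C, ← hrel]
    ring
  have hjne : jF N - κ j₀ ≠ 0 := fun h =>
    FF.transcendental_sub_const (transcendental_jF N) j₀ (h ▸ isAlgebraic_zero)
  have hG0 : G ≠ 0 := by
    intro h
    rw [h, map_zero] at hGt
    exact mul_ne_zero hjne hq.1 hGt
  have hGc : G.IsRoot c := by
    rw [IsRoot.def, hG, eval_sub, eval_mul, eval_C, hj₀, div_mul_cancel₀ _ hQ, sub_self]
  obtain ⟨H, hH, hHd⟩ := exists_eq_pow_rootMultiplicity_mul_and_not_dvd G hG0 c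
  set e := rootMultiplicity c G with he
  have hepos : 0 < e := (rootMultiplicity_pos hG0).2 hGc
  have hHc : H.eval c ≠ 0 := fun h => hHd (dvd_iff_isRoot.2 h)
  have hh := UDesc.ord_aeval_of_eval_ne_zero v t c hv H hHc
  have hrel' : (jF N - κ j₀) * aeval t Q = (t - κ c) ^ e * aeval t H := by
    rw [hGt, hH, map_mul, map_pow, map_sub, aeval_X, aeval_C]
  have k1 := ord_jF_sub_eq_mul v t c j₀ hv e _ _ hq hh hrel'
  have k2 : 0 < v.ord (jF N - κ j₀) := by
    rw [k1]
    exact mul_pos (by exact_mod_cast hepos) hv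
  have hj0 : j₀ ≠ 0 := div_ne_zero h0 hQ
  have hj1 : j₀ ≠ 1728 := by
    rw [hj₀, Ne, div_eq_iff hQ]
    exact h1
  have k3 := Loc.ord_jF_sub_eq_one N (finrank_FF N) j₀ hj0 hj1 v k2
  rw [k1] at k3
  exact Int.eq_one_of_mul_eq_one_left hv.le k3

lemma unit_pow (v : Place Kb (FF N)) {x : FF N} (hx : x ≠ 0 ∧ v.ord x = 0) (n : ℕ) :
    x ^ n ≠ 0 ∧ v.ord (x ^ n) = 0 :=
  ⟨pow_ne_zero n hx.1, by rw [FF.ord_pow, hx.2, mul_zero]⟩

/-- **(U) for `t₂`**: unramified outside `{0, -64, ∞}`. -/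
theorem unram_t2 (t : FF N) (hrel : jF N * t ^ 2 = (t + 256) ^ 3) (c : Kb) (hc0 : c ≠ 0)
    (hc1 : c ≠ -64) (v : Place Kb (FF N)) (hv : 0 < v.ord (t - κ c)) : v.ord (t - κ c) = 1 := by
  have ht := ord_sub_of_ne v t c 0 hv hc0
  rw [map_zero, sub_zero] at ht
  by_cases h256 : c = -256
  · subst h256
    refine ord_eq_one_of_dvd v t (-256) 0 hv 3 (by norm_num) (t ^ 2) 1 (unit_pow v ht 2)
      ⟨one_ne_zero, Place.ord_one v⟩ ?_ (ord_jF_dvd_three v)
    rw [map_zero, sub_zero, hrel, map_neg, map_ofNat]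
    ring
  by_cases h512 : c = 512
  · subst h512
    refine ord_eq_one_of_dvd v t 512 1728 hv 2 (by norm_num) (t ^ 2) (t - κ (-64))
      (unit_pow v ht 2) (ord_sub_of_ne v t 512 (-64) hv (by norm_num)) ?_ (ord_jF_sub_dvd_two v)
    rw [map_neg, map_ofNat, map_ofNat, map_ofNat]
    linear_combination hrel
  refine ord_eq_one_of_generic v t c hv ((X + C 256) ^ 3) (X ^ 2) ?_ ?_ ?_ ?_
  · rw [map_pow, map_pow, map_add, aeval_X, aeval_C, map_ofNat]
    exact hrel
  · simpa using hc0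
  · simp only [eval_pow, eval_add, eval_X, eval_C]
    refine pow_ne_zero 3 fun h => h256 ?_
    linear_combination h
  · simp only [eval_pow, eval_add, eval_X, eval_C]
    intro h
    have h2 : (c - 512) ^ 2 * (c + 64) = 0 := by linear_combination h
    rcases mul_eq_zero.1 h2 with h3 | h3
    · exact h512 (by linear_combination pow_eq_zero_iff (two_ne_zero) |>.1 h3)
    · exact hc1 (by linear_combination h3)

/-- **(U) for `t₃`**: unramified outside `{0, -27, ∞}`. -/
theorem unram_t3 (t : FF N) (hrel : jF N * t ^ 3 = (t + 27) * (t + 243) ^ 3) (c : Kb) (hc0 : c ≠ 0)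
    (hc1 : c ≠ -27) (v : Place Kb (FF N)) (hv : 0 < v.ord (t - κ c)) : v.ord (t - κ c) = 1 := by
  have ht := ord_sub_of_ne v t c 0 hv hc0
  rw [map_zero, sub_zero] at ht
  by_cases h243 : c = -243
  · subst h243
    refine ord_eq_one_of_dvd v t (-243) 0 hv 3 (by norm_num) (t ^ 3) (t - κ (-27))
      (unit_pow v ht 3) (ord_sub_of_ne v t (-243) (-27) hv (by norm_num)) ?_ (ord_jF_dvd_three v)
    rw [map_zero, sub_zero, hrel, map_neg, map_neg, map_ofNat, map_ofNat]
    ring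
  by_cases hq : c ^ 2 - 486 * c - 19683 = 0
  · have hne : c ≠ 486 - c := by
      intro h
      have h2 : c = 243 := by linear_combination (1 / 2 : Kb) * h
      rw [h2] at hq
      norm_num at hq
    refine ord_eq_one_of_dvd v t c 1728 hv 2 (by norm_num) (t ^ 3) ((t - κ (486 - c)) ^ 2)
      (unit_pow v ht 3) (unit_pow v (ord_sub_of_ne v t c (486 - c) hv hne) 2) ?_
      (ord_jF_sub_dvd_two v)
    have hq' : κ c ^ 2 - 486 * κ c - 19683 = 0 := by
      have := congrArg κ hq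
      simpa only [map_sub, map_mul, map_pow, map_ofNat, map_zero] using this
    rw [map_sub, map_ofNat, map_ofNat]
    have e1 : (t - κ c) * (t - (486 - κ c)) = t ^ 2 - 486 * t - 19683 := by
      linear_combination -hq'
    calc (jF N - 1728) * t ^ 3 = (t ^ 2 - 486 * t - 19683) ^ 2 := by linear_combination hrel
      _ = (t - κ c) ^ 2 * (t - (486 - κ c)) ^ 2 := by rw [← e1]; ring
  refine ord_eq_one_of_generic v t c hv ((X + C 27) * (X + C 243) ^ 3) (X ^ 3) ?_ ?_ ?_ ?_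
  · rw [map_pow, map_mul, map_pow, map_add, map_add, aeval_X, aeval_C, aeval_C, map_ofNat,
      map_ofNat]
    exact hrel
  · simpa using hc0
  · simp only [eval_pow, eval_mul, eval_add, eval_X, eval_C]
    refine mul_ne_zero (fun h => hc1 ?_) (pow_ne_zero 3 fun h => h243 ?_)
    · linear_combination h
    · linear_combination h
  · simp only [eval_pow, eval_mul, eval_add, eval_X, eval_C]
    intro h
    have h2 : (c ^ 2 - 486 * c - 19683) ^ 2 = 0 := by linear_combination h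
    exact hq (pow_eq_zero_iff (two_ne_zero) |>.1 h2)

end

end Fermat.Agent.ES.T23
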