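import Fermat.Agent.ES.T23Coord
import Fermat.Agent.ES.T23Mem
import Fermat.Agent.ES.T23Ram

/-!
# ES, block INJ : the coordinates `t₂` (for `ℓ = 3`) and `t₃` (for `ℓ = 2`)
-/

set_option autoImplicit false

namespace Fermat.Agent.ES.Inst

open ModularCurve AlgebraicCurve Fermat.Agent.S24 Fermat.Agent.ES.T23

/-- **HAUPT**: the coordinate `t₂` on `X₀(N)`, `2 ∣ N`. -/
theorem exists_t2Coord (N : ℕ) [NeZero N] (h2 : 2 ∣ N) : ∃ Z : ZCoord N 3, Z.Unram := by
  refine ⟨zCoord2 N (tR_two_mem N h2), ?_⟩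
  intro c hc0 hc1 v hv
  refine unram_t2 _ ?_ c hc0 ?_ v hv
  · apply Subtype.ext
    have := jq_mul_tR2_sq Kb
    rw [← coe_jF' N] at this
    exact this
  · intro h
    apply hc1
    rw [h]
    simp [zCoord2]

/-- **HAUPT**: the coordinate `t₃` on `X₀(N)`, `3 ∣ N`. -/
theorem exists_t3Coord (N : ℕ) [NeZero N] (h3 : 3 ∣ N) : ∃ Z : ZCoord N 2, Z.Unram := by
  refine ⟨zCoord3 N (tR_three_mem N h3), ?_⟩
  intro c hc0 hc1 v hv
  refine unram_t3 _ ?_ c hc0 ?_ v hv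
  · apply Subtype.ext
    have := jq_mul_tR3_cube Kb
    rw [← coe_jF' N] at this
    exact this
  · intro h
    apply hc1
    rw [h]
    simp [zCoord3]

end Fermat.Agent.ES.Inst
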