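import Fermat.Agent.ES.HauptCoord

/-!
# ES : the coordinates `t₂`, `t₃` as `ZCoord N ℓ` for EVERY prime `ℓ ≠ 2` (resp. `ℓ ≠ 3`)
-/

set_option autoImplicit false

namespace Fermat.Agent.ES.T23

open ModularCurve AlgebraicCurve Fermat.Agent.S24 Fermat.Agent.ES.Inst Fermat.Agent.ES.QE

lemma not_dvd_pow_of_ne {ℓ r : ℕ} (hℓ : ℓ.Prime) (hr : r.Prime) (h : ℓ ≠ r) (k : ℕ) :
    ¬ (ℓ : ℤ) ∣ -((r : ℤ) ^ k) := by
  rw [Int.dvd_neg]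
  intro hd
  have h1 : ℓ ∣ r ^ k := by exact_mod_cast hd
  exact h ((Nat.prime_dvd_prime_iff_eq hℓ hr).1 (hℓ.dvd_of_dvd_pow h1))

open Polynomial in
/-- the coordinate `t₂` for any prime `ℓ ≠ 2` -/
noncomputable def zCoord2L (N ℓ : ℕ) (hℓ : ℓ.Prime) (hℓ2 : ℓ ≠ 2)
    (hmem : tR Kb 2 ∈ modularFunctionFieldBar N) : ZCoord N ℓ where
  xZ := tq 2
  yZ := tqInv 2
  mul_eq := tq_mul_tqInv (by norm_num)
  coeff_neg_one := coeff_tq_neg_one 2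
  coeff_of_lt := coeff_tq_of_lt 2
  P := (X + C 256) ^ 3
  Q := X ^ 2
  rel := rel_t2
  Q_prim := by
    have : Fact ℓ.Prime := ⟨hℓ⟩
    rw [Polynomial.map_pow, Polynomial.map_X]
    exact pow_ne_zero _ X_ne_zero
  mem := hmem
  a := -64
  a_prim := by
    have := not_dvd_pow_of_ne hℓ Nat.prime_two hℓ2 6
    norm_num at this ⊢
    exact this

open Polynomial in
/-- the coordinate `t₃` for any prime `ℓ ≠ 3` -/
noncomputable def zCoord3L (N ℓ : ℕ) (hℓ : ℓ.Prime) (hℓ3 : ℓ ≠ 3)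
    (hmem : tR Kb 3 ∈ modularFunctionFieldBar N) : ZCoord N ℓ where
  xZ := tq 3
  yZ := tqInv 3
  mul_eq := tq_mul_tqInv (by norm_num)
  coeff_neg_one := coeff_tq_neg_one 3
  coeff_of_lt := coeff_tq_of_lt 3
  P := (X + C 27) * (X + C 243) ^ 3
  Q := X ^ 3
  rel := rel_t3
  Q_prim := by
    have : Fact ℓ.Prime := ⟨hℓ⟩
    rw [Polynomial.map_pow, Polynomial.map_X]
    exact pow_ne_zero _ X_ne_zero
  mem := hmem
  a := -27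
  a_prim := by
    have := not_dvd_pow_of_ne hℓ Nat.prime_three hℓ3 3
    norm_num at this ⊢
    exact this

/-- `t₂` as an element of `FF N`, `2 ∣ N` -/
noncomputable def t2F (N : ℕ) [NeZero N] (h2 : 2 ∣ N) : FF N := ⟨tR Kb 2, tR_two_mem N h2⟩

/-- `t₃` as an element of `FF N`, `3 ∣ N` -/
noncomputable def t3F (N : ℕ) [NeZero N] (h3 : 3 ∣ N) : FF N := ⟨tR Kb 3, tR_three_mem N h3⟩

theorem jF_mul_t2F (N : ℕ) [NeZero N] (h2 : 2 ∣ N) :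
    jF N * t2F N h2 ^ 2 = (t2F N h2 + 256) ^ 3 := by
  apply Subtype.ext
  have := jq_mul_tR2_sq Kb
  rw [← coe_jF' N] at this
  exact this

theorem jF_mul_t3F (N : ℕ) [NeZero N] (h3 : 3 ∣ N) :
    jF N * t3F N h3 ^ 3 = (t3F N h3 + 27) * (t3F N h3 + 243) ^ 3 := by
  apply Subtype.ext
  have := jq_mul_tR3_cube Kb
  rw [← coe_jF' N] at this
  exact this

theorem zCoord2L_xF (N ℓ : ℕ) [NeZero N] (h2 : 2 ∣ N) (hℓ : ℓ.Prime) (hℓ2 : ℓ ≠ 2) :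
    (zCoord2L N ℓ hℓ hℓ2 (tR_two_mem N h2)).xF = t2F N h2 := rfl

theorem zCoord3L_xF (N ℓ : ℕ) [NeZero N] (h3 : 3 ∣ N) (hℓ : ℓ.Prime) (hℓ3 : ℓ ≠ 3) :
    (zCoord3L N ℓ hℓ hℓ3 (tR_three_mem N h3)).xF = t3F N h3 := rfl

theorem zCoord2L_unram (N ℓ : ℕ) [NeZero N] (h2 : 2 ∣ N) (hℓ : ℓ.Prime) (hℓ2 : ℓ ≠ 2) :
    (zCoord2L N ℓ hℓ hℓ2 (tR_two_mem N h2)).Unram := by
  intro c hc0 hc1 v hv
  refine unram_t2 _ (jF_mul_t2F N h2) c hc0 ?_ v hv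
  intro h
  apply hc1
  rw [h]
  simp [zCoord2L]

theorem zCoord3L_unram (N ℓ : ℕ) [NeZero N] (h3 : 3 ∣ N) (hℓ : ℓ.Prime) (hℓ3 : ℓ ≠ 3) :
    (zCoord3L N ℓ hℓ hℓ3 (tR_three_mem N h3)).Unram := by
  intro c hc0 hc1 v hv
  refine unram_t3 _ (jF_mul_t3F N h3) c hc0 ?_ v hv
  intro h
  apply hc1
  rw [h]
  simp [zCoord3L]

end Fermat.Agent.ES.T23
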