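import Fermat.Agent.S24.Degree
import Fermat.Agent.S24.Loc4

/-!
# ES, block HAUPT : unramifiedness over the `t`-line

For `t ∈ FF N` with `j t² = (t + 256)³` (resp. `j t³ = (t + 27) (t + 243)³`), the function
`t - c` has at most simple zeros for `c ∉ {0, -64}` (resp. `c ∉ {0, -27}`).
-/

set_option autoImplicit false

namespace Fermat.Agent.ES.Haupt

open Polynomial AlgebraicCurve IntermediateField Fermat.Agent.S24

noncomputable section

section general

variable {K F : Type*} [Field K] [Field F] [Algebra K F]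

/-- a polynomial in `t` which does not vanish at `c = t(v)` is a unit at `v` -/
theorem ord_aeval_eq_zero (v : Place K F) (t : F) (c : K)
    (hv : 0 < v.ord (t - algebraMap K F c)) (r : K[X]) (hr : r.eval c ≠ 0) :
    v.ord (aeval t r) = 0 := by
  obtain ⟨s, hs⟩ := X_sub_C_dvd_sub_C_eval (a := c) (p := r)
  have e : aeval t r = algebraMap K F (r.eval c) + (t - algebraMap K F c) * aeval t s := by
    have h := congrArg (aeval t) hs
    simp only [map_sub, map_mul, aeval_X, aeval_C] at h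
    linear_combination h
  have hA0 : algebraMap K F (r.eval c) ≠ 0 := by simpa using hr
  have hne : t - algebraMap K F c ≠ 0 := by
    intro h0
    rw [h0, Place.ord_zero] at hv
    exact lt_irrefl _ hv
  by_cases h0 : aeval t s = 0
  · rw [e, h0, mul_zero, add_zero, FF.ord_algebraMap]
  have ht : t ∈ v.toValuationSubring := by
    have e2 : t = algebraMap K F c + (t - algebraMap K F c) := by ring
    rw [e2]
    exact v.toValuationSubring.add_mem _ _ (v.algebraMap_mem' c)
      ((FF.mem_iff_ord_nonneg v hne).2 hv.le)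
  have h1 : 0 ≤ v.ord (aeval t s) := FF.ord_nonneg_of_mem v (FF.aeval_mem v ht s)
  rw [e, Place.ord_add_eq_of_lt v hA0, FF.ord_algebraMap]
  rw [FF.ord_algebraMap, Place.ord_mul v hne h0]
  omega

/-- the local computation: `(x - x₀) s(t) = (t - c)^e r(t)`, `r(c), s(c) ≠ 0`,
`ord_v (x - x₀) ∣ e` ⟹ `ord_v (t - c) = 1`. -/
theorem ord_eq_one_of_rel (v : Place K F) (x t : F) (x₀ c : K) (e : ℕ) (he : 0 < e)
    (r s : K[X]) (hr : r.eval c ≠ 0) (hs : s.eval c ≠ 0)
    (hrel : (x - algebraMap K F x₀) * aeval t s = (t - algebraMap K F c) ^ e * aeval t r)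
    (hdvd : 0 < v.ord (x - algebraMap K F x₀) → v.ord (x - algebraMap K F x₀) ∣ (e : ℤ))
    (hv : 0 < v.ord (t - algebraMap K F c)) : v.ord (t - algebraMap K F c) = 1 := by
  have hne : t - algebraMap K F c ≠ 0 := by
    intro h0
    rw [h0, Place.ord_zero] at hv
    exact lt_irrefl _ hv
  have h1 := ord_aeval_eq_zero v t c hv r hr
  have h2 := ord_aeval_eq_zero v t c hv s hs
  have hr0 : aeval t r ≠ 0 := by
    intro h0
    obtain ⟨s', hs'⟩ := X_sub_C_dvd_sub_C_eval (a := c) (p := r)
    have h := congrArg (aeval t) hs'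
    simp only [map_sub, map_mul, aeval_X, aeval_C, h0] at h
    -- `- r(c) = (t - c) * s'(t)` has positive order or is zero
    have hA0 : algebraMap K F (r.eval c) ≠ 0 := by simpa using hr
    have ht : t ∈ v.toValuationSubring := by
      have e2 : t = algebraMap K F c + (t - algebraMap K F c) := by ring
      rw [e2]
      exact v.toValuationSubring.add_mem _ _ (v.algebraMap_mem' c)
        ((FF.mem_iff_ord_nonneg v hne).2 hv.le)
    have hs0 : aeval t s' ≠ 0 := by
      intro h00
      rw [h00, mul_zero, zero_sub, neg_eq_zero] at h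
      exact hA0 h
    have h3 := congrArg v.ord h
    rw [zero_sub, FF.ord_neg, FF.ord_algebraMap, Place.ord_mul v hne hs0] at h3
    have h4 : 0 ≤ v.ord (aeval t s') := FF.ord_nonneg_of_mem v (FF.aeval_mem v ht s')
    omega
  have hs0 : aeval t s ≠ 0 := by
    intro h0
    rw [h0, mul_zero] at hrel
    exact (mul_ne_zero (pow_ne_zero e hne) hr0) hrel.symm
  have hx0 : x - algebraMap K F x₀ ≠ 0 := by
    intro h0
    rw [h0, zero_mul] at hrel
    exact (mul_ne_zero (pow_ne_zero e hne) hr0) hrel.symm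
  have h3 := congrArg v.ord hrel
  rw [Place.ord_mul v hx0 hs0, Place.ord_mul v (pow_ne_zero e hne) hr0, h1, h2, FF.ord_pow,
    add_zero, add_zero] at h3
  have he' : (0 : ℤ) < e := by exact_mod_cast he
  have h4 : 0 < v.ord (x - algebraMap K F x₀) := by
    rw [h3]
    positivity
  have h5 := hdvd h4
  rw [h3] at h5
  have h6 : v.ord (t - algebraMap K F c) ∣ 1 := by
    have : (e : ℤ) * v.ord (t - algebraMap K F c) ∣ (e : ℤ) * 1 := by rwa [mul_one]
    exact (mul_dvd_mul_iff_left he'.ne').1 this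
  exact Int.eq_one_of_dvd_one hv.le h6

end general

section concrete

variable (N : ℕ) [NeZero N]

theorem ord_j_dvd_one (a : Kb) (h0 : a ≠ 0) (h1 : a ≠ 1728) (v : Place Kb (FF N))
    (hv : 0 < v.ord (jF N - algebraMap Kb (FF N) a)) :
    v.ord (jF N - algebraMap Kb (FF N) a) ∣ ((1 : ℕ) : ℤ) := by
  rw [Loc.ord_jF_sub_eq_one N (finrank_FF N) a h0 h1 v hv]
  simp

theorem ord_j_dvd_three (v : Place Kb (FF N))
    (hv : 0 < v.ord (jF N - algebraMap Kb (FF N) 0)) :
    v.ord (jF N - algebraMap Kb (FF N) 0) ∣ ((3 : ℕ) : ℤ) :=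
  Loc.interior_ord_dvd N (finrank_FF N) 0 rho (by rw [jfun_rho, map_zero]) 3 (by norm_num)
    analyticOrderAt_jfun_rho v hv

theorem ord_j_dvd_two (v : Place Kb (FF N))
    (hv : 0 < v.ord (jF N - algebraMap Kb (FF N) 1728)) :
    v.ord (jF N - algebraMap Kb (FF N) 1728) ∣ ((2 : ℕ) : ℤ) :=
  Loc.interior_ord_dvd N (finrank_FF N) 1728 UpperHalfPlane.I (by rw [jfun_I, map_ofNat]) 2
    (by norm_num) analyticOrderAt_jfun_I v hv

/-- **(U) for `t₂`.** -/
theorem unram_t2 (t : FF N) (h : jF N * t ^ 2 = (t + 256) ^ 3) (c : Kb) (hc0 : c ≠ 0)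
    (hc1 : c ≠ -64) (v : Place Kb (FF N)) (hv : 0 < v.ord (t - algebraMap Kb (FF N) c)) :
    v.ord (t - algebraMap Kb (FF N) c) = 1 := by
  by_cases h256 : c = -256
  · subst h256
    refine ord_eq_one_of_rel v (jF N) t 0 (-256) 3 (by norm_num) 1 (X ^ 2) (by simp) (by simp) ?_
      (ord_j_dvd_three N v) hv
    simp only [map_zero, map_neg, map_ofNat, map_pow, aeval_X, map_one]
    linear_combination h
  by_cases h512 : c = 512
  · subst h512
    refine ord_eq_one_of_rel v (jF N) t 1728 512 2 (by norm_num) (X + C 64) (X ^ 2)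
      (by simp; norm_num) (by simp) ?_ (ord_j_dvd_two N v) hv
    simp only [map_ofNat, map_pow, aeval_X, map_add]
    linear_combination h
  have hc256 : c + 256 ≠ 0 := fun h0 => h256 (by linear_combination h0)
  have hc512 : c - 512 ≠ 0 := fun h0 => h512 (by linear_combination h0)
  have hc64 : c + 64 ≠ 0 := fun h0 => hc1 (by linear_combination h0)
  set x₀ : Kb := (c + 256) ^ 3 / c ^ 2 with hx₀
  have hx₀c : x₀ * c ^ 2 = (c + 256) ^ 3 := by
    rw [hx₀]
    field_simp
  have hx0 : x₀ ≠ 0 := div_ne_zero (pow_ne_zero _ hc256) (pow_ne_zero _ hc0)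
  have hx1 : x₀ ≠ 1728 := by
    intro h0
    rw [h0] at hx₀c
    have : (c + 64) * (c - 512) ^ 2 = 0 := by linear_combination -hx₀c
    exact (mul_ne_zero hc64 (pow_ne_zero _ hc512)) this
  refine ord_eq_one_of_rel v (jF N) t x₀ c 1 one_pos
    (C (c ^ 2) * X ^ 2 - C (65536 * (3 * c + 256)) * X - C (16777216 * c)) (C (c ^ 2) * X ^ 2)
    ?_ ?_ ?_ (ord_j_dvd_one N x₀ hx0 hx1 v) hv
  · have : (C (c ^ 2) * X ^ 2 - C (65536 * (3 * c + 256)) * X - C (16777216 * c) : Kb[X]).eval c
        = c * (c + 256) ^ 2 * (c - 512) := by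
      simp only [eval_sub, eval_mul, eval_C, eval_pow, eval_X]
      ring
    rw [this]
    exact mul_ne_zero (mul_ne_zero hc0 (pow_ne_zero _ hc256)) hc512
  · simp only [eval_mul, eval_C, eval_pow, eval_X]
    exact mul_ne_zero (pow_ne_zero _ hc0) (pow_ne_zero _ hc0)
  · have h2 := congrArg (algebraMap Kb (FF N)) hx₀c
    simp only [map_mul, map_pow, map_add, map_ofNat] at h2
    simp only [map_sub, map_mul, map_pow, aeval_X, aeval_C, map_add, map_ofNat, pow_one]
    linear_combination (algebraMap Kb (FF N) c) ^ 2 * h - t ^ 2 * h2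

/-- **(U) for `t₃`.** -/
theorem unram_t3 (t : FF N) (h : jF N * t ^ 3 = (t + 27) * (t + 243) ^ 3) (c : Kb) (hc0 : c ≠ 0)
    (hc1 : c ≠ -27) (v : Place Kb (FF N)) (hv : 0 < v.ord (t - algebraMap Kb (FF N) c)) :
    v.ord (t - algebraMap Kb (FF N) c) = 1 := by
  by_cases h243 : c = -243
  · subst h243
    refine ord_eq_one_of_rel v (jF N) t 0 (-243) 3 (by norm_num) (X + C 27) (X ^ 3)
      (by simp; norm_num) (by simp) ?_ (ord_j_dvd_three N v) hv
    simp only [map_zero, map_neg, map_ofNat, map_pow, aeval_X, map_add]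
    linear_combination h
  by_cases hq : c ^ 2 - 486 * c - 19683 = 0
  · refine ord_eq_one_of_rel v (jF N) t 1728 c 2 (by norm_num) ((X - C (486 - c)) ^ 2) (X ^ 3)
      ?_ ?_ ?_ (ord_j_dvd_two N v) hv
    · simp only [eval_pow, eval_sub, eval_X, eval_C]
      refine pow_ne_zero _ fun h0 => ?_
      have hc : c = 243 := by linear_combination h0 / 2
      rw [hc] at hq
      norm_num at hq
    · simp only [eval_pow, eval_X]
      exact pow_ne_zero _ hc0
    · have h2 := congrArg (algebraMap Kb (FF N)) hq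
      simp only [map_sub, map_mul, map_pow, map_ofNat, map_zero] at h2
      simp only [map_sub, map_pow, aeval_X, aeval_C, map_ofNat]
      linear_combination h + (2 * (t ^ 2 - 486 * t - 19683)
        - ((algebraMap Kb (FF N) c) ^ 2 - 486 * (algebraMap Kb (FF N) c) - 19683)) * h2
  have hc243 : c + 243 ≠ 0 := fun h0 => h243 (by linear_combination h0)
  have hc27 : c + 27 ≠ 0 := fun h0 => hc1 (by linear_combination h0)
  set x₀ : Kb := (c + 27) * (c + 243) ^ 3 / c ^ 3 with hx₀
  have hx₀c : x₀ * c ^ 3 = (c + 27) * (c + 243) ^ 3 := by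
    rw [hx₀]
    field_simp
  have hx0 : x₀ ≠ 0 := div_ne_zero (mul_ne_zero hc27 (pow_ne_zero _ hc243)) (pow_ne_zero _ hc0)
  have hx1 : x₀ ≠ 1728 := by
    intro h0
    rw [h0] at hx₀c
    have : (c ^ 2 - 486 * c - 19683) ^ 2 = 0 := by linear_combination -hx₀c
    exact (pow_ne_zero _ hq) this
  refine ord_eq_one_of_rel v (jF N) t x₀ c 1 one_pos
    (C (c ^ 3) * X ^ 3 - C (196830 * c ^ 2 + 19131876 * c + 387420489) * X ^ 2
      - C (19131876 * c ^ 2 + 387420489 * c) * X - C (387420489 * c ^ 2)) (C (c ^ 3) * X ^ 3)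
    ?_ ?_ ?_ (ord_j_dvd_one N x₀ hx0 hx1 v) hv
  · have : (C (c ^ 3) * X ^ 3 - C (196830 * c ^ 2 + 19131876 * c + 387420489) * X ^ 2
      - C (19131876 * c ^ 2 + 387420489 * c) * X - C (387420489 * c ^ 2) : Kb[X]).eval c
        = c ^ 2 * (c + 243) ^ 2 * (c ^ 2 - 486 * c - 19683) := by
      simp only [eval_sub, eval_mul, eval_C, eval_pow, eval_X]
      ring
    rw [this]
    exact mul_ne_zero (mul_ne_zero (pow_ne_zero _ hc0) (pow_ne_zero _ hc243)) hq
  · simp only [eval_mul, eval_C, eval_pow, eval_X]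
    exact mul_ne_zero (pow_ne_zero _ hc0) (pow_ne_zero _ hc0)
  · have h2 := congrArg (algebraMap Kb (FF N)) hx₀c
    simp only [map_mul, map_pow, map_add, map_ofNat] at h2
    simp only [map_sub, map_mul, map_pow, aeval_X, aeval_C, map_add, map_ofNat, pow_one]
    linear_combination (algebraMap Kb (FF N) c) ^ 3 * h - t ^ 3 * h2

end concrete

end

end Fermat.Agent.ES.Haupt
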