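import Fermat.Agent.ES.CuspJ
import Fermat.Agent.ES.T23Mem
import Fermat.Agent.ES.KEmb

/-!
# ES : the signs of the orders of `t_r(τ)` and `t_r(q τ)` at the cusps of `X₀(N)`
-/

set_option autoImplicit false

namespace Fermat.Agent.ES.CuspOrd

open UpperHalfPlane ModularForm CongruenceSubgroup ModularCurve AlgebraicCurve Filter Topology
open Fermat.Agent.S24 Fermat.Agent.S21 Fermat.Agent.ES Fermat.Agent.S23.Prim
open scoped MatrixGroups Manifold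

section general

variable (N : ℕ) [NeZero N]

lemma hol_ne_zero_of_tendsto (k : ℤ) (B : Hol) (δ : SL(2, ℤ)) {l : ℂ} (hl : l ≠ 0)
    (hlB : Tendsto (B.1 ∣[k] δ) atImInfty (𝓝 l)) : B ≠ 0 := by
  intro h0
  have h1 : B.1 = 0 := congrArg (Subtype.val : Hol → ℍ → ℂ) h0
  rw [h1, SlashAction.zero_slash] at hlB
  exact hl (tendsto_nhds_unique hlB tendsto_const_nhds)

/-- a quotient `B / A` with `A` vanishing at the cusp and `B` not has a pole -/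
theorem ord_cuspEmb_neg (k : ℤ) (A B : Hol) (hA : IsMF (Gamma0 N) k A.1)
    (hB : IsMF (Gamma0 N) k B.1) (x : FF N) (hx : Psi N x * toMer A = toMer B) (δ : SL(2, ℤ))
    (hlA : Tendsto (A.1 ∣[k] δ) atImInfty (𝓝 0)) {l : ℂ} (hl : l ≠ 0)
    (hlB : Tendsto (B.1 ∣[k] δ) atImInfty (𝓝 l)) : (cuspEmb N δ x).ord < 0 := by
  have hB0 : B ≠ 0 := hol_ne_zero_of_tendsto k B δ hl hlB
  have hA0 : A ≠ 0 := by
    intro h0
    apply TUnram.toMer_ne_zero hB0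
    rw [← hx, h0]
    unfold toMer
    rw [map_zero, mul_zero]
  rw [ord_cuspEmb N k B A hB hA hB0 hA0 x hx δ, cOrd_eq_zero N _ hlB hl]
  have := cOrd_pos N (slashNice N k A hA δ) (slashNice_ne_zero N k A hA δ hA0) hlA
  omega

/-- a quotient `B / A` with `B` vanishing at the cusp and `A` not has a zero -/
theorem ord_cuspEmb_pos (k : ℤ) (A B : Hol) (hA : IsMF (Gamma0 N) k A.1)
    (hB : IsMF (Gamma0 N) k B.1) (x : FF N) (hx0 : x ≠ 0) (hx : Psi N x * toMer A = toMer B)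
    (δ : SL(2, ℤ)) (hlB : Tendsto (B.1 ∣[k] δ) atImInfty (𝓝 0)) {l : ℂ} (hl : l ≠ 0)
    (hlA : Tendsto (A.1 ∣[k] δ) atImInfty (𝓝 l)) : 0 < (cuspEmb N δ x).ord := by
  have hA0 : A ≠ 0 := hol_ne_zero_of_tendsto k A δ hl hlA
  have hB0 : B ≠ 0 := by
    intro h0
    have h1 : Psi N x * toMer A = 0 := by
      rw [hx, h0]
      unfold toMer
      rw [map_zero]
    rcases mul_eq_zero.1 h1 with h2 | h2
    · exact hx0 ((map_eq_zero _).1 h2)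
    · exact TUnram.toMer_ne_zero hA0 h2
  rw [ord_cuspEmb N k B A hB hA hB0 hA0 x hx δ, cOrd_eq_zero N (slashNice N k A hA δ) hlA hl]
  have := cOrd_pos N (slashNice N k B hB δ) (slashNice_ne_zero N k B hB δ hB0) hlB
  omega

end general

/-! ### linear combinations of `E₄(e τ)` -/

open T23

/-- `E₄(e τ)` -/
noncomputable def VHol (e : ℕ) [NeZero e] : Hol := ⟨(Vn e).1, (Vn e).2.2.1⟩

/-- `c₁ E₄(e₁ τ) + c₂ E₄(e₂ τ)` -/
noncomputable def LV (c₁ c₂ : ℂ) (e₁ e₂ : ℕ) [NeZero e₁] [NeZero e₂] : Hol :=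
  c₁ • VHol e₁ + c₂ • VHol e₂

lemma LV_coe (c₁ c₂ : ℂ) (e₁ e₂ : ℕ) [NeZero e₁] [NeZero e₂] :
    (LV c₁ c₂ e₁ e₂).1 = c₁ • (Vn e₁).1 + c₂ • (Vn e₂).1 := rfl

lemma LV_apply (c₁ c₂ : ℂ) (e₁ e₂ : ℕ) [NeZero e₁] [NeZero e₂] (τ : ℍ) :
    (LV c₁ c₂ e₁ e₂).1 τ = c₁ * E₄ (Dm e₁ • τ) + c₂ * E₄ (Dm e₂ • τ) := rfl

lemma isMF_LV (N : ℕ) (c₁ c₂ : ℂ) (e₁ e₂ : ℕ) [NeZero e₁] [NeZero e₂] (h₁ : e₁ ∣ N)
    (h₂ : e₂ ∣ N) : IsMF (Gamma0 N) 4 (LV c₁ c₂ e₁ e₂).1 := by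
  rw [LV_coe]
  exact (((isMF_Vn e₁).mono (Gamma0_le_of_dvd h₁)).smul c₁).add
    (((isMF_Vn e₂).mono (Gamma0_le_of_dvd h₂)).smul c₂)

lemma tendsto_LV (c₁ c₂ : ℂ) (e₁ e₂ : ℕ) [NeZero e₁] [NeZero e₂] (δ : SL(2, ℤ)) :
    Tendsto ((LV c₁ c₂ e₁ e₂).1 ∣[(4 : ℤ)] δ) atImInfty
      (𝓝 (c₁ * ((cg e₁ δ : ℂ) / e₁) ^ 4 + c₂ * ((cg e₂ δ : ℂ) / e₂) ^ 4)) := by
  rw [LV_coe, SlashAction.add_slash, SL_smul_slash, SL_smul_slash]
  exact ((tendsto_Vn_slash e₁ δ).const_mul c₁).add ((tendsto_Vn_slash e₂ δ).const_mul c₂)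

/-- **the sign of `t_r(s τ)` at the cusp `δ ∞`** : here
`A = (E₄(sτ) - E₄(rsτ)) / 240`, `B = (r⁴ E₄(rsτ) - E₄(sτ)) / (r⁴ - 1)`. -/
theorem sign_of_psi (N r s e : ℕ) [NeZero N] [NeZero s] [NeZero e] (hr : r.Prime)
    (hrs : Nat.Coprime r s) (he : e = r * s) (hN : e ∣ N) (x : FF N) (hx0 : x ≠ 0)
    (hx : Psi N x * toMer (LV (1 / 240) (-(1 / 240)) s e)
      = toMer (LV ((r : ℂ) ^ 4 / ((r : ℂ) ^ 4 - 1)) (-(1 / ((r : ℂ) ^ 4 - 1))) e s))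
    (δ : SL(2, ℤ)) :
    ((r : ℤ) ∣ δ 1 0 → (cuspEmb N δ x).ord < 0) ∧ (¬ (r : ℤ) ∣ δ 1 0 → 0 < (cuspEmb N δ x).ord) := by
  have hsN : s ∣ N := (Dvd.intro_left r he.symm).trans hN
  have hA := isMF_LV N (1 / 240) (-(1 / 240)) s e hsN hN
  have hB := isMF_LV N ((r : ℂ) ^ 4 / ((r : ℂ) ^ 4 - 1)) (-(1 / ((r : ℂ) ^ 4 - 1))) e s hN hsN
  have hlA := tendsto_LV (1 / 240) (-(1 / 240)) s e δ
  have hlB := tendsto_LV ((r : ℂ) ^ 4 / ((r : ℂ) ^ 4 - 1)) (-(1 / ((r : ℂ) ^ 4 - 1))) e s δ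
  have hge : cg e δ = cg r δ * cg s δ := by rw [he]; exact cg_mul hrs δ
  have hs0 : (s : ℂ) ≠ 0 := by exact_mod_cast NeZero.ne s
  have hr0 : (r : ℂ) ≠ 0 := by exact_mod_cast hr.ne_zero
  have hg0 : (cg s δ : ℂ) ≠ 0 := by exact_mod_cast (cg_pos s δ).ne'
  have hr4 : (r : ℂ) ^ 4 - 1 ≠ 0 := by
    have h1 : (1 : ℝ) < (r : ℝ) := by exact_mod_cast hr.one_lt
    have h2 : (1 : ℝ) < (r : ℝ) ^ 4 := one_lt_pow₀ h1 (by norm_num)
    have h3 : ((r : ℝ) ^ 4 - 1 : ℝ) ≠ 0 := by linarith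
    exact_mod_cast h3
  have heC : (e : ℂ) = r * s := by rw [he]; push_cast; ring
  rw [hge, heC] at hlA hlB
  push_cast at hlA hlB
  constructor
  · intro hd
    have hg : cg r δ = r := by
      rcases cg_prime hr δ with h | h
      · exact h.1
      · exact absurd hd h.2
    rw [hg] at hlA hlB
    refine ord_cuspEmb_neg N 4 _ _ hA hB x hx δ ?_ (l := ((cg s δ : ℂ) / s) ^ 4)
      (pow_ne_zero _ (div_ne_zero hg0 hs0)) ?_
    · convert hlA using 2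
      field_simp
      ring
    · convert hlB using 2
      field_simp
      ring
  · intro hd
    have hg : cg r δ = 1 := by
      rcases cg_prime hr δ with h | h
      · exact absurd h.2 hd
      · exact h.1
    rw [hg] at hlA hlB
    refine ord_cuspEmb_pos N 4 _ _ hA hB x hx0 hx δ ?_
      (l := 1 / 240 * ((cg s δ : ℂ) / s) ^ 4 * (((r : ℂ) ^ 4 - 1) / (r : ℂ) ^ 4))
      (mul_ne_zero (mul_ne_zero (by norm_num) (pow_ne_zero _ (div_ne_zero hg0 hs0)))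
        (div_ne_zero hr4 (pow_ne_zero _ hr0))) ?_
    · convert hlB using 2
      field_simp
      ring
    · convert hlA using 2
      field_simp
      ring

end Fermat.Agent.ES.CuspOrd
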