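import Fermat.Agent.ES.HauptW2
import Fermat.Agent.ES.HauptL

/-!
# ES : comparison of `t_r(τ)` and `t_r(q τ)` at the places of `X₀(M q)`, `r ∣ M`, `r ∈ {2, 3}`
-/

set_option autoImplicit false

namespace Fermat.Agent.ES.CuspOrd

open UpperHalfPlane ModularForm CongruenceSubgroup ModularCurve AlgebraicCurve Filter Topology
open Fermat.Agent.S24 Fermat.Agent.S21 Fermat.Agent.ES Fermat.Agent.S23.Prim
open scoped MatrixGroups Manifold

open T23

/-! ### the analytic description of `t_r`, `α t_r`, `β t_r` -/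

lemma Vn_one : (Vn 1).1 = Un.1 := by
  funext τ
  change E₄ (Dm 1 • τ) = E₄ τ
  congr 1
  apply UpperHalfPlane.ext
  rw [coe_Dm_smul]
  simp

lemma An_coe (r : ℕ) [NeZero r] : (An r).1 = (LV (1 / 240) (-(1 / 240)) 1 r).1 := by
  rw [LV_coe, Vn_one]
  funext τ
  change (1 / 240 : ℂ) * (Un.1 τ - (Vn r).1 τ) = (1 / 240 : ℂ) * Un.1 τ + -(1 / 240 : ℂ) * (Vn r).1 τ
  ring

lemma B2n_coe : B2n.1
    = (LV (((2 : ℕ) : ℂ) ^ 4 / (((2 : ℕ) : ℂ) ^ 4 - 1)) (-(1 / (((2 : ℕ) : ℂ) ^ 4 - 1))) 2 1).1 := by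
  rw [LV_coe, Vn_one]
  funext τ
  change (1 / 15 : ℂ) * ((16 : ℂ) * (Vn 2).1 τ - Un.1 τ)
    = (((2 : ℕ) : ℂ) ^ 4 / (((2 : ℕ) : ℂ) ^ 4 - 1)) * (Vn 2).1 τ
      + -(1 / (((2 : ℕ) : ℂ) ^ 4 - 1)) * Un.1 τ
  push_cast
  ring

lemma B3n_coe : B3n.1
    = (LV (((3 : ℕ) : ℂ) ^ 4 / (((3 : ℕ) : ℂ) ^ 4 - 1)) (-(1 / (((3 : ℕ) : ℂ) ^ 4 - 1))) 3 1).1 := by
  rw [LV_coe, Vn_one]
  funext τ
  change (1 / 80 : ℂ) * ((81 : ℂ) * (Vn 3).1 τ - Un.1 τ)
    = (((3 : ℕ) : ℂ) ^ 4 / (((3 : ℕ) : ℂ) ^ 4 - 1)) * (Vn 3).1 τ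
      + -(1 / (((3 : ℕ) : ℂ) ^ 4 - 1)) * Un.1 τ
  push_cast
  ring

/-- `t_r = B / A` analytically -/
theorem psi_tR (r M : ℕ) [NeZero r] [NeZero M] (hr1 : 1 < r) (hrM : r ∣ M) (Bf : S23.niceAlg)
    (hq : S23.qHom Bf = PowerSeries.map (Int.castRingHom ℂ) (bb r))
    (hBeq : Bf.1 = (LV ((r : ℂ) ^ 4 / ((r : ℂ) ^ 4 - 1)) (-(1 / ((r : ℂ) ^ 4 - 1))) r 1).1)
    (y : FF M) (hy : (y : LaurentSeries Kb) = tR Kb r) :
    Psi M y * toMer (LV (1 / 240) (-(1 / 240)) 1 r)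
      = toMer (LV ((r : ℂ) ^ 4 / ((r : ℂ) ^ 4 - 1)) (-(1 / ((r : ℂ) ^ 4 - 1))) r 1) := by
  have hqA := qHom_An r
  rw [S23.qHom_apply] at hq hqA
  refine psi_of_laurent M 4 _ _ (isMF_LV M _ _ r 1 hrM (one_dvd _))
    (isMF_LV M _ _ 1 r (one_dvd _) hrM) ?_ y ?_
  · intro h0
    have h1 : (An r).1 = 0 := by
      rw [An_coe]
      exact congrArg (Subtype.val : Hol → ℍ → ℂ) h0
    rw [h1, qExpansion_zero] at hqA
    have h2 := congrArg (PowerSeries.coeff 1) hqA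
    rw [PowerSeries.coeff_map, map_zero, aa_eq] at h2
    have h3 : PowerSeries.coeff 1 (PowerSeries.X * a1 r) = 1 := by
      rw [show (1 : ℕ) = 0 + 1 from rfl, PowerSeries.coeff_succ_X_mul,
        PowerSeries.coeff_zero_eq_constantCoeff_apply, constantCoeff_a1 hr1]
    rw [h3] at h2
    simp at h2
  · rw [← An_coe, ← hBeq, hy, hq, hqA, coeffMap_tR, tR, ← coeffMap_ofPowerSeries,
      ← coeffMap_ofPowerSeries, ← map_mul, tq_mul_aa hr1]

lemma compHom_LV (c₁ c₂ : ℂ) (e₁ e₂ f₁ f₂ q : ℕ) [NeZero e₁] [NeZero e₂] [NeZero f₁] [NeZero f₂]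
    [NeZero q] (h₁ : f₁ = e₁ * q) (h₂ : f₂ = e₂ * q) :
    compHom (heckeDiagMatrix q) (det_heckeDiagMatrix_pos q) (LV c₁ c₂ e₁ e₂) = LV c₁ c₂ f₁ f₂ := by
  apply Subtype.ext
  funext τ
  change (LV c₁ c₂ e₁ e₂).1 (heckeDiagMatrix q • τ) = (LV c₁ c₂ f₁ f₂).1 τ
  rw [LV_apply, LV_apply]
  have k : ∀ (e f : ℕ) [NeZero e] [NeZero f], f = e * q →
      Dm e • (heckeDiagMatrix q • τ) = Dm f • τ := by
    intro e f _ _ h
    apply UpperHalfPlane.ext
    rw [coe_Dm_smul, coe_Dm_smul, coe_heckeDiagMatrix_smul (NeZero.ne q), h]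
    push_cast
    ring
  rw [k e₁ f₁ h₁, k e₂ f₂ h₂]

/-- **same sign at the cusps** -/
theorem sign_alpha_beta (r M q : ℕ) [NeZero r] [NeZero M] [NeZero q] (hr : r.Prime) (hrM : r ∣ M)
    (hrq : Nat.Coprime r q) (Bf : S23.niceAlg)
    (hq : S23.qHom Bf = PowerSeries.map (Int.castRingHom ℂ) (bb r))
    (hBeq : Bf.1 = (LV ((r : ℂ) ^ 4 / ((r : ℂ) ^ 4 - 1)) (-(1 / ((r : ℂ) ^ 4 - 1))) r 1).1)
    (y : FF M) (hy : (y : LaurentSeries Kb) = tR Kb r) (δ : SL(2, ℤ)) :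
    ((cuspEmb (M * q) δ (heckeAlphaBar Kb M q y)).ord < 0 ∧
      (cuspEmb (M * q) δ (heckeBetaBar Kb M q y)).ord < 0) ∨
    (0 < (cuspEmb (M * q) δ (heckeAlphaBar Kb M q y)).ord ∧
      0 < (cuspEmb (M * q) δ (heckeBetaBar Kb M q y)).ord) := by
  have hpsi := psi_tR r M hr.one_lt hrM Bf hq hBeq y hy
  have hy0 : y ≠ 0 := by
    intro h0
    have h1 := tR_mul_tRInv Kb hr.one_lt
    rw [← hy, h0] at h1
    simp at h1
  have : NeZero (r * q) := ⟨mul_ne_zero (NeZero.ne r) (NeZero.ne q)⟩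
  have hα := sign_of_psi (M * q) r 1 r hr (Nat.coprime_one_right r) (mul_one r).symm
    (hrM.mul_right q) (heckeAlphaBar Kb M q y) ((map_ne_zero _).2 hy0)
    (by rw [KEmb.Psi_alpha]; exact hpsi) δ
  have hβ := sign_of_psi (M * q) r q (r * q) hr hrq rfl (mul_dvd_mul_right hrM q)
    (heckeBetaBar Kb M q y) ((map_ne_zero _).2 hy0)
    (by
      rw [KEmb.Psi_beta]
      have := congrArg (merMap (heckeDiagMatrix q) (det_heckeDiagMatrix_pos q)) hpsi
      rw [map_mul, merMap_toMer, merMap_toMer,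
        compHom_LV _ _ 1 r q (r * q) q (one_mul q).symm rfl,
        compHom_LV _ _ r 1 (r * q) q q rfl (one_mul q).symm] at this
      exact this) δ
  by_cases hd : (r : ℤ) ∣ δ 1 0
  · exact Or.inl ⟨hα.1 hd, hβ.1 hd⟩
  · exact Or.inr ⟨hα.2 hd, hβ.2 hd⟩

/-! ### valuations and the relation between `j` and `t_r` -/

section alg

variable {K F : Type*} [Field K] [Field F] [Algebra K F] (v : Place K F)

lemma ord_add_const_of_pos {t : F} (c : K) (hc : c ≠ 0) (ht : 0 < v.ord t) :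
    t + algebraMap K F c ≠ 0 ∧ v.ord (t + algebraMap K F c) = 0 := by
  have hc' : algebraMap K F c ≠ 0 := (map_ne_zero _).2 hc
  have h1 := S24.Place.ord_add_eq_of_lt v (f := algebraMap K F c) (g := t) hc'
    (by rw [S24.Place.ord_algebraMap]; exact ht)
  rw [S24.Place.ord_algebraMap, add_comm] at h1
  refine ⟨fun h0 => ?_, h1⟩
  have h2 : t = -algebraMap K F c := eq_neg_of_add_eq_zero_left h0
  rw [h2, S24.Place.ord_neg, S24.Place.ord_algebraMap] at ht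
  exact lt_irrefl _ ht

lemma ord_add_const_of_neg {t : F} (c : K) (ht : v.ord t < 0) :
    t + algebraMap K F c ≠ 0 ∧ v.ord (t + algebraMap K F c) = v.ord t := by
  have ht0 : t ≠ 0 := by
    rintro rfl
    simp at ht
  have h1 := S24.Place.ord_add_eq_of_lt v (f := t) (g := algebraMap K F c) ht0
    (by rw [S24.Place.ord_algebraMap]; exact ht)
  refine ⟨fun h0 => ?_, h1⟩
  rw [h0, Place.ord_zero] at h1
  omega

lemma ord_add_const_nonneg {t : F} (c : K) (ht : 0 ≤ v.ord t) :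
    0 ≤ v.ord (t + algebraMap K F c) := by
  by_cases h0 : t + algebraMap K F c = 0
  · rw [h0, Place.ord_zero]
  · have := S24.Place.ord_add_ge v h0
    rw [S24.Place.ord_algebraMap] at this
    exact le_trans (le_min ht le_rfl) this

/-- the shape of the divisor of `j` in terms of the one of a Hauptmodul `t` of `X₀(r)` -/
def JRel (j t : F) (r : ℤ) : Prop :=
  (0 < v.ord t → v.ord j = -(r * v.ord t)) ∧ (v.ord t < 0 → v.ord j = v.ord t) ∧
    (v.ord t = 0 → 0 ≤ v.ord j)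

lemma jRel_two [CharZero K] {j t : F} (hrel : j * t ^ 2 = (t + 256) ^ 3) : JRel v j t 2 := by
  have e256 : (256 : F) = algebraMap K F 256 := (map_ofNat _ 256).symm
  rw [e256] at hrel
  have key : ∀ (_ : t ≠ 0) (_ : t + algebraMap K F 256 ≠ 0),
      v.ord j + 2 * v.ord t = 3 * v.ord (t + algebraMap K F 256) := by
    intro ht0 h1
    have hj0 : j ≠ 0 := by
      rintro rfl
      rw [zero_mul] at hrel
      exact pow_ne_zero 3 h1 hrel.symm
    have := congrArg v.ord hrel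
    rw [Place.ord_mul v hj0 (pow_ne_zero 2 ht0), S24.Place.ord_pow, S24.Place.ord_pow] at this
    exact_mod_cast this
  refine ⟨fun ht => ?_, fun ht => ?_, fun ht => ?_⟩
  · have ht0 : t ≠ 0 := by rintro rfl; simp at ht
    obtain ⟨h1, h2⟩ := ord_add_const_of_pos v (256 : K) (by norm_num) ht
    have := key ht0 h1
    omega
  · have ht0 : t ≠ 0 := by rintro rfl; simp at ht
    obtain ⟨h1, h2⟩ := ord_add_const_of_neg v (256 : K) ht
    have := key ht0 h1
    omega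
  · by_cases hj0 : j = 0
    · rw [hj0, Place.ord_zero]
    by_cases ht0 : t = 0
    · exfalso
      rw [ht0] at hrel
      simp only [ne_eq, OfNat.ofNat_ne_zero, not_false_eq_true, zero_pow, mul_zero, zero_add]
        at hrel
      exact pow_ne_zero 3 ((map_ne_zero (algebraMap K F)).2 (by norm_num)) hrel.symm
    have h1 : t + algebraMap K F 256 ≠ 0 := by
      intro h0
      rw [h0] at hrel
      simp [hj0, ht0] at hrel
    have := key ht0 h1
    have h3 := ord_add_const_nonneg v (256 : K) ht.ge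
    omega

lemma jRel_three [CharZero K] {j t : F} (hrel : j * t ^ 3 = (t + 27) * (t + 243) ^ 3) :
    JRel v j t 3 := by
  have e27 : (27 : F) = algebraMap K F 27 := (map_ofNat _ 27).symm
  have e243 : (243 : F) = algebraMap K F 243 := (map_ofNat _ 243).symm
  rw [e27, e243] at hrel
  have key : ∀ (_ : t ≠ 0) (_ : t + algebraMap K F 27 ≠ 0) (_ : t + algebraMap K F 243 ≠ 0),
      v.ord j + 3 * v.ord t
        = v.ord (t + algebraMap K F 27) + 3 * v.ord (t + algebraMap K F 243) := by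
    intro ht0 h1 h2
    have hj0 : j ≠ 0 := by
      rintro rfl
      rw [zero_mul] at hrel
      exact mul_ne_zero h1 (pow_ne_zero 3 h2) hrel.symm
    have := congrArg v.ord hrel
    rw [Place.ord_mul v hj0 (pow_ne_zero 3 ht0), Place.ord_mul v h1 (pow_ne_zero 3 h2),
      S24.Place.ord_pow, S24.Place.ord_pow] at this
    exact_mod_cast this
  refine ⟨fun ht => ?_, fun ht => ?_, fun ht => ?_⟩
  · have ht0 : t ≠ 0 := by rintro rfl; simp at ht
    obtain ⟨h1, h2⟩ := ord_add_const_of_pos v (27 : K) (by norm_num) ht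
    obtain ⟨h3, h4⟩ := ord_add_const_of_pos v (243 : K) (by norm_num) ht
    have := key ht0 h1 h3
    omega
  · have ht0 : t ≠ 0 := by rintro rfl; simp at ht
    obtain ⟨h1, h2⟩ := ord_add_const_of_neg v (27 : K) ht
    obtain ⟨h3, h4⟩ := ord_add_const_of_neg v (243 : K) ht
    have := key ht0 h1 h3
    omega
  · by_cases hj0 : j = 0
    · rw [hj0, Place.ord_zero]
    by_cases ht0 : t = 0
    · exfalso
      rw [ht0] at hrel
      simp at hrel
    have h1 : t + algebraMap K F 27 ≠ 0 := by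
      intro h0
      rw [h0] at hrel
      simp [hj0, ht0] at hrel
    have h2 : t + algebraMap K F 243 ≠ 0 := by
      intro h0
      rw [h0] at hrel
      simp [hj0, ht0] at hrel
    have := key ht0 h1 h2
    have h3 := ord_add_const_nonneg v (27 : K) ht.ge
    have h4 := ord_add_const_nonneg v (243 : K) ht.ge
    omega

/-- the arithmetic core -/
lemma core_of_jRel {j jq a b : F} {r q : ℤ} (hr : 0 < r) (ha : JRel v j a r) (hb : JRel v jq b r)
    (hnc : 0 ≤ v.ord j → 0 ≤ v.ord jq)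
    (hc : v.ord j < 0 → q * v.ord jq ≤ v.ord j ∧
      ((v.ord a < 0 ∧ v.ord b < 0) ∨ (0 < v.ord a ∧ 0 < v.ord b))) :
    (0 ≤ v.ord a → 0 ≤ v.ord b ∧ v.ord a ≤ q * v.ord b) ∧
    (v.ord a ≤ 0 → v.ord b ≤ 0 ∧ q * v.ord b ≤ v.ord a) ∧
    (v.ord j < 0 → v.ord a ≠ 0) := by
  obtain ⟨a1, a2, a3⟩ := ha
  obtain ⟨b1, b2, b3⟩ := hb
  by_cases hj : 0 ≤ v.ord j
  · have hjq := hnc hj
    have ha0 : v.ord a = 0 := by
      rcases lt_trichotomy (v.ord a) 0 with h | h | h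
      · have := a2 h
        omega
      · exact h
      · have := a1 h
        have := mul_pos hr h
        omega
    have hb0 : v.ord b = 0 := by
      rcases lt_trichotomy (v.ord b) 0 with h | h | h
      · have := b2 h
        omega
      · exact h
      · have := b1 h
        have := mul_pos hr h
        omega
    rw [ha0, hb0]
    simp
    omega
  · rw [not_le] at hj
    obtain ⟨h1, h2⟩ := hc hj
    rcases h2 with ⟨ha', hb'⟩ | ⟨ha', hb'⟩
    · have e1 := a2 ha'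
      have e2 := b2 hb'
      rw [e1, e2] at h1
      refine ⟨fun h => absurd h (by omega), fun _ => ⟨hb'.le, h1⟩, fun _ => ha'.ne⟩
    · have e1 := a1 ha'
      have e2 := b1 hb'
      rw [e1, e2] at h1
      refine ⟨fun _ => ⟨hb'.le, ?_⟩, fun h => absurd h (by omega), fun _ => ha'.ne'⟩
      have h3 : r * v.ord a ≤ r * (q * v.ord b) := by
        have : q * -(r * v.ord b) = -(r * (q * v.ord b)) := by ring
        rw [this] at h1
        omega
      exact le_of_mul_le_mul_left h3 hr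

end alg

/-! ### the main statement -/

lemma beta_jF (M q : ℕ) [NeZero M] [NeZero q] :
    heckeBetaBar Kb M q (jF M) = jd (M * q) q (dvd_mul_left q M) := by
  apply Subtype.ext
  rw [coe_heckeBetaBar, jF, coe_jd, coe_jd, jdL_eq, jdL_eq, jqNModC, jqNModC, qExpand_one_apply]

/-- at a cusp `q v(j(qτ)) ≤ v(j)` -/
theorem mul_ord_jd_le (N q : ℕ) [NeZero N] [NeZero q] (hq : q ∣ N) (δ : SL(2, ℤ)) (m : ℤ)
    (hm : 0 < m) (v : Place Kb (FF N))
    (h : ∀ f : FF N, f ≠ 0 → (cuspEmb N δ f).ord = m * v.ord f) :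
    (q : ℤ) * v.ord (jd N q hq) ≤ v.ord (jF N) := by
  have hj0 : jF N ≠ 0 := Loc.ne_zero_of_transcendental (transcendental_jF N)
  have h1 := ord_cuspEmb_jF N δ
  have h2 := ord_cuspEmb_jd N q hq δ
  have hjq0 : jd N q hq ≠ 0 := by
    intro h0
    rw [h0, map_zero, MerGerm.ord_zero, zero_mul] at h2
    have h3 : 0 < (N : ℤ) * (cg q δ : ℤ) ^ 2 := by
      have := cg_pos q δ
      have := Nat.pos_of_ne_zero (NeZero.ne N)
      positivity
    omega
  rw [h _ hj0] at h1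
  rw [h _ hjq0] at h2
  have hg : (1 : ℤ) ≤ (cg q δ : ℤ) ^ 2 := by
    have : (1 : ℤ) ≤ (cg q δ : ℤ) := by exact_mod_cast cg_pos q δ
    nlinarith
  have hN : (0 : ℤ) < N := by exact_mod_cast Nat.pos_of_ne_zero (NeZero.ne N)
  have h3 : m * ((q : ℤ) * v.ord (jd N q hq)) ≤ m * v.ord (jF N) := by
    have e : m * ((q : ℤ) * v.ord (jd N q hq)) = m * v.ord (jd N q hq) * q := by ring
    rw [e, h2, h1]
    nlinarith
  exact le_of_mul_le_mul_left h3 hm

/-- **[WX]** -/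
theorem wx_core (r M q : ℕ) [NeZero r] [NeZero M] [NeZero q] (hr : r.Prime) (hrM : r ∣ M)
    (hrq : Nat.Coprime r q) (Bf : S23.niceAlg)
    (hq : S23.qHom Bf = PowerSeries.map (Int.castRingHom ℂ) (bb r))
    (hBeq : Bf.1 = (LV ((r : ℂ) ^ 4 / ((r : ℂ) ^ 4 - 1)) (-(1 / ((r : ℂ) ^ 4 - 1))) r 1).1)
    (y : FF M) (hy : (y : LaurentSeries Kb) = tR Kb r)
    (hrel : ∀ (v : Place Kb (FF (M * q))) (φ : FF M →ₐ[Kb] FF (M * q)),
      JRel v (φ (jF M)) (φ y) r)
    (v : Place Kb (FF (M * q))) :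
    (0 ≤ v.ord (heckeAlphaBar Kb M q y) → 0 ≤ v.ord (heckeBetaBar Kb M q y) ∧
      v.ord (heckeAlphaBar Kb M q y) ≤ q * v.ord (heckeBetaBar Kb M q y)) ∧
    (v.ord (heckeAlphaBar Kb M q y) ≤ 0 → v.ord (heckeBetaBar Kb M q y) ≤ 0 ∧
      q * v.ord (heckeBetaBar Kb M q y) ≤ v.ord (heckeAlphaBar Kb M q y)) ∧
    (v.ord (jF (M * q)) < 0 → v.ord (heckeAlphaBar Kb M q y) ≠ 0) := by
  have hy0 : y ≠ 0 := by
    intro h0
    have h1 := tR_mul_tRInv Kb hr.one_lt
    rw [← hy, h0] at h1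
    simp at h1
  have ha := hrel v (heckeAlphaBar Kb M q)
  have hb := hrel v (heckeBetaBar Kb M q)
  rw [KDeg.heckeAlpha_jF] at ha
  rw [beta_jF] at hb
  refine core_of_jRel v (by exact_mod_cast hr.pos) ha hb
    (ord_jd_nonneg (M * q) q (dvd_mul_left q M) v) ?_
  intro hj
  obtain ⟨δ, m, hm, h⟩ := exists_cusp (M * q) v hj
  refine ⟨mul_ord_jd_le (M * q) q (dvd_mul_left q M) δ m hm v h, ?_⟩
  have hs := sign_alpha_beta r M q hr hrM hrq Bf hq hBeq y hy δ
  rw [h _ ((map_ne_zero _).2 hy0), h _ ((map_ne_zero _).2 hy0)] at hs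
  rcases hs with ⟨h1, h2⟩ | ⟨h1, h2⟩
  · exact Or.inl ⟨by nlinarith, by nlinarith⟩
  · exact Or.inr ⟨by nlinarith, by nlinarith⟩

end Fermat.Agent.ES.CuspOrd
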