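import Fermat.Agent.ES.ADefs
import Fermat.Agent.ES.ConstAbs

/-!
# ES, block INJ (route `abstract_inj`), package A-CONST

A function which is integral over `K[x]` and over `K[1/x]` is algebraic over `K`.
-/

set_option autoImplicit false

noncomputable section

namespace Fermat.Agent.ES

open Fermat.Agent.ES.TC Fermat.Agent.ES.ConstAbs IntermediateField Polynomial

/-- **A-CONST**. -/
theorem isAlgebraic_of_mem_charts {K F : Type*} [Field K] [Field F] [Algebra K F] (x : F)
    (hx : Transcendental K x) [FiniteDimensional K⟮x⟯ F] (y : F) (h1 : y ∈ chart K x)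
    (h2 : y ∈ chart K x⁻¹) : IsAlgebraic K y := by
  have hx' : Transcendental K x⁻¹ := by
    intro h
    apply hx
    have := h.inv
    rwa [inv_inv] at this
  have e := adjoin_inv_eq (K := K) x
  have hc : ∀ n, ∃ c : K, (((minpoly K⟮x⟯ y).coeff n : K⟮x⟯) : F) = algebraMap K F c := by
    intro n
    refine mem_range_of_mem_adjoin hx (coeff_minpoly_mem hx ((mem_chart K).1 h1) n) ?_
    rw [← coe_coeff_minpoly_congr e y n]
    exact coeff_minpoly_mem hx' ((mem_chart K).1 h2) n
  choose c hc using hc
  have hint : IsIntegral K⟮x⟯ y := Algebra.IsIntegral.isIntegral y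
  set μ := minpoly K⟮x⟯ y with hμ
  refine ⟨∑ n ∈ Finset.range (μ.natDegree + 1), Polynomial.monomial n (c n), ?_, ?_⟩
  · intro h0
    have h3 := congrArg (fun p => Polynomial.coeff p μ.natDegree) h0
    simp only [Polynomial.finsetSum_coeff, Polynomial.coeff_monomial, Polynomial.coeff_zero] at h3
    rw [Finset.sum_ite_eq' ] at h3
    simp only [Finset.mem_range, Nat.lt_succ_self, if_true] at h3
    have h4 := hc μ.natDegree
    rw [h3, map_zero] at h4
    have h5 : μ.coeff μ.natDegree = 1 := (minpoly.monic hint)
    rw [h5] at h4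
    simp at h4
  · rw [map_sum]
    have h3 : aeval y μ = 0 := minpoly.aeval _ _
    rw [aeval_eq_sum_range] at h3
    rw [← h3]
    refine Finset.sum_congr rfl fun n _ => ?_
    rw [aeval_monomial, ← hc n, Algebra.smul_def]
    rfl

end Fermat.Agent.ES
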