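import Fermat.Agent.ES.QEFin
import Fermat.Agent.S28.Degree
import Fermat.Agent.S28.LamZ

/-!
# ES, block MOD : the `q`-expansion data of the modular function field of level `N`
over a general base `(R, ϖ)`

Input: the modular equation over `R` and over `K = Frac R`, and a family of monomials in the
S28 generators which is independent over `k[j]` (output of `S28.degL`).
-/

set_option autoImplicit false
open ModularCurve Polynomial
noncomputable section
namespace Fermat.Agent.ES.QE

open Fermat.Agent.S28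

section General

variable {A : Type*} [CommRing A]

lemma evS_jqModC_injective : Function.Injective (evS (jqModC A)) := by
  rw [injective_iff_map_eq_zero]
  intro p hp
  by_contra h
  exact evS_jqModC_ne_zero h hp

lemma aeval_Jt_eq (N : ℕ) [NeZero N] :
    (aeval (Jt A N)).toRingHom = (qExp A N).comp (evS (jqModC A)) := by
  apply Polynomial.ringHom_ext
  · intro a
    change aeval (Jt A N) (C a) = qExp A N (evS (jqModC A) (C a))
    rw [aeval_C, evS_C, algebraMap_eq_C, qExp_eq, qExpand_C]
  · change aeval (Jt A N) X = qExp A N (evS (jqModC A) X)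
    rw [aeval_X, evS_X, Jt]

/-- every polynomial in the generators is a root of a monic polynomial of degree `#Cos N`
over `A[j]`. -/
theorem exists_monic_root [Nontrivial A] (N : ℕ) [NeZero N] (ζ : Aˣ) (hζ : ζ ^ N = 1) (h1 : ModEq A ζ N)
    (U : MvPolynomial (Gen N) A) :
    ∃ P : A[X][X], P.Monic ∧ P.natDegree = Fintype.card (Cos N) ∧
      eval₂ (evS (jqModC A)) (ev0 A N U) P = 0 := by
  obtain ⟨P, hP⟩ := h1 U
  have hq : Function.Injective (qExp A N) := by
    rw [qExp_eq]; exact qExpand_injective N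
  have hinj : Function.Injective ((qExp A N).comp (evS (jqModC A))) :=
    hq.comp evS_jqModC_injective
  rw [aeval_Jt_eq] at hP
  have hmon : (P.map ((qExp A N).comp (evS (jqModC A)))).Monic := by
    rw [hP]; exact monic_prod_X_sub_C _ _
  refine ⟨P, monic_of_injective hinj hmon, ?_, ?_⟩
  · rw [← natDegree_map_eq_of_injective hinj, hP, natDegree_finsetProd_X_sub_C_eq_card,
      Finset.card_univ]
  · apply hq
    rw [map_zero, hom_eval₂, ← eval_map, hP, eval_prod]
    apply Finset.prod_eq_zero (i := ((1 : Matrix.SpecialLinearGroup (Fin 2) ℤ) : Cos N))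
      (Finset.mem_univ _)
    rw [eval_sub, eval_X, eval_C, ev_of_mem_Gamma0 ζ hζ ((rep_mem_Gamma0_iff _).mpr rfl), sub_self]

end General

section Indep

variable {R K k : Type*} [CommRing R] [IsDomain R] [IsNoetherianRing R] [Field K] [Algebra R K]
  [IsFractionRing R K] [Field k]

omit [IsNoetherianRing R] in
/-- factoring out the content of a family. -/
lemma exists_primitive_family_aux {ϖ : R} (hϖ : Prime (C ϖ)) {ι : Type*} (i₀ : ι) (e : ℕ) :
    ∀ (r : ι → R[X]) (u : R[X]), ¬ C ϖ ∣ u → r i₀ = C ϖ ^ e * u →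
    ∃ (a : ℕ) (r' : ι → R[X]), (∃ i, ¬ C ϖ ∣ r' i) ∧ ∀ i, r i = C ϖ ^ a * r' i := by
  induction e with
  | zero =>
    intro r u hu h
    exact ⟨0, r, ⟨i₀, by rw [h, pow_zero, one_mul]; exact hu⟩, fun i => by rw [pow_zero, one_mul]⟩
  | succ e ih =>
    intro r u hu h
    by_cases hall : ∀ i, C ϖ ∣ r i
    · choose r1 hr1 using hall
      have h1 : r1 i₀ = C ϖ ^ e * u := by
        apply mul_left_cancel₀ hϖ.ne_zero
        rw [← hr1, h, pow_succ']
        ring
      obtain ⟨a, r', h2, h3⟩ := ih r1 u hu h1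
      exact ⟨a + 1, r', h2, fun i => by rw [hr1, h3, pow_succ']; ring⟩
    · push Not at hall
      exact ⟨0, r, hall, fun i => by rw [pow_zero, one_mul]⟩

/-- independence over `K[j]` from independence modulo `ϖ`. -/
theorem indep_of_indep_mod (res : R →+* k) (ϖ : R) (hϖ : ϖ ≠ 0)
    (hker : RingHom.ker res = Ideal.span {ϖ}) {n : ℕ} (b : Fin n → LaurentSeries R)
    (hind : ∀ c : Fin n → k[X], ∑ i, evS (jqModC k) (c i) * coeffMap res (b i) = 0 → c = 0)
    (c : Fin n → K[X])
    (hc : ∑ i, evS (jqModC K) (c i) * coeffMap (algebraMap R K) (b i) = 0) : c = 0 := by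
  by_contra hc0
  have hprime : Prime ϖ := by
    rw [← Ideal.span_singleton_prime hϖ, ← hker]
    exact RingHom.ker_isPrime res
  have hCprime : Prime (C ϖ) := prime_C_iff.mpr hprime
  obtain ⟨d, c', hd, hc'⟩ := exists_int_mul R K c
  have hd' : algebraMap R K d ≠ 0 := by
    rw [Ne, map_eq_zero_iff _ (IsFractionRing.injective R K)]; exact hd
  have hc'0 : c' ≠ 0 := by
    intro h
    apply hc0
    funext i
    have := hc' i
    rw [h, Pi.zero_apply, Polynomial.map_zero] at this
    exact (mul_eq_zero.mp this.symm).resolve_left (C_ne_zero.mpr hd')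
  obtain ⟨i₀, hi₀⟩ := Function.ne_iff.mp hc'0
  obtain ⟨e, u, hu, h⟩ := WfDvdMonoid.max_power_factor' hi₀ hCprime.not_isUnit
  obtain ⟨a, r, ⟨i, hi⟩, hr⟩ := exists_primitive_family_aux hCprime i₀ e c' u hu h
  have hinj : Function.Injective (coeffMap (algebraMap R K)) :=
    coeffMap_injective (IsFractionRing.injective R K)
  have h1 : ∑ i, evS (jqModC R) (c' i) * b i = 0 := by
    apply hinj
    rw [map_zero, map_sum]
    have : ∑ i, coeffMap (algebraMap R K) (evS (jqModC R) (c' i) * b i)
        = HahnSeries.C (algebraMap R K d) *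
          ∑ i, evS (jqModC K) (c i) * coeffMap (algebraMap R K) (b i) := by
      rw [Finset.mul_sum]
      refine Finset.sum_congr rfl fun i _ => ?_
      rw [map_mul, coeffMap_evS, hc' i, coeffMap_jqModC, map_mul, evS_C, mul_assoc]
    rw [this, hc, mul_zero]
  have h2 : HahnSeries.C ϖ ^ a * ∑ i, evS (jqModC R) (r i) * b i = 0 := by
    rw [← h1, Finset.mul_sum]
    refine Finset.sum_congr rfl fun i _ => ?_
    rw [hr i, map_mul, map_pow, evS_C, mul_assoc]
  have hCne : (HahnSeries.C ϖ : LaurentSeries R) ≠ 0 := by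
    intro h0
    apply hϖ
    have := congrArg (fun w : LaurentSeries R => w.coeff 0) h0
    simpa using this
  have h3 : ∑ i, evS (jqModC R) (r i) * b i = 0 :=
    (mul_eq_zero.mp h2).resolve_left (pow_ne_zero _ hCne)
  have h4 := hind (fun i => (r i).map res) (by
    have := congrArg (coeffMap res) h3
    rw [map_zero, map_sum] at this
    rw [← this]
    refine Finset.sum_congr rfl fun i _ => ?_
    rw [map_mul, coeffMap_evS, coeffMap_jqModC])
  apply hi
  have h5 : (r i).map res = 0 := congrFun h4 i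
  rw [C_dvd_iff_dvd_coeff]
  intro m
  have h6 : res ((r i).coeff m) = 0 := by rw [← coeff_map, h5, coeff_zero]
  have h7 : (r i).coeff m ∈ RingHom.ker res := h6
  rw [hker, Ideal.mem_span_singleton] at h7
  exact h7

end Indep

section Mod

variable {R K k : Type*} [CommRing R] [IsDomain R] [IsNoetherianRing R] [Field K] [CharZero K]
  [Algebra R K] [IsFractionRing R K] [Field k]

/-- the label of the generator `j`. -/
def genJ (N : ℕ) [NeZero N] : Gen N := (false, ⟨1, Nat.one_mem_divisors.mpr (NeZero.ne N)⟩)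

lemma gen_genJ (A : Type*) [CommRing A] (N : ℕ) [NeZero N] : gen A N (genJ N) = jqModC A := by
  simp only [gen, gX, genJ, Bool.false_eq_true, if_false]
  rw [qExp_eq, qExpand_one_apply]

/-- the function field `K(gen)`. -/
def modF (K : Type*) [Field K] (N : ℕ) : IntermediateField K (LaurentSeries K) :=
  IntermediateField.adjoin K (Set.range (gen K N))

lemma ev0_mem_modF (K : Type*) [Field K] (N : ℕ) (U : MvPolynomial (Gen N) K) :
    ev0 K N U ∈ modF K N := by
  apply IntermediateField.algebra_adjoin_le_adjoin K (Set.range (gen K N))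
  rw [Algebra.adjoin_range_eq_range_aeval]
  exact ⟨_, rfl⟩

lemma gen_mem_modF (K : Type*) [Field K] (N : ℕ) (x : Gen N) : gen K N x ∈ modF K N :=
  IntermediateField.subset_adjoin _ _ ⟨x, rfl⟩

/-- the monomial family. -/
def modB (A : Type*) [CommRing A] (N : ℕ) [NeZero N]
    (m : Fin (Fintype.card (Cos N)) → (Gen N →₀ ℕ)) (r : Fin (Fintype.card (Cos N))) :
    LaurentSeries A := ev0 A N (MvPolynomial.monomial (m r) 1)

lemma coeffMap_modB {A B : Type*} [CommRing A] [CommRing B] (f : A →+* B) (N : ℕ) [NeZero N]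
    (m : Fin (Fintype.card (Cos N)) → (Gen N →₀ ℕ)) (r : Fin (Fintype.card (Cos N))) :
    coeffMap f (modB A N m r) = modB B N m r := by
  rw [modB, modB, coeffMap_ev0, MvPolynomial.map_monomial, map_one]

omit [IsNoetherianRing R] [CharZero K] [IsFractionRing R K] in
theorem modB_int (N : ℕ) [NeZero N] (ζ : Rˣ) (hζ : ζ ^ N = 1) (h1 : ModEq R ζ N)
    (U : MvPolynomial (Gen N) R) :
    ((coeffMap (algebraMap R K)).comp (evS (jqModC R))).IsIntegralElem
      (coeffMap (algebraMap R K) (ev0 R N U)) := by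
  obtain ⟨P, hmon, -, hP⟩ := exists_monic_root N ζ hζ h1 U
  refine ⟨P, hmon, ?_⟩
  rw [← hom_eval₂, hP, map_zero]

omit [CharZero K] in
theorem modF_relation (N : ℕ) [NeZero N] (ζ : Kˣ) (hζ : ζ ^ N = 1) (h1 : ModEq K ζ N)
    (U : MvPolynomial (Gen N) K) :
    ∃ c : Fin (Fintype.card (Cos N) + 1) → K[X], c ≠ 0 ∧
      ∑ i, aeval (jqModC K) (c i) * (MvPolynomial.aeval (gen K N) U) ^ (i : ℕ) = 0 := by
  obtain ⟨P, hmon, hdeg, hP⟩ := exists_monic_root N ζ hζ h1 U
  refine ⟨fun i => P.coeff i, ?_, ?_⟩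
  · intro h0
    have h2 : P.coeff (Fintype.card (Cos N)) = 0 := congrFun h0 (Fin.last _)
    have h3 : P.coeff (Fintype.card (Cos N)) = 1 := by
      rw [← hdeg]; exact hmon
    rw [h2] at h3
    exact zero_ne_one h3
  · rw [eval₂_eq_sum_range, hdeg, Finset.sum_range] at hP
    rw [← hP]
    refine Finset.sum_congr rfl fun i _ => ?_
    rw [aeval_eq_evS]
    rfl

theorem modF_span (N : ℕ) [NeZero N] (ζ : Kˣ) (hζ : ζ ^ N = 1) (h1 : ModEq K ζ N)
    (m : Fin (Fintype.card (Cos N)) → (Gen N →₀ ℕ))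
    (hm : ∀ c : Fin (Fintype.card (Cos N)) → K[X],
      ∑ r, evS (jqModC K) (c r) * modB K N m r = 0 → c = 0)
    (f : LaurentSeries K) (hf : f ∈ modF K N) :
    ∃ (s : K[X]) (a : Fin (Fintype.card (Cos N)) → K[X]), s ≠ 0 ∧
      evS (jqModC K) s * f = ∑ r, evS (jqModC K) (a r) * modB K N m r := by
  obtain ⟨s, a, hs, h⟩ := Upper.span_abstract (jqModC K) (transcendental_jqModC K) (gen K N)
    (genJ N) (gen_genJ K N) (Fintype.card (Cos N)) (modF_relation N ζ hζ h1) (modB K N m)
    (fun r => ev0_mem_modF K N _) (fun c hc => hm c (by simpa only [aeval_eq_evS] using hc)) f hf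
  exact ⟨s, a, hs, by simpa only [aeval_eq_evS] using h⟩

/-- **The `q`-expansion data of level `N` over `(R, ϖ)`.** -/
def modData (N : ℕ) [NeZero N] (res : R →+* k) (ϖ : R) (hϖ : ϖ ≠ 0)
    (hker : RingHom.ker res = Ideal.span {ϖ})
    (ζ : Rˣ) (hζ : ζ ^ N = 1) (h1 : ModEq R ζ N) (ζK : Kˣ) (hζK : ζK ^ N = 1)
    (h1K : ModEq K ζK N) (m : Fin (Fintype.card (Cos N)) → (Gen N →₀ ℕ))
    (hm : ∀ c : Fin (Fintype.card (Cos N)) → k[X],
      ∑ r, evS (jqModC k) (c r) * modB k N m r = 0 → c = 0) : QData R K k where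
  res := res
  ϖ := ϖ
  ϖ_ne := hϖ
  ker_res := hker
  F0 := modF K N
  n := Fintype.card (Cos N)
  b := modB R N m
  j_mem := by rw [← gen_genJ K N]; exact gen_mem_modF K N _
  mem := fun i => by rw [coeffMap_modB]; exact ev0_mem_modF K N _
  int := fun i => modB_int N ζ hζ h1 _
  span := fun f hf => by
    simp only [coeffMap_modB]
    refine modF_span N ζK hζK h1K m ?_ f hf
    intro c hc
    refine indep_of_indep_mod res ϖ hϖ hker (modB R N m) ?_ c ?_
    · intro c hc
      exact hm c (by simpa only [coeffMap_modB] using hc)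
    · simpa only [coeffMap_modB] using hc
  indep := fun c hc => hm c (by simpa only [coeffMap_modB] using hc)

end Mod

section CoordJ

variable {R K k : Type*} [CommRing R] [IsDomain R] [IsNoetherianRing R] [IsIntegrallyClosed R]
  [Field K] [Algebra R K] [IsFractionRing R K] [Field k] (D : QData R K k)

/-- the coordinate `x = j`. -/
def QData.coordJ : D.Coord where
  xW := jqModC R
  mem := by rw [D.inc_j]; exact D.j_mem
  P := X
  Q := 1
  Q_prim := fun h => D.prime_C_ϖ.not_isUnit (isUnit_of_dvd_one h)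
  rel := by rw [map_one, mul_one, evS_X]
  trans := fun p hp => by rw [D.red_j]; exact evS_jqModC_ne_zero hp

/-- `1 / j` as a `q`-series over `R`. -/
def jInvW (A : Type*) [CommRing A] : LaurentSeries A := ↑((S28.isUnit_jqModC A).unit⁻¹)

lemma jqModC_mul_jInvW (A : Type*) [CommRing A] : jqModC A * jInvW A = 1 :=
  (S28.isUnit_jqModC A).mul_val_inv

omit [IsNoetherianRing R] [IsIntegrallyClosed R] in
lemma QData.coordJ_xW : D.coordJ.xW = jqModC R := rfl

omit [IsNoetherianRing R] [IsIntegrallyClosed R] in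
lemma QData.coordJ_x : D.coordJ.x = D.jF := Subtype.ext D.inc_j

/-- the coordinate `x = 1 / j`. -/
def QData.coordJinv : D.Coord := D.coordJ.inv (jInvW R) (jqModC_mul_jInvW R)

end CoordJ

end Fermat.Agent.ES.QE
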