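import Fermat.Agent.ES.InstDefs
import Fermat.Agent.ES.QEMod
import Fermat.Agent.S24.Degree
import Fermat.Agent.S24.Loc4

/-!
# ES, block INJ, package I-J : the coordinate `x = j` (`ℓ ≥ 5`)
-/

set_option autoImplicit false

noncomputable section

namespace Fermat.Agent.ES.Inst

open ModularCurve AlgebraicCurve Polynomial
open Fermat.Agent.S24 Fermat.Agent.S28 Fermat.Agent.ES.QE Fermat.Agent.ES.IDvr

namespace InstJ

theorem zS_jqModC (S : Type*) [CommRing S] : zS S (jqModC ℤ) = jqModC S :=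
  coeffMap_jqModC _

theorem not_dvd_1728 {ℓ : ℕ} (hℓ : ℓ.Prime) (h5 : 5 ≤ ℓ) : ¬ (ℓ : ℤ) ∣ 1728 := by
  intro h
  have h1 : ℓ ∣ 1728 := by exact_mod_cast h
  have h2 : (1728 : ℕ) = 2 ^ 6 * 3 ^ 3 := by norm_num
  rw [h2] at h1
  rcases (Nat.Prime.dvd_mul hℓ).mp h1 with h3 | h3
  · have := Nat.le_of_dvd (by norm_num) (hℓ.dvd_of_dvd_pow h3)
    omega
  · have := Nat.le_of_dvd (by norm_num) (hℓ.dvd_of_dvd_pow h3)
    omega

/-- the coordinate `j`. -/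
def jCoord (N ℓ : ℕ) [NeZero N] (hℓ : ℓ.Prime) (h5 : 5 ≤ ℓ) : ZCoord N ℓ where
  xZ := jqModC ℤ
  yZ := jInvW ℤ
  mul_eq := jqModC_mul_jInvW ℤ
  coeff_neg_one := Ord.coeff_single_mul_ofPS ℤ (-1) jNum constantCoeff_jNum
  coeff_of_lt := fun _ hn => Ord.coeff_single_mul_ofPS_of_lt ℤ (-1) jNum hn
  P := X
  Q := 1
  rel := by rw [map_one, mul_one, evS_X]
  Q_prim := by
    have : Fact ℓ.Prime := ⟨hℓ⟩
    rw [Polynomial.map_one]
    exact one_ne_zero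
  mem := by
    rw [zS_jqModC, ← coe_jF' N]
    exact (jF N).2
  a := 1728
  a_prim := not_dvd_1728 hℓ h5

theorem jCoord_xF (N ℓ : ℕ) [NeZero N] (hℓ : ℓ.Prime) (h5 : 5 ≤ ℓ) :
    (jCoord N ℓ hℓ h5).xF = jF N :=
  Subtype.ext ((zS_jqModC Kb).trans (coe_jF' N).symm)

end InstJ

open InstJ

/-- **I-J** : the coordinate `j`. -/
theorem exists_jCoord (N ℓ : ℕ) [NeZero N] (hℓ : ℓ.Prime) (h5 : 5 ≤ ℓ) :
    ∃ Z : ZCoord N ℓ, Z.Unram := by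
  refine ⟨jCoord N ℓ hℓ h5, fun c hc0 hc1 v hv => ?_⟩
  rw [jCoord_xF] at hv ⊢
  refine Loc.ord_jF_sub_eq_one N (finrank_FF N) c hc0 ?_ v hv
  intro h
  apply hc1
  rw [h]
  simp [jCoord]

end Fermat.Agent.ES.Inst
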