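import Fermat.Agent.ES.KDefs
import Fermat.Agent.S24.Degree
import Fermat.Agent.S20.PartC1
import Fermat.Prelude.Sol.S_ModularForm_heckeT_slash_eq_self_of_mem_Gamma0

/-!
# ES, block KRON, package K-DEG : `[FF (N ℓ) : FF N] = ℓ + 1`
-/

set_option autoImplicit false

namespace Fermat.Agent.ES

open ModularCurve AlgebraicCurve Fermat.Agent.S24 Fermat.Agent.ES IntermediateField
open P2MW.S_ModularForm_heckeT_slash_eq_self_of_mem_Gamma0.ModularForm.HeckeSlashInvariance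
open scoped MatrixGroups

theorem heckeRep_det_pos (ℓ : ℕ) (x : OnePoint (ZMod ℓ)) : 0 < (heckeRep ℓ x).det.val := by
  induction x using OnePoint.rec with
  | infty => exact ModularForm.det_heckeDiagMatrix_pos ℓ
  | coe j => exact ModularForm.det_heckeMatrix_pos ℓ _

namespace KDeg

lemma heckeAlpha_jd (N ℓ : ℕ) [NeZero N] [NeZero ℓ] (d : ℕ) [NeZero d] (hd : d ∣ N) :
    heckeAlphaBar Kb N ℓ (jd N d hd) = jd (N * ℓ) d (hd.mul_right ℓ) :=
  Subtype.ext (by rw [coe_heckeAlphaBar, coe_jd, coe_jd])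

lemma heckeAlpha_jF (N ℓ : ℕ) [NeZero N] [NeZero ℓ] :
    heckeAlphaBar Kb N ℓ (jF N) = jF (N * ℓ) := heckeAlpha_jd N ℓ 1 _

/-- the tower law for `K(j) ⊆ F ⊆ E`, the second inclusion being given by a homomorphism -/
lemma finrank_tower {K F E : Type*} [Field K] [Field F] [Field E] [Algebra K F] [Algebra K E]
    (α : F →ₐ[K] E) (j : F) :
    Module.finrank K⟮j⟯ F * finrankAlong K α = Module.finrank K⟮α j⟯ E := by
  unfold finrankAlong
  letI := algebraAlong α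
  letI : Algebra K⟮j⟯ E := ((algebraMap F E).comp (algebraMap K⟮j⟯ F)).toAlgebra
  haveI : IsScalarTower K⟮j⟯ F E := IsScalarTower.of_algebraMap_eq fun _ => rfl
  have h1 := Module.finrank_mul_finrank K⟮j⟯ F E
  have hmap : (K⟮j⟯).map α = K⟮α j⟯ := by
    rw [IntermediateField.adjoin_map, Set.image_singleton]
  let i : K⟮j⟯ ≃+* K⟮α j⟯ :=
    ((IntermediateField.equivMap K⟮j⟯ α).trans (IntermediateField.equivOfEq hmap)).toRingEquiv
  have h2 : Module.finrank K⟮j⟯ E = Module.finrank K⟮α j⟯ E :=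
    Algebra.finrank_eq_of_equiv_equiv i (RingEquiv.refl _) (by
      ext x
      rfl)
  rw [← h2, ← h1]

end KDeg

theorem finrank_heckeAlpha (N ℓ : ℕ) [NeZero N] [Fact ℓ.Prime] (hℓN : ¬ ℓ ∣ N) :
    finrankAlong Kb (heckeAlphaBar Kb N ℓ) = ℓ + 1 := by
  have hℓ : ℓ.Prime := Fact.out
  haveI : NeZero ℓ := ⟨hℓ.ne_zero⟩
  haveI : NeZero (N * ℓ) := ⟨mul_ne_zero (NeZero.ne N) (NeZero.ne ℓ)⟩
  have h1 := KDeg.finrank_tower (heckeAlphaBar Kb N ℓ) (jF N)
  rw [KDeg.heckeAlpha_jF, finrank_FF, finrank_FF,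
    Fermat.Agent.S20.PartC1.index_Gamma0_mul N ℓ hℓ, if_neg hℓN, mul_comm] at h1
  exact Nat.eq_of_mul_eq_mul_right
    (Nat.pos_of_ne_zero (Subgroup.FiniteIndex.index_ne_zero (H := CongruenceSubgroup.Gamma0 N))) h1

end Fermat.Agent.ES
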