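import Fermat.Agent.ES.KDiv
import Fermat.Agent.ES.KDeg

/-!
# ES : change of level for the injectivity statement

`INJ m (N * r) A → INJ m N A` as soon as `[FF (N * r) : FF N]` is prime to `m` (norm argument).
-/

set_option autoImplicit false

namespace Fermat.Agent.ES

open ModularCurve AlgebraicCurve Fermat.Agent.S24 IntermediateField

namespace LevelChange

/-- pure field theory: `w ^ d = y ^ m` with `gcd (d, m) = 1` implies that `w` is an `m`-th power. -/
theorem exists_pow_eq_of_coprime {F : Type*} [Field F] {d m : ℕ} (h : Nat.Coprime d m) {w y : F}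
    (hw : w ≠ 0) (e : w ^ d = y ^ m) : ∃ z : F, w = z ^ m := by
  have h1 : (d : ℤ) * Nat.gcdA d m + (m : ℤ) * Nat.gcdB d m = 1 := by
    have := Nat.gcd_eq_gcd_ab d m
    rw [h] at this
    exact_mod_cast this.symm
  refine ⟨y ^ Nat.gcdA d m * w ^ Nat.gcdB d m, ?_⟩
  have h2 : w = w ^ ((d : ℤ) * Nat.gcdA d m + (m : ℤ) * Nat.gcdB d m) := by
    rw [h1, zpow_one]
  rw [mul_pow, ← zpow_natCast (y ^ Nat.gcdA d m) m, ← zpow_natCast (w ^ Nat.gcdB d m) m,
    ← zpow_mul, ← zpow_mul, mul_comm (Nat.gcdA d m) (m : ℤ), zpow_mul y, zpow_natCast, ← e,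
    ← zpow_natCast w d, ← zpow_mul, mul_comm (Nat.gcdB d m) (m : ℤ), ← zpow_add₀ hw]
  exact h2

theorem heckeAlpha_integral (N r : ℕ) [NeZero N] [NeZero r] :
    (heckeAlphaBar Kb N r).toRingHom.IsIntegral := by
  have h1 : FiniteDimensional Kb⟮jF (N * r)⟯ (FF (N * r)) := finiteDimensional_FF (N * r)
  have h2 : Algebra.IsAlgebraic Kb⟮jF (N * r)⟯ (FF (N * r)) := Algebra.IsAlgebraic.of_finite _ _
  exact KDiv.integral_of (heckeAlphaBar Kb N r) (jF (N * r)) (jF N) (transcendental_jF N)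

theorem isPDiv_heckeAlpha (m N r : ℕ) [NeZero N] [NeZero r] {w : FF N} (hw : IsPDiv m N w) :
    IsPDiv m (N * r) (heckeAlphaBar Kb N r w) := by
  refine ⟨(map_ne_zero _).2 hw.1, fun v => ?_⟩
  rw [Place.ord_restrictAlong (heckeAlphaBar Kb N r) (heckeAlpha_integral N r) v w]
  exact Dvd.dvd.mul_left (hw.2 _) _

theorem gaussOne_heckeAlpha (A : ValuationSubring Kb) (N r : ℕ) [NeZero N] [NeZero r] {w : FF N}
    (hw : GaussOne A N w) : GaussOne A (N * r) (heckeAlphaBar Kb N r w) := by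
  obtain ⟨y₁, y₂, h2, h1, hc, e⟩ := hw
  refine ⟨heckeAlphaBar Kb N r y₁, heckeAlphaBar Kb N r y₂, ?_, ?_, ?_, ?_⟩
  · rw [coe_heckeAlphaBar]; exact h2
  · rw [coe_heckeAlphaBar]; exact h1
  · rw [coe_heckeAlphaBar, coe_heckeAlphaBar]; exact hc
  · rw [← map_mul, e]

end LevelChange

open LevelChange

/-- **LEVEL-CHANGE**, general form. -/
theorem INJ_of_heckeAlpha (m N r : ℕ) [NeZero N] [NeZero r] (A : ValuationSubring Kb)
    (hcop : Nat.Coprime (finrankAlong Kb (heckeAlphaBar Kb N r)) m) (h : INJ m (N * r) A) :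
    INJ m N A := by
  intro w hw hG
  obtain ⟨z, hz⟩ := h _ (isPDiv_heckeAlpha m N r hw) (gaussOne_heckeAlpha A N r hG)
  let _ := algebraAlong (heckeAlphaBar Kb N r)
  have h1 : Algebra.norm (FF N) (algebraMap (FF N) (FF (N * r)) w)
      = w ^ Module.finrank (FF N) (FF (N * r)) := Algebra.norm_algebraMap w
  have h2 : algebraMap (FF N) (FF (N * r)) w = z ^ m := hz
  rw [h2, map_pow] at h1
  exact exists_pow_eq_of_coprime hcop hw.1 h1.symm

/-- **LEVEL-CHANGE** for an auxiliary prime `r ∤ N`: the degree is `r + 1`. -/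
theorem INJ_of_mul_prime (m N r : ℕ) [NeZero N] [Fact r.Prime] (hr : ¬ r ∣ N)
    (A : ValuationSubring Kb) (hcop : Nat.Coprime (r + 1) m) (h : INJ m (N * r) A) :
    INJ m N A := by
  have : NeZero r := ⟨(Fact.out : r.Prime).ne_zero⟩
  refine INJ_of_heckeAlpha m N r A ?_ h
  rw [finrank_heckeAlpha N r hr]
  exact hcop

/-- `ℓ = 3` : auxiliary level `2`. -/
theorem INJ_of_mul_two (m N : ℕ) [NeZero N] (hN : ¬ 2 ∣ N) (A : ValuationSubring Kb)
    (hm : ¬ 3 ∣ m) (h : INJ m (N * 2) A) : INJ m N A := by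
  have : Fact (Nat.Prime 2) := ⟨Nat.prime_two⟩
  exact INJ_of_mul_prime m N 2 hN A ((Nat.Prime.coprime_iff_not_dvd Nat.prime_three).2 hm) h

/-- `ℓ = 2` : auxiliary level `3`. -/
theorem INJ_of_mul_three (m N : ℕ) [NeZero N] (hN : ¬ 3 ∣ N) (A : ValuationSubring Kb)
    (hm : ¬ 2 ∣ m) (h : INJ m (N * 3) A) : INJ m N A := by
  have : Fact (Nat.Prime 3) := ⟨Nat.prime_three⟩
  refine INJ_of_mul_prime m N 3 hN A ?_ h
  have h2 : Nat.Coprime 2 m := (Nat.Prime.coprime_iff_not_dvd Nat.prime_two).2 hm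
  exact Nat.Coprime.pow_left 2 h2

end Fermat.Agent.ES
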