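import Fermat.Agent.ES.InstFinal
import Fermat.Agent.ES.InstJ
import Fermat.Agent.ES.HauptCoord
import Fermat.Agent.ES.LevelChange

/-!
# ES : the injectivity statement `INJ m N A` for all primes `ℓ ∤ N m`

Assembly: `ℓ ≥ 5` : coordinate `j` at level `N`; `ℓ = 3` : coordinate `t₂` at level `lcm (N, 2)`;
`ℓ = 2` : coordinate `t₃` at level `lcm (N, 3)`; then change of level.
-/

set_option autoImplicit false

namespace Fermat.Agent.ES

open Fermat.Agent.S24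

/-- **INJ-ALL**. -/
theorem inj_all (m N ℓ : ℕ) [NeZero N] (hℓ : ℓ.Prime) (hℓN : ¬ ℓ ∣ N * m)
    (A : ValuationSubring Kb) (hA : A.LiesOverPrime ℓ) : INJ m N A := by
  have h1 : ¬ ℓ ∣ N := fun h => hℓN (h.mul_right m)
  have h2 : ¬ ℓ ∣ m := fun h => hℓN (h.mul_left N)
  by_cases h5 : 5 ≤ ℓ
  · obtain ⟨Z, hZ⟩ := Inst.exists_jCoord N ℓ hℓ h5
    exact Inst.inj_of_coord m N ℓ hℓ h1 h2 A hA Z hZ
  have h23 : ℓ = 2 ∨ ℓ = 3 := by
    have h := hℓ.two_le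
    have h4 : ℓ ≠ 4 := by
      rintro rfl
      exact absurd hℓ (by norm_num)
    omega
  rcases h23 with rfl | rfl
  · by_cases h3 : 3 ∣ N
    · obtain ⟨Z, hZ⟩ := Inst.exists_t3Coord N h3
      exact Inst.inj_of_coord m N 2 hℓ h1 h2 A hA Z hZ
    · have : NeZero (N * 3) := ⟨mul_ne_zero (NeZero.ne N) (by norm_num)⟩
      obtain ⟨Z, hZ⟩ := Inst.exists_t3Coord (N * 3) (dvd_mul_left 3 N)
      have h1' : ¬ 2 ∣ N * 3 := by omega
      exact INJ_of_mul_three m N h3 A h2 (Inst.inj_of_coord m (N * 3) 2 hℓ h1' h2 A hA Z hZ)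
  · by_cases h3 : 2 ∣ N
    · obtain ⟨Z, hZ⟩ := Inst.exists_t2Coord N h3
      exact Inst.inj_of_coord m N 3 hℓ h1 h2 A hA Z hZ
    · have : NeZero (N * 2) := ⟨mul_ne_zero (NeZero.ne N) (by norm_num)⟩
      obtain ⟨Z, hZ⟩ := Inst.exists_t2Coord (N * 2) (dvd_mul_left 2 N)
      have h1' : ¬ 3 ∣ N * 2 := by omega
      exact INJ_of_mul_two m N h3 A h2 (Inst.inj_of_coord m (N * 2) 3 hℓ h1' h2 A hA Z hZ)

end Fermat.Agent.ES
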