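import Fermat.Agent.ES.InstJ
import Fermat.Agent.ES.LevelChange

/-!
# ES, block INJ : final case distinction on `ℓ`

`INJ m N A` for all `ℓ ∤ N m`, from `inj_of_coord` (I-FINAL), the coordinate `j` (`ℓ ≥ 5`), the
Hauptmoduln `t₂` (`ℓ = 3`), `t₃` (`ℓ = 2`) and the change of level.
-/

set_option autoImplicit false

namespace Fermat.Agent.ES.Inst

open Fermat.Agent.S24

/-- the case distinction, with the three missing inputs as hypotheses (statements verbatim from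
the instantiation plan). -/
theorem inj_all_of
    (hcoord : ∀ (m N ℓ : ℕ) [NeZero N] (_ : ℓ.Prime) (_ : ¬ ℓ ∣ N) (_ : ¬ ℓ ∣ m)
      (A : ValuationSubring Kb) (_ : A.LiesOverPrime ℓ) (Z : ZCoord N ℓ) (_ : Z.Unram), INJ m N A)
    (ht2 : ∀ (N : ℕ) [NeZero N] (_ : 2 ∣ N), ∃ Z : ZCoord N 3, Z.Unram)
    (ht3 : ∀ (N : ℕ) [NeZero N] (_ : 3 ∣ N), ∃ Z : ZCoord N 2, Z.Unram)
    (m N ℓ : ℕ) [NeZero N] (hℓ : ℓ.Prime) (hℓN : ¬ ℓ ∣ N) (hℓm : ¬ ℓ ∣ m)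
    (A : ValuationSubring Kb) (hA : A.LiesOverPrime ℓ) : INJ m N A := by
  by_cases h5 : 5 ≤ ℓ
  · obtain ⟨Z, hZ⟩ := exists_jCoord N ℓ hℓ h5
    exact hcoord m N ℓ hℓ hℓN hℓm A hA Z hZ
  have hlt : ℓ < 5 := by omega
  have h2 := hℓ.two_le
  have hcases : ℓ = 2 ∨ ℓ = 3 := by
    interval_cases ℓ
    · exact Or.inl rfl
    · exact Or.inr rfl
    · exact absurd hℓ (by norm_num)
  rcases hcases with rfl | rfl
  · -- `ℓ = 2`, auxiliary level `3`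
    by_cases h3 : 3 ∣ N
    · obtain ⟨Z, hZ⟩ := ht3 N h3
      exact hcoord m N 2 hℓ hℓN hℓm A hA Z hZ
    · have : NeZero (N * 3) := ⟨mul_ne_zero (NeZero.ne N) (by norm_num)⟩
      obtain ⟨Z, hZ⟩ := ht3 (N * 3) (dvd_mul_left 3 N)
      refine INJ_of_mul_three m N h3 A hℓm (hcoord m (N * 3) 2 hℓ ?_ hℓm A hA Z hZ)
      intro h
      rcases (Nat.Prime.dvd_mul Nat.prime_two).1 h with h | h
      · exact hℓN h
      · norm_num at h
  · -- `ℓ = 3`, auxiliary level `2`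
    by_cases h2' : 2 ∣ N
    · obtain ⟨Z, hZ⟩ := ht2 N h2'
      exact hcoord m N 3 hℓ hℓN hℓm A hA Z hZ
    · have : NeZero (N * 2) := ⟨mul_ne_zero (NeZero.ne N) (by norm_num)⟩
      obtain ⟨Z, hZ⟩ := ht2 (N * 2) (dvd_mul_left 2 N)
      refine INJ_of_mul_two m N h2' A hℓm (hcoord m (N * 2) 3 hℓ ?_ hℓm A hA Z hZ)
      intro h
      rcases (Nat.Prime.dvd_mul Nat.prime_three).1 h with h | h
      · exact hℓN h
      · norm_num at h

end Fermat.Agent.ES.Inst
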