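import Fermat.Agent.ES.MMod

/-!
# ES, block MODEL, package M-BETA

If the special fibre `B / ϖ` of a chart is a Dedekind domain, `w ≡ 1 mod ϖ` and the ideal
`MM m w B * MM m w⁻¹ B` contains a power of `ϖ`, then `MM m w B` contains an element `≡ 1 mod ϖ`.
-/

set_option autoImplicit false

namespace Fermat.Agent.ES.Model

namespace MBeta

/-- local generator of a nonzero ideal of a Dedekind domain at a maximal ideal -/
lemma exists_local_gen {D : Type*} [CommRing D] [IsDedekindDomain D] (a n : Ideal D) (ha : a ≠ ⊥)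
    (hn : n.IsMaximal) :
    ∃ x0 ∈ a, x0 ≠ 0 ∧ ∃ σ, σ ∉ n ∧ ∀ y ∈ a, ∃ β, σ * y = β * x0 := by
  have hlt : a * n < a := by
    refine lt_of_le_of_ne Ideal.mul_le_left ?_
    intro h
    have h1 : a * n = a * 1 := by rw [h, mul_one]
    have h2 := mul_left_cancel₀ (by simpa using ha) h1
    exact hn.ne_top (by simpa [Ideal.one_eq_top] using h2)
  obtain ⟨x0, hx0, hx0'⟩ := SetLike.exists_of_lt hlt
  have hdvd : a ∣ Ideal.span {x0} :=
    Ideal.dvd_iff_le.2 ((Ideal.span_singleton_le_iff_mem _).2 hx0)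
  obtain ⟨e, he⟩ := hdvd
  have hen : ¬ e ≤ n := by
    intro hle
    apply hx0'
    have h1 : Ideal.span {x0} ≤ a * n := by rw [he]; exact Ideal.mul_mono_right hle
    exact h1 (Ideal.mem_span_singleton_self x0)
  obtain ⟨σ, hσe, hσn⟩ := SetLike.not_le_iff_exists.1 hen
  refine ⟨x0, hx0, ?_, σ, hσn, fun y hy => ?_⟩
  · rintro rfl; exact hx0' (zero_mem _)
  · have h1 : y * σ ∈ Ideal.span {x0} := by rw [he]; exact Ideal.mul_mem_mul hy hσe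
    obtain ⟨β, hβ⟩ := Ideal.mem_span_singleton'.1 h1
    exact ⟨β, by rw [hβ, mul_comm]⟩

/-- in an integrally closed domain, `a ^ m = s ^ m * β` forces `s ∣ a` -/
lemma dvd_of_pow_eq {D : Type*} [CommRing D] [IsDomain D] [IsIntegrallyClosed D] {a s β : D}
    {m : ℕ} (hm : 0 < m) (hs : s ≠ 0) (h : a ^ m = s ^ m * β) : s ∣ a := by
  have hsK : algebraMap D (FractionRing D) s ≠ 0 := by simpa using hs
  have hx : (algebraMap D (FractionRing D) a / algebraMap D (FractionRing D) s) ^ m =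
      algebraMap D (FractionRing D) β := by
    rw [div_pow, ← map_pow, h, map_mul, map_pow]
    field_simp
  obtain ⟨y, hy⟩ := IsIntegrallyClosed.exists_algebraMap_eq_of_isIntegral_pow (R := D)
    (K := FractionRing D) hm (by rw [hx]; exact isIntegral_algebraMap)
  refine ⟨y, ?_⟩
  apply IsFractionRing.injective D (FractionRing D)
  rw [map_mul, hy]
  field_simp

variable {F : Type*} [Field F] {O : ValuationSubring F} {ϖ : F} {m : ℕ} {B : Subring F}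

lemma divO_zero : DivO O ϖ 1 (0 : F) := ⟨0, O.zero_mem, by simp⟩

lemma divO_sum {ι : Type*} (s : Finset ι) (f : ι → F) (h : ∀ i ∈ s, DivO O ϖ 1 (f i)) :
    DivO O ϖ 1 (∑ i ∈ s, f i) := by
  classical
  induction s using Finset.induction_on with
  | empty => simpa using divO_zero
  | insert a s ha ih =>
    rw [Finset.sum_insert ha]
    exact (h a (Finset.mem_insert_self a s)).add
      (ih fun i hi => h i (Finset.mem_insert_of_mem hi))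

lemma mk_eq_zero_iff (hB : IsChart O ϖ m B) (x : B) :
    Ideal.Quotient.mk (Ideal.span {(⟨ϖ, hB.unif_mem⟩ : B)}) x = 0 ↔ DivO O ϖ 1 (x : F) := by
  rw [Ideal.Quotient.eq_zero_iff_mem, Ideal.mem_span_singleton']
  constructor
  · rintro ⟨a, ha⟩
    exact ⟨a, hB.le _ a.2, by rw [← ha]; simp [mul_comm]⟩
  · intro h
    obtain ⟨y, hy, hxy⟩ := hB.sat _ x.2 h
    exact ⟨⟨y, hy⟩, Subtype.ext (by simp [hxy, mul_comm])⟩

lemma oneUnit_inv (hO : IsUnif O ϖ) {w : F} (hw1 : DivO O ϖ 1 (w - 1)) :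
    DivO O ϖ 1 (w⁻¹ - 1) := by
  have hw : w ≠ 0 := hO.oneUnit_ne_zero hw1
  have e : w⁻¹ - 1 = w⁻¹ * (-(w - 1)) := by field_simp; ring
  rw [e]
  exact hw1.neg.mul_left (hO.oneUnit_inv_mem hw1)

lemma mul_mem_of_MM (hB : IsChart O ϖ m B) {w : F} (hw : w ≠ 0) {f f' : F} (hf : f ∈ MM m w B)
    (hf' : f' ∈ MM m w⁻¹ B) : f * f' ∈ B := by
  apply hB.root
  have e : (f * f') ^ m = (f ^ m * w) * (f' ^ m * w⁻¹) := by rw [mul_pow]; field_simp
  rw [e]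
  exact B.mul_mem hf hf'

/-- every element of `MM` is congruent to an element of `B` -/
lemma exists_cong (hO : IsUnif O ϖ) (hm : 0 < m) (hB : IsChart O ϖ m B)
    (hloc : ∀ x ∈ O, ∃ s ∈ B, s ≠ 0 ∧ s⁻¹ ∈ O ∧ s * x ∈ B)
    (hded : IsDedekindDomain (B ⧸ Ideal.span {(⟨ϖ, hB.unif_mem⟩ : B)}))
    {w : F} (hw1 : DivO O ϖ 1 (w - 1)) {f : F} (hf : f ∈ MM m w B) :
    ∃ b : B, DivO O ϖ 1 (f - b) := by
  have hw : w ≠ 0 := hO.oneUnit_ne_zero hw1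
  have hfO : f ∈ O := MM_mem_O hB hm hw (hO.oneUnit_inv_mem hw1) hf
  obtain ⟨s, hs, hs0, hsi, hsf⟩ := hloc f hfO
  have hqs : Ideal.Quotient.mk (Ideal.span {(⟨ϖ, hB.unif_mem⟩ : B)}) ⟨s, hs⟩ ≠ 0 := by
    rw [Ne, mk_eq_zero_iff hB]
    intro hdiv
    apply hO.not_divO_one
    have h1 := hdiv.mul_left hsi
    rwa [inv_mul_cancel₀ hs0] at h1
  have hpow : (Ideal.Quotient.mk (Ideal.span {(⟨ϖ, hB.unif_mem⟩ : B)}) ⟨s * f, hsf⟩) ^ m =
      (Ideal.Quotient.mk (Ideal.span {(⟨ϖ, hB.unif_mem⟩ : B)}) ⟨s, hs⟩) ^ m *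
        Ideal.Quotient.mk (Ideal.span {(⟨ϖ, hB.unif_mem⟩ : B)}) ⟨f ^ m * w, hf⟩ := by
    rw [← map_pow, ← map_pow, ← map_mul, ← sub_eq_zero, ← map_sub, mk_eq_zero_iff hB]
    have e : (((⟨s * f, hsf⟩ : B) ^ m - (⟨s, hs⟩ : B) ^ m * ⟨f ^ m * w, hf⟩ : B) : F) =
        (s ^ m * f ^ m) * (-(w - 1)) := by
      push_cast
      ring
    rw [e]
    exact hw1.neg.mul_left (O.mul_mem _ _ (O.pow_mem (hB.le _ hs) m) (O.pow_mem hfO m))
  obtain ⟨y, hy⟩ := dvd_of_pow_eq hm hqs hpow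
  obtain ⟨b, rfl⟩ := Ideal.Quotient.mk_surjective y
  refine ⟨b, ?_⟩
  have h1 : DivO O ϖ 1 (s * f - s * b) := by
    have h2 := (mk_eq_zero_iff hB (⟨s * f, hsf⟩ - ⟨s, hs⟩ * b)).1
      (by rw [map_sub, map_mul, hy, sub_self])
    simpa using h2
  have h3 := h1.mul_left hsi
  have e : s⁻¹ * (s * f - s * b) = f - b := by field_simp
  rwa [e] at h3

/-- the ideal of `B` of all elements congruent to an element of `MM` -/
def idealA (hB : IsChart O ϖ m B) (hm : 0 < m) (w : F) : Ideal B where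
  carrier := {x | ∃ f ∈ MM m w B, DivO O ϖ 1 (f - x)}
  add_mem' := by
    rintro x y ⟨f, hf, hfx⟩ ⟨g, hg, hgy⟩
    refine ⟨f + g, MM_add hB hm w hf hg, ?_⟩
    have e : f + g - ((x + y : B) : F) = (f - x) + (g - y) := by push_cast; ring
    rw [e]
    exact hfx.add hgy
  zero_mem' := ⟨0, MM_zero hm w B, by simpa using divO_zero⟩
  smul_mem' := by
    rintro c x ⟨f, hf, hfx⟩
    refine ⟨c * f, MM_smul w c.2 hf, ?_⟩
    have e : (c : F) * f - ((c • x : B) : F) = c * (f - x) := by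
      rw [smul_eq_mul]; push_cast; ring
    rw [e]
    exact hfx.mul_left (hB.le _ c.2)

lemma mem_idealA (hB : IsChart O ϖ m B) (hm : 0 < m) (w : F) (x : B) :
    x ∈ idealA hB hm w ↔ ∃ f ∈ MM m w B, DivO O ϖ 1 (f - x) := Iff.rfl

/-- some element of `MM` is not divisible by the uniformiser -/
lemma exists_not_div (hO : IsUnif O ϖ) (hm : 0 < m) (hB : IsChart O ϖ m B) {w : F}
    (hw1 : DivO O ϖ 1 (w - 1)) {ι : Type*} [Fintype ι] (g' : ι → F)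
    (hg' : ∀ i, g' i ∈ MM m w⁻¹ B) :
    ∀ (c : ℕ) (g : ι → F), (∀ i, g i ∈ MM m w B) → ϖ ^ c = ∑ i, g i * g' i →
      ∃ f ∈ MM m w B, ¬ DivO O ϖ 1 f := by
  have hw : w ≠ 0 := hO.oneUnit_ne_zero hw1
  have hwO : w ∈ O := oneUnit_mem hO.mem hw1
  have hg'O : ∀ i, g' i ∈ O := fun i =>
    MM_mem_O hB hm (inv_ne_zero hw) (by rw [inv_inv]; exact hwO) (hg' i)
  intro c
  induction c with
  | zero =>
    intro g hg h
    by_contra hcon
    push Not at hcon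
    apply hO.not_divO_one
    rw [pow_zero] at h
    rw [h]
    exact divO_sum _ _ fun i _ => (hcon _ (hg i)).mul_right (hg'O i)
  | succ c ih =>
    intro g hg h
    by_contra hcon
    push Not at hcon
    have hex : ∀ i, ∃ k ∈ MM m w B, g i = ϖ ^ 1 * k := fun i =>
      MM_div hB hO.ne_zero hwO 1 (hg i) (hcon _ (hg i))
    choose k hk hgk using hex
    obtain ⟨f, hf, hfn⟩ := ih k hk (by
      apply mul_left_cancel₀ hO.ne_zero
      rw [← pow_succ', h, Finset.mul_sum]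
      refine Finset.sum_congr rfl fun i _ => ?_
      rw [hgk i]
      ring)
    exact hfn (hcon f hf)

/-- local generator of `MM` modulo the uniformiser -/
lemma exists_gen (hO : IsUnif O ϖ) (hm : 0 < m) (hB : IsChart O ϖ m B)
    (hloc : ∀ x ∈ O, ∃ s ∈ B, s ≠ 0 ∧ s⁻¹ ∈ O ∧ s * x ∈ B)
    (hded : IsDedekindDomain (B ⧸ Ideal.span {(⟨ϖ, hB.unif_mem⟩ : B)}))
    {w : F} (hw1 : DivO O ϖ 1 (w - 1)) (hne : ∃ g ∈ MM m w B, ¬ DivO O ϖ 1 g)
    (nn : Ideal (B ⧸ Ideal.span {(⟨ϖ, hB.unif_mem⟩ : B)})) (hnn : nn.IsMaximal) :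
    ∃ f0 ∈ MM m w B, ∃ b0 : B, DivO O ϖ 1 (f0 - b0) ∧
      Ideal.Quotient.mk (Ideal.span {(⟨ϖ, hB.unif_mem⟩ : B)}) b0 ≠ 0 ∧
      ∃ s : B, Ideal.Quotient.mk (Ideal.span {(⟨ϖ, hB.unif_mem⟩ : B)}) s ∉ nn ∧
        ∀ g ∈ MM m w B, ∃ b ∈ B, ∃ g1 ∈ MM m w B, (s : F) * g = b * f0 + ϖ * g1 := by
  have hwO : w ∈ O := oneUnit_mem hO.mem hw1
  have hsurj : Function.Surjective (Ideal.Quotient.mk (Ideal.span {(⟨ϖ, hB.unif_mem⟩ : B)})) :=
    Ideal.Quotient.mk_surjective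
  have ha : Ideal.map (Ideal.Quotient.mk (Ideal.span {(⟨ϖ, hB.unif_mem⟩ : B)}))
      (idealA hB hm w) ≠ ⊥ := by
    obtain ⟨g, hg, hgn⟩ := hne
    obtain ⟨b, hb⟩ := exists_cong hO hm hB hloc hded hw1 hg
    intro hbot
    have h1 : Ideal.Quotient.mk (Ideal.span {(⟨ϖ, hB.unif_mem⟩ : B)}) b ∈
        Ideal.map (Ideal.Quotient.mk (Ideal.span {(⟨ϖ, hB.unif_mem⟩ : B)})) (idealA hB hm w) :=
      Ideal.mem_map_of_mem _ ⟨g, hg, hb⟩
    rw [hbot, Ideal.mem_bot, mk_eq_zero_iff hB] at h1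
    apply hgn
    have e : g = (g - b) + b := by ring
    rw [e]
    exact hb.add h1
  obtain ⟨x0, hx0, hx00, σ, hσ, hgen⟩ := exists_local_gen _ nn ha hnn
  obtain ⟨b0, ⟨f0, hf0, hfb0⟩, rfl⟩ := (Ideal.mem_map_iff_of_surjective _ hsurj).1 hx0
  obtain ⟨s, rfl⟩ := hsurj σ
  refine ⟨f0, hf0, b0, hfb0, hx00, s, hσ, fun g hg => ?_⟩
  obtain ⟨bg, hbg⟩ := exists_cong hO hm hB hloc hded hw1 hg
  obtain ⟨β, hβ⟩ := hgen _ (Ideal.mem_map_of_mem _ ⟨g, hg, hbg⟩)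
  obtain ⟨β, rfl⟩ := hsurj β
  have h1 : DivO O ϖ 1 ((s : F) * bg - β * b0) := by
    have h2 := (mk_eq_zero_iff hB (s * bg - β * b0)).1 (by
      rw [map_sub, map_mul, map_mul, hβ, sub_self])
    simpa using h2
  have h3 : DivO O ϖ 1 ((s : F) * g - β * f0) := by
    have e : (s : F) * g - β * f0 = s * (g - bg) - β * (f0 - b0) + (s * bg - β * b0) := by ring
    rw [e]
    exact ((hbg.mul_left (hB.le _ s.2)).sub (hfb0.mul_left (hB.le _ β.2))).add h1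
  obtain ⟨g1, hg1, hgg1⟩ := MM_div hB hO.ne_zero hwO 1
    (MM_sub hB hm w (MM_smul w s.2 hg) (MM_smul w β.2 hf0)) h3
  refine ⟨β, β.2, g1, hg1, ?_⟩
  rw [pow_one] at hgg1
  rw [← hgg1]
  ring

/-- iteration of the approximation step -/
lemma iterate_step {M : Set F} {s f0 : F} (hs : s ∈ B) (hϖ : ϖ ∈ B)
    (hstep : ∀ g ∈ M, ∃ b ∈ B, ∃ g1 ∈ M, s * g = b * f0 + ϖ * g1) (k : ℕ) :
    ∀ g ∈ M, ∃ b ∈ B, ∃ g1 ∈ M, s ^ k * g = b * f0 + ϖ ^ k * g1 := by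
  induction k with
  | zero => exact fun g hg => ⟨0, B.zero_mem, g, hg, by simp⟩
  | succ k ih =>
    intro g hg
    obtain ⟨b, hb, g1, hg1, h1⟩ := ih g hg
    obtain ⟨b', hb', g2, hg2, h2⟩ := hstep g1 hg1
    refine ⟨s * b + ϖ ^ k * b', B.add_mem (B.mul_mem hs hb) (B.mul_mem (B.pow_mem hϖ k) hb'),
      g2, hg2, ?_⟩
    calc s ^ (k + 1) * g = s * (s ^ k * g) := by ring
      _ = s * b * f0 + ϖ ^ k * (s * g1) := by rw [h1]; ring
      _ = (s * b + ϖ ^ k * b') * f0 + ϖ ^ (k + 1) * g2 := by rw [h2]; ring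

end MBeta

open MBeta in
/-- **M-BETA**. -/
theorem beta {F : Type*} [Field F] (O : ValuationSubring F) (ϖ : F) (hO : IsUnif O ϖ) (m : ℕ)
    (hm : 0 < m)
    (B : Subring F) (hB : IsChart O ϖ m B)
    (hloc : ∀ x ∈ O, ∃ s ∈ B, s ≠ 0 ∧ s⁻¹ ∈ O ∧ s * x ∈ B)
    (hded : IsDedekindDomain (B ⧸ Ideal.span {(⟨ϖ, hB.unif_mem⟩ : B)}))
    (w : F) (hw : w ≠ 0) (hw1 : DivO O ϖ 1 (w - 1))
    (hdiv : ∃ (c : ℕ) (ι : Type) (_ : Fintype ι) (g g' : ι → F), (∀ i, g i ∈ MM m w B) ∧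
      (∀ i, g' i ∈ MM m w⁻¹ B) ∧ ϖ ^ c = ∑ i, g i * g' i) :
    ∃ f ∈ MM m w B, DivO O ϖ 1 (f - 1) := by
  obtain ⟨c, ι, _, g, g', hg, hg', hsum⟩ := hdiv
  have hw1' : DivO O ϖ 1 (w⁻¹ - 1) := oneUnit_inv hO hw1
  have hne : ∃ f ∈ MM m w B, ¬ DivO O ϖ 1 f := exists_not_div hO hm hB hw1 g' hg' c g hg hsum
  have hne' : ∃ f ∈ MM m w⁻¹ B, ¬ DivO O ϖ 1 f :=
    exists_not_div hO hm hB hw1' g (by rw [inv_inv]; exact hg) c g' hg'
      (by rw [hsum]; exact Finset.sum_congr rfl fun i _ => mul_comm _ _)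
  have hsurj : Function.Surjective (Ideal.Quotient.mk (Ideal.span {(⟨ϖ, hB.unif_mem⟩ : B)})) :=
    Ideal.Quotient.mk_surjective
  by_contra hcon
  have htop : Ideal.map (Ideal.Quotient.mk (Ideal.span {(⟨ϖ, hB.unif_mem⟩ : B)}))
      (idealA hB hm w) ≠ ⊤ := by
    intro htop
    have h1 : (1 : B ⧸ Ideal.span {(⟨ϖ, hB.unif_mem⟩ : B)}) ∈
        Ideal.map (Ideal.Quotient.mk (Ideal.span {(⟨ϖ, hB.unif_mem⟩ : B)})) (idealA hB hm w) := by
      rw [htop]; trivial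
    obtain ⟨x, ⟨f, hf, hfx⟩, hx1⟩ := (Ideal.mem_map_iff_of_surjective _ hsurj).1 h1
    have h2 : DivO O ϖ 1 ((x : F) - 1) := by
      have h3 := (mk_eq_zero_iff hB (x - 1)).1 (by rw [map_sub, hx1, map_one, sub_self])
      simpa using h3
    apply hcon
    refine ⟨f, hf, ?_⟩
    have e : f - 1 = (f - x) + (x - 1) := by ring
    rw [e]
    exact hfx.add h2
  obtain ⟨nn, hnn, hle⟩ := Ideal.exists_le_maximal _ htop
  obtain ⟨f0, hf0, b0, hb0, hqb0, s, hs, hstep⟩ := exists_gen hO hm hB hloc hded hw1 hne nn hnn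
  obtain ⟨f0', hf0', b0', hb0', hqb0', s', hs', hstep'⟩ :=
    exists_gen hO hm hB hloc hded hw1' hne' nn hnn
  have hit := iterate_step s.2 hB.unif_mem hstep (c + 1)
  have hit' := iterate_step s'.2 hB.unif_mem hstep' (c + 1)
  have hy : f0 * f0' ∈ B := mul_mem_of_MM hB hw hf0 hf0'
  -- the product formula for each index
  have hkey : ∀ i, ∃ e z : B, ((s : F) * s') ^ (c + 1) * (g i * g' i) =
      e * (f0 * f0') + ϖ ^ (c + 1) * z := by
    intro i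
    obtain ⟨b, hb, g1, hg1, h1⟩ := hit (g i) (hg i)
    obtain ⟨b', hb', g1', hg1', h1'⟩ := hit' (g' i) (hg' i)
    refine ⟨⟨b * b', B.mul_mem hb hb'⟩,
      ⟨b * (f0 * g1') + b' * (g1 * f0') + ϖ ^ (c + 1) * (g1 * g1'), ?_⟩, ?_⟩
    · exact B.add_mem (B.add_mem (B.mul_mem hb (mul_mem_of_MM hB hw hf0 hg1'))
        (B.mul_mem hb' (mul_mem_of_MM hB hw hg1 hf0')))
        (B.mul_mem (B.pow_mem hB.unif_mem _) (mul_mem_of_MM hB hw hg1 hg1'))
    · calc ((s : F) * s') ^ (c + 1) * (g i * g' i)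
          = ((s : F) ^ (c + 1) * g i) * ((s' : F) ^ (c + 1) * g' i) := by ring
        _ = _ := by rw [h1, h1']; ring
  choose e z hez using hkey
  have htot : ((s : F) * s') ^ (c + 1) * ϖ ^ c =
      ((∑ i, e i : B) : F) * (f0 * f0') + ϖ ^ (c + 1) * ((∑ i, z i : B) : F) := by
    rw [hsum, Finset.mul_sum]
    push_cast
    rw [Finset.sum_mul, Finset.mul_sum, ← Finset.sum_add_distrib]
    exact Finset.sum_congr rfl fun i _ => hez i
  -- the same identity in `B`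
  have hp0 : (⟨ϖ, hB.unif_mem⟩ : B) ≠ 0 := by
    intro h0
    exact hO.ne_zero (congrArg Subtype.val h0)
  have hprime : Prime (⟨ϖ, hB.unif_mem⟩ : B) :=
    (Ideal.span_singleton_prime hp0).1 ((Ideal.Quotient.isDomain_iff_prime _).1 hded.toIsDomain)
  have hB1 : (⟨ϖ, hB.unif_mem⟩ : B) ^ c * ((s * s') ^ (c + 1) - ⟨ϖ, hB.unif_mem⟩ * ∑ i, z i) =
      (∑ i, e i) * ⟨f0 * f0', hy⟩ := by
    apply Subtype.ext
    have e1 : (((⟨ϖ, hB.unif_mem⟩ : B) ^ c * ((s * s') ^ (c + 1) - ⟨ϖ, hB.unif_mem⟩ * ∑ i, z i) :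
        B) : F) = ((s : F) * s') ^ (c + 1) * ϖ ^ c - ϖ ^ (c + 1) * ((∑ i, z i : B) : F) := by
      push_cast
      ring
    have e2 : (((∑ i, e i) * ⟨f0 * f0', hy⟩ : B) : F) = ((∑ i, e i : B) : F) * (f0 * f0') := by
      push_cast
      ring
    rw [e1, e2, htot]
    ring
  -- the reduction of `y = f0 * f0'`
  have hqy : Ideal.Quotient.mk (Ideal.span {(⟨ϖ, hB.unif_mem⟩ : B)}) ⟨f0 * f0', hy⟩ =
      Ideal.Quotient.mk (Ideal.span {(⟨ϖ, hB.unif_mem⟩ : B)}) b0 *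
        Ideal.Quotient.mk (Ideal.span {(⟨ϖ, hB.unif_mem⟩ : B)}) b0' := by
    rw [← map_mul, ← sub_eq_zero, ← map_sub, mk_eq_zero_iff hB]
    have e1 : (((⟨f0 * f0', hy⟩ : B) - b0 * b0' : B) : F) =
        (f0 - b0) * f0' + b0 * (f0' - b0') := by
      push_cast
      ring
    rw [e1]
    exact (hb0.mul_right (MM_mem_O hB hm (inv_ne_zero hw)
      (by rw [inv_inv]; exact oneUnit_mem hO.mem hw1) hf0')).add (hb0'.mul_left (hB.le _ b0.2))
  have := hded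
  have hndvd : ¬ (⟨ϖ, hB.unif_mem⟩ : B) ∣ ⟨f0 * f0', hy⟩ := by
    rw [← Ideal.Quotient.eq_zero_iff_dvd, hqy]
    exact mul_ne_zero hqb0 hqb0'
  obtain ⟨e1, he1⟩ := hprime.pow_dvd_of_dvd_mul_right c hndvd ⟨_, hB1.symm⟩
  have hB2 : (s * s') ^ (c + 1) - ⟨ϖ, hB.unif_mem⟩ * ∑ i, z i = e1 * ⟨f0 * f0', hy⟩ := by
    apply mul_left_cancel₀ (pow_ne_zero c hp0)
    rw [hB1, he1]
    ring
  have hq := congrArg (Ideal.Quotient.mk (Ideal.span {(⟨ϖ, hB.unif_mem⟩ : B)})) hB2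
  have hqp : Ideal.Quotient.mk (Ideal.span {(⟨ϖ, hB.unif_mem⟩ : B)}) ⟨ϖ, hB.unif_mem⟩ = 0 :=
    Ideal.Quotient.eq_zero_iff_mem.2 (Ideal.mem_span_singleton_self _)
  rw [map_sub, map_mul, hqp, zero_mul, sub_zero, map_mul, hqy, map_pow, map_mul] at hq
  have hb0nn : Ideal.Quotient.mk (Ideal.span {(⟨ϖ, hB.unif_mem⟩ : B)}) b0 ∈ nn :=
    hle (Ideal.mem_map_of_mem _ ⟨f0, hf0, hb0⟩)
  have hmem : (Ideal.Quotient.mk (Ideal.span {(⟨ϖ, hB.unif_mem⟩ : B)}) s *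
      Ideal.Quotient.mk (Ideal.span {(⟨ϖ, hB.unif_mem⟩ : B)}) s') ^ (c + 1) ∈ nn := by
    rw [hq]
    exact nn.mul_mem_left _ (nn.mul_mem_right _ hb0nn)
  rcases hnn.isPrime.mem_or_mem (hnn.isPrime.mem_of_pow_mem _ hmem) with h | h
  · exact hs h
  · exact hs' h

end Fermat.Agent.ES.Model

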