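import Fermat.Agent.ES.MDefs

/-!
# ES, block MODEL, package M-H1FG : the torsion of `M12 / (M1 + M2)` is bounded
-/

set_option autoImplicit false

namespace Fermat.Agent.ES.Model

variable {F : Type*} [Field F]

namespace MH1

theorem add_mem {O : ValuationSubring F} {ϖ : F} {m : ℕ} {B : Subring F} (hB : IsChart O ϖ m B)
    (w : F) {f g : F} (hf : f ∈ MM m w B) (hg : g ∈ MM m w B) : f + g ∈ MM m w B := by
  rw [mem_MM] at *
  rw [add_pow, Finset.sum_mul]
  refine Subring.sum_mem _ fun i hi => ?_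
  have hi' : i ≤ m := by
    have := Finset.mem_range.mp hi
    omega
  have h1 : f ^ i * g ^ (m - i) * w ∈ B := by
    apply hB.root
    have h2 : (f ^ i * g ^ (m - i) * w) ^ m = (f ^ m * w) ^ i * (g ^ m * w) ^ (m - i) := by
      obtain ⟨k, rfl⟩ := Nat.exists_eq_add_of_le hi'
      rw [Nat.add_sub_cancel_left]
      ring
    rw [h2]
    exact B.mul_mem (B.pow_mem hf _) (B.pow_mem hg _)
  have h3 : f ^ i * g ^ (m - i) * (m.choose i : F) * w
      = (m.choose i : F) * (f ^ i * g ^ (m - i) * w) := by ring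
  rw [h3]
  exact B.mul_mem (natCast_mem B _) h1

theorem smul_mem {m : ℕ} {B : Subring F} (w : F) {b f : F} (hb : b ∈ B) (hf : f ∈ MM m w B) :
    b * f ∈ MM m w B := by
  rw [mem_MM] at *
  rw [mul_pow, mul_assoc]
  exact B.mul_mem (B.pow_mem hb _) hf

theorem zero_mem {m : ℕ} (hm : 0 < m) {B : Subring F} (w : F) : (0 : F) ∈ MM m w B := by
  rw [mem_MM, zero_pow hm.ne', zero_mul]
  exact B.zero_mem

theorem mono {m : ℕ} {B B' : Subring F} (h : B ≤ B') (w : F) {f : F} (hf : f ∈ MM m w B) :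
    f ∈ MM m w B' := h hf

/-- `MM m w B` as a module over a subring `A ≤ B`. -/
def sub {O : ValuationSubring F} {ϖ : F} {m : ℕ} {B : Subring F} (hB : IsChart O ϖ m B)
    (hm : 0 < m) (w : F) (A : Subring F) (hA : A ≤ B) : Submodule A F where
  carrier := MM m w B
  add_mem' := fun hf hg => add_mem hB w hf hg
  zero_mem' := zero_mem hm w
  smul_mem' := fun c _ hf => smul_mem w (hA c.2) hf

theorem mem_sub {O : ValuationSubring F} {ϖ : F} {m : ℕ} {B : Subring F} (hB : IsChart O ϖ m B)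
    (hm : 0 < m) (w : F) (A : Subring F) (hA : A ≤ B) (f : F) :
    f ∈ sub hB hm w A hA ↔ f ∈ MM m w B := Iff.rfl

/-- `R[t]` is noetherian. -/
theorem isNoetherianRing_closure (R : Subring F) [IsNoetherianRing R] (t : F) :
    IsNoetherianRing (Subring.closure ((R : Set F) ∪ {t})) := by
  have h : Subring.closure ((R : Set F) ∪ {t})
      = (Polynomial.eval₂RingHom R.subtype t).range := by
    apply le_antisymm
    · rw [Subring.closure_le]
      rintro x (hx | hx)
      · exact ⟨Polynomial.C ⟨x, hx⟩, by simp⟩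
      · rw [Set.mem_singleton_iff] at hx
        exact ⟨Polynomial.X, by simp [hx]⟩
    · rintro _ ⟨P, rfl⟩
      rw [Polynomial.coe_eval₂RingHom, Polynomial.eval₂_eq_sum_range]
      refine Subring.sum_mem _ fun i _ => ?_
      have h1 : R.subtype (P.coeff i) ∈ Subring.closure ((R : Set F) ∪ {t}) :=
        Subring.subset_closure (Or.inl (P.coeff i).2)
      have h2 : t ∈ Subring.closure ((R : Set F) ∪ {t}) := Subring.subset_closure (Or.inr rfl)
      exact Subring.mul_mem _ h1 (Subring.pow_mem _ h2 _)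
  rw [h]
  infer_instance

theorem pow_mul_mem {m : ℕ} (hm : 0 < m) {B : Subring F} (w : F) {s x : F} (hs : s ∈ B) {n : ℕ}
    (h : s ^ n * (x ^ m * w) ∈ B) : s ^ n * x ∈ MM m w B := by
  rw [mem_MM]
  have h1 : (s ^ n * x) ^ m * w = (s ^ n) ^ (m - 1) * (s ^ n * (x ^ m * w)) := by
    obtain ⟨k, rfl⟩ : ∃ k, m = k + 1 := ⟨m - 1, by omega⟩
    simp only [Nat.add_sub_cancel]
    ring
  rw [h1]
  exact B.mul_mem (B.pow_mem (B.pow_mem hs _) _) h

end MH1

/-- **M-H1FG** -/
theorem bounded_torsion (O : ValuationSubring F) (ϖ : F) (m : ℕ) (hm : 0 < m)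
    (R B1 B2 B12 : Subring F) [IsNoetherianRing R] (hR1 : R ≤ B1) (hR2 : R ≤ B2) (hϖR : ϖ ∈ R)
    (h1 : IsChart O ϖ m B1) (h2 : IsChart O ϖ m B2)
    (h12 : IsChart O ϖ m B12) (h1le : B1 ≤ B12) (h2le : B2 ≤ B12)
    (t : F) (ht : t ≠ 0) (ht1 : t ∈ B1) (ht2 : t⁻¹ ∈ B2)
    (h12a : ∀ x ∈ B12, ∃ n : ℕ, t ^ n * x ∈ B1) (h12b : ∀ x ∈ B12, ∃ n : ℕ, t⁻¹ ^ n * x ∈ B2)
    (hfin : ∃ S : Finset F, ∀ x ∈ B1,
      x ∈ Submodule.span (Subring.closure ((R : Set F) ∪ {t})) (S : Set F))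
    (w : F) (hwfrac : ∃ a ∈ B1, ∃ b ∈ B1, b ≠ 0 ∧ a ≠ 0 ∧ w = a / b) :
    ∃ c : ℕ, ∀ h ∈ MM m w B12, ∀ n : ℕ,
      (∃ a1 ∈ MM m w B1, ∃ a2 ∈ MM m w B2, ϖ ^ n * h = a1 + a2) →
      ∃ b1 ∈ MM m w B1, ∃ b2 ∈ MM m w B2, ϖ ^ c * h = b1 + b2 := by
  classical
  obtain ⟨S, hS⟩ := hfin
  obtain ⟨a, ha, b, hb, hb0, ha0, hw⟩ := hwfrac
  set A : Subring F := Subring.closure ((R : Set F) ∪ {t}) with hA
  have hAB : A ≤ B1 := by
    rw [hA, Subring.closure_le]
    rintro x (hx | hx)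
    · exact hR1 hx
    · rw [Set.mem_singleton_iff] at hx
      rw [hx]
      exact ht1
  have hAnoeth : IsNoetherianRing A := MH1.isNoetherianRing_closure R t
  -- `M1` is finitely generated over `A = R[t]`
  have hfg : (MH1.sub h1 hm w A hAB).FG := by
    have hW : ((Submodule.span A (S : Set F)).map (LinearMap.mulLeft A a⁻¹)).FG :=
      (Submodule.fg_span S.finite_toSet).map _
    have hWn := isNoetherian_of_fg_of_noetherian _ hW
    refine isNoetherian_submodule.mp hWn _ ?_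
    intro f hf
    rw [MH1.mem_sub, mem_MM] at hf
    have hfa : f * a ∈ B1 := by
      apply h1.root
      have h3 : (f * a) ^ m = (f ^ m * w) * (a ^ (m - 1) * b) := by
        obtain ⟨k, rfl⟩ : ∃ k, m = k + 1 := ⟨m - 1, by omega⟩
        simp only [Nat.add_sub_cancel]
        rw [hw]
        field_simp
        ring
      rw [h3]
      exact B1.mul_mem hf (B1.mul_mem (B1.pow_mem ha _) hb)
    refine ⟨f * a, hS _ hfa, ?_⟩
    simp only [LinearMap.mulLeft_apply]
    field_simp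
  obtain ⟨T, hT⟩ := hfg
  have hTM : ∀ y ∈ T, y ∈ MM m w B1 := by
    intro y hy
    have : y ∈ MH1.sub h1 hm w A hAB := by
      rw [← hT]
      exact Submodule.subset_span hy
    exact this
  have hn2 : ∀ x ∈ MM m w B12, ∃ n : ℕ, t⁻¹ ^ n * x ∈ MM m w B2 := by
    intro x hx
    obtain ⟨n, hn⟩ := h12b _ hx
    exact ⟨n, MH1.pow_mul_mem hm w ht2 hn⟩
  have hn1 : ∀ x ∈ MM m w B12, ∃ n : ℕ, t ^ n * x ∈ MM m w B1 := by
    intro x hx
    obtain ⟨n, hn⟩ := h12a _ hx
    exact ⟨n, MH1.pow_mul_mem hm w ht1 hn⟩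
  choose! ν hν using hn2
  set N : ℕ := T.sup ν with hN
  have hTN : ∀ y ∈ T, ∀ j, N ≤ j → t⁻¹ ^ j * y ∈ MM m w B2 := by
    intro y hy j hj
    have h3 : ν y ≤ j := (Finset.le_sup hy).trans hj
    have h4 : t⁻¹ ^ j * y = t⁻¹ ^ (j - ν y) * (t⁻¹ ^ ν y * y) := by
      rw [← mul_assoc, ← pow_add, Nat.sub_add_cancel h3]
    rw [h4]
    exact MH1.smul_mem w (B2.pow_mem ht2 _) (hν y (MH1.mono h1le w (hTM y hy)))
  set G : Submodule R F := Submodule.span R
    (((T ×ˢ Finset.range N).image (fun x => t⁻¹ ^ x.2 * x.1) : Finset F) : Set F) with hG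
  set P : Submodule R F := MH1.sub h1 hm w R hR1 ⊔ MH1.sub h2 hm w R hR2 with hP
  have hP1 : ∀ x ∈ MM m w B1, x ∈ P := fun x hx =>
    Submodule.mem_sup_left ((MH1.mem_sub h1 hm w R hR1 x).mpr hx)
  have hP2 : ∀ x ∈ MM m w B2, x ∈ P := fun x hx =>
    Submodule.mem_sup_right ((MH1.mem_sub h2 hm w R hR2 x).mpr hx)
  have hmulP : ∀ r ∈ R, ∀ (Q : Submodule R F), ∀ x ∈ Q, r * x ∈ Q := fun r hr Q x hx =>
    Q.smul_mem (⟨r, hr⟩ : R) hx
  -- stability of `{y | ∀ e, t ^ e * y ∈ P ⊔ G}` under `A`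
  have hAZ : ∀ q ∈ A, ∀ y : F, (∀ e : ℤ, t ^ e * y ∈ P ⊔ G) → ∀ e : ℤ, t ^ e * (q * y) ∈ P ⊔ G := by
    intro q hq
    induction hq using Subring.closure_induction with
    | mem x hx =>
      intro y hy e
      rcases hx with hx | hx
      · rw [mul_left_comm]
        exact hmulP x hx _ _ (hy e)
      · rw [Set.mem_singleton_iff] at hx
        rw [hx, ← mul_assoc, ← zpow_add_one₀ ht]
        exact hy _
    | zero => intro y _ e; simp
    | one => intro y hy e; simpa using hy e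
    | add x x' _ _ ihx ihx' =>
      intro y hy e
      rw [add_mul, mul_add]
      exact (P ⊔ G).add_mem (ihx y hy e) (ihx' y hy e)
    | neg x _ ihx =>
      intro y hy e
      rw [neg_mul, mul_neg]
      exact (P ⊔ G).neg_mem (ihx y hy e)
    | mul x x' _ _ ihx ihx' =>
      intro y hy e
      rw [mul_assoc]
      exact ihx _ (ihx' y hy) e
  have hZ : ∀ y ∈ Submodule.span A (T : Set F), ∀ e : ℤ, t ^ e * y ∈ P ⊔ G := by
    intro y hy
    induction hy using Submodule.span_induction with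
    | mem y hy =>
      intro e
      obtain ⟨j, rfl | rfl⟩ := e.eq_nat_or_neg
      · rw [zpow_natCast]
        exact Submodule.mem_sup_left (hP1 _ (MH1.smul_mem w (B1.pow_mem ht1 _) (hTM y hy)))
      · rw [zpow_neg, zpow_natCast, ← inv_pow]
        by_cases hj : j < N
        · refine Submodule.mem_sup_right (Submodule.subset_span ?_)
          rw [Finset.mem_coe, Finset.mem_image]
          exact ⟨(y, j), Finset.mem_product.mpr ⟨hy, Finset.mem_range.mpr hj⟩, rfl⟩
        · exact Submodule.mem_sup_left (hP2 _ (hTN y hy j (not_lt.mp hj)))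
    | zero => intro e; simp
    | add y y' _ _ ihy ihy' =>
      intro e
      rw [mul_add]
      exact (P ⊔ G).add_mem (ihy e) (ihy' e)
    | smul q y _ ihy =>
      intro e
      exact hAZ q q.2 y ihy e
  have hM12 : ∀ h ∈ MM m w B12, h ∈ P ⊔ G := by
    intro h hh
    obtain ⟨n, hn⟩ := hn1 h hh
    have h3 : t ^ n * h ∈ Submodule.span A (T : Set F) := by
      rw [hT]
      exact hn
    have h4 := hZ _ h3 (-(n : ℤ))
    rwa [zpow_neg, zpow_natCast, inv_mul_cancel_left₀ (pow_ne_zero _ ht)] at h4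
  -- the stabilising chain
  have hGn : IsNoetherian R G := isNoetherian_of_fg_of_noetherian G
    (Submodule.fg_span (Finset.finite_toSet _))
  let K : ℕ →o Submodule R G :=
    { toFun := fun n =>
        { carrier := {g | ϖ ^ n * (g : F) ∈ P}
          add_mem' := by
            intro x y hx hy
            simp only [Set.mem_ofPred_eq, Submodule.coe_add, mul_add] at *
            exact P.add_mem hx hy
          zero_mem' := by simp
          smul_mem' := by
            intro r x hx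
            simp only [Set.mem_ofPred_eq, Submodule.coe_smul, Subring.smul_def, smul_eq_mul] at *
            rw [mul_left_comm]
            exact hmulP r r.2 P _ hx }
      monotone' := by
        intro n n' hnn' g hg
        show ϖ ^ n' * (g : F) ∈ P
        have h3 : ϖ ^ n' * (g : F) = ϖ ^ (n' - n) * (ϖ ^ n * (g : F)) := by
          rw [← mul_assoc, ← pow_add, Nat.sub_add_cancel hnn']
        rw [h3]
        exact hmulP _ (R.pow_mem hϖR _) P _ hg }
  obtain ⟨c, hc⟩ := monotone_stabilizes_iff_noetherian.mpr hGn K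
  refine ⟨c, fun h hh n hn => ?_⟩
  obtain ⟨a1, ha1, a2, ha2, hsum⟩ := hn
  obtain ⟨x, hx, g, hg, rfl⟩ := Submodule.mem_sup.mp (hM12 h hh)
  have hgn : (⟨g, hg⟩ : G) ∈ K n := by
    show ϖ ^ n * g ∈ P
    have h3 : ϖ ^ n * g = (a1 + a2) - ϖ ^ n * x := by rw [← hsum]; ring
    rw [h3]
    exact P.sub_mem (P.add_mem (hP1 _ ha1) (hP2 _ ha2)) (hmulP _ (R.pow_mem hϖR _) P _ hx)
  have hgc : (⟨g, hg⟩ : G) ∈ K c := by
    rw [hc (max n c) (le_max_right _ _)]
    exact K.monotone (le_max_left n c) hgn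
  have hfinal : ϖ ^ c * (x + g) ∈ P := by
    rw [mul_add]
    exact P.add_mem (hmulP _ (R.pow_mem hϖR _) P _ hx) hgc
  obtain ⟨b1, hb1, b2, hb2, hb12⟩ := Submodule.mem_sup.mp hfinal
  exact ⟨b1, hb1, b2, hb2, hb12.symm⟩

end Fermat.Agent.ES.Model
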