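import Fermat.Agent.ES.MFin
import Fermat.Agent.ES.MBeta
import Fermat.Agent.ES.MH1

/-!
# ES / MODEL : the abstract injectivity theorem `inj_abs`

Assembly of `beta` (M-BETA), `bounded_torsion` (M-H1FG) and `fin` (M-FIN).
-/

set_option autoImplicit false

namespace Fermat.Agent.ES.Model

variable {F : Type*} [Field F]

/-- **M-ABS**: the abstract INJ theorem = output of MODEL. -/
theorem inj_abs (O : ValuationSubring F) (ϖ : F) (hO : IsUnif O ϖ) (m : ℕ) (hm : 0 < m)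
    (R B1 B2 B12 : Subring F) [IsNoetherianRing R] (hR1 : R ≤ B1) (hR2 : R ≤ B2) (hϖR : ϖ ∈ R)
    (h1 : IsChart O ϖ m B1) (h2 : IsChart O ϖ m B2)
    (h12 : IsChart O ϖ m B12) (h1le : B1 ≤ B12) (h2le : B2 ≤ B12)
    (t : F) (ht : t ≠ 0) (ht1 : t ∈ B1) (ht2 : t⁻¹ ∈ B2)
    (h12a : ∀ x ∈ B12, ∃ n : ℕ, t ^ n * x ∈ B1) (h12b : ∀ x ∈ B12, ∃ n : ℕ, t⁻¹ ^ n * x ∈ B2)
    (hfin : ∃ S : Finset F, ∀ x ∈ B1,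
      x ∈ Submodule.span (Subring.closure ((R : Set F) ∪ {t})) (S : Set F))
    (hloc1 : ∀ x ∈ O, ∃ s ∈ B1, s ≠ 0 ∧ s⁻¹ ∈ O ∧ s * x ∈ B1)
    (hloc2 : ∀ x ∈ O, ∃ s ∈ B2, s ≠ 0 ∧ s⁻¹ ∈ O ∧ s * x ∈ B2)
    (hded1 : IsDedekindDomain (B1 ⧸ Ideal.span {(⟨ϖ, h1.unif_mem⟩ : B1)}))
    (hded2 : IsDedekindDomain (B2 ⧸ Ideal.span {(⟨ϖ, h2.unif_mem⟩ : B2)}))
    (w : F) (hw : w ≠ 0) (hw1 : DivO O ϖ 1 (w - 1))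
    (hdiv1 : ∃ (c : ℕ) (ι : Type) (_ : Fintype ι) (g g' : ι → F), (∀ i, g i ∈ MM m w B1) ∧
      (∀ i, g' i ∈ MM m w⁻¹ B1) ∧ ϖ ^ c = ∑ i, g i * g' i)
    (hdiv2 : ∃ (c : ℕ) (ι : Type) (_ : Fintype ι) (g g' : ι → F), (∀ i, g i ∈ MM m w B2) ∧
      (∀ i, g' i ∈ MM m w⁻¹ B2) ∧ ϖ ^ c = ∑ i, g i * g' i) :
    ∃ u : F, u ≠ 0 ∧ u ^ m * w ∈ B1 ∧ u ^ m * w ∈ B2 ∧ DivO O ϖ 1 (u - 1) := by
  obtain ⟨f1, hf1, hf1'⟩ := beta O ϖ hO m hm B1 h1 hloc1 hded1 w hw hw1 hdiv1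
  obtain ⟨f2, hf2, hf2'⟩ := beta O ϖ hO m hm B2 h2 hloc2 hded2 w hw hw1 hdiv2
  have hwfrac : ∃ a ∈ B1, ∃ b ∈ B1, b ≠ 0 ∧ a ≠ 0 ∧ w = a / b := by
    have hwO : w ∈ O := by
      obtain ⟨y, hy, h⟩ := hw1
      have : w = 1 + ϖ ^ 1 * y := by rw [← h]; ring
      rw [this]
      exact O.add_mem _ _ O.one_mem (O.mul_mem _ _ (O.pow_mem hO.mem 1) hy)
    obtain ⟨s, hs, hs0, -, hsw⟩ := hloc1 w hwO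
    exact ⟨s * w, hsw, s, hs, hs0, mul_ne_zero hs0 hw, by field_simp⟩
  obtain ⟨c, hc⟩ := bounded_torsion O ϖ m hm R B1 B2 B12 hR1 hR2 hϖR h1 h2 h12 h1le h2le t ht ht1
    ht2 h12a h12b hfin w hwfrac
  exact fin O ϖ hO m hm B1 B2 B12 h1 h2 h12 h1le h2le w hw hw1 f1 f2 hf1 hf1' hf2 hf2' c hc

end Fermat.Agent.ES.Model
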