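import Fermat.Agent.ES.InstDefs
import Fermat.Agent.ES.MAbs

/-!
# ES, block INJ, instantiation : `inj_abs` in the QE language
-/

set_option autoImplicit false

noncomputable section

namespace Fermat.Agent.ES.Inst

open Polynomial Fermat.Agent.ES.QE Fermat.Agent.ES.Model

variable {R K k : Type*} [CommRing R] [IsDomain R] [IsNoetherianRing R] [IsIntegrallyClosed R]
  [Field K] [Algebra R K] [IsFractionRing R K] [Field k] {D : QData R K k}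

namespace InstAbs

theorem ϖF_mem_chart (X : D.Coord) : D.ϖF ∈ X.chart := (ϖB X).2

theorem pow_mul_mem (X : D.Coord) {c c' : ℕ} (h : c ≤ c') {z : D.F0}
    (hz : D.ϖF ^ c * z ∈ X.chart) : D.ϖF ^ c' * z ∈ X.chart := by
  obtain ⟨e, rfl⟩ := Nat.exists_eq_add_of_le h
  have : D.ϖF ^ (c + e) * z = D.ϖF ^ e * (D.ϖF ^ c * z) := by ring
  rw [this]
  exact mul_mem (pow_mem (ϖF_mem_chart X) e) hz

/-- a uniform exponent for a finite family. -/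
theorem exists_uniform (X : D.Coord) {n : ℕ} (z : Fin n → D.F0) (hz : ∀ i, IsIntK X (z i)) :
    ∃ c : ℕ, ∀ i, D.ϖF ^ c * z i ∈ X.chart := by
  choose c hc using hz
  exact ⟨Finset.univ.sup c, fun i => pow_mul_mem X (Finset.le_sup (Finset.mem_univ i)) (hc i)⟩

/-- from witnesses over `K[x]` to the hypothesis `hdiv` of `inj_abs`. -/
theorem hdiv_of_isIntK (X : D.Coord) (m : ℕ) (hm : 0 < m) (w : D.F0)
    (h : ∃ (n : ℕ) (g g' : Fin n → D.F0), (∀ i, IsIntK X (g i ^ m * w)) ∧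
      (∀ i, IsIntK X (g' i ^ m * w⁻¹)) ∧ ∑ i, g i * g' i = 1) :
    ∃ (c : ℕ) (ι : Type) (_ : Fintype ι) (g g' : ι → D.F0), (∀ i, g i ∈ MM m w X.chart) ∧
      (∀ i, g' i ∈ MM m w⁻¹ X.chart) ∧ D.ϖF ^ c = ∑ i, g i * g' i := by
  obtain ⟨n, g, g', h1, h2, h3⟩ := h
  obtain ⟨c1, hc1⟩ := exists_uniform X _ h1
  obtain ⟨c2, hc2⟩ := exists_uniform X _ h2
  refine ⟨c1 + c2, Fin n, inferInstance, fun i => D.ϖF ^ c1 * g i, fun i => D.ϖF ^ c2 * g' i,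
    fun i => ?_, fun i => ?_, ?_⟩
  · rw [mem_MM]
    have : (D.ϖF ^ c1 * g i) ^ m * w = D.ϖF ^ (c1 * m) * (g i ^ m * w) := by
      rw [mul_pow, ← pow_mul, mul_assoc]
    rw [this]
    exact pow_mul_mem X (Nat.le_mul_of_pos_right c1 hm) (hc1 i)
  · rw [mem_MM]
    have : (D.ϖF ^ c2 * g' i) ^ m * w⁻¹ = D.ϖF ^ (c2 * m) * (g' i ^ m * w⁻¹) := by
      rw [mul_pow, ← pow_mul, mul_assoc]
    rw [this]
    exact pow_mul_mem X (Nat.le_mul_of_pos_right c2 hm) (hc2 i)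
  · have : ∀ i, D.ϖF ^ c1 * g i * (D.ϖF ^ c2 * g' i) = D.ϖF ^ (c1 + c2) * (g i * g' i) := by
      intro i; ring
    simp only [this]
    rw [← Finset.mul_sum, h3, mul_one]

end InstAbs

open InstAbs in
/-- **I-ABS**: `inj_abs` in the QE language. -/
theorem inj_QE [CharZero K] (X : D.Coord) (y : LaurentSeries R) (hy : X.xW * y = 1) (m : ℕ)
    (hm : IsUnit (m : R))
    (hded1 : IsDedekindDomain (X.chart ⧸ Ideal.span {ϖB X}))
    (hded2 : IsDedekindDomain ((X.inv y hy).chart ⧸ Ideal.span {ϖB (X.inv y hy)}))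
    (w : D.F0) (hw : w ≠ 0) (hw1 : DivO D.gaussO D.ϖF 1 (w - 1))
    (hdiv1 : ∃ (n : ℕ) (g g' : Fin n → D.F0), (∀ i, IsIntK X (g i ^ m * w)) ∧
      (∀ i, IsIntK X (g' i ^ m * w⁻¹)) ∧ ∑ i, g i * g' i = 1)
    (hdiv2 : ∃ (n : ℕ) (g g' : Fin n → D.F0), (∀ i, IsIntK (X.inv y hy) (g i ^ m * w)) ∧
      (∀ i, IsIntK (X.inv y hy) (g' i ^ m * w⁻¹)) ∧ ∑ i, g i * g' i = 1) :
    ∃ u : D.F0, u ≠ 0 ∧ u ^ m * w ∈ X.chart ∧ u ^ m * w ∈ (X.inv y hy).chart := by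
  have hm0 : 0 < m := by
    refine Nat.pos_of_ne_zero ?_
    rintro rfl
    rw [Nat.cast_zero] at hm
    exact not_isUnit_zero hm
  obtain ⟨u, hu0, hu1, hu2, -⟩ := inj_abs D.gaussO D.ϖF D.isUnif m hm0 D.RF X.chart
    (X.inv y hy).chart X.chart12 X.RF_le_chart (X.inv y hy).RF_le_chart D.ϖF_mem_RF
    (X.isChart hm) ((X.inv y hy).isChart hm) (X.isChart12 y hy hm) X.chart_le_chart12
    (X.inv_chart_le_chart12 y hy) X.x (X.x_ne_zero y hy) X.x_mem_chart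
    (X.x_inv_mem_inv_chart y hy) (fun _ hf => X.h12a hf) (fun _ hf => X.h12b y hy hf)
    X.hfin (fun _ hg => X.hloc hg) (fun _ hg => (X.inv y hy).hloc hg) hded1 hded2 w hw hw1
    (hdiv_of_isIntK X m hm0 w hdiv1) (hdiv_of_isIntK (X.inv y hy) m hm0 w hdiv2)
  exact ⟨u, hu0, hu1, hu2⟩

end Fermat.Agent.ES.Inst
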