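import Fermat.Agent.ES.InstDefs
import Fermat.Agent.ES.ConstK

/-!
# ES, block INJ, package I-CONST : a function integral over `R[x]` and over `R[1/x]` is constant
-/

set_option autoImplicit false

namespace Fermat.Agent.ES.Inst

open ModularCurve Polynomial IntermediateField Fermat.Agent.ES.QE

namespace InstConst

open scoped IntermediateField.algebraAdjoinAdjoin

/-- integral over `K[y]` and over `K[1/y]` implies algebraic over `K` -/
theorem isAlgebraic_of_isIntegral {K F : Type*} [Field K] [Field F] [Algebra K F] {y u : F}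
    (hy : Transcendental K y) (h1 : IsIntegral (Algebra.adjoin K {y}) u)
    (h2 : IsIntegral (Algebra.adjoin K {y⁻¹}) u) : IsAlgebraic K u := by
  have hy' : Transcendental K y⁻¹ := by
    intro h1
    apply hy
    have := h1.inv
    rwa [inv_inv] at this
  have e := ConstAbs.adjoin_inv_eq (K := K) y
  have hc : ∀ n, ∃ c : K, (((minpoly K⟮y⟯ u).coeff n : K⟮y⟯) : F) = algebraMap K F c := by
    intro n
    refine ConstAbs.mem_range_of_mem_adjoin hy (ConstAbs.coeff_minpoly_mem hy h1 n) ?_
    rw [← ConstAbs.coe_coeff_minpoly_congr e u n]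
    exact ConstAbs.coeff_minpoly_mem hy' h2 n
  choose c hc using hc
  have hint : IsIntegral K⟮y⟯ u := h1.tower_top
  set μ := minpoly K⟮y⟯ u with hμ
  refine ⟨∑ n ∈ Finset.range (μ.natDegree + 1), Polynomial.monomial n (c n), ?_, ?_⟩
  · intro h0
    have h3 := congrArg (fun p => Polynomial.coeff p μ.natDegree) h0
    simp only [Polynomial.finsetSum_coeff, Polynomial.coeff_monomial, Polynomial.coeff_zero] at h3
    rw [Finset.sum_ite_eq' ] at h3
    simp only [Finset.mem_range, Nat.lt_succ_self, if_true] at h3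
    have h4 := hc μ.natDegree
    rw [h3, map_zero] at h4
    have h5 : μ.coeff μ.natDegree = 1 := (minpoly.monic hint)
    rw [h5] at h4
    simp at h4
  · rw [map_sum]
    have h3 : aeval u μ = 0 := minpoly.aeval _ _
    rw [aeval_eq_sum_range] at h3
    rw [← h3]
    refine Finset.sum_congr rfl fun n _ => ?_
    rw [aeval_monomial, ← hc n, Algebra.smul_def]
    rfl

variable {R K k : Type*} [CommRing R] [IsDomain R] [IsNoetherianRing R] [IsIntegrallyClosed R]
  [Field K] [Algebra R K] [IsFractionRing R K] [Field k] {D : QData R K k}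

lemma phi_eq_aeval (X : D.Coord) (σ : R[X]) :
    X.phi σ = aeval (D.inc X.xW) (σ.map (algebraMap R K)) := by
  rw [X.phi_apply, D.inc_evS, aeval_eq_evS]

lemma transcendental_inc (X : D.Coord) : Transcendental K (D.inc X.xW) := by
  rw [transcendental_iff]
  intro p hp
  obtain ⟨d, a', hd, ha'⟩ := exists_int_mul R K (fun _ : Unit => p)
  have h1 : X.phi (a' ()) = 0 := by
    rw [phi_eq_aeval, ha' (), map_mul, hp, mul_zero]
  have h2 : a' () = 0 := X.phi_injective (by rw [h1, map_zero])
  have h3 := ha' ()
  rw [h2, Polynomial.map_zero] at h3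
  have hd' : (C (algebraMap R K d) : K[X]) ≠ 0 := by
    rw [Ne, C_eq_zero]
    exact fun h => hd ((IsFractionRing.injective R K) (by rw [h, map_zero]))
  exact (mul_eq_zero.mp h3.symm).resolve_left hd'

lemma isIntegral_adjoin (X : D.Coord) {f : LaurentSeries K} (hf : X.phi.IsIntegralElem f) :
    IsIntegral (Algebra.adjoin K {D.inc X.xW}) f := by
  let g : R[X] →+* Algebra.adjoin K {D.inc X.xW} :=
    X.phi.codRestrict (Algebra.adjoin K {D.inc X.xW}).toSubring (fun σ => by
      rw [phi_eq_aeval]
      exact Algebra.adjoin_singleton_eq_range_aeval K (D.inc X.xW) ▸ ⟨_, rfl⟩)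
  have h1 : ((algebraMap (Algebra.adjoin K {D.inc X.xW}) (LaurentSeries K)).comp g).IsIntegralElem f :=
    hf
  exact RingHom.IsIntegralElem.of_comp h1

end InstConst

variable {R K k : Type*} [CommRing R] [IsDomain R] [IsNoetherianRing R] [IsIntegrallyClosed R]
  [Field K] [Algebra R K] [IsFractionRing R K] [Field k] {D : QData R K k}

/-- **I-CONST** -/
theorem const_of_mem_charts (X : D.Coord) (y : LaurentSeries R) (hy : X.xW * y = 1) (f : D.F0)
    (h1 : f ∈ X.chart) (h2 : f ∈ (X.inv y hy).chart) : ∃ c : K, f = algebraMap K D.F0 c := by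
  have e : D.inc y = (D.inc X.xW)⁻¹ := by
    have h : D.inc X.xW * D.inc y = 1 := by rw [← map_mul, hy, map_one]
    exact eq_inv_of_mul_eq_one_right h
  have k1 := InstConst.isIntegral_adjoin X h1
  have k2 := InstConst.isIntegral_adjoin (X.inv y hy) h2
  have k2' : IsIntegral (Algebra.adjoin K {(D.inc X.xW)⁻¹}) (f : LaurentSeries K) := by
    rw [← e]
    exact k2
  have k3 := InstConst.isAlgebraic_of_isIntegral (InstConst.transcendental_inc X) k1 k2'
  obtain ⟨c, hc⟩ := ConstKAux.const_of_isAlgebraic _ k3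
  exact ⟨c, Subtype.ext hc⟩

end Fermat.Agent.ES.Inst
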