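import Fermat.Agent.ES.InstDefs
import Fermat.Agent.S28.Ord

/-!
# ES, block INJ, instantiation : from integral coordinate data to a QE coordinate
-/

set_option autoImplicit false

noncomputable section

namespace Fermat.Agent.ES.Inst

open ModularCurve Polynomial Fermat.Agent.ES.QE Fermat.Agent.S28

namespace InstCoord

theorem coeffMap_zS {S T : Type*} [CommRing S] [CommRing T] (f : S →+* T) (x : LaurentSeries ℤ) :
    coeffMap f (zS S x) = zS T x := by
  rw [zS, zS, coeffMap_coeffMap]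
  exact coeffMap_congr (RingHom.ext_int _ _) x

theorem zS_mul (S : Type*) [CommRing S] (x y : LaurentSeries ℤ) :
    zS S (x * y) = zS S x * zS S y := map_mul _ _ _

theorem zS_one (S : Type*) [CommRing S] : zS S 1 = 1 := map_one _

theorem zS_jq (S : Type*) [CommRing S] : zS S (jqModC ℤ) = jqModC S := coeffMap_jqModC _

theorem zS_evS (S : Type*) [CommRing S] (x : LaurentSeries ℤ) (p : ℤ[X]) :
    zS S (evS x p) = evS (zS S x) (p.map (Int.castRingHom S)) := coeffMap_evS _ _ _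

theorem zS_coeff (S : Type*) [CommRing S] (x : LaurentSeries ℤ) (n : ℤ) :
    (zS S x).coeff n = ((x.coeff n : ℤ) : S) := rfl

theorem order_zS {N ℓ : ℕ} (Z : ZCoord N ℓ) (S : Type*) [CommRing S] [Nontrivial S] :
    (zS S Z.xZ).order = -1 := by
  apply Ord.order_eq_of
  · rw [zS_coeff, Z.coeff_neg_one, Int.cast_one]
    exact one_ne_zero
  · intro n hn
    rw [zS_coeff, Z.coeff_of_lt n hn, Int.cast_zero]

theorem transcendental_zS {N ℓ : ℕ} (Z : ZCoord N ℓ) (k : Type*) [Field k] :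
    Transcendental k (zS k Z.xZ) :=
  Ord.transcendental_of_order_neg (by rw [order_zS]; norm_num)

theorem evS_zS_ne_zero {N ℓ : ℕ} (Z : ZCoord N ℓ) (k : Type*) [Field k] {p : k[X]} (hp : p ≠ 0) :
    evS (zS k Z.xZ) p ≠ 0 := by
  rw [← aeval_eq_evS]
  intro h
  exact hp ((transcendental_iff.mp (transcendental_zS Z k)) p h)

theorem rel_zS {N ℓ : ℕ} (Z : ZCoord N ℓ) (S : Type*) [CommRing S] :
    jqModC S * evS (zS S Z.xZ) (Z.Q.map (Int.castRingHom S)) =
      evS (zS S Z.xZ) (Z.P.map (Int.castRingHom S)) := by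
  rw [← zS_evS, ← zS_evS, ← Z.rel, zS_mul, zS_jq]

theorem map_Q_ne_zero {N ℓ : ℕ} (Z : ZCoord N ℓ) (k : Type*) [Field k] [CharP k ℓ] :
    Z.Q.map (Int.castRingHom k) ≠ 0 := by
  have h : Z.Q.map (Int.castRingHom k) =
      (Z.Q.map (Int.castRingHom (ZMod ℓ))).map (ZMod.castHom dvd_rfl k) := by
    rw [Polynomial.map_map]
    congr 1
    exact RingHom.ext_int _ _
  rw [h, Ne, Polynomial.map_eq_zero_iff (ZMod.castHom_injective k)]
  exact Z.Q_prim

end InstCoord

open InstCoord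

variable {R K k : Type*} [CommRing R] [IsDomain R] [IsNoetherianRing R] [IsIntegrallyClosed R]
  [Field K] [Algebra R K] [IsFractionRing R K] [Field k]

/-- **I-COORD**: the QE coordinate attached to integral coordinate data. -/
def toCoord {N ℓ : ℕ} (Z : ZCoord N ℓ) (D : QData R K k) [CharP k ℓ]
    (hx : zS K Z.xZ ∈ D.F0) : D.Coord where
  xW := zS R Z.xZ
  mem := by
    have : D.inc (zS R Z.xZ) = zS K Z.xZ := coeffMap_zS _ _
    rw [this]
    exact hx
  P := Z.P.map (Int.castRingHom R)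
  Q := Z.Q.map (Int.castRingHom R)
  Q_prim := by
    rw [← D.map_res_eq_zero_iff, Polynomial.map_map]
    have : D.res.comp (Int.castRingHom R) = Int.castRingHom k := RingHom.ext_int _ _
    rw [this]
    exact map_Q_ne_zero Z k
  rel := rel_zS Z R
  trans := by
    intro p hp
    have : D.red (zS R Z.xZ) = zS k Z.xZ := coeffMap_zS _ _
    rw [this]
    exact evS_zS_ne_zero Z k hp

theorem toCoord_xW {N ℓ : ℕ} (Z : ZCoord N ℓ) (D : QData R K k) [CharP k ℓ]
    (hx : zS K Z.xZ ∈ D.F0) : (toCoord Z D hx).xW = zS R Z.xZ := rfl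

theorem toCoord_mul {N ℓ : ℕ} (Z : ZCoord N ℓ) (D : QData R K k) [CharP k ℓ]
    (hx : zS K Z.xZ ∈ D.F0) : (toCoord Z D hx).xW * zS R Z.yZ = 1 := by
  rw [toCoord_xW, ← zS_mul, Z.mul_eq, zS_one]

theorem coe_toCoord_x {N ℓ : ℕ} (Z : ZCoord N ℓ) (D : QData R K k) [CharP k ℓ]
    (hx : zS K Z.xZ ∈ D.F0) : ((toCoord Z D hx).x : LaurentSeries K) = zS K Z.xZ :=
  coeffMap_zS _ _

end Fermat.Agent.ES.Inst
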