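import Fermat.Agent.ES.RamAdapter

/-!
# ES / INJ : the hypothesis `hRAM` of `Purity` for `𝔸 = R[X]`, from unramifiedness at places

`hRAM_poly` : `R` a domain with fraction field `K0 = R[1/ϖ]` of characteristic zero, `E` a finite
extension of `Frac R[X]`, embedded in a function field `Eb` over an algebraically closed field `Kb`
algebraic over `K0`.  If all places of `Eb` over `y = a`, `g(a) ≠ 0`, are unramified over the
`y`-line, then `hRAM` holds.
-/

set_option autoImplicit false
set_option linter.style.haveILetI false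
set_option linter.unusedSectionVars false

namespace Fermat.Agent.ES.RamAdapter

open Polynomial AlgebraicCurve IntermediateField

noncomputable section

attribute [local instance] Polynomial.algebra

variable {R K0 : Type*} [CommRing R] [IsDomain R] [Field K0] [Algebra R K0] [IsFractionRing R K0]

/-- `K0 = R[1/ϖ]`. -/
theorem isLocalization_away_of (ϖ : R) (hϖ0 : ϖ ≠ 0)
    (hloc : ∀ c : K0, ∃ (k : ℕ) (r : R), algebraMap R K0 ϖ ^ k * c = algebraMap R K0 r) :
    IsLocalization.Away ϖ K0 where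
  map_units := by
    rintro ⟨_, k, rfl⟩
    refine IsUnit.mk0 _ ?_
    simpa using pow_ne_zero k hϖ0
  surj := by
    intro c
    obtain ⟨k, r, h⟩ := hloc c
    exact ⟨(r, ⟨ϖ ^ k, k, rfl⟩), by simpa [mul_comm] using h⟩
  exists_of_eq := by
    intro a b h
    exact ⟨1, by rw [IsFractionRing.injective R K0 h]⟩

theorem isLocalization_away_poly (ϖ : R) [IsLocalization.Away ϖ K0] :
    IsLocalization.Away (C ϖ : R[X]) K0[X] := by
  have := Polynomial.isLocalization (Submonoid.powers ϖ) K0
  rwa [Submonoid.map_powers] at this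

/-- **RAM**, concrete form: `hRAM` of `Purity` for `𝔸 = R[X]`, `π = C ϖ`, from unramifiedness of
the places of `Eb / Kb` over the points `y = a` with `g(a) ≠ 0`. -/
theorem hRAM_poly [CharZero K0] (ϖ : R) (hϖ0 : ϖ ≠ 0)
    (hloc : ∀ c : K0, ∃ (k : ℕ) (r : R), algebraMap R K0 ϖ ^ k * c = algebraMap R K0 r)
    (K E B : Type*) [Field K] [Algebra R[X] K] [IsFractionRing R[X] K]
    [Field E] [Algebra K E] [Algebra R[X] E] [IsScalarTower R[X] K E] [FiniteDimensional K E]
    [CommRing B] [Algebra R[X] B] [Algebra B E] [IsScalarTower R[X] B E]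
    [IsIntegralClosure B R[X] E]
    {Kb Eb : Type*} [Field Kb] [Field Eb] [Algebra Kb Eb] [CharZero Kb] [IsAlgClosed Kb]
    (κ : K0 →+* Kb) (hκ : ∀ c : Kb, κ.IsIntegralElem c) (ι : E →+* Eb)
    (y : Eb) (hy : Transcendental Kb y) [FiniteDimensional Kb⟮y⟯ Eb]
    (hC : ∀ a : R, ι (algebraMap R[X] E (C a)) = algebraMap Kb Eb (κ (algebraMap R K0 a)))
    (hX : ι (algebraMap R[X] E X) = y) (g : R[X]) (hg : g ≠ 0)
    (hU : ∀ a : Kb, (g.map (κ.comp (algebraMap R K0))).eval a ≠ 0 → ∀ v : Place Kb Eb,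
      0 < v.ord (y - algebraMap Kb Eb a) → v.ord (y - algebraMap Kb Eb a) = 1)
    (z : E) (hz : ∀ b : B, ∃ a : R[X],
      Algebra.trace K E (z * algebraMap B E b) = algebraMap R[X] K a) :
    ∃ (M k : ℕ) (u : B), 0 < M ∧
      algebraMap R[X] E (C ϖ) ^ k * (algebraMap R[X] E g * z) ^ M =
        algebraMap R[X] E g * algebraMap B E u := by
  haveI l1 : IsLocalization.Away ϖ K0 := isLocalization_away_of ϖ hϖ0 hloc
  haveI l2 : IsLocalization.Away (C ϖ : R[X]) K0[X] := isLocalization_away_poly ϖ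
  have hunits : ∀ m : Submonoid.powers (C ϖ : R[X]), IsUnit (algebraMap R[X] K (m : R[X])) := by
    rintro ⟨_, k, rfl⟩
    refine IsUnit.mk0 _ ?_
    have : (C ϖ : R[X]) ^ k ≠ 0 := pow_ne_zero k (by simpa using hϖ0)
    simpa using this
  letI a1 : Algebra K0[X] K := (IsLocalization.lift (M := Submonoid.powers (C ϖ : R[X]))
    (S := K0[X]) (g := algebraMap R[X] K) hunits).toAlgebra
  haveI t1 : IsScalarTower R[X] K0[X] K := IsScalarTower.of_algebraMap_eq fun p =>
    (IsLocalization.lift_eq (M := Submonoid.powers (C ϖ : R[X])) (S := K0[X]) hunits p).symm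
  haveI f1 : IsFractionRing K0[X] K :=
    IsFractionRing.isFractionRing_of_isDomain_of_isLocalization
      (Submonoid.powers (C ϖ : R[X])) K0[X] K
  letI a2 : Algebra K0[X] E := ((algebraMap K E).comp (algebraMap K0[X] K)).toAlgebra
  haveI t2 : IsScalarTower K0[X] K E := IsScalarTower.of_algebraMap_eq fun _ => rfl
  haveI t3 : IsScalarTower R[X] K0[X] E := IsScalarTower.of_algebraMap_eq fun a => by
    rw [IsScalarTower.algebraMap_apply R[X] K E, IsScalarTower.algebraMap_apply R[X] K0[X] K,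
      ← IsScalarTower.algebraMap_apply K0[X] K E]
  haveI c1 : CharZero K := charZero_of_injective_algebraMap (IsFractionRing.injective K0[X] K)
  haveI s1 : Algebra.IsSeparable K E := inferInstance
  have hC' : ∀ a : K0, ι (algebraMap K0[X] E (C a)) = algebraMap Kb Eb (κ a) := by
    have : (ι.comp ((algebraMap K0[X] E).comp C)) = (algebraMap Kb Eb).comp κ := by
      apply IsLocalization.ringHom_ext (nonZeroDivisors R)
      ext a
      simp only [RingHom.comp_apply]
      rw [← hC a, IsScalarTower.algebraMap_apply R[X] K0[X] E, Polynomial.algebraMap_def,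
        coe_mapRingHom, map_C]
    intro a
    exact congrArg (fun f : K0 →+* Eb => f a) this
  have hX' : ι (algebraMap K0[X] E X) = y := by
    rw [← hX, IsScalarTower.algebraMap_apply R[X] K0[X] E, Polynomial.algebraMap_def,
      coe_mapRingHom, map_X]
  refine hRAM_of_hU R[X] K E B (C ϖ) K0[X] g hg ?_ z hz
  intro Q hQp hQ hgQ
  refine UDesc.not_sq_dvd κ hκ ι y hy hC' hX' (algebraMap R[X] K0[X] g) ?_ Q hQp hQ hgQ
  intro a ha
  apply hU a
  rwa [Polynomial.algebraMap_def, coe_mapRingHom, Polynomial.map_map] at ha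

/-- the hypothesis `hloc` of `hRAM_poly` for a discrete valuation ring. -/
theorem hloc_of_dvr [IsDiscreteValuationRing R] (ϖ : R) (hϖ : Irreducible ϖ) (c : K0) :
    ∃ (k : ℕ) (r : R), algebraMap R K0 ϖ ^ k * c = algebraMap R K0 r := by
  obtain ⟨a, b, hb, rfl⟩ := IsFractionRing.div_surjective (A := R) c
  have hb0 : b ≠ 0 := nonZeroDivisors.ne_zero hb
  obtain ⟨k, u, rfl⟩ := IsDiscreteValuationRing.eq_unit_mul_pow_irreducible hb0 hϖ
  refine ⟨k, ((u⁻¹ : Rˣ) : R) * a, ?_⟩
  have h1 : algebraMap R K0 ϖ ≠ 0 := by simpa using hϖ.ne_zero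
  have h2 : algebraMap R K0 (u : R) * algebraMap R K0 ((u⁻¹ : Rˣ) : R) = 1 := by
    rw [← map_mul, Units.mul_inv, map_one]
  have h3 : algebraMap R K0 (u : R) ≠ 0 := left_ne_zero_of_mul_eq_one h2
  rw [map_mul, map_mul, map_pow]
  field_simp
  linear_combination (- algebraMap R K0 a) * h2

end

end Fermat.Agent.ES.RamAdapter
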