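import Fermat.Agent.ES.InstUp
import Fermat.Agent.ES.RamPoly

/-!
# ES / INJ, instantiation : `hRAM` of `Purity` for a coordinate of a `QData` over `A ∩ K0`

from unramifiedness at the places of `FF N` (place-level (U)).
-/

set_option autoImplicit false

noncomputable section

namespace Fermat.Agent.ES.Inst

open ModularCurve AlgebraicCurve Polynomial IntermediateField
open Fermat.Agent.S24 Fermat.Agent.S28 Fermat.Agent.ES.QE Fermat.Agent.ES.IDvr

/-- **hRAM** for `𝔸 = R[X]` (`R = A ∩ K0`), `E = D.F0`, `π = C ϖ`; `K`, `B` and the algebra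
structures are arbitrary, subject to `algebraMap R[X] D.F0 = X.phiF`. -/
theorem hRAM_inst {A : ValuationSubring Kb} {K0 : IntermediateField ℚ Kb}
    [IsDiscreteValuationRing (R0 K0 A)] (N : ℕ) (D : QData (R0 K0 A) K0 (kA A)) (X : D.Coord)
    (ι : D.F0 →+* FF N)
    (hι : ∀ f : D.F0, ((ι f : FF N) : LaurentSeries Kb) = bc K0 (f : LaurentSeries K0))
    (hy : Transcendental Kb (ι X.x)) [FiniteDimensional Kb⟮ι X.x⟯ (FF N)]
    (g : (R0 K0 A)[X]) (hg : g ≠ 0)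
    (hU : ∀ a : Kb, (g.map ((algebraMap K0 Kb).comp (algebraMap (R0 K0 A) K0))).eval a ≠ 0 →
      ∀ v : Place Kb (FF N), 0 < v.ord (ι X.x - algebraMap Kb (FF N) a) →
        v.ord (ι X.x - algebraMap Kb (FF N) a) = 1)
    (K B : Type*) [Field K] [Algebra (R0 K0 A)[X] K] [IsFractionRing (R0 K0 A)[X] K]
    [Algebra K D.F0] [Algebra (R0 K0 A)[X] D.F0] [IsScalarTower (R0 K0 A)[X] K D.F0]
    [FiniteDimensional K D.F0]
    [CommRing B] [Algebra (R0 K0 A)[X] B] [Algebra B D.F0] [IsScalarTower (R0 K0 A)[X] B D.F0]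
    [IsIntegralClosure B (R0 K0 A)[X] D.F0]
    (hphi : ∀ p, algebraMap (R0 K0 A)[X] D.F0 p = X.phiF p)
    (z : D.F0) (hz : ∀ b : B, ∃ a : (R0 K0 A)[X],
      Algebra.trace K D.F0 (z * algebraMap B D.F0 b) = algebraMap (R0 K0 A)[X] K a) :
    ∃ (M k : ℕ) (u : B), 0 < M ∧
      algebraMap (R0 K0 A)[X] D.F0 (C D.ϖ) ^ k * (algebraMap (R0 K0 A)[X] D.F0 g * z) ^ M =
        algebraMap (R0 K0 A)[X] D.F0 g * algebraMap B D.F0 u := by
  have hκ : ∀ c : Kb, (algebraMap K0 Kb).IsIntegralElem c := fun c =>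
    (((AlgebraicClosure.isAlgebraic ℚ).isAlgebraic c).isIntegral).tower_top
  refine RamAdapter.hRAM_poly (K0 := K0) D.ϖ D.ϖ_ne
    (RamAdapter.hloc_of_dvr D.ϖ D.prime_ϖ.irreducible) K D.F0 B (algebraMap K0 Kb) hκ ι (ι X.x) hy
    ?_ ?_ g hg hU z hz
  · intro a
    rw [hphi, X.phiF_C]
    apply Subtype.ext
    rw [hι]
    exact InstUp.bc_algebraMap K0 (algebraMap (R0 K0 A) K0 a)
  · rw [hphi, X.phiF_X]

end Fermat.Agent.ES.Inst
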