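import Fermat.Agent.ES.Purity
import Fermat.Agent.ES.ETGlue
import Fermat.Agent.ES.InstRam

/-!
# ES / INJ, instantiation : normality of the special fibre of a chart (`hded`)

Glue of `Purity.isDedekindDomain_quotient` (helper28), `QData.Coord.hET` (helper8),
`Inst.hRAM_inst` (helper7) in the `QE` language (helper23).
-/

set_option autoImplicit false
set_option linter.style.haveILetI false
set_option linter.unusedSectionVars false
set_option synthInstance.maxHeartbeats 400000
set_option maxHeartbeats 4000000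

noncomputable section

namespace Fermat.Agent.ES.Inst

open ModularCurve AlgebraicCurve Polynomial IntermediateField
open Fermat.Agent.S24 Fermat.Agent.S28 Fermat.Agent.ES.QE Fermat.Agent.ES.IDvr

namespace InstDed

/-- ring isomorphisms preserve squarefreeness. -/
theorem squarefree_map_equiv {S T : Type*} [CommRing S] [CommRing T] (e : S ≃+* T) {a : S}
    (ha : Squarefree a) : Squarefree (e a) := by
  intro y hy
  have h1 : e.symm y * e.symm y ∣ a := by
    have := map_dvd e.symm hy
    rwa [map_mul, e.symm_apply_apply] at this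
  have h2 := (ha _ h1).map e
  rwa [e.apply_symm_apply] at h2

section Poly

variable {R k : Type*} [CommRing R] [IsDomain R] [IsDiscreteValuationRing R] [Field k]
  (res : R →+* k) (ϖ : R) (hϖ : ϖ ≠ 0) (hker : RingHom.ker res = Ideal.span {ϖ})

include hϖ hker in
theorem isMaximal_span : (Ideal.span {ϖ} : Ideal R).IsMaximal := by
  have hp : (Ideal.span {ϖ} : Ideal R).IsPrime := by
    rw [← hker]; exact RingHom.ker_isPrime res
  exact hp.isMaximal (by simpa using hϖ)

/-- `(R/ϖ)[X] ≃ R[X]/(C ϖ)`. -/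
def quotEquiv : (R ⧸ (Ideal.span {ϖ} : Ideal R))[X] ≃+* R[X] ⧸ (Ideal.span {C ϖ} : Ideal R[X]) :=
  (Ideal.polynomialQuotientEquivQuotientPolynomial (Ideal.span {ϖ})).trans
    (Ideal.quotEquivOfEq (by rw [Ideal.map_span, Set.image_singleton]))

theorem quotEquiv_map_mk (g : R[X]) :
    quotEquiv ϖ (g.map (Ideal.Quotient.mk (Ideal.span {ϖ}))) = Ideal.Quotient.mk _ g := by
  rw [quotEquiv, RingEquiv.trans_apply, Ideal.polynomialQuotientEquivQuotientPolynomial_map_mk]
  rfl

include hϖ hker in
theorem isPrincipalIdealRing_quot :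
    IsPrincipalIdealRing (R[X] ⧸ (Ideal.span {C ϖ} : Ideal R[X])) := by
  haveI := isMaximal_span res ϖ hϖ hker
  letI := Ideal.Quotient.field (Ideal.span {ϖ} : Ideal R)
  exact IsPrincipalIdealRing.of_surjective (quotEquiv ϖ).toRingHom (quotEquiv ϖ).surjective

include hϖ hker in
theorem squarefree_mk (g : R[X]) (hg : (g.map res).Separable) :
    Squarefree (Ideal.Quotient.mk (Ideal.span {C ϖ} : Ideal R[X]) g) := by
  haveI := isMaximal_span res ϖ hϖ hker
  letI := Ideal.Quotient.field (Ideal.span {ϖ} : Ideal R)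
  rw [← quotEquiv_map_mk]
  apply squarefree_map_equiv
  apply Separable.squarefree
  let f : R ⧸ (Ideal.span {ϖ} : Ideal R) →+* k := Ideal.Quotient.lift _ res (fun a ha => by
    rwa [← hker, RingHom.mem_ker] at ha)
  have : g.map res = (g.map (Ideal.Quotient.mk (Ideal.span {ϖ}))).map f := by
    rw [Polynomial.map_map]
    congr 1
  rw [this] at hg
  exact (Polynomial.separable_map f).mp hg

end Poly

end InstDed

open InstDed

/-- **I-DED**: the special fibre of a chart is a Dedekind domain. -/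
theorem hded {A : ValuationSubring Kb} {K0 : IntermediateField ℚ Kb}
    [IsDiscreteValuationRing (R0 K0 A)] (N : ℕ) (D : QData (R0 K0 A) K0 (kA A)) (X : D.Coord)
    (T : D.Theta) (ι : D.F0 →+* FF N)
    (hι : ∀ f : D.F0, ((ι f : FF N) : LaurentSeries Kb) = bc K0 (f : LaurentSeries K0))
    (hy : Transcendental Kb (ι X.x)) [FiniteDimensional Kb⟮ι X.x⟯ (FF N)]
    (g : (R0 K0 A)[X]) (hg : (g.map D.res).Separable)
    (hU : ∀ a : Kb, (g.map ((algebraMap K0 Kb).comp (algebraMap (R0 K0 A) K0))).eval a ≠ 0 →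
      ∀ v : Place Kb (FF N), 0 < v.ord (ι X.x - algebraMap Kb (FF N) a) →
        v.ord (ι X.x - algebraMap Kb (FF N) a) = 1) :
    IsDedekindDomain (X.chart ⧸ Ideal.span {ϖB X}) := by
  classical
  letI a1 : Algebra (R0 K0 A)[X] D.F0 := X.phiF.toAlgebra
  haveI f1 : FaithfulSMul (R0 K0 A)[X] D.F0 :=
    (faithfulSMul_iff_algebraMap_injective _ _).mpr X.phiF_injective
  letI a2 : Algebra (FractionRing (R0 K0 A)[X]) D.F0 := FractionRing.liftAlgebra _ _
  haveI t1 : IsScalarTower (R0 K0 A)[X] (FractionRing (R0 K0 A)[X]) D.F0 :=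
    FractionRing.isScalarTower_liftAlgebra _ _
  haveI c0 : CharZero D.F0 := charZero_of_injective_algebraMap (algebraMap K0 D.F0).injective
  haveI c1 : CharZero (R0 K0 A)[X] := X.phiF.charZero
  haveI c2 : CharZero (FractionRing (R0 K0 A)[X]) :=
    charZero_of_injective_algebraMap (IsFractionRing.injective (R0 K0 A)[X] _)
  haveI fd : FiniteDimensional (FractionRing (R0 K0 A)[X]) D.F0 := by
    refine ⟨⟨Finset.univ.image D.bF, ?_⟩⟩
    rw [eq_top_iff]
    intro f _
    obtain ⟨c, d, hd, h⟩ := X.exists_span f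
    have hd' : X.phiF d ≠ 0 := by rwa [Ne, map_eq_zero_iff _ X.phiF_injective]
    have hf : f = ∑ i, (algebraMap (R0 K0 A)[X] (FractionRing (R0 K0 A)[X]) (c i) /
        algebraMap (R0 K0 A)[X] (FractionRing (R0 K0 A)[X]) d) • D.bF i := by
      apply mul_left_cancel₀ hd'
      rw [h, Finset.mul_sum]
      refine Finset.sum_congr rfl fun i _ => ?_
      rw [Algebra.smul_def, map_div₀, ← IsScalarTower.algebraMap_apply,
        ← IsScalarTower.algebraMap_apply]
      show X.phiF (c i) * D.bF i = X.phiF d * (X.phiF (c i) / X.phiF d * D.bF i)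
      field_simp
    rw [hf]
    refine Submodule.sum_mem _ fun i _ => Submodule.smul_mem _ _ (Submodule.subset_span ?_)
    simp
  letI a3 : Algebra (R0 K0 A)[X] X.chart :=
    (X.phiF.codRestrict X.chart X.phiF_mem_chart).toAlgebra
  haveI t2 : IsScalarTower (R0 K0 A)[X] X.chart D.F0 := IsScalarTower.of_algebraMap_eq fun _ => rfl
  haveI ic : IsIntegralClosure X.chart (R0 K0 A)[X] D.F0 :=
    { algebraMap_injective := Subtype.val_injective
      isIntegral_iff := fun {x} => by
        constructor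
        · intro hx
          exact ⟨⟨x, S28.Lam.isIntegralElem_map_comp X.phiF (algebraMap D.F0 (LaurentSeries K0)) hx⟩,
            rfl⟩
        · rintro ⟨y, rfl⟩
          exact S28.Lam.isIntegralElem_of_map_comp X.phiF (algebraMap D.F0 (LaurentSeries K0))
            (algebraMap D.F0 (LaurentSeries K0)).injective y.2 }
  haveI pid : IsPrincipalIdealRing ((R0 K0 A)[X] ⧸ (Ideal.span {C D.ϖ} : Ideal (R0 K0 A)[X])) :=
    isPrincipalIdealRing_quot D.res D.ϖ D.ϖ_ne D.ker_res
  have hπB : algebraMap (R0 K0 A)[X] X.chart (C D.ϖ) = ϖB X := Subtype.ext X.phiF_C_ϖ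
  have hdom : (Ideal.span {algebraMap (R0 K0 A)[X] X.chart (C D.ϖ)}).IsPrime := by
    let ρ : X.chart →+* LaurentSeries (kA A) :=
      D.rhoO.comp (Subring.inclusion (fun f hf => X.chart_le_gaussO hf :
        X.chart ≤ D.gaussO.toSubring))
    have hker : Ideal.span {algebraMap (R0 K0 A)[X] X.chart (C D.ϖ)} = RingHom.ker ρ := by
      ext b
      rw [Ideal.mem_span_singleton, RingHom.mem_ker, hπB]
      show _ ↔ D.rhoO ⟨b, X.chart_le_gaussO b.2⟩ = 0
      rw [D.rhoO_eq_zero_iff]
      constructor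
      · rintro ⟨c, rfl⟩
        exact ⟨c, X.chart_le_gaussO c.2, by rw [pow_one]; rfl⟩
      · rintro ⟨y, hy, h⟩
        rw [pow_one] at h
        exact ⟨⟨y, X.chart_sat b.2 hy h⟩, Subtype.ext h⟩
    rw [hker]
    exact RingHom.ker_isPrime ρ
  have hg0 : g ≠ 0 := by
    rintro rfl
    rw [Polynomial.map_zero] at hg
    exact not_separable_zero hg
  have h := Purity.isDedekindDomain_quotient (R0 K0 A)[X] (FractionRing (R0 K0 A)[X]) D.F0 X.chart
    (C D.ϖ) D.prime_C_ϖ hdom
    (X.hET T (Kx := FractionRing (R0 K0 A)[X]) (fun _ => rfl) (fun _ => rfl))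
    g (squarefree_mk D.res D.ϖ D.ϖ_ne D.ker_res g hg)
    (hRAM_inst N D X ι hι hy g hg0 hU (FractionRing (R0 K0 A)[X]) X.chart (fun _ => rfl))
  rwa [hπB] at h

end Fermat.Agent.ES.Inst
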