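import Fermat.Agent.ES.InstDefs
import Fermat.Agent.S24.PlaceBasic

/-!
# ES, block INJ, instantiation : (U) at the level of places for both charts `x`, `1 / x`

From `Z.Unram` we get the hypothesis `hU` of `UDesc.not_sq_dvd` for `y = Z.xF`, `g = gFin _ Z.a`
and for `y = Z.xF⁻¹`, `g = gInf _ Z.a`.
-/

set_option autoImplicit false

noncomputable section

namespace Fermat.Agent.ES.Inst

open ModularCurve AlgebraicCurve Polynomial
open Fermat.Agent.S24

theorem gFin_map {R S : Type*} [CommRing R] [CommRing S] (f : R →+* S) (a : ℤ) :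
    (gFin R a).map f = gFin S a := by
  simp [gFin]

theorem gInf_map {R S : Type*} [CommRing R] [CommRing S] (f : R →+* S) (a : ℤ) :
    (gInf R a).map f = gInf S a := by
  simp [gInf]

theorem eval_gFin {S : Type*} [CommRing S] (a : ℤ) (c : S) :
    (gFin S a).eval c = c * (c - (a : S)) := by
  simp [gFin]

theorem eval_gInf {S : Type*} [CommRing S] (a : ℤ) (c : S) :
    (gInf S a).eval c = c * (1 - (a : S) * c) := by
  simp [gInf]

/-- (U) for the chart `x`. -/
theorem unram_fin {N ℓ : ℕ} (Z : ZCoord N ℓ) (hU : Z.Unram) (c : Kb)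
    (hc : (gFin Kb Z.a).eval c ≠ 0) (v : Place Kb (FF N))
    (hv : 0 < v.ord (Z.xF - algebraMap Kb (FF N) c)) :
    v.ord (Z.xF - algebraMap Kb (FF N) c) = 1 := by
  rw [eval_gFin] at hc
  exact hU c (left_ne_zero_of_mul hc) (sub_ne_zero.1 (right_ne_zero_of_mul hc)) v hv

/-- (U) for the chart `1 / x`. -/
theorem unram_inf {N ℓ : ℕ} (Z : ZCoord N ℓ) (hU : Z.Unram) (c : Kb)
    (hc : (gInf Kb Z.a).eval c ≠ 0) (v : Place Kb (FF N))
    (hv : 0 < v.ord (Z.xF⁻¹ - algebraMap Kb (FF N) c)) :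
    v.ord (Z.xF⁻¹ - algebraMap Kb (FF N) c) = 1 := by
  rw [eval_gInf] at hc
  have hc0 : c ≠ 0 := left_ne_zero_of_mul hc
  have hc1 : c⁻¹ ≠ (Z.a : Kb) := by
    intro h
    apply right_ne_zero_of_mul hc
    rw [← h, inv_mul_cancel₀ hc0, sub_self]
  set x : FF N := Z.xF with hx
  set C : FF N := algebraMap Kb (FF N) c with hC
  have hC0 : C ≠ 0 := by
    rw [hC]
    exact (_root_.map_ne_zero _).2 hc0
  have hCord : v.ord C = 0 := Place.ord_algebraMap v c
  -- `ord x⁻¹ = 0`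
  have hxinv : v.ord x⁻¹ = 0 := by
    have h1 := Place.ord_add_eq_of_lt v (f := C) (g := x⁻¹ - C) hC0 (by rw [hCord]; exact hv)
    rw [add_sub_cancel, hCord] at h1
    exact h1
  have hx0 : x ≠ 0 := by
    intro h0
    rw [h0, inv_zero, zero_sub, Place.ord_neg, hCord] at hv
    exact lt_irrefl _ hv
  have hxord : v.ord x = 0 := by
    rw [AlgebraicCurve.Place.ord_inv] at hxinv
    omega
  have hCinv : algebraMap Kb (FF N) c⁻¹ = C⁻¹ := by rw [hC, map_inv₀]
  have key : x⁻¹ - C = -(C * x⁻¹ * (x - algebraMap Kb (FF N) c⁻¹)) := by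
    rw [hCinv]
    field_simp
    ring
  have hne : x - algebraMap Kb (FF N) c⁻¹ ≠ 0 := by
    intro h0
    rw [key, h0, mul_zero, neg_zero, AlgebraicCurve.Place.ord_zero] at hv
    exact lt_irrefl _ hv
  have hord : v.ord (x⁻¹ - C) = v.ord (x - algebraMap Kb (FF N) c⁻¹) := by
    rw [key, Place.ord_neg, AlgebraicCurve.Place.ord_mul v (mul_ne_zero hC0 (inv_ne_zero hx0)) hne,
      AlgebraicCurve.Place.ord_mul v hC0 (inv_ne_zero hx0), hCord, hxinv]
    ring
  rw [hord]
  rw [hord] at hv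
  exact hU c⁻¹ (inv_ne_zero hc0) hc1 v hv

end Fermat.Agent.ES.Inst
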