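import Fermat.Agent.ES.InstDefs
import Fermat.Agent.S24.Degree
import Fermat.Agent.S24.FFMain
import Fermat.Agent.S28.Ord

/-!
# ES, block INJ, package I-XF : `FF N` is finite over `ℚ̄(x)` for a coordinate `x`
-/

set_option autoImplicit false
set_option linter.style.haveILetI false

noncomputable section

namespace Fermat.Agent.ES.Inst

open ModularCurve AlgebraicCurve Polynomial IntermediateField
open Fermat.Agent.S24 Fermat.Agent.S28 Fermat.Agent.ES.QE Fermat.Agent.ES.IDvr

namespace InstXF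

/-- finiteness over a bigger intermediate field. -/
theorem finite_of_le {K F : Type*} [Field K] [Field F] [Algebra K F] {E E' : IntermediateField K F}
    (h : E ≤ E') (hE : FiniteDimensional E F) : FiniteDimensional E' F := by
  obtain ⟨s, hs⟩ := Module.finite_def.mp hE
  refine ⟨⟨s, ?_⟩⟩
  rw [eq_top_iff]
  rintro x -
  have hx : x ∈ Submodule.span E (s : Set F) := hs ▸ Submodule.mem_top
  induction hx using Submodule.span_induction with
  | mem y hy => exact Submodule.subset_span hy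
  | zero => exact zero_mem _
  | add a b _ _ ha hb => exact add_mem ha hb
  | smul c a _ ha => exact (Submodule.span E' (s : Set F)).smul_mem (⟨c, h c.2⟩ : E') ha

variable {N ℓ : ℕ}

theorem coe_xF (Z : ZCoord N ℓ) : ((Z.xF : FF N) : LaurentSeries Kb) = zS Kb Z.xZ := rfl

theorem order_zS (Z : ZCoord N ℓ) : (zS Kb Z.xZ).order = -1 := by
  apply Ord.order_eq_of
  · show (Int.castRingHom Kb) (Z.xZ.coeff (-1)) ≠ 0
    rw [Z.coeff_neg_one, map_one]
    exact one_ne_zero
  · intro k hk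
    show (Int.castRingHom Kb) (Z.xZ.coeff k) = 0
    rw [Z.coeff_of_lt k hk, map_zero]

theorem transcendental_zS (Z : ZCoord N ℓ) : Transcendental Kb (zS Kb Z.xZ) :=
  Ord.transcendental_of_order_neg (by rw [order_zS]; norm_num)

/-- `aeval` in `FF N` and in `ℚ̄((q))`. -/
theorem coe_aeval (y : FF N) (p : Kb[X]) :
    ((aeval y p : FF N) : LaurentSeries Kb) = evS (y : LaurentSeries Kb) p := by
  rw [← aeval_eq_evS]
  exact (aeval_algHom_apply (modularFunctionFieldBar N).val y p).symm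

/-- the relation `j Q(x) = P(x)` in `FF N`. -/
theorem rel_FF (Z : ZCoord N ℓ) :
    jF N * aeval Z.xF (Z.Q.map (Int.castRingHom Kb)) = aeval Z.xF (Z.P.map (Int.castRingHom Kb)) := by
  apply Subtype.ext
  have h := congrArg (coeffMap (Int.castRingHom Kb)) Z.rel
  rw [map_mul, coeffMap_evS, coeffMap_evS, coeffMap_jqModC] at h
  show ((jF N : FF N) : LaurentSeries Kb) * ((aeval Z.xF _ : FF N) : LaurentSeries Kb) = _
  rw [coe_aeval, coe_aeval, coe_jF']
  exact h

theorem map_Q_ne_zero (Z : ZCoord N ℓ) : Z.Q.map (Int.castRingHom Kb) ≠ 0 := by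
  have h0 : Z.Q ≠ 0 := by
    intro h
    apply Z.Q_prim
    rw [h, Polynomial.map_zero]
  exact (Polynomial.map_ne_zero_iff (RingHom.injective_int (Int.castRingHom Kb))).mpr h0

end InstXF

open InstXF

/-- **I-XF**. -/
theorem transcendental_xF {N ℓ : ℕ} (Z : ZCoord N ℓ) : Transcendental Kb Z.xF := by
  have h := transcendental_zS Z
  exact fun halg : IsAlgebraic Kb Z.xF => h (halg.algHom (modularFunctionFieldBar N).val)

theorem jF_mem_adjoin_xF {N ℓ : ℕ} (Z : ZCoord N ℓ) : jF N ∈ Kb⟮Z.xF⟯ := by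
  have hQ : aeval Z.xF (Z.Q.map (Int.castRingHom Kb)) ≠ 0 := fun h =>
    map_Q_ne_zero Z ((transcendental_iff.mp (transcendental_xF Z)) _ h)
  have h1 : jF N = aeval Z.xF (Z.P.map (Int.castRingHom Kb)) /
      aeval Z.xF (Z.Q.map (Int.castRingHom Kb)) := by
    rw [eq_div_iff hQ]
    exact rel_FF Z
  have hmem : ∀ p : Kb[X], aeval Z.xF p ∈ Kb⟮Z.xF⟯ := fun p =>
    IntermediateField.algebra_adjoin_le_adjoin Kb {Z.xF} (aeval_mem_adjoin_singleton Kb Z.xF)
  rw [h1]
  exact div_mem (hmem _) (hmem _)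

theorem finiteDimensional_xF {N ℓ : ℕ} [NeZero N] (Z : ZCoord N ℓ) :
    FiniteDimensional Kb⟮Z.xF⟯ (FF N) := by
  have hle : Kb⟮jF N⟯ ≤ Kb⟮Z.xF⟯ := by
    rw [adjoin_simple_le_iff]
    exact jF_mem_adjoin_xF Z
  exact finite_of_le hle (finiteDimensional_FF N)

theorem finiteDimensional_xF_inv {N ℓ : ℕ} [NeZero N] (Z : ZCoord N ℓ) :
    FiniteDimensional Kb⟮Z.xF⁻¹⟯ (FF N) := by
  rw [FF.adjoin_inv]
  exact finiteDimensional_xF Z

end Fermat.Agent.ES.Inst
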