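import Fermat.Agent.ES.InstDed
import Fermat.Agent.ES.InstCoord
import Fermat.Agent.ES.InstGY
import Fermat.Agent.ES.InstXF
import Fermat.Agent.ES.InstUnram

/-!
# ES / INJ, instantiation : `hded` for the two charts of an integral coordinate `Z : ZCoord N ℓ`
-/

set_option autoImplicit false
set_option linter.style.haveILetI false
set_option linter.unusedSectionVars false
set_option synthInstance.maxHeartbeats 400000
set_option maxHeartbeats 4000000

noncomputable section

namespace Fermat.Agent.ES.Inst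

open ModularCurve AlgebraicCurve Polynomial IntermediateField
open Fermat.Agent.S24 Fermat.Agent.S28 Fermat.Agent.ES.QE Fermat.Agent.ES.IDvr

namespace InstDed2

theorem separable_gFin {k : Type*} [Field k] (a : ℤ) (ha : (a : k) ≠ 0) :
    (gFin k a).Separable := by
  refine ⟨C (-(4 : k) / (a : k) ^ 2), C (1 / (a : k) ^ 2) * (2 * X - C (a : k)), ?_⟩
  have hd : derivative (gFin k a) = 2 * X - C (a : k) := by
    simp only [gFin, derivative_mul, derivative_X, derivative_sub, derivative_C]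
    ring
  have h1 : (C (-(4 : k) / (a : k) ^ 2) : k[X]) = - 4 * C (1 / (a : k) ^ 2) := by
    rw [neg_div, map_neg, show (4 : k) / (a : k) ^ 2 = 4 * (1 / (a : k) ^ 2) by ring, map_mul,
      show (C (4 : k) : k[X]) = 4 from map_ofNat C 4]
    ring
  have h2 : (C (1 / (a : k) ^ 2) : k[X]) * C (a : k) ^ 2 = 1 := by
    rw [← map_pow, ← map_mul, one_div, inv_mul_cancel₀ (pow_ne_zero 2 ha), map_one]
  rw [hd, h1, gFin]
  linear_combination h2

theorem separable_gInf {k : Type*} [Field k] (a : ℤ) : (gInf k a).Separable := by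
  refine ⟨C (4 * (a : k)), 1 - 2 * C (a : k) * X, ?_⟩
  have hd : derivative (gInf k a) = 1 - 2 * C (a : k) * X := by
    simp only [gInf, derivative_mul, derivative_X, derivative_sub, derivative_C, derivative_one]
    ring
  rw [hd, gInf, map_mul]
  have : (C (4 : k) : k[X]) = 4 := map_ofNat C 4
  rw [this]
  ring

end InstDed2

open InstDed2

variable {N ℓ : ℕ} [NeZero N] {A : ValuationSubring Kb} {K0 : IntermediateField ℚ Kb}

/-- the embedding `F0 K0 N → FF N`. -/
def iotaF (D : QData (R0 K0 A) K0 (kA A)) (hF : D.F0 = F0 K0 N) : D.F0 →+* FF N :=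
  ((bc K0).comp (algebraMap D.F0 (LaurentSeries K0))).codRestrict (modularFunctionFieldBar N)
    fun f => bc_mem K0 N (hF ▸ f.2)

theorem coe_iotaF (D : QData (R0 K0 A) K0 (kA A)) (hF : D.F0 = F0 K0 N) (f : D.F0) :
    ((iotaF D hF f : FF N) : LaurentSeries Kb) = bc K0 (f : LaurentSeries K0) := rfl

theorem intCast_ne_zero_kA [CharP (kA A) ℓ] (Z : ZCoord N ℓ) : ((Z.a : ℤ) : kA A) ≠ 0 := by
  rw [Ne, CharP.intCast_eq_zero_iff (kA A) ℓ]
  exact Z.a_prim

variable [IsDiscreteValuationRing (R0 K0 A)] [CharP (kA A) ℓ]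

theorem iotaF_toCoord_x (Z : ZCoord N ℓ) (D : QData (R0 K0 A) K0 (kA A)) (hF : D.F0 = F0 K0 N)
    (hx : zS K0 Z.xZ ∈ D.F0) : iotaF D hF (toCoord Z D hx).x = Z.xF := by
  apply Subtype.ext
  rw [coe_iotaF, coe_toCoord_x]
  exact InstCoord.coeffMap_zS _ _

/-- `hded1` of `inj_QE` for the chart `R[x]`. -/
theorem hded_fin (Z : ZCoord N ℓ) (hU : Z.Unram) (D : QData (R0 K0 A) K0 (kA A))
    (hF : D.F0 = F0 K0 N) (T : D.Theta) (hx : zS K0 Z.xZ ∈ D.F0) :
    IsDedekindDomain ((toCoord Z D hx).chart ⧸ Ideal.span {ϖB (toCoord Z D hx)}) := by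
  have hιx := iotaF_toCoord_x Z D hF hx
  haveI : FiniteDimensional Kb⟮iotaF D hF (toCoord Z D hx).x⟯ (FF N) := by
    rw [hιx]; exact finiteDimensional_xF Z
  refine hded N D (toCoord Z D hx) T (iotaF D hF) (coe_iotaF D hF)
    (by rw [hιx]; exact transcendental_xF Z) (gFin _ Z.a) ?_ ?_
  · rw [gFin_map]
    exact separable_gFin _ (intCast_ne_zero_kA Z)
  · intro a ha v hv
    rw [gFin_map] at ha
    rw [hιx] at hv ⊢
    exact unram_fin Z hU a ha v hv

/-- `hded2` of `inj_QE` for the chart `R[1/x]`. -/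
theorem hded_inf (Z : ZCoord N ℓ) (hU : Z.Unram) (D : QData (R0 K0 A) K0 (kA A))
    (hF : D.F0 = F0 K0 N) (T : D.Theta) (hx : zS K0 Z.xZ ∈ D.F0) :
    IsDedekindDomain (((toCoord Z D hx).inv (zS _ Z.yZ) (toCoord_mul Z D hx)).chart ⧸
      Ideal.span {ϖB ((toCoord Z D hx).inv (zS _ Z.yZ) (toCoord_mul Z D hx))}) := by
  have hιx : iotaF D hF ((toCoord Z D hx).inv (zS _ Z.yZ) (toCoord_mul Z D hx)).x = Z.xF⁻¹ := by
    rw [QData.Coord.inv_x, map_inv₀, iotaF_toCoord_x]
  haveI : FiniteDimensional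
      Kb⟮iotaF D hF ((toCoord Z D hx).inv (zS _ Z.yZ) (toCoord_mul Z D hx)).x⟯ (FF N) := by
    rw [hιx]; exact finiteDimensional_xF_inv Z
  refine hded N D _ T (iotaF D hF) (coe_iotaF D hF)
    (by rw [hιx]; exact FF.transcendental_inv (transcendental_xF Z)) (gInf _ Z.a) ?_ ?_
  · rw [gInf_map]
    exact separable_gInf _
  · intro a ha v hv
    rw [gInf_map] at ha
    rw [hιx] at hv ⊢
    exact unram_inf Z hU a ha v hv

end Fermat.Agent.ES.Inst
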