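import Fermat.Agent.ES.InstDefs
import Fermat.Agent.ES.HDivDesc

/-!
# ES, block INJ, instantiation : I-DESC
integrality over `K0[x]` = integrality over `ℚ̄[x]`.
-/

set_option autoImplicit false

noncomputable section

namespace Fermat.Agent.ES.Inst

open ModularCurve AlgebraicCurve Polynomial
open Fermat.Agent.S24 Fermat.Agent.S28 Fermat.Agent.ES.QE Fermat.Agent.ES.IDvr
open Fermat.Agent.ES.HDivDesc

namespace InstDesc

/-- `K = R[1/ϖ]` for a DVR. -/
theorem isAway_of_dvr {R K k : Type*} [CommRing R] [IsDomain R] [IsDiscreteValuationRing R]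
    [Field K] [Algebra R K] [IsFractionRing R K] [Field k] (D : QData R K k) : IsAway D := by
  intro a
  obtain ⟨r, s, hs, rfl⟩ := IsFractionRing.div_surjective (A := R) a
  have hs0 : s ≠ 0 := nonZeroDivisors.ne_zero hs
  obtain ⟨n, u, hu⟩ := IsDiscreteValuationRing.eq_unit_mul_pow_irreducible hs0 D.prime_ϖ.irreducible
  refine ⟨n, r * ((u⁻¹ : Rˣ) : R), ?_⟩
  have hs' : algebraMap R K s ≠ 0 := by
    rw [Ne, IsFractionRing.to_map_eq_zero_iff]; exact hs0
  rw [mul_div_assoc', eq_comm, eq_div_iff hs', ← map_pow, ← map_mul, ← map_mul, hu]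
  congr 1
  have : ((u⁻¹ : Rˣ) : R) * (u : R) = 1 := by simp
  calc r * ((u⁻¹ : Rˣ) : R) * ((u : R) * D.ϖ ^ n) = (((u⁻¹ : Rˣ) : R) * (u : R)) * (D.ϖ ^ n * r) := by
        ring
    _ = D.ϖ ^ n * r := by rw [this, one_mul]

end InstDesc

variable {A : ValuationSubring Kb} {K0 : IntermediateField ℚ Kb}

/-- **I-DESC**: integrality over `K0[x]` = integrality over `Kb[x]`. -/
theorem isIntK_iff [IsDiscreteValuationRing (R0 K0 A)] (N : ℕ)
    (D : QData (R0 K0 A) K0 (kA A)) (X : D.Coord) (f : D.F0)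
    (hx : bc K0 (X.x : LaurentSeries K0) ∈ modularFunctionFieldBar N)
    (hf : bc K0 (f : LaurentSeries K0) ∈ modularFunctionFieldBar N) :
    IsIntK X f ↔ IsIntegral (Algebra.adjoin Kb {(⟨_, hx⟩ : FF N)}) (⟨_, hf⟩ : FF N) := by
  have halg : Algebra.IsAlgebraic ℚ Kb := AlgebraicClosure.isAlgebraic ℚ
  have : Algebra.IsAlgebraic K0 Kb := Algebra.IsAlgebraic.tower_top (K := ℚ) K0
  constructor
  · rintro ⟨c, hc⟩
    set xF : FF N := ⟨_, hx⟩ with hxF
    set fF : FF N := ⟨_, hf⟩ with hfF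
    set x' : Algebra.adjoin Kb {xF} := ⟨xF, Algebra.self_mem_adjoin_singleton Kb xF⟩ with hx'
    set κ : R0 K0 A →+* Kb := (algebraMap K0 Kb).comp (algebraMap (R0 K0 A) K0) with hκ
    set ψ : (R0 K0 A)[X] →+* Algebra.adjoin Kb {xF} :=
      (aeval x' : Kb[X] →ₐ[Kb] Algebra.adjoin Kb {xF}).toRingHom.comp (mapRingHom κ) with hψ
    set vl : FF N →+* LaurentSeries Kb := (modularFunctionFieldBar N).val.toRingHom with hvl
    have e : (bc K0).comp X.phi = vl.comp ((algebraMap (Algebra.adjoin Kb {xF}) (FF N)).comp ψ) := by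
      apply Polynomial.ringHom_ext
      · intro a
        have h1 : (bc K0).comp X.phi (C a) = HahnSeries.C (κ a) := by
          rw [RingHom.comp_apply, X.phi_apply, evS_C, QData.inc, QE.coeffMap_C, bc, QE.coeffMap_C]
          rfl
        have h2 : ψ (C a) = algebraMap Kb _ (κ a) := by
          rw [hψ, RingHom.comp_apply, coe_mapRingHom, map_C]
          exact aeval_C _ _
        have h3 : vl.comp ((algebraMap (Algebra.adjoin Kb {xF}) (FF N)).comp ψ) (C a)
            = vl (algebraMap (Algebra.adjoin Kb {xF}) (FF N) (ψ (C a))) := rfl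
        rw [h1, h3, h2, ← IsScalarTower.algebraMap_apply, ← algebraMap_eq_C]
        rfl
      · have h2 : ψ Polynomial.X = x' := by
          rw [hψ, RingHom.comp_apply, coe_mapRingHom, map_X]
          exact aeval_X _
        have h3 : vl.comp ((algebraMap (Algebra.adjoin Kb {xF}) (FF N)).comp ψ) Polynomial.X
            = vl (algebraMap (Algebra.adjoin Kb {xF}) (FF N) (ψ Polynomial.X)) := rfl
        rw [h3, h2, RingHom.comp_apply, X.phi_apply, evS_X]
        rfl
    set zF : FF N := algebraMap Kb (FF N) (κ D.ϖ) ^ c * fF with hzF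
    have hz : vl zF = bc K0 ((D.ϖF ^ c * f : D.F0) : LaurentSeries K0) := by
      have h1 : vl (algebraMap Kb (FF N) (κ D.ϖ)) = bc K0 (D.ϖF : LaurentSeries K0) := by
        rw [D.coe_ϖF, QData.ϖE, bc, QE.coeffMap_C, ← algebraMap_eq_C]
        rfl
      rw [hzF, map_mul, map_pow, h1, IntermediateField.coe_mul, IntermediateField.coe_pow, map_mul,
        map_pow]
      rfl
    have h3 : IsIntegral (Algebra.adjoin Kb {xF}) zF := by
      apply RingHom.IsIntegralElem.of_comp (f := ψ)
      apply isIntegralElem_of_injective _ vl Subtype.val_injective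
      rw [← e, hz]
      obtain ⟨P, hP, hroot⟩ := (X.mem_chart).1 hc
      exact ⟨P, hP, by rw [← hom_eval₂, hroot, map_zero]⟩
    have hϖ : κ D.ϖ ≠ 0 := by
      rw [hκ, RingHom.comp_apply, Ne, map_eq_zero, IsFractionRing.to_map_eq_zero_iff]
      exact D.ϖ_ne
    have h4 : fF = algebraMap (Algebra.adjoin Kb {xF}) (FF N)
        (algebraMap Kb _ ((κ D.ϖ) ^ c)⁻¹) * zF := by
      rw [← IsScalarTower.algebraMap_apply, hzF, ← mul_assoc, ← map_pow (algebraMap Kb (FF N)),
        ← map_mul, inv_mul_cancel₀ (pow_ne_zero c hϖ), map_one, one_mul]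
    rw [h4]
    exact isIntegral_algebraMap.mul h3
  · intro h
    have h1 := isIntegralElem_of_isIntegral_adjoin h
    have h2 : (evS (D.inc X.xW)).IsIntegralElem (f : LaurentSeries K0) :=
      isIntegralElem_descent K0 Kb _ _ h1
    obtain ⟨c, hc⟩ := exists_pow_mul_mem_chart X (InstDesc.isAway_of_dvr D) f h2
    exact ⟨c, hc c le_rfl⟩

end Fermat.Agent.ES.Inst
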