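import Fermat.Agent.ES.InstFinalCore
import Fermat.Agent.ES.InstDed
import Fermat.Agent.ES.ETInst

/-!
# ES, block INJ, instantiation : the final assembly

`inj_of_coord` : the statement `INJ m N A` for every level `N` which carries an integral
coordinate `Z : ZCoord N ℓ` unramified outside `{0, a, ∞}`.
-/

set_option autoImplicit false

noncomputable section

namespace Fermat.Agent.ES.Inst

open ModularCurve AlgebraicCurve Polynomial IntermediateField
open Fermat.Agent.S24 Fermat.Agent.S28 Fermat.Agent.ES.QE Fermat.Agent.ES.Model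
  Fermat.Agent.ES.IDvr

/-- **The normality statement** : Purity + (ET) + (RAM). -/
theorem hDed (N ℓ : ℕ) [NeZero N] (hℓ : ℓ.Prime) (hℓN : ¬ ℓ ∣ N)
    (A : ValuationSubring Kb) (hA : A.LiesOverPrime ℓ) : HDed N A := by
  obtain ⟨K1, hK1, h⟩ := exists_K1_theta N ℓ hℓ hℓN A hA
  refine ⟨K1, hK1, fun K0 hK0 hle hdvr D hF hres X ι hι hy hfd g hg hU => ?_⟩
  obtain ⟨T⟩ := h K0 hK0 hle D hF hres
  exact hded N D X T ι hι hy g hg hU

/-- **I-FINAL.** -/
theorem inj_of_coord (m N ℓ : ℕ) [NeZero N] (hℓ : ℓ.Prime) (hℓN : ¬ ℓ ∣ N) (hℓm : ¬ ℓ ∣ m)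
    (A : ValuationSubring Kb) (hA : A.LiesOverPrime ℓ) (Z : ZCoord N ℓ) (hU : Z.Unram) :
    INJ m N A :=
  inj_of_coord_of m N ℓ hℓ hℓN hℓm A hA (hDed N ℓ hℓ hℓN A hA) Z hU

end Fermat.Agent.ES.Inst
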