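import Fermat.Agent.ES.InstDefs

/-!
# ES, block INJ, instantiation : `GaussOne` gives `w ≡ 1` for the Gauss valuation ring of QE
-/

set_option autoImplicit false

noncomputable section

namespace Fermat.Agent.ES.Inst

open ModularCurve Polynomial Fermat.Agent.S24 Fermat.Agent.ES.QE Fermat.Agent.ES.Model
  Fermat.Agent.ES.IDvr

variable {A : ValuationSubring Kb} {K0 : IntermediateField ℚ Kb}

namespace InstGauss

theorem bc_coeff (y : LaurentSeries K0) (n : ℤ) : (bc K0 y).coeff n = ((y.coeff n : K0) : Kb) := rfl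

/-- a series over `K0` with coefficients in `A` comes from a series over `A ∩ K0`. -/
theorem exists_lift (y : LaurentSeries K0) (h : IsIntA A (bc K0 y)) :
    ∃ W : LaurentSeries (R0 K0 A), coeffMap (algebraMap (R0 K0 A) K0) W = y ∧
      ∀ n, (((W.coeff n : R0 K0 A) : K0) : Kb) = (bc K0 y).coeff n := by
  let W : LaurentSeries (R0 K0 A) :=
    { coeff := fun n => ⟨y.coeff n, h n⟩
      isPWO_support' := y.isPWO_support.mono (by
        intro n hn h0
        exact hn (Subtype.ext h0)) }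
  refine ⟨W, ?_, fun n => rfl⟩
  ext n
  rfl

theorem res0_eq_zero_iff (r : R0 K0 A) : res0 K0 A r = 0 ↔ ((r : K0) : Kb) ∈ A.nonunits := by
  rw [res0, RingHom.comp_apply, IsLocalRing.residue_eq_zero_iff,
    ← ValuationSubring.coe_mem_nonunits_iff]
  rfl

end InstGauss

open InstGauss

/-- **I-GAUSS1**. -/
theorem divO_of_gaussOne [IsNoetherianRing (R0 K0 A)] (D : QData (R0 K0 A) K0 (kA A))
    (hres : D.res = res0 K0 A) (w y₁ y₂ : D.F0)
    (h2 : IsPrimA A (bc K0 (y₂ : LaurentSeries K0))) (h1 : IsIntA A (bc K0 (y₁ : LaurentSeries K0)))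
    (hc : CongA A (bc K0 (y₁ : LaurentSeries K0)) (bc K0 (y₂ : LaurentSeries K0)))
    (h : w * y₂ = y₁) : DivO D.gaussO D.ϖF 1 (w - 1) := by
  obtain ⟨W₁, hW₁, hW₁'⟩ := exists_lift _ h1
  obtain ⟨W₂, hW₂, hW₂'⟩ := exists_lift _ h2.1
  have hred2 : D.red W₂ ≠ 0 := by
    obtain ⟨n, hn⟩ := h2.2
    intro h0
    apply hn
    have h3 : (D.red W₂).coeff n = 0 := by rw [h0]; rfl
    have h4 : (D.red W₂).coeff n = D.res (W₂.coeff n) := rfl
    rw [h4, hres, res0_eq_zero_iff, hW₂'] at h3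
    exact h3
  have hred : D.red (W₁ - W₂) = 0 := by
    ext n
    have h4 : (D.red (W₁ - W₂)).coeff n = D.res (W₁.coeff n - W₂.coeff n) := rfl
    rw [h4, hres, HahnSeries.coeff_zero, res0_eq_zero_iff]
    have := hc n
    rw [← hW₁', ← hW₂'] at this
    exact this
  have hfrac : D.IsFrac ((w - 1 : D.F0) : LaurentSeries K0) W₂ (W₁ - W₂) := by
    refine ⟨hred2, ?_⟩
    have e1 : D.inc W₁ = (y₁ : LaurentSeries K0) := hW₁
    have e2 : D.inc W₂ = (y₂ : LaurentSeries K0) := hW₂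
    rw [map_sub, e1, e2, ← h]
    push_cast
    ring
  have hmem : (w - 1 : D.F0) ∈ D.gaussO := D.mem_gaussO.2 ⟨W₂, W₁ - W₂, hfrac⟩
  have := (D.rhoO_eq_zero_iff ⟨w - 1, hmem⟩).1 (by
    rw [D.rhoO_apply]
    exact (QData.rho_eq_zero_iff (f := ⟨((w - 1 : D.F0) : LaurentSeries K0), hmem⟩) hfrac).2 hred)
  exact this

end Fermat.Agent.ES.Inst
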