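import Fermat.Agent.ES.InstAbs
import Fermat.Agent.ES.InstCoord
import Fermat.Agent.ES.InstGauss
import Fermat.Agent.ES.InstGY
import Fermat.Agent.ES.InstQD
import Fermat.Agent.ES.InstConst
import Fermat.Agent.ES.InstDesc
import Fermat.Agent.ES.InstXF
import Fermat.Agent.ES.InstUnram
import Fermat.Agent.ES.HDiv

/-!
# ES, block INJ, instantiation : the final assembly, with the normality statement as hypothesis
-/

set_option autoImplicit false

noncomputable section

namespace Fermat.Agent.ES.Inst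

open ModularCurve AlgebraicCurve Polynomial IntermediateField
open Fermat.Agent.S24 Fermat.Agent.S28 Fermat.Agent.ES.QE Fermat.Agent.ES.Model
  Fermat.Agent.ES.IDvr

/-- **The normality statement** (output of I-DED = Purity + (ET) + (RAM)): for all sufficiently
large number fields `K0`, all QE data of level `N` over `A ∩ K0` and all coordinates `x` which are
unramified (at the places of `FF N`) outside `g = 0`, `g` separable modulo `ϖ`, the special fibre
of the chart `R[x]` is a Dedekind domain. -/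
def HDed (N : ℕ) (A : ValuationSubring Kb) : Prop :=
  ∃ K1 : IntermediateField ℚ Kb, FiniteDimensional ℚ K1 ∧
    ∀ K0 : IntermediateField ℚ Kb, FiniteDimensional ℚ K0 → K1 ≤ K0 →
      ∀ [IsDiscreteValuationRing (R0 K0 A)] (D : QData (R0 K0 A) K0 (kA A)),
        D.F0 = F0 K0 N → D.res = res0 K0 A →
      ∀ (X : D.Coord) (ι : D.F0 →+* FF N),
        (∀ f : D.F0, ((ι f : FF N) : LaurentSeries Kb) = bc K0 (f : LaurentSeries K0)) →
        Transcendental Kb (ι X.x) → FiniteDimensional Kb⟮ι X.x⟯ (FF N) →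
      ∀ g : (R0 K0 A)[X], (g.map D.res).Separable →
        (∀ a : Kb, (g.map ((algebraMap K0 Kb).comp (algebraMap (R0 K0 A) K0))).eval a ≠ 0 →
          ∀ v : Place Kb (FF N), 0 < v.ord (ι X.x - algebraMap Kb (FF N) a) →
            v.ord (ι X.x - algebraMap Kb (FF N) a) = 1) →
        IsDedekindDomain (X.chart ⧸ Ideal.span {ϖB X})

namespace InstFinal

theorem separable_gFin (k : Type*) [Field k] (a : ℤ) (ha : (a : k) ≠ 0) :
    (gFin k a).Separable := by
  rw [separable_def]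
  refine ⟨C (-(4 : k) * ((a : k) ^ 2)⁻¹), C (((a : k) ^ 2)⁻¹) * (2 * X - C (a : k)), ?_⟩
  have hd : derivative (gFin k a) = 2 * X - C (a : k) := by
    simp only [gFin, derivative_mul, derivative_X, derivative_sub, derivative_C]
    ring
  rw [hd, gFin]
  have h1 : C (((a : k) ^ 2)⁻¹) * C ((a : k) ^ 2) = (1 : k[X]) := by
    rw [← C_mul, inv_mul_cancel₀ (pow_ne_zero 2 ha), C_1]
  have h2 : C (-(4 : k) * ((a : k) ^ 2)⁻¹) = -4 * C (((a : k) ^ 2)⁻¹) := by
    rw [C_mul, C_neg]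
    congr 1
  rw [h2, ← h1, C_pow]
  ring

theorem separable_gInf (k : Type*) [Field k] (a : ℤ) : (gInf k a).Separable := by
  rw [separable_def]
  refine ⟨4 * C (a : k), 1 - 2 * C (a : k) * X, ?_⟩
  have hd : derivative (gInf k a) = 1 - 2 * C (a : k) * X := by
    simp only [gInf, derivative_mul, derivative_X, derivative_sub, derivative_C, derivative_one]
    ring
  rw [hd, gInf]
  ring

theorem intCast_ne_zero {ℓ : ℕ} (k : Type*) [Field k] [CharP k ℓ] {a : ℤ} (ha : ¬ (ℓ : ℤ) ∣ a) :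
    (a : k) ≠ 0 := by
  rw [Ne, CharP.intCast_eq_zero_iff k ℓ]
  exact ha

end InstFinal

open InstFinal InstCoord

/-- **I-FINAL**, with the normality statement as hypothesis. -/
theorem inj_of_coord_of (m N ℓ : ℕ) [NeZero N] (hℓ : ℓ.Prime) (hℓN : ¬ ℓ ∣ N) (hℓm : ¬ ℓ ∣ m)
    (A : ValuationSubring Kb) (hA : A.LiesOverPrime ℓ) (hD : HDed N A) (Z : ZCoord N ℓ)
    (hU : Z.Unram) : INJ m N A := by
  classical
  intro w hw hG
  obtain ⟨y₁, y₂, hy2, hy1, hc, hwy⟩ := hG
  have hm0 : 0 < m := Nat.pos_of_ne_zero (by rintro rfl; exact hℓm (dvd_zero _))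
  have hxt := transcendental_xF Z
  have hxt' : Transcendental Kb Z.xF⁻¹ := FF.transcendental_inv hxt
  have hfd := finiteDimensional_xF Z
  have hfd' := finiteDimensional_xF_inv Z
  obtain ⟨n1, g1, g1', h11, h12, h13⟩ := HDiv.exists_witness hxt m w hw.1 hw.2
  obtain ⟨n2, g2, g2', h21, h22, h23⟩ := HDiv.exists_witness hxt' m w hw.1 hw.2
  obtain ⟨K1, hK1, hQD⟩ := exists_QData N ℓ hℓ hℓN A hA
  obtain ⟨K2, hK2, hDed⟩ := hD
  obtain ⟨K0, hK0, hle, hS⟩ := exists_K0 N (K1 ⊔ K2)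
    (({w, y₁, y₂, Z.xF} : Finset (FF N)) ∪ Finset.univ.image g1 ∪ Finset.univ.image g1' ∪
      Finset.univ.image g2 ∪ Finset.univ.image g2')
  have hdvr := isDVR K0 A hℓ hA
  have hchar : CharP (kA A) ℓ := ResField.charP hℓ hA
  obtain ⟨D, hF, hres⟩ := hQD K0 hK0 (le_sup_left.trans hle)
  -- the embedding into `FF N`
  let ι : D.F0 →+* FF N :=
    ((bc K0).comp (algebraMap D.F0 (LaurentSeries K0))).codRestrict (modularFunctionFieldBar N)
      (fun f => bc_mem K0 N (hF ▸ f.2))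
  have hι : ∀ f : D.F0, ((ι f : FF N) : LaurentSeries Kb) = bc K0 (f : LaurentSeries K0) :=
    fun _ => rfl
  have hιinj : Function.Injective ι := ι.injective
  have lift : ∀ f ∈ (({w, y₁, y₂, Z.xF} : Finset (FF N)) ∪ Finset.univ.image g1 ∪
      Finset.univ.image g1' ∪ Finset.univ.image g2 ∪ Finset.univ.image g2'),
      ∃ f0 : D.F0, ι f0 = f := by
    intro f hf
    obtain ⟨f0, hf0, h⟩ := hS f hf
    exact ⟨⟨f0, hF ▸ hf0⟩, Subtype.ext h⟩
  obtain ⟨w0, hw0⟩ := lift w (by simp)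
  obtain ⟨y10, hy10⟩ := lift y₁ (by simp)
  obtain ⟨y20, hy20⟩ := lift y₂ (by simp)
  obtain ⟨x0, hx0⟩ := lift Z.xF (by simp)
  have l1 : ∀ i, ∃ f0 : D.F0, ι f0 = g1 i := fun i => lift _ (by simp)
  have l1' : ∀ i, ∃ f0 : D.F0, ι f0 = g1' i := fun i => lift _ (by simp)
  have l2 : ∀ i, ∃ f0 : D.F0, ι f0 = g2 i := fun i => lift _ (by simp)
  have l2' : ∀ i, ∃ f0 : D.F0, ι f0 = g2' i := fun i => lift _ (by simp)
  choose G1 hG1 using l1
  choose G1' hG1' using l1'
  choose G2 hG2 using l2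
  choose G2' hG2' using l2'
  -- the coordinate
  have hx : zS K0 Z.xZ ∈ D.F0 := by
    have h1 : bc K0 (x0 : LaurentSeries K0) = bc K0 (zS K0 Z.xZ) := by
      rw [← hι, hx0]
      exact (coeffMap_zS (algebraMap K0 Kb) Z.xZ).symm
    have h2 : (x0 : LaurentSeries K0) = zS K0 Z.xZ :=
      QE.coeffMap_injective (algebraMap K0 Kb).injective h1
    rw [← h2]
    exact x0.2
  set X := toCoord Z D hx with hX
  set y := zS (R0 K0 A) Z.yZ with hy
  have hxy : X.xW * y = 1 := toCoord_mul Z D hx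
  have hιx : ι X.x = Z.xF := by
    apply Subtype.ext
    rw [hι, coe_toCoord_x]
    exact coeffMap_zS (algebraMap K0 Kb) Z.xZ
  have hιx' : ι (X.inv y hxy).x = Z.xF⁻¹ := by rw [X.inv_x y hxy, map_inv₀, hιx]
  have hm : IsUnit (m : R0 K0 A) := natCast_isUnit_R0 K0 A hℓ hA hℓm
  have ha0 : (Z.a : kA A) ≠ 0 := intCast_ne_zero (kA A) Z.a_prim
  -- normality
  have hded1 : IsDedekindDomain (X.chart ⧸ Ideal.span {ϖB X}) := by
    refine hDed K0 hK0 (le_sup_right.trans hle) D hF hres X ι hι (by rw [hιx]; exact hxt)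
      (by rw [hιx]; exact hfd) (gFin _ Z.a) (by rw [gFin_map]; exact separable_gFin _ _ ha0) ?_
    intro a ha v hv
    rw [gFin_map] at ha
    rw [hιx] at hv ⊢
    exact unram_fin Z hU a ha v hv
  have hded2 : IsDedekindDomain ((X.inv y hxy).chart ⧸ Ideal.span {ϖB (X.inv y hxy)}) := by
    refine hDed K0 hK0 (le_sup_right.trans hle) D hF hres (X.inv y hxy) ι hι
      (by rw [hιx']; exact hxt') (by rw [hιx']; exact hfd') (gInf _ Z.a)
      (by rw [gInf_map]; exact separable_gInf _ _) ?_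
    intro a ha v hv
    rw [gInf_map] at ha
    rw [hιx'] at hv ⊢
    exact unram_inf Z hU a ha v hv
  -- `w ≡ 1`
  have hw00 : w0 ≠ 0 := by
    rintro rfl
    rw [map_zero] at hw0
    exact hw.1 hw0.symm
  have hw1 : DivO D.gaussO D.ϖF 1 (w0 - 1) := by
    refine divO_of_gaussOne D hres w0 y10 y20 ?_ ?_ ?_ ?_
    · rw [← hι, hy20]; exact hy2
    · rw [← hι, hy10]; exact hy1
    · rw [← hι, ← hι, hy10, hy20]; exact hc
    · apply hιinj
      rw [map_mul, hw0, hy10, hy20, hwy]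
  -- the witnesses
  have key : ∀ (X' : D.Coord) (f : D.F0), IsIntegral (Algebra.adjoin Kb {ι X'.x}) (ι f) →
      IsIntK X' f := fun X' f h => (isIntK_iff N D X' f (ι X'.x).2 (ι f).2).2 h
  have hdiv1 : ∃ (n : ℕ) (g g' : Fin n → D.F0), (∀ i, IsIntK X (g i ^ m * w0)) ∧
      (∀ i, IsIntK X (g' i ^ m * w0⁻¹)) ∧ ∑ i, g i * g' i = 1 := by
    refine ⟨n1, G1, G1', fun i => key X _ ?_, fun i => key X _ ?_, hιinj ?_⟩
    · rw [hιx, map_mul, map_pow, hG1, hw0]; exact h11 i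
    · rw [hιx, map_mul, map_pow, map_inv₀, hG1', hw0]; exact h12 i
    · rw [map_sum, map_one, ← h13]
      exact Finset.sum_congr rfl fun i _ => by rw [map_mul, hG1, hG1']
  have hdiv2 : ∃ (n : ℕ) (g g' : Fin n → D.F0), (∀ i, IsIntK (X.inv y hxy) (g i ^ m * w0)) ∧
      (∀ i, IsIntK (X.inv y hxy) (g' i ^ m * w0⁻¹)) ∧ ∑ i, g i * g' i = 1 := by
    refine ⟨n2, G2, G2', fun i => key _ _ ?_, fun i => key _ _ ?_, hιinj ?_⟩
    · rw [hιx', map_mul, map_pow, hG2, hw0]; exact h21 i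
    · rw [hιx', map_mul, map_pow, map_inv₀, hG2', hw0]; exact h22 i
    · rw [map_sum, map_one, ← h23]
      exact Finset.sum_congr rfl fun i _ => by rw [map_mul, hG2, hG2']
  -- the abstract theorem
  obtain ⟨u, hu0, hu1, hu2⟩ := inj_QE X y hxy m hm hded1 hded2 w0 hw00 hw1 hdiv1 hdiv2
  obtain ⟨c, hc'⟩ := const_of_mem_charts X y hxy _ hu1 hu2
  obtain ⟨c', hc''⟩ := IsAlgClosed.exists_pow_nat_eq ((c : K0) : Kb) hm0
  have hιc : ι (algebraMap K0 D.F0 c) = algebraMap Kb (FF N) ((c : K0) : Kb) :=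
    Subtype.ext (InstUp.bc_algebraMap K0 c)
  have hιu : ι u ≠ 0 := (map_ne_zero ι).2 hu0
  refine ⟨algebraMap Kb (FF N) c' / ι u, ?_⟩
  rw [div_pow, ← map_pow, hc'', ← hιc, ← hc', map_mul, map_pow, hw0,
    mul_div_cancel_left₀ _ (pow_ne_zero m hιu)]

end Fermat.Agent.ES.Inst
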