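import Fermat.Agent.ES.ConstAbs
import Fermat.Agent.S24.Gen

/-!
# ES, block INJ, package I-PL : integral over `ℚ̄[y]` iff no pole at the places where `y` is regular
-/

set_option autoImplicit false

namespace Fermat.Agent.ES.Inst

open AlgebraicCurve IsDedekindDomain IntermediateField WithZero Fermat.Agent.S24

namespace InstPl

variable {K F : Type*} [Field K] [Field F] [Algebra K F]

/-- an element regular at all the places coming from a Dedekind domain `B` lies in `B` -/
theorem exists_algebraMap_eq {B : Type*} [CommRing B] [IsDedekindDomain B]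
    [Algebra B F] [IsFractionRing B F] [Algebra K B] [IsScalarTower K B F] (u : F)
    (h : ∀ w : HeightOneSpectrum B, 0 ≤ (Place.ofHeightOneSpectrum (K := K) (F := F) w).ord u) :
    ∃ b : B, algebraMap B F b = u := by
  apply HeightOneSpectrum.mem_integers_of_valuation_le_one F u
  intro w
  have h1 := h w
  rw [Fermat.Agent.S24.FF.ord_ofHeightOneSpectrum] at h1
  rcases eq_or_ne u 0 with rfl | hu
  · simp
  · have h2 : log (w.valuation F u) ≤ log (1 : ℤᵐ⁰) := by
      rw [log_one]; omega
    exact (log_le_log ((Valuation.ne_zero_iff _).mpr hu) one_ne_zero).mp h2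

open scoped IntermediateField.algebraAdjoinAdjoin

theorem isIntegral_of_ord {y : F} (hy : Transcendental K y)
    [FiniteDimensional K⟮y⟯ F] [Algebra.IsSeparable K⟮y⟯ F] (f : F)
    (h : ∀ v : Place K F, 0 ≤ v.ord y → 0 ≤ v.ord f) :
    IsIntegral (Algebra.adjoin K {y}) f := by
  have := ConstAbs.isPrincipalIdealRing_adjoin hy
  have : IsDedekindDomain (integralClosure (Algebra.adjoin K {y}) F) :=
    integralClosure.isDedekindDomain (Algebra.adjoin K {y}) K⟮y⟯ F
  have : IsFractionRing (integralClosure (Algebra.adjoin K {y}) F) F :=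
    integralClosure.isFractionRing_of_finite_extension K⟮y⟯ F
  obtain ⟨b, rfl⟩ := exists_algebraMap_eq (K := K)
    (B := integralClosure (Algebra.adjoin K {y}) F) f (fun w => by
      apply h
      have hyB : y ∈ integralClosure (Algebra.adjoin K {y}) F :=
        isIntegral_algebraMap (x := (⟨y, Algebra.self_mem_adjoin_singleton K y⟩ : Algebra.adjoin K {y}))
      apply FF.ord_nonneg_of_mem
      rw [FF.mem_ofHeightOneSpectrum_iff]
      exact w.valuation_le_one (⟨y, hyB⟩ : integralClosure (Algebra.adjoin K {y}) F))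
  exact b.2

theorem ord_nonneg_of_isIntegral {y f : F} (hf : IsIntegral (Algebra.adjoin K {y}) f)
    (v : Place K F) (hv : 0 ≤ v.ord y) : 0 ≤ v.ord f := by
  have hyO : y ∈ v.toValuationSubring := by
    rcases eq_or_ne y 0 with rfl | hy0
    · exact zero_mem _
    · exact (FF.mem_iff_ord_nonneg v hy0).mpr hv
  let S : Subalgebra K F :=
    { v.toValuationSubring.toSubring with algebraMap_mem' := v.algebraMap_mem' }
  have hle : Algebra.adjoin K {y} ≤ S := Algebra.adjoin_le (Set.singleton_subset_iff.mpr hyO)
  let g : Algebra.adjoin K {y} →+* v.toValuationSubring :=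
    (algebraMap (Algebra.adjoin K {y}) F).codRestrict v.toValuationSubring.toSubring
      (fun a => hle a.2)
  have h1 : ((algebraMap v.toValuationSubring F).comp g).IsIntegralElem f := hf
  have h2 : IsIntegral v.toValuationSubring f := RingHom.IsIntegralElem.of_comp h1
  obtain ⟨z, hz⟩ := (IsIntegrallyClosed.isIntegral_iff (R := v.toValuationSubring) (K := F)).mp h2
  apply FF.ord_nonneg_of_mem
  rw [← hz]
  exact z.2

end InstPl

/-- **I-PL** -/
theorem isIntegral_of_ord (N : ℕ) [NeZero N] (y : FF N) (hy : Transcendental Kb y)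
    [FiniteDimensional Kb⟮y⟯ (FF N)] (f : FF N)
    (h : ∀ v : Place Kb (FF N), 0 ≤ v.ord y → 0 ≤ v.ord f) :
    IsIntegral (Algebra.adjoin Kb {y}) f :=
  InstPl.isIntegral_of_ord hy f h

theorem ord_nonneg_of_isIntegral (N : ℕ) (y f : FF N) (hf : IsIntegral (Algebra.adjoin Kb {y}) f)
    (v : Place Kb (FF N)) (hv : 0 ≤ v.ord y) : 0 ≤ v.ord f :=
  InstPl.ord_nonneg_of_isIntegral hf v hv

end Fermat.Agent.ES.Inst
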