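import Fermat.Agent.ES.KMain

/-!
# ES, block KRON : transition maps between the Kummer groups `KV m N` for varying exponent

* `KV.red (h : m ∣ M) : KV M N →+ KV m N`, `u ↦ u`,
* `KV.inc m m' : KV m N →+ KV (m * m') N`, `u ↦ u ^ m'`,

both equivariant for the Galois action and the Hecke operators.
-/

set_option autoImplicit false

noncomputable section

namespace Fermat.Agent.ES

open ModularCurve AlgebraicCurve Fermat.Agent.S24

namespace KV

variable {N : ℕ}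

theorem pdivUnits_le {m M : ℕ} (h : m ∣ M) : pdivUnits M N ≤ pdivUnits m N :=
  fun _ hu v => (Int.natCast_dvd_natCast.2 h).trans (hu v)

theorem ppow_le {m M : ℕ} (h : m ∣ M) : ppow M N ≤ ppow m N := by
  rintro u ⟨z, rfl⟩
  obtain ⟨c, rfl⟩ := h
  exact ⟨z ^ c, by simp [powMonoidHom_apply, ← pow_mul, mul_comm]⟩

/-- The reduction map `KV M N → KV m N`, `u ↦ u`, for `m ∣ M`. -/
def red {m M : ℕ} (h : m ∣ M) : KV M N →+ KV m N :=
  MonoidHom.toAdditive (QuotientGroup.map _ _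
    ((pdivUnits M N).subtype.codRestrict (pdivUnits m N) fun u => pdivUnits_le h u.2) (by
    rintro ⟨u, hu⟩ hu'
    rw [Subgroup.mem_subgroupOf] at hu'
    rw [Subgroup.mem_comap, Subgroup.mem_subgroupOf]
    exact ppow_le h hu'))

theorem red_mk {m M : ℕ} (h : m ∣ M) (u : pdivUnits M N) :
    red h (mk u) = mk ⟨(u : (FF N)ˣ), pdivUnits_le h u.2⟩ := rfl

theorem red_self {m : ℕ} (x : KV m N) : red (dvd_refl m) x = x := by
  obtain ⟨u, rfl⟩ := mk_surjective x
  rfl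

theorem red_red {m M M' : ℕ} (h : m ∣ M) (h' : M ∣ M') (x : KV M' N) :
    red h (red h' x) = red (h.trans h') x := by
  obtain ⟨u, rfl⟩ := mk_surjective x
  rfl

theorem pow_mem_pdivUnits (m m' : ℕ) {u : (FF N)ˣ} (hu : u ∈ pdivUnits m N) :
    u ^ m' ∈ pdivUnits (m * m') N := by
  intro v
  rw [Units.val_pow_eq_pow_val, ← zpow_natCast, Place.ord_zpow, Nat.cast_mul, mul_comm]
  exact mul_dvd_mul_left _ (hu v)

/-- The map `KV m N → KV (m * m') N`, `u ↦ u ^ m'`. -/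
def inc (m m' : ℕ) : KV m N →+ KV (m * m') N :=
  MonoidHom.toAdditive (QuotientGroup.map _ _
    (((powMonoidHom m' : (FF N)ˣ →* (FF N)ˣ).comp (pdivUnits m N).subtype).codRestrict
      (pdivUnits (m * m') N) fun u => pow_mem_pdivUnits m m' u.2) (by
    rintro ⟨u, hu⟩ hu'
    rw [Subgroup.mem_subgroupOf, mem_ppow] at hu'
    obtain ⟨z, hz⟩ := hu'
    rw [Subgroup.mem_comap, Subgroup.mem_subgroupOf, mem_ppow]
    refine ⟨z, ?_⟩
    rw [pow_mul, hz]
    rfl))

theorem inc_mk (m m' : ℕ) (u : pdivUnits m N) :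
    inc m m' (mk u) = mk ⟨(u : (FF N)ˣ) ^ m', pow_mem_pdivUnits m m' u.2⟩ := rfl

theorem red_inc (m m' : ℕ) (x : KV m N) : red (dvd_mul_right m m') (inc m m' x) = m' • x := by
  obtain ⟨u, rfl⟩ := mk_surjective x
  rfl

theorem inc_red (m m' : ℕ) (x : KV (m * m') N) :
    inc m m' (red (dvd_mul_right m m') x) = m' • x := by
  obtain ⟨u, rfl⟩ := mk_surjective x
  rfl

/-! ### equivariance -/

theorem red_galV {m M : ℕ} (h : m ∣ M) (σ : GQ) (x : KV M N) :
    red h (galV M N σ x) = galV m N σ (red h x) := by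
  obtain ⟨u, rfl⟩ := mk_surjective x
  rfl

theorem inc_galV (m m' : ℕ) (σ : GQ) (x : KV m N) :
    inc m m' (galV m N σ x) = galV (m * m') N σ (inc m m' x) := by
  obtain ⟨u, rfl⟩ := mk_surjective x
  rw [galV_mk, inc_mk, inc_mk, galV_mk]
  congr 1
  apply Subtype.ext
  exact (map_pow (galU N σ) _ _).symm

theorem red_heckeV {m M : ℕ} (h : m ∣ M) (ℓ : ℕ) [NeZero N] [NeZero ℓ] (x : KV M N) :
    red h (heckeV M N ℓ x) = heckeV m N ℓ (red h x) := by
  obtain ⟨u, rfl⟩ := mk_surjective x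
  rw [heckeV_mk M N ℓ (heckeU_mem M N ℓ), red_mk, red_mk, heckeV_mk m N ℓ (heckeU_mem m N ℓ)]

theorem inc_heckeV (m m' ℓ : ℕ) [NeZero N] [NeZero ℓ] (x : KV m N) :
    inc m m' (heckeV m N ℓ x) = heckeV (m * m') N ℓ (inc m m' x) := by
  obtain ⟨u, rfl⟩ := mk_surjective x
  rw [heckeV_mk m N ℓ (heckeU_mem m N ℓ), inc_mk, inc_mk,
    heckeV_mk (m * m') N ℓ (heckeU_mem (m * m') N ℓ)]
  congr 1
  apply Subtype.ext
  exact (map_pow (heckeU N ℓ) _ _).symm

/-! ### exactness -/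

/-- A root of unity of `FF N` is a constant, hence an `m`-th power. -/
theorem exists_pow_eq_of_pow_eq_one (m m' : ℕ) [NeZero m] [NeZero m'] (y : (FF N)ˣ)
    (hy : y ^ m' = 1) : ∃ z : (FF N)ˣ, z ^ m = y := by
  obtain ⟨ζ, hζ⟩ := HasEnoughRootsOfUnity.exists_primitiveRoot Kb m'
  have hζ' : IsPrimitiveRoot (algebraMap Kb (FF N) ζ) m' :=
    hζ.map_of_injective (algebraMap Kb (FF N)).injective
  have hy' : (y : FF N) ^ m' = 1 := by
    rw [← Units.val_pow_eq_pow_val, hy, Units.val_one]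
  obtain ⟨i, -, hi⟩ := hζ'.eq_pow_of_pow_eq_one hy'
  obtain ⟨c, hc⟩ := IsAlgClosed.exists_pow_nat_eq (ζ ^ i) (Nat.pos_of_ne_zero (NeZero.ne m))
  have hc0 : algebraMap Kb (FF N) c ≠ 0 := by
    intro h0
    have : (y : FF N) = 0 := by
      rw [← hi, ← map_pow, ← hc, map_pow, h0, zero_pow (NeZero.ne m)]
    exact y.ne_zero this
  refine ⟨Units.mk0 _ hc0, ?_⟩
  apply Units.ext
  rw [Units.val_pow_eq_pow_val, Units.val_mk0, ← map_pow, hc, map_pow, hi]

theorem inc_injective (m m' : ℕ) [NeZero m] [NeZero m'] :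
    Function.Injective (inc m m' : KV m N → KV (m * m') N) := by
  rw [injective_iff_map_eq_zero]
  intro x hx
  obtain ⟨u, rfl⟩ := mk_surjective x
  rw [inc_mk, mk_eq_zero_iff] at hx
  obtain ⟨z, hz⟩ := hx
  have hz' : z ^ (m * m') = (u : (FF N)ˣ) ^ m' := hz
  obtain ⟨t, ht⟩ := exists_pow_eq_of_pow_eq_one m m' ((u : (FF N)ˣ) * (z ^ m)⁻¹) (by
    rw [mul_pow, inv_pow, ← pow_mul, hz', mul_inv_cancel])
  rw [mk_eq_zero_iff]
  refine ⟨t * z, ?_⟩
  rw [mul_pow, ht, inv_mul_cancel_right]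

/-- The kernel of `red : KV (m * m') N → KV m N` is the image of
`inc : KV m' N → KV (m' * m) N`. -/
theorem red_eq_zero_iff (m m' : ℕ) [NeZero m] (x : KV (m * m') N) :
    red (dvd_mul_right m m') x = 0 ↔
      ∃ y : KV m' N, red (dvd_of_eq (mul_comm m m')) (inc m' m y) = x := by
  constructor
  · intro hx
    obtain ⟨u, rfl⟩ := mk_surjective x
    rw [red_mk, mk_eq_zero_iff] at hx
    obtain ⟨z, hz⟩ := hx
    have hz' : z ^ m = (u : (FF N)ˣ) := hz
    have hzm : z ∈ pdivUnits m' N := by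
      intro v
      have := u.2 v
      rw [← hz', Units.val_pow_eq_pow_val, ← zpow_natCast, Place.ord_zpow, Nat.cast_mul] at this
      exact (mul_dvd_mul_iff_left (by exact_mod_cast NeZero.ne m)).1 this
    refine ⟨mk ⟨z, hzm⟩, ?_⟩
    rw [inc_mk, red_mk]
    congr 1
    exact Subtype.ext hz'
  · rintro ⟨y, rfl⟩
    obtain ⟨z, rfl⟩ := mk_surjective y
    rw [inc_mk, red_mk, red_mk, mk_eq_zero_iff]
    exact ⟨z, rfl⟩

end KV

end Fermat.Agent.ES
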