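import Fermat.Agent.S16.LowerCore
import Fermat.Agent.S16.LReal
import Fermat.Agent.S22alt.Cocycle

set_option autoImplicit false

/-!
# ES / TORS-LAT: the period lattice `L = H¹(X₀(N), ℤ) ⊆ S₂(Γ₀(N))`

* `L = LamM N 1` is a finitely generated `ℤ`-module;
* it spans `S₂` over `ℝ`;
* an endomorphism `t` of `S₂` with `t L ⊆ p L` has all its eigenvalues in `p ℤ̄`.
-/

namespace Fermat.Agent.ES.Lat

open UpperHalfPlane ModularForm Filter Function Complex CongruenceSubgroup ModularCurve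
  ModularCurve.Period
open scoped MatrixGroups Manifold Topology Real ComplexConjugate
open S21 S21.PartG7 S16

variable (N : ℕ) [NeZero N]

/-- A cusp form all of whose periods are purely imaginary vanishes. -/
theorem eq_zero_of_re_Per_eq_zero (f : CuspForm (Gamma0 N) 2)
    (h : ∀ γ : Gamma0 N, (Per N f (Additive.ofMul γ)).re = 0) : f = 0 := by
  have hf : IsCF (Gamma0 N) 2 f := isCF_coe f
  obtain ⟨F, hF⟩ := exists_isPrim hf.holo
  have hN : 0 < N := Nat.pos_of_ne_zero (NeZero.ne N)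
  have hNr : (0 : ℝ) < (N : ℝ) := by exact_mod_cast hN
  have hc := fun δ => prim_cusp hf hF hN (conj_T_pow_mem_Gamma0 N) δ
  have h0 : (f : ℍ → ℂ) = 0 := by
    refine eq_zero_of_re_invariant (Gamma0 N) hF ?_ hNr (fun δ z => (hc δ).1 z) (fun δ => (hc δ).2)
    intro γ hγ z
    have h1 := Per_spec N f F hF ⟨γ, hγ⟩ z
    have h2 := h ⟨γ, hγ⟩
    rw [h1, Complex.sub_re] at h2
    linarith
  exact DFunLike.coe_injective h0

theorem mem_LamM_one_iff {f : CuspForm (Gamma0 N) 2} : f ∈ LamM N 1 ↔ f ∈ Lam N := by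
  rw [mem_LamM, mem_Lam]
  constructor
  · intro h γ
    obtain ⟨γ, rfl⟩ := Additive.ofMul.surjective γ
    obtain ⟨m, hm⟩ := h γ
    exact ⟨m, by simpa using hm⟩
  · intro h γ
    obtain ⟨m, hm⟩ := h (Additive.ofMul γ)
    exact ⟨m, by simpa using hm⟩

/-- the integral period homomorphism of an element of the lattice. -/
noncomputable def intPer (f : LamM N 1) : Additive (Gamma0 N) →+ ℤ :=
  AddMonoidHom.mk' (fun γ => (f.2 (Additive.toMul γ)).choose) (by
    intro a b
    have ha := (f.2 (Additive.toMul a)).choose_spec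
    have hb := (f.2 (Additive.toMul b)).choose_spec
    have hab := (f.2 (Additive.toMul (a + b))).choose_spec
    have e : (Per N f.1 (a + b)).re = (Per N f.1 a).re + (Per N f.1 b).re := by
      rw [map_add, Complex.add_re]
    have ha' : (Per N f.1 a).re = _ := ha
    have hb' : (Per N f.1 b).re = _ := hb
    have hab' : (Per N f.1 (a + b)).re = _ := hab
    rw [ha', hb', hab'] at e
    have e' : (((f.2 (Additive.toMul (a + b))).choose : ℤ) : ℝ)
      = (((f.2 (Additive.toMul a)).choose + (f.2 (Additive.toMul b)).choose : ℤ) : ℝ) := by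
      push_cast
      push_cast at e
      linarith
    exact_mod_cast e')

theorem intPer_spec (f : LamM N 1) (γ : Additive (Gamma0 N)) :
    (Per N f.1 γ).re = intPer N f γ := by
  have := (f.2 (Additive.toMul γ)).choose_spec
  have h' : (Per N f.1 γ).re = _ := this
  rw [h']
  simp [intPer]

theorem intPer_add (f g : LamM N 1) : intPer N (f + g) = intPer N f + intPer N g := by
  refine AddMonoidHom.ext fun γ => ?_
  have h1 := intPer_spec N (f + g) γ
  have h2 := intPer_spec N f γ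
  have h3 := intPer_spec N g γ
  have : ((intPer N (f + g) γ : ℤ) : ℝ) = ((intPer N f γ + intPer N g γ : ℤ) : ℝ) := by
    rw [← h1]
    push_cast
    rw [← h2, ← h3]
    show (Per N (f.1 + g.1) γ).re = _
    rw [map_add, AddMonoidHom.add_apply, Complex.add_re]
  exact_mod_cast this

theorem intPer_injective : Function.Injective (intPer N) := by
  intro f g h
  apply Subtype.ext
  rw [← sub_eq_zero]
  apply eq_zero_of_re_Per_eq_zero
  intro γ
  rw [map_sub, AddMonoidHom.sub_apply, Complex.sub_re, intPer_spec N f, intPer_spec N g, h, sub_self]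

/-- the lattice is a finitely generated abelian group. -/
theorem finite_LamM_one : Module.Finite ℤ (LamM N 1) := by
  obtain ⟨S, hS⟩ := S22alt.Gamma0_fg N
  have hSΓ : ∀ s : S, (s : SL(2, ℤ)) ∈ Gamma0 N := fun s => hS ▸ Subgroup.subset_closure s.2
  let e : LamM N 1 →ₗ[ℤ] (S → ℤ) :=
    (AddMonoidHom.mk' (fun f => fun s : S => intPer N f (Additive.ofMul ⟨s, hSΓ s⟩)) (by
      intro f g
      funext s
      simp [intPer_add])).toIntLinearMap
  have hinj : Function.Injective e := by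
    intro f g h
    apply intPer_injective
    refine AddMonoidHom.ext fun γ => ?_
    obtain ⟨⟨γ, hγ⟩, rfl⟩ := Additive.ofMul.surjective γ
    have key : ∀ γ (hγ : γ ∈ Subgroup.closure (S : Set SL(2, ℤ))),
        intPer N f (Additive.ofMul ⟨γ, hS ▸ hγ⟩) = intPer N g (Additive.ofMul ⟨γ, hS ▸ hγ⟩) := by
      intro γ hγ
      induction hγ using Subgroup.closure_induction with
      | mem x hx => exact congrFun h ⟨x, hx⟩
      | one =>
        have : (⟨1, hS ▸ Subgroup.one_mem _⟩ : Gamma0 N) = 1 := rfl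
        rw [this]; simp
      | mul x y hx hy ihx ihy =>
        have : (⟨x * y, hS ▸ Subgroup.mul_mem _ hx hy⟩ : Gamma0 N)
          = ⟨x, hS ▸ hx⟩ * ⟨y, hS ▸ hy⟩ := rfl
        rw [this, ofMul_mul, map_add, map_add, ihx, ihy]
      | inv x hx ihx =>
        have : (⟨x⁻¹, hS ▸ Subgroup.inv_mem _ hx⟩ : Gamma0 N) = (⟨x, hS ▸ hx⟩ : Gamma0 N)⁻¹ := rfl
        rw [this, ofMul_inv, map_neg, map_neg, ihx]
    exact key γ (hS.symm ▸ hγ)
  exact Module.Finite.of_injective e hinj

/-- a real valued parabolic homomorphism is a real combination of integral ones. -/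
theorem exists_decomp (ψ : Additive (Gamma0 N) →+ ℝ) (hψ : IsParabolicHom (Gamma0 N) ψ) :
    ∃ (ι : Type) (_ : Fintype ι) (e : ι → ℝ) (φ : ι → (Additive (Gamma0 N) →+ ℤ)),
      (∀ i, IsParabolicHom (Gamma0 N) (φ i)) ∧ ∀ γ, ψ γ = ∑ i, e i * (φ i γ : ℝ) := by
  obtain ⟨S, hS⟩ := S22alt.Gamma0_fg N
  have hSΓ : ∀ s : S, (s : SL(2, ℤ)) ∈ Gamma0 N := fun s => hS ▸ Subgroup.subset_closure s.2
  set M : Submodule ℤ ℝ :=
    Submodule.span ℤ (Set.range fun s : S => ψ (Additive.ofMul ⟨s, hSΓ s⟩)) with hM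
  have hfin : Module.Finite ℤ M := Module.Finite.span_of_finite ℤ (Set.finite_range _)
  have hmem : ∀ γ : Additive (Gamma0 N), ψ γ ∈ M := by
    intro γ
    obtain ⟨⟨γ, hγ⟩, rfl⟩ := Additive.ofMul.surjective γ
    have key : ∀ γ (hγ : γ ∈ Subgroup.closure (S : Set SL(2, ℤ))),
        ψ (Additive.ofMul ⟨γ, hS ▸ hγ⟩) ∈ M := by
      intro γ hγ
      induction hγ using Subgroup.closure_induction with
      | mem x hx => exact Submodule.subset_span ⟨⟨x, hx⟩, rfl⟩
      | one =>
        have : (⟨1, hS ▸ Subgroup.one_mem _⟩ : Gamma0 N) = 1 := rfl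
        rw [this]; simp
      | mul x y hx hy ihx ihy =>
        have : (⟨x * y, hS ▸ Subgroup.mul_mem _ hx hy⟩ : Gamma0 N)
          = ⟨x, hS ▸ hx⟩ * ⟨y, hS ▸ hy⟩ := rfl
        rw [this, ofMul_mul, map_add]
        exact add_mem ihx ihy
      | inv x hx ihx =>
        have : (⟨x⁻¹, hS ▸ Subgroup.inv_mem _ hx⟩ : Gamma0 N) = (⟨x, hS ▸ hx⟩ : Gamma0 N)⁻¹ := rfl
        rw [this, ofMul_inv, map_neg]
        exact neg_mem ihx
    exact key γ (hS.symm ▸ hγ)
  have hfree : Module.Free ℤ M := Module.free_of_finite_type_torsion_free'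
  let b := Module.Free.chooseBasis ℤ M
  let ψM : Additive (Gamma0 N) →+ M :=
    AddMonoidHom.mk' (fun γ => ⟨ψ γ, hmem γ⟩) (fun a c => Subtype.ext (map_add ψ a c))
  refine ⟨Module.Free.ChooseBasisIndex ℤ M, inferInstance, fun i => ((b i : M) : ℝ),
    fun i => ((Finsupp.applyAddHom i).comp b.repr.toLinearMap.toAddMonoidHom).comp ψM, ?_, ?_⟩
  · intro i γ hγ
    have h0 : ψM (Additive.ofMul γ) = 0 := Subtype.ext (hψ γ hγ)
    simp [h0]
  · intro γ
    have h1 := b.sum_repr (ψM γ)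
    have h2 := congrArg (Subtype.val) h1
    have h3 : ((ψM γ : M) : ℝ) = ψ γ := rfl
    rw [h3] at h2
    rw [← h2]
    simp only [AddSubmonoidClass.coe_finsetSum, Submodule.coe_smul, zsmul_eq_mul]
    refine Finset.sum_congr rfl fun i _ => ?_
    exact mul_comm _ _

/-- the lattice spans `S₂` over `ℝ`. -/
theorem exists_real_comb (g : CuspForm (Gamma0 N) 2) :
    ∃ (ι : Type) (_ : Fintype ι) (e : ι → ℝ) (f : ι → CuspForm (Gamma0 N) 2),
      (∀ i, f i ∈ LamM N 1) ∧ g = ∑ i, (e i : ℂ) • f i := by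
  let ψ : Additive (Gamma0 N) →+ ℝ := Complex.reAddGroupHom.comp (Per N g)
  have hψ : IsParabolicHom (Gamma0 N) ψ := by
    intro γ hγ
    show (Per N g (Additive.ofMul γ)).re = 0
    rw [Per_isParabolicHom N g γ hγ]; rfl
  obtain ⟨ι, hι, e, φ, hφ, hsum⟩ := exists_decomp N ψ hψ
  choose f hf using fun i => exists_re_Per N (φ i) (hφ i)
  refine ⟨ι, hι, e, f, fun i γ => ⟨φ i (Additive.ofMul γ), by simp [hf]⟩, ?_⟩
  rw [← sub_eq_zero]
  apply eq_zero_of_re_Per_eq_zero
  intro γ
  have h1 : (Per N g (Additive.ofMul γ)).re = ∑ i, e i * (φ i (Additive.ofMul γ) : ℝ) :=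
    hsum (Additive.ofMul γ)
  rw [map_sub, AddMonoidHom.sub_apply, Complex.sub_re, h1, map_sum, AddMonoidHom.finsetSum_apply,
    Complex.re_sum, sub_eq_zero]
  refine Finset.sum_congr rfl fun i _ => ?_
  rw [map_smul, AddMonoidHom.smul_apply, smul_eq_mul, Complex.re_ofReal_mul, hf]

/-- **TORS-LAT**: an endomorphism mapping the lattice `L` into `p L` has its eigenvalues in
`p ℤ̄`. -/
theorem isIntegral_div (p : ℕ) (hp : p ≠ 0) (t : Module.End ℂ (CuspForm (Gamma0 N) 2))
    (ht : ∀ f ∈ LamM N 1, t f ∈ LamM N p) (g : CuspForm (Gamma0 N) 2) (hg : g ≠ 0) (a : ℂ)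
    (hta : t g = a • g) : IsIntegral ℤ (a / p) := by
  have hpc : (p : ℂ) ≠ 0 := by exact_mod_cast hp
  have hpr : (p : ℝ) ≠ 0 := by exact_mod_cast hp
  set T : Module.End ℂ (CuspForm (Gamma0 N) 2) := ((p : ℂ)⁻¹) • t with hT
  have hTL : ∀ f ∈ LamM N 1, T f ∈ LamM N 1 := by
    intro f hf γ
    obtain ⟨m, hm⟩ := ht f hf γ
    refine ⟨m, ?_⟩
    rw [hT, LinearMap.smul_apply, map_smul, AddMonoidHom.smul_apply, smul_eq_mul,
      show ((p : ℂ)⁻¹) = (((p : ℝ)⁻¹ : ℝ) : ℂ) by push_cast; rfl, Complex.re_ofReal_mul, hm]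
    push_cast
    field_simp
  have := finite_LamM_one N
  let Q : Module.End ℤ (LamM N 1) :=
    (AddMonoidHom.mk' (fun f : LamM N 1 => (⟨T f.1, hTL f.1 f.2⟩ : LamM N 1)) (by
      intro f g
      apply Subtype.ext
      show T (f.1 + g.1) = T f.1 + T g.1
      rw [map_add])).toIntLinearMap
  obtain ⟨P, hPm, hP⟩ := LinearMap.exists_monic_and_aeval_eq_zero ℤ Q
  have hpow : ∀ (n : ℕ) (f : LamM N 1), (((Q ^ n) f : LamM N 1) : CuspForm (Gamma0 N) 2)
      = (T ^ n) f.1 := by
    intro n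
    induction n with
    | zero => intro f; simp
    | succ n ih =>
      intro f
      rw [pow_succ, pow_succ, Module.End.mul_apply, Module.End.mul_apply, ih]
      rfl
  have hae : ∀ (R : Polynomial ℤ) (f : LamM N 1),
      (((Polynomial.aeval Q R) f : LamM N 1) : CuspForm (Gamma0 N) 2)
        = (Polynomial.aeval T R) f.1 := by
    intro R
    induction R using Polynomial.induction_on' with
    | add R R' h h' =>
      intro f
      rw [map_add, map_add, LinearMap.add_apply, LinearMap.add_apply, ← h, ← h']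
      rfl
    | monomial n c =>
      intro f
      rw [Polynomial.aeval_monomial, Polynomial.aeval_monomial, Module.End.mul_apply,
        Module.End.mul_apply, ← hpow]
      simp
  have hkill : ∀ f ∈ LamM N 1, (Polynomial.aeval T P) f = 0 := by
    intro f hf
    rw [← hae P ⟨f, hf⟩, hP]
    rfl
  obtain ⟨ι, hι, e, f, hf, hgf⟩ := exists_real_comb N g
  have hg0 : (Polynomial.aeval T P) g = 0 := by
    rw [hgf, map_sum]
    refine Finset.sum_eq_zero fun i _ => ?_
    rw [map_smul, hkill _ (hf i), smul_zero]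
  have hTg : T g = (a / p) • g := by
    rw [hT, LinearMap.smul_apply, hta, smul_smul]
    congr 1
    field_simp
  have h2 : (Polynomial.aeval T (P.map (algebraMap ℤ ℂ))) g
      = (P.map (algebraMap ℤ ℂ)).eval (a / p) • g :=
    Module.End.aeval_apply_of_mem_apply_eq_smul hTg
  rw [Polynomial.aeval_map_algebraMap, hg0] at h2
  have h3 : (P.map (algebraMap ℤ ℂ)).eval (a / p) = 0 :=
    (smul_eq_zero.mp h2.symm).resolve_right hg
  refine ⟨P, hPm, ?_⟩
  rwa [Polynomial.eval_map] at h3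

end Fermat.Agent.ES.Lat
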