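import Fermat.Agent.ES.MMod

/-!
# ES / MODEL : BETA-GEN, semi-local form

`B ⊆ O` a subring with `B ∩ ϖ O = ϖ B` and `B / ϖ` a Dedekind domain.  If `M, M' ⊆ O` are saturated
`B`-submodules of `F` with `M M' ⊆ B` and `ϖ ^ c ∈ M M'`, then for every finite set `S` of maximal
ideals of `B / ϖ` there are `x ∈ M`, `x' ∈ M'` such that `x x'` is a unit at all `n ∈ S`.
(In other words the reductions of `M` and `M'` are inverse to each other.)
-/

set_option autoImplicit false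

namespace Fermat.Agent.ES.Model.BetaGen

/-- semi-local generator of a nonzero ideal of a Dedekind domain -/
lemma exists_semilocal_gen {D : Type*} [CommRing D] [IsDedekindDomain D] (a : Ideal D)
    (ha : a ≠ ⊥) (S : Finset (Ideal D)) (hne : S.Nonempty) (hS : ∀ n ∈ S, n.IsMaximal) :
    ∃ x0 ∈ a, x0 ≠ 0 ∧ ∃ σ, (∀ n ∈ S, σ ∉ n) ∧ ∀ y ∈ a, ∃ β, σ * y = β * x0 := by
  classical
  set P : Ideal D := ∏ n ∈ S, n with hP
  have hPle : ∀ n ∈ S, P ≤ n := fun n hn => Ideal.prod_le_inf.trans (Finset.inf_le hn)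
  by_cases hP0 : P = ⊥
  · obtain ⟨n, hn, hn0⟩ := Finset.prod_eq_zero_iff.1 hP0
    have hn0' : n = ⊥ := hn0
    have htop : a = ⊤ := by
      by_contra hne'
      exact ha ((hn0' ▸ hS n hn).eq_of_le hne' bot_le).symm
    refine ⟨1, htop ▸ Submodule.mem_top, one_ne_zero, 1, fun n' hn' h1 => ?_, fun y _ => ⟨y, by ring⟩⟩
    exact (hS n' hn').ne_top ((Ideal.eq_top_iff_one _).2 h1)
  · have hI : a * P ≠ 0 := mul_ne_zero ha hP0
    obtain ⟨x0, hx0⟩ := IsDedekindDomain.exists_sup_span_eq (Ideal.mul_le_left : a * P ≤ a) hI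
    have hx0a : x0 ∈ a := by
      rw [← hx0]
      exact Ideal.mem_sup_right (Ideal.mem_span_singleton_self x0)
    obtain ⟨e, he⟩ : a ∣ Ideal.span {x0} :=
      Ideal.dvd_iff_le.2 ((Ideal.span_singleton_le_iff_mem _).2 hx0a)
    have hsup : P ⊔ e = ⊤ := by
      have h1 : a * (P ⊔ e) = a * 1 := by rw [Ideal.mul_sup, ← he, hx0, mul_one]
      have := mul_left_cancel₀ (show a ≠ 0 from ha) h1
      rwa [Ideal.one_eq_top] at this
    obtain ⟨τ, hτ, σ, hσ, hτσ⟩ := Submodule.mem_sup.1 ((Ideal.eq_top_iff_one _).1 hsup)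
    have hσS : ∀ n ∈ S, σ ∉ n := by
      intro n hn hσn
      apply (hS n hn).ne_top
      rw [Ideal.eq_top_iff_one, ← hτσ]
      exact n.add_mem (hPle n hn hτ) hσn
    refine ⟨x0, hx0a, ?_, σ, hσS, fun y hy => ?_⟩
    · rintro rfl
      obtain ⟨n, hn⟩ := hne
      apply hσS n hn
      have he0 : e = ⊥ := by
        have h2 : a * e = 0 := by rw [← he]; simp
        exact (mul_eq_zero.1 h2).resolve_left ha
      rw [he0] at hσ
      rw [(Submodule.mem_bot D).1 hσ]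
      exact n.zero_mem
    · have h1 : y * σ ∈ Ideal.span {x0} := by rw [he]; exact Ideal.mul_mem_mul hy hσ
      obtain ⟨β, hβ⟩ := Ideal.mem_span_singleton'.1 h1
      exact ⟨β, by rw [hβ, mul_comm]⟩

variable {F : Type*} [Field F]

/-- `B ⊆ O` is a subring containing `ϖ` with `B ∩ ϖ O = ϖ B`. -/
structure IsPre (O : ValuationSubring F) (ϖ : F) (B : Subring F) : Prop where
  le : ∀ x ∈ B, x ∈ O
  unif_mem : ϖ ∈ B
  sat : ∀ x ∈ B, DivO O ϖ 1 x → ∃ y ∈ B, x = ϖ * y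

theorem _root_.Fermat.Agent.ES.Model.IsChart.isPre {O : ValuationSubring F} {ϖ : F} {m : ℕ}
    {B : Subring F} (h : IsChart O ϖ m B) : IsPre O ϖ B := ⟨h.le, h.unif_mem, h.sat⟩

/-- `M ⊆ O` is a saturated `B`-submodule. -/
structure IsLat (O : ValuationSubring F) (ϖ : F) (B : Subring F) (M : AddSubgroup F) : Prop where
  le : ∀ x ∈ M, x ∈ O
  smul : ∀ b ∈ B, ∀ x ∈ M, b * x ∈ M
  sat : ∀ x ∈ O, ϖ * x ∈ M → x ∈ M

variable {O : ValuationSubring F} {ϖ : F} {B : Subring F}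

lemma IsLat.sat_pow {M : AddSubgroup F} (hM : IsLat O ϖ B M) (hϖ : ϖ ∈ O) (c : ℕ) :
    ∀ x ∈ O, ϖ ^ c * x ∈ M → x ∈ M := by
  induction c with
  | zero => intro x _ h; simpa using h
  | succ c ih =>
    intro x hx h
    apply ih x hx
    apply hM.sat _ (O.mul_mem _ _ (O.pow_mem hϖ c) hx)
    rw [← mul_assoc, ← pow_succ']
    exact h

lemma mk_eq_zero_iff (hB : IsPre O ϖ B) (x : B) :
    Ideal.Quotient.mk (Ideal.span {(⟨ϖ, hB.unif_mem⟩ : B)}) x = 0 ↔ DivO O ϖ 1 (x : F) := by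
  rw [Ideal.Quotient.eq_zero_iff_mem, Ideal.mem_span_singleton']
  constructor
  · rintro ⟨a, ha⟩
    exact ⟨a, hB.le _ a.2, by rw [← ha]; simp [mul_comm]⟩
  · intro h
    obtain ⟨y, hy, hxy⟩ := hB.sat _ x.2 h
    exact ⟨⟨y, hy⟩, Subtype.ext (by simp [hxy, mul_comm])⟩

lemma divO_sum {ι : Type*} (s : Finset ι) (f : ι → F) (h : ∀ i ∈ s, DivO O ϖ 1 (f i)) :
    DivO O ϖ 1 (∑ i ∈ s, f i) := by
  classical
  induction s using Finset.induction_on with
  | empty => exact ⟨0, O.zero_mem, by simp⟩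
  | insert a s ha ih =>
    rw [Finset.sum_insert ha]
    exact (h a (Finset.mem_insert_self a s)).add
      (ih fun i hi => h i (Finset.mem_insert_of_mem hi))

/-- a lattice occurring in a relation `ϖ ^ c = ∑ g i * g' i` contains a Gauss unit. -/
lemma exists_not_divO (hO : IsUnif O ϖ) {M M' : AddSubgroup F} (hM : IsLat O ϖ B M)
    (hM' : IsLat O ϖ B M') (c : ℕ) : ∀ (ι : Type) (_ : Fintype ι) (g g' : ι → F),
    (∀ i, g i ∈ M) → (∀ i, g' i ∈ M') → ϖ ^ c = ∑ i, g i * g' i →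
    ∃ y ∈ M', ¬ DivO O ϖ 1 y := by
  induction c with
  | zero =>
    intro ι _ g g' hg hg' h
    by_contra hcon
    push Not at hcon
    apply hO.not_divO_one
    rw [← pow_zero ϖ, h]
    exact divO_sum _ _ fun i _ => (hcon _ (hg' i)).mul_left (hM.le _ (hg i))
  | succ c ih =>
    intro ι _ g g' hg hg' h
    by_contra hcon
    push Not at hcon
    choose y hy hy' using fun i => hcon _ (hg' i)
    have hyM : ∀ i, y i ∈ M' := fun i => hM'.sat _ (hy i) (by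
      have := hy' i
      rw [pow_one] at this
      rw [← this]; exact hg' i)
    obtain ⟨z, hz, hz'⟩ := ih ι _ g y hg hyM (by
      apply mul_left_cancel₀ hO.ne_zero
      rw [← pow_succ', h, Finset.mul_sum]
      refine Finset.sum_congr rfl fun i _ => ?_
      rw [hy' i]; ring)
    exact hz' (hcon z hz)

/-- **BETA-GEN**, semi-local form. -/
theorem exists_pair (hO : IsUnif O ϖ) (hB : IsPre O ϖ B)
    (hded : IsDedekindDomain (B ⧸ Ideal.span {(⟨ϖ, hB.unif_mem⟩ : B)}))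
    (M M' : AddSubgroup F) (hM : IsLat O ϖ B M) (hM' : IsLat O ϖ B M')
    (hmul : ∀ x ∈ M, ∀ x' ∈ M', x * x' ∈ B)
    (hdiv : ∃ (c : ℕ) (ι : Type) (_ : Fintype ι) (g g' : ι → F), (∀ i, g i ∈ M) ∧
      (∀ i, g' i ∈ M') ∧ ϖ ^ c = ∑ i, g i * g' i)
    (S : Finset (Ideal (B ⧸ Ideal.span {(⟨ϖ, hB.unif_mem⟩ : B)}))) (hS : ∀ n ∈ S, n.IsMaximal) :
    ∃ (x x' : F) (hx : x ∈ M) (hx' : x' ∈ M'), ∀ n ∈ S,
      Ideal.Quotient.mk (Ideal.span {(⟨ϖ, hB.unif_mem⟩ : B)})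
        (⟨x * x', hmul x hx x' hx'⟩ : B) ∉ n := by
  classical
  rcases S.eq_empty_or_nonempty with rfl | hne
  · exact ⟨0, 0, M.zero_mem, M'.zero_mem, fun n hn => absurd hn (Finset.notMem_empty n)⟩
  obtain ⟨c, ι, _, g, g', hg, hg', hsum⟩ := hdiv
  set q := Ideal.Quotient.mk (Ideal.span {(⟨ϖ, hB.unif_mem⟩ : B)}) with hq
  -- Gauss units in `M'` and `M`
  obtain ⟨γ, hγ, hγ'⟩ := exists_not_divO hO hM hM' c ι _ g g' hg hg' hsum
  obtain ⟨y₁, hy₁, hy₁'⟩ := exists_not_divO hO hM' hM c ι _ g' g hg' hg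
    (by rw [hsum]; exact Finset.sum_congr rfl fun i _ => mul_comm _ _)
  have hγi : γ⁻¹ ∈ O := hO.inv_mem (hM'.le _ hγ) hγ'
  have hγ0 : γ ≠ 0 := by
    rintro rfl
    exact hγ' ⟨0, O.zero_mem, by simp⟩
  have hmem : ∀ y ∈ M, γ * y ∈ B := fun y hy => by rw [mul_comm]; exact hmul y hy γ hγ
  -- cancellation of the Gauss unit `γ`
  have hcancel : ∀ z : F, DivO O ϖ 1 (γ * z) → DivO O ϖ 1 z := by
    intro z hz
    have := hz.mul_left hγi
    rwa [← mul_assoc, inv_mul_cancel₀ hγ0, one_mul] at this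
  -- the ideal `𝔞 = q (γ M)`
  let 𝔞 : Ideal (B ⧸ Ideal.span {(⟨ϖ, hB.unif_mem⟩ : B)}) :=
    { carrier := {d | ∃ (y : F) (hy : y ∈ M), d = q ⟨γ * y, hmem y hy⟩}
      add_mem' := by
        rintro _ _ ⟨y, hy, rfl⟩ ⟨z, hz, rfl⟩
        refine ⟨y + z, M.add_mem hy hz, ?_⟩
        rw [← map_add]
        congr 1
        exact Subtype.ext (by simp [mul_add])
      zero_mem' := ⟨0, M.zero_mem, by
        rw [eq_comm, hq, mk_eq_zero_iff hB]
        exact ⟨0, O.zero_mem, by simp⟩⟩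
      smul_mem' := by
        rintro d _ ⟨y, hy, rfl⟩
        obtain ⟨b, rfl⟩ := Ideal.Quotient.mk_surjective d
        refine ⟨b * y, hM.smul _ b.2 _ hy, ?_⟩
        rw [smul_eq_mul, ← map_mul]
        congr 1
        exact Subtype.ext (by simp; ring) }
  have h𝔞 : 𝔞 ≠ ⊥ := by
    intro h0
    have h1 : q ⟨γ * y₁, hmem y₁ hy₁⟩ ∈ 𝔞 := ⟨y₁, hy₁, rfl⟩
    rw [h0, Submodule.mem_bot, hq, mk_eq_zero_iff hB] at h1
    exact hy₁' (hcancel _ h1)
  obtain ⟨_, ⟨x0, hx0, rfl⟩, hx0ne, σ', hσ', hgen⟩ := exists_semilocal_gen 𝔞 h𝔞 S hne hS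
  obtain ⟨σ, rfl⟩ := Ideal.Quotient.mk_surjective σ'
  have hx0' : ¬ DivO O ϖ 1 x0 := by
    intro h
    apply hx0ne
    rw [hq, mk_eq_zero_iff hB]
    exact h.mul_left (hM'.le _ hγ)
  have hx0i : x0⁻¹ ∈ O := hO.inv_mem (hM.le _ hx0) hx0'
  have hx00 : x0 ≠ 0 := by
    rintro rfl
    exact hx0' ⟨0, O.zero_mem, by simp⟩
  -- the basic relation
  have hbase : ∀ y ∈ M, ∃ β ∈ B, ∃ z ∈ M, (σ : F) * y = β * x0 + ϖ * z := by
    intro y hy
    obtain ⟨β', hβ'⟩ := hgen _ ⟨y, hy, rfl⟩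
    obtain ⟨β, rfl⟩ := Ideal.Quotient.mk_surjective β'
    have h1 : q (σ * ⟨γ * y, hmem y hy⟩ - β * ⟨γ * x0, hmem x0 hx0⟩) = 0 := by
      rw [map_sub, map_mul, map_mul, hβ', sub_self]
    rw [hq, mk_eq_zero_iff hB] at h1
    have h2 : DivO O ϖ 1 ((σ : F) * y - β * x0) := by
      apply hcancel
      convert h1 using 1
      push_cast
      ring
    obtain ⟨z, hz, hz'⟩ := h2
    rw [pow_one] at hz'
    refine ⟨β, β.2, z, hM.sat z hz ?_, by rw [← hz']; ring⟩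
    rw [← hz']
    exact M.sub_mem (hM.smul _ σ.2 _ hy) (hM.smul _ β.2 _ hx0)
  have hiter : ∀ (k : ℕ), ∀ y ∈ M, ∃ b ∈ B, ∃ z ∈ M, (σ : F) ^ k * y = b * x0 + ϖ ^ k * z := by
    intro k
    induction k with
    | zero => intro y hy; exact ⟨0, B.zero_mem, y, hy, by simp⟩
    | succ k ih =>
      intro y hy
      obtain ⟨b, hb, z, hz, h1⟩ := ih y hy
      obtain ⟨β, hβ, z1, hz1, h2⟩ := hbase z hz
      refine ⟨σ * b + ϖ ^ k * β, B.add_mem (B.mul_mem σ.2 hb)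
        (B.mul_mem (B.pow_mem hB.unif_mem k) hβ), z1, hz1, ?_⟩
      calc (σ : F) ^ (k + 1) * y = σ * (σ ^ k * y) := by ring
        _ = σ * (b * x0 + ϖ ^ k * z) := by rw [h1]
        _ = σ * b * x0 + ϖ ^ k * (σ * z) := by ring
        _ = σ * b * x0 + ϖ ^ k * (β * x0 + ϖ * z1) := by rw [h2]
        _ = (σ * b + ϖ ^ k * β) * x0 + ϖ ^ (k + 1) * z1 := by ring
  choose b hb z hz hbz using fun i => hiter (c + 1) (g i) (hg i)
  set u : F := ∑ i, b i * g' i with hu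
  set e : F := ∑ i, z i * g' i with he
  have huM : u ∈ M' := M'.sum_mem fun i _ => hM'.smul _ (hb i) _ (hg' i)
  have heB : e ∈ B := B.sum_mem fun i _ => hmul _ (hz i) _ (hg' i)
  have hkey : x0 * u = ϖ ^ c * ((σ : F) ^ (c + 1) - ϖ * e) := by
    have h1 : (σ : F) ^ (c + 1) * ϖ ^ c = x0 * u + ϖ ^ (c + 1) * e := by
      rw [hsum, Finset.mul_sum, hu, he, Finset.mul_sum, Finset.mul_sum, ← Finset.sum_add_distrib]
      refine Finset.sum_congr rfl fun i _ => ?_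
      rw [← mul_assoc, hbz i]
      ring
    linear_combination (-1 : F) * h1
  set x' : F := x0⁻¹ * ((σ : F) ^ (c + 1) - ϖ * e) with hx'
  have hx'O : x' ∈ O := O.mul_mem _ _ hx0i (hB.le _ (B.sub_mem (B.pow_mem σ.2 _)
    (B.mul_mem hB.unif_mem heB)))
  have hx'M : x' ∈ M' := by
    apply hM'.sat_pow hO.mem c x' hx'O
    have : ϖ ^ c * x' = u := by
      rw [hx']
      field_simp
      exact hkey.symm
    rw [this]
    exact huM
  refine ⟨x0, x', hx0, hx'M, fun n hn hmemn => ?_⟩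
  have h1 : (⟨x0 * x', hmul x0 hx0 x' hx'M⟩ : B)
      = σ ^ (c + 1) - ⟨ϖ, hB.unif_mem⟩ * ⟨e, heB⟩ := by
    apply Subtype.ext
    push_cast
    rw [hx']
    field_simp
  rw [h1, map_sub, map_mul, map_pow] at hmemn
  have h2 : q ⟨ϖ, hB.unif_mem⟩ = 0 :=
    Ideal.Quotient.eq_zero_iff_mem.2 (Ideal.mem_span_singleton_self _)
  rw [h2, zero_mul, sub_zero] at hmemn
  exact hσ' n hn ((hS n hn).isPrime.mem_of_pow_mem _ hmemn)

/-- **Glueing**: if at every maximal ideal `n` of `B / ϖ` the lattice `N` contains an element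
congruent to an element of `B` which is a unit at `n`, then `N` contains an element `≡ 1`. -/
theorem exists_oneUnit (hB : IsPre O ϖ B) (N : AddSubgroup F)
    (hsmul : ∀ b ∈ B, ∀ x ∈ N, b * x ∈ N)
    (h : ∀ n : Ideal (B ⧸ Ideal.span {(⟨ϖ, hB.unif_mem⟩ : B)}), n.IsMaximal →
      ∃ x ∈ N, ∃ b : B, DivO O ϖ 1 (x - b) ∧
        Ideal.Quotient.mk (Ideal.span {(⟨ϖ, hB.unif_mem⟩ : B)}) b ∉ n) :
    ∃ f ∈ N, DivO O ϖ 1 (f - 1) := by
  set q := Ideal.Quotient.mk (Ideal.span {(⟨ϖ, hB.unif_mem⟩ : B)}) with hq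
  let 𝔟 : Ideal (B ⧸ Ideal.span {(⟨ϖ, hB.unif_mem⟩ : B)}) :=
    { carrier := {d | ∃ x ∈ N, ∃ b : B, DivO O ϖ 1 (x - b) ∧ d = q b}
      add_mem' := by
        rintro _ _ ⟨x, hx, b, hxb, rfl⟩ ⟨y, hy, c, hyc, rfl⟩
        refine ⟨x + y, N.add_mem hx hy, b + c, ?_, (map_add q b c).symm⟩
        have := hxb.add hyc
        convert this using 1
        push_cast
        ring
      zero_mem' := ⟨0, N.zero_mem, 0, ⟨0, O.zero_mem, by simp⟩, (map_zero q).symm⟩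
      smul_mem' := by
        rintro d _ ⟨x, hx, b, hxb, rfl⟩
        obtain ⟨a, rfl⟩ := Ideal.Quotient.mk_surjective d
        refine ⟨a * x, hsmul _ a.2 _ hx, a * b, ?_, by rw [smul_eq_mul, map_mul]⟩
        have := hxb.mul_left (hB.le _ a.2)
        convert this using 1
        push_cast
        ring }
  have htop : 𝔟 = ⊤ := by
    by_contra hne
    obtain ⟨n, hn, hle⟩ := Ideal.exists_le_maximal 𝔟 hne
    obtain ⟨x, hx, b, hxb, hbn⟩ := h n hn
    exact hbn (hle ⟨x, hx, b, hxb, rfl⟩)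
  obtain ⟨x, hx, b, hxb, h1⟩ : (1 : B ⧸ Ideal.span {(⟨ϖ, hB.unif_mem⟩ : B)}) ∈ 𝔟 := by
    rw [htop]; exact Submodule.mem_top
  refine ⟨x, hx, ?_⟩
  have h2 : q (b - 1) = 0 := by rw [map_sub, ← h1, map_one, sub_self]
  rw [hq, mk_eq_zero_iff hB] at h2
  have := hxb.add h2
  convert this using 1
  push_cast
  ring

end Fermat.Agent.ES.Model.BetaGen
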