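import Mathlib

/-!
# ES, block MODEL : shared definitions (Mathlib only)

Abstract two-chart arithmetic surface inside a field `F`:
* `O`  : the "Gauss" valuation ring of `F` (a DVR with uniformiser `ϖ`),
* `B`  : a chart (a subring of `F` contained in `O`),
* `MM m w B = {f : f ^ m * w ∈ B}` : the rank one module attached to `w` (`div w = m D`).
-/

set_option autoImplicit false

namespace Fermat.Agent.ES.Model

variable {F : Type*} [Field F]

/-- `x ∈ ϖ ^ n O`. -/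
def DivO (O : ValuationSubring F) (ϖ : F) (n : ℕ) (x : F) : Prop := ∃ y ∈ O, x = ϖ ^ n * y

/-- `ϖ` is a uniformiser of the valuation ring `O`. -/
structure IsUnif (O : ValuationSubring F) (ϖ : F) : Prop where
  ne_zero : ϖ ≠ 0
  mem : ϖ ∈ O
  inv_notMem : ϖ⁻¹ ∉ O
  gen : ∀ x ∈ O, x⁻¹ ∉ O → DivO O ϖ 1 x

/-- `B` is a chart: contained in `O`, saturated (`B ∩ ϖ O = ϖ B`), closed under `m`-th roots,
`m` invertible. -/
structure IsChart (O : ValuationSubring F) (ϖ : F) (m : ℕ) (B : Subring F) : Prop where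
  le : ∀ x ∈ B, x ∈ O
  unif_mem : ϖ ∈ B
  m_ne : (m : F) ≠ 0
  inv_mem : (m : F)⁻¹ ∈ B
  sat : ∀ x ∈ B, DivO O ϖ 1 x → ∃ y ∈ B, x = ϖ * y
  root : ∀ x : F, x ^ m ∈ B → x ∈ B

/-- The rank one module `{f : f ^ m * w ∈ B}`. -/
def MM (m : ℕ) (w : F) (B : Subring F) : Set F := {f | f ^ m * w ∈ B}

theorem mem_MM {m : ℕ} {w : F} {B : Subring F} {f : F} : f ∈ MM m w B ↔ f ^ m * w ∈ B := Iff.rfl

end Fermat.Agent.ES.Model
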