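import Fermat.Agent.ES.MDefs

/-!
# ES, block MODEL : `MM m w B` is a `B`-module; basic calculus of `DivO`.
-/

set_option autoImplicit false

namespace Fermat.Agent.ES.Model

variable {F : Type*} [Field F]

theorem MM_smul {m : ℕ} {B : Subring F} (w : F) {b f : F} (hb : b ∈ B) (hf : f ∈ MM m w B) :
    b * f ∈ MM m w B := by
  rw [mem_MM] at hf ⊢
  have : (b * f) ^ m * w = b ^ m * (f ^ m * w) := by ring
  rw [this]
  exact B.mul_mem (B.pow_mem hb m) hf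

theorem MM_add {O : ValuationSubring F} {ϖ : F} {m : ℕ} {B : Subring F} (hB : IsChart O ϖ m B)
    (hm : 0 < m) (w : F) {f g : F} (hf : f ∈ MM m w B) (hg : g ∈ MM m w B) :
    f + g ∈ MM m w B := by
  rw [mem_MM] at hf hg ⊢
  rw [add_pow, Finset.sum_mul]
  refine B.sum_mem fun k hk => ?_
  have hk' : k ≤ m := Nat.lt_succ_iff.mp (Finset.mem_range.mp hk)
  have h1 : f ^ k * g ^ (m - k) * w ∈ B := by
    apply hB.root
    have : (f ^ k * g ^ (m - k) * w) ^ m = (f ^ m * w) ^ k * (g ^ m * w) ^ (m - k) := by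
      have hw : w ^ m = w ^ k * w ^ (m - k) := by rw [← pow_add]; congr 1; omega
      rw [mul_pow, mul_pow, hw, mul_pow, mul_pow, ← pow_mul, ← pow_mul, ← pow_mul, ← pow_mul,
        mul_comm k m, mul_comm (m - k) m]
      ring
    rw [this]
    exact B.mul_mem (B.pow_mem hf _) (B.pow_mem hg _)
  have : f ^ k * g ^ (m - k) * (m.choose k : F) * w = (m.choose k : F) * (f ^ k * g ^ (m - k) * w) := by
    ring
  rw [this]
  exact B.mul_mem (natCast_mem B _) h1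

theorem MM_zero {m : ℕ} (hm : 0 < m) (w : F) (B : Subring F) : (0 : F) ∈ MM m w B := by
  rw [mem_MM, zero_pow hm.ne', zero_mul]
  exact B.zero_mem

theorem MM_neg {m : ℕ} {B : Subring F} (w : F) {f : F} (hf : f ∈ MM m w B) : -f ∈ MM m w B := by
  have := MM_smul w (B.neg_mem B.one_mem) hf
  simpa using this

theorem MM_sub {O : ValuationSubring F} {ϖ : F} {m : ℕ} {B : Subring F} (hB : IsChart O ϖ m B)
    (hm : 0 < m) (w : F) {f g : F} (hf : f ∈ MM m w B) (hg : g ∈ MM m w B) :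
    f - g ∈ MM m w B := by
  rw [sub_eq_add_neg]
  exact MM_add hB hm w hf (MM_neg w hg)

theorem MM_mono {m : ℕ} {B B' : Subring F} (h : B ≤ B') (w : F) {f : F} (hf : f ∈ MM m w B) :
    f ∈ MM m w B' := h hf

/-! ### `DivO` -/

theorem DivO.mem {O : ValuationSubring F} {ϖ : F} (hϖ : ϖ ∈ O) {n : ℕ} {x : F}
    (h : DivO O ϖ n x) : x ∈ O := by
  obtain ⟨y, hy, rfl⟩ := h
  exact O.mul_mem _ _ (O.pow_mem hϖ n) hy

theorem DivO.add {O : ValuationSubring F} {ϖ : F} {n : ℕ} {x y : F}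
    (hx : DivO O ϖ n x) (hy : DivO O ϖ n y) : DivO O ϖ n (x + y) := by
  obtain ⟨a, ha, rfl⟩ := hx
  obtain ⟨b, hb, rfl⟩ := hy
  exact ⟨a + b, O.add_mem _ _ ha hb, by ring⟩

theorem DivO.neg {O : ValuationSubring F} {ϖ : F} {n : ℕ} {x : F}
    (hx : DivO O ϖ n x) : DivO O ϖ n (-x) := by
  obtain ⟨a, ha, rfl⟩ := hx
  exact ⟨-a, O.neg_mem _ ha, by ring⟩

theorem DivO.sub {O : ValuationSubring F} {ϖ : F} {n : ℕ} {x y : F}
    (hx : DivO O ϖ n x) (hy : DivO O ϖ n y) : DivO O ϖ n (x - y) := by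
  rw [sub_eq_add_neg]
  exact hx.add hy.neg

theorem DivO.mul_left {O : ValuationSubring F} {ϖ : F} {n : ℕ} {x : F}
    (hx : DivO O ϖ n x) {a : F} (ha : a ∈ O) : DivO O ϖ n (a * x) := by
  obtain ⟨b, hb, rfl⟩ := hx
  exact ⟨a * b, O.mul_mem _ _ ha hb, by ring⟩

theorem DivO.mul_right {O : ValuationSubring F} {ϖ : F} {n : ℕ} {x : F}
    (hx : DivO O ϖ n x) {a : F} (ha : a ∈ O) : DivO O ϖ n (x * a) := by
  rw [mul_comm]
  exact hx.mul_left ha

theorem divO_self_mul {O : ValuationSubring F} {ϖ : F} (n : ℕ) {a : F} (ha : a ∈ O) :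
    DivO O ϖ n (ϖ ^ n * a) := ⟨a, ha, rfl⟩

theorem divO_one_mul {O : ValuationSubring F} {ϖ : F} {a : F} (ha : a ∈ O) :
    DivO O ϖ 1 (ϖ * a) := ⟨a, ha, by rw [pow_one]⟩

/-- `1` is not divisible by the uniformiser. -/
theorem IsUnif.not_divO_one {O : ValuationSubring F} {ϖ : F} (hO : IsUnif O ϖ) :
    ¬ DivO O ϖ 1 (1 : F) := by
  rintro ⟨y, hy, h⟩
  apply hO.inv_notMem
  have : ϖ⁻¹ = y := by
    rw [pow_one] at h
    have h0 := hO.ne_zero
    field_simp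
    exact h
  rw [this]; exact hy

/-- An element of `O` which is not divisible by `ϖ` is a unit of `O`. -/
theorem IsUnif.inv_mem {O : ValuationSubring F} {ϖ : F} (hO : IsUnif O ϖ) {x : F} (hx : x ∈ O)
    (h : ¬ DivO O ϖ 1 x) : x⁻¹ ∈ O := by
  by_contra hc
  exact h (hO.gen x hx hc)

/-- One-units: `x ≡ 1 mod ϖ`. -/
theorem oneUnit_mem {O : ValuationSubring F} {ϖ : F} (hϖ : ϖ ∈ O) {x : F}
    (h : DivO O ϖ 1 (x - 1)) : x ∈ O := by
  have : x = (x - 1) + 1 := by ring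
  rw [this]
  exact O.add_mem _ _ (h.mem hϖ) O.one_mem

theorem IsUnif.oneUnit_not_divO {O : ValuationSubring F} {ϖ : F} (hO : IsUnif O ϖ) {x : F}
    (h : DivO O ϖ 1 (x - 1)) : ¬ DivO O ϖ 1 x := by
  intro hx
  apply hO.not_divO_one
  have : (1 : F) = x - (x - 1) := by ring
  rw [this]
  exact hx.sub h

theorem IsUnif.oneUnit_inv_mem {O : ValuationSubring F} {ϖ : F} (hO : IsUnif O ϖ) {x : F}
    (h : DivO O ϖ 1 (x - 1)) : x⁻¹ ∈ O :=
  hO.inv_mem (oneUnit_mem hO.mem h) (hO.oneUnit_not_divO h)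

theorem IsUnif.oneUnit_ne_zero {O : ValuationSubring F} {ϖ : F} (hO : IsUnif O ϖ) {x : F}
    (h : DivO O ϖ 1 (x - 1)) : x ≠ 0 := by
  rintro rfl
  exact hO.oneUnit_not_divO h ⟨0, O.zero_mem, by simp⟩

theorem oneUnit_mul {O : ValuationSubring F} {ϖ : F} (hϖ : ϖ ∈ O) {x y : F}
    (hx : DivO O ϖ 1 (x - 1)) (hy : DivO O ϖ 1 (y - 1)) : DivO O ϖ 1 (x * y - 1) := by
  have : x * y - 1 = (x - 1) * y + (y - 1) := by ring
  rw [this]
  exact (hx.mul_right (oneUnit_mem hϖ hy)).add hy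

theorem oneUnit_pow {O : ValuationSubring F} {ϖ : F} (hϖ : ϖ ∈ O) {x : F}
    (hx : DivO O ϖ 1 (x - 1)) (n : ℕ) : DivO O ϖ 1 (x ^ n - 1) := by
  induction n with
  | zero => exact ⟨0, O.zero_mem, by simp⟩
  | succ n ih => rw [pow_succ]; exact oneUnit_mul hϖ ih hx

/-- `O` is closed under roots. -/
theorem mem_of_pow_mem (O : ValuationSubring F) {x : F} {n : ℕ} (hn : 0 < n) (h : x ^ n ∈ O) :
    x ∈ O := by
  rw [← O.valuation_le_one_iff] at h ⊢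
  rw [map_pow] at h
  exact (pow_le_one_iff_of_nonneg zero_le hn.ne').mp h

/-- Saturation for powers of `ϖ`. -/
theorem IsChart.sat_pow {O : ValuationSubring F} {ϖ : F} {m : ℕ} {B : Subring F}
    (hB : IsChart O ϖ m B) (hϖ0 : ϖ ≠ 0) (n : ℕ) {x : F} (hx : x ∈ B) (h : DivO O ϖ n x) :
    ∃ y ∈ B, x = ϖ ^ n * y := by
  induction n generalizing x with
  | zero => exact ⟨x, hx, by simp⟩
  | succ n ih =>
    obtain ⟨z, hz, rfl⟩ := h
    have hϖO : ϖ ∈ O := hB.le _ hB.unif_mem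
    obtain ⟨y, hy, hxy⟩ := hB.sat _ hx ⟨ϖ ^ n * z, O.mul_mem _ _ (O.pow_mem hϖO n) hz, by ring⟩
    have hyz : y = ϖ ^ n * z := by
      apply mul_left_cancel₀ hϖ0
      rw [← hxy]; ring
    obtain ⟨y', hy', hyy'⟩ := ih hy ⟨z, hz, hyz⟩
    exact ⟨y', hy', by rw [hxy, hyy']; ring⟩

/-- Elements of `MM` lie in `O` (if `w` is a unit of `O`). -/
theorem MM_mem_O {O : ValuationSubring F} {ϖ : F} {m : ℕ} {B : Subring F}
    (hB : IsChart O ϖ m B) (hm : 0 < m) {w : F} (hw : w ≠ 0) (hwi : w⁻¹ ∈ O) {f : F}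
    (hf : f ∈ MM m w B) : f ∈ O := by
  apply mem_of_pow_mem O hm
  have : f ^ m = (f ^ m * w) * w⁻¹ := by field_simp
  rw [this]
  exact O.mul_mem _ _ (hB.le _ hf) hwi

/-- Saturation of `MM`. -/
theorem MM_div {O : ValuationSubring F} {ϖ : F} {m : ℕ} {B : Subring F}
    (hB : IsChart O ϖ m B) (hϖ0 : ϖ ≠ 0) {w : F} (hwO : w ∈ O) (n : ℕ) {f : F}
    (hf : f ∈ MM m w B) (h : DivO O ϖ n f) : ∃ g ∈ MM m w B, f = ϖ ^ n * g := by
  obtain ⟨y, hy, rfl⟩ := h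
  refine ⟨y, ?_, rfl⟩
  rw [mem_MM] at hf ⊢
  obtain ⟨z, hz, hzz⟩ := hB.sat_pow hϖ0 (n * m) hf
    ⟨y ^ m * w, O.mul_mem _ _ (O.pow_mem hy m) hwO, by rw [mul_pow, ← pow_mul]; ring⟩
  have : y ^ m * w = z := by
    apply mul_left_cancel₀ (pow_ne_zero (n * m) hϖ0)
    rw [← hzz, mul_pow, ← pow_mul]; ring
  rw [this]; exact hz

end Fermat.Agent.ES.Model
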