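import Fermat.Agent.ES.TRel

/-!
# ES, block MULT, package MU-CHAR : an `m`-th root in `Mer` of a modular function has a character
-/

set_option autoImplicit false

namespace Fermat.Agent.ES

open UpperHalfPlane ModularForm CongruenceSubgroup ModularCurve
open Fermat.Agent.S24 Fermat.Agent.S16
open scoped MatrixGroups Manifold

namespace MuChar

open Fermat.Agent.ES.Rel

/-- an `m`-th root of unity in `Mer` is a constant -/
theorem exists_cMer_of_pow_eq_one {m : ℕ} (hm : 0 < m) {z : Mer} (hz : z ^ m = 1) :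
    ∃ c : ℂ, c ^ m = 1 ∧ z = cMer c := by
  have hprim : IsPrimitiveRoot (Complex.exp (2 * Real.pi * Complex.I / m)) m :=
    Complex.isPrimitiveRoot_exp m hm.ne'
  have hprim' : IsPrimitiveRoot (cMer (Complex.exp (2 * Real.pi * Complex.I / m))) m := by
    have : cMer = fun c => ((algebraMap Hol Mer).comp (algebraMap ℂ Hol)) c := rfl
    rw [this]
    exact hprim.map_of_injective ((algebraMap Hol Mer).comp (algebraMap ℂ Hol)).injective
  have : NeZero m := ⟨hm.ne'⟩
  obtain ⟨i, -, hi⟩ := hprim'.eq_pow_of_pow_eq_one hz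
  refine ⟨Complex.exp (2 * Real.pi * Complex.I / m) ^ i, ?_, by rw [← hi, ← cMer_pow]⟩
  rw [← pow_mul, Nat.mul_comm, pow_mul, hprim.pow_eq_one, one_pow]

/-- two `m`-th roots of the same nonzero element differ by a constant -/
theorem exists_cMer_mul {m : ℕ} (hm : 0 < m) {a b : Mer} (hb : b ≠ 0) (h : a ^ m = b ^ m) :
    ∃ c : ℂ, c ^ m = 1 ∧ a = cMer c * b := by
  obtain ⟨c, hc, hz⟩ := exists_cMer_of_pow_eq_one hm (z := a / b)
    (by rw [div_pow, h, div_self (pow_ne_zero m hb)])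
  exact ⟨c, hc, by rw [← hz, div_mul_cancel₀ _ hb]⟩

theorem cMer_mul_cancel {a b : ℂ} {h : Mer} (hh : h ≠ 0) (e : cMer a * h = cMer b * h) : a = b :=
  cMer_injective (mul_right_cancel₀ hh e)

end MuChar

open Fermat.Agent.ES.Rel MuChar

/-- **MU-CHAR**. -/
theorem exists_char (N m : ℕ) (hm : 0 < m) (u : FF N) (hu : u ≠ 0) (h : Mer)
    (hh : h ^ m = Psi N u) :
    ∃ χ : Gamma0 N →* ℂˣ, (∀ γ, χ γ ^ m = 1) ∧ HasMult N χ h := by
  classical
  have hPu : Psi N u ≠ 0 := (map_ne_zero (Psi N)).mpr hu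
  have hh0 : h ≠ 0 := by
    intro h0
    rw [h0, zero_pow hm.ne'] at hh
    exact hPu hh.symm
  have key : ∀ γ : Gamma0 N, ∃ c : ℂ, c ^ m = 1 ∧ act ((γ : SL(2, ℤ))⁻¹) h = cMer c * h := by
    intro γ
    apply exists_cMer_mul hm hh0
    rw [← map_pow, hh, act_Psi _ (inv_mem γ.2)]
  choose c hc hact using key
  have hc0 : ∀ γ, c γ ≠ 0 := by
    intro γ h0
    have := hc γ
    rw [h0, zero_pow hm.ne'] at this
    exact zero_ne_one this
  have hone : c 1 = 1 := by
    apply cMer_mul_cancel hh0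
    rw [← hact 1, cMer_one, one_mul]
    have : (((1 : Gamma0 N) : SL(2, ℤ))⁻¹) = 1 := by simp
    rw [this, act_one]
    rfl
  have hmul : ∀ a b : Gamma0 N, c (a * b) = c a * c b := by
    intro a b
    apply cMer_mul_cancel hh0
    rw [← hact (a * b)]
    have : (((a * b : Gamma0 N) : SL(2, ℤ))⁻¹) = (b : SL(2, ℤ))⁻¹ * (a : SL(2, ℤ))⁻¹ := by
      rw [Subgroup.coe_mul, mul_inv_rev]
    rw [this, act_mul_apply, hact a, map_mul, act_cMer, hact b, cMer_mul]
    ring
  refine ⟨{ toFun := fun γ => Units.mk0 (c γ) (hc0 γ)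
            map_one' := Units.ext hone
            map_mul' := fun a b => Units.ext (hmul a b) }, fun γ => ?_, fun γ => ?_⟩
  · apply Units.ext
    rw [Units.val_pow_eq_pow_val]
    exact hc γ
  · exact hact γ

end Fermat.Agent.ES
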