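import Fermat.Agent.ES.TorsDefs
import Fermat.Agent.S24.Sigma

/-!
# ES, block TORS, package REL : formal properties of the relation `TRel`
-/

set_option autoImplicit false

namespace Fermat.Agent.ES

open UpperHalfPlane ModularForm CongruenceSubgroup ModularCurve AlgebraicCurve CuspForm
open Fermat.Agent.S24 Fermat.Agent.S16
open Matrix.SpecialLinearGroup
open P2MW.S_ModularForm_heckeT_slash_eq_self_of_mem_Gamma0.ModularForm.HeckeSlashInvariance
open scoped MatrixGroups Manifold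

namespace Rel

theorem cMer_one : cMer 1 = 1 := by
  rw [cMer, map_one, toMer, map_one]

theorem cMer_mul (a b : ℂ) : cMer (a * b) = cMer a * cMer b := by
  rw [cMer, cMer, cMer, map_mul, toMer, toMer, toMer, map_mul]

theorem cMer_injective : Function.Injective cMer := by
  intro a b h
  have h1 := toMer_injective h
  exact (algebraMap ℂ Hol).injective h1

theorem cMer_pow (a : ℂ) (n : ℕ) : cMer (a ^ n) = cMer a ^ n := by
  rw [cMer, cMer, map_pow, toMer, toMer, map_pow]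

theorem cMer_inv (a : ℂ) (ha : a ≠ 0) : cMer a⁻¹ = (cMer a)⁻¹ := by
  apply eq_inv_of_mul_eq_one_left
  rw [← cMer_mul, inv_mul_cancel₀ ha, cMer_one]

theorem cMer_prod {ι : Type*} (s : Finset ι) (c : ι → ℂ) :
    cMer (∏ x ∈ s, c x) = ∏ x ∈ s, cMer (c x) := by
  classical
  induction s using Finset.induction_on with
  | empty => simp [cMer_one]
  | insert a s ha ih => rw [Finset.prod_insert ha, Finset.prod_insert ha, cMer_mul, ih]

theorem merMap_cMer (g : GL (Fin 2) ℝ) (hg : 0 < g.det.val) (c : ℂ) :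
    merMap g hg (cMer c) = cMer c := by
  rw [cMer, merMap_toMer, AlgHom.commutes]

theorem act_cMer (γ : SL(2, ℤ)) (c : ℂ) : act γ (cMer c) = cMer c := merMap_cMer _ _ c

theorem act_Psi {N : ℕ} (γ : SL(2, ℤ)) (hγ : γ ∈ Gamma0 N) (x : FF N) :
    act γ (Psi N x) = Psi N x := by
  have h := sigma_mul_of_mem N 1 γ hγ
  rw [one_mul, sigma_one] at h
  rw [← sigma_apply, h]

/-- composition of `merMap`s -/
theorem merMap_merMap (a b : GL (Fin 2) ℝ) (ha : 0 < a.det.val) (hb : 0 < b.det.val)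
    (hab : 0 < (a * b).det.val) (h : Mer) :
    merMap b hb (merMap a ha h) = merMap (a * b) hab h := by
  have : (merMap b hb).comp (merMap a ha) = merMap (a * b) hab := by
    apply Mer_ringHom_ext
    intro F
    rw [RingHom.comp_apply, merMap_toMer, merMap_toMer, merMap_toMer]
    congr 1
    apply Subtype.ext
    funext τ
    simp [mul_smul]
  rw [← this]; rfl

theorem merMap_congr {a b : GL (Fin 2) ℝ} (hab : a = b) (ha : 0 < a.det.val)
    (hb : 0 < b.det.val) (h : Mer) : merMap a ha h = merMap b hb h := by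
  subst hab; rfl

theorem det_mapGL_pos (γ : SL(2, ℤ)) : 0 < (mapGL ℝ γ).det.val := det_SL_pos γ

theorem act_inv_eq (γ : SL(2, ℤ)) (h : Mer) :
    act γ⁻¹ h = merMap (mapGL ℝ γ) (det_mapGL_pos γ) h := by
  rw [act]
  exact merMap_congr (by rw [inv_inv]; rfl) _ _ h

end Rel

open Rel

theorem TRel.mul {p N : ℕ} {χ χ' : Gamma0 N →* ℂˣ} {w w' : FF N} (h : TRel p N χ w)
    (h' : TRel p N χ' w') : TRel p N (χ * χ') (w * w') := by
  obtain ⟨a, ha, ha'⟩ := h
  obtain ⟨b, hb, hb'⟩ := h'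
  refine ⟨a * b, by rw [mul_pow, ha, hb, map_mul], fun γ => ?_⟩
  rw [map_mul, ha' γ, hb' γ, MonoidHom.mul_apply, Units.val_mul, cMer_mul]
  ring

theorem TRel.inv {p N : ℕ} {χ : Gamma0 N →* ℂˣ} {w : FF N} (h : TRel p N χ w) :
    TRel p N χ⁻¹ w⁻¹ := by
  obtain ⟨a, ha, ha'⟩ := h
  refine ⟨a⁻¹, by rw [inv_pow, ha, map_inv₀], fun γ => ?_⟩
  rw [map_inv₀, ha' γ, MonoidHom.inv_apply, Units.val_inv_eq_inv_val, cMer_inv _ (Units.ne_zero _),
    mul_inv]

theorem TRel.pow_self (p N : ℕ) (b : FF N) : TRel p N 1 (b ^ p) := by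
  refine ⟨Psi N b, by rw [map_pow], fun γ => ?_⟩
  rw [act_Psi _ (inv_mem γ.2), MonoidHom.one_apply, Units.val_one, cMer_one, one_mul]

/-- `M4` -/
theorem TRel.eq_one_of_pow {p N : ℕ} [NeZero p] {χ : Gamma0 N →* ℂˣ} {b : FF N} (hb : b ≠ 0)
    (h : TRel p N χ (b ^ p)) : χ = 1 := by
  obtain ⟨a, ha, ha'⟩ := h
  have hp : 0 < p := Nat.pos_of_ne_zero (NeZero.ne p)
  have hPb : Psi N b ≠ 0 := (map_ne_zero (Psi N)).mpr hb
  have ha0 : a ≠ 0 := by
    intro h0
    rw [h0, zero_pow hp.ne', map_pow] at ha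
    exact pow_ne_zero p hPb ha.symm
  -- `a / Psi b` is a `p`-th root of unity in `Mer`, hence a constant
  set z : Mer := a / Psi N b with hz
  have hz1 : z ^ p = 1 := by
    rw [hz, div_pow, ha, map_pow, div_self (pow_ne_zero p hPb)]
  obtain ⟨c, hc⟩ : ∃ c : ℂ, z = cMer c := by
    have hprim : IsPrimitiveRoot (Complex.exp (2 * Real.pi * Complex.I / p)) p :=
      Complex.isPrimitiveRoot_exp p hp.ne'
    have hprim' : IsPrimitiveRoot (cMer (Complex.exp (2 * Real.pi * Complex.I / p))) p := by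
      have : cMer = fun c => ((algebraMap Hol Mer).comp (algebraMap ℂ Hol)) c := rfl
      rw [this]
      exact hprim.map_of_injective ((algebraMap Hol Mer).comp (algebraMap ℂ Hol)).injective
    haveI : NeZero p := ⟨hp.ne'⟩
    obtain ⟨i, -, hi⟩ := hprim'.eq_pow_of_pow_eq_one hz1
    exact ⟨_, by rw [← hi, ← cMer_pow]⟩
  have hac : a = cMer c * Psi N b := by
    rw [← hc, hz, div_mul_cancel₀ _ hPb]
  ext γ
  have h1 := ha' γ
  rw [hac, map_mul, act_cMer, act_Psi _ (inv_mem γ.2)] at h1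
  have h2 : cMer ((χ γ : ℂˣ) : ℂ) = 1 := by
    have hne : cMer c * Psi N b ≠ 0 := hac ▸ ha0
    exact mul_right_cancel₀ hne (by rw [one_mul]; exact h1.symm)
  rw [← cMer_one] at h2
  simpa using cMer_injective h2

theorem chiPer_add (p N : ℕ) [NeZero N] (f g : CuspForm (Gamma0 N) 2) :
    chiPer p N (f + g) = chiPer p N f * chiPer p N g := by
  ext γ
  rw [MonoidHom.mul_apply, Units.val_mul, coe_chiPer, coe_chiPer, coe_chiPer, ← Complex.exp_add]
  congr 1
  rw [map_add, AddMonoidHom.add_apply, Complex.add_re]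
  push_cast
  ring

theorem chiPer_neg (p N : ℕ) [NeZero N] (f : CuspForm (Gamma0 N) 2) :
    chiPer p N (-f) = (chiPer p N f)⁻¹ := by
  ext γ
  rw [MonoidHom.inv_apply, Units.val_inv_eq_inv_val, coe_chiPer, coe_chiPer, ← Complex.exp_neg]
  congr 1
  rw [map_neg, AddMonoidHom.neg_apply, Complex.neg_re]
  push_cast
  ring

theorem chiPer_eq_one_iff (p N : ℕ) [NeZero p] [NeZero N] (f : CuspForm (Gamma0 N) 2) :
    chiPer p N f = 1 ↔ f ∈ LamM N p := by
  have hp : (p : ℝ) ≠ 0 := Nat.cast_ne_zero.mpr (NeZero.ne p)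
  rw [mem_LamM]
  constructor
  · intro h γ
    have h1 : ((chiPer p N f γ : ℂˣ) : ℂ) = 1 := by rw [h]; rfl
    rw [coe_chiPer, Complex.exp_eq_one_iff] at h1
    obtain ⟨n, hn⟩ := h1
    refine ⟨n, ?_⟩
    have h2 : (((Per N f (Additive.ofMul γ)).re / p : ℝ) : ℂ) = (n : ℂ) := by
      have h3 : (2 * Real.pi * Complex.I : ℂ) ≠ 0 := Complex.two_pi_I_ne_zero
      apply mul_left_cancel₀ h3
      rw [hn]; ring
    have h4 : (Per N f (Additive.ofMul γ)).re / p = (n : ℝ) := by exact_mod_cast h2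
    rw [div_eq_iff hp] at h4
    rw [h4]; push_cast; ring
  · intro h
    ext γ
    obtain ⟨m, hm⟩ := h γ
    rw [coe_chiPer, MonoidHom.one_apply, Units.val_one, Complex.exp_eq_one_iff]
    refine ⟨m, ?_⟩
    rw [hm]
    push_cast
    have hp' : (p : ℂ) ≠ 0 := Nat.cast_ne_zero.mpr (NeZero.ne p)
    field_simp

theorem chiPer_pow (p N : ℕ) [NeZero p] [NeZero N] (f : CuspForm (Gamma0 N) 2) (hf : f ∈ Lam N)
    (γ : Gamma0 N) : chiPer p N f γ ^ p = 1 := by
  ext
  obtain ⟨m, hm⟩ := hf (Additive.ofMul γ)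
  rw [Units.val_pow_eq_pow_val, coe_chiPer, ← Complex.exp_nat_mul, Units.val_one,
    Complex.exp_eq_one_iff]
  refine ⟨m, ?_⟩
  rw [hm]
  push_cast
  have hp' : (p : ℂ) ≠ 0 := Nat.cast_ne_zero.mpr (NeZero.ne p)
  field_simp

theorem isPEc_chiPer (p N : ℕ) [NeZero N] (f : CuspForm (Gamma0 N) 2) :
    IsPEc N (chiPer p N f) := by
  constructor
  · intro γ hγ
    ext
    rw [coe_chiPer, Per_isParabolicHom N f γ hγ]
    simp
  · intro γ hγ
    have h0 : Per N f (Additive.ofMul γ) = 0 := by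
      have h1 : (12 : ℕ) • Per N f (Additive.ofMul γ) = 0 := by
        rw [← map_nsmul, ← ofMul_pow, hγ]
        simp
      simpa using h1
    ext
    rw [coe_chiPer, h0]
    simp

/-- `M5`; `hbridge` is helper3's `Psi_heckeMul` (K-EMB). -/
theorem TRel.hecke {p N ℓ : ℕ} [NeZero N] [Fact ℓ.Prime] (hℓ : ℓ.Prime) (hℓN : ¬ ℓ ∣ N)
    (hdet : ∀ x : OnePoint (ZMod ℓ), 0 < (heckeRep ℓ x).det.val)
    (hbridge : ∀ u : FF N, Psi N (heckeMul N ℓ u)
      = ∏ x : OnePoint (ZMod ℓ), merMap (heckeRep ℓ x) (hdet x) (Psi N u))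
    {f : CuspForm (Gamma0 N) 2} {w : FF N} (h : TRel p N (chiPer p N f) w) :
    TRel p N (chiPer p N (CuspForm.heckeTLin 2 hℓ hℓN f)) (heckeMul N ℓ w) := by
  obtain ⟨a, ha, ha'⟩ := h
  refine ⟨∏ x : OnePoint (ZMod ℓ), merMap (heckeRep ℓ x) (hdet x) a, ?_, fun γ => ?_⟩
  · rw [hbridge, ← Finset.prod_pow]
    refine Finset.prod_congr rfl fun x _ => ?_
    rw [← map_pow, ha]
  · obtain ⟨σ, γ', hs⟩ := exists_shift_T hℓN γ
    have key : ∀ x, act ((γ : SL(2, ℤ))⁻¹) (merMap (heckeRep ℓ x) (hdet x) a) =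
        cMer ((chiPer p N f (γ' x) : ℂˣ) : ℂ) * merMap (heckeRep ℓ (σ x)) (hdet (σ x)) a := by
      intro x
      have hpos1 : 0 < (heckeRep ℓ x * mapGL ℝ (γ : SL(2, ℤ))).det.val := by
        rw [map_mul, Units.val_mul]
        exact mul_pos (hdet x) (det_mapGL_pos _)
      have hpos2 : 0 < (mapGL ℝ (γ' x : SL(2, ℤ)) * heckeRep ℓ (σ x)).det.val := by
        rw [map_mul, Units.val_mul]
        exact mul_pos (det_mapGL_pos _) (hdet _)
      rw [act_inv_eq, merMap_merMap _ _ (hdet x) (det_mapGL_pos _) hpos1,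
        merMap_congr (hs x) hpos1 hpos2,
        ← merMap_merMap _ _ (det_mapGL_pos _) (hdet _) hpos2, ← act_inv_eq, ha' (γ' x), map_mul,
        merMap_cMer]
    rw [map_prod]
    simp only [key]
    rw [Finset.prod_mul_distrib, Equiv.prod_comp σ (fun x => merMap (heckeRep ℓ x) (hdet x) a),
      ← cMer_prod]
    congr 2
    rw [coe_chiPer, Per_heckeT hℓ hℓN γ σ γ' hs f]
    simp only [coe_chiPer]
    rw [← Complex.exp_sum]
    congr 1
    rw [Complex.re_sum, Finset.sum_div]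
    push_cast
    rw [Finset.mul_sum]

end Fermat.Agent.ES
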