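import Fermat.Agent.ES.MuLoc
import Fermat.Agent.ES.TRel
import Fermat.Agent.S24.Loc2

/-!
# ES / MULT / MU-ELL : an `m`-th root of `Psi u` (`m ∣ div u`) is fixed by the elements of finite
order of `Γ₀(N)`
-/

set_option autoImplicit false

namespace Fermat.Agent.ES

open UpperHalfPlane CongruenceSubgroup AlgebraicCurve Fermat.Agent.S24
open scoped MatrixGroups

namespace MuEll

/-- multiplication in `ℤ[M]`, `M ^ 2 = t M - 1` -/
lemma mul_form {M : Matrix (Fin 2) (Fin 2) ℤ} {t : ℤ} (hM : M * M = t • M - 1) (x y x' y' : ℤ) :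
    (x • M + y • (1 : Matrix (Fin 2) (Fin 2) ℤ)) * (x' • M + y' • (1 : Matrix (Fin 2) (Fin 2) ℤ))
      = (x * x' * t + x * y' + x' * y) • M + (y * y' - x * x') • (1 : Matrix (Fin 2) (Fin 2) ℤ) := by
  have h1 : (x • M + y • (1 : Matrix (Fin 2) (Fin 2) ℤ)) *
      (x' • M + y' • (1 : Matrix (Fin 2) (Fin 2) ℤ))
      = (x * x') • (M * M) + (x * y' + x' * y) • M + (y * y') • (1 : Matrix (Fin 2) (Fin 2) ℤ) := by
    simp only [add_mul, mul_add, smul_mul_assoc, mul_smul_comm, mul_one, one_mul]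
    module
  rw [h1, hM]
  module

/-- Cayley-Hamilton -/
lemma sq_eq (γ : SL(2, ℤ)) : (γ : Matrix (Fin 2) (Fin 2) ℤ) * (γ : Matrix (Fin 2) (Fin 2) ℤ)
    = (γ 0 0 + γ 1 1) • (γ : Matrix (Fin 2) (Fin 2) ℤ) - 1 := by
  have hdet : γ 0 0 * γ 1 1 - γ 0 1 * γ 1 0 = 1 := by
    have := γ.det_coe
    rwa [Matrix.det_fin_two] at this
  ext i j
  fin_cases i <;> fin_cases j <;>
    simp [Matrix.mul_apply, Fin.sum_univ_two, Matrix.smul_apply, -zsmul_eq_mul] <;>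
    first | linear_combination -hdet | linear_combination (0 : ℤ) * hdet

/-- the trace of an element of finite order with `c ≠ 0` -/
lemma trace_sq_lt (γ : SL(2, ℤ)) (h12 : γ ^ 12 = 1) (hc : γ 1 0 ≠ 0) :
    (γ 0 0 + γ 1 1) ^ 2 < 4 := by
  set M : Matrix (Fin 2) (Fin 2) ℤ := (γ : Matrix (Fin 2) (Fin 2) ℤ) with hMdef
  set t : ℤ := γ 0 0 + γ 1 1 with ht
  have hM : M * M = t • M - 1 := sq_eq γ
  have e1 : M = (1 : ℤ) • M + (0 : ℤ) • (1 : Matrix (Fin 2) (Fin 2) ℤ) := by simp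
  have e2 : M ^ 2 = t • M + (-1 : ℤ) • (1 : Matrix (Fin 2) (Fin 2) ℤ) := by
    rw [pow_two, hM]; simp [sub_eq_add_neg]
  have e3 : M ^ 3 = (t ^ 2 - 1) • M + (-t) • (1 : Matrix (Fin 2) (Fin 2) ℤ) := by
    have : M ^ 3 = M ^ 2 * M := by rw [pow_succ]
    rw [this, e2]
    conv_lhs => rw [e1]
    rw [show ((1 : ℤ) • M + (0 : ℤ) • (1 : Matrix (Fin 2) (Fin 2) ℤ)) = M from e1.symm] 
    conv_lhs => rw [show (t • M + (-1 : ℤ) • (1 : Matrix (Fin 2) (Fin 2) ℤ)) * M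
      = (t • M + (-1 : ℤ) • (1 : Matrix (Fin 2) (Fin 2) ℤ)) *
        ((1 : ℤ) • M + (0 : ℤ) • (1 : Matrix (Fin 2) (Fin 2) ℤ)) by rw [← e1]]
    rw [mul_form hM]
    congr 2 <;> ring
  have e6 : M ^ 6 = (t * (t ^ 2 - 1) * (t ^ 2 - 3)) • M
      + (t ^ 2 - (t ^ 2 - 1) ^ 2) • (1 : Matrix (Fin 2) (Fin 2) ℤ) := by
    have : M ^ 6 = M ^ 3 * M ^ 3 := by rw [← pow_add]
    rw [this, e3, mul_form hM]
    congr 2 <;> ring
  have e12 : M ^ 12 = ((t * (t ^ 2 - 1) * (t ^ 2 - 3)) *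
        ((t ^ 2) ^ 3 - 6 * (t ^ 2) ^ 2 + 9 * t ^ 2 - 2)) • M
      + ((t ^ 2 - (t ^ 2 - 1) ^ 2) ^ 2 - (t * (t ^ 2 - 1) * (t ^ 2 - 3)) ^ 2) •
        (1 : Matrix (Fin 2) (Fin 2) ℤ) := by
    have : M ^ 12 = M ^ 6 * M ^ 6 := by rw [← pow_add]
    rw [this, e6, mul_form hM]
    congr 2 <;> ring
  have h1 : M ^ 12 = 1 := by
    have := congrArg (fun g : SL(2, ℤ) => (g : Matrix (Fin 2) (Fin 2) ℤ)) h12
    simpa using this
  have h2 := congrFun (congrFun (e12.symm.trans h1) 1) 0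
  simp only [Matrix.add_apply, Matrix.smul_apply, Matrix.one_apply_ne (show (1 : Fin 2) ≠ 0 by decide),
    smul_eq_mul, mul_zero, add_zero] at h2
  have h3 : (t * (t ^ 2 - 1) * (t ^ 2 - 3)) * ((t ^ 2) ^ 3 - 6 * (t ^ 2) ^ 2 + 9 * t ^ 2 - 2) = 0 := by
    rcases mul_eq_zero.1 h2 with h | h
    · exact h
    · exact absurd h hc
  by_contra hcon
  push Not at hcon
  set s := t ^ 2 with hs
  have ht0 : t ≠ 0 := by
    intro h0
    rw [hs, h0] at hcon
    norm_num at hcon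
  rcases mul_eq_zero.1 h3 with h | h
  · rcases mul_eq_zero.1 h with h | h
    · rcases mul_eq_zero.1 h with h | h
      · exact ht0 h
      · omega
    · omega
  · nlinarith [mul_nonneg (show (0 : ℤ) ≤ s - 4 by omega) (show (0 : ℤ) ≤ s - 4 by omega),
      mul_nonneg (mul_nonneg (show (0 : ℤ) ≤ s - 4 by omega) (show (0 : ℤ) ≤ s - 4 by omega))
        (show (0 : ℤ) ≤ s by omega)]

/-- an element of `SL(2,ℤ)` with `c ≠ 0` and `|tr| < 2` has a fixed point in `ℍ` -/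
lemma exists_fixed_of_trace (γ : SL(2, ℤ)) (hc : γ 1 0 ≠ 0) (ht : (γ 0 0 + γ 1 1) ^ 2 < 4) :
    ∃ τ : ℍ, γ • τ = τ := by
  have hdet : γ 0 0 * γ 1 1 - γ 0 1 * γ 1 0 = 1 := by
    have := γ.det_coe
    rwa [Matrix.det_fin_two] at this
  set a : ℝ := ((γ 0 0 : ℤ) : ℝ) with ha
  set b : ℝ := ((γ 0 1 : ℤ) : ℝ) with hb
  set c : ℝ := ((γ 1 0 : ℤ) : ℝ) with hcdef
  set d : ℝ := ((γ 1 1 : ℤ) : ℝ) with hd
  have hdetR : a * d - b * c = 1 := by rw [ha, hb, hcdef, hd]; exact_mod_cast hdet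
  have hc0 : c ≠ 0 := by rw [hcdef]; exact_mod_cast hc
  have hD : 0 < 4 - (a + d) ^ 2 := by
    have : (a + d) ^ 2 < 4 := by rw [ha, hd]; exact_mod_cast ht
    linarith
  set s : ℝ := Real.sqrt (4 - (a + d) ^ 2) with hs
  have hs0 : 0 < s := Real.sqrt_pos.2 hD
  have hss : s * s = 4 - (a + d) ^ 2 := Real.mul_self_sqrt hD.le
  have habs : 0 < |c| := abs_pos.2 hc0
  have habs2 : |c| * |c| = c * c := abs_mul_abs_self c
  set x : ℝ := (a - d) / (2 * c) with hx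
  set y : ℝ := s / (2 * |c|) with hy
  have hy0 : 0 < y := by positivity
  have hx2 : 2 * c * x = a - d := by rw [hx]; field_simp
  have hy2 : 4 * (c * c) * (y * y) = 4 - (a + d) ^ 2 := by
    rw [← habs2, ← hss, hy]; field_simp; norm_num
  refine ⟨⟨⟨x, y⟩, hy0⟩, ?_⟩
  apply UpperHalfPlane.ext
  rw [← Loc.moeb_coe, Loc.moeb, div_eq_iff (Loc.denom_ne γ _)]
  have hre : c * (x * x - y * y) + (d - a) * x - b = 0 := by
    have h1 : 4 * c * (c * (x * x - y * y) + (d - a) * x - b) = 0 := by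
      have : 4 * c * (c * (x * x - y * y) + (d - a) * x - b)
          = (2 * c * x) ^ 2 - 4 * (c * c) * (y * y) + 2 * (d - a) * (2 * c * x) - 4 * (b * c) := by
        ring
      rw [this, hx2, hy2]
      linear_combination 4 * hdetR
    rcases mul_eq_zero.1 h1 with h | h
    · exact absurd h (by positivity)
    · exact h
  have him : 2 * c * x * y + (d - a) * y = 0 := by rw [hx2]; ring
  apply Complex.ext
  · simp only [Complex.add_re, Complex.mul_re, Complex.intCast_re,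
      Complex.intCast_im, Complex.add_im, Complex.mul_im]
    linear_combination -hre
  · simp only [Complex.add_re, Complex.mul_re, Complex.intCast_re,
      Complex.intCast_im, Complex.add_im, Complex.mul_im]
    linear_combination -him

/-- an element of finite order of `SL(2,ℤ)` has a fixed point in `ℍ` -/
theorem exists_fixed (γ : SL(2, ℤ)) (h12 : γ ^ 12 = 1) : ∃ τ : ℍ, γ • τ = τ := by
  by_cases hc : γ 1 0 = 0
  · -- `γ = ± T ^ b`, of finite order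
    have hdet : γ 0 0 * γ 1 1 - γ 0 1 * γ 1 0 = 1 := by
      have := γ.det_coe
      rwa [Matrix.det_fin_two] at this
    rw [hc, mul_zero, sub_zero] at hdet
    have hpow : ∀ n : ℕ, ((γ ^ n : SL(2, ℤ)) : Matrix (Fin 2) (Fin 2) ℤ) 1 0 = 0 ∧
        ((γ ^ n : SL(2, ℤ)) : Matrix (Fin 2) (Fin 2) ℤ) 0 0 = γ 0 0 ^ n ∧
        ((γ ^ n : SL(2, ℤ)) : Matrix (Fin 2) (Fin 2) ℤ) 1 1 = γ 1 1 ^ n ∧
        ((γ ^ n : SL(2, ℤ)) : Matrix (Fin 2) (Fin 2) ℤ) 0 1 * γ 0 0 = n * γ 0 1 * γ 0 0 ^ n := by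
      intro n
      induction n with
      | zero => simp
      | succ n ih =>
        obtain ⟨i1, i2, i3, i4⟩ := ih
        rw [pow_succ, Matrix.SpecialLinearGroup.coe_mul]
        simp only [Matrix.mul_apply, Fin.sum_univ_two]
        refine ⟨?_, ?_, ?_, ?_⟩
        · rw [i1, hc]; ring
        · rw [i2, hc]; ring
        · rw [i1, i3]; ring
        · have h11 : γ 1 1 * γ 0 0 = 1 := by rw [mul_comm]; exact hdet
          push_cast
          calc (((γ ^ n : SL(2, ℤ)) : Matrix (Fin 2) (Fin 2) ℤ) 0 0 * γ 0 1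
                + ((γ ^ n : SL(2, ℤ)) : Matrix (Fin 2) (Fin 2) ℤ) 0 1 * γ 1 1) * γ 0 0
              = ((γ ^ n : SL(2, ℤ)) : Matrix (Fin 2) (Fin 2) ℤ) 0 0 * γ 0 1 * γ 0 0
                + ((γ ^ n : SL(2, ℤ)) : Matrix (Fin 2) (Fin 2) ℤ) 0 1 * (γ 1 1 * γ 0 0) := by ring
            _ = γ 0 0 ^ n * γ 0 1 * γ 0 0
                + ((γ ^ n : SL(2, ℤ)) : Matrix (Fin 2) (Fin 2) ℤ) 0 1 * (γ 0 0 * γ 0 0) := by
              have hsq : γ 0 0 * γ 0 0 = 1 := by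
                rcases Int.isUnit_iff.1 (IsUnit.of_mul_eq_one _ hdet) with h | h <;> rw [h] <;> rfl
              rw [i2, h11, hsq]
            _ = γ 0 0 ^ n * γ 0 1 * γ 0 0
                + (((γ ^ n : SL(2, ℤ)) : Matrix (Fin 2) (Fin 2) ℤ) 0 1 * γ 0 0) * γ 0 0 := by ring
            _ = _ := by rw [i4]; ring
    have h4 := (hpow 12).2.2.2
    rw [h12] at h4
    have ha0 : γ 0 0 ≠ 0 := by
      intro h0
      rw [h0, zero_mul] at hdet
      exact zero_ne_one hdet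
    have hb : γ 0 1 = 0 := by
      simp only [Matrix.SpecialLinearGroup.coe_one, Matrix.one_apply_ne (show (0 : Fin 2) ≠ 1 by decide),
        zero_mul] at h4
      have h5 : (12 : ℤ) * γ 0 1 * γ 0 0 ^ 12 = 0 := by exact_mod_cast h4.symm
      rcases mul_eq_zero.1 h5 with h | h
      · omega
      · exact absurd h (pow_ne_zero 12 ha0)
    have had : γ 0 0 = γ 1 1 := by
      rcases Int.isUnit_iff.1 (IsUnit.of_mul_eq_one _ hdet) with h | h <;> rw [h] at hdet ⊢ <;> omega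
    refine ⟨UpperHalfPlane.I, ?_⟩
    apply UpperHalfPlane.ext
    rw [← Loc.moeb_coe, Loc.moeb, div_eq_iff (Loc.denom_ne γ _), hc, hb, had]
    push_cast
    ring
  · exact exists_fixed_of_trace γ hc (trace_sq_lt γ h12 hc)

end MuEll

/-- **MU-ELL**. -/
theorem act_eq_of_pow_twelve (N : ℕ) [NeZero N] (m : ℕ) (hm : 0 < m) (u : FF N)
    (hu : IsPDiv m N u) (h : Mer) (hh : h ^ m = Psi N u) (γ : SL(2, ℤ)) (hγ : γ ∈ Gamma0 N)
    (h12 : γ ^ 12 = 1) : act γ h = h := by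
  obtain ⟨τ, hτ⟩ := MuEll.exists_fixed γ⁻¹ (by rw [inv_pow, h12, inv_one])
  apply (Loc.germAt τ).injective
  rw [Loc.germAt_act γ hτ]
  refine iterate_comp_eq N m hm u hu (Loc.moeb γ⁻¹) (Loc.analyticAt_moeb γ⁻¹ τ)
    (Loc.deriv_moeb_ne_zero γ⁻¹ τ) (by rw [Loc.moeb_coe, hτ]) ((Loc.germAt τ).comp (Psi N)) ?_ 1 ?_
    (Loc.germAt τ h) (by rw [← map_pow, hh]; rfl)
  · intro a _
    rw [RingHom.comp_apply, Psi_const, Loc.germAt_toMer]
    exact MerGerm.ord_const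
  · intro f
    have h1 := Loc.germAt_act γ hτ (Psi N f)
    rw [Rel.act_Psi γ hγ f] at h1
    exact h1.symm

end Fermat.Agent.ES
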