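import Fermat.Agent.ES.TorsDefs
import Fermat.Agent.S16.LLift
import Fermat.Agent.S16.LReal
import Fermat.Agent.S16.LCount

/-!
# ES, block MULT : MU-LIFT

Every character of `Γ₀(N)` of exponent `m` which kills the parabolic elements and the elements of
finite order is of the form `γ ↦ exp (2 π i Re (∫_γ f) / m)` for some `f` in the period lattice.
-/

set_option autoImplicit false

namespace Fermat.Agent.ES

open UpperHalfPlane ModularForm CongruenceSubgroup Fermat.Agent.S24 Fermat.Agent.S16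
open scoped MatrixGroups Manifold

/-- **MU-LIFT**. -/
theorem exists_Lam_chiPer_eq (N : ℕ) [NeZero N] (m : ℕ) (hm : 0 < m) (χ : Gamma0 N →* ℂˣ)
    (hχ : ∀ γ, χ γ ^ m = 1) (hPE : IsPEc N χ) : ∃ f ∈ Lam N, chiPer m N f = χ := by
  have hζ : IsPrimitiveRoot (Complex.exp (2 * Real.pi * Complex.I / m)) m :=
    Complex.isPrimitiveRoot_exp m hm.ne'
  set ζ : ℂ := Complex.exp (2 * Real.pi * Complex.I / m) with hζdef
  have hζ0 : ζ ≠ 0 := Complex.exp_ne_zero _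
  have hex : ∀ γ : Gamma0 N, ∃ i : ℕ, ζ ^ i = ((χ γ : ℂˣ) : ℂ) := by
    intro γ
    have h1 : ((χ γ : ℂˣ) : ℂ) ^ m = 1 := by
      rw [← Units.val_pow_eq_pow_val, hχ γ, Units.val_one]
    have : NeZero m := ⟨hm.ne'⟩
    obtain ⟨i, -, hi⟩ := hζ.eq_pow_of_pow_eq_one h1
    exact ⟨i, hi⟩
  choose e he using hex
  have hcast : ∀ a b : ℕ, ζ ^ a = ζ ^ b → (a : ZMod m) = (b : ZMod m) := by
    intro a b hab
    have h1 : ζ ^ ((a : ℤ) - b) = 1 := by
      rw [zpow_sub₀ hζ0, zpow_natCast, zpow_natCast, hab, div_self (pow_ne_zero _ hζ0)]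
    have h2 := (hζ.zpow_eq_one_iff_dvd _).1 h1
    have h3 := (ZMod.intCast_eq_intCast_iff_dvd_sub (b : ℤ) (a : ℤ) m).2 h2
    simpa using h3.symm
  let φ : Additive (Gamma0 N) →+ ZMod m :=
    AddMonoidHom.mk' (fun γ => (e γ.toMul : ZMod m)) (by
      intro a b
      rw [← Nat.cast_add]
      apply hcast
      rw [pow_add, he, he, he, toMul_add, map_mul, Units.val_mul])
  have hφ0 : ∀ γ : Gamma0 N, χ γ = 1 → φ (Additive.ofMul γ) = 0 := by
    intro γ h1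
    show (e γ : ZMod m) = 0
    rw [← Nat.cast_zero]
    apply hcast
    rw [he, h1, pow_zero, Units.val_one]
  have hφ : IsPE (Gamma0 N) φ :=
    ⟨fun γ htr => hφ0 γ (hPE.1 γ htr), fun γ h12 => hφ0 γ (hPE.2 γ h12)⟩
  obtain ⟨ψ, hψ, hψφ⟩ := exists_lift N (fun ℓ _ => card_isPE_le N ℓ) m φ hφ
  obtain ⟨f, hf⟩ := exists_re_Per N ψ hψ
  refine ⟨f, fun γ => ⟨ψ γ, hf γ⟩, ?_⟩
  ext γ
  rw [coe_chiPer, hf, ← he]
  have h1 : ((ψ (Additive.ofMul γ) : ℤ) : ZMod m) = ((e γ : ℤ) : ZMod m) := by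
    rw [hψφ]
    show (e γ : ZMod m) = _
    rw [Int.cast_natCast]
  obtain ⟨t, ht⟩ := (ZMod.intCast_eq_intCast_iff_dvd_sub _ _ _).1 h1
  have h2 : ψ (Additive.ofMul γ) = e γ - m * t := by omega
  have h3 : (2 * Real.pi * Complex.I * (((ψ (Additive.ofMul γ) : ℝ) / m : ℝ) : ℂ))
      = (ψ (Additive.ofMul γ) : ℤ) * (2 * Real.pi * Complex.I / m) := by
    push_cast
    ring
  rw [h3, Complex.exp_int_mul, ← hζdef, h2, zpow_sub₀ hζ0, zpow_mul, zpow_natCast,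
    zpow_natCast, hζ.pow_eq_one, one_zpow, div_one]

end Fermat.Agent.ES
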