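import Fermat.Agent.ES.KDefs
import Fermat.Agent.S24.Count
import Fermat.Agent.S24.Loc1b

/-!
# ES / MULT / MU-LOC : local `m`-th roots of a function whose divisor is divisible by `m`

Every `ℤ`-valued order function on `FF N` which is trivial on the constants is `0` or a positive
multiple of the order function of a place.  Hence, if the divisor of `u` is divisible by `m`, a
local `m`-th root of `u` is invariant under every local rotation fixing the whole function field.
-/

set_option autoImplicit false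

namespace Fermat.Agent.ES

open AlgebraicCurve Fermat.Agent.S24

/-- **MU-LOC**, part 0. -/
theorem exists_of_isOrd (N m : ℕ) (u : FF N) (hu : IsPDiv m N u) (ω : FF N → ℤ)
    (hω : Count.IsOrd Kb ω) : ∃ (f₀ : FF N) (k : ℤ), f₀ ≠ 0 ∧ ω u = m * (k * ω f₀) := by
  by_cases hnt : ∃ f : FF N, f ≠ 0 ∧ ω f ≠ 0
  · obtain ⟨v, m₀, -, hv⟩ := hω.exists_place hnt
    obtain ⟨π, -, hπ⟩ := Count.exists_uniformizer v
    have hπ0 : (π : FF N) ≠ 0 := by
      intro h0
      rw [h0, Place.ord_zero] at hπ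
      exact zero_ne_one hπ
    obtain ⟨k, hk⟩ := hu.2 v
    refine ⟨π, k, hπ0, ?_⟩
    rw [hv u hu.1, hv π hπ0, hπ, hk]
    ring
  · push Not at hnt
    exact ⟨1, 0, one_ne_zero, by rw [hnt u hu.1]; ring⟩

namespace MuLoc

open MerGerm

variable {x : ℂ}

/-- leading coefficient of a constant multiple -/
lemma IsLC.const_mul {a : MerGerm x} {c : ℂ} (h : IsLC a c) (ha : a ≠ 0) {z : ℂ} (hz : z ≠ 0) :
    IsLC (MerGerm.const x z * a) (z * c) := by
  obtain ⟨f, hf, rfl, h2⟩ := h
  have hc0 : MerGerm.const x z ≠ 0 := (map_ne_zero (MerGerm.const x)).2 hz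
  refine ⟨fun w => z * f w, (MeromorphicAt.const z x).mul hf, ?_, ?_⟩
  · rw [const_apply, mk_mul]
    rfl
  · rw [ord_mul hc0 ha, ord_const, zero_add]
    have := h2.const_mul z
    refine this.congr' ?_
    filter_upwards with w
    ring

/-- order and leading coefficient of the iterates -/
lemma isLC_iterate {ψ : ℂ → ℂ} (hψ : AnalyticAt ℂ ψ x) (hd : deriv ψ x ≠ 0)
    (hx : ψ x = x) {a : MerGerm x} {c : ℂ} (hc : IsLC a c) (n : ℕ) :
    ((comp ψ hψ (not_eventuallyConst_of_deriv_ne_zero hd) hx)^[n] a).ord = a.ord ∧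
      IsLC ((comp ψ hψ (not_eventuallyConst_of_deriv_ne_zero hd) hx)^[n] a)
        (deriv ψ x ^ ((n : ℤ) * a.ord) * c) := by
  induction n with
  | zero => simpa using hc
  | succ n ih =>
    rw [Function.iterate_succ_apply']
    refine ⟨by rw [ord_comp_of_deriv_ne_zero hψ hd hx, ih.1], ?_⟩
    have := IsLC.comp hψ hd hx ih.2
    rw [ih.1, ← mul_assoc, ← zpow_add₀ hd] at this
    convert this using 2
    push_cast
    ring_nf

lemma ord_pow {a : MerGerm x} (ha : a ≠ 0) (n : ℕ) : (a ^ n).ord = n * a.ord := by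
  induction n with
  | zero =>
    have : (1 : MerGerm x) = MerGerm.const x 1 := (map_one _).symm
    rw [pow_zero, this, ord_const]
    simp
  | succ n ih =>
    rw [pow_succ, ord_mul (pow_ne_zero n ha) ha, ih]
    push_cast
    ring

/-- an `m`-th root of unity in the field of germs is a constant -/
lemma exists_const_of_pow_eq_one {m : ℕ} (hm : 0 < m) {z : MerGerm x} (hz : z ^ m = 1) :
    ∃ c : ℂ, c ≠ 0 ∧ z = MerGerm.const x c := by
  have hprim : IsPrimitiveRoot (MerGerm.const x (Complex.exp (2 * Real.pi * Complex.I / m))) m :=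
    (Complex.isPrimitiveRoot_exp m hm.ne').map_of_injective (MerGerm.const x).injective
  have : NeZero m := ⟨hm.ne'⟩
  obtain ⟨i, -, hi⟩ := hprim.eq_pow_of_pow_eq_one hz
  refine ⟨Complex.exp (2 * Real.pi * Complex.I / m) ^ i, pow_ne_zero _ (Complex.exp_ne_zero _), ?_⟩
  rw [map_pow, hi]

end MuLoc

open MuLoc in
/-- **MU-LOC**: a local `m`-th root of `u` is invariant under every local rotation which fixes the
whole function field. -/
theorem iterate_comp_eq (N m : ℕ) (hm : 0 < m) (u : FF N) (hu : IsPDiv m N u) {p : ℂ}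
    (ψ : ℂ → ℂ) (hψ : AnalyticAt ℂ ψ p) (hd : deriv ψ p ≠ 0) (hp : ψ p = p)
    (σ : FF N →+* MerGerm p) (hσ : ∀ a : Kb, a ≠ 0 → (σ (algebraMap Kb (FF N) a)).ord = 0) (n : ℕ)
    (hinv : ∀ f : FF N, (MerGerm.comp ψ hψ (MerGerm.not_eventuallyConst_of_deriv_ne_zero hd)
      hp)^[n] (σ f) = σ f)
    (W : MerGerm p) (hW : W ^ m = σ u) :
    (MerGerm.comp ψ hψ (MerGerm.not_eventuallyConst_of_deriv_ne_zero hd) hp)^[n] W = W := by
  set R := MerGerm.comp ψ hψ (MerGerm.not_eventuallyConst_of_deriv_ne_zero hd) hp with hR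
  have hW0 : W ≠ 0 := by
    intro h0
    rw [h0, zero_pow hm.ne'] at hW
    exact (map_ne_zero σ).2 hu.1 hW.symm
  have hω : Count.IsOrd Kb (fun f => (σ f).ord) :=
    Count.isOrd_comp (K := Kb) (w := MerGerm.ord) (fun _ _ ha hb => MerGerm.ord_mul ha hb)
      (fun _ _ ha hb hab => MerGerm.ord_add ha hb hab) σ hσ
  obtain ⟨f₀, k, hf₀, hk⟩ := exists_of_isOrd N m u hu _ hω
  -- the order of `W`
  have hordW : W.ord = k * (σ f₀).ord := by
    have h1 : ((m : ℤ)) * W.ord = m * (k * (σ f₀).ord) := by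
      rw [← ord_pow hW0, hW]
      exact hk
    exact mul_left_cancel₀ (by exact_mod_cast hm.ne') h1
  -- the multiplier is trivial
  have hμ : deriv ψ p ^ ((n : ℤ) * W.ord) = 1 := by
    have h1 := MerGerm.zpow_eq_one_of_iterate hψ hd hp ((map_ne_zero σ).2 hf₀) n (hinv f₀)
    rw [hordW, show (n : ℤ) * (k * (σ f₀).ord) = ((n : ℤ) * (σ f₀).ord) * k by ring, zpow_mul, h1,
      one_zpow]
  obtain ⟨c, hc0, hc⟩ := MerGerm.exists_isLC hW0
  have hLC := (isLC_iterate hψ hd hp hc n).2
  rw [hμ, one_mul] at hLC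
  -- `R^[n] W = ζ W`
  have hiter : ∀ (j : ℕ) (a : MerGerm p), R^[j] (a ^ m) = (R^[j] a) ^ m := by
    intro j
    induction j with
    | zero => intro a; rfl
    | succ j ih => intro a; rw [Function.iterate_succ_apply', ih, map_pow,
        ← Function.iterate_succ_apply' (f := R)]
  have hpow : (R^[n] W / W) ^ m = 1 := by
    rw [div_pow, ← hiter, hW, hinv, ← hW]
    exact div_self (pow_ne_zero m hW0)
  obtain ⟨z, hz0, hz⟩ := exists_const_of_pow_eq_one hm hpow
  have h2 : R^[n] W = MerGerm.const p z * W := by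
    rw [← hz]
    field_simp
  have h3 := IsLC.const_mul hc hW0 hz0
  rw [← h2] at h3
  have h4 : z * c = c := h3.unique hLC
  have h5 : z = 1 := mul_right_cancel₀ hc0 (by rw [h4, one_mul])
  rw [h2, h5, map_one, one_mul]

end Fermat.Agent.ES
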