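import Fermat.Agent.ES.TorsDefs
import Fermat.Agent.ES.EisTw
import Fermat.Agent.S24.Degree
import Fermat.Agent.S23.Division
import Fermat.Agent.ES.TRatio

/-!
# ES, block TORS, package MERINV : an invariant `p`-th root in `Mer` of an element of `FF N`
lies in `FF N`
-/

set_option autoImplicit false

namespace Fermat.Agent.ES.TMerInv

open PowerSeries

section formal

variable {K L : Type*} [Field K] [IsAlgClosed K] [Field L]

lemma mem_fieldRange_of_pow_mem (ι : K →+* L) {x : L} {p : ℕ} (hp : 0 < p)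
    (h : x ^ p ∈ ι.fieldRange) : x ∈ ι.fieldRange := by
  let _ : Algebra K L := ι.toAlgebra
  obtain ⟨a, ha⟩ := h
  have hx : IsIntegral K x := by
    apply IsIntegral.of_pow hp
    rw [← ha]
    exact isIntegral_algebraMap (R := K) (A := L) (x := a)
  exact minpoly.mem_range_of_degree_eq_one K x
    (IsAlgClosed.degree_eq_one_of_irreducible K (minpoly.irreducible hx))

lemma coeff_mem_fieldRange [CharZero L] (ι : K →+* L) (p : ℕ) (hp : 0 < p) (u : L⟦X⟧) (g : K⟦X⟧)
    (h : u ^ p = g.map ι) (h0 : constantCoeff u ≠ 0) (n : ℕ) : coeff n u ∈ ι.fieldRange := by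
  have hG : ∀ i, coeff i (u ^ p) ∈ ι.fieldRange := fun i => by
    rw [h, coeff_map]
    exact ⟨_, rfl⟩
  have hE : u * d⁄dX L (u ^ p) = p • (u ^ p * d⁄dX L u) := by
    rw [Derivation.leibniz_pow]
    obtain ⟨k, rfl⟩ : ∃ k, p = k + 1 := ⟨p - 1, by omega⟩
    simp only [Nat.add_sub_cancel, smul_eq_mul, nsmul_eq_mul]
    ring
  induction n using Nat.strong_induction_on with
  | _ n ih =>
    rcases n with _ | n
    · apply mem_fieldRange_of_pow_mem ι hp
      have := hG 0
      rwa [coeff_zero_eq_constantCoeff_apply, map_pow, ← coeff_zero_eq_constantCoeff_apply] at this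
    · have hc := congrArg (coeff n) hE
      rw [map_nsmul, coeff_mul, coeff_mul] at hc
      simp only [coeff_derivative] at hc
      have hmem : (0, n) ∈ Finset.HasAntidiagonal.antidiagonal n := by simp
      have hsplit := Finset.add_sum_erase (Finset.HasAntidiagonal.antidiagonal n)
        (fun x : ℕ × ℕ => coeff x.1 (u ^ p) * (coeff (x.2 + 1) u * ((x.2 : L) + 1))) hmem
      rw [← hsplit] at hc
      have hL : ∑ x ∈ Finset.HasAntidiagonal.antidiagonal n,
          coeff x.1 u * (coeff (x.2 + 1) (u ^ p) * ((x.2 : L) + 1)) ∈ ι.fieldRange := by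
        refine Subfield.sum_mem _ fun x hx => ?_
        have hx' : x.1 + x.2 = n := Finset.HasAntidiagonal.mem_antidiagonal.mp hx
        refine Subfield.mul_mem _ (ih _ (by omega)) (Subfield.mul_mem _ (hG _) ?_)
        exact Subfield.add_mem _ (natCast_mem _ _) (Subfield.one_mem _)
      have hR : ∑ x ∈ (Finset.HasAntidiagonal.antidiagonal n).erase (0, n),
          coeff x.1 (u ^ p) * (coeff (x.2 + 1) u * ((x.2 : L) + 1)) ∈ ι.fieldRange := by
        refine Subfield.sum_mem _ fun x hx => ?_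
        obtain ⟨hne, hx⟩ := Finset.mem_erase.mp hx
        have hx' : x.1 + x.2 = n := Finset.HasAntidiagonal.mem_antidiagonal.mp hx
        have hx1 : x.1 ≠ 0 := by
          intro h1
          apply hne
          ext
          · exact h1
          · simp only; omega
        refine Subfield.mul_mem _ (hG _) (Subfield.mul_mem _ (ih _ (by omega)) ?_)
        exact Subfield.add_mem _ (natCast_mem _ _) (Subfield.one_mem _)
      set SL := ∑ x ∈ Finset.HasAntidiagonal.antidiagonal n,
          coeff x.1 u * (coeff (x.2 + 1) (u ^ p) * ((x.2 : L) + 1)) with hSL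
      set SR := ∑ x ∈ (Finset.HasAntidiagonal.antidiagonal n).erase (0, n),
          coeff x.1 (u ^ p) * (coeff (x.2 + 1) u * ((x.2 : L) + 1)) with hSR
      have hG0 : coeff 0 (u ^ p) ≠ 0 := by
        rw [coeff_zero_eq_constantCoeff_apply, map_pow]
        exact pow_ne_zero _ h0
      have hp0 : (p : L) ≠ 0 := Nat.cast_ne_zero.mpr hp.ne'
      have hn0 : (n : L) + 1 ≠ 0 := by exact_mod_cast Nat.succ_ne_zero n
      have key : coeff (n + 1) u = (SL / p - SR) / (coeff 0 (u ^ p) * ((n : L) + 1)) := by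
        rw [hc, nsmul_eq_mul]
        field_simp
        ring
      rw [key]
      refine Subfield.div_mem _ (Subfield.sub_mem _ (Subfield.div_mem _ hL (natCast_mem _ _)) hR) ?_
      exact Subfield.mul_mem _ (hG 0) (Subfield.add_mem _ (natCast_mem _ _) (Subfield.one_mem _))

open ModularCurve in
/-- A Laurent series over `L` whose `p`-th power has coefficients in the algebraically closed
subfield `K` has coefficients in `K`. -/
lemma exists_coeffMap_eq [CharZero L] (ι : K →+* L) (p : ℕ) (hp : 0 < p) (y : LaurentSeries L)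
    (W : LaurentSeries K) (h : y ^ p = coeffMap ι W) : ∃ s : LaurentSeries K, coeffMap ι s = y := by
  by_cases hy : y = 0
  · exact ⟨0, by rw [hy, map_zero]⟩
  set u : L⟦X⟧ := y.powerSeriesPart with hu
  set W' : LaurentSeries K := HahnSeries.single (-y.order) 1 ^ p * W with hW'
  have h1 : HahnSeries.ofPowerSeries ℤ L (u ^ p) = coeffMap ι W' := by
    rw [map_pow, hu, LaurentSeries.ofPowerSeries_powerSeriesPart, mul_pow, h, hW', map_mul, map_pow,
      coeffMap_single, map_one ι]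
  have h2 : u ^ p = (PowerSeries.mk fun i : ℕ => W'.coeff i).map ι := by
    ext i
    rw [coeff_map, coeff_mk, ← coeffMap_coeff, ← h1, HahnSeries.ofPowerSeries_apply_coeff]
  have h0 : constantCoeff u ≠ 0 := by
    rw [← coeff_zero_eq_constantCoeff_apply, hu, LaurentSeries.powerSeriesPart_coeff]
    simpa using (not_congr HahnSeries.coeff_order_eq_zero).mpr hy
  have h3 := coeff_mem_fieldRange ι p hp u _ h2 h0
  choose c hc using h3
  refine ⟨HahnSeries.single y.order 1 * HahnSeries.ofPowerSeries ℤ K (PowerSeries.mk c), ?_⟩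
  rw [map_mul, coeffMap_single, map_one ι, coeffMap_ofPowerSeries]
  have h4 : (PowerSeries.mk c).map ι = u := by
    ext i
    rw [coeff_map, coeff_mk, hc]
  rw [h4]
  exact LaurentSeries.single_order_mul_powerSeriesPart y

end formal

open UpperHalfPlane ModularForm CongruenceSubgroup ModularCurve
open Fermat.Agent.S24 Fermat.Agent.S24.Degree Fermat.Agent.S21
open scoped MatrixGroups Manifold

/-- `Hol` is closed under `p`-th roots in `Mer`. -/
lemma exists_toMer_of_pow (x : Mer) (p : ℕ) (hp : 0 < p) (F : Hol) (h : x ^ p = toMer F) :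
    ∃ C : Hol, toMer C = x := by
  obtain ⟨a, b, hb, rfl⟩ := exists_toMer_div x
  have hb' : toMer b ≠ 0 := toMer_ne_zero hb
  have h1 : a ^ p = F * b ^ p := by
    apply toMer_injective
    rw [toMer_mul, toMer_pow, toMer_pow, ← h, div_pow]
    field_simp
  obtain ⟨φ, hφ, hmul⟩ := S23.exists_mdiff_quotient (g₁ := a.1) (g₂ := b.1) a.2 b.2
    (fun h0 => hb (Subtype.ext h0)) p (fun i => if i = 0 then -F.1 else 0)
    (by
      intro i _
      split_ifs
      · exact (mem_Hol.mp F.2).continuous.neg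
      · exact continuous_const)
    (by
      intro z
      rw [Finset.sum_eq_single 0]
      · have := congrFun (congrArg Subtype.val h1) z
        simp only [Subalgebra.coe_pow, Subalgebra.coe_mul, Pi.pow_apply, Pi.mul_apply] at this
        simp only [if_true, Pi.neg_apply, Nat.sub_zero, pow_zero, mul_one]
        rw [this]
        ring
      · intro i _ hi
        simp [hi]
      · intro h0
        exact absurd (Finset.mem_range.mpr hp) h0)
  refine ⟨⟨φ, hφ⟩, ?_⟩
  rw [eq_div_iff hb', ← toMer_mul]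
  congr 1
  exact Subtype.ext (funext hmul)

lemma isBoundedAtImInfty_of_pow {F : ℍ → ℂ} {p : ℕ} (hp : 0 < p)
    (h : IsBoundedAtImInfty (F ^ p)) : IsBoundedAtImInfty F := by
  rw [isBoundedAtImInfty_iff] at *
  obtain ⟨M, A, hM⟩ := h
  refine ⟨max 1 M, A, fun z hz => ?_⟩
  have h1 := hM z hz
  rw [Pi.pow_apply, norm_pow] at h1
  by_cases h2 : ‖F z‖ ≤ 1
  · exact h2.trans (le_max_left _ _)
  · push Not at h2
    exact ((le_self_pow₀ h2.le hp.ne').trans h1).trans (le_max_right _ _)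

/-- `h * g` is a modular form if `h` is invariant and its `p`-th power is one. -/
lemma isMF_of_mul (N : ℕ) (p : ℕ) (hp : 0 < p) (k : ℤ) (h : Mer)
    (hinv : ∀ γ : Gamma0 N, act ((γ : SL(2, ℤ))⁻¹) h = h) (f g C : Hol)
    (hf : IsMF (Gamma0 N) k f.1) (hg : IsMF (Gamma0 N) k g.1) (hg0 : g ≠ 0)
    (hC : toMer C = h * toMer g) (hCp : C ^ p = f * g ^ (p - 1)) : IsMF (Gamma0 N) k C.1 := by
  refine ⟨C.2, fun γ hγ => ?_, fun a => ?_⟩
  · have e1 : toMer (actHol γ⁻¹ C) * toMer g = toMer C * toMer (actHol γ⁻¹ g) := by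
      rw [← act_toMer, ← act_toMer, hC, map_mul, hinv ⟨γ, hγ⟩]
      ring
    rw [← toMer_mul, ← toMer_mul] at e1
    have e2 := toMer_injective e1
    have e3 : ∀ τ : ℍ, C.1 (γ • τ) * g.1 τ = C.1 τ * g.1 (γ • τ) := by
      intro τ
      have := congrFun (congrArg Subtype.val e2) τ
      simpa using this
    have e4 : (C.1 ∣[k] γ - C.1) * g.1 = 0 := by
      funext τ
      have e5 := congrFun (hg.inv γ hγ) τ
      rw [SL_slash_apply] at e5
      simp only [Pi.mul_apply, Pi.sub_apply, Pi.zero_apply, SL_slash_apply]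
      have e6 := e3 τ
      calc (C.1 (γ • τ) * denom γ τ ^ (-k) - C.1 τ) * g.1 τ
          = (C.1 (γ • τ) * g.1 τ) * denom γ τ ^ (-k) - C.1 τ * g.1 τ := by ring
        _ = C.1 τ * (g.1 (γ • τ) * denom γ τ ^ (-k)) - C.1 τ * g.1 τ := by rw [e6]; ring
        _ = 0 := by rw [e5]; ring
    have hmd : MDiff (C.1 ∣[k] γ) := by
      rw [SL_slash]
      exact MDifferentiable.slash C.2 k _
    rcases (UpperHalfPlane.mul_eq_zero_iff (hmd.sub C.2) g.2).1 e4 with h0 | h0
    · exact sub_eq_zero.1 h0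
    · exact absurd (Subtype.ext h0) hg0
  · apply isBoundedAtImInfty_of_pow hp
    rw [← EisTw.pow_slash]
    have h1 : C.1 ^ p = f.1 * g.1 ^ (p - 1) := congrArg Subtype.val hCp
    rw [h1]
    have h2 : IsMF (Gamma0 N) ((p : ℤ) * k) (f.1 * g.1 ^ (p - 1)) := by
      refine (hf.mul (PartA2.IsMF.pow hg (p - 1))).congr_wt ?_
      obtain ⟨j, rfl⟩ : ∃ j, p = j + 1 := ⟨p - 1, by omega⟩
      simp only [Nat.add_sub_cancel]
      push_cast
      ring
    exact h2.bdd a

lemma mem_nice_of_isMF {N : ℕ} [NeZero N] {k : ℤ} {F : ℍ → ℂ} (hF : IsMF (Gamma0 N) k F) :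
    F ∈ nice 1 :=
  S24.mem_nice_one (CongruenceSubgroup.one_mem_strictPeriods_Gamma0 N) hF.toModularForm

/-- **MERINV**, with the Laurent form of RATIO as a hypothesis. -/
theorem exists_pow_eq_of_invariant_of (N : ℕ) [NeZero N] (p : ℕ) [NeZero p]
    (hratio : ∀ (k : ℤ) (A B : Hol), IsMF (Gamma0 N) k A.1 → IsMF (Gamma0 N) k B.1 → B ≠ 0 →
      ∀ s : LaurentSeries Kb, coeffMap iotaC s * HahnSeries.ofPowerSeries ℤ ℂ (qExpansion 1 B.1)
        = HahnSeries.ofPowerSeries ℤ ℂ (qExpansion 1 A.1) → ∃ x : FF N, Psi N x * toMer B = toMer A)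
    (w : FF N) (hw : TRel p N 1 w) : ∃ b : FF N, w = b ^ p := by
  obtain ⟨h, hhp, hmult⟩ := hw
  have hp : 0 < p := Nat.pos_of_ne_zero (NeZero.ne p)
  have hinv : ∀ γ : Gamma0 N, act ((γ : SL(2, ℤ))⁻¹) h = h := by
    intro γ
    have := hmult γ
    rw [this, cMer]
    simp [toMer]
  obtain ⟨k, f, g, hf, hg, hg0, hfg⟩ := Degree.isRatio_Psi N
    (fun d _ hd => isMF_comp_Dm N d hd isMF_E4)
    (fun d _ hd => isMF_comp_Dm N d hd isCF_Delta.isMF) w
  have hg0' : toMer g ≠ 0 := toMer_ne_zero hg0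
  have hx : (h * toMer g) ^ p = toMer (f * g ^ (p - 1)) := by
    obtain ⟨j, rfl⟩ : ∃ j, p = j + 1 := ⟨p - 1, by omega⟩
    simp only [Nat.add_sub_cancel]
    rw [mul_pow, hhp, toMer_mul, toMer_pow, ← hfg]
    ring
  obtain ⟨C, hC⟩ := exists_toMer_of_pow _ p hp _ hx
  have hCp : C ^ p = f * g ^ (p - 1) := by
    apply toMer_injective
    rw [toMer_pow, hC, hx]
  have hCMF : IsMF (Gamma0 N) k C.1 := isMF_of_mul N p hp k h hinv f g C hf hg hg0 hC hCp
  -- `q`-expansions
  let f' : nice 1 := ⟨f.1, mem_nice_of_isMF hf⟩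
  let g' : nice 1 := ⟨g.1, mem_nice_of_isMF hg⟩
  let C' : nice 1 := ⟨C.1, mem_nice_of_isMF hCMF⟩
  have hg'0 : g' ≠ 0 := fun h0 =>
    hg0 (Subtype.ext (congrArg (Subtype.val : nice 1 → ℍ → ℂ) h0))
  have k1 : Psi1 N w * toFr 1 g' = toFr 1 f' := by
    apply (niceToMer 1).injective
    rw [map_mul, ← Psi_apply, toFr, toFr, niceToMer_algebraMap, niceToMer_algebraMap]
    exact hfg
  have k2 : iotaL N w * HahnSeries.ofPowerSeries ℤ ℂ (qHom 1 g')
      = HahnSeries.ofPowerSeries ℤ ℂ (qHom 1 f') := by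
    have := congrArg (niceToLaurent 1) k1
    rwa [map_mul, niceToLaurent_Psi1, toFr, toFr, niceToLaurent_algebraMap,
      niceToLaurent_algebraMap] at this
  have k3 : C' ^ p = f' * g' ^ (p - 1) :=
    Subtype.ext (congrArg (Subtype.val : Hol → ℍ → ℂ) hCp)
  have k4 : HahnSeries.ofPowerSeries ℤ ℂ (qHom 1 C') ^ p
      = HahnSeries.ofPowerSeries ℤ ℂ (qHom 1 f') * HahnSeries.ofPowerSeries ℤ ℂ (qHom 1 g') ^ (p - 1) := by
    rw [← map_pow, ← map_pow, ← map_pow, ← map_pow, ← map_mul, ← map_mul, k3]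
  have hLg : HahnSeries.ofPowerSeries ℤ ℂ (qHom 1 g') ≠ 0 := by
    intro h0
    have h2 : qHom 1 g' = 0 := HahnSeries.ofPowerSeries_injective (by rw [h0, map_zero])
    exact hg'0 (qHom_injective 1 (by rw [h2, map_zero]))
  have k5 : (HahnSeries.ofPowerSeries ℤ ℂ (qHom 1 C') / HahnSeries.ofPowerSeries ℤ ℂ (qHom 1 g')) ^ p
      = coeffMap iotaC (w : LaurentSeries Kb) := by
    rw [← iotaL_apply, div_pow, k4, ← k2]
    obtain ⟨j, rfl⟩ : ∃ j, p = j + 1 := ⟨p - 1, by omega⟩
    simp only [Nat.add_sub_cancel]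
    field_simp
    ring
  obtain ⟨s, hs⟩ := exists_coeffMap_eq iotaC p hp _ _ k5
  obtain ⟨x, hx'⟩ := hratio k C g hCMF hg hg0 s (by
    rw [hs]
    have e1 : qHom 1 g' = qExpansion 1 g.1 := by simp [g']
    have e2 : qHom 1 C' = qExpansion 1 C.1 := by simp [C']
    rw [← e1, ← e2, div_mul_cancel₀ _ hLg])
  refine ⟨x, (Psi N).injective ?_⟩
  rw [map_pow, ← hhp]
  congr 1
  rw [hC] at hx'
  exact (mul_right_cancel₀ hg0' hx').symm

end Fermat.Agent.ES.TMerInv

namespace Fermat.Agent.ES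

open Fermat.Agent.S24

/-- **MERINV** -/
theorem exists_pow_eq_of_invariant (N : ℕ) [NeZero N] (p : ℕ) [NeZero p] (w : FF N)
    (hw : TRel p N 1 w) : ∃ b : FF N, w = b ^ p :=
  TMerInv.exists_pow_eq_of_invariant_of N p
    (fun k A B hA hB hB0 s hs => exists_Psi_mul_eq_of_laurent N k A B hA hB hB0 s hs) w hw

end Fermat.Agent.ES
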