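import Fermat.Agent.ES.TorsDefs
import Fermat.Agent.ES.Unram

/-!
# ES, block TORS, package UNRAM : the divisor of `(F / E) ^ p` is divisible by `p`
-/

set_option autoImplicit false

namespace Fermat.Agent.ES

open UpperHalfPlane ModularForm CongruenceSubgroup ModularCurve AlgebraicCurve
open Fermat.Agent.S24 Fermat.Agent.S16
open scoped MatrixGroups Manifold

namespace TUnram

lemma mdiff_slash' {f : ℍ → ℂ} (hf : MDiff f) (k : ℤ) (g : SL(2, ℤ)) : MDiff (f ∣[k] g) := by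
  rw [SL_slash]
  exact hf.slash _ _

/-- the slash operator on `Hol` -/
noncomputable def slashHol (k : ℤ) (g : SL(2, ℤ)) (F : Hol) : Hol :=
  ⟨F.1 ∣[k] g, mdiff_slash' F.2 k g⟩

lemma slashHol_ne_zero (k : ℤ) (g : SL(2, ℤ)) {F : Hol} (hF : F ≠ 0) : slashHol k g F ≠ 0 := by
  intro h
  apply hF
  apply Subtype.ext
  have h1 : F.1 ∣[k] g = 0 := congrArg Subtype.val h
  have h2 : (F.1 ∣[k] g) ∣[k] g⁻¹ = F.1 := by
    rw [← SlashAction.slash_mul, mul_inv_cancel, SlashAction.slash_one]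
  rw [← h2, h1, SlashAction.zero_slash]
  rfl

lemma toMer_ne_zero {F : Hol} (hF : F ≠ 0) : toMer F ≠ 0 := by
  intro h
  exact hF (toMer_injective (by rw [h]; exact (map_zero _).symm))

lemma toMer_mul (a b : Hol) : toMer (a * b) = toMer a * toMer b := map_mul _ _ _

/-- the action on a quotient of two functions, in terms of the slash operator -/
lemma act_div (k : ℤ) (g : SL(2, ℤ)) (F E : Hol) (hE : E ≠ 0) :
    act g (toMer F / toMer E) = toMer (slashHol k g⁻¹ F) / toMer (slashHol k g⁻¹ E) := by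
  have h1 : toMer (actHol g E) ≠ 0 := by
    rw [← act_toMer]
    exact (map_ne_zero _).2 (toMer_ne_zero hE)
  rw [map_div₀, act_toMer, act_toMer, div_eq_div_iff h1 (toMer_ne_zero (slashHol_ne_zero k _ hE)),
    ← toMer_mul, ← toMer_mul]
  congr 1
  apply Subtype.ext
  funext τ
  change F.1 (g⁻¹ • τ) * (E.1 ∣[k] g⁻¹) τ = (F.1 ∣[k] g⁻¹) τ * E.1 (g⁻¹ • τ)
  rw [SL_slash_apply, SL_slash_apply]
  ring

lemma periodic_of_slash {f : ℍ → ℂ} {k : ℤ} (N : ℕ) (h : f ∣[k] (ModularGroup.T ^ N) = f) :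
    Function.Periodic (f ∘ ofComplex) (N : ℂ) := by
  have h2 : ∀ z : ℍ, f (((N : ℕ) : ℝ) +ᵥ z) = f z := by
    intro z
    have h3 := congrFun h z
    rw [SL_slash_apply, ModularGroup.denom_apply, ← zpow_natCast, ModularGroup.coe_T_zpow] at h3
    have h4 : (ModularGroup.T ^ ((N : ℕ) : ℤ)) • z = ((N : ℕ) : ℝ) +ᵥ z := by
      ext
      rw [ModularGroup.coe_T_zpow_smul_eq]
      simp [add_comm]
    rw [h4] at h3
    simpa using h3
  intro w
  by_cases! hw : 0 < Complex.im w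
  · have hw1 : 0 < Complex.im (w + N) := by simp [hw]
    simp only [Function.comp_apply, ofComplex_apply_of_im_pos hw1, ofComplex_apply_of_im_pos hw]
    rw [← h2 ⟨w, hw⟩]
    congr 1
    ext
    simp [add_comm]
  · have hw1 : Complex.im (w + N) ≤ 0 := by simpa using hw
    simp [ofComplex_apply_of_im_nonpos hw1, ofComplex_apply_of_im_nonpos hw]

lemma conj_T_pow_mem (N : ℕ) (g : SL(2, ℤ)) : g⁻¹ * ModularGroup.T ^ N * g ∈ Gamma0 N := by
  have h1 : ModularGroup.T ^ N ∈ Gamma N := by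
    rw [Gamma_mem, ← zpow_natCast, ModularGroup.coe_T_zpow]
    simp
  have h2 := (Gamma_normal N).conj_mem _ h1 g⁻¹
  rw [inv_inv] at h2
  have h3 : Gamma N ≤ Gamma0 N := by
    intro x hx
    rw [Gamma_mem] at hx
    rw [Gamma0_mem]
    exact hx.2.2.1
  exact h3 h2

end TUnram

open TUnram in
/-- **UNRAM** -/
theorem dvd_ord_of_char (N : ℕ) [NeZero N] (p : ℕ) (k : ℤ) (χ : Gamma0 N →* ℂˣ) (hχ : IsPEc N χ)
    (F E : Hol) (hF : IsCFc N k χ F.1) (hE : S21.IsMF (Gamma0 N) k E.1) (hF0 : F ≠ 0) (hE0 : E ≠ 0)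
    (w : FF N) (hw : Psi N w * toMer E ^ p = toMer F ^ p) (v : Place Kb (FF N)) :
    (p : ℤ) ∣ v.ord w := by
  have hE1 := toMer_ne_zero hE0
  have hF1 := toMer_ne_zero hF0
  have hh : (toMer F / toMer E) ^ p = Psi N w := by
    rw [div_pow, ← hw, mul_div_assoc, div_self (pow_ne_zero p hE1), mul_one]
  have hw0 : w ≠ 0 := by
    rintro rfl
    rw [map_zero, zero_mul] at hw
    exact pow_ne_zero p hF1 hw.symm
  -- the character is trivial on the relevant elements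
  have hinv : ∀ γ : SL(2, ℤ), ∀ hγ : γ ∈ Gamma0 N, χ ⟨γ, hγ⟩ = 1 → F.1 ∣[k] γ = F.1 := by
    intro γ hγ h1
    have := hF.inv ⟨γ, hγ⟩
    rw [h1] at this
    simpa using this
  refine dvd_ord_of_root N p w hw0 (toMer F / toMer E) hh ?_ ?_ v
  · intro γ hγ hc
    have h1 : χ ⟨γ, hγ⟩ = 1 := by
      rcases hc with hc | hc
      · exact hχ.1 ⟨γ, hγ⟩ hc
      · exact hχ.2 ⟨γ, hγ⟩ (Subtype.ext hc)
    have h2 : χ ⟨γ⁻¹, inv_mem hγ⟩ = 1 := by
      have : (⟨γ⁻¹, inv_mem hγ⟩ : Gamma0 N) = (⟨γ, hγ⟩ : Gamma0 N)⁻¹ := rfl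
      rw [this, map_inv, h1, inv_one]
    rw [act_div k γ F E hE0]
    congr 2
    · exact Subtype.ext (hinv _ _ h2)
    · exact Subtype.ext (hE.inv _ (inv_mem hγ))
  · intro g
    rw [act_div k g F E hE0]
    have hper : ∀ f : ℍ → ℂ, (f ∣[k] (g⁻¹ * ModularGroup.T ^ N * g) = f) →
        (f ∣[k] g⁻¹) ∣[k] (ModularGroup.T ^ N) = f ∣[k] g⁻¹ := by
      intro f hf
      conv_rhs => rw [← hf]
      rw [← SlashAction.slash_mul, ← SlashAction.slash_mul]
      congr 1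
      group
    have hmem := conj_T_pow_mem N g
    have hFn : F.1 ∣[k] g⁻¹ ∈ nice N :=
      ⟨periodic_of_slash N (hper _ (hinv _ hmem (hχ.1 ⟨_, hmem⟩ (Unram.trace_conj_T_pow g N)))),
        mdiff_slash' F.2 k _, (hF.zero _).boundedAtFilter⟩
    have hEn : E.1 ∣[k] g⁻¹ ∈ nice N :=
      ⟨periodic_of_slash N (hper _ (hE.inv _ hmem)), mdiff_slash' E.2 k _, hE.bdd _⟩
    rw [RingHom.mem_fieldRange]
    refine ⟨toFr N ⟨_, hFn⟩ / toFr N ⟨_, hEn⟩, ?_⟩
    rw [map_div₀, niceToMer_toFr, niceToMer_toFr]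
    rfl

end Fermat.Agent.ES

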