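import Fermat.Agent.ES.MuLoc
import Fermat.Agent.ES.TUnram
import Fermat.Agent.ES.DMult
import Fermat.Agent.ES.TMerInv
import Fermat.Agent.ES.TRel
import Fermat.Agent.S21.PartG5_Aux

/-!
# ES, block MULT, package MU-PAR : the `m`-th root of a function with `m`-divisible divisor is
invariant under the parabolic elements of `Γ₀(N)`
-/

set_option autoImplicit false

namespace Fermat.Agent.ES

open UpperHalfPlane ModularForm CongruenceSubgroup ModularCurve AlgebraicCurve
open Fermat.Agent.S24 Fermat.Agent.S16 Fermat.Agent.ES Fermat.Agent.S21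
open scoped MatrixGroups Manifold

namespace MuPar

/-- `act g y = y ↔ act g⁻¹ y = y` -/
lemma act_inv_eq_iff (g : SL(2, ℤ)) (y : Mer) : act g⁻¹ y = y ↔ act g y = y := by
  constructor
  · intro h
    conv_lhs => rw [← h]
    rw [← act_mul_apply, mul_inv_cancel, act_one]
    rfl
  · intro h
    conv_lhs => rw [← h]
    rw [← act_mul_apply, inv_mul_cancel, act_one]
    rfl

/-- the conjugation relation on `Mer` -/
lemma act_conj (γ δ : SL(2, ℤ)) (n : ℤ) (h : ∀ z : ℍ, γ • (δ • z) = δ • ((n : ℝ) +ᵥ z)) (x : Mer) :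
    act δ⁻¹ (act γ⁻¹ x) = act (ModularGroup.T ^ n)⁻¹ (act δ⁻¹ x) := by
  have key : (act δ⁻¹).comp (act γ⁻¹) = (act (ModularGroup.T ^ n)⁻¹).comp (act δ⁻¹) := by
    apply Mer_ringHom_ext
    intro F
    rw [RingHom.comp_apply, RingHom.comp_apply, act_toMer, act_toMer, act_toMer, act_toMer]
    congr 1
    apply Subtype.ext
    funext τ
    simp only [actHol_apply, inv_inv]
    rw [h, modular_T_zpow_smul]
  exact congrArg (fun φ : Mer →+* Mer => φ x) key

/-- invariance under `T ^ |n|` versus invariance under `T ^ n` -/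
lemma act_T_natAbs_iff (n : ℤ) (y : Mer) :
    act (ModularGroup.T ^ n.natAbs) y = y ↔ act (ModularGroup.T ^ n)⁻¹ y = y := by
  rcases Int.natAbs_eq n with h | h
  · rw [act_inv_eq_iff]
    conv_rhs => rw [h, zpow_natCast]
  · conv_rhs => rw [h, zpow_neg, inv_inv, zpow_natCast]

lemma nice_mono {h h' : ℕ} (hd : h ∣ h') : nice h ≤ nice h' := by
  rintro g ⟨h1, h2, h3⟩
  obtain ⟨c, rfl⟩ := hd
  refine ⟨?_, h2, h3⟩
  have := h1.nat_mul c
  simpa [mul_comm] using this

/-- the range of `niceToMer` grows with the period -/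
lemma niceToMer_mem_range {h h' : ℕ} (hd : h ∣ h') (z : FractionRing (nice h)) :
    niceToMer h z ∈ (niceToMer h').fieldRange := by
  obtain ⟨a, b, -, rfl⟩ := exists_toFr_div h z
  rw [RingHom.mem_fieldRange]
  refine ⟨toFr h' ⟨a.1, nice_mono hd a.2⟩ / toFr h' ⟨b.1, nice_mono hd b.2⟩, ?_⟩
  rw [map_div₀, map_div₀, niceToMer_toFr, niceToMer_toFr, niceToMer_toFr, niceToMer_toFr]
  rfl

section cusp

variable (N M : ℕ) [NeZero N] [NeZero M] (hNM : N ∣ M) (g : SL(2, ℤ))

/-- `sigma N g` with values in `Frac (nice M)` -/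
noncomputable def sigmaUp : FF N →+* FractionRing (nice M) :=
  factorThrough (niceToMer M) (sigma N g) (fun x => by
    rw [← niceToMer_sigmaCusp]
    exact niceToMer_mem_range hNM _)

omit [NeZero M] in
lemma niceToMer_sigmaUp (x : FF N) : niceToMer M (sigmaUp N M hNM g x) = sigma N g x :=
  factorThrough_spec _ _ _ _

omit [NeZero M] in
lemma sigmaUp_const (a : Kb) :
    sigmaUp N M hNM g (algebraMap Kb (FF N) a) = toFr M (algebraMap ℂ (nice M) (iotaC a)) :=
  (niceToMer M).injective (by rw [niceToMer_sigmaUp, sigma_const, niceToMer_const])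

end cusp

lemma iterate_rotGerm (M : ℕ) [NeZero M] (n : ℕ) (x : FractionRing (nice M)) :
    (LocInf.rotGerm M)^[n] (LocInf.germCusp M x) = LocInf.germCusp M ((shiftFrac M)^[n] x) := by
  induction n generalizing x with
  | zero => rfl
  | succ n ih =>
    rw [Function.iterate_succ_apply', ih, ← LocInf.germCusp_shiftFrac, Function.iterate_succ_apply']

lemma niceToMer_iterate_shiftFrac (M : ℕ) (n : ℕ) (x : FractionRing (nice M)) :
    niceToMer M ((shiftFrac M)^[n] x) = act (ModularGroup.T ^ n) (niceToMer M x) := by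
  induction n generalizing x with
  | zero => rw [pow_zero, act_one]; rfl
  | succ n ih =>
    rw [Function.iterate_succ_apply', niceToMer_shiftFrac, ih, ← act_mul_apply, pow_succ']

/-- the slash of the root is a nice function of period `N * m` -/
lemma slash_mem_nice (N : ℕ) [NeZero N] (m : ℕ) (hm : 0 < m) (k : ℤ) (f : ℍ → ℂ) (hf : MDiff f)
    (hG : IsMF (Gamma0 N) ((m : ℤ) * k) (f ^ m)) (δ : SL(2, ℤ)) : f ∣[k] δ ∈ nice (N * m) := by
  refine ⟨TUnram.periodic_of_slash (k := k) (N * m) ?_, TUnram.mdiff_slash' hf k δ, ?_⟩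
  · have h1 : ((f ∣[k] δ) ∣[k] (ModularGroup.T ^ N)) ^ m = (f ∣[k] δ) ^ m := by
      rw [← EisTw.pow_slash, ← EisTw.pow_slash, ← SlashAction.slash_mul]
      have h2 := hG.inv _ (TUnram.conj_T_pow_mem N δ⁻¹)
      rw [inv_inv] at h2
      conv_rhs => rw [← h2]
      rw [← SlashAction.slash_mul]
      congr 1
      group
    obtain ⟨ζ, hζ, h3⟩ := DMult.exists_root_smul'
      (TUnram.mdiff_slash' (TUnram.mdiff_slash' hf k δ) k _) (TUnram.mdiff_slash' hf k δ) hm.ne' h1
    have h4 : ∀ j : ℕ, (f ∣[k] δ) ∣[k] ((ModularGroup.T ^ N) ^ j) = ζ ^ j • (f ∣[k] δ) := by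
      intro j
      induction j with
      | zero => simp [SlashAction.slash_one]
      | succ j ih =>
        rw [pow_succ, SlashAction.slash_mul, ih, SL_smul_slash, h3, smul_smul, pow_succ]
    rw [pow_mul, h4, hζ, one_smul]
  · apply TMerInv.isBoundedAtImInfty_of_pow hm
    rw [← EisTw.pow_slash]
    exact hG.bdd δ

lemma slash_mem_nice_of_isMF (N : ℕ) [NeZero N] (M : ℕ) (hNM : N ∣ M) (k : ℤ) (B : ℍ → ℂ)
    (hB : IsMF (Gamma0 N) k B) (δ : SL(2, ℤ)) : B ∣[k] δ ∈ nice M := by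
  refine nice_mono hNM ⟨TUnram.periodic_of_slash (k := k) N ?_, TUnram.mdiff_slash' hB.holo k δ,
    hB.bdd δ⟩
  have h2 := hB.inv _ (TUnram.conj_T_pow_mem N δ⁻¹)
  rw [inv_inv] at h2
  conv_rhs => rw [← h2]
  rw [← SlashAction.slash_mul, ← SlashAction.slash_mul]
  congr 1
  group

end MuPar

open MuPar in
/-- **MU-PAR** -/
theorem act_eq_of_parabolic (N : ℕ) [NeZero N] (m : ℕ) (hm : 0 < m) (u : FF N)
    (hu : IsPDiv m N u) (k : ℕ) (f A B : Hol) (hA : IsMF (Gamma0 N) k A.1)
    (hB : IsMF (Gamma0 N) k B.1) (hB0 : B ≠ 0) (hAB : Psi N u * toMer B = toMer A)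
    (hf : f ^ m = A * B ^ (m - 1)) (γ : SL(2, ℤ)) (hγ : γ ∈ Gamma0 N)
    (htr : (γ : Matrix (Fin 2) (Fin 2) ℤ).trace ^ 2 = 4) :
    act γ (toMer f / toMer B) = toMer f / toMer B := by
  have : NeZero (N * m) := ⟨Nat.mul_ne_zero (NeZero.ne N) hm.ne'⟩
  have hNM : N ∣ N * m := Dvd.intro _ rfl
  obtain ⟨δ, n₀, hconj⟩ := S21.PartG5.exists_conj γ htr
  set h : Mer := toMer f / toMer B with hh_def
  have hB0' : toMer B ≠ 0 := TUnram.toMer_ne_zero hB0
  -- `h ^ m = Psi u`
  have hh : h ^ m = Psi N u := by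
    have h1 : toMer f ^ m = toMer A * toMer B ^ (m - 1) := by
      have := congrArg toMer hf
      simpa only [toMer, map_mul, map_pow] using this
    have h2 : toMer B ^ m = toMer B ^ (m - 1) * toMer B := by
      rw [← pow_succ, Nat.sub_add_cancel hm]
    rw [hh_def, div_pow, h1, ← hAB, h2]
    field_simp
  -- `f ^ m` is a modular form
  have hG : IsMF (Gamma0 N) ((m : ℤ) * k) (f.1 ^ m) := by
    have h1 : f.1 ^ m = A.1 * B.1 ^ (m - 1) := congrArg Subtype.val hf
    rw [h1]
    refine (hA.mul (PartA2.IsMF.pow hB (m - 1))).congr_wt ?_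
    obtain ⟨j, rfl⟩ : ∃ j, m = j + 1 := ⟨m - 1, by omega⟩
    simp only [Nat.add_sub_cancel]
    push_cast
    ring
  -- the root at the cusp
  have hfn := slash_mem_nice N m hm k f.1 f.2 hG δ
  have hBn := slash_mem_nice_of_isMF N (N * m) hNM k B.1 hB δ
  set y : FractionRing (nice (N * m)) := toFr (N * m) ⟨_, hfn⟩ / toFr (N * m) ⟨_, hBn⟩ with hy_def
  have hy : niceToMer (N * m) y = act δ⁻¹ h := by
    rw [hh_def, TUnram.act_div k δ⁻¹ f B hB0, inv_inv, hy_def, map_div₀, niceToMer_toFr,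
      niceToMer_toFr]
    rfl
  -- reduction to the invariance under `T ^ |n₀|`
  suffices hT : act (ModularGroup.T ^ n₀.natAbs) (act δ⁻¹ h) = act δ⁻¹ h by
    rw [act_T_natAbs_iff, ← act_conj γ δ n₀ hconj] at hT
    exact (act_inv_eq_iff γ h).1 ((act δ⁻¹).injective hT)
  have hinvF : ∀ x : FF N, act (ModularGroup.T ^ n₀.natAbs) (sigma N δ⁻¹ x) = sigma N δ⁻¹ x := by
    intro x
    rw [act_T_natAbs_iff, sigma_apply, ← act_conj γ δ n₀ hconj,
      (act_inv_eq_iff γ _).2 (Rel.act_Psi γ hγ x)]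
  have key := iterate_comp_eq N m hm u hu (LocInf.rot (N * m)) (LocInf.analyticAt_rot (N * m) 0)
    (LocInf.deriv_rot_ne_zero (N * m) 0) (LocInf.rot_zero (N * m))
    ((LocInf.germCusp (N * m)).comp (sigmaUp N (N * m) hNM δ⁻¹)) (fun a _ => by
      rw [RingHom.comp_apply, sigmaUp_const, LocInf.germCusp_toFr, LocInf.niceGerm_const,
        MerGerm.ord_const]) n₀.natAbs (fun x => by
      rw [RingHom.comp_apply]
      refine (iterate_rotGerm (N * m) _ _).trans ?_
      congr 1
      apply (niceToMer (N * m)).injective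
      rw [niceToMer_iterate_shiftFrac, niceToMer_sigmaUp, hinvF]) (LocInf.germCusp (N * m) y) (by
      rw [RingHom.comp_apply, ← map_pow]
      congr 1
      apply (niceToMer (N * m)).injective
      rw [map_pow, hy, niceToMer_sigmaUp, ← map_pow, hh, sigma_apply])
  have key2 : (shiftFrac (N * m))^[n₀.natAbs] y = y :=
    (LocInf.germCusp (N * m)).injective ((iterate_rotGerm (N * m) _ _).symm.trans key)
  rw [← hy, ← niceToMer_iterate_shiftFrac, key2]

end Fermat.Agent.ES
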