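import Fermat.Agent.S24.Hol

/-!
# ES, block TORS, package D-ORD

A sequence of holomorphic functions `G n` on `ℍ` with
`(ϑ G n) ^ p = p ^ p • (G n ^ (p - 1) * G (n + 1))` (`ϑ` = Serre derivative) and `G 0 ≠ 0`:
all the orders of vanishing of `G 0` are divisible by `p`.
-/

set_option autoImplicit false

namespace Fermat.Agent.ES

open UpperHalfPlane ModularForm Derivative Filter Topology
open scoped MatrixGroups Manifold

namespace TOrd

lemma analyticAt_comp {F : ℍ → ℂ} (hF : MDiff F) (τ : ℍ) :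
    AnalyticAt ℂ (F ∘ ofComplex) (τ : ℂ) :=
  (UpperHalfPlane.mdifferentiable_iff.mp hF).analyticAt
    (isOpen_upperHalfPlaneSet.mem_nhds τ.im_pos)

lemma order_ne_top {F : ℍ → ℂ} (hF : MDiff F) (h0 : F ≠ 0) (τ : ℍ) :
    analyticOrderAt (F ∘ ofComplex) (τ : ℂ) ≠ ⊤ := by
  intro h
  rw [analyticOrderAt_eq_top] at h
  apply h0
  apply S24.eq_zero_of_eventually_eq_zero hF τ
  have h2 := (UpperHalfPlane.continuous_coe.continuousAt (x := τ)).eventually h
  filter_upwards [h2] with z hz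
  simpa using hz

lemma serre_comp_eventuallyEq (K : ℂ) (F : ℍ → ℂ) (τ : ℍ) :
    (serreDerivative K F ∘ ofComplex) =ᶠ[𝓝 (τ : ℂ)]
      ((fun _ => (2 * Real.pi * Complex.I : ℂ)⁻¹) * deriv (F ∘ ofComplex) +
        ((fun _ => -(K * 12⁻¹)) * (EisensteinSeries.E2 ∘ ofComplex)) * (F ∘ ofComplex)) := by
  filter_upwards [isOpen_upperHalfPlaneSet.mem_nhds τ.im_pos] with z hz
  simp only [Function.comp_apply, serreDerivative_apply, normalizedDerivOfComplex, Pi.add_apply,
    Pi.mul_apply]
  rw [ofComplex_apply_of_im_pos hz]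
  ring

/-- the Serre derivative lowers a positive order of vanishing by exactly one -/
lemma order_serre (K : ℂ) {F : ℍ → ℂ} (hF : MDiff F) (τ : ℍ) {m : ℕ}
    (h : analyticOrderAt (F ∘ ofComplex) (τ : ℂ) = m + 1) :
    analyticOrderAt (serreDerivative K F ∘ ofComplex) (τ : ℂ) = m := by
  have hFa := analyticAt_comp hF τ
  have hEa := analyticAt_comp E2_mdifferentiable τ
  rw [analyticOrderAt_congr (serre_comp_eventuallyEq K F τ)]
  have hc : (2 * Real.pi * Complex.I : ℂ)⁻¹ ≠ 0 := by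
    apply inv_ne_zero
    simp [Real.pi_ne_zero]
  have h1 : analyticOrderAt ((fun _ => (2 * Real.pi * Complex.I : ℂ)⁻¹) * deriv (F ∘ ofComplex))
      (τ : ℂ) = m := by
    rw [analyticOrderAt_mul analyticAt_const hFa.deriv, analyticOrderAt_deriv_of_pos hFa h,
      (analyticAt_const (𝕜 := ℂ)).analyticOrderAt_eq_zero.mpr hc, zero_add]
  have h2 : (m : ℕ∞) < analyticOrderAt
      (((fun _ => -(K * 12⁻¹)) * (EisensteinSeries.E2 ∘ ofComplex)) * (F ∘ ofComplex)) (τ : ℂ) := by
    rw [analyticOrderAt_mul (analyticAt_const.mul hEa) hFa, h]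
    calc (m : ℕ∞) < m + 1 := by exact_mod_cast Nat.lt_succ_self m
      _ ≤ _ := le_add_self
  rw [analyticOrderAt_add_eq_left_of_lt (by rw [h1]; exact h2), h1]

end TOrd

open TOrd in
/-- **D-ORD**. -/
theorem dvd_order_of_cert (p : ℕ) (hp : 0 < p) (K : ℕ → ℂ) (G : ℕ → ℍ → ℂ) (hG : ∀ n, MDiff (G n))
    (hrel : ∀ n, (serreDerivative (K n) (G n)) ^ p = ((p : ℂ) ^ p) • (G n ^ (p - 1) * G (n + 1)))
    (h0 : G 0 ≠ 0) (τ : ℍ) :
    ∃ m : ℕ, analyticOrderAt (G 0 ∘ ofComplex) (τ : ℂ) = ((p * m : ℕ) : ℕ∞) := by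
  have key : ∀ (M n : ℕ), analyticOrderAt (G n ∘ ofComplex) (τ : ℂ) = M → ∃ m, M = p * m := by
    intro M
    induction M using Nat.strong_induction_on with
    | _ M ih =>
      intro n hM
      rcases Nat.eq_zero_or_pos M with rfl | hpos
      · exact ⟨0, by simp⟩
      obtain ⟨M', rfl⟩ : ∃ M', M = M' + 1 := ⟨M - 1, by omega⟩
      have hM1 : analyticOrderAt (G n ∘ ofComplex) (τ : ℂ) = (M' : ℕ∞) + 1 := by
        rw [hM]; push_cast; rfl
      have hs := order_serre (K n) (hG n) τ hM1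
      have hSa := analyticAt_comp (serreDerivative_mdifferentiable (K n) (hG n)) τ
      have hGa := analyticAt_comp (hG n) τ
      have hGa' := analyticAt_comp (hG (n + 1)) τ
      have hfun : (serreDerivative (K n) (G n) ∘ ofComplex) ^ p =
          (fun _ => ((p : ℂ) ^ p)) * ((G n ∘ ofComplex) ^ (p - 1) * (G (n + 1) ∘ ofComplex)) := by
        funext z
        have := congrFun (hrel n) (ofComplex z)
        simpa using this
      have hord := congrArg (fun f => analyticOrderAt f (τ : ℂ)) hfun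
      have hc : ((p : ℂ) ^ p) ≠ 0 := pow_ne_zero _ (by exact_mod_cast hp.ne')
      rw [analyticOrderAt_pow hSa, analyticOrderAt_mul analyticAt_const ((hGa.pow _).mul hGa'),
        (analyticAt_const (𝕜 := ℂ)).analyticOrderAt_eq_zero.mpr hc, zero_add,
        analyticOrderAt_mul (hGa.pow _) hGa', analyticOrderAt_pow hGa, hs, hM1] at hord
      cases hx : analyticOrderAt (G (n + 1) ∘ ofComplex) (τ : ℂ) with
      | top =>
        rw [hx] at hord
        simp only [add_top] at hord
        exact absurd hord (by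
          have : (p • (M' : ℕ∞)) = ((p * M' : ℕ) : ℕ∞) := by simp
          rw [this]
          exact ENat.natCast_ne_top _)
      | coe M'' =>
        rw [hx] at hord
        have h3 : p * M' = (p - 1) * (M' + 1) + M'' := by
          have : ((p * M' : ℕ) : ℕ∞) = (((p - 1) * (M' + 1) + M'' : ℕ) : ℕ∞) := by
            rw [Nat.cast_mul, Nat.cast_add, Nat.cast_mul, Nat.cast_add, Nat.cast_one,
              ← nsmul_eq_mul, ← nsmul_eq_mul]
            exact hord
          exact_mod_cast this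
        obtain ⟨q, rfl⟩ : ∃ q, p = q + 1 := ⟨p - 1, by omega⟩
        simp only [Nat.add_sub_cancel] at h3
        have h4 : M'' + (q + 1) = M' + 1 := by nlinarith
        obtain ⟨m, hm⟩ := ih M'' (by omega) (n + 1) hx
        exact ⟨m + 1, by rw [← h4, hm]; ring⟩
  have hne := order_ne_top (hG 0) h0 τ
  obtain ⟨M, hM⟩ := ENat.ne_top_iff_exists.mp hne
  obtain ⟨m, hm⟩ := key M 0 hM.symm
  exact ⟨m, by rw [← hM, hm]⟩

end Fermat.Agent.ES
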