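import Fermat.Agent.S23.Nice

/-!
# ES, block TORS, package D-ROOT : extraction of `p`-th roots on the unit disc
-/

set_option autoImplicit false

namespace Fermat.Agent.ES

open Metric Filter Topology Complex

namespace TRoot

/-- a nowhere vanishing holomorphic function on a disc has a holomorphic `p`-th root -/
lemma exists_root_of_ne_zero (p : ℕ) (hp : 0 < p) {c : ℂ} {R : ℝ} (g : ℂ → ℂ)
    (hg : DifferentiableOn ℂ g (ball c R)) (hne : ∀ z ∈ ball c R, g z ≠ 0) :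
    ∃ s : ℂ → ℂ, DifferentiableOn ℂ s (ball c R) ∧ ∀ z ∈ ball c R, s z ^ p = g z := by
  by_cases hR : 0 < R
  swap
  · refine ⟨0, differentiableOn_const _, fun z hz => ?_⟩
    rw [ball_eq_empty.mpr (not_lt.mp hR)] at hz
    exact absurd hz (Set.notMem_empty z)
  have hc : c ∈ ball c R := mem_ball_self hR
  have hd : DifferentiableOn ℂ (fun z => deriv g z / g z) (ball c R) :=
    (hg.deriv isOpen_ball).div hg hne
  obtain ⟨L, hL⟩ := hd.isExactOn_ball
  have hgd : ∀ z ∈ ball c R, HasDerivAt g (deriv g z) z := fun z hz =>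
    (hg.differentiableAt (isOpen_ball.mem_nhds hz)).hasDerivAt
  have hu : ∀ z ∈ ball c R, HasDerivAt (fun z => g z * exp (-L z)) 0 z := by
    intro z hz
    have h1 := (hgd z hz).mul ((hL z hz).neg.cexp)
    have h2 : deriv g z * exp ((-L) z) + g z * (exp ((-L) z) * -(fun z => deriv g z / g z) z)
        = 0 := by
      have := hne z hz
      simp only
      field_simp
      ring
    rw [h2] at h1
    exact h1
  have hconst : ∀ z ∈ ball c R, g z * exp (-L z) = g c * exp (-L c) := by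
    intro z hz
    exact isOpen_ball.is_const_of_deriv_eq_zero (convex_ball c R).isPreconnected
      (fun w hw => (hu w hw).differentiableAt.differentiableWithinAt)
      (fun w hw => (hu w hw).deriv) hz hc
  set a := g c * exp (-L c) with ha
  have ha0 : a ≠ 0 := mul_ne_zero (hne c hc) (exp_ne_zero _)
  refine ⟨fun z => exp ((L z + log a) / p), ?_, ?_⟩
  · intro z hz
    have : DifferentiableAt ℂ L z := (hL z hz).differentiableAt
    exact (((this.add_const _).div_const _).cexp).differentiableWithinAt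
  · intro z hz
    have hp' : (p : ℂ) ≠ 0 := by exact_mod_cast hp.ne'
    rw [← exp_nat_mul, mul_div_cancel₀ _ hp', exp_add, exp_log ha0, ← hconst z hz, mul_comm,
      mul_assoc, ← exp_add]
    simp

/-- uniqueness of roots with a prescribed nonzero value -/
lemma root_unique (p : ℕ) (hp : 0 < p) {R : ℝ} {r₁ r₂ : ℂ → ℂ}
    (h₁ : DifferentiableOn ℂ r₁ (ball 0 R)) (h₂ : DifferentiableOn ℂ r₂ (ball 0 R))
    (h : ∀ z ∈ ball (0 : ℂ) R, r₁ z ^ p = r₂ z ^ p) {z₀ : ℂ} (hz₀ : z₀ ∈ ball (0 : ℂ) R)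
    (h0 : r₁ z₀ = r₂ z₀) (hne : r₁ z₀ ≠ 0) : ∀ z ∈ ball (0 : ℂ) R, r₁ z = r₂ z := by
  have a₁ : AnalyticOnNhd ℂ r₁ (ball 0 R) := h₁.analyticOnNhd isOpen_ball
  have a₂ : AnalyticOnNhd ℂ r₂ (ball 0 R) := h₂.analyticOnNhd isOpen_ball
  let S : ℂ → ℂ := fun z => ∑ i ∈ Finset.range p, r₁ z ^ i * r₂ z ^ (p - 1 - i)
  have hS : ContinuousAt S z₀ := by
    apply tendsto_finsetSum
    intro i _
    exact ((a₁ z₀ hz₀).continuousAt.pow i).mul ((a₂ z₀ hz₀).continuousAt.pow _)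
  have hS0 : S z₀ ≠ 0 := by
    have : S z₀ = p * r₁ z₀ ^ (p - 1) := by
      simp only [S, ← h0]
      rw [Finset.sum_congr rfl (g := fun _ => r₁ z₀ ^ (p - 1))]
      · simp
      · intro i hi
        rw [← pow_add]
        congr 1
        have := Finset.mem_range.mp hi
        omega
    rw [this]
    exact mul_ne_zero (by exact_mod_cast hp.ne') (pow_ne_zero _ hne)
  have hev : r₁ =ᶠ[𝓝 z₀] r₂ := by
    filter_upwards [hS.eventually_ne hS0, isOpen_ball.mem_nhds hz₀] with z hz hzb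
    have := geom_sum₂_mul (r₁ z) (r₂ z) p
    rw [h z hzb, sub_self] at this
    exact sub_eq_zero.mp ((mul_eq_zero.mp this).resolve_left hz)
  exact a₁.eqOn_of_preconnected_of_eventuallyEq a₂ (convex_ball 0 R).isPreconnected hz₀ hev

open MeromorphicOn Function in
/-- roots on smaller discs -/
lemma exists_root_small (p : ℕ) (hp : 0 < p) (g : ℂ → ℂ)
    (hg : DifferentiableOn ℂ g (ball 0 1))
    (hord : ∀ z ∈ ball (0 : ℂ) 1, ∃ m : ℕ, analyticOrderAt g z = ((p * m : ℕ) : ℕ∞))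
    {ρ : ℝ} (hρ : ρ < 1) :
    ∃ r : ℂ → ℂ, DifferentiableOn ℂ r (ball 0 ρ) ∧ ∀ z ∈ ball (0 : ℂ) ρ, r z ^ p = g z := by
  set U : Set ℂ := closedBall 0 ρ with hUdef
  have hU : U ⊆ ball 0 1 := closedBall_subset_ball hρ
  have hbU : ball (0 : ℂ) ρ ⊆ U := ball_subset_closedBall
  have ha : AnalyticOnNhd ℂ g (ball 0 1) := hg.analyticOnNhd isOpen_ball
  have haU : AnalyticOnNhd ℂ g U := ha.mono hU
  have hm : MeromorphicOn g U := haU.meromorphicOn
  have h2 : ∀ u : U, meromorphicOrderAt g u ≠ ⊤ := by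
    intro u
    obtain ⟨m, hm'⟩ := hord u (hU u.2)
    rw [(haU u u.2).meromorphicOrderAt_eq, hm']
    exact WithTop.coe_ne_top
  have h3 : (divisor g U).support.Finite := (divisor g U).finiteSupport (isCompact_closedBall 0 ρ)
  obtain ⟨g1, hg1a, hg1ne, heq⟩ := hm.extract_zeros_poles h2 h3
  have hD : ∀ u : ℂ, ∃ n : ℕ, divisor g U u = (n : ℤ) * p := by
    intro u
    by_cases hu : u ∈ U
    · obtain ⟨m, hm'⟩ := hord u (hU hu)
      refine ⟨m, ?_⟩
      rw [AnalyticOnNhd.divisor_apply haU hu, hm']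
      have : ((((p * m : ℕ) : ℕ∞)).map (Nat.cast : ℕ → ℤ)) = (((p * m : ℕ) : ℤ) : WithTop ℤ) := rfl
      rw [this, WithTop.untop₀_coe]
      push_cast
      ring
    · exact ⟨0, by simp [Function.locallyFinsuppWithin.apply_eq_zero_of_notMem _ hu]⟩
  choose n hn using hD
  let d : ℂ → ℤ := fun u => n u
  let φ : ℂ → ℂ := ∏ᶠ u, (· - u) ^ d u
  have hsupp : (fun u : ℂ => ((· - u) ^ d u : ℂ → ℂ)).mulSupport.Finite := by
    rw [FactorizedRational.mulSupport]
    refine h3.subset ?_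
    intro u hu
    simp only [Function.mem_support, d] at hu ⊢
    rw [hn u]
    exact mul_ne_zero hu (by exact_mod_cast hp.ne')
  have hφp : φ ^ p = ∏ᶠ u, (· - u) ^ divisor g U u := by
    simp only [φ]
    rw [finprod_pow hsupp]
    congr 1
    funext u
    rw [hn u, zpow_mul, zpow_natCast ((fun x : ℂ => x - u) ^ ((n u : ℕ) : ℤ)) p]
  have hφa : ∀ z, AnalyticAt ℂ φ z := fun z =>
    FactorizedRational.analyticAt (by simp [d])
  obtain ⟨s, hs, hsp⟩ := exists_root_of_ne_zero p hp g1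
    (fun z hz => (hg1a z (hbU hz)).differentiableAt.differentiableWithinAt)
    (fun z hz => hg1ne ⟨z, hbU hz⟩)
  refine ⟨φ * s, fun z hz => ((hφa z).differentiableAt.differentiableWithinAt).mul (hs z hz), ?_⟩
  intro z hz
  have hA : AnalyticAt ℂ (φ ^ p * g1) z := ((hφa z).pow p).mul (hg1a z (hbU hz))
  have hev : ∀ᶠ x in 𝓝[≠] z, g x = (φ ^ p * g1) x := by
    have h5 := (mem_codiscreteWithin_iff_forall_mem_nhdsNE.mp heq) z (hbU hz)
    have h6 : ball (0 : ℂ) ρ ∈ 𝓝[≠] z := mem_nhdsWithin_of_mem_nhds (isOpen_ball.mem_nhds hz)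
    filter_upwards [h5, h6] with x hx hxb
    rcases hx with hx | hx
    · rw [hφp]
      exact hx
    · exact absurd (hbU hxb) hx
  have h7 := ((ha z (hU (hbU hz))).frequently_eq_iff_eventually_eq hA).mp hev.frequently
  have h8 := h7.self_of_nhds
  rw [h8]
  simp only [Pi.mul_apply, Pi.pow_apply, mul_pow, hsp z hz]

end TRoot

open TRoot in
/-- **D-ROOT**, on the unit disc. -/
theorem exists_root_ball (p : ℕ) (hp : 0 < p) (g : ℂ → ℂ)
    (hg : DifferentiableOn ℂ g (Metric.ball 0 1)) (hne : ∃ z ∈ Metric.ball (0 : ℂ) 1, g z ≠ 0)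
    (hord : ∀ z ∈ Metric.ball (0 : ℂ) 1, ∃ m : ℕ, analyticOrderAt g z = ((p * m : ℕ) : ℕ∞)) :
    ∃ r : ℂ → ℂ, DifferentiableOn ℂ r (Metric.ball 0 1) ∧
      ∀ z ∈ Metric.ball (0 : ℂ) 1, r z ^ p = g z := by
  obtain ⟨z₀, hz₀, hgz₀⟩ := hne
  have hz₀' : ‖z₀‖ < 1 := by simpa using hz₀
  obtain ⟨c₀, hc₀⟩ := IsAlgClosed.exists_pow_nat_eq (g z₀) hp
  have hc₀ne : c₀ ≠ 0 := by
    rintro rfl
    rw [zero_pow hp.ne'] at hc₀
    exact hgz₀ hc₀.symm
  have H : ∀ ρ : ℝ, ‖z₀‖ < ρ → ρ < 1 → ∃ r : ℂ → ℂ, DifferentiableOn ℂ r (ball 0 ρ) ∧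
      (∀ z ∈ ball (0 : ℂ) ρ, r z ^ p = g z) ∧ r z₀ = c₀ := by
    intro ρ h1 h2
    obtain ⟨r, hr, hrp⟩ := exists_root_small p hp g hg hord h2
    have hzb : z₀ ∈ ball (0 : ℂ) ρ := by simpa using h1
    have hr0 : r z₀ ≠ 0 := by
      intro h
      have := hrp z₀ hzb
      rw [h, zero_pow hp.ne'] at this
      exact hgz₀ this.symm
    refine ⟨fun z => (c₀ / r z₀) * r z, hr.const_mul _, fun z hz => ?_, ?_⟩
    · rw [mul_pow, div_pow, hc₀, hrp z₀ hzb, div_self hgz₀, one_mul, hrp z hz]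
    · field_simp
  choose! R hR1 hR2 hR3 using H
  have hcons : ∀ ρ₁ ρ₂ : ℝ, ‖z₀‖ < ρ₁ → ρ₁ < 1 → ‖z₀‖ < ρ₂ → ρ₂ < 1 → ρ₁ ≤ ρ₂ →
      ∀ z ∈ ball (0 : ℂ) ρ₁, R ρ₁ z = R ρ₂ z := by
    intro ρ₁ ρ₂ a1 b1 a2 b2 hle
    have hsub : ball (0 : ℂ) ρ₁ ⊆ ball 0 ρ₂ := ball_subset_ball hle
    refine root_unique p hp (hR1 ρ₁ a1 b1) ((hR1 ρ₂ a2 b2).mono hsub) ?_
      (z₀ := z₀) (by simpa using a1) ?_ ?_
    · intro z hz
      rw [hR2 ρ₁ a1 b1 z hz, hR2 ρ₂ a2 b2 z (hsub hz)]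
    · rw [hR3 ρ₁ a1 b1, hR3 ρ₂ a2 b2]
    · rw [hR3 ρ₁ a1 b1]
      exact hc₀ne
  let rad : ℂ → ℝ := fun z => (max ‖z‖ ‖z₀‖ + 1) / 2
  have hrad1 : ∀ z ∈ ball (0 : ℂ) 1, ‖z₀‖ < rad z := by
    intro z _
    have := le_max_right ‖z‖ ‖z₀‖
    simp only [rad]
    linarith
  have hrad2 : ∀ z ∈ ball (0 : ℂ) 1, rad z < 1 := by
    intro z hz
    have hz' : ‖z‖ < 1 := by simpa using hz
    have := max_lt hz' hz₀'
    simp only [rad]
    linarith
  have hrad3 : ∀ z ∈ ball (0 : ℂ) 1, z ∈ ball (0 : ℂ) (rad z) := by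
    intro z hz
    have hz' : ‖z‖ < 1 := by simpa using hz
    have h1 := le_max_left ‖z‖ ‖z₀‖
    have h2 := max_lt hz' hz₀'
    simp only [rad, mem_ball_zero_iff]
    linarith
  have hagree : ∀ ρ : ℝ, ‖z₀‖ < ρ → ρ < 1 → ∀ z ∈ ball (0 : ℂ) ρ, R (rad z) z = R ρ z := by
    intro ρ a b z hz
    have hz1 : z ∈ ball (0 : ℂ) 1 := ball_subset_ball b.le hz
    rcases le_total (rad z) ρ with h | h
    · exact hcons _ _ (hrad1 z hz1) (hrad2 z hz1) a b h z (hrad3 z hz1)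
    · exact (hcons _ _ a b (hrad1 z hz1) (hrad2 z hz1) h z hz).symm
  refine ⟨fun z => R (rad z) z, fun z hz => ?_, fun z hz => ?_⟩
  · have h1 : DifferentiableOn ℂ (fun z => R (rad z) z) (ball 0 (rad z)) :=
      (hR1 _ (hrad1 z hz) (hrad2 z hz)).congr (hagree _ (hrad1 z hz) (hrad2 z hz))
    exact (h1.differentiableAt (isOpen_ball.mem_nhds (hrad3 z hz))).differentiableWithinAt
  · exact hR2 _ (hrad1 z hz) (hrad2 z hz) z (hrad3 z hz)

namespace TRoot

open UpperHalfPlane hiding I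
open ModularForm Function
open scoped Manifold

local notation "𝕢" => Periodic.qParam

/-- the order of the cusp function at `0` is the order of the `q`-expansion -/
lemma order_cuspFunction_zero {G : ℍ → ℂ} (hG : G ∈ S23.niceAlg) :
    analyticOrderAt (cuspFunction 1 G) 0 = (qExpansion 1 G).order := by
  have ha := S23.analyticAt_of_mem_niceAlg hG
  apply ENat.eq_of_forall_natCast_le_iff
  intro n
  rw [natCast_le_analyticOrderAt_iff_iteratedDeriv_eq_zero ha]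
  constructor
  · intro h
    apply PowerSeries.nat_le_order
    intro i hi
    rw [qExpansion_coeff, h i hi, mul_zero]
  · intro h i hi
    have h1 : (qExpansion 1 G).coeff i = 0 :=
      PowerSeries.coeff_of_lt_order i (lt_of_lt_of_le (by exact_mod_cast hi) h)
    rw [qExpansion_coeff] at h1
    exact (mul_eq_zero.mp h1).resolve_left (inv_ne_zero (by exact_mod_cast i.factorial_ne_zero))

lemma comp_ofComplex_eq {G : ℍ → ℂ} (hG : G ∈ S23.niceAlg) :
    G ∘ ofComplex = cuspFunction 1 G ∘ 𝕢 1 := by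
  funext w
  exact (Periodic.eq_cuspFunction one_ne_zero hG.1 w).symm

lemma deriv_qParam_ne_zero (w : ℂ) : deriv (𝕢 1) w ≠ 0 := by
  have h : HasDerivAt (𝕢 1) (𝕢 1 w * (2 * Real.pi * I / (1 : ℝ))) w := by
    simpa only [id_eq, mul_one] using! (((hasDerivAt_id w).const_mul _).div_const _).cexp
  rw [h.deriv]
  exact mul_ne_zero (Periodic.qParam_ne_zero w) (by simp [Real.pi_ne_zero])

/-- orders at the points `q ≠ 0` of the disc -/
lemma order_cuspFunction {G : ℍ → ℂ} (hG : G ∈ S23.niceAlg) (τ : ℍ) :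
    analyticOrderAt (cuspFunction 1 G) (𝕢 1 τ) = analyticOrderAt (G ∘ ofComplex) (τ : ℂ) := by
  rw [comp_ofComplex_eq hG, analyticOrderAt_comp_of_deriv_ne_zero
    (Periodic.differentiable_qParam.analyticAt _) (deriv_qParam_ne_zero _)]

/-- `x ^ p = y ^ p` in `ℂ⟦X⟧` -/
lemma exists_root_of_unity (p : ℕ) (hp : 0 < p) (x y : PowerSeries ℂ) (h : x ^ p = y ^ p) :
    ∃ ζ : ℂ, ζ ^ p = 1 ∧ x = PowerSeries.C ζ * y := by
  have : NeZero p := ⟨hp.ne'⟩
  have hζ : IsPrimitiveRoot (PowerSeries.C (Complex.exp (2 * Real.pi * I / p)) : PowerSeries ℂ) p :=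
    (Complex.isPrimitiveRoot_exp p hp.ne').map_of_injective PowerSeries.C_injective
  have h1 := hζ.pow_sub_pow_eq_prod_sub_mul x y hp
  rw [h, sub_self] at h1
  obtain ⟨μ, hμ, hμ0⟩ := Finset.prod_eq_zero_iff.mp h1.symm
  rw [Polynomial.mem_nthRootsFinset hp] at hμ
  obtain ⟨i, -, hi⟩ := hζ.eq_pow_of_pow_eq_one hμ
  refine ⟨Complex.exp (2 * Real.pi * I / p) ^ i, ?_, ?_⟩
  · rw [pow_right_comm, (Complex.isPrimitiveRoot_exp p hp.ne').pow_eq_one, one_pow]
  · rw [map_pow, hi]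
    exact sub_eq_zero.mp hμ0

end TRoot

section

open UpperHalfPlane hiding I
open ModularForm Function TRoot
open scoped Manifold

local notation "𝕢" => Periodic.qParam

lemma TRoot.qParam_add_one (w : ℂ) : 𝕢 1 (w + 1) = 𝕢 1 w := by
  simp only [Periodic.qParam, ofReal_one, div_one]
  rw [mul_add, mul_one, Complex.exp_add, Complex.exp_two_pi_mul_I, mul_one]

/-- a function of `q` on the unit disc gives a nice function -/
lemma TRoot.mem_niceAlg_of_ball {r : ℂ → ℂ} (hr : DifferentiableOn ℂ r (ball 0 1)) :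
    (fun τ : ℍ => r (𝕢 1 τ)) ∈ S23.niceAlg := by
  refine ⟨?_, ?_, ?_⟩
  · intro w
    by_cases hw : 0 < im w
    · have hw1 : 0 < im (w + 1) := by simpa using hw
      simp only [comp_apply, ofComplex_apply_of_im_pos hw1, ofComplex_apply_of_im_pos hw]
      exact congrArg r (qParam_add_one w)
    · have hw' : im w ≤ 0 := not_lt.mp hw
      have hw1 : im (w + 1) ≤ 0 := by simpa using hw'
      simp [ofComplex_apply_of_im_nonpos hw1, ofComplex_apply_of_im_nonpos hw']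
  · rw [UpperHalfPlane.mdifferentiable_iff]
    have h1 : DifferentiableOn ℂ (r ∘ 𝕢 1) {z | 0 < z.im} := by
      refine hr.comp Periodic.differentiable_qParam.differentiableOn ?_
      intro z hz
      simpa using Periodic.norm_qParam_lt_one one_pos hz
    refine h1.congr ?_
    intro z hz
    simp only [comp_apply, ofComplex_apply_of_im_pos hz]
  · have hc : ContinuousAt r 0 :=
      (hr.differentiableAt (isOpen_ball.mem_nhds (mem_ball_self one_pos))).continuousAt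
    have ht : Tendsto (fun τ : ℍ => r (𝕢 1 τ)) atImInfty (𝓝 (r 0)) :=
      hc.tendsto.comp (qParam_tendsto_atImInfty one_pos)
    exact ht.isBigO_one ℝ

/-- **D-ROOT**, for nice functions. -/
theorem exists_root_nice (p : ℕ) (hp : 0 < p) (G : ℍ → ℂ) (hG : G ∈ S23.niceAlg) (h0 : G ≠ 0)
    (hord : ∀ τ : ℍ, ∃ m : ℕ, analyticOrderAt (G ∘ ofComplex) (τ : ℂ) = ((p * m : ℕ) : ℕ∞))
    (F : PowerSeries ℂ) (hF : F ^ p = qExpansion 1 G) :
    ∃ f ∈ S23.niceAlg, f ^ p = G ∧ qExpansion 1 f = F := by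
  have hgd := differentiableOn_cuspFunction_ball one_pos hG.1 hG.2.1 hG.2.2
  have hval : ∀ τ : ℍ, cuspFunction 1 G (𝕢 1 τ) = G τ := fun τ =>
    eq_cuspFunction τ one_ne_zero hG.1
  have hmem : ∀ τ : ℍ, 𝕢 1 τ ∈ ball (0 : ℂ) 1 := fun τ => by
    simpa using Periodic.norm_qParam_lt_one one_pos τ.im_pos
  have hne : ∃ z ∈ ball (0 : ℂ) 1, cuspFunction 1 G z ≠ 0 := by
    obtain ⟨τ, hτ⟩ := Function.ne_iff.mp h0
    exact ⟨𝕢 1 τ, hmem τ, by rw [hval]; exact hτ⟩
  have hF0 : F ≠ 0 := by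
    rintro rfl
    rw [zero_pow hp.ne'] at hF
    exact h0 ((qExpansion_eq_zero_iff one_pos hG.1 hG.2.1 hG.2.2).mp hF.symm)
  have hordg : ∀ z ∈ ball (0 : ℂ) 1, ∃ m : ℕ,
      analyticOrderAt (cuspFunction 1 G) z = ((p * m : ℕ) : ℕ∞) := by
    intro z hz
    by_cases hz0 : z = 0
    · subst hz0
      refine ⟨F.order.toNat, ?_⟩
      rw [order_cuspFunction_zero hG, ← hF, PowerSeries.order_pow, ← PowerSeries.coe_toNat_order hF0]
      simp
    · have hz' : ‖z‖ < 1 := by simpa using hz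
      let τ : ℍ := ⟨Periodic.invQParam 1 z, Periodic.im_invQParam_pos_of_norm_lt_one one_pos hz' hz0⟩
      have hτ : 𝕢 1 τ = z := Periodic.qParam_right_inv one_ne_zero hz0
      obtain ⟨m, hm⟩ := hord τ
      exact ⟨m, by rw [← hτ, order_cuspFunction hG τ, hm]⟩
  obtain ⟨r, hr, hrp⟩ := exists_root_ball p hp _ hgd hne hordg
  set f₀ : ℍ → ℂ := fun τ => r (𝕢 1 τ) with hf₀
  have hf₀n : f₀ ∈ S23.niceAlg := mem_niceAlg_of_ball hr
  have hf₀p : f₀ ^ p = G := by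
    funext τ
    simp only [Pi.pow_apply, hf₀]
    rw [hrp _ (hmem τ), hval]
  have hq : (qExpansion 1 f₀) ^ p = F ^ p := by
    have h1 : (⟨f₀, hf₀n⟩ : S23.niceAlg) ^ p = ⟨G, hG⟩ := Subtype.ext hf₀p
    have h2 := congrArg S23.qHom h1
    rw [map_pow, S23.qHom_apply, S23.qHom_apply] at h2
    rw [h2, hF]
  obtain ⟨ζ, hζ, hζq⟩ := exists_root_of_unity p hp _ _ hq
  have hζ0 : ζ ≠ 0 := by
    rintro rfl
    rw [zero_pow hp.ne'] at hζ
    exact zero_ne_one hζ
  refine ⟨ζ⁻¹ • f₀, Subalgebra.smul_mem _ hf₀n _, ?_, ?_⟩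
  · rw [smul_pow, hf₀p, inv_pow, hζ, inv_one, one_smul]
  · rw [qExpansion_smul (S23.analyticAt_of_mem_niceAlg hf₀n), hζq, PowerSeries.smul_eq_C_mul,
      ← mul_assoc, ← map_mul, inv_mul_cancel₀ hζ0, map_one, one_mul]

end

end Fermat.Agent.ES
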