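import Fermat.Agent.ES.TorsDefs
import Fermat.Agent.ES.TRoot
import Fermat.Agent.ES.TOrd
import Fermat.Agent.ES.TRatio
import Fermat.Agent.S24.Degree
import Fermat.Agent.S24.LocInf
import Fermat.Agent.S24.Loc2

/-!
# ES, block MULT, package MU-ROOT : a function whose divisor is divisible by `m` has a
holomorphic "`m`-th root" on the upper half plane
-/

set_option autoImplicit false

namespace Fermat.Agent.ES

open UpperHalfPlane ModularForm CongruenceSubgroup ModularCurve AlgebraicCurve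
open Fermat.Agent.S24 Fermat.Agent.S16 Fermat.Agent.S21
open scoped MatrixGroups Manifold

namespace MuRoot

/-- every order function takes a value divisible by `m` on a function with divisor divisible
by `m` -/
lemma dvd_of_isOrd (N m : ℕ) (u : FF N) (hu : IsPDiv m N u) (ω : FF N → ℤ)
    (hω : Count.IsOrd Kb ω) : (m : ℤ) ∣ ω u := by
  by_cases hnt : ∃ f : FF N, f ≠ 0 ∧ ω f ≠ 0
  · obtain ⟨v, c, -, h⟩ := hω.exists_place hnt
    rw [h u hu.1]
    exact Dvd.dvd.mul_left (hu.2 v) c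
  · push Not at hnt
    rw [hnt u hu.1]
    exact dvd_zero _

section

open Function Metric TRoot

local notation "𝕢" => Periodic.qParam

/-- variant of `exists_root_nice` : the condition at the cusp is a divisibility of orders -/
theorem exists_root_nice' (p : ℕ) (hp : 0 < p) (G : ℍ → ℂ) (hG : G ∈ S23.niceAlg) (h0 : G ≠ 0)
    (hord : ∀ τ : ℍ, ∃ m : ℕ, analyticOrderAt (G ∘ ofComplex) (τ : ℂ) = ((p * m : ℕ) : ℕ∞))
    (hcusp : ∃ m : ℕ, analyticOrderAt (cuspFunction 1 G) 0 = ((p * m : ℕ) : ℕ∞)) :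
    ∃ f ∈ S23.niceAlg, f ^ p = G := by
  have hgd := differentiableOn_cuspFunction_ball one_pos hG.1 hG.2.1 hG.2.2
  have hval : ∀ τ : ℍ, cuspFunction 1 G (𝕢 1 τ) = G τ := fun τ =>
    eq_cuspFunction τ one_ne_zero hG.1
  have hmem : ∀ τ : ℍ, 𝕢 1 τ ∈ ball (0 : ℂ) 1 := fun τ => by
    simpa using Periodic.norm_qParam_lt_one one_pos τ.im_pos
  have hne : ∃ z ∈ ball (0 : ℂ) 1, cuspFunction 1 G z ≠ 0 := by
    obtain ⟨τ, hτ⟩ := Function.ne_iff.mp h0
    exact ⟨𝕢 1 τ, hmem τ, by rw [hval]; exact hτ⟩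
  have hordg : ∀ z ∈ ball (0 : ℂ) 1, ∃ m : ℕ,
      analyticOrderAt (cuspFunction 1 G) z = ((p * m : ℕ) : ℕ∞) := by
    intro z hz
    by_cases hz0 : z = 0
    · subst hz0
      exact hcusp
    · have hz' : ‖z‖ < 1 := by simpa using hz
      let τ : ℍ := ⟨Periodic.invQParam 1 z, Periodic.im_invQParam_pos_of_norm_lt_one one_pos hz' hz0⟩
      have hτ : 𝕢 1 τ = z := Periodic.qParam_right_inv one_ne_zero hz0
      obtain ⟨m, hm⟩ := hord τ
      exact ⟨m, by rw [← hτ, order_cuspFunction hG τ, hm]⟩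
  obtain ⟨r, hr, hrp⟩ := exists_root_ball p hp _ hgd hne hordg
  refine ⟨fun τ => r (𝕢 1 τ), mem_niceAlg_of_ball hr, ?_⟩
  funext τ
  rw [Pi.pow_apply, hrp _ (hmem τ), hval]

end

/-- arithmetic: `a + b = c`, `m ∣ a`  ⟹  `m ∣ c + (m - 1) b` -/
lemma dvd_aux {m : ℕ} (hm : 0 < m) {a b c : ℤ} (h : a + b = c) (ha : (m : ℤ) ∣ a) :
    (m : ℤ) ∣ c + ((m - 1 : ℕ) : ℤ) * b := by
  have e : c + ((m - 1 : ℕ) : ℤ) * b = a + (m : ℤ) * b := by
    rw [← h, Nat.cast_sub hm]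
    push_cast
    ring
  rw [e]
  exact dvd_add ha (dvd_mul_right _ _)

lemma exists_mul_of_dvd {m n : ℕ} (h : (m : ℤ) ∣ (n : ℤ)) : ∃ j : ℕ, n = m * j := by
  obtain ⟨j, hj⟩ := Int.natCast_dvd_natCast.mp h
  exact ⟨j, hj⟩

end MuRoot

open MuRoot in
/-- **MU-ROOT**. -/
theorem exists_root (N : ℕ) [NeZero N] (m : ℕ) (hm : 0 < m) (u : FF N) (hu : IsPDiv m N u) :
    ∃ (k : ℕ) (f A B : Hol), IsMF (Gamma0 N) k A.1 ∧ IsMF (Gamma0 N) k B.1 ∧ B ≠ 0 ∧
      Psi N u * toMer B = toMer A ∧ f ^ m = A * B ^ (m - 1) := by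
  obtain ⟨k, A, B, hA, hB, hB0, hAB⟩ := Degree.isRatio_Psi N
    (fun d _ hd => isMF_comp_Dm N d hd isMF_E4)
    (fun d _ hd => isMF_comp_Dm N d hd isCF_Delta.isMF) u
  have hPu : Psi N u ≠ 0 := (map_ne_zero (Psi N)).2 hu.1
  have hA0 : A ≠ 0 := by
    rintro rfl
    rw [Degree.toMer_zero] at hAB
    exact (mul_ne_zero hPu (Degree.toMer_ne_zero hB0)) hAB
  set G : Hol := A * B ^ (m - 1) with hGdef
  have hG0 : G ≠ 0 := mul_ne_zero hA0 (pow_ne_zero _ hB0)
  have hG0' : (G : ℍ → ℂ) ≠ 0 := fun h => hG0 (Subtype.ext h)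
  -- `nice 1`
  let A' : nice 1 := ⟨A.1, TRatio.mem_nice_one_of_isMF N hA⟩
  let B' : nice 1 := ⟨B.1, TRatio.mem_nice_one_of_isMF N hB⟩
  let G' : nice 1 := A' * B' ^ (m - 1)
  have hG'coe : (G' : ℍ → ℂ) = (G : ℍ → ℂ) := rfl
  have hGn : (G : ℍ → ℂ) ∈ S23.niceAlg := by
    have := G'.2
    rw [hG'coe] at this
    simpa [S23.niceAlg, nice] using this
  -- orders in the interior
  have hord : ∀ τ : ℍ, ∃ j : ℕ,
      analyticOrderAt ((G : ℍ → ℂ) ∘ ofComplex) (τ : ℂ) = ((m * j : ℕ) : ℕ∞) := by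
    intro τ
    have hω : Count.IsOrd Kb (fun f : FF N => (((S24.Loc.germAt τ).comp (Psi N)) f).ord) := by
      refine Count.isOrd_comp (fun _ _ ha hb => MerGerm.ord_mul ha hb)
        (fun _ _ ha hb hab => MerGerm.ord_add ha hb hab) _ ?_
      intro c _
      rw [RingHom.comp_apply, Psi_const, S24.Loc.germAt_toMer]
      exact MerGerm.ord_const
    have h1 := dvd_of_isOrd N m u hu _ hω
    have h2 := congrArg (S24.Loc.germAt τ) hAB
    rw [map_mul, S24.Loc.germAt_toMer, S24.Loc.germAt_toMer] at h2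
    have hgB : S24.Loc.holGerm τ B ≠ 0 := (map_ne_zero_iff _ (S24.Loc.holGerm_injective τ)).2 hB0
    have hgA : S24.Loc.holGerm τ A ≠ 0 := (map_ne_zero_iff _ (S24.Loc.holGerm_injective τ)).2 hA0
    have h3 : (S24.Loc.germAt τ (Psi N u)).ord + (S24.Loc.holGerm τ B).ord = (S24.Loc.holGerm τ A).ord := by
      rw [← h2, MerGerm.ord_mul ((map_ne_zero _).2 hPu) hgB]
    have hpow : ∀ n : ℕ, (S24.Loc.holGerm τ B ^ n).ord = n * (S24.Loc.holGerm τ B).ord := by
      intro n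
      induction n with
      | zero => simp
      | succ n ih =>
        rw [pow_succ, MerGerm.ord_mul (pow_ne_zero n hgB) hgB, ih]
        push_cast
        ring
    have h4 : (S24.Loc.holGerm τ G).ord
        = (S24.Loc.holGerm τ A).ord + ((m - 1 : ℕ) : ℤ) * (S24.Loc.holGerm τ B).ord := by
      rw [hGdef, map_mul, map_pow, MerGerm.ord_mul hgA (pow_ne_zero _ hgB), hpow]
    obtain ⟨n, hn⟩ := ENat.ne_top_iff_exists.mp (TOrd.order_ne_top (mem_Hol.mp G.2) hG0' τ)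
    have h5 := S24.Loc.ord_holGerm τ G hn.symm
    have h6 : (m : ℤ) ∣ (n : ℤ) := by
      rw [← h5, h4]
      exact dvd_aux hm h3 h1
    obtain ⟨j, rfl⟩ := exists_mul_of_dvd h6
    exact ⟨j, hn.symm⟩
  -- order at the cusp
  have hcusp : ∃ j : ℕ, analyticOrderAt (cuspFunction 1 (G : ℍ → ℂ)) 0 = ((m * j : ℕ) : ℕ∞) := by
    have hω : Count.IsOrd Kb (fun f : FF N => (((LocInf.germCusp 1).comp (Psi1 N)) f).ord) := by
      refine Count.isOrd_comp (fun _ _ ha hb => MerGerm.ord_mul ha hb)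
        (fun _ _ ha hb hab => MerGerm.ord_add ha hb hab) _ ?_
      intro c _
      rw [RingHom.comp_apply, Psi1_const, LocInf.germCusp_toFr, LocInf.niceGerm_const]
      exact MerGerm.ord_const
    have h1 := dvd_of_isOrd N m u hu _ hω
    have hA'M : niceToMer 1 (toFr 1 A') = toMer A := by
      rw [toFr, niceToMer_algebraMap]; rfl
    have hB'M : niceToMer 1 (toFr 1 B') = toMer B := by
      rw [toFr, niceToMer_algebraMap]; rfl
    have hAB' : Psi1 N u * toFr 1 B' = toFr 1 A' := by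
      apply (niceToMer 1).injective
      rw [map_mul, hA'M, hB'M, ← Psi_apply, hAB]
    have hA'0 : A' ≠ 0 := fun h => hA0 (Subtype.ext (congrArg (fun z : nice 1 => z.1) h))
    have hB'0 : B' ≠ 0 := fun h => hB0 (Subtype.ext (congrArg (fun z : nice 1 => z.1) h))
    have hG'0 : G' ≠ 0 := mul_ne_zero hA'0 (pow_ne_zero _ hB'0)
    have h2 := congrArg (LocInf.germCusp 1) hAB'
    rw [map_mul, LocInf.germCusp_toFr, LocInf.germCusp_toFr] at h2
    have hgB : LocInf.niceGerm 1 B' ≠ 0 := (map_ne_zero_iff _ (LocInf.niceGerm_injective 1)).2 hB'0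
    have hgA : LocInf.niceGerm 1 A' ≠ 0 := (map_ne_zero_iff _ (LocInf.niceGerm_injective 1)).2 hA'0
    have hgG : LocInf.niceGerm 1 G' ≠ 0 := (map_ne_zero_iff _ (LocInf.niceGerm_injective 1)).2 hG'0
    have hP1 : Psi1 N u ≠ 0 := (map_ne_zero (Psi1 N)).2 hu.1
    have h3 : (LocInf.germCusp 1 (Psi1 N u)).ord + (LocInf.niceGerm 1 B').ord
        = (LocInf.niceGerm 1 A').ord := by
      rw [← h2, MerGerm.ord_mul ((map_ne_zero _).2 hP1) hgB]
    have hpow : ∀ n : ℕ, (LocInf.niceGerm 1 B' ^ n).ord = n * (LocInf.niceGerm 1 B').ord := by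
      intro n
      induction n with
      | zero => simp
      | succ n ih =>
        rw [pow_succ, MerGerm.ord_mul (pow_ne_zero n hgB) hgB, ih]
        push_cast
        ring
    have h4 : (LocInf.niceGerm 1 G').ord
        = (LocInf.niceGerm 1 A').ord + ((m - 1 : ℕ) : ℤ) * (LocInf.niceGerm 1 B').ord := by
      rw [map_mul, map_pow, MerGerm.ord_mul hgA (pow_ne_zero _ hgB), hpow]
    have hne : analyticOrderAt (cuspFunction ((1 : ℕ) : ℝ) (G' : ℍ → ℂ)) 0 ≠ ⊤ := by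
      intro h
      rw [analyticOrderAt_eq_top] at h
      apply hgG
      rw [LocInf.niceGerm_apply, MerGerm.zero_eq_mk, MerGerm.mk_eq_mk_iff]
      exact h.filter_mono nhdsWithin_le_nhds
    obtain ⟨n, hn⟩ := ENat.ne_top_iff_exists.mp hne
    have h5 := LocInf.ord_niceGerm 1 G' hn.symm
    have h6 : (m : ℤ) ∣ (n : ℤ) := by
      rw [← h5, h4]
      exact dvd_aux hm h3 h1
    obtain ⟨j, rfl⟩ := exists_mul_of_dvd h6
    refine ⟨j, ?_⟩
    rw [hn, hG'coe, Nat.cast_one]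
  obtain ⟨f, hfn, hf⟩ := exists_root_nice' m hm _ hGn hG0' hord hcusp
  exact ⟨k, ⟨f, hfn.2.1⟩, A, B, hA, hB, hB0, hAB, Subtype.ext hf⟩

end Fermat.Agent.ES
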