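import Fermat.Agent.ES.MuRoot
import Fermat.Agent.ES.MuChar
import Fermat.Agent.ES.MuEll
import Fermat.Agent.ES.MuPar
import Fermat.Agent.ES.MuLift

/-!
# ES / MULT : `KV m N = iota (L / m L)`
-/

set_option autoImplicit false

namespace Fermat.Agent.ES

open UpperHalfPlane ModularForm CongruenceSubgroup ModularCurve AlgebraicCurve
open Fermat.Agent.S24 Fermat.Agent.S16 Fermat.Agent.S21
open scoped MatrixGroups Manifold

/-- **MULT**: every function whose divisor is divisible by `m` has an `m`-th root in `Mer` whose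
multiplier is the character attached to an element of the period lattice. -/
theorem exists_Lam_TRel (N : ℕ) [NeZero N] (m : ℕ) (hm : 0 < m) (u : FF N) (hu : IsPDiv m N u) :
    ∃ f ∈ Lam N, TRel m N (chiPer m N f) u := by
  obtain ⟨k, f, A, B, hA, hB, hB0, hAB, hf⟩ := exists_root N m hm u hu
  have hB0' : toMer B ≠ 0 := fun h => hB0 (toMer_injective (by rw [h]; exact (map_zero _).symm))
  have hh : (toMer f / toMer B) ^ m = Psi N u := by
    have h1 : toMer f ^ m = toMer A * toMer B ^ (m - 1) := by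
      have := congrArg toMer hf
      simpa only [toMer, map_mul, map_pow] using this
    have h2 : toMer B ^ m = toMer B ^ (m - 1) * toMer B := by
      rw [← pow_succ, Nat.sub_add_cancel hm]
    rw [div_pow, h1, ← hAB, h2]
    field_simp
  obtain ⟨χ, hχ, hmult⟩ := exists_char N m hm u hu.1 _ hh
  have hone : ∀ γ : Gamma0 N, act ((γ : SL(2, ℤ))⁻¹) (toMer f / toMer B) = toMer f / toMer B →
      χ γ = 1 := by
    intro γ h1
    have h2 := hmult γ
    rw [h1] at h2
    have h0 : toMer f / toMer B ≠ 0 := by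
      intro h0
      rw [h0, zero_pow hm.ne'] at hh
      exact hu.1 ((map_eq_zero (Psi N)).1 hh.symm)
    have h3 : cMer ((χ γ : ℂˣ) : ℂ) = 1 := by
      have : (1 : Mer) * (toMer f / toMer B) = cMer ((χ γ : ℂˣ) : ℂ) * (toMer f / toMer B) := by
        rw [one_mul]; exact h2
      exact (mul_right_cancel₀ h0 this).symm
    have h4 : ((χ γ : ℂˣ) : ℂ) = 1 := by
      have h5 : cMer ((χ γ : ℂˣ) : ℂ) = cMer 1 := by
        rw [h3]; exact (map_one _).symm
      have := toMer_injective h5
      exact (algebraMap ℂ Hol).injective this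
    exact Units.ext h4
  have hPE : IsPEc N χ := by
    refine ⟨fun γ htr => hone γ ?_, fun γ h12 => hone γ ?_⟩
    · refine act_eq_of_parabolic N m hm u hu k f A B hA hB hB0 hAB hf _ (inv_mem γ.2) ?_
      have : (((γ : SL(2, ℤ))⁻¹ : SL(2, ℤ)) : Matrix (Fin 2) (Fin 2) ℤ).trace
          = ((γ : SL(2, ℤ)) : Matrix (Fin 2) (Fin 2) ℤ).trace := by
        rw [Matrix.SpecialLinearGroup.coe_inv, Matrix.adjugate_fin_two, Matrix.trace_fin_two,
          Matrix.trace_fin_two]
        simp [add_comm]
      rw [this]; exact htr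
    · refine act_eq_of_pow_twelve N m hm u hu _ hh _ (inv_mem γ.2) ?_
      rw [inv_pow]
      have : ((γ : SL(2, ℤ))) ^ 12 = 1 := by exact_mod_cast congrArg Subtype.val h12
      rw [this, inv_one]
  obtain ⟨g, hg, hgχ⟩ := exists_Lam_chiPer_eq N m hm χ hχ hPE
  exact ⟨g, hg, toMer f / toMer B, hh, hgχ ▸ hmult⟩

end Fermat.Agent.ES
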