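import Fermat.Agent.ES.Gauss
import Fermat.Agent.ES.InstGY
import Fermat.Agent.ES.ResField
import Fermat.Agent.S24.Degree
import Fermat.Agent.S28.DegL

/-!
# ES, block INJ (route `abstract_inj`), package A-ON

The orthonormal basis of `FF N` over `ℚ̄(j)` : monomials in the S28 generators `j(q^d)`, `H_d` whose
reductions are linearly independent over `κ(j)`.
-/

set_option autoImplicit false

noncomputable section

namespace Fermat.Agent.ES

open ModularCurve AlgebraicCurve Fermat.Agent.S24 IntermediateField Module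

namespace OrthoN

open Gauss

/-- linear independence over `k[x]` implies linear independence over `k(x)`. -/
theorem linearIndependent_adjoin_simple {k L : Type*} [Field k] [Field L] [Algebra k L] (x : L)
    {n : ℕ} (y : Fin n → L)
    (h : ∀ c : Fin n → Polynomial k, ∑ r, Polynomial.aeval x (c r) * y r = 0 → c = 0) :
    LinearIndependent k⟮x⟯ y := by
  classical
  rw [Fintype.linearIndependent_iff]
  intro g hg
  -- numerators and denominators
  have hfrac : ∀ i, ∃ r s : Polynomial k, Polynomial.aeval x s ≠ 0 ∧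
      (g i : L) * Polynomial.aeval x s = Polynomial.aeval x r := by
    intro i
    obtain ⟨r, s, hrs⟩ := (IntermediateField.mem_adjoin_simple_iff k (g i : L)).1 (g i).2
    by_cases hs : Polynomial.aeval x s = 0
    · refine ⟨0, 1, by simp, ?_⟩
      rw [hrs, hs, div_zero]
      simp
    · exact ⟨r, s, hs, by rw [hrs, div_mul_cancel₀ _ hs]⟩
  choose r s hs hrs using hfrac
  set c : Fin n → Polynomial k := fun i => r i * ∏ l ∈ Finset.univ.erase i, s l with hc
  set D : L := ∏ l, Polynomial.aeval x (s l) with hD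
  have hD0 : D ≠ 0 := Finset.prod_ne_zero_iff.2 fun l _ => hs l
  have hci : ∀ i, Polynomial.aeval x (c i) = (g i : L) * D := by
    intro i
    rw [hc, hD, map_mul, map_prod, ← hrs i, mul_assoc,
      Finset.mul_prod_erase Finset.univ (fun l => Polynomial.aeval x (s l)) (Finset.mem_univ i)]
  have hsum : ∑ i, Polynomial.aeval x (c i) * y i = 0 := by
    have h1 : ∑ i, Polynomial.aeval x (c i) * y i = D * ∑ i, g i • y i := by
      rw [Finset.mul_sum]
      refine Finset.sum_congr rfl fun i _ => ?_
      rw [hci i, Algebra.smul_def]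
      have : algebraMap k⟮x⟯ L (g i) = (g i : L) := rfl
      rw [this]
      ring
    rw [h1, hg, mul_zero]
  have hc0 := h c hsum
  intro i
  have h2 : (g i : L) * D = 0 := by rw [← hci i, hc0]; simp
  exact Subtype.ext ((mul_eq_zero.1 h2).resolve_right hD0)

theorem ev0_mem_FF (N : ℕ) [NeZero N] (U : MvPolynomial (S28.Gen N) Kb) :
    S28.ev0 Kb N U ∈ modularFunctionFieldBar N := by
  induction U using MvPolynomial.induction_on with
  | C a =>
    rw [S28.ev0, MvPolynomial.aeval_C]
    exact (modularFunctionFieldBar N).algebraMap_mem a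
  | add p q hp hq => rw [map_add]; exact add_mem hp hq
  | mul_X p x hp =>
    rw [map_mul]
    refine mul_mem hp ?_
    rw [S28.ev0, MvPolynomial.aeval_X]
    exact Inst.gen_mem_FF N x

theorem ev0_mem_adjoin {k : Type*} [Field k] (N : ℕ) (U : MvPolynomial (S28.Gen N) k) :
    S28.ev0 k N U ∈ IntermediateField.adjoin k (Set.range (S28.gen k N)) := by
  induction U using MvPolynomial.induction_on with
  | C a =>
    rw [S28.ev0, MvPolynomial.aeval_C]
    exact IntermediateField.algebraMap_mem _ a
  | add p q hp hq => rw [map_add]; exact add_mem hp hq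
  | mul_X p x hp =>
    rw [map_mul]
    refine mul_mem hp ?_
    rw [S28.ev0, MvPolynomial.aeval_X]
    exact IntermediateField.subset_adjoin _ _ ⟨x, rfl⟩

variable (A : ValuationSubring Kb)

theorem ev0_eq_iota (N : ℕ) (U : MvPolynomial (S28.Gen N) A) :
    S28.ev0 Kb N (MvPolynomial.map A.subtype U) = KInt.iota A (S28.ev0 A N U) :=
  (S28.coeffMap_ev0 A.subtype N U).symm

theorem isIntA_ev0 (N : ℕ) (U : MvPolynomial (S28.Gen N) A) :
    IsIntA A (S28.ev0 Kb N (MvPolynomial.map A.subtype U)) := by
  rw [ev0_eq_iota]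
  exact KInt.isIntA_iota _

theorem redL_ev0 (N : ℕ) (U : MvPolynomial (S28.Gen N) A) :
    redL A (S28.ev0 Kb N (MvPolynomial.map A.subtype U))
      = S28.ev0 (IsLocalRing.ResidueField A) N (MvPolynomial.map (IsLocalRing.residue A) U) := by
  rw [ev0_eq_iota, redL_iota]
  exact S28.coeffMap_ev0 _ N U

theorem card_Cos (N : ℕ) [NeZero N] :
    finrank Kb⟮jF N⟯ (FF N) = Fintype.card (S28.Cos N) := by
  rw [finrank_FF, Subgroup.index_eq_card, Nat.card_eq_fintype_card]

end OrthoN

open OrthoN Gauss

/-- **A-ON**, the generators. -/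
theorem exists_gen_lift (A : ValuationSubring Kb) (N : ℕ) [NeZero N] (x : S28.Gen N) :
    ∃ u : FF N, (u : LaurentSeries Kb) = S28.gen Kb N x ∧ IsIntA A (u : LaurentSeries Kb) ∧
      redL A (u : LaurentSeries Kb) = S28.gen (IsLocalRing.ResidueField A) N x := by
  have e : S28.gen Kb N x = KInt.iota A (S28.gen A N x) := (S28.coeffMap_gen A.subtype N x).symm
  refine ⟨⟨S28.gen Kb N x, Inst.gen_mem_FF N x⟩, rfl, ?_, ?_⟩
  · show IsIntA A (S28.gen Kb N x)
    rw [e]
    exact KInt.isIntA_iota _
  · show redL A (S28.gen Kb N x) = _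
    rw [e, redL_iota]
    exact S28.coeffMap_gen _ N x

/-- **A-ON**, the orthonormal basis (`Fk κ N` is `adjoin κ (range (S28.gen κ N))`). -/
theorem exists_orthonormal (A : ValuationSubring Kb) (N ℓ : ℕ) [NeZero N] [Fact ℓ.Prime]
    (hℓN : ¬ ℓ ∣ N) (hA : A.LiesOverPrime ℓ) :
    ∃ b : Fin (finrank Kb⟮jF N⟯ (FF N)) → FF N, (∀ i, IsIntA A (b i : LaurentSeries Kb)) ∧
      (∀ i, redL A (b i : LaurentSeries Kb) ∈ IntermediateField.adjoin (IsLocalRing.ResidueField A)
        (Set.range (S28.gen (IsLocalRing.ResidueField A) N))) ∧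
      LinearIndependent
        (IsLocalRing.ResidueField A)⟮ModularCurve.jqModC (IsLocalRing.ResidueField A)⟯
        (fun i => redL A (b i : LaurentSeries Kb)) := by
  have hℓ : ℓ.Prime := Fact.out
  obtain ⟨ζ, hζ, h1, h2⟩ := ResField.exists_zeta (A := A) N ℓ hℓ hℓN hA
  have hchar := ResField.charP hℓ hA
  have hNk : (N : IsLocalRing.ResidueField A) ≠ 0 := by
    rw [Ne, CharP.cast_eq_zero_iff _ ℓ]
    exact hℓN
  obtain ⟨m, hm⟩ := S28.degL ζ hζ hNk h1 h2
  have hLI := linearIndependent_adjoin_simple (ModularCurve.jqModC (IsLocalRing.ResidueField A))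
    (fun r => S28.ev0 (IsLocalRing.ResidueField A) N (MvPolynomial.monomial (m r) 1)) hm
  have e := card_Cos N
  have hmap1 : ∀ s : S28.Gen N →₀ ℕ, MvPolynomial.map A.subtype (MvPolynomial.monomial s (1 : A))
      = MvPolynomial.monomial s (1 : Kb) := fun s => by
    rw [MvPolynomial.map_monomial, map_one]
  have hmap2 : ∀ s : S28.Gen N →₀ ℕ,
      MvPolynomial.map (IsLocalRing.residue A) (MvPolynomial.monomial s (1 : A))
      = MvPolynomial.monomial s (1 : IsLocalRing.ResidueField A) := fun s => by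
    rw [MvPolynomial.map_monomial, map_one]
  have hred : ∀ s : S28.Gen N →₀ ℕ, redL A (S28.ev0 Kb N (MvPolynomial.monomial s 1))
      = S28.ev0 (IsLocalRing.ResidueField A) N (MvPolynomial.monomial s 1) := fun s => by
    rw [← hmap1, redL_ev0, hmap2]
  refine ⟨fun i => ⟨S28.ev0 Kb N (MvPolynomial.monomial (m (Fin.cast e i)) 1), ev0_mem_FF N _⟩,
    fun i => ?_, fun i => ?_, ?_⟩
  · show IsIntA A (S28.ev0 Kb N (MvPolynomial.monomial (m (Fin.cast e i)) 1))
    rw [← hmap1]
    exact isIntA_ev0 A N _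
  · show redL A (S28.ev0 Kb N (MvPolynomial.monomial (m (Fin.cast e i)) 1)) ∈ _
    rw [hred]
    exact ev0_mem_adjoin N _
  · have h3 := hLI.comp (Fin.cast e) (Fin.cast_injective e)
    have h4 : (fun i : Fin (finrank Kb⟮jF N⟯ (FF N)) => redL A
        (S28.ev0 Kb N (MvPolynomial.monomial (m (Fin.cast e i)) 1)))
        = (fun r => S28.ev0 (IsLocalRing.ResidueField A) N (MvPolynomial.monomial (m r) 1))
          ∘ Fin.cast e := by
      funext i
      exact hred _
    show LinearIndependent _ (fun i : Fin (finrank Kb⟮jF N⟯ (FF N)) => redL A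
        (S28.ev0 Kb N (MvPolynomial.monomial (m (Fin.cast e i)) 1)))
    rw [h4]
    exact h3

end Fermat.Agent.ES
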