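import Mathlib
import Fermat.Agent.S28.LamN
import Fermat.Agent.ES.PurityB

/-!
# ES : purity by trace duality (normality of the special fibre of a chart)

`𝔸` noetherian normal domain, `π` a prime element with `𝔸/π` a PID, `B` the integral closure of
`𝔸` in a finite separable extension `E` of `K = Frac 𝔸`.  If `B/π` is a domain, the trace form of
`B` is nondegenerate mod `π` (ET) and `g • (trace dual of B)` is nilpotent modulo `g` after
inverting `π` (RAM), with `g` squarefree mod `π`, then `B/π` is a Dedekind domain.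
-/

set_option autoImplicit false
set_option linter.unusedSectionVars false

namespace Fermat.Agent.ES.Purity

open Module

section Upstairs

variable (𝔸 K E B : Type*) [CommRing 𝔸] [IsDomain 𝔸] [IsNoetherianRing 𝔸] [IsIntegrallyClosed 𝔸]
    [Field K] [Algebra 𝔸 K] [IsFractionRing 𝔸 K]
    [Field E] [Algebra K E] [Algebra 𝔸 E] [IsScalarTower 𝔸 K E]
    [FiniteDimensional K E] [Algebra.IsSeparable K E]
    [CommRing B] [Algebra 𝔸 B] [Algebra B E] [IsScalarTower 𝔸 B E] [IsIntegralClosure B 𝔸 E]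

include K in
theorem algebraMap_AE_injective : Function.Injective (algebraMap 𝔸 E) := by
  rw [IsScalarTower.algebraMap_eq 𝔸 K E]
  exact (algebraMap K E).injective.comp (IsFractionRing.injective 𝔸 K)

theorem isIntegral_coe (x : B) : IsIntegral 𝔸 (algebraMap B E x) :=
  (IsIntegralClosure.isIntegral_iff (A := B)).mpr ⟨x, rfl⟩

include K in
theorem exists_of_pow_mul {π s : 𝔸} (hπ : Prime π) (hs : ¬ π ∣ s) (k : ℕ) (x : E)
    (h1 : IsIntegral 𝔸 (algebraMap 𝔸 E π ^ k * x)) (h2 : IsIntegral 𝔸 (algebraMap 𝔸 E s * x)) :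
    IsIntegral 𝔸 x := by
  have : FaithfulSMul 𝔸 E :=
    (faithfulSMul_iff_algebraMap_injective 𝔸 E).mpr (algebraMap_AE_injective 𝔸 K E)
  induction k generalizing x with
  | zero => simpa using h1
  | succ k ih =>
    apply ih x _ h2
    apply S28.isIntegral_of_prime_mul hπ hs
    · rw [← mul_assoc, ← pow_succ']; exact h1
    · have : algebraMap 𝔸 E s * (algebraMap 𝔸 E π ^ k * x)
          = algebraMap 𝔸 E π ^ k * (algebraMap 𝔸 E s * x) := by ring
      rw [this]
      exact (isIntegral_algebraMap.pow k).mul h2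

include K E in
theorem dvd_of_dvd_mul {π r : 𝔸} (hπ : Prime π) (hr : ¬ π ∣ r) (x : B)
    (h : algebraMap 𝔸 B π ∣ algebraMap 𝔸 B r * x) : algebraMap 𝔸 B π ∣ x := by
  obtain ⟨w, hw⟩ := h
  have hπE : algebraMap 𝔸 E π ≠ 0 := by
    rw [Ne, ← map_zero (algebraMap 𝔸 E)]
    exact fun h => hπ.ne_zero (algebraMap_AE_injective 𝔸 K E h)
  have hBE : Function.Injective (algebraMap B E) := IsIntegralClosure.algebraMap_injective B 𝔸 E
  set e : E := algebraMap B E x / algebraMap 𝔸 E π with he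
  have h1 : algebraMap 𝔸 E π ^ 1 * e = algebraMap B E x := by
    rw [he, pow_one]; field_simp
  have h2 : algebraMap 𝔸 E r * e = algebraMap B E w := by
    have := congrArg (algebraMap B E) hw
    rw [map_mul, map_mul, ← IsScalarTower.algebraMap_apply, ← IsScalarTower.algebraMap_apply] at this
    rw [he, mul_div_assoc', this]; field_simp
  have h3 : IsIntegral 𝔸 e := by
    apply exists_of_pow_mul 𝔸 K E hπ hr 1 e
    · rw [h1]; exact isIntegral_coe 𝔸 E B x
    · rw [h2]; exact isIntegral_coe 𝔸 E B w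
  obtain ⟨b, hb⟩ := (IsIntegralClosure.isIntegral_iff (A := B)).mp h3
  refine ⟨b, hBE ?_⟩
  rw [map_mul, ← IsScalarTower.algebraMap_apply, hb, ← h1, pow_one]

variable (π : 𝔸)

/-- the ideal `(π)` of `𝔸` -/
abbrev PA : Ideal 𝔸 := Ideal.span {π}

/-- the ideal `π B` -/
abbrev PB : Ideal B := Ideal.map (algebraMap 𝔸 B) (Ideal.span {π})

theorem mem_pB_iff (x : B) : x ∈ PB 𝔸 B π ↔ algebraMap 𝔸 B π ∣ x := by
  rw [PB, Ideal.map_span, Set.image_singleton, Ideal.mem_span_singleton]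

theorem mk_eq_zero_iff (r : 𝔸) : Ideal.Quotient.mk (PA 𝔸 π) r = 0 ↔ π ∣ r := by
  rw [Ideal.Quotient.eq_zero_iff_mem, Ideal.mem_span_singleton]

include K E in
theorem finite_quot : Module.Finite (𝔸 ⧸ PA 𝔸 π) (B ⧸ PB 𝔸 B π) := by
  have : Module.Finite 𝔸 B := IsIntegralClosure.finite 𝔸 K E B
  exact Module.Finite.of_restrictScalars_finite 𝔸 (𝔸 ⧸ PA 𝔸 π) (B ⧸ PB 𝔸 B π)

include K E in
theorem torsionFree_quot (hπ : Prime π) : Module.IsTorsionFree (𝔸 ⧸ PA 𝔸 π) (B ⧸ PB 𝔸 B π) := by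
  have : (PA 𝔸 π).IsPrime := (Ideal.span_singleton_prime hπ.ne_zero).mpr hπ
  apply Module.IsTorsionFree.of_smul_eq_zero
  intro r x h
  obtain ⟨r, rfl⟩ := Ideal.Quotient.mk_surjective r
  obtain ⟨x, rfl⟩ := Ideal.Quotient.mk_surjective x
  rw [Ideal.Quotient.mk_smul_mk_quotient_map_quotient, Ideal.Quotient.eq_zero_iff_mem,
    mem_pB_iff] at h
  by_cases hr : π ∣ r
  · left; exact (mk_eq_zero_iff 𝔸 π r).mpr hr
  · right
    rw [Ideal.Quotient.eq_zero_iff_mem, mem_pB_iff]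
    exact dvd_of_dvd_mul 𝔸 K E B hπ hr x h

theorem mk_smul (r : 𝔸) (x : B) : Ideal.Quotient.mk (PB 𝔸 B π) (r • x) =
    Ideal.Quotient.mk (PA 𝔸 π) r • Ideal.Quotient.mk (PB 𝔸 B π) x := by
  rw [Ideal.Quotient.mk_smul_mk_quotient_map_quotient, Algebra.smul_def]

theorem mk_sum_smul {n : ℕ} (r : Fin n → 𝔸) (m : Fin n → B) :
    Ideal.Quotient.mk (PB 𝔸 B π) (∑ i, r i • m i) =
      ∑ i, Ideal.Quotient.mk (PA 𝔸 π) (r i) • Ideal.Quotient.mk (PB 𝔸 B π) (m i) := by
  rw [map_sum]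
  exact Finset.sum_congr rfl fun i _ => mk_smul 𝔸 B π _ _

include K E in
theorem exists_lift_basis (hπ : Prime π) [IsPrincipalIdealRing (𝔸 ⧸ PA 𝔸 π)] :
    ∃ (n : ℕ) (bb : Basis (Fin n) (𝔸 ⧸ PA 𝔸 π) (B ⧸ PB 𝔸 B π)) (m : Fin n → B) (a : 𝔸)
      (c : B → Fin n → 𝔸),
      (∀ i, Ideal.Quotient.mk (PB 𝔸 B π) (m i) = bb i) ∧ ¬ π ∣ a ∧
      Ideal.Quotient.mk (PA 𝔸 π) a = 1 ∧ ∀ x, a • x = ∑ i, c x i • m i := by
  have hprime : (PA 𝔸 π).IsPrime := (Ideal.span_singleton_prime hπ.ne_zero).mpr hπ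
  have h0 : Module.Finite 𝔸 B := IsIntegralClosure.finite 𝔸 K E B
  have h1 := finite_quot 𝔸 K E B π
  have h2 := torsionFree_quot 𝔸 K E B π hπ
  have h3 : Module.Free (𝔸 ⧸ PA 𝔸 π) (B ⧸ PB 𝔸 B π) := inferInstance
  let bb := Module.finBasis (𝔸 ⧸ PA 𝔸 π) (B ⧸ PB 𝔸 B π)
  choose m hm using fun i => Ideal.Quotient.mk_surjective (bb i)
  let N0 : Submodule 𝔸 B := Submodule.span 𝔸 (Set.range m)
  have hdec : ∀ x : B, ∃ n ∈ N0, ∃ w : B, x = n + π • w := by
    intro x
    choose r hr using fun i => Ideal.Quotient.mk_surjective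
      (bb.repr (Ideal.Quotient.mk (PB 𝔸 B π) x) i)
    have hn : ∑ i, r i • m i ∈ N0 :=
      Submodule.sum_mem _ fun i _ => Submodule.smul_mem _ _ (Submodule.subset_span ⟨i, rfl⟩)
    have hx : x - ∑ i, r i • m i ∈ PB 𝔸 B π := by
      rw [← Ideal.Quotient.eq_zero_iff_mem, map_sub, mk_sum_smul, sub_eq_zero]
      conv_lhs => rw [← bb.sum_repr (Ideal.Quotient.mk (PB 𝔸 B π) x)]
      exact Finset.sum_congr rfl fun i _ => by rw [hr, hm]
    rw [mem_pB_iff] at hx
    obtain ⟨w, hw⟩ := hx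
    exact ⟨_, hn, w, by rw [Algebra.smul_def, ← hw]; ring⟩
  have hfg : (⊤ : Submodule 𝔸 (B ⧸ N0)).FG := Module.Finite.fg_top
  have hle : (⊤ : Submodule 𝔸 (B ⧸ N0)) ≤ PA 𝔸 π • ⊤ := by
    intro q _
    obtain ⟨x, rfl⟩ := Submodule.Quotient.mk_surjective N0 q
    obtain ⟨n, hn, w, rfl⟩ := hdec x
    rw [Submodule.Quotient.mk_add, (Submodule.Quotient.mk_eq_zero N0).mpr hn, zero_add,
      Submodule.Quotient.mk_smul]
    exact Submodule.smul_mem_smul (Ideal.mem_span_singleton_self π) trivial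
  obtain ⟨a, ha1, ha⟩ :=
    Submodule.exists_sub_one_mem_and_smul_eq_zero_of_fg_of_le_smul _ _ hfg hle
  have ha2 : Ideal.Quotient.mk (PA 𝔸 π) a = 1 := by
    rw [← sub_eq_zero, ← map_one (Ideal.Quotient.mk (PA 𝔸 π)), ← map_sub,
      Ideal.Quotient.eq_zero_iff_mem]
    exact ha1
  have ha3 : ¬ π ∣ a := by
    intro h
    rw [← mk_eq_zero_iff, ha2] at h
    exact one_ne_zero h
  have hc : ∀ x : B, ∃ c : Fin _ → 𝔸, a • x = ∑ i, c i • m i := by
    intro x
    have := ha (Submodule.Quotient.mk x) trivial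
    rw [← Submodule.Quotient.mk_smul, Submodule.Quotient.mk_eq_zero] at this
    obtain ⟨c, hc⟩ := (Submodule.mem_span_range_iff_exists_fun 𝔸).mp this
    exact ⟨c, hc.symm⟩
  choose c hc using hc
  exact ⟨_, bb, m, a, c, hm, ha3, ha2, hc⟩

section Data

variable {n : ℕ} (bb : Basis (Fin n) (𝔸 ⧸ PA 𝔸 π) (B ⧸ PB 𝔸 B π)) (m : Fin n → B) (a : 𝔸)
  (c : B → Fin n → 𝔸)
  (hm : ∀ i, Ideal.Quotient.mk (PB 𝔸 B π) (m i) = bb i) (ha3 : ¬ π ∣ a)
  (ha2 : Ideal.Quotient.mk (PA 𝔸 π) a = 1) (hc : ∀ x, a • x = ∑ i, c x i • m i)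

include hm ha2 hc in
theorem repr_mk (x : B) (i : Fin n) :
    bb.repr (Ideal.Quotient.mk (PB 𝔸 B π) x) i = Ideal.Quotient.mk (PA 𝔸 π) (c x i) := by
  have h1 : Ideal.Quotient.mk (PB 𝔸 B π) x
      = ∑ i, Ideal.Quotient.mk (PA 𝔸 π) (c x i) • bb i := by
    calc Ideal.Quotient.mk (PB 𝔸 B π) x
        = Ideal.Quotient.mk (PA 𝔸 π) a • Ideal.Quotient.mk (PB 𝔸 B π) x := by rw [ha2, one_smul]
      _ = Ideal.Quotient.mk (PB 𝔸 B π) (a • x) := (mk_smul 𝔸 B π a x).symm
      _ = _ := by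
        rw [hc x, mk_sum_smul]
        exact Finset.sum_congr rfl fun i _ => by rw [hm]
  rw [h1, bb.repr_sum_self]

include K E in
theorem algebraMap_AB_injective : Function.Injective (algebraMap 𝔸 B) := by
  have h := algebraMap_AE_injective 𝔸 K E
  rw [IsScalarTower.algebraMap_eq 𝔸 B E] at h
  exact Function.Injective.of_comp h

include K E hm in
theorem pow_dvd_of_sum_eq_zero (hπ : Prime π) (k : ℕ) :
    ∀ r : Fin n → 𝔸, ∑ i, r i • m i = 0 → ∀ i, π ^ k ∣ r i := by
  have hdomB : IsDomain B := (IsIntegralClosure.algebraMap_injective B 𝔸 E).isDomain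
  induction k with
  | zero => intro r _ i; simp
  | succ k ih =>
    intro r hr
    have h1 : ∑ i, Ideal.Quotient.mk (PA 𝔸 π) (r i) • bb i = 0 := by
      have := congrArg (Ideal.Quotient.mk (PB 𝔸 B π)) hr
      rw [mk_sum_smul, map_zero] at this
      rw [← this]
      exact Finset.sum_congr rfl fun i _ => by rw [hm]
    have h2 : ∀ i, π ∣ r i := by
      intro i
      rw [← mk_eq_zero_iff]
      exact Fintype.linearIndependent_iff.mp bb.linearIndependent _ h1 i
    choose r' hr' using h2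
    have h3 : ∑ i, r' i • m i = 0 := by
      have hπB : algebraMap 𝔸 B π ≠ 0 := by
        rw [Ne, ← map_zero (algebraMap 𝔸 B)]
        exact fun h => hπ.ne_zero (algebraMap_AB_injective 𝔸 K E B h)
      apply mul_left_cancel₀ hπB
      rw [mul_zero, ← hr, Finset.mul_sum]
      refine Finset.sum_congr rfl fun i _ => ?_
      rw [hr' i, mul_smul, Algebra.smul_def π]
    intro i
    rw [hr' i, pow_succ']
    exact mul_dvd_mul_left π (ih r' h3 i)

include K E hm in
theorem linearIndependent_lift (hπ : Prime π) : LinearIndependent 𝔸 m := by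
  rw [Fintype.linearIndependent_iff]
  intro r hr i
  by_contra hne
  obtain ⟨k, hk⟩ := FiniteMultiplicity.of_not_isUnit hπ.not_isUnit hne
  exact hk (pow_dvd_of_sum_eq_zero 𝔸 K E B π bb m hm hπ (k + 1) r hr i)

include hm hc ha3 in
theorem exists_basis (hπ : Prime π) :
    ∃ bE : Basis (Fin n) K E, ∀ i, bE i = algebraMap B E (m i) := by
  have hBE : Function.Injective (algebraMap B E) := IsIntegralClosure.algebraMap_injective B 𝔸 E
  have hli0 : LinearIndependent 𝔸 (fun i => algebraMap B E (m i)) := by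
    have := (linearIndependent_lift 𝔸 K E B π bb m hm hπ).map'
      (IsScalarTower.toAlgHom 𝔸 B E).toLinearMap (LinearMap.ker_eq_bot.mpr hBE)
    exact this
  have hli : LinearIndependent K (fun i => algebraMap B E (m i)) :=
    (LinearIndependent.iff_fractionRing 𝔸 K).mp hli0
  have ha0 : a ≠ 0 := fun h => ha3 (h ▸ dvd_zero π)
  have hsp : ⊤ ≤ Submodule.span K (Set.range fun i => algebraMap B E (m i)) := by
    intro e _
    have hloc : IsLocalization (Algebra.algebraMapSubmonoid B (nonZeroDivisors 𝔸)) E :=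
      IsIntegralClosure.isLocalization 𝔸 K E B
    obtain ⟨⟨b, ⟨d', d, hd, rfl⟩⟩, hbd⟩ :=
      IsLocalization.surj (Algebra.algebraMapSubmonoid B (nonZeroDivisors 𝔸)) e
    have hd0 : d ≠ 0 := nonZeroDivisors.ne_zero hd
    simp only at hbd
    have had : algebraMap 𝔸 K (a * d) ≠ 0 := by
      rw [Ne, IsFractionRing.to_map_eq_zero_iff]
      exact mul_ne_zero ha0 hd0
    have h1 : algebraMap 𝔸 K (a * d) • e = ∑ i, algebraMap 𝔸 K (c b i) • algebraMap B E (m i) := by
      have h2 := congrArg (algebraMap B E) (hc b)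
      rw [map_sum, Algebra.smul_def, map_mul, ← hbd, ← IsScalarTower.algebraMap_apply,
        ← IsScalarTower.algebraMap_apply] at h2
      rw [Algebra.smul_def, ← IsScalarTower.algebraMap_apply, map_mul]
      calc algebraMap 𝔸 E a * algebraMap 𝔸 E d * e
          = algebraMap 𝔸 E a * (e * algebraMap 𝔸 E d) := by ring
        _ = _ := by
          rw [h2]
          refine Finset.sum_congr rfl fun i _ => ?_
          rw [Algebra.smul_def, map_mul, ← IsScalarTower.algebraMap_apply, Algebra.smul_def,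
            ← IsScalarTower.algebraMap_apply]
    have h3 : e = (algebraMap 𝔸 K (a * d))⁻¹ •
        ∑ i, algebraMap 𝔸 K (c b i) • algebraMap B E (m i) := by
      rw [← h1, smul_smul, inv_mul_cancel₀ had, one_smul]
    rw [h3]
    exact Submodule.smul_mem _ _ (Submodule.sum_mem _ fun i _ =>
      Submodule.smul_mem _ _ (Submodule.subset_span ⟨i, rfl⟩))
  exact ⟨Basis.mk hli hsp, fun i => Basis.mk_apply hli hsp i⟩

variable (bE : Basis (Fin n) K E) (hbE : ∀ i, bE i = algebraMap B E (m i))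

/-- the trace dual basis -/
noncomputable def dualB : Basis (Fin n) K E :=
  (Algebra.traceForm K E).dualBasis (traceForm_nondegenerate K E) bE

theorem trace_dualB_mul (i j : Fin n) :
    Algebra.trace K E (dualB K E bE i * bE j) = if j = i then 1 else 0 := by
  have := LinearMap.BilinForm.apply_dualBasis_left (traceForm_nondegenerate K E) bE i j
  rwa [Algebra.traceForm_apply] at this

theorem eq_of_trace_mul_eq (v v' : E)
    (h : ∀ j, Algebra.trace K E (v * bE j) = Algebra.trace K E (v' * bE j)) : v = v' := by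
  rw [← sub_eq_zero]
  apply (traceForm_nondegenerate K E).1
  intro w
  rw [Algebra.traceForm_apply, ← bE.sum_repr w, Finset.mul_sum, map_sum]
  refine Finset.sum_eq_zero fun j _ => ?_
  rw [mul_smul_comm, map_smul, sub_mul, map_sub, h j, sub_self, smul_zero]

include hc hbE in
theorem coe_smul_eq (x : B) :
    algebraMap 𝔸 E a * algebraMap B E x = ∑ j, algebraMap 𝔸 K (c x j) • bE j := by
  have h2 := congrArg (algebraMap B E) (hc x)
  rw [map_sum, Algebra.smul_def, map_mul, ← IsScalarTower.algebraMap_apply] at h2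
  rw [h2]
  refine Finset.sum_congr rfl fun i _ => ?_
  rw [Algebra.smul_def, map_mul, ← IsScalarTower.algebraMap_apply, Algebra.smul_def,
    ← IsScalarTower.algebraMap_apply, hbE]

include hc hbE in
theorem trace_y_mul (x : B) (i : Fin n) :
    Algebra.trace K E ((algebraMap 𝔸 E a * dualB K E bE i) * algebraMap B E x)
      = algebraMap 𝔸 K (c x i) := by
  have : (algebraMap 𝔸 E a * dualB K E bE i) * algebraMap B E x
      = dualB K E bE i * (algebraMap 𝔸 E a * algebraMap B E x) := by ring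
  rw [this, coe_smul_eq 𝔸 K E B m a c hc bE hbE, Finset.mul_sum, map_sum]
  simp only [mul_smul_comm, map_smul, trace_dualB_mul, smul_eq_mul, mul_ite, mul_one, mul_zero,
    Finset.sum_ite_eq', Finset.mem_univ, if_true]


/-- the integral trace `B → 𝔸` -/
noncomputable abbrev trI : B →ₗ[𝔸] 𝔸 := Algebra.intTraceAux 𝔸 K E B

theorem map_trI (x : B) :
    algebraMap 𝔸 K (trI 𝔸 K E B x) = Algebra.trace K E (algebraMap B E x) :=
  Algebra.map_intTraceAux x

include hc hbE in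
theorem smul_trI (x : B) : a * trI 𝔸 K E B x = ∑ k, c (x * m k) k := by
  apply IsFractionRing.injective 𝔸 K
  rw [map_mul, map_trI, map_sum, ← smul_eq_mul, ← map_smul,
    Algebra.trace_eq_matrix_trace bE, Matrix.trace]
  refine Finset.sum_congr rfl fun k _ => ?_
  rw [Matrix.diag_apply, Algebra.leftMulMatrix_eq_repr_mul, hbE, Algebra.smul_def, mul_assoc,
    ← map_mul, ← IsScalarTower.algebraMap_apply,
    coe_smul_eq 𝔸 K E B m a c hc bE hbE, bE.repr_sum_self]

include hm ha2 hc hbE in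
/-- (TRQ): the trace of the free `𝔸/π`-algebra `B/π` is the reduction of the trace. -/
theorem trace_mk (x : B) :
    Algebra.trace (𝔸 ⧸ PA 𝔸 π) (B ⧸ PB 𝔸 B π) (Ideal.Quotient.mk (PB 𝔸 B π) x)
      = Ideal.Quotient.mk (PA 𝔸 π) (trI 𝔸 K E B x) := by
  have h1 : Ideal.Quotient.mk (PA 𝔸 π) (trI 𝔸 K E B x)
      = Ideal.Quotient.mk (PA 𝔸 π) (a * trI 𝔸 K E B x) := by
    rw [map_mul, ha2, one_mul]
  rw [h1, smul_trI 𝔸 K E B m a c hc bE hbE, map_sum, Algebra.trace_eq_matrix_trace bb,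
    Matrix.trace]
  refine Finset.sum_congr rfl fun k _ => ?_
  rw [Matrix.diag_apply, Algebra.leftMulMatrix_eq_repr_mul, ← hm, ← map_mul,
    repr_mk 𝔸 B π bb m a c hm ha2 hc]


/-- the Gram matrix of the lifted basis -/
noncomputable def gram : Matrix (Fin n) (Fin n) 𝔸 :=
  Matrix.of fun i j => trI 𝔸 K E B (m i * m j)

include hm ha3 hc in
theorem not_dvd_det_gram (hπ : Prime π)
    (hET : ∀ x : B, (∀ y : B, ∃ a : 𝔸,
        Algebra.trace K E (algebraMap B E (x * y)) = algebraMap 𝔸 K (π * a)) →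
        algebraMap 𝔸 B π ∣ x) : ¬ π ∣ (gram 𝔸 K E B m).det := by
  have hprime : (PA 𝔸 π).IsPrime := (Ideal.span_singleton_prime hπ.ne_zero).mpr hπ
  intro hD
  have h0 : ((gram 𝔸 K E B m).map (Ideal.Quotient.mk (PA 𝔸 π))).det = 0 := by
    rw [← RingHom.mapMatrix_apply, ← RingHom.map_det, mk_eq_zero_iff]
    exact hD
  obtain ⟨v, hv0, hv⟩ := Matrix.exists_mulVec_eq_zero_iff.mpr h0
  choose w hw using fun j => Ideal.Quotient.mk_surjective (v j)
  set x : B := ∑ j, w j • m j with hx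
  have h1 : ∀ i, π ∣ trI 𝔸 K E B (x * m i) := by
    intro i
    rw [← mk_eq_zero_iff]
    have := congrFun hv i
    rw [Matrix.mulVec, dotProduct, Pi.zero_apply] at this
    rw [← this, hx, Finset.sum_mul, map_sum, map_sum]
    refine Finset.sum_congr rfl fun j _ => ?_
    rw [smul_mul_assoc, map_smul, smul_eq_mul, map_mul, hw, Matrix.map_apply, gram, Matrix.of_apply,
      mul_comm (m j), mul_comm]
  have h2 : ∀ y, π ∣ trI 𝔸 K E B (x * y) := by
    intro y
    have h3 : a * trI 𝔸 K E B (x * y) = ∑ i, c y i * trI 𝔸 K E B (x * m i) := by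
      rw [← smul_eq_mul, ← map_smul, ← mul_smul_comm, hc y, Finset.mul_sum, map_sum]
      refine Finset.sum_congr rfl fun i _ => ?_
      rw [mul_smul_comm, map_smul, smul_eq_mul]
    have h4 : π ∣ a * trI 𝔸 K E B (x * y) := by
      rw [h3]
      exact Finset.dvd_sum fun i _ => Dvd.dvd.mul_left (h1 i) _
    exact (hπ.dvd_or_dvd h4).resolve_left ha3
  have h5 : algebraMap 𝔸 B π ∣ x := by
    apply hET
    intro y
    obtain ⟨r, hr⟩ := h2 y
    exact ⟨r, by rw [← map_trI 𝔸 K E B, hr]⟩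
  have h6 : ∑ j, v j • bb j = 0 := by
    rw [← mem_pB_iff, ← Ideal.Quotient.eq_zero_iff_mem, hx, mk_sum_smul] at h5
    rw [← h5]
    exact Finset.sum_congr rfl fun j _ => by rw [hw, hm]
  exact hv0 (funext fun j => Fintype.linearIndependent_iff.mp bb.linearIndependent _ h6 j)

include hbE in
theorem det_mul_dualB (i : Fin n) :
    algebraMap 𝔸 E (gram 𝔸 K E B m).det * dualB K E bE i
      = algebraMap B E (∑ k, (gram 𝔸 K E B m).adjugate i k • m k) := by
  apply eq_of_trace_mul_eq K E bE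
  intro j
  have h1 : algebraMap 𝔸 E (gram 𝔸 K E B m).det * dualB K E bE i * bE j
      = algebraMap 𝔸 K (gram 𝔸 K E B m).det • (dualB K E bE i * bE j) := by
    rw [Algebra.smul_def, ← IsScalarTower.algebraMap_apply, mul_assoc]
  rw [h1, map_smul, trace_dualB_mul, hbE, ← map_mul, ← map_trI 𝔸 K E B, Finset.sum_mul, map_sum]
  have h2 : ∀ k, trI 𝔸 K E B ((gram 𝔸 K E B m).adjugate i k • m k * m j)
      = (gram 𝔸 K E B m).adjugate i k * gram 𝔸 K E B m k j := by
    intro k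
    rw [smul_mul_assoc, map_smul, smul_eq_mul, gram, Matrix.of_apply]
  rw [Finset.sum_congr rfl fun k _ => h2 k, ← Matrix.mul_apply, Matrix.adjugate_mul,
    Matrix.smul_apply, Matrix.one_apply, smul_eq_mul, smul_eq_mul]
  by_cases hij : j = i
  · subst hij; simp
  · rw [if_neg hij, if_neg (Ne.symm hij)]; simp


include hm ha3 hc hbE in
theorem exists_z (hπ : Prime π)
    (hET : ∀ x : B, (∀ y : B, ∃ a : 𝔸,
        Algebra.trace K E (algebraMap B E (x * y)) = algebraMap 𝔸 K (π * a)) →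
        algebraMap 𝔸 B π ∣ x)
    (g : 𝔸) (hg : ¬ π ∣ g)
    (hRAM : ∀ y : E, (∀ b : B, ∃ a : 𝔸,
        Algebra.trace K E (y * algebraMap B E b) = algebraMap 𝔸 K a) →
        ∃ (M k : ℕ) (u : B), 0 < M ∧
          algebraMap 𝔸 E π ^ k * (algebraMap 𝔸 E g * y) ^ M =
            algebraMap 𝔸 E g * algebraMap B E u) (i : Fin n) :
    ∃ (z u : B) (M : ℕ), z ^ M = g • u ∧
      algebraMap B E z = algebraMap 𝔸 E g * (algebraMap 𝔸 E a * dualB K E bE i) := by
  have hBE : Function.Injective (algebraMap B E) := IsIntegralClosure.algebraMap_injective B 𝔸 E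
  set y : E := algebraMap 𝔸 E a * dualB K E bE i with hy
  obtain ⟨M, k, u, hM, hu⟩ := hRAM y fun b => ⟨c b i, trace_y_mul 𝔸 K E B m a c hc bE hbE b i⟩
  set D : 𝔸 := (gram 𝔸 K E B m).det with hDdef
  have hD : ¬ π ∣ D := not_dvd_det_gram 𝔸 K E B π bb m a c hm ha3 hc hπ hET
  have hDy : IsIntegral 𝔸 (algebraMap 𝔸 E D * y) := by
    have : algebraMap 𝔸 E D * y = algebraMap 𝔸 E a * (algebraMap 𝔸 E D * dualB K E bE i) := by
      rw [hy]; ring
    rw [this, det_mul_dualB 𝔸 K E B m bE hbE]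
    exact isIntegral_algebraMap.mul (isIntegral_coe 𝔸 E B _)
  have hgE : algebraMap 𝔸 E g ≠ 0 := by
    rw [Ne, ← map_zero (algebraMap 𝔸 E)]
    exact fun h => hg ((algebraMap_AE_injective 𝔸 K E h) ▸ dvd_zero π)
  set uE : E := (algebraMap 𝔸 E g * y) ^ M / algebraMap 𝔸 E g with huE
  have h1 : algebraMap 𝔸 E π ^ k * uE = algebraMap B E u := by
    rw [huE, mul_div_assoc', hu]; field_simp
  have h2 : algebraMap 𝔸 E (g * D ^ M) * uE = (algebraMap 𝔸 E g * (algebraMap 𝔸 E D * y)) ^ M := by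
    rw [huE, map_mul, map_pow]; field_simp; ring
  have hs : ¬ π ∣ g * D ^ M := by
    intro h
    rcases hπ.dvd_or_dvd h with h | h
    · exact hg h
    · exact hD (hπ.dvd_of_dvd_pow h)
  have h3 : IsIntegral 𝔸 uE := by
    apply exists_of_pow_mul 𝔸 K E hπ hs k uE
    · rw [h1]; exact isIntegral_coe 𝔸 E B u
    · rw [h2]; exact (isIntegral_algebraMap.mul hDy).pow M
  have h4 : (algebraMap 𝔸 E g * y) ^ M = algebraMap 𝔸 E g * uE := by
    rw [huE]; field_simp
  have h5 : IsIntegral 𝔸 (algebraMap 𝔸 E g * y) := by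
    apply IsIntegral.of_pow hM
    rw [h4]
    exact isIntegral_algebraMap.mul h3
  obtain ⟨z, hz⟩ := (IsIntegralClosure.isIntegral_iff (A := B)).mp h5
  obtain ⟨u', hu'⟩ := (IsIntegralClosure.isIntegral_iff (A := B)).mp h3
  refine ⟨z, u', M, hBE ?_, hz⟩
  rw [map_pow, hz, h4, Algebra.smul_def, map_mul, ← IsScalarTower.algebraMap_apply, hu']

include hc hbE in
theorem trI_mul_z (g : 𝔸) (i : Fin n) (z : B)
    (hz : algebraMap B E z = algebraMap 𝔸 E g * (algebraMap 𝔸 E a * dualB K E bE i)) (y : B) :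
    trI 𝔸 K E B (y * z) = g * c y i := by
  apply IsFractionRing.injective 𝔸 K
  rw [map_trI, map_mul (algebraMap B E), hz, map_mul (algebraMap 𝔸 K),
    ← trace_y_mul 𝔸 K E B m a c hc bE hbE y i, ← smul_eq_mul (algebraMap 𝔸 K g),
    ← map_smul, Algebra.smul_def, ← IsScalarTower.algebraMap_apply]
  congr 1
  ring

end Data


/-- **Purity / normality of the special fibre.** -/
theorem isDedekindDomain_quotient
    (hπ : Prime π) [IsPrincipalIdealRing (𝔸 ⧸ Ideal.span {π})]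
    (hdom : (Ideal.span {algebraMap 𝔸 B π}).IsPrime)
    (hET : ∀ x : B, (∀ y : B, ∃ a : 𝔸,
        Algebra.trace K E (algebraMap B E (x * y)) = algebraMap 𝔸 K (π * a)) →
        algebraMap 𝔸 B π ∣ x)
    (g : 𝔸) (hg : Squarefree (Ideal.Quotient.mk (Ideal.span {π}) g))
    (hRAM : ∀ y : E, (∀ b : B, ∃ a : 𝔸,
        Algebra.trace K E (y * algebraMap B E b) = algebraMap 𝔸 K a) →
        ∃ (M k : ℕ) (u : B), 0 < M ∧
          algebraMap 𝔸 E π ^ k * (algebraMap 𝔸 E g * y) ^ M =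
            algebraMap 𝔸 E g * algebraMap B E u) :
    IsDedekindDomain (B ⧸ Ideal.span {algebraMap 𝔸 B π}) := by
  have hprime : (PA 𝔸 π).IsPrime := (Ideal.span_singleton_prime hπ.ne_zero).mpr hπ
  have hPB : Ideal.span {algebraMap 𝔸 B π} = PB 𝔸 B π := by
    rw [PB, Ideal.map_span, Set.image_singleton]
  rw [hPB] at hdom ⊢
  obtain ⟨n, bb, m, a, c, hm, ha3, ha2, hc⟩ := exists_lift_basis 𝔸 K E B π hπ
  obtain ⟨bE, hbE⟩ := exists_basis 𝔸 K E B π bb m a c hm ha3 hc hπ
  have hgπ : ¬ π ∣ g := fun h => hg.ne_zero ((mk_eq_zero_iff 𝔸 π g).mpr h)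
  choose z u M hz hz' using
    exists_z 𝔸 K E B π bb m a c hm ha3 hc bE hbE hπ hET g hgπ hRAM
  have hd1 : IsDomain (B ⧸ PB 𝔸 B π) := Ideal.Quotient.isDomain _
  have hd2 : IsDomain (𝔸 ⧸ PA 𝔸 π) := Ideal.Quotient.isDomain _
  have htf := torsionFree_quot 𝔸 K E B π hπ
  have hinj : Function.Injective (algebraMap (𝔸 ⧸ PA 𝔸 π) (B ⧸ PB 𝔸 B π)) := by
    rw [injective_iff_map_eq_zero]
    intro r h
    rw [Algebra.algebraMap_eq_smul_one] at h
    exact (smul_eq_zero.mp h).resolve_right one_ne_zero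
  refine isDedekindDomain_of_data hinj bb (Ideal.Quotient.mk (PA 𝔸 π) g) hg
    (fun i => Ideal.Quotient.mk (PB 𝔸 B π) (z i)) (fun i => Ideal.Quotient.mk (PB 𝔸 B π) (u i)) M
    (fun i => ?_) (fun y i => ?_)
  · rw [← map_pow, hz, mk_smul]
  · obtain ⟨y, rfl⟩ := Ideal.Quotient.mk_surjective y
    rw [← map_mul, trace_mk 𝔸 K E B π bb m a c hm ha2 hc bE hbE,
      trI_mul_z 𝔸 K E B m a c hc bE hbE g i (z i) (hz' i), map_mul,
      repr_mk 𝔸 B π bb m a c hm ha2 hc]

end Upstairs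

end Fermat.Agent.ES.Purity
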