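import Mathlib

/-!
# ES : small adapters for `Purity` with `𝔸 = R[X]`, `π = C ϖ`
-/

set_option autoImplicit false

namespace Fermat.Agent.ES.PurityAd

open Polynomial

variable {R : Type*} [CommRing R]

theorem span_C_eq (ϖ : R) :
    (Ideal.span {C ϖ} : Ideal R[X]) = (Ideal.span {ϖ}).map (C : R →+* R[X]) := by
  rw [Ideal.map_span, Set.image_singleton]

/-- `R[X]/(C ϖ) ≃ (R/ϖ)[X]`. -/
noncomputable def quotEquiv (ϖ : R) :
    (R[X] ⧸ (Ideal.span {C ϖ} : Ideal R[X])) ≃+* (R ⧸ Ideal.span {ϖ})[X] :=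
  (Ideal.quotEquivOfEq (span_C_eq ϖ)).trans
    (Ideal.polynomialQuotientEquivQuotientPolynomial (Ideal.span {ϖ})).symm

theorem quotEquiv_mk (ϖ : R) (g : R[X]) :
    quotEquiv ϖ (Ideal.Quotient.mk _ g) = g.map (Ideal.Quotient.mk (Ideal.span {ϖ})) := by
  rw [quotEquiv, RingEquiv.trans_apply, Ideal.quotEquivOfEq_mk,
    Ideal.polynomialQuotientEquivQuotientPolynomial_symm_mk]

/-- `R[X]/(C ϖ)` is a PID if `R/ϖ` is a field. -/
theorem isPrincipalIdealRing_quot (ϖ : R) (hmax : (Ideal.span {ϖ}).IsMaximal) :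
    IsPrincipalIdealRing (R[X] ⧸ (Ideal.span {C ϖ} : Ideal R[X])) := by
  let _ : Field (R ⧸ Ideal.span {ϖ}) := Ideal.Quotient.field _
  exact IsPrincipalIdealRing.of_surjective (quotEquiv ϖ).symm.toRingHom
    (quotEquiv ϖ).symm.surjective

/-- `C ϖ` is prime in `R[X]`. -/
theorem prime_C [IsDomain R] {ϖ : R} (hϖ : Prime ϖ) : Prime (C ϖ : R[X]) :=
  Polynomial.prime_C_iff.mpr hϖ

theorem mem_span_C_iff (ϖ : R) (p : R[X]) :
    p ∈ (Ideal.span {C ϖ} : Ideal R[X]) ↔ ∀ n, p.coeff n ∈ Ideal.span {ϖ} := by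
  rw [span_C_eq, Ideal.mem_map_C_iff]

theorem map_eq_zero_iff {k : Type*} [CommRing k] (res : R →+* k) (ϖ : R)
    (hker : RingHom.ker res = Ideal.span {ϖ}) (p : R[X]) :
    p.map res = 0 ↔ p ∈ (Ideal.span {C ϖ} : Ideal R[X]) := by
  rw [mem_span_C_iff, ← hker, Polynomial.ext_iff]
  simp only [coeff_map, coeff_zero, RingHom.mem_ker]

/-- `hg` of `Purity` from separability of the reduction of `g` over any field `k ⊇ R/ϖ`. -/
theorem squarefree_mk_of_separable {k : Type*} [Field k] (res : R →+* k) (ϖ : R)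
    (hker : RingHom.ker res = Ideal.span {ϖ}) (hmax : (Ideal.span {ϖ}).IsMaximal)
    (g : R[X]) (hg : (g.map res).Separable) :
    Squarefree (Ideal.Quotient.mk (Ideal.span {C ϖ} : Ideal R[X]) g) := by
  intro x hx
  obtain ⟨p, rfl⟩ := Ideal.Quotient.mk_surjective x
  obtain ⟨y, hy⟩ := hx
  obtain ⟨q, rfl⟩ := Ideal.Quotient.mk_surjective y
  rw [← map_mul, ← map_mul, Ideal.Quotient.eq, ← map_eq_zero_iff res ϖ hker, Polynomial.map_sub,
    sub_eq_zero, Polynomial.map_mul, Polynomial.map_mul] at hy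
  have h3 : IsUnit (p.map res) := hg.squarefree _ ⟨q.map res, hy⟩
  obtain ⟨c, hc, hpc⟩ := Polynomial.isUnit_iff.mp h3
  have h0 : p.coeff 0 ∉ Ideal.span {ϖ} := by
    rw [← hker, RingHom.mem_ker, ← coeff_map, ← hpc, coeff_C_zero]
    exact hc.ne_zero
  obtain ⟨b, hb⟩ := hmax.exists_inv h0
  refine IsUnit.of_mul_eq_one (Ideal.Quotient.mk _ (C b)) ?_
  rw [← map_mul, ← map_one (Ideal.Quotient.mk _), Ideal.Quotient.eq, ← map_eq_zero_iff res ϖ hker,
    Polynomial.map_sub, Polynomial.map_mul, ← hpc, Polynomial.map_one, Polynomial.map_C, ← C_mul,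
    sub_eq_zero, ← C_1]
  congr 1
  have h4 : res (p.coeff 0) = c := by rw [← coeff_map, ← hpc, coeff_C_zero]
  rw [← hker] at hb
  obtain ⟨i, hi, hbi⟩ := hb
  have h5 := congrArg res hbi
  rw [map_add, map_mul, (RingHom.mem_ker).mp hi, add_zero, map_one, h4] at h5
  rw [mul_comm]; exact h5

end Fermat.Agent.ES.PurityAd
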