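import Fermat.Agent.ES.Purity

/-!
# ES : (ET) from separability of the residue extension

`hET` of `Purity.isDedekindDomain_quotient` holds as soon as `B/π` embeds in a field `Λ` such that
the image of every `b : B` is separable over the fraction field of the image of `𝔸`.
-/

set_option autoImplicit false
set_option linter.unusedSectionVars false

namespace Fermat.Agent.ES.Purity

open Module

/-- the field generated by the image of `B` -/
abbrev L1 {B Λ : Type*} (k1 : Type*) [CommRing B] [Field Λ] [Field k1] [Algebra k1 Λ]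
    (ρ : B →+* Λ) : IntermediateField k1 Λ := IntermediateField.adjoin k1 (Set.range ρ)

/-- `ρ` with values in `L1` -/
def rhoL {B Λ : Type*} (k1 : Type*) [CommRing B] [Field Λ] [Field k1] [Algebra k1 Λ]
    (ρ : B →+* Λ) : B →+* L1 k1 ρ :=
  ρ.codRestrict (L1 k1 ρ).toSubring fun b => IntermediateField.subset_adjoin _ _ ⟨b, rfl⟩

theorem coe_rhoL {B Λ : Type*} (k1 : Type*) [CommRing B] [Field Λ] [Field k1] [Algebra k1 Λ]
    (ρ : B →+* Λ) (b : B) : ((rhoL k1 ρ b : L1 k1 ρ) : Λ) = ρ b := rfl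

section Sep

variable (𝔸 K E B : Type*) [CommRing 𝔸] [IsDomain 𝔸] [IsNoetherianRing 𝔸] [IsIntegrallyClosed 𝔸]
    [Field K] [Algebra 𝔸 K] [IsFractionRing 𝔸 K]
    [Field E] [Algebra K E] [Algebra 𝔸 E] [IsScalarTower 𝔸 K E]
    [FiniteDimensional K E] [Algebra.IsSeparable K E]
    [CommRing B] [Algebra 𝔸 B] [Algebra B E] [IsScalarTower 𝔸 B E] [IsIntegralClosure B 𝔸 E]
    (π : 𝔸)

variable {Λ k1 : Type*} [Field Λ] [Field k1] [Algebra k1 Λ] (ρ : B →+* Λ) (ψ : 𝔸 →+* k1)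
  (hρ : ∀ b, ρ b = 0 ↔ algebraMap 𝔸 B π ∣ b)
  (hψ : ∀ r, algebraMap k1 Λ (ψ r) = ρ (algebraMap 𝔸 B r))
  (hfrac : ∀ t : k1, ∃ r s : 𝔸, ψ s ≠ 0 ∧ t * ψ s = ψ r)
  (hsep : ∀ b, IsSeparable k1 (ρ b))

include hρ in
/-- (hdom) from an embedding of `B/π` in a field. -/
theorem isPrime_of_rho : (Ideal.span {algebraMap 𝔸 B π}).IsPrime := by
  have : Ideal.span {algebraMap 𝔸 B π} = RingHom.ker ρ := by
    ext b
    rw [Ideal.mem_span_singleton, RingHom.mem_ker, hρ]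
  rw [this]
  exact RingHom.ker_isPrime ρ

include K E hρ hψ in
theorem psi_eq_zero_iff (hπ : Prime π) (r : 𝔸) : ψ r = 0 ↔ π ∣ r := by
  rw [← map_eq_zero (algebraMap k1 Λ), hψ, hρ]
  constructor
  · intro h
    by_contra hr
    have h1 : algebraMap 𝔸 B π ∣ 1 :=
      dvd_of_dvd_mul 𝔸 K E B hπ hr 1 (by rwa [mul_one])
    have := (hρ 1).mpr h1
    rw [map_one] at this
    exact one_ne_zero this
  · exact fun h => map_dvd _ h

variable {n : ℕ} (bb : Basis (Fin n) (𝔸 ⧸ PA 𝔸 π) (B ⧸ PB 𝔸 B π)) (m : Fin n → B) (a : 𝔸)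
  (c : B → Fin n → 𝔸)
  (hm : ∀ i, Ideal.Quotient.mk (PB 𝔸 B π) (m i) = bb i) (ha3 : ¬ π ∣ a)
  (ha2 : Ideal.Quotient.mk (PA 𝔸 π) a = 1) (hc : ∀ x, a • x = ∑ i, c x i • m i)

include K E hρ hψ ha2 in
theorem psi_a (hπ : Prime π) : ψ a = 1 := by
  rw [← sub_eq_zero, ← map_one ψ, ← map_sub, psi_eq_zero_iff 𝔸 K E B π ρ ψ hρ hψ hπ,
    ← mk_eq_zero_iff, map_sub, ha2, map_one, sub_self]

include K E hρ hψ ha2 hc in
theorem rho_eq_sum (hπ : Prime π) (x : B) : ρ x = ∑ i, ψ (c x i) • ρ (m i) := by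
  have h := congrArg ρ (hc x)
  rw [Algebra.smul_def, map_mul, ← hψ, psi_a 𝔸 K E B π ρ ψ hρ hψ a ha2 hπ, map_one, one_mul,
    map_sum] at h
  rw [h]
  refine Finset.sum_congr rfl fun i _ => ?_
  rw [Algebra.smul_def, map_mul, ← hψ, Algebra.smul_def]

include K E hρ hψ hfrac hm in
theorem linearIndependent_rho (hπ : Prime π) : LinearIndependent k1 (fun i => ρ (m i)) := by
  rw [Fintype.linearIndependent_iff]
  intro t ht
  choose r s hs hrs using fun i => hfrac (t i)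
  -- common denominator
  set S : 𝔸 := ∏ i, s i with hS
  have hS0 : ψ S ≠ 0 := by
    rw [hS, map_prod]
    exact Finset.prod_ne_zero_iff.mpr fun i _ => hs i
  have hr' : ∀ i, ∃ r' : 𝔸, t i * ψ S = ψ r' := by
    intro i
    refine ⟨r i * ∏ j ∈ Finset.univ.erase i, s j, ?_⟩
    rw [hS, ← Finset.mul_prod_erase Finset.univ s (Finset.mem_univ i), map_mul, map_mul,
      ← mul_assoc, hrs]
  choose r' hr' using hr'
  have h1 : ρ (∑ i, r' i • m i) = 0 := by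
    rw [map_sum]
    have : ∀ i, ρ (r' i • m i) = ψ S • (t i • ρ (m i)) := by
      intro i
      rw [Algebra.smul_def, map_mul, ← hψ, ← hr', smul_smul, Algebra.smul_def, mul_comm (ψ S)]
    rw [Finset.sum_congr rfl fun i _ => this i, ← Finset.smul_sum, ht, smul_zero]
  rw [hρ, ← mem_pB_iff, ← Ideal.Quotient.eq_zero_iff_mem, mk_sum_smul] at h1
  have h2 : ∑ i, Ideal.Quotient.mk (PA 𝔸 π) (r' i) • bb i = 0 := by
    rw [← h1]
    exact Finset.sum_congr rfl fun i _ => by rw [hm]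
  intro i
  have h3 := Fintype.linearIndependent_iff.mp bb.linearIndependent _ h2 i
  rw [mk_eq_zero_iff, ← psi_eq_zero_iff 𝔸 K E B π ρ ψ hρ hψ hπ, ← hr'] at h3
  exact (mul_eq_zero.mp h3).resolve_right hS0



include K E hρ hψ hfrac hsep hm ha2 hc in
theorem exists_basis_L1 (hπ : Prime π) :
    ∃ bL : Basis (Fin n) k1 (L1 k1 ρ), ∀ i, bL i = rhoL k1 ρ (m i) := by
  have hli : LinearIndependent k1 (fun i => rhoL k1 ρ (m i)) := by
    apply LinearIndependent.of_comp (L1 k1 ρ).val.toLinearMap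
    exact linearIndependent_rho 𝔸 K E B π ρ ψ hρ hψ hfrac bb m hm hπ
  have hsp : ⊤ ≤ Submodule.span k1 (Set.range fun i => rhoL k1 ρ (m i)) := by
    rintro ⟨w, hw⟩ -
    have h1 : w ∈ (L1 k1 ρ).toSubalgebra := hw
    rw [IntermediateField.adjoin_toSubalgebra_of_isAlgebraic
      (by rintro _ ⟨b, rfl⟩; exact (hsep b).isIntegral.isAlgebraic),
      ← Subalgebra.mem_toSubmodule, Algebra.adjoin_eq_span] at h1
    have h2 : (Submonoid.closure (Set.range ρ) : Set Λ) = Set.range ρ := by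
      have : Set.range ρ = ((MonoidHom.mrange (ρ : B →* Λ) : Submonoid Λ) : Set Λ) := by
        ext; simp
      rw [this, Submonoid.closure_eq]
    rw [h2] at h1
    have h3 : Submodule.span k1 (Set.range ρ) ≤
        (Submodule.span k1 (Set.range fun i => rhoL k1 ρ (m i))).map
          (L1 k1 ρ).val.toLinearMap := by
      rw [Submodule.span_le]
      rintro _ ⟨b, rfl⟩
      refine ⟨∑ i, ψ (c b i) • rhoL k1 ρ (m i), ?_, ?_⟩
      · exact Submodule.sum_mem _ fun i _ =>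
          Submodule.smul_mem _ _ (Submodule.subset_span ⟨i, rfl⟩)
      · rw [map_sum, rho_eq_sum 𝔸 K E B π ρ ψ hρ hψ m a c ha2 hc hπ b]
        refine Finset.sum_congr rfl fun i _ => ?_
        rw [map_smul]
        rfl
    obtain ⟨w', hw', hww⟩ := h3 h1
    have : w' = ⟨w, hw⟩ := Subtype.ext hww
    rwa [← this]
  exact ⟨Basis.mk hli hsp, fun i => Basis.mk_apply hli hsp i⟩


include K E hρ hψ ha2 hc in
theorem rhoL_eq_sum (hπ : Prime π) (x : B) :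
    rhoL k1 ρ x = ∑ i, ψ (c x i) • rhoL k1 ρ (m i) := by
  apply Subtype.ext
  have : ((∑ i, ψ (c x i) • rhoL k1 ρ (m i) : L1 k1 ρ) : Λ)
      = (L1 k1 ρ).val.toLinearMap (∑ i, ψ (c x i) • rhoL k1 ρ (m i)) := rfl
  rw [this, map_sum, coe_rhoL, rho_eq_sum 𝔸 K E B π ρ ψ hρ hψ m a c ha2 hc hπ x]
  refine Finset.sum_congr rfl fun i _ => ?_
  rw [map_smul]
  rfl

variable (bE : Basis (Fin n) K E) (hbE : ∀ i, bE i = algebraMap B E (m i))
  (bL : Basis (Fin n) k1 (L1 k1 ρ)) (hbL : ∀ i, bL i = rhoL k1 ρ (m i))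

include hρ hψ ha2 hc hbE hbL in
theorem trace_rhoL (hπ : Prime π) (x : B) :
    Algebra.trace k1 (L1 k1 ρ) (rhoL k1 ρ x) = ψ (trI 𝔸 K E B x) := by
  have h1 : ψ (trI 𝔸 K E B x) = ψ (a * trI 𝔸 K E B x) := by
    rw [map_mul, psi_a 𝔸 K E B π ρ ψ hρ hψ a ha2 hπ, one_mul]
  rw [h1, smul_trI 𝔸 K E B m a c hc bE hbE, map_sum, Algebra.trace_eq_matrix_trace bL,
    Matrix.trace]
  refine Finset.sum_congr rfl fun k _ => ?_
  rw [Matrix.diag_apply, Algebra.leftMulMatrix_eq_repr_mul, hbL, ← map_mul,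
    rhoL_eq_sum 𝔸 K E B π ρ ψ hρ hψ m a c ha2 hc hπ]
  simp only [← hbL]
  rw [bL.repr_sum_self]


end Sep

section Main

variable (𝔸 K E B : Type*) [CommRing 𝔸] [IsDomain 𝔸] [IsNoetherianRing 𝔸] [IsIntegrallyClosed 𝔸]
    [Field K] [Algebra 𝔸 K] [IsFractionRing 𝔸 K]
    [Field E] [Algebra K E] [Algebra 𝔸 E] [IsScalarTower 𝔸 K E]
    [FiniteDimensional K E] [Algebra.IsSeparable K E]
    [CommRing B] [Algebra 𝔸 B] [Algebra B E] [IsScalarTower 𝔸 B E] [IsIntegralClosure B 𝔸 E]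
    (π : 𝔸)

/-- **(ET) from separability**, abstract form: `k1 = Frac (𝔸/π)`. -/
theorem hET_of_sep' (hπ : Prime π) [IsPrincipalIdealRing (𝔸 ⧸ Ideal.span {π})]
    {Λ k1 : Type*} [Field Λ] [Field k1] [Algebra k1 Λ] (ρ : B →+* Λ) (ψ : 𝔸 →+* k1)
    (hρ : ∀ b, ρ b = 0 ↔ algebraMap 𝔸 B π ∣ b)
    (hψ : ∀ r, algebraMap k1 Λ (ψ r) = ρ (algebraMap 𝔸 B r))
    (hfrac : ∀ t : k1, ∃ r s : 𝔸, ψ s ≠ 0 ∧ t * ψ s = ψ r)
    (hsep : ∀ b, IsSeparable k1 (ρ b)) :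
    ∀ x : B, (∀ y : B, ∃ a : 𝔸,
        Algebra.trace K E (algebraMap B E (x * y)) = algebraMap 𝔸 K (π * a)) →
        algebraMap 𝔸 B π ∣ x := by
  intro x hx
  obtain ⟨n, bb, m, a, c, hm, ha3, ha2, hc⟩ := exists_lift_basis 𝔸 K E B π hπ
  obtain ⟨bE, hbE⟩ := exists_basis 𝔸 K E B π bb m a c hm ha3 hc hπ
  obtain ⟨bL, hbL⟩ := exists_basis_L1 𝔸 K E B π ρ ψ hρ hψ hfrac hsep bb m a c hm ha2 hc hπ
  have hfd : FiniteDimensional k1 (L1 k1 ρ) := Module.Finite.of_basis bL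
  have hs : Algebra.IsSeparable k1 (L1 k1 ρ) := by
    rw [IntermediateField.isSeparable_adjoin_iff_isSeparable]
    rintro _ ⟨b, rfl⟩
    exact hsep b
  have h0 : rhoL k1 ρ x = 0 := by
    apply (traceForm_nondegenerate k1 (L1 k1 ρ)).1
    intro w
    rw [Algebra.traceForm_apply, ← bL.sum_repr w, Finset.mul_sum, map_sum]
    refine Finset.sum_eq_zero fun j _ => ?_
    rw [mul_smul_comm, map_smul, hbL, ← map_mul,
      trace_rhoL 𝔸 K E B π ρ ψ hρ hψ m a c ha2 hc bE hbE bL hbL hπ]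
    obtain ⟨r, hr⟩ := hx (m j)
    rw [← map_trI 𝔸 K E B] at hr
    rw [IsFractionRing.injective 𝔸 K hr, (psi_eq_zero_iff 𝔸 K E B π ρ ψ hρ hψ hπ _).mpr
      (dvd_mul_right π r), smul_zero]
  rw [← hρ, ← coe_rhoL k1 ρ, h0]
  rfl

/-- **(ET) from separability**: `B/π` embeds in a field `Λ` and the image of every element of `B`
is separable over the subfield generated by the image of `𝔸`. -/
theorem hET_of_sep (hπ : Prime π) [IsPrincipalIdealRing (𝔸 ⧸ Ideal.span {π})]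
    {Λ : Type*} [Field Λ] (ρ : B →+* Λ)
    (hρ : ∀ b, ρ b = 0 ↔ algebraMap 𝔸 B π ∣ b)
    (hsep : ∀ b : B,
      IsSeparable (Subfield.closure (Set.range (ρ.comp (algebraMap 𝔸 B)))) (ρ b)) :
    ∀ x : B, (∀ y : B, ∃ a : 𝔸,
        Algebra.trace K E (algebraMap B E (x * y)) = algebraMap 𝔸 K (π * a)) →
        algebraMap 𝔸 B π ∣ x := by
  set k1 : Subfield Λ := Subfield.closure (Set.range (ρ.comp (algebraMap 𝔸 B))) with hk1
  let ψ : 𝔸 →+* k1 := (ρ.comp (algebraMap 𝔸 B)).codRestrict k1.toSubring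
    fun r => Subfield.subset_closure ⟨r, rfl⟩
  refine hET_of_sep' 𝔸 K E B π hπ ρ ψ hρ (fun r => rfl) ?_ hsep
  rintro ⟨t, ht⟩
  obtain ⟨y, hy, z, hz, rfl⟩ := Subfield.mem_closure_iff.mp ht
  have hcl : Subring.closure (Set.range (ρ.comp (algebraMap 𝔸 B)))
      = (ρ.comp (algebraMap 𝔸 B)).range := by
    rw [← RingHom.coe_range, Subring.closure_eq]
  rw [hcl] at hy hz
  obtain ⟨r, rfl⟩ := hy
  obtain ⟨s, rfl⟩ := hz
  by_cases hs : (ρ.comp (algebraMap 𝔸 B)) s = 0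
  · refine ⟨0, 1, ?_, ?_⟩
    · rw [map_one]; exact one_ne_zero
    · apply Subtype.ext
      simp [hs]
  · refine ⟨r, s, ?_, ?_⟩
    · intro h
      exact hs (congrArg Subtype.val h)
    · apply Subtype.ext
      change (ρ.comp (algebraMap 𝔸 B)) r / (ρ.comp (algebraMap 𝔸 B)) s
        * (ρ.comp (algebraMap 𝔸 B)) s = (ρ.comp (algebraMap 𝔸 B)) r
      field_simp

/-- **Purity**, in the form: `B/π` embeds (via `ρ`) in a field, separably over `Frac (𝔸/π)`. -/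
theorem isDedekindDomain_quotient_of_rho
    (hπ : Prime π) [IsPrincipalIdealRing (𝔸 ⧸ Ideal.span {π})]
    {Λ : Type*} [Field Λ] (ρ : B →+* Λ)
    (hρ : ∀ b, ρ b = 0 ↔ algebraMap 𝔸 B π ∣ b)
    (hsep : ∀ b : B,
      IsSeparable (Subfield.closure (Set.range (ρ.comp (algebraMap 𝔸 B)))) (ρ b))
    (g : 𝔸) (hg : Squarefree (Ideal.Quotient.mk (Ideal.span {π}) g))
    (hRAM : ∀ y : E, (∀ b : B, ∃ a : 𝔸,
        Algebra.trace K E (y * algebraMap B E b) = algebraMap 𝔸 K a) →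
        ∃ (M k : ℕ) (u : B), 0 < M ∧
          algebraMap 𝔸 E π ^ k * (algebraMap 𝔸 E g * y) ^ M =
            algebraMap 𝔸 E g * algebraMap B E u) :
    IsDedekindDomain (B ⧸ Ideal.span {algebraMap 𝔸 B π}) :=
  isDedekindDomain_quotient 𝔸 K E B π hπ (isPrime_of_rho 𝔸 B π ρ hρ)
    (hET_of_sep 𝔸 K E B π hπ ρ hρ hsep) g hg hRAM

end Main

end Fermat.Agent.ES.Purity
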