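import Fermat.Agent.ES.QEVal

/-!
# ES, block MOD : charts (integral closures of `R[x]`) and the `q`-expansion principle
-/

set_option autoImplicit false
set_option linter.unusedSectionVars false
open ModularCurve Polynomial
noncomputable section
namespace Fermat.Agent.ES.QE

/-- ring hom version of LAM-N. -/
lemma isIntegralElem_of_prime_mul {R E : Type*} [CommRing R] [IsDomain R] [IsIntegrallyClosed R]
    [Field E] (φ : R →+* E) (hφ : Function.Injective φ) {π s : R} (hπ : Prime π) (hs : ¬ π ∣ s)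
    {g : E} (h1 : φ.IsIntegralElem (φ π * g)) (h2 : φ.IsIntegralElem (φ s * g)) :
    φ.IsIntegralElem g := by
  let _ := φ.toAlgebra
  have : FaithfulSMul R E := (faithfulSMul_iff_algebraMap_injective R E).2 hφ
  exact S28.isIntegral_of_prime_mul hπ hs h1 h2

lemma isIntegralElem_of_pow {R E : Type*} [CommRing R] [CommRing E] (φ : R →+* E) {g : E} {n : ℕ}
    (hn : 0 < n) (h : φ.IsIntegralElem (g ^ n)) : φ.IsIntegralElem g := by
  let _ := φ.toAlgebra
  exact IsIntegral.of_pow hn h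

/-- change of coordinate for integral elements. -/
lemma exists_pow_mul_isIntegralElem' {A₀ E : Type*} [CommRing A₀] [CommRing E] [Nontrivial E]
    (φj φx : A₀[X] →+* E) (q : E)
    (hq : ∀ (p : A₀[X]) (M : ℕ), p.natDegree ≤ M → q ^ M * φj p ∈ Set.range φx) {h : E}
    (hh : φj.IsIntegralElem h) : ∃ m : ℕ, φx.IsIntegralElem (q ^ m * h) := by
  obtain ⟨P, hP, hroot⟩ := hh
  set M : ℕ := (Finset.range (P.natDegree + 1)).sup (fun i => (P.coeff i).natDegree) with hM
  refine ⟨M, ?_⟩
  set Q : E[X] := (P.map φj).scaleRoots (q ^ M) with hQ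
  have hQm : Q.Monic := (monic_scaleRoots_iff _).mpr (hP.map _)
  have hQr : Q.eval (q ^ M * h) = 0 := by
    rw [hQ, scaleRoots_eval_mul, eval_map, hroot, mul_zero]
  have hQl : Q ∈ lifts φx := by
    rw [lifts_iff_coeff_lifts]
    intro i
    rw [hQ, coeff_scaleRoots, coeff_map, hP.natDegree_map]
    rcases lt_trichotomy i P.natDegree with hi | hi | hi
    · have h1 : (P.coeff i).natDegree ≤ M * (P.natDegree - i) := by
        calc (P.coeff i).natDegree ≤ M :=
              Finset.le_sup (f := fun i => (P.coeff i).natDegree) (Finset.mem_range.mpr (by omega))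
          _ = M * 1 := (mul_one M).symm
          _ ≤ M * (P.natDegree - i) := Nat.mul_le_mul_left M (by omega)
      rw [← pow_mul, mul_comm]
      exact hq _ _ h1
    · refine ⟨1, ?_⟩
      rw [hi, hP.coeff_natDegree, map_one, map_one, Nat.sub_self, pow_zero, mul_one]
    · refine ⟨0, ?_⟩
      rw [coeff_eq_zero_of_natDegree_lt hi, map_zero, map_zero, zero_mul]
  obtain ⟨Q', h1, -, h2⟩ := lifts_and_natDegree_eq_and_monic hQl hQm
  exact ⟨Q', h2, by rw [eval₂_eq_eval_map, h1, hQr]⟩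

variable {R K k : Type*} [CommRing R] [IsDomain R] [IsNoetherianRing R] [IsIntegrallyClosed R]
  [Field K] [Algebra R K] [IsFractionRing R K] [Field k] (D : QData R K k)

/-- elements of the function field which are integral over `R((q))` are in `Λ`. -/
theorem QData.mem_LamRing_of_isIntegralElem {f : LaurentSeries K} (hf : f ∈ D.F0)
    (hint : D.inc.IsIntegralElem f) : f ∈ D.LamRing := by
  by_cases hf0 : f = 0
  · rw [hf0]; exact Subring.zero_mem _
  rcases D.isFrac_or hf hf0 with ⟨e, t, w, ht, hw, h⟩ | ⟨e, t, w, ht, hw, h⟩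
  · exact ⟨t, D.ϖW ^ (e + 1) * w, ht, by rw [map_mul, map_pow, D.inc_ϖW]; exact h⟩
  · cases e with
    | zero => exact ⟨t, w, ht, by rw [← h, pow_zero, one_mul]⟩
    | succ e =>
      exfalso
      apply hw
      have hg : D.inc.IsIntegralElem (D.inc (D.ϖW ^ e * t) * f) :=
        (D.inc.isIntegralElem_map).mul _ hint
      refine S28.Lam.map_eq_zero_of_isIntegralElem D.inc D.inc_injective D.red D.red_ϖW hg ?_
      rw [← h, map_mul, map_pow, D.inc_ϖW, pow_succ]
      ring

/-- A coordinate function `x` on the base line: `j Q(x) = P(x)`. -/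
structure QData.Coord where
  /-- the `q`-expansion of `x` -/
  xW : LaurentSeries R
  mem : D.inc xW ∈ D.F0
  /-- numerator of `j` -/
  P : R[X]
  /-- denominator of `j` -/
  Q : R[X]
  Q_prim : ¬ C D.ϖ ∣ Q
  rel : jqModC R * evS xW Q = evS xW P
  trans : ∀ p : k[X], p ≠ 0 → evS (D.red xW) p ≠ 0

variable {D}
variable (X : D.Coord)

/-- evaluation at `x`, with values in `K((q))`. -/
def QData.Coord.phi : R[X] →+* LaurentSeries K := D.inc.comp (evS X.xW)

lemma QData.Coord.phi_apply (σ : R[X]) : X.phi σ = D.inc (evS X.xW σ) := rfl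

/-- the coordinate as an element of the function field. -/
def QData.Coord.x : D.F0 := ⟨D.inc X.xW, X.mem⟩

lemma QData.inc_C_mem (a : R) : D.inc (HahnSeries.C a) ∈ D.F0 := by
  have : D.inc (HahnSeries.C a) = algebraMap K (LaurentSeries K) (algebraMap R K a) := by
    rw [algebraMap_eq_C]; exact coeffMap_C _ _
  rw [this]
  exact D.F0.algebraMap_mem _

lemma QData.Coord.phi_mem (σ : R[X]) : X.phi σ ∈ D.F0 := by
  induction σ using Polynomial.induction_on' with
  | add p q hp hq => rw [map_add]; exact add_mem hp hq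
  | monomial n a =>
    rw [← C_mul_X_pow_eq_monomial, map_mul, map_pow, X.phi_apply, X.phi_apply, evS_C, evS_X]
    exact mul_mem (QData.inc_C_mem a) (pow_mem X.mem n)

lemma QData.Coord.red_evS_ne_zero {σ : R[X]} (hσ : ¬ C D.ϖ ∣ σ) : D.red (evS X.xW σ) ≠ 0 := by
  rw [D.red_evS]
  exact X.trans _ (fun h => hσ ((D.map_res_eq_zero_iff σ).1 h))

lemma QData.Coord.evS_ne_zero {σ : R[X]} (hσ : σ ≠ 0) : evS X.xW σ ≠ 0 := by
  obtain ⟨a, s, hs, rfl⟩ := WfDvdMonoid.max_power_factor' hσ D.prime_C_ϖ.not_isUnit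
  rw [map_mul, map_pow, evS_C]
  have h1 : evS X.xW s ≠ 0 := fun h => X.red_evS_ne_zero hs (by rw [h, map_zero])
  have h2 : (HahnSeries.C D.ϖ : LaurentSeries R) ≠ 0 := by
    intro h0
    apply D.ϖE_ne_zero
    rw [← D.inc_ϖW, QData.ϖW, h0, map_zero]
  exact mul_ne_zero (pow_ne_zero a h2) h1

lemma QData.Coord.phi_injective : Function.Injective X.phi := by
  rw [injective_iff_map_eq_zero]
  intro σ hσ
  by_contra h
  exact X.evS_ne_zero h (D.inc_injective (by rw [map_zero]; exact hσ))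

/-- `Q(x)^M p(j)` is a polynomial in `x`. -/
lemma QData.Coord.pow_mul_mem_range (p : R[X]) (M : ℕ) (hM : p.natDegree ≤ M) :
    ∃ σ : R[X], evS X.xW σ = evS X.xW X.Q ^ M * evS (jqModC R) p := by
  refine ⟨∑ i ∈ Finset.range (M + 1), C (p.coeff i) * X.P ^ i * X.Q ^ (M - i), ?_⟩
  rw [map_sum, evS_apply (jqModC R), eval₂_eq_sum_range' _ (Nat.lt_succ_of_le hM), Finset.mul_sum]
  refine Finset.sum_congr rfl fun i hi => ?_
  have hi' : i ≤ M := Nat.lt_succ_iff.mp (Finset.mem_range.mp hi)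
  obtain ⟨e, rfl⟩ := Nat.exists_eq_add_of_le hi'
  rw [map_mul, map_mul, map_pow, map_pow, evS_C, ← X.rel, Nat.add_sub_cancel_left, pow_add]
  ring

lemma QData.Coord.exists_pow_mul_isIntegralElem {h : LaurentSeries K}
    (hh : (D.inc.comp (evS (jqModC R))).IsIntegralElem h) :
    ∃ m : ℕ, X.phi.IsIntegralElem (X.phi X.Q ^ m * h) := by
  refine exists_pow_mul_isIntegralElem' _ _ _ ?_ hh
  intro p M hM
  obtain ⟨σ, hσ⟩ := X.pow_mul_mem_range p M hM
  exact ⟨σ, by rw [X.phi_apply, hσ, map_mul, map_pow]; rfl⟩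

/-- a common power for the basis. -/
lemma QData.Coord.exists_pow_mul_b :
    ∃ m : ℕ, ∀ i, X.phi.IsIntegralElem (X.phi X.Q ^ m * D.inc (D.b i)) := by
  have h : ∀ i, ∃ m : ℕ, X.phi.IsIntegralElem (X.phi X.Q ^ m * D.inc (D.b i)) :=
    fun i => X.exists_pow_mul_isIntegralElem (D.int i)
  choose m hm using h
  refine ⟨Finset.univ.sup m, fun i => ?_⟩
  obtain ⟨e, he⟩ := Nat.exists_eq_add_of_le (Finset.le_sup (f := m) (Finset.mem_univ i))
  rw [he, pow_add, mul_comm (X.phi X.Q ^ m i), mul_assoc, ← map_pow]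
  exact (X.phi.isIntegralElem_map).mul _ (hm i)

/-- **core**: every `ϖ`-integral function becomes integral over `R[x]` after multiplication by a
primitive polynomial in `x`. -/
theorem QData.Coord.exists_mul_isIntegralElem {g : LaurentSeries K} (hg : g ∈ D.F0)
    (hL : g ∈ D.LamRing) :
    ∃ σ : R[X], ¬ C D.ϖ ∣ σ ∧ X.phi.IsIntegralElem (X.phi σ * g) := by
  obtain ⟨s, r, hs, h⟩ := D.exists_frac hg hL
  obtain ⟨m, hm⟩ := X.exists_pow_mul_b
  set M : ℕ := Finset.univ.sup (fun i => (r i).natDegree) with hM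
  obtain ⟨σ, hσ⟩ := X.pow_mul_mem_range s s.natDegree le_rfl
  have hσ' : ¬ C D.ϖ ∣ σ := by
    intro hd
    have h1 : D.red (evS X.xW σ) = 0 := by
      rw [D.red_evS, (D.map_res_eq_zero_iff σ).2 hd, map_zero]
    rw [hσ, map_mul, map_pow] at h1
    exact (mul_ne_zero (pow_ne_zero _ (X.red_evS_ne_zero X.Q_prim)) (D.red_evS_j_ne_zero hs)) h1
  refine ⟨σ * X.Q ^ (M + m), fun hd => ?_, ?_⟩
  · rcases D.prime_C_ϖ.dvd_or_dvd hd with h1 | h1
    · exact hσ' h1
    · exact X.Q_prim (D.prime_C_ϖ.dvd_of_dvd_pow h1)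
  · have e1 : X.phi (σ * X.Q ^ (M + m)) * g =
        X.phi (X.Q ^ s.natDegree) * ∑ i, (X.phi X.Q ^ M * D.inc (evS (jqModC R) (r i))) *
          (X.phi X.Q ^ m * D.inc (D.b i)) := by
      have e2 : ∑ i, (X.phi X.Q ^ M * D.inc (evS (jqModC R) (r i))) *
          (X.phi X.Q ^ m * D.inc (D.b i)) = X.phi X.Q ^ (M + m) * D.inc (D.mW r) := by
        rw [QData.mW, map_sum, Finset.mul_sum]
        refine Finset.sum_congr rfl fun i _ => ?_
        rw [map_mul, pow_add]
        ring
      rw [e2, ← h, map_mul, X.phi_apply σ, hσ, map_mul, map_pow, map_pow, map_pow]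
      rw [X.phi_apply X.Q]
      ring
    rw [e1]
    refine (X.phi.isIntegralElem_map).mul _ ?_
    refine Finset.sum_induction _ X.phi.IsIntegralElem (fun a b ha hb => ha.add _ hb)
      X.phi.isIntegralElem_zero ?_
    intro i _
    refine RingHom.IsIntegralElem.mul _ ?_ (hm i)
    obtain ⟨τ, hτ⟩ := X.pow_mul_mem_range (r i) M
      (Finset.le_sup (f := fun i => (r i).natDegree) (Finset.mem_univ i))
    have : X.phi X.Q ^ M * D.inc (evS (jqModC R) (r i)) = X.phi τ := by
      rw [X.phi_apply τ, hτ, map_mul, map_pow]; rfl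
    rw [this]
    exact X.phi.isIntegralElem_map

/-- the chart: the integral closure of `R[x]` in the function field. -/
def QData.Coord.chart : Subring D.F0 where
  carrier := {f | X.phi.IsIntegralElem (f : LaurentSeries K)}
  mul_mem' := fun {a b} ha hb => by
    show X.phi.IsIntegralElem ((a * b : D.F0) : LaurentSeries K)
    rw [IntermediateField.coe_mul]
    exact RingHom.IsIntegralElem.mul _ ha hb
  one_mem' := by
    show X.phi.IsIntegralElem ((1 : D.F0) : LaurentSeries K)
    rw [IntermediateField.coe_one]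
    exact X.phi.isIntegralElem_one
  add_mem' := fun {a b} ha hb => by
    show X.phi.IsIntegralElem ((a + b : D.F0) : LaurentSeries K)
    rw [IntermediateField.coe_add]
    exact RingHom.IsIntegralElem.add _ ha hb
  zero_mem' := by
    show X.phi.IsIntegralElem ((0 : D.F0) : LaurentSeries K)
    rw [IntermediateField.coe_zero]
    exact X.phi.isIntegralElem_zero
  neg_mem' := fun {a} ha => by
    show X.phi.IsIntegralElem ((-a : D.F0) : LaurentSeries K)
    rw [IntermediateField.coe_neg]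
    exact RingHom.IsIntegralElem.neg _ ha

lemma QData.Coord.mem_chart {f : D.F0} :
    f ∈ X.chart ↔ X.phi.IsIntegralElem (f : LaurentSeries K) := Iff.rfl

/-- evaluation at `x`, with values in the function field. -/
def QData.Coord.phiF : R[X] →+* D.F0 := X.phi.codRestrict D.F0 X.phi_mem

lemma QData.Coord.coe_phiF (σ : R[X]) : (X.phiF σ : LaurentSeries K) = X.phi σ := rfl

lemma QData.Coord.phiF_mem_chart (σ : R[X]) : X.phiF σ ∈ X.chart := X.phi.isIntegralElem_map

lemma QData.Coord.phiF_C_ϖ : X.phiF (C D.ϖ) = D.ϖF := by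
  apply Subtype.ext
  rw [X.coe_phiF, X.phi_apply, evS_C, D.coe_ϖF]
  exact D.inc_ϖW

lemma QData.Coord.phiF_X : X.phiF Polynomial.X = X.x := by
  apply Subtype.ext
  rw [X.coe_phiF, X.phi_apply, evS_X]
  rfl

lemma QData.Coord.chart_le_gaussO {f : D.F0} (hf : f ∈ X.chart) : f ∈ D.gaussO :=
  D.mem_LamRing_of_isIntegralElem f.2 (RingHom.IsIntegralElem.of_comp hf)

lemma QData.Coord.phiF_inv_mem_gaussO {σ : R[X]} (hσ : ¬ C D.ϖ ∣ σ) :
    (X.phiF σ)⁻¹ ∈ D.gaussO := by
  rw [D.mem_gaussO, IntermediateField.coe_inv, X.coe_phiF]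
  have h0 : X.phi σ ≠ 0 := by
    rw [Ne, map_eq_zero_iff _ X.phi_injective]
    rintro rfl
    exact hσ (dvd_zero _)
  exact ⟨evS X.xW σ, 1, X.red_evS_ne_zero hσ, by
    rw [map_one, ← X.phi_apply, mul_inv_cancel₀ h0]⟩

/-- (I1) saturation. -/
theorem QData.Coord.chart_sat {f : D.F0} (hf : f ∈ X.chart) {y : D.F0} (hy : y ∈ D.gaussO)
    (h : f = D.ϖF * y) : y ∈ X.chart := by
  obtain ⟨σ, hσ, hint⟩ := X.exists_mul_isIntegralElem y.2 hy
  refine isIntegralElem_of_prime_mul X.phi X.phi_injective D.prime_C_ϖ hσ ?_ hint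
  have : X.phi (C D.ϖ) * (y : LaurentSeries K) = (f : LaurentSeries K) := by
    rw [h, IntermediateField.coe_mul, ← X.phiF_C_ϖ, X.coe_phiF]
  rw [this]
  exact hf

theorem QData.Coord.chart_root {m : ℕ} (hm : 0 < m) {f : D.F0} (hf : f ^ m ∈ X.chart) :
    f ∈ X.chart := by
  rw [X.mem_chart, IntermediateField.coe_pow] at hf
  exact isIntegralElem_of_pow _ hm hf

theorem QData.Coord.isChart {m : ℕ} (hm : IsUnit (m : R)) :
    Model.IsChart D.gaussO D.ϖF m X.chart where
  le := fun _ hx => X.chart_le_gaussO hx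
  unif_mem := by rw [← X.phiF_C_ϖ]; exact X.phiF_mem_chart _
  m_ne := by
    have h1 : IsUnit (X.phiF (C (m : R))) := (hm.map C).map X.phiF
    rw [map_natCast C, map_natCast] at h1
    exact h1.ne_zero
  inv_mem := by
    obtain ⟨u, hu⟩ := hm
    have h1 : (m : D.F0)⁻¹ = X.phiF (C (↑u⁻¹ : R)) := by
      rw [inv_eq_iff_eq_inv]
      symm
      apply inv_eq_of_mul_eq_one_left
      rw [← map_natCast (X.phiF.comp C) m, ← hu, RingHom.comp_apply, ← map_mul, ← map_mul,
        Units.mul_inv, map_one, map_one]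
    rw [h1]
    exact X.phiF_mem_chart _
  sat := by
    rintro f hf ⟨y, hy, h⟩
    rw [pow_one] at h
    exact ⟨y, X.chart_sat hf hy h, h⟩
  root := by
    intro f hf
    refine X.chart_root (Nat.pos_of_ne_zero ?_) hf
    rintro rfl
    rw [Nat.cast_zero] at hm
    exact not_isUnit_zero hm

theorem QData.Coord.hloc {g : D.F0} (hg : g ∈ D.gaussO) :
    ∃ s ∈ X.chart, s ≠ 0 ∧ s⁻¹ ∈ D.gaussO ∧ s * g ∈ X.chart := by
  obtain ⟨σ, hσ, hint⟩ := X.exists_mul_isIntegralElem g.2 hg
  refine ⟨X.phiF σ, X.phiF_mem_chart σ, ?_, X.phiF_inv_mem_gaussO hσ, ?_⟩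
  · intro h0
    have : X.phi σ = 0 := congrArg Subtype.val h0
    rw [map_eq_zero_iff _ X.phi_injective] at this
    exact hσ (this ▸ dvd_zero _)
  · rw [X.mem_chart, IntermediateField.coe_mul, X.coe_phiF]
    exact hint

end Fermat.Agent.ES.QE
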