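import Fermat.Agent.ES.QEChart

/-!
# ES, block MOD : the chart at infinity and the intersection chart
-/

set_option autoImplicit false
set_option linter.unusedSectionVars false
open ModularCurve Polynomial
noncomputable section
namespace Fermat.Agent.ES.QE

variable {R K k : Type*} [CommRing R] [IsDomain R] [IsNoetherianRing R] [IsIntegrallyClosed R]
  [Field K] [Algebra R K] [IsFractionRing R K] [Field k] {D : QData R K k}

lemma evS_mul_pow_eq_reflect {A : Type*} [CommRing A] {x y : LaurentSeries A} (hxy : x * y = 1)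
    (p : A[X]) {M : ℕ} (hM : p.natDegree ≤ M) : evS x p * y ^ M = evS y (reflect M p) :=
  S28.Lam.eval₂_mul_pow_eq_reflect _ hxy p hM

lemma QData.not_C_dvd_reflect {p : R[X]} (hp : ¬ C D.ϖ ∣ p) (M : ℕ) :
    ¬ C D.ϖ ∣ reflect M p := by
  intro h
  apply hp
  rw [C_dvd_iff_dvd_coeff] at h ⊢
  intro i
  have := h (revAt M i)
  rwa [coeff_reflect, revAt_invol] at this

/-- the coordinate `1 / x`. -/
def QData.Coord.inv (X : D.Coord) (y : LaurentSeries R) (hy : X.xW * y = 1) : D.Coord where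
  xW := y
  mem := by
    have h : D.inc X.xW * D.inc y = 1 := by rw [← map_mul, hy, map_one]
    rw [eq_inv_of_mul_eq_one_right h]
    exact inv_mem X.mem
  P := reflect (max X.P.natDegree X.Q.natDegree) X.P
  Q := reflect (max X.P.natDegree X.Q.natDegree) X.Q
  Q_prim := QData.not_C_dvd_reflect X.Q_prim _
  rel := by
    rw [← evS_mul_pow_eq_reflect hy _ (le_max_left _ _),
      ← evS_mul_pow_eq_reflect hy _ (le_max_right _ _), ← X.rel, mul_assoc]
  trans := by
    intro p hp h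
    have hyx : D.red y * D.red X.xW = 1 := by rw [← map_mul, mul_comm, hy, map_one]
    have h1 := evS_mul_pow_eq_reflect hyx p le_rfl
    rw [h, zero_mul] at h1
    exact X.trans _ (by rw [Ne, reflect_eq_zero_iff]; exact hp) h1.symm

variable (X : D.Coord) (y : LaurentSeries R) (hy : X.xW * y = 1)

lemma QData.Coord.x_ne_zero (hy : X.xW * y = 1) : X.x ≠ 0 := by
  intro h
  have h1 : D.inc X.xW = 0 := congrArg Subtype.val h
  have h2 : D.inc X.xW * D.inc y = 1 := by rw [← map_mul, hy, map_one]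
  rw [h1, zero_mul] at h2
  exact zero_ne_one h2

lemma QData.Coord.inv_x : (X.inv y hy).x = X.x⁻¹ := by
  apply Subtype.ext
  rw [IntermediateField.coe_inv]
  have h : D.inc X.xW * D.inc y = 1 := by rw [← map_mul, hy, map_one]
  exact eq_inv_of_mul_eq_one_right h

lemma QData.Coord.x_mem_chart : X.x ∈ X.chart := by
  rw [← X.phiF_X]; exact X.phiF_mem_chart _

/-- integral over `R[x]` implies integral over `R[1/x]` up to a power of `1/x`. -/
lemma QData.Coord.exists_pow_mul_mem_inv {f : D.F0} (hf : f ∈ X.chart) :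
    ∃ n : ℕ, X.x⁻¹ ^ n * f ∈ (X.inv y hy).chart := by
  have hxy : D.inc X.xW * D.inc y = 1 := by rw [← map_mul, hy, map_one]
  have e1 : X.phi = eval₂RingHom (D.inc.comp HahnSeries.C) (D.inc X.xW) := by
    refine ringHom_ext' ?_ ?_
    · ext a
      simp [QData.Coord.phi]
    · simp [QData.Coord.phi]
  have e2 : (X.inv y hy).phi = eval₂RingHom (D.inc.comp HahnSeries.C) (D.inc y) := by
    refine ringHom_ext' ?_ ?_
    · ext a
      simp [QData.Coord.phi]
    · simp [QData.Coord.phi, QData.Coord.inv]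
  rw [X.mem_chart, e1] at hf
  obtain ⟨n, hn⟩ := S28.Lam.exists_pow_mul_isIntegralElem _ hxy hf
  refine ⟨n, ?_⟩
  rw [QData.Coord.mem_chart, e2, IntermediateField.coe_mul, IntermediateField.coe_pow,
    ← X.inv_x y hy]
  exact hn

lemma QData.Coord.inv_inv_chart : ((X.inv y hy).inv X.xW (by rw [mul_comm]; exact hy)).chart =
    X.chart := by
  ext f
  rfl

lemma QData.Coord.exists_pow_mul_mem_of_inv {f : D.F0} (hf : f ∈ (X.inv y hy).chart) :
    ∃ n : ℕ, X.x ^ n * f ∈ X.chart := by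
  obtain ⟨n, hn⟩ := (X.inv y hy).exists_pow_mul_mem_inv X.xW (by rw [mul_comm]; exact hy) hf
  refine ⟨n, ?_⟩
  rw [X.inv_x y hy, inv_inv] at hn
  exact hn

/-- the intersection chart `B₁[1/x]`. -/
def QData.Coord.chart12 : Subring D.F0 where
  carrier := {f | ∃ n : ℕ, X.x ^ n * f ∈ X.chart}
  mul_mem' := by
    rintro a b ⟨n, hn⟩ ⟨m, hm⟩
    refine ⟨n + m, ?_⟩
    have : X.x ^ (n + m) * (a * b) = (X.x ^ n * a) * (X.x ^ m * b) := by ring
    rw [this]
    exact mul_mem hn hm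
  one_mem' := ⟨0, by rw [pow_zero, one_mul]; exact one_mem _⟩
  add_mem' := by
    rintro a b ⟨n, hn⟩ ⟨m, hm⟩
    refine ⟨n + m, ?_⟩
    have : X.x ^ (n + m) * (a + b) = X.x ^ m * (X.x ^ n * a) + X.x ^ n * (X.x ^ m * b) := by ring
    rw [this]
    exact add_mem (mul_mem (pow_mem X.x_mem_chart m) hn) (mul_mem (pow_mem X.x_mem_chart n) hm)
  zero_mem' := ⟨0, by rw [mul_zero]; exact zero_mem _⟩
  neg_mem' := by
    rintro a ⟨n, hn⟩
    exact ⟨n, by rw [mul_neg]; exact neg_mem hn⟩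

lemma QData.Coord.mem_chart12 {f : D.F0} : f ∈ X.chart12 ↔ ∃ n : ℕ, X.x ^ n * f ∈ X.chart :=
  Iff.rfl

lemma QData.Coord.chart_le_chart12 : X.chart ≤ X.chart12 :=
  fun f hf => ⟨0, by rw [pow_zero, one_mul]; exact hf⟩

lemma QData.Coord.inv_chart_le_chart12 : (X.inv y hy).chart ≤ X.chart12 :=
  fun _ hf => X.exists_pow_mul_mem_of_inv y hy hf

lemma QData.Coord.h12a {f : D.F0} (hf : f ∈ X.chart12) : ∃ n : ℕ, X.x ^ n * f ∈ X.chart := hf

lemma QData.Coord.x_inv_mem_inv_chart : X.x⁻¹ ∈ (X.inv y hy).chart := by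
  rw [← X.inv_x y hy]; exact (X.inv y hy).x_mem_chart

lemma QData.Coord.h12b {f : D.F0} (hf : f ∈ X.chart12) :
    ∃ n : ℕ, X.x⁻¹ ^ n * f ∈ (X.inv y hy).chart := by
  obtain ⟨n, hn⟩ := hf
  obtain ⟨m, hm⟩ := X.exists_pow_mul_mem_inv y hy hn
  refine ⟨m, ?_⟩
  have hx := X.x_ne_zero y hy
  have : X.x⁻¹ ^ m * f = X.x⁻¹ ^ n * (X.x⁻¹ ^ m * (X.x ^ n * f)) := by
    have e : X.x⁻¹ ^ n * X.x ^ n = 1 := by rw [← mul_pow, inv_mul_cancel₀ hx, one_pow]
    calc X.x⁻¹ ^ m * f = (X.x⁻¹ ^ n * X.x ^ n) * (X.x⁻¹ ^ m * f) := by rw [e, one_mul]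
      _ = _ := by ring
  rw [this]
  exact mul_mem (pow_mem (X.x_inv_mem_inv_chart y hy) n) hm

include hy in
theorem QData.Coord.isChart12 {m : ℕ} (hm : IsUnit (m : R)) :
    Model.IsChart D.gaussO D.ϖF m X.chart12 := by
  have h1 := X.isChart hm
  have hx := X.x_ne_zero y hy
  have hxi : X.x⁻¹ ∈ D.gaussO :=
    (X.inv y hy).chart_le_gaussO (X.x_inv_mem_inv_chart y hy)
  have hxO : X.x ∈ D.gaussO := X.chart_le_gaussO X.x_mem_chart
  refine ⟨?_, X.chart_le_chart12 h1.unif_mem, h1.m_ne, X.chart_le_chart12 h1.inv_mem, ?_, ?_⟩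
  · rintro f ⟨n, hn⟩
    have : f = X.x⁻¹ ^ n * (X.x ^ n * f) := by
      rw [← mul_assoc, ← mul_pow, inv_mul_cancel₀ hx, one_pow, one_mul]
    rw [this]
    exact D.gaussO.mul_mem _ _ (D.gaussO.pow_mem hxi n) (h1.le _ hn)
  · rintro f ⟨n, hn⟩ ⟨z, hz, h⟩
    rw [pow_one] at h
    refine ⟨z, ⟨n, ?_⟩, h⟩
    refine X.chart_sat hn (D.gaussO.mul_mem _ _ (D.gaussO.pow_mem hxO n) hz) ?_
    rw [h]; ring
  · rintro f ⟨n, hn⟩
    refine ⟨n, h1.root _ ?_⟩
    have hm0 : m ≠ 0 := by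
      rintro rfl
      rw [Nat.cast_zero] at hm
      exact not_isUnit_zero hm
    obtain ⟨e, rfl⟩ := Nat.exists_eq_succ_of_ne_zero hm0
    have : (X.x ^ n * f) ^ (e + 1) = (X.x ^ n) ^ e * (X.x ^ n * f ^ (e + 1)) := by ring
    rw [this]
    exact mul_mem (pow_mem (pow_mem X.x_mem_chart n) e) hn

/-- the constants `R` inside the function field. -/
def QData.RF (D : QData R K k) : Subring D.F0 :=
  ((algebraMap K D.F0).comp (algebraMap R K)).range

instance (D : QData R K k) : IsNoetherianRing D.RF := by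
  unfold QData.RF
  infer_instance

lemma QData.Coord.phiF_C (a : R) : X.phiF (C a) = algebraMap K D.F0 (algebraMap R K a) := by
  apply Subtype.ext
  rw [X.coe_phiF, X.phi_apply, evS_C]
  have : ((algebraMap K D.F0 (algebraMap R K a) : D.F0) : LaurentSeries K) =
      algebraMap K (LaurentSeries K) (algebraMap R K a) := rfl
  rw [this, algebraMap_eq_C]
  exact coeffMap_C _ _

lemma QData.Coord.RF_le_chart : D.RF ≤ X.chart := by
  rintro _ ⟨a, rfl⟩
  rw [RingHom.comp_apply, ← X.phiF_C]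
  exact X.phiF_mem_chart _

lemma QData.ϖF_mem_RF : D.ϖF ∈ D.RF := ⟨D.ϖ, rfl⟩

end Fermat.Agent.ES.QE
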