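import Fermat.Agent.ES.QEPur
import Fermat.Agent.ES.ETGlue
import Fermat.Agent.ES.InstRam

/-!
# ES, block INJ : normality of the special fibre of a `QE` chart (glue)

`QEPur.hded` + `ETGlue.hET` (helper8) + `InstRam.hRAM_inst` (helper7).
-/

set_option autoImplicit false
set_option linter.unusedSectionVars false
set_option linter.style.haveILetI false
open ModularCurve Polynomial
noncomputable section

namespace Fermat.Agent.ES.QE

variable {R K k : Type*} [CommRing R] [IsDomain R] [IsNoetherianRing R] [IsIntegrallyClosed R]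
  [Field K] [Algebra R K] [IsFractionRing R K] [Field k] {D : QData R K k} (X : D.Coord)

/-- (ET) from a primitive element with unit different. -/
theorem QData.Coord.HET_of_theta [CharZero K] (T : D.Theta) : X.HET := by
  letI := algRKX R K
  letI := X.algKXF
  letI := X.algRF
  letI := X.algRB
  haveI := isFractionRing_KX R K
  haveI := X.towerRF
  haveI := X.finiteDimensional
  haveI := X.towerRB
  haveI := X.isIntegralClosure
  intro f hf h
  obtain ⟨z, hz⟩ := X.hET T (Kx := KX K) (fun _ => rfl) (fun _ => rfl) ⟨f, hf⟩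
    (fun y => h y y.2)
  refine ⟨z, z.2, ?_⟩
  have := congrArg Subtype.val hz
  rw [X.algebraMap_C_ϖ] at this
  exact this

end Fermat.Agent.ES.QE

namespace Fermat.Agent.ES.Inst

open AlgebraicCurve IntermediateField
open Fermat.Agent.S24 Fermat.Agent.S28 Fermat.Agent.ES.QE Fermat.Agent.ES.IDvr

/-- (RAM) from unramifiedness at the places of `FF N`. -/
theorem HRAM_inst {A : ValuationSubring Kb} {K0 : IntermediateField ℚ Kb}
    [IsDiscreteValuationRing (R0 K0 A)] (N : ℕ) (D : QData (R0 K0 A) K0 (kA A)) (X : D.Coord)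
    (ι : D.F0 →+* FF N)
    (hι : ∀ f : D.F0, ((ι f : FF N) : LaurentSeries Kb) = bc K0 (f : LaurentSeries K0))
    (hy : Transcendental Kb (ι X.x)) [FiniteDimensional Kb⟮ι X.x⟯ (FF N)]
    (g : (R0 K0 A)[X]) (hg : g ≠ 0)
    (hU : ∀ a : Kb, (g.map ((algebraMap K0 Kb).comp (algebraMap (R0 K0 A) K0))).eval a ≠ 0 →
      ∀ v : Place Kb (FF N), 0 < v.ord (ι X.x - algebraMap Kb (FF N) a) →
        v.ord (ι X.x - algebraMap Kb (FF N) a) = 1) : X.HRAM g := by
  letI := algRKX (R0 K0 A) K0
  letI := X.algKXF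
  letI := X.algRF
  letI := X.algRB
  haveI := isFractionRing_KX (R0 K0 A) K0
  haveI := X.towerRF
  haveI := X.finiteDimensional
  haveI := X.towerRB
  haveI := X.isIntegralClosure
  intro y h
  obtain ⟨M, e, u, hM, hu⟩ := hRAM_inst N D X ι hι hy g hg hU (KX K0) X.chart (fun _ => rfl) y
    (fun b => h b b.2)
  refine ⟨M, e, u, u.2, hM, ?_⟩
  rw [← X.phiF_C_ϖ]
  exact hu

/-- **I-DED**: normality of the special fibre of a chart. -/
theorem hded_inst {A : ValuationSubring Kb} {K0 : IntermediateField ℚ Kb}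
    [IsDiscreteValuationRing (R0 K0 A)] (N : ℕ) (D : QData (R0 K0 A) K0 (kA A)) (X : D.Coord)
    (T : D.Theta) (ι : D.F0 →+* FF N)
    (hι : ∀ f : D.F0, ((ι f : FF N) : LaurentSeries Kb) = bc K0 (f : LaurentSeries K0))
    (hy : Transcendental Kb (ι X.x)) [FiniteDimensional Kb⟮ι X.x⟯ (FF N)]
    (g : (R0 K0 A)[X]) (hg : (g.map D.res).Separable)
    (hU : ∀ a : Kb, (g.map ((algebraMap K0 Kb).comp (algebraMap (R0 K0 A) K0))).eval a ≠ 0 →
      ∀ v : Place Kb (FF N), 0 < v.ord (ι X.x - algebraMap Kb (FF N) a) →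
        v.ord (ι X.x - algebraMap Kb (FF N) a) = 1) :
    IsDedekindDomain (X.chart ⧸ Ideal.span {ϖB X}) := by
  have hg0 : g ≠ 0 := by
    rintro rfl
    rw [Polynomial.map_zero] at hg
    exact hg.ne_zero rfl
  have hprime : (Ideal.span {D.ϖ}).IsPrime :=
    (Ideal.span_singleton_prime D.ϖ_ne).mpr D.prime_ϖ
  have hmax : (Ideal.span {D.ϖ}).IsMaximal :=
    hprime.isMaximal (by rw [Ne, Ideal.span_singleton_eq_bot]; exact D.ϖ_ne)
  exact X.hded hmax (X.HET_of_theta T) g hg.squarefree (HRAM_inst N D X ι hι hy g hg0 hU)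

end Fermat.Agent.ES.Inst
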