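import Mathlib
import Fermat.Prelude.Def_ModularCurve_X0ModL
import Fermat.Agent.S28.LamGen
import Fermat.Agent.S28.LamN

/-!
# ES, block MOD : the `q`-expansion principle over a general base `(R, ϖ)`; definitions

`R` is a noetherian normal domain with fraction field `K`, `ϖ` a prime element and
`res : R → k` a ring hom to a field with kernel `(ϖ)`.  `F0 ⊆ K((q))` is a field with a family
`b i ∈ R((q))`, integral over `R[j]`, spanning `F0` over `K(j)` and independent modulo `ϖ`
(for modular function fields: the output of the S28 degree block).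
-/

set_option autoImplicit false
open ModularCurve Polynomial
noncomputable section
namespace Fermat.Agent.ES.QE

/-- evaluation of a polynomial at a Laurent series (constants via `HahnSeries.C`). -/
def evS {A : Type*} [CommRing A] (x : LaurentSeries A) : A[X] →+* LaurentSeries A :=
  eval₂RingHom HahnSeries.C x

section evS

variable {A B : Type*} [CommRing A] [CommRing B]

lemma evS_apply (x : LaurentSeries A) (p : A[X]) : evS x p = eval₂ HahnSeries.C x p := rfl

@[simp] lemma evS_X (x : LaurentSeries A) : evS x X = x := eval₂_X _ _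

@[simp] lemma evS_C (x : LaurentSeries A) (a : A) : evS x (C a) = HahnSeries.C a := eval₂_C _ _

lemma coeffMap_C (f : A →+* B) (a : A) :
    coeffMap f (HahnSeries.C a) = HahnSeries.C (f a) := by
  rw [HahnSeries.C_apply, HahnSeries.C_apply, coeffMap_single]

lemma coeffMap_evS (f : A →+* B) (x : LaurentSeries A) (p : A[X]) :
    coeffMap f (evS x p) = evS (coeffMap f x) (p.map f) := by
  rw [evS_apply, evS_apply, hom_eval₂, eval₂_map]
  congr 1
  ext a : 1
  exact coeffMap_C f a

lemma algebraMap_eq_C (a : A) : algebraMap A (LaurentSeries A) a = HahnSeries.C a := by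
  rw [HahnSeries.algebraMap_apply', PowerSeries.algebraMap_eq, HahnSeries.ofPowerSeries_C]

lemma aeval_eq_evS (x : LaurentSeries A) (p : A[X]) : aeval x p = evS x p := by
  rw [aeval_def, evS_apply]
  congr 1
  ext a : 1
  exact algebraMap_eq_C a

lemma evS_jqModC_ne_zero {p : A[X]} (hp : p ≠ 0) : evS (jqModC A) p ≠ 0 := by
  rw [← aeval_eq_evS]
  exact S28.Lam.aeval_jqModC_ne_zero A hp

lemma coeffMap_injective {f : A →+* B} (hf : Function.Injective f) :
    Function.Injective (coeffMap f) := by
  intro x y h
  ext n
  apply hf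
  rw [← coeffMap_coeff, ← coeffMap_coeff, h]

lemma C_mul_coeff (a : A) (w : LaurentSeries A) (n : ℤ) :
    (HahnSeries.C a * w).coeff n = a * w.coeff n := by
  rw [HahnSeries.C_mul_eq_smul, HahnSeries.coeff_smul, smul_eq_mul]

end evS

/-- The data for the `q`-expansion principle. -/
structure QData (R K k : Type*) [CommRing R] [Field K] [Algebra R K] [Field k] where
  /-- the residue map -/
  res : R →+* k
  /-- the uniformiser -/
  ϖ : R
  ϖ_ne : ϖ ≠ 0
  ker_res : RingHom.ker res = Ideal.span {ϖ}
  /-- the function field -/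
  F0 : IntermediateField K (LaurentSeries K)
  /-- the degree -/
  n : ℕ
  /-- the integral basis -/
  b : Fin n → LaurentSeries R
  j_mem : jqModC K ∈ F0
  mem : ∀ i, coeffMap (algebraMap R K) (b i) ∈ F0
  int : ∀ i, ((coeffMap (algebraMap R K)).comp (evS (jqModC R))).IsIntegralElem
    (coeffMap (algebraMap R K) (b i))
  span : ∀ f ∈ F0, ∃ (s : K[X]) (a : Fin n → K[X]), s ≠ 0 ∧
    evS (jqModC K) s * f = ∑ i, evS (jqModC K) (a i) * coeffMap (algebraMap R K) (b i)
  indep : ∀ c : Fin n → k[X],
    ∑ i, evS (jqModC k) (c i) * coeffMap res (b i) = 0 → c = 0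

end Fermat.Agent.ES.QE
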