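import Fermat.Agent.ES.QEDefs

/-!
# ES, block MOD : the ring `Λ` of `ϖ`-integral fractions and the reduction map
-/

set_option autoImplicit false
set_option linter.unusedSectionVars false
open ModularCurve Polynomial
noncomputable section
namespace Fermat.Agent.ES.QE

variable {R K k : Type*} [CommRing R] [IsDomain R] [Field K] [Algebra R K] [IsFractionRing R K]
  [Field k] (D : QData R K k)

/-- `R((q)) → K((q))`. -/
def QData.inc (_D : QData R K k) : LaurentSeries R →+* LaurentSeries K :=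
  coeffMap (algebraMap R K)

/-- `R((q)) → k((q))`. -/
def QData.red : LaurentSeries R →+* LaurentSeries k := coeffMap D.res

lemma QData.inc_injective : Function.Injective D.inc :=
  coeffMap_injective (IsFractionRing.injective R K)

lemma QData.res_eq_zero_iff (x : R) : D.res x = 0 ↔ D.ϖ ∣ x := by
  rw [← RingHom.mem_ker, D.ker_res, Ideal.mem_span_singleton]

lemma QData.res_ϖ : D.res D.ϖ = 0 := (D.res_eq_zero_iff _).2 dvd_rfl

lemma QData.prime_ϖ : Prime D.ϖ := by
  rw [← Ideal.span_singleton_prime D.ϖ_ne, ← D.ker_res]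
  exact RingHom.ker_isPrime _

lemma QData.prime_C_ϖ : Prime (C D.ϖ) := prime_C_iff.mpr D.prime_ϖ

lemma QData.map_res_eq_zero_iff (p : R[X]) : p.map D.res = 0 ↔ C D.ϖ ∣ p := by
  rw [Polynomial.C_dvd_iff_dvd_coeff, Polynomial.ext_iff]
  refine forall_congr' fun n => ?_
  rw [coeff_map, coeff_zero, D.res_eq_zero_iff]

/-- the uniformiser as a series. -/
def QData.ϖW : LaurentSeries R := HahnSeries.C D.ϖ

/-- the uniformiser as a series over `K`. -/
def QData.ϖE : LaurentSeries K := HahnSeries.C (algebraMap R K D.ϖ)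

lemma QData.inc_ϖW : D.inc D.ϖW = D.ϖE := coeffMap_C _ _

lemma QData.red_ϖW : D.red D.ϖW = 0 := by
  rw [QData.red, QData.ϖW, coeffMap_C, D.res_ϖ, map_zero]

lemma QData.ϖE_ne_zero : D.ϖE ≠ 0 := by
  rw [← D.inc_ϖW]
  intro h
  have h1 : D.ϖW = 0 := D.inc_injective (by rw [h, map_zero])
  have h2 := congrArg (fun z => HahnSeries.coeff z 0) h1
  simp only [QData.ϖW, HahnSeries.C_apply, HahnSeries.coeff_single_same,
    HahnSeries.coeff_zero] at h2
  exact D.ϖ_ne h2

lemma QData.red_eq_zero_iff (w : LaurentSeries R) : D.red w = 0 ↔ ∃ w', w = D.ϖW * w' := by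
  constructor
  · intro h
    have hc : ∀ n, ∃ y, w.coeff n = D.ϖ * y := by
      intro n
      have h1 := congrArg (fun z => HahnSeries.coeff z n) h
      simp only [QData.red, coeffMap_coeff, HahnSeries.coeff_zero] at h1
      exact (D.res_eq_zero_iff _).1 h1
    choose y hy using hc
    refine ⟨⟨y, w.isPWO_support.mono ?_⟩, ?_⟩
    · intro n hn h0
      apply hn
      have : D.ϖ * y n = 0 := by rw [← hy, h0]
      exact (mul_eq_zero.mp this).resolve_left D.ϖ_ne
    · ext n
      rw [QData.ϖW, C_mul_coeff, hy n]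
  · rintro ⟨w', rfl⟩
    rw [map_mul, D.red_ϖW, zero_mul]

lemma QData.inc_evS (w : LaurentSeries R) (p : R[X]) :
    D.inc (evS w p) = evS (D.inc w) (p.map (algebraMap R K)) := coeffMap_evS _ _ _

lemma QData.red_evS (w : LaurentSeries R) (p : R[X]) :
    D.red (evS w p) = evS (D.red w) (p.map D.res) := coeffMap_evS _ _ _

lemma QData.inc_j : D.inc (jqModC R) = jqModC K := coeffMap_jqModC _

lemma QData.red_j : D.red (jqModC R) = jqModC k := coeffMap_jqModC _

/-! ### fractions -/

/-- `f` is a fraction `w / t` of `ϖ`-integral series with `t ≠ 0` modulo `ϖ`. -/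
def QData.IsFrac (f : LaurentSeries K) (t w : LaurentSeries R) : Prop :=
  D.red t ≠ 0 ∧ D.inc t * f = D.inc w

variable {D}

lemma QData.IsFrac.unique {f : LaurentSeries K} {t w t' w' : LaurentSeries R}
    (h : D.IsFrac f t w) (h' : D.IsFrac f t' w') :
    D.red w / D.red t = D.red w' / D.red t' := by
  have h1 : t * w' = t' * w := by
    apply D.inc_injective
    rw [map_mul, map_mul, ← h.2, ← h'.2]
    ring
  rw [div_eq_div_iff h.1 h'.1, ← map_mul, ← map_mul, mul_comm w t', ← h1, mul_comm]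

lemma QData.IsFrac.add {f g : LaurentSeries K} {t w t' w' : LaurentSeries R}
    (h : D.IsFrac f t w) (h' : D.IsFrac g t' w') : D.IsFrac (f + g) (t * t') (w * t' + w' * t) := by
  refine ⟨by rw [map_mul]; exact mul_ne_zero h.1 h'.1, ?_⟩
  rw [map_mul, map_add, map_mul, map_mul, ← h.2, ← h'.2]
  ring

lemma QData.IsFrac.mul {f g : LaurentSeries K} {t w t' w' : LaurentSeries R}
    (h : D.IsFrac f t w) (h' : D.IsFrac g t' w') : D.IsFrac (f * g) (t * t') (w * w') := by
  refine ⟨by rw [map_mul]; exact mul_ne_zero h.1 h'.1, ?_⟩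
  rw [map_mul, map_mul, ← h.2, ← h'.2]
  ring

lemma QData.IsFrac.neg {f : LaurentSeries K} {t w : LaurentSeries R}
    (h : D.IsFrac f t w) : D.IsFrac (-f) t (-w) :=
  ⟨h.1, by rw [map_neg, ← h.2, mul_neg]⟩

lemma QData.isFrac_inc (w : LaurentSeries R) : D.IsFrac (D.inc w) 1 w :=
  ⟨by rw [map_one]; exact one_ne_zero, by rw [map_one, one_mul]⟩

lemma QData.isFrac_one : D.IsFrac 1 1 1 :=
  ⟨by rw [map_one]; exact one_ne_zero, by rw [map_one, one_mul]⟩

lemma QData.isFrac_zero : D.IsFrac 0 1 0 :=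
  ⟨by rw [map_one]; exact one_ne_zero, by rw [map_zero, mul_zero]⟩

variable (D)

/-- `Λ` as a subring of `K((q))`. -/
def QData.LamRing : Subring (LaurentSeries K) where
  carrier := {f | ∃ t w, D.IsFrac f t w}
  mul_mem' := by
    rintro f g ⟨t, w, h⟩ ⟨t', w', h'⟩
    exact ⟨_, _, h.mul h'⟩
  one_mem' := ⟨1, 1, QData.isFrac_one⟩
  add_mem' := by
    rintro f g ⟨t, w, h⟩ ⟨t', w', h'⟩
    exact ⟨_, _, h.add h'⟩
  zero_mem' := ⟨1, 0, QData.isFrac_zero⟩
  neg_mem' := by
    rintro f ⟨t, w, h⟩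
    exact ⟨_, _, h.neg⟩

lemma QData.mem_LamRing {f : LaurentSeries K} : f ∈ D.LamRing ↔ ∃ t w, D.IsFrac f t w := Iff.rfl

/-- the reduction map on `Λ`, as a function. -/
def QData.rhoFun (f : D.LamRing) : LaurentSeries k :=
  D.red f.2.choose_spec.choose / D.red f.2.choose

variable {D}

lemma QData.rhoFun_eq {f : D.LamRing} {t w : LaurentSeries R} (h : D.IsFrac f t w) :
    D.rhoFun f = D.red w / D.red t :=
  QData.IsFrac.unique f.2.choose_spec.choose_spec h

lemma QData.rhoFun_one : D.rhoFun 1 = 1 := by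
  have h : D.IsFrac ((1 : D.LamRing) : LaurentSeries K) 1 1 := by
    rw [Subring.coe_one]; exact QData.isFrac_one
  rw [QData.rhoFun_eq h, map_one, div_one]

lemma QData.rhoFun_zero : D.rhoFun 0 = 0 := by
  have h : D.IsFrac ((0 : D.LamRing) : LaurentSeries K) 1 0 := by
    rw [Subring.coe_zero]; exact QData.isFrac_zero
  rw [QData.rhoFun_eq h, map_zero, zero_div]

lemma QData.rhoFun_mul (f g : D.LamRing) : D.rhoFun (f * g) = D.rhoFun f * D.rhoFun g := by
  obtain ⟨t, w, h⟩ := f.2
  obtain ⟨t', w', h'⟩ := g.2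
  have hm : D.IsFrac ((f * g : D.LamRing) : LaurentSeries K) (t * t') (w * w') := by
    rw [Subring.coe_mul]; exact h.mul h'
  rw [QData.rhoFun_eq hm, QData.rhoFun_eq h, QData.rhoFun_eq h', map_mul, map_mul,
    div_mul_div_comm]

lemma QData.rhoFun_add (f g : D.LamRing) : D.rhoFun (f + g) = D.rhoFun f + D.rhoFun g := by
  obtain ⟨t, w, h⟩ := f.2
  obtain ⟨t', w', h'⟩ := g.2
  have hm : D.IsFrac ((f + g : D.LamRing) : LaurentSeries K) (t * t') (w * t' + w' * t) := by
    rw [Subring.coe_add]; exact h.add h'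
  rw [QData.rhoFun_eq hm, QData.rhoFun_eq h, QData.rhoFun_eq h', map_mul, map_add, map_mul,
    map_mul, div_add_div _ _ h.1 h'.1, mul_comm (D.red t) (D.red w')]

variable (D)

/-- the reduction map `Λ → k((q))`. -/
def QData.rho : D.LamRing →+* LaurentSeries k where
  toFun := D.rhoFun
  map_one' := QData.rhoFun_one
  map_zero' := QData.rhoFun_zero
  map_mul' := QData.rhoFun_mul
  map_add' := QData.rhoFun_add

variable {D}

lemma QData.rho_eq {f : D.LamRing} {t w : LaurentSeries R} (h : D.IsFrac f t w) :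
    D.rho f = D.red w / D.red t := QData.rhoFun_eq h

lemma QData.rho_eq_zero_iff {f : D.LamRing} {t w : LaurentSeries R} (h : D.IsFrac f t w) :
    D.rho f = 0 ↔ D.red w = 0 := by
  rw [QData.rho_eq h, div_eq_zero_iff]
  exact ⟨fun h' => h'.resolve_right h.1, Or.inl⟩

lemma QData.inc_mem_LamRing (w : LaurentSeries R) : D.inc w ∈ D.LamRing :=
  ⟨1, w, QData.isFrac_inc w⟩

lemma QData.rho_inc (w : LaurentSeries R) : D.rho ⟨D.inc w, QData.inc_mem_LamRing w⟩ = D.red w := by
  rw [QData.rho_eq (f := ⟨D.inc w, QData.inc_mem_LamRing w⟩) (QData.isFrac_inc w), map_one,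
    div_one]

/-- the kernel of `ρ` is `ϖ Λ`. -/
lemma QData.rho_eq_zero_iff_exists {f : D.LamRing} :
    D.rho f = 0 ↔ ∃ g ∈ D.LamRing, (f : LaurentSeries K) = D.ϖE * g := by
  obtain ⟨t, w, h⟩ := f.2
  rw [QData.rho_eq_zero_iff h, D.red_eq_zero_iff]
  constructor
  · rintro ⟨w', rfl⟩
    have ht : D.inc t ≠ 0 := by
      intro h0
      have : t = 0 := D.inc_injective (by rw [h0, map_zero])
      exact h.1 (by rw [this, map_zero])
    refine ⟨D.inc w' / D.inc t, ⟨t, w', h.1, by field_simp⟩, ?_⟩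
    have h2 := h.2
    rw [map_mul, D.inc_ϖW] at h2
    field_simp
    rw [← h2]; ring
  · rintro ⟨g, ⟨t', w', h'⟩, hg⟩
    -- `t * ϖ * w' = t' * w`
    have h1 : t' * w = D.ϖW * (t * w') := by
      apply D.inc_injective
      rw [map_mul, map_mul, map_mul, ← h.2, ← h'.2, hg, D.inc_ϖW]
      ring
    have h2 : D.red w = 0 := by
      have := congrArg D.red h1
      rw [map_mul, map_mul, D.red_ϖW, zero_mul] at this
      exact (mul_eq_zero.mp this).resolve_left h'.1
    exact (D.red_eq_zero_iff w).1 h2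

end Fermat.Agent.ES.QE
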