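import Fermat.Agent.ES.QEPurDefs
import Fermat.Agent.ES.Purity

/-!
# ES, block MOD : adapter from the `q`-expansion charts (`QE*`) to `Purity`

`𝔸 = R[X]`, `𝕂 = KX K = Frac K[X]`, `E = D.F0`, `B = X.chart`, `π = C ϖ`.
-/

set_option autoImplicit false
set_option linter.unusedSectionVars false
set_option linter.style.haveILetI false
open ModularCurve Polynomial
noncomputable section
namespace Fermat.Agent.ES.QE

section Gen

variable (R K : Type*) [CommRing R] [IsDomain R] [Field K] [Algebra R K] [IsFractionRing R K]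

lemma toKX_injective : Function.Injective (toKX R : R[X] →+* KX K) :=
  (IsFractionRing.injective K[X] (KX K)).comp
    (Polynomial.map_injective _ (IsFractionRing.injective R K))

lemma isFractionRing_KX :
    letI := algRKX R K
    IsFractionRing R[X] (KX K) := by
  letI := algRKX R K
  have hmap : ∀ p : R[X], algebraMap R[X] (KX K) p = toKX R p := fun _ => rfl
  refine ⟨?_, ?_, ?_⟩
  · rintro ⟨y, hy⟩
    have h0 : y ≠ 0 := nonZeroDivisors.ne_zero hy
    apply IsUnit.mk0
    rw [hmap, Ne, map_eq_zero_iff _ (toKX_injective R K)]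
    exact h0
  · intro z
    obtain ⟨a, b, hb, rfl⟩ := IsFractionRing.div_surjective (A := K[X]) z
    have hb0 : b ≠ 0 := nonZeroDivisors.ne_zero hb
    obtain ⟨d, c, hd, hc⟩ := exists_int_mul R K (fun i : Bool => if i then a else b)
    have hd' : algebraMap R K d ≠ 0 := by
      rw [Ne, map_eq_zero_iff _ (IsFractionRing.injective R K)]; exact hd
    have h1 : (c true).map (algebraMap R K) = C (algebraMap R K d) * a := by simpa using hc true
    have h2 : (c false).map (algebraMap R K) = C (algebraMap R K d) * b := by simpa using hc false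
    have hc0 : c false ≠ 0 := by
      intro h
      rw [h, Polynomial.map_zero] at h2
      exact (mul_ne_zero (C_ne_zero.mpr hd') hb0) h2.symm
    refine ⟨(c true, ⟨c false, mem_nonZeroDivisors_of_ne_zero hc0⟩), ?_⟩
    have hb' : algebraMap K[X] (KX K) b ≠ 0 := by
      rw [Ne, map_eq_zero_iff _ (IsFractionRing.injective K[X] (KX K))]; exact hb0
    show algebraMap K[X] (KX K) a / algebraMap K[X] (KX K) b *
      algebraMap K[X] (KX K) ((c false).map (algebraMap R K))
        = algebraMap K[X] (KX K) ((c true).map (algebraMap R K))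
    rw [h1, h2, map_mul, map_mul]
    field_simp
  · intro x y h
    exact ⟨1, by rw [toKX_injective R K h]⟩

end Gen

section Quot

variable {R k : Type*} [CommRing R] [Field k] (res : R →+* k) (ϖ : R)
  (hker : RingHom.ker res = Ideal.span {ϖ})

lemma isPrincipalIdealRing_quot (hmax : (Ideal.span {ϖ}).IsMaximal) :
    IsPrincipalIdealRing (R[X] ⧸ Ideal.span {(C ϖ : R[X])}) := by
  letI := Ideal.Quotient.field (Ideal.span {ϖ})
  have e := Ideal.polynomialQuotientEquivQuotientPolynomial (Ideal.span {ϖ})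
  have h : (Ideal.span {ϖ}).map (C : R →+* R[X]) = Ideal.span {(C ϖ : R[X])} := by
    rw [Ideal.map_span, Set.image_singleton]
  rw [h] at e
  exact IsPrincipalIdealRing.of_surjective e.toRingHom e.surjective

include hker in
lemma map_res_eq_zero_iff' (p : R[X]) : p.map res = 0 ↔ C ϖ ∣ p := by
  rw [C_dvd_iff_dvd_coeff, Polynomial.ext_iff]
  refine forall_congr' fun n => ?_
  rw [coeff_map, coeff_zero, ← RingHom.mem_ker, hker, Ideal.mem_span_singleton]

include hker in
lemma squarefree_mk (hmax : (Ideal.span {ϖ}).IsMaximal) (g : R[X])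
    (hg : Squarefree (g.map res)) :
    Squarefree (Ideal.Quotient.mk (Ideal.span {(C ϖ : R[X])}) g) := by
  let ψ : R[X] ⧸ Ideal.span {(C ϖ : R[X])} →+* k[X] :=
    Ideal.Quotient.lift _ (mapRingHom res) (by
      intro a ha
      rw [Ideal.mem_span_singleton] at ha
      exact (map_res_eq_zero_iff' res ϖ hker a).2 ha)
  have hψ : ∀ p : R[X], ψ (Ideal.Quotient.mk _ p) = p.map res := fun p => rfl
  have hinj : Function.Injective ψ := by
    rw [injective_iff_map_eq_zero]
    intro a ha
    obtain ⟨p, rfl⟩ := Ideal.Quotient.mk_surjective a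
    rw [hψ] at ha
    rw [Ideal.Quotient.eq_zero_iff_mem, Ideal.mem_span_singleton]
    exact (map_res_eq_zero_iff' res ϖ hker p).1 ha
  intro y hy
  have h1 : IsUnit (ψ y) := by
    apply hg
    have := map_dvd ψ hy
    rwa [map_mul, hψ] at this
  obtain ⟨p, rfl⟩ := Ideal.Quotient.mk_surjective y
  rw [hψ, Polynomial.isUnit_iff] at h1
  obtain ⟨c, hc, hcp⟩ := h1
  have ha : p.coeff 0 ∉ Ideal.span {ϖ} := by
    rw [← hker, RingHom.mem_ker, ← coeff_map, ← hcp, coeff_C_zero]
    exact hc.ne_zero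
  obtain ⟨b, i, hi, hb⟩ := hmax.exists_inv ha
  refine IsUnit.of_mul_eq_one (Ideal.Quotient.mk _ (C b)) (hinj ?_)
  rw [map_mul, hψ, hψ, map_one, ← hcp, Polynomial.map_C, ← C_mul, ← C_1]
  congr 1
  have hc' : c = res (p.coeff 0) := by rw [← coeff_map, ← hcp, coeff_C_zero]
  have hi' : res i = 0 := by rw [← RingHom.mem_ker, hker]; exact hi
  rw [hc', ← map_mul, ← map_one res, ← hb, map_add, hi', add_zero, mul_comm]

end Quot

variable {R K k : Type*} [CommRing R] [IsDomain R] [IsNoetherianRing R] [IsIntegrallyClosed R]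
  [Field K] [Algebra R K] [IsFractionRing R K] [Field k] {D : QData R K k} (X : D.Coord)

lemma QData.Coord.algebraMap_toKX (σ : R[X]) :
    letI := X.algKXF
    algebraMap (KX K) D.F0 (toKX R σ) = X.phiF σ := by
  rw [X.phiF_eq_aeval]
  exact X.algebraMap_KXF _

lemma QData.Coord.towerRF :
    letI := algRKX R K
    letI := X.algKXF
    letI := X.algRF
    IsScalarTower R[X] (KX K) D.F0 :=
  letI := algRKX R K
  letI := X.algKXF
  letI := X.algRF
  IsScalarTower.of_algebraMap_eq fun σ => (X.algebraMap_toKX σ).symm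

lemma QData.Coord.finiteDimensional :
    letI := X.algKXF
    FiniteDimensional (KX K) D.F0 := by
  letI := X.algKXF
  classical
  refine ⟨⟨Finset.univ.image D.bF, ?_⟩⟩
  rw [eq_top_iff]
  intro f _
  obtain ⟨c, d, hd, h⟩ := X.exists_span f
  have hd' : X.phiF d ≠ 0 := by
    rw [Ne, map_eq_zero_iff _ X.phiF_injective]; exact hd
  have hf : f = ∑ i, ((toKX R d : KX K)⁻¹ * (toKX R (c i) : KX K)) • D.bF i := by
    simp only [Algebra.smul_def, map_mul, map_inv₀, X.algebraMap_toKX]
    simp only [mul_assoc]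
    rw [← Finset.mul_sum, ← h, inv_mul_cancel_left₀ hd']
  rw [hf]
  refine Submodule.sum_mem _ fun i _ => Submodule.smul_mem _ _ (Submodule.subset_span ?_)
  simp

/-- `R[X] → B`. -/
@[reducible] def QData.Coord.algRB : Algebra R[X] X.chart :=
  (X.phiF.codRestrict X.chart X.phiF_mem_chart).toAlgebra

lemma QData.Coord.towerRB :
    letI := X.algRF
    letI := X.algRB
    IsScalarTower R[X] X.chart D.F0 :=
  letI := X.algRF
  letI := X.algRB
  IsScalarTower.of_algebraMap_eq fun _ => rfl

lemma QData.Coord.isIntegral_iff (f : D.F0) :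
    letI := X.algRF
    IsIntegral R[X] f ↔ f ∈ X.chart := by
  letI := X.algRF
  constructor
  · rintro ⟨p, hp, h⟩
    refine ⟨p, hp, ?_⟩
    have := congrArg (algebraMap D.F0 (LaurentSeries K)) h
    rw [map_zero, hom_eval₂] at this
    exact this
  · intro hf
    exact S28.Lam.isIntegralElem_of_map_comp X.phiF (algebraMap D.F0 (LaurentSeries K))
      (algebraMap D.F0 (LaurentSeries K)).injective hf

lemma QData.Coord.isIntegralClosure :
    letI := X.algRF
    letI := X.algRB
    IsIntegralClosure X.chart R[X] D.F0 :=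
  letI := X.algRF
  letI := X.algRB
  { algebraMap_injective := Subtype.val_injective
    isIntegral_iff := fun {f} => by
      rw [X.isIntegral_iff]
      exact ⟨fun h => ⟨⟨f, h⟩, rfl⟩, by rintro ⟨y, rfl⟩; exact y.2⟩ }

/-- the reduction map on the chart. -/
def QData.Coord.rhoB : X.chart →+* LaurentSeries k :=
  D.rhoO.comp (Subring.inclusion (fun _ h => X.chart_le_gaussO h : X.chart ≤ D.gaussO.toSubring))

/-- `ϖ` as an element of the chart. -/
def QData.Coord.ϖC : X.chart := ⟨D.ϖF, by rw [← X.phiF_C_ϖ]; exact X.phiF_mem_chart _⟩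

lemma QData.Coord.rhoB_eq_zero_iff (b : X.chart) : X.rhoB b = 0 ↔ X.ϖC ∣ b := by
  rw [QData.Coord.rhoB, RingHom.comp_apply, D.rhoO_eq_zero_iff]
  constructor
  · rintro ⟨y, hy, h⟩
    rw [pow_one] at h
    exact ⟨⟨y, X.chart_sat b.2 hy h⟩, Subtype.ext h⟩
  · rintro ⟨y, rfl⟩
    exact ⟨y, X.chart_le_gaussO y.2, by rw [pow_one]; rfl⟩

lemma QData.Coord.isPrime_span_ϖC : (Ideal.span {X.ϖC}).IsPrime := by
  have : Ideal.span {X.ϖC} = RingHom.ker X.rhoB := by
    ext b
    rw [Ideal.mem_span_singleton, RingHom.mem_ker, X.rhoB_eq_zero_iff]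
  rw [this]
  exact RingHom.ker_isPrime _

lemma QData.Coord.algebraMap_C_ϖ :
    letI := X.algRB
    algebraMap R[X] X.chart (C D.ϖ) = X.ϖC := Subtype.ext X.phiF_C_ϖ

/-- **Normality of the special fibre of a chart**, from (ET), (RAM). -/
theorem QData.Coord.hded [CharZero K] (hmax : (Ideal.span {D.ϖ}).IsMaximal) (hET : X.HET)
    (g : R[X]) (hg : Squarefree (g.map D.res)) (hRAM : X.HRAM g) :
    IsDedekindDomain (X.chart ⧸ Ideal.span {X.ϖC}) := by
  letI := algRKX R K
  letI := X.algKXF
  letI := X.algRF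
  letI := X.algRB
  haveI := isFractionRing_KX R K
  haveI := X.towerRF
  haveI := X.finiteDimensional
  haveI := X.towerRB
  haveI := X.isIntegralClosure
  haveI := isPrincipalIdealRing_quot D.ϖ hmax
  have hπ : algebraMap R[X] X.chart (C D.ϖ) = X.ϖC := X.algebraMap_C_ϖ
  have key := Purity.isDedekindDomain_quotient R[X] (KX K) D.F0 X.chart (C D.ϖ) D.prime_C_ϖ
    (by rw [hπ]; exact X.isPrime_span_ϖC) ?_ g (squarefree_mk D.res D.ϖ D.ker_res hmax g hg) ?_
  · rw [hπ] at key
    exact key
  · intro x hx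
    obtain ⟨z, hz, h⟩ := hET x x.2 (fun y hy => hx ⟨y, hy⟩)
    rw [hπ]
    exact ⟨⟨z, hz⟩, Subtype.ext h⟩
  · intro y hy
    obtain ⟨M, e, u, hu, hM, h⟩ := hRAM y (fun b hb => hy ⟨b, hb⟩)
    refine ⟨M, e, ⟨u, hu⟩, hM, ?_⟩
    have h1 : algebraMap R[X] D.F0 (C D.ϖ) = D.ϖF := X.phiF_C_ϖ
    rw [h1]
    exact h

end Fermat.Agent.ES.QE
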