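import Fermat.Agent.ES.QEFin

/-!
# ES, block MOD : adapter from the `q`-expansion charts (`QE*`) to `Purity` : definitions

For a coordinate `X : D.Coord` we put `𝔸 = R[X]`, `AK = K[X]`, `𝕂 = Frac K[X]`, `E = D.F0`,
`B = X.chart`, all algebra structures being induced by `X ↦ x`.
-/

set_option autoImplicit false
set_option linter.unusedSectionVars false
set_option linter.style.haveILetI false
open ModularCurve Polynomial
noncomputable section
namespace Fermat.Agent.ES.QE

variable {R K k : Type*} [CommRing R] [IsDomain R] [IsNoetherianRing R] [IsIntegrallyClosed R]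
  [Field K] [Algebra R K] [IsFractionRing R K] [Field k] {D : QData R K k} (X : D.Coord)

/-- the field `K(x)`, abstractly. -/
abbrev KX (K : Type*) [Field K] : Type _ := FractionRing K[X]

/-- `R[X] → K[X]`. -/
@[reducible] def algRK (R K : Type*) [CommRing R] [Field K] [Algebra R K] : Algebra R[X] K[X] :=
  (mapRingHom (algebraMap R K)).toAlgebra

/-- `R[X] → K(X)`. -/
@[reducible] def algRKX (R K : Type*) [CommRing R] [Field K] [Algebra R K] :
    Algebra R[X] (KX K) :=
  ((algebraMap K[X] (KX K)).comp (mapRingHom (algebraMap R K))).toAlgebra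

/-- `K[X] → F0`, `X ↦ x`. -/
@[reducible] def QData.Coord.algKF : Algebra K[X] D.F0 := (aeval X.x).toRingHom.toAlgebra

/-- `R[X] → F0`, `X ↦ x`. -/
@[reducible] def QData.Coord.algRF : Algebra R[X] D.F0 := X.phiF.toAlgebra

lemma QData.Coord.phiF_eq_aeval (σ : R[X]) :
    X.phiF σ = aeval X.x (σ.map (algebraMap R K)) := by
  have : X.phiF = ((aeval X.x : K[X] →ₐ[K] D.F0) : K[X] →+* D.F0).comp
      (mapRingHom (algebraMap R K)) := by
    apply Polynomial.ringHom_ext
    · intro a
      rw [X.phiF_C]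
      simp
    · rw [X.phiF_X]
      simp
  rw [this]
  rfl

lemma QData.Coord.aeval_x_injective : Function.Injective (aeval X.x : K[X] →ₐ[K] D.F0) := by
  rw [injective_iff_map_eq_zero]
  intro p hp
  obtain ⟨d, p', hd, hp'⟩ := exists_int_mul R K (fun _ : Unit => p)
  have hd' : algebraMap R K d ≠ 0 := by
    rw [Ne, map_eq_zero_iff _ (IsFractionRing.injective R K)]; exact hd
  have h1 : X.phiF (p' ()) = 0 := by
    rw [X.phiF_eq_aeval, hp' (), map_mul, hp, mul_zero]
  have h2 : p' () = 0 := X.phiF_injective (by rw [h1, map_zero])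
  have h3 := hp' ()
  rw [h2, Polynomial.map_zero] at h3
  exact (mul_eq_zero.mp h3.symm).resolve_left (C_ne_zero.mpr hd')

lemma QData.Coord.faithfulKF :
    letI := X.algKF
    FaithfulSMul K[X] D.F0 :=
  letI := X.algKF
  (faithfulSMul_iff_algebraMap_injective _ _).mpr X.aeval_x_injective

/-- `K(X) → F0`, `X ↦ x`. -/
@[reducible] def QData.Coord.algKXF : Algebra (KX K) D.F0 :=
  letI := X.algKF
  haveI := X.faithfulKF
  FractionRing.liftAlgebra K[X] D.F0

lemma QData.Coord.towerKF :
    letI := X.algKF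
    letI := X.algKXF
    IsScalarTower K[X] (KX K) D.F0 :=
  letI := X.algKF
  haveI := X.faithfulKF
  FractionRing.isScalarTower_liftAlgebra K[X] D.F0

lemma QData.Coord.algebraMap_KXF (p : K[X]) :
    letI := X.algKXF
    algebraMap (KX K) D.F0 (algebraMap K[X] (KX K) p) = aeval X.x p := by
  letI := X.algKF
  letI := X.algKXF
  haveI := X.towerKF
  exact (IsScalarTower.algebraMap_apply K[X] (KX K) D.F0 p).symm

/-- the trace `F0 → K(x)`. -/
def QData.Coord.tr (f : D.F0) : KX K :=
  letI := X.algKXF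
  Algebra.trace (KX K) D.F0 f

/-- the image of `R[X]` in `K(X)`. -/
def toKX (R : Type*) {K : Type*} [CommRing R] [Field K] [Algebra R K] : R[X] →+* KX K :=
  (algebraMap K[X] (KX K)).comp (mapRingHom (algebraMap R K))

/-- **(ET)** : the trace form of the chart is nondegenerate modulo `ϖ`. -/
def QData.Coord.HET : Prop :=
  ∀ f ∈ X.chart, (∀ y ∈ X.chart, ∃ a : R[X], X.tr (f * y) = toKX R (C D.ϖ * a)) →
    ∃ z ∈ X.chart, f = D.ϖF * z

/-- **(RAM)**. -/
def QData.Coord.HRAM (g : R[X]) : Prop :=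
  ∀ y : D.F0, (∀ b ∈ X.chart, ∃ a : R[X], X.tr (y * b) = toKX R a) →
    ∃ (M e : ℕ) (u : D.F0), u ∈ X.chart ∧ 0 < M ∧
      D.ϖF ^ e * (X.phiF g * y) ^ M = X.phiF g * u

end Fermat.Agent.ES.QE
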