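import Fermat.Agent.ES.QELam
import Fermat.Agent.ES.MDefs

/-!
# ES, block MOD : the Gauss valuation ring of the function field
-/

set_option autoImplicit false
set_option linter.unusedSectionVars false
open ModularCurve Polynomial
noncomputable section
namespace Fermat.Agent.ES.QE

/-- clearing denominators of a finite family of polynomials. -/
theorem exists_int_mul (R K : Type*) [CommRing R] [IsDomain R] [Field K] [Algebra R K]
    [IsFractionRing R K] {ι : Type*} [Fintype ι] (a : ι → K[X]) :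
    ∃ (d : R) (a' : ι → R[X]), d ≠ 0 ∧
      ∀ i, (a' i).map (algebraMap R K) = C (algebraMap R K d) * a i := by
  classical
  obtain ⟨d, hd⟩ := IsLocalization.exist_integer_multiples_of_finset (nonZeroDivisors R)
    (Finset.univ.biUnion fun i => (a i).coeffs)
  have hl : ∀ i, C (algebraMap R K d) * a i ∈ lifts (algebraMap R K) := by
    intro i
    rw [lifts_iff_coeff_lifts]
    intro n
    rw [coeff_C_mul]
    by_cases hn : (a i).coeff n = 0
    · exact ⟨0, by rw [hn, mul_zero, map_zero]⟩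
    · obtain ⟨r, hr⟩ := hd ((a i).coeff n) (Finset.mem_biUnion.mpr
        ⟨i, Finset.mem_univ i, coeff_mem_coeffs hn⟩)
      exact ⟨r, by rw [hr, Algebra.smul_def]⟩
  choose a' ha' using hl
  exact ⟨d, a', nonZeroDivisors.coe_ne_zero d, ha'⟩

variable {R K k : Type*} [CommRing R] [IsDomain R] [IsNoetherianRing R] [Field K] [Algebra R K]
  [IsFractionRing R K] [Field k] (D : QData R K k)

/-- `∑ rᵢ(j) bᵢ`. -/
def QData.mW (r : Fin D.n → R[X]) : LaurentSeries R := ∑ i, evS (jqModC R) (r i) * D.b i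

lemma QData.red_mW_eq_zero_iff (r : Fin D.n → R[X]) :
    D.red (D.mW r) = 0 ↔ ∀ i, C D.ϖ ∣ r i := by
  have h0 : D.red (D.mW r) = ∑ i, evS (jqModC k) ((r i).map D.res) * coeffMap D.res (D.b i) := by
    rw [QData.mW, map_sum]
    refine Finset.sum_congr rfl fun i _ => ?_
    rw [map_mul, D.red_evS, D.red_j]
    rfl
  constructor
  · intro h i
    have h1 := D.indep (fun i => (r i).map D.res) (by rw [← h0, h])
    exact (D.map_res_eq_zero_iff _).1 (congrFun h1 i)
  · intro h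
    rw [h0]
    refine Finset.sum_eq_zero fun i _ => ?_
    rw [(D.map_res_eq_zero_iff _).2 (h i), map_zero, zero_mul]

lemma QData.mW_C_pow_mul (a : ℕ) (r : Fin D.n → R[X]) :
    D.mW (fun i => C D.ϖ ^ a * r i) = D.ϖW ^ a * D.mW r := by
  rw [QData.mW, QData.mW, Finset.mul_sum]
  refine Finset.sum_congr rfl fun i _ => ?_
  rw [map_mul, map_pow, evS_C, mul_assoc]
  rfl

/-- factoring out the content of a family. -/
lemma QData.exists_primitive_family {ι : Type*} (i₀ : ι) (e : ℕ) : ∀ (r : ι → R[X]) (u : R[X]),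
    ¬ C D.ϖ ∣ u → r i₀ = C D.ϖ ^ e * u →
    ∃ (a : ℕ) (r' : ι → R[X]), (∃ i, ¬ C D.ϖ ∣ r' i) ∧ ∀ i, r i = C D.ϖ ^ a * r' i := by
  induction e with
  | zero =>
    intro r u hu h
    exact ⟨0, r, ⟨i₀, by rw [h, pow_zero, one_mul]; exact hu⟩, fun i => by rw [pow_zero, one_mul]⟩
  | succ e ih =>
    intro r u hu h
    by_cases hall : ∀ i, C D.ϖ ∣ r i
    · choose r1 hr1 using hall
      have h1 : r1 i₀ = C D.ϖ ^ e * u := by
        apply mul_left_cancel₀ D.prime_C_ϖ.ne_zero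
        rw [← hr1, h, pow_succ']
        ring
      obtain ⟨a, r', h2, h3⟩ := ih r1 u hu h1
      exact ⟨a + 1, r', h2, fun i => by rw [hr1, h3, pow_succ']; ring⟩
    · push Not at hall
      exact ⟨0, r, hall, fun i => by rw [pow_zero, one_mul]⟩

lemma QData.exists_primitive_family' {ι : Type*} (r : ι → R[X]) (hr : r ≠ 0) :
    ∃ (a : ℕ) (r' : ι → R[X]), (∃ i, ¬ C D.ϖ ∣ r' i) ∧ ∀ i, r i = C D.ϖ ^ a * r' i := by
  obtain ⟨i₀, hi₀⟩ := Function.ne_iff.mp hr
  obtain ⟨e, u, hu, h⟩ := WfDvdMonoid.max_power_factor' hi₀ D.prime_C_ϖ.not_isUnit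
  exact D.exists_primitive_family i₀ e r u hu h

lemma QData.red_evS_j_ne_zero {s : R[X]} (hs : ¬ C D.ϖ ∣ s) : D.red (evS (jqModC R) s) ≠ 0 := by
  rw [D.red_evS, D.red_j]
  exact evS_jqModC_ne_zero (fun h => hs ((D.map_res_eq_zero_iff s).1 h))

/-- **normal form** of a nonzero element of the function field. -/
theorem QData.exists_normal_form {f : LaurentSeries K} (hf : f ∈ D.F0) (hf0 : f ≠ 0) :
    ∃ (a c : ℕ) (s : R[X]) (r : Fin D.n → R[X]), ¬ C D.ϖ ∣ s ∧ D.red (D.mW r) ≠ 0 ∧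
      D.ϖE ^ a * D.inc (evS (jqModC R) s) * f = D.ϖE ^ c * D.inc (D.mW r) := by
  obtain ⟨s0, a0, hs0, h0⟩ := D.span f hf
  obtain ⟨d, a', hd, ha'⟩ := exists_int_mul R K (fun o : Option (Fin D.n) => o.elim s0 a0)
  have hd' : algebraMap R K d ≠ 0 := by
    rw [Ne, map_eq_zero_iff _ (IsFractionRing.injective R K)]; exact hd
  have hs1 : a' none ≠ 0 := by
    intro h
    have := ha' none
    rw [h, Polynomial.map_zero] at this
    exact (mul_ne_zero (C_ne_zero.mpr hd') hs0) this.symm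
  have key : D.inc (evS (jqModC R) (a' none)) * f = D.inc (D.mW (fun i => a' (some i))) := by
    rw [D.inc_evS, ha' none, D.inc_j, QData.mW, map_sum]
    simp only [Option.elim_none, map_mul]
    rw [mul_assoc, h0, Finset.mul_sum]
    refine Finset.sum_congr rfl fun i _ => ?_
    rw [D.inc_evS, ha' (some i), D.inc_j]
    simp only [Option.elim_some, map_mul]
    rw [mul_assoc]
    rfl
  have hinc_ne : D.inc (evS (jqModC R) (a' none)) ≠ 0 := by
    intro h
    exact evS_jqModC_ne_zero hs1 (D.inc_injective (by rw [h, map_zero]))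
  have hr1 : (fun i => a' (some i)) ≠ 0 := by
    intro h
    rw [h] at key
    have : D.mW (0 : Fin D.n → R[X]) = 0 := by
      simp [QData.mW]
    rw [this, map_zero] at key
    exact (mul_ne_zero hinc_ne hf0) key
  obtain ⟨a, s, hs, hsa⟩ := WfDvdMonoid.max_power_factor' hs1 D.prime_C_ϖ.not_isUnit
  obtain ⟨c, r, ⟨i, hi⟩, hr⟩ := D.exists_primitive_family' _ hr1
  refine ⟨a, c, s, r, hs, fun h => hi ((D.red_mW_eq_zero_iff r).1 h i), ?_⟩
  have e1 : (fun i => a' (some i)) = fun i => C D.ϖ ^ c * r i := funext hr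
  rw [e1, D.mW_C_pow_mul, hsa, map_mul, map_pow, evS_C, map_mul, map_mul, map_pow, map_pow,
    D.inc_ϖW] at key
  have e2 : D.inc (HahnSeries.C D.ϖ) = D.ϖE := D.inc_ϖW
  rw [e2] at key
  exact key

/-- elements of `Λ ∩ F0` have a denominator `s(j)` with `s` primitive. -/
theorem QData.exists_frac {f : LaurentSeries K} (hf : f ∈ D.F0) (hL : f ∈ D.LamRing) :
    ∃ (s : R[X]) (r : Fin D.n → R[X]), ¬ C D.ϖ ∣ s ∧
      D.inc (evS (jqModC R) s) * f = D.inc (D.mW r) := by
  by_cases hf0 : f = 0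
  · refine ⟨1, 0, fun h => D.prime_C_ϖ.not_isUnit (isUnit_of_dvd_one h), ?_⟩
    have : D.mW (0 : Fin D.n → R[X]) = 0 := by simp [QData.mW]
    rw [hf0, mul_zero, this, map_zero]
  obtain ⟨a, c, s, r, hs, hr, h⟩ := D.exists_normal_form hf hf0
  obtain ⟨t1, w1, ht1, h1⟩ := hL
  have hW : D.ϖW ^ a * (evS (jqModC R) s * w1) = D.ϖW ^ c * (D.mW r * t1) := by
    apply D.inc_injective
    rw [map_mul, map_mul, map_mul, map_mul, map_pow, map_pow, D.inc_ϖW, ← h1]
    linear_combination (D.inc t1) * h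
  have hϖW : D.ϖW ≠ 0 := by
    intro h0
    apply D.ϖE_ne_zero
    rw [← D.inc_ϖW, h0, map_zero]
  rcases le_or_gt a c with hac | hac
  · obtain ⟨e, rfl⟩ := Nat.exists_eq_add_of_le hac
    refine ⟨s, fun i => C D.ϖ ^ e * r i, hs, ?_⟩
    rw [D.mW_C_pow_mul, map_mul, map_pow, D.inc_ϖW]
    apply mul_left_cancel₀ (pow_ne_zero a D.ϖE_ne_zero)
    rw [← mul_assoc, h, pow_add]
    ring
  · exfalso
    obtain ⟨e, rfl⟩ := Nat.exists_eq_add_of_lt hac
    have h2 : D.ϖW ^ (e + 1) * (evS (jqModC R) s * w1) = D.mW r * t1 := by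
      apply mul_left_cancel₀ (pow_ne_zero c hϖW)
      rw [← hW, ← mul_assoc, ← pow_add]
      congr 2
    have h3 := congrArg D.red h2
    rw [map_mul, map_pow, D.red_ϖW, zero_pow (Nat.succ_ne_zero e), zero_mul, map_mul] at h3
    exact (mul_ne_zero hr ht1) h3.symm

/-- the uniformiser in the function field. -/
def QData.ϖF : D.F0 := algebraMap K D.F0 (algebraMap R K D.ϖ)

lemma QData.coe_ϖF : (D.ϖF : LaurentSeries K) = D.ϖE := algebraMap_eq_C _

lemma QData.ϖF_ne_zero : D.ϖF ≠ 0 := by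
  intro h
  apply D.ϖE_ne_zero
  rw [← D.coe_ϖF, h]
  rfl

/-- a nonzero element of the function field or its inverse is `ϖ`-integral, in a precise form. -/
theorem QData.isFrac_or {f : LaurentSeries K} (hf : f ∈ D.F0) (hf0 : f ≠ 0) :
    (∃ (e : ℕ) (t w : LaurentSeries R), D.red t ≠ 0 ∧ D.red w ≠ 0 ∧
      D.inc t * f = D.ϖE ^ (e + 1) * D.inc w) ∨
    (∃ (e : ℕ) (t w : LaurentSeries R), D.red t ≠ 0 ∧ D.red w ≠ 0 ∧
      D.ϖE ^ e * D.inc t * f = D.inc w) := by
  obtain ⟨a, c, s, r, hs, hr, h⟩ := D.exists_normal_form hf hf0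
  rcases lt_or_ge a c with hac | hac
  · left
    obtain ⟨e, rfl⟩ := Nat.exists_eq_add_of_lt hac
    refine ⟨e, _, _, D.red_evS_j_ne_zero hs, hr, ?_⟩
    apply mul_left_cancel₀ (pow_ne_zero a D.ϖE_ne_zero)
    rw [← mul_assoc, h, ← mul_assoc, ← pow_add]
    congr 2
  · right
    obtain ⟨e, rfl⟩ := Nat.exists_eq_add_of_le hac
    refine ⟨e, _, _, D.red_evS_j_ne_zero hs, hr, ?_⟩
    apply mul_left_cancel₀ (pow_ne_zero c D.ϖE_ne_zero)
    rw [← h, pow_add]
    ring

/-- the Gauss valuation ring of the function field. -/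
def QData.gaussO : ValuationSubring D.F0 where
  toSubring := D.LamRing.comap (algebraMap D.F0 (LaurentSeries K))
  mem_or_inv_mem' := by
    intro f
    by_cases hf0 : f = 0
    · left
      rw [hf0]
      exact Subring.zero_mem _
    have hf0' : (f : LaurentSeries K) ≠ 0 := fun h => hf0 (Subtype.ext h)
    rcases D.isFrac_or f.2 hf0' with ⟨e, t, w, ht, hw, h⟩ | ⟨e, t, w, ht, hw, h⟩
    · left
      exact ⟨t, D.ϖW ^ (e + 1) * w, ht, by rw [map_mul, map_pow, D.inc_ϖW]; exact h⟩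
    · right
      refine ⟨w, D.ϖW ^ e * t, hw, ?_⟩
      rw [map_mul, map_pow, D.inc_ϖW, ← h]
      show _ * ((f⁻¹ : D.F0) : LaurentSeries K) = _
      rw [IntermediateField.coe_inv]
      field_simp

lemma QData.mem_gaussO {f : D.F0} : f ∈ D.gaussO ↔ (f : LaurentSeries K) ∈ D.LamRing := Iff.rfl

theorem QData.isUnif : Model.IsUnif D.gaussO D.ϖF where
  ne_zero := D.ϖF_ne_zero
  mem := by
    rw [D.mem_gaussO, D.coe_ϖF, ← D.inc_ϖW]
    exact QData.inc_mem_LamRing _
  inv_notMem := by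
    rw [D.mem_gaussO, IntermediateField.coe_inv, D.coe_ϖF]
    rintro ⟨t, w, ht, h⟩
    apply ht
    rw [D.red_eq_zero_iff]
    refine ⟨w, D.inc_injective ?_⟩
    rw [map_mul, D.inc_ϖW, ← h]
    field_simp [D.ϖE_ne_zero]
  gen := by
    intro x hx hx'
    have hx0 : x ≠ 0 := by
      rintro rfl
      apply hx'
      rw [inv_zero]
      exact D.gaussO.zero_mem
    have hx0' : (x : LaurentSeries K) ≠ 0 := fun h => hx0 (Subtype.ext h)
    rcases D.isFrac_or x.2 hx0' with ⟨e, t, w, ht, hw, h⟩ | ⟨e, t, w, ht, hw, h⟩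
    · refine ⟨D.ϖF⁻¹ * x, ?_, ?_⟩
      · rw [D.mem_gaussO]
        refine ⟨t, D.ϖW ^ e * w, ht, ?_⟩
        rw [map_mul, map_pow, D.inc_ϖW, IntermediateField.coe_mul, IntermediateField.coe_inv,
          D.coe_ϖF, mul_left_comm, h, pow_succ]
        field_simp [D.ϖE_ne_zero]
      · rw [pow_one, mul_inv_cancel_left₀ D.ϖF_ne_zero]
    · exfalso
      apply hx'
      rw [D.mem_gaussO]
      refine ⟨w, D.ϖW ^ e * t, hw, ?_⟩
      rw [map_mul, map_pow, D.inc_ϖW, ← h, IntermediateField.coe_inv]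
      field_simp

/-- the reduction map on the Gauss valuation ring. -/
def QData.rhoO : D.gaussO →+* LaurentSeries k :=
  D.rho.comp (((algebraMap D.F0 (LaurentSeries K)).comp D.gaussO.subtype).codRestrict D.LamRing
    (fun f => f.2))

lemma QData.rhoO_apply (f : D.gaussO) : D.rhoO f = D.rho ⟨((f : D.F0) : LaurentSeries K), f.2⟩ :=
  rfl

/-- the kernel of the reduction map is `ϖ O`. -/
theorem QData.rhoO_eq_zero_iff (f : D.gaussO) :
    D.rhoO f = 0 ↔ Model.DivO D.gaussO D.ϖF 1 (f : D.F0) := by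
  rw [D.rhoO_apply, QData.rho_eq_zero_iff_exists]
  constructor
  · rintro ⟨g, hg, h⟩
    refine ⟨D.ϖF⁻¹ * f, ?_, by rw [pow_one, mul_inv_cancel_left₀ D.ϖF_ne_zero]⟩
    rw [D.mem_gaussO, IntermediateField.coe_mul, IntermediateField.coe_inv, D.coe_ϖF]
    have : D.ϖE⁻¹ * ((f : D.F0) : LaurentSeries K) = g := by
      have h' : ((f : D.F0) : LaurentSeries K) = D.ϖE * g := h
      rw [h', inv_mul_cancel_left₀ D.ϖE_ne_zero]
    rw [this]
    exact hg
  · rintro ⟨y, hy, h⟩
    refine ⟨y, hy, ?_⟩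
    show ((f : D.F0) : LaurentSeries K) = _
    rw [h, pow_one, IntermediateField.coe_mul, D.coe_ϖF]

end Fermat.Agent.ES.QE
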