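import Fermat.Agent.ES.UDesc

/-!
# ES / INJ : adapter from `Ram.smul_mem_radical` to the hypothesis `hRAM` of `Purity`

* `hRAM_of_hU` : abstract form (`AK = 𝔸[1/π]` Dedekind of characteristic zero).
-/

set_option autoImplicit false
set_option linter.style.haveILetI false
set_option linter.unusedSectionVars false

namespace Fermat.Agent.ES.RamAdapter

open Polynomial

noncomputable section

section Abstract

variable (𝔸 K E B : Type*) [CommRing 𝔸] [IsDomain 𝔸]
  [Field K] [Algebra 𝔸 K] [IsFractionRing 𝔸 K]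
  [Field E] [Algebra K E] [Algebra 𝔸 E] [IsScalarTower 𝔸 K E]
  [FiniteDimensional K E] [Algebra.IsSeparable K E]
  [CommRing B] [Algebra 𝔸 B] [Algebra B E] [IsScalarTower 𝔸 B E] [IsIntegralClosure B 𝔸 E]
  (π : 𝔸)
  (AK : Type*) [CommRing AK] [IsDedekindDomain AK] [Algebra ℚ AK] [Algebra 𝔸 AK]
  [IsLocalization.Away π AK] [Algebra AK K] [IsScalarTower 𝔸 AK K] [IsFractionRing AK K]
  [Algebra AK E] [IsScalarTower AK K E]

include K in
/-- an element integral over `AK = 𝔸[1/π]` becomes integral over `𝔸` after multiplication by a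
power of `π`. -/
theorem exists_pow_mul_eq (e : E) (he : IsIntegral AK e) :
    ∃ (k : ℕ) (b : B), algebraMap 𝔸 E π ^ k * e = algebraMap B E b := by
  haveI : IsScalarTower 𝔸 AK E := IsScalarTower.of_algebraMap_eq fun a => by
    rw [IsScalarTower.algebraMap_apply 𝔸 K E, IsScalarTower.algebraMap_apply 𝔸 AK K,
      ← IsScalarTower.algebraMap_apply AK K E]
  obtain ⟨⟨_, k, rfl⟩, hm⟩ :=
    IsIntegral.exists_multiple_integral_of_isLocalization (Submonoid.powers π) e he
  obtain ⟨b, hb⟩ := (IsIntegralClosure.isIntegral_iff (A := B)).1 hm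
  refine ⟨k, b, ?_⟩
  rw [hb, Submonoid.smul_def, Algebra.smul_def, map_pow]

/-- **RAM adapter**, abstract form: `hU` over `AK = 𝔸[1/π]` gives `hRAM` of `Purity`. -/
theorem hRAM_of_hU (g : 𝔸) (hg : g ≠ 0)
    (hU : ∀ Q : Ideal (integralClosure AK E), Q.IsPrime → Q ≠ ⊥ →
      algebraMap AK (integralClosure AK E) (algebraMap 𝔸 AK g) ∉ Q →
      ¬ Q ^ 2 ∣ (Q.comap (algebraMap AK (integralClosure AK E))).map
        (algebraMap AK (integralClosure AK E)))
    (y : E) (hy : ∀ b : B, ∃ a : 𝔸,
      Algebra.trace K E (y * algebraMap B E b) = algebraMap 𝔸 K a) :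
    ∃ (M k : ℕ) (u : B), 0 < M ∧
      algebraMap 𝔸 E π ^ k * (algebraMap 𝔸 E g * y) ^ M =
        algebraMap 𝔸 E g * algebraMap B E u := by
  haveI tw : IsScalarTower 𝔸 AK E := IsScalarTower.of_algebraMap_eq fun a => by
    rw [IsScalarTower.algebraMap_apply 𝔸 K E, IsScalarTower.algebraMap_apply 𝔸 AK K,
      ← IsScalarTower.algebraMap_apply AK K E]
  haveI : IsDedekindDomain (integralClosure AK E) := integralClosure.isDedekindDomain AK K E
  haveI : IsFractionRing (integralClosure AK E) E :=
    integralClosure.isFractionRing_of_finite_extension K E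
  haveI : Module.Finite AK (integralClosure AK E) := IsIntegralClosure.finite AK K E _
  have hinj : Function.Injective (algebraMap AK E) := by
    rw [IsScalarTower.algebraMap_eq AK K E]
    exact (algebraMap K E).injective.comp (IsFractionRing.injective AK K)
  haveI : Module.IsTorsionFree AK (integralClosure AK E) :=
    Module.isTorsionFree_iff_algebraMap_injective.mpr (by
      intro a b h
      apply hinj
      rw [IsScalarTower.algebraMap_apply AK (integralClosure AK E) E, h,
        ← IsScalarTower.algebraMap_apply])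
  have hg' : algebraMap 𝔸 AK g ≠ 0 := by
    intro h
    apply hg
    apply IsFractionRing.injective 𝔸 K
    rw [IsScalarTower.algebraMap_apply 𝔸 AK K, h, map_zero, map_zero]
  have hπu : IsUnit (algebraMap 𝔸 AK π) := IsLocalization.Away.algebraMap_isUnit π
  have hdual : y ∈ Submodule.traceDual AK K (1 : Submodule (integralClosure AK E) E) := by
    rw [Submodule.mem_traceDual]
    intro e he
    obtain ⟨b', rfl⟩ := Submodule.mem_one.1 he
    obtain ⟨k, b, hb⟩ := exists_pow_mul_eq 𝔸 K E B π AK (algebraMap (integralClosure AK E) E b') b'.2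
    obtain ⟨a, ha⟩ := hy b
    obtain ⟨u, hu⟩ := hπu
    refine ⟨((u⁻¹ : AKˣ) : AK) ^ k * algebraMap 𝔸 AK a, ?_⟩
    rw [Algebra.traceForm_apply]
    rw [← hb] at ha
    have e1 : y * (algebraMap 𝔸 E π ^ k * algebraMap (integralClosure AK E) E b')
        = (algebraMap 𝔸 K π ^ k) • (y * algebraMap (integralClosure AK E) E b') := by
      rw [Algebra.smul_def, map_pow, ← IsScalarTower.algebraMap_apply 𝔸 K E]
      ring
    rw [e1, map_smul, smul_eq_mul] at ha
    rw [map_mul, map_pow, ← IsScalarTower.algebraMap_apply 𝔸 AK K, ← ha, ← mul_assoc, ← mul_pow,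
      IsScalarTower.algebraMap_apply 𝔸 AK K π, ← map_mul, ← hu, Units.inv_mul, map_one, one_pow,
      one_mul]
  obtain ⟨z, ⟨n, hzn⟩, hz⟩ := Ram.smul_mem_radical K E (algebraMap 𝔸 AK g) hg' hU y hdual
  have hzn' : z ^ (n + 1) ∈ Ideal.span {algebraMap AK (integralClosure AK E) (algebraMap 𝔸 AK g)} := by
    rw [pow_succ]
    exact Ideal.mul_mem_right _ _ hzn
  obtain ⟨uK, huK⟩ := Ideal.mem_span_singleton'.1 hzn'
  obtain ⟨k, u, hu⟩ := exists_pow_mul_eq 𝔸 K E B π AK (algebraMap (integralClosure AK E) E uK) uK.2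
  refine ⟨n + 1, k, u, Nat.succ_pos n, ?_⟩
  have h1 : (algebraMap 𝔸 E g * y) ^ (n + 1)
      = algebraMap (integralClosure AK E) E uK * algebraMap 𝔸 E g := by
    rw [IsScalarTower.algebraMap_apply 𝔸 AK E g, ← hz, ← map_pow, ← huK, map_mul,
      ← IsScalarTower.algebraMap_apply AK (integralClosure AK E) E]
  rw [h1, ← hu]
  ring

end Abstract

end

end Fermat.Agent.ES.RamAdapter
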