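import Fermat.Agent.ES.ADefs
import Fermat.Agent.ES.Ram
import Fermat.Agent.ES.UDesc
import Fermat.Agent.ES.ConstAbs
import Fermat.Agent.S28.LamGen
import Fermat.Agent.S24.Loc4
import Fermat.Agent.S24.LocInf
import Fermat.Agent.S24.Degree

/-!
# ES, block INJ (route A), package A-RAMJ : `g · (codifferent) ⊆ rad (g)` for `ℚ̄[j] ⊆ FF N`
-/

set_option autoImplicit false

namespace Fermat.Agent.ES

open Fermat.Agent.ES.TC IntermediateField Module Polynomial AlgebraicCurve
open Fermat.Agent.S24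

namespace RamJ

section abs

variable {K F : Type*} [Field K] [Field F] [Algebra K F]

open scoped IntermediateField.algebraAdjoinAdjoin

/-- polynomials in `x`, as elements of `K[x]` -/
noncomputable def toA (x : F) : K[X] →+* Algebra.adjoin K {x} :=
  ((aeval x : K[X] →ₐ[K] F).codRestrict (Algebra.adjoin K {x}) (fun p => by
    rw [Algebra.adjoin_singleton_eq_range_aeval]; exact ⟨p, rfl⟩) : K[X] →ₐ[K] _).toRingHom

lemma coe_toA (x : F) (p : K[X]) : ((toA x p : Algebra.adjoin K {x}) : F) = aeval x p := rfl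

lemma toA_surjective (x : F) : Function.Surjective (toA (K := K) x) := by
  rintro ⟨y, hy⟩
  have hy' := hy
  rw [Algebra.adjoin_singleton_eq_range_aeval] at hy'
  obtain ⟨p, hp⟩ := hy'
  exact ⟨p, Subtype.ext hp⟩

/-- polynomials in `x`, as elements of the chart -/
noncomputable def toB (x : F) : K[X] →+* integralClosure (Algebra.adjoin K {x}) F :=
  (algebraMap (Algebra.adjoin K {x}) (integralClosure (Algebra.adjoin K {x}) F)).comp (toA x)

lemma coe_toB (x : F) (p : K[X]) :
    ((toB x p : integralClosure (Algebra.adjoin K {x}) F) : F) = aeval x p := rfl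

/-- a nonzero prime of the chart contains some `x - a` -/
lemma exists_sub_mem [IsAlgClosed K] (x : F)
    (Q : Ideal (integralClosure (Algebra.adjoin K {x}) F)) (hQp : Q.IsPrime) (hQ : Q ≠ ⊥) :
    ∃ a : K, toB x (X - C a) ∈ Q := by
  have key : ∀ (n : ℕ) (q : K[X]), q ≠ 0 → q.natDegree = n → toB x q ∈ Q →
      ∃ a : K, toB x (X - C a) ∈ Q := by
    intro n
    induction n with
    | zero =>
      intro q hq hn hmem
      exfalso
      rw [eq_C_of_natDegree_eq_zero hn] at hmem hq
      have hc : q.coeff 0 ≠ 0 := fun h => hq (by rw [h, C_0])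
      apply hQp.ne_top
      rw [Ideal.eq_top_iff_one]
      have h1 : toB x (C (q.coeff 0)⁻¹) * toB x (C (q.coeff 0)) = 1 := by
        rw [← map_mul, ← C_mul, inv_mul_cancel₀ hc, C_1, map_one]
      rw [← h1]
      exact Q.mul_mem_left _ hmem
    | succ n ih =>
      intro q hq hn hmem
      obtain ⟨a, ha⟩ := IsAlgClosed.exists_root q (by
        rw [degree_eq_natDegree hq, hn]
        exact_mod_cast Nat.succ_ne_zero n)
      obtain ⟨q', rfl⟩ := dvd_iff_isRoot.2 ha
      have hq' : q' ≠ 0 := right_ne_zero_of_mul hq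
      rw [map_mul] at hmem
      rcases hQp.mem_or_mem hmem with h | h
      · exact ⟨a, h⟩
      · refine ih q' hq' ?_ h
        rw [natDegree_mul (X_sub_C_ne_zero a) hq', natDegree_X_sub_C] at hn
        omega
  have h1 : Q.comap (algebraMap (Algebra.adjoin K {x}) (integralClosure (Algebra.adjoin K {x}) F))
      ≠ ⊥ := Ideal.IsIntegral.comap_ne_bot _ hQ
  obtain ⟨y, hy, hy0⟩ := Submodule.exists_mem_ne_zero_of_ne_bot h1
  obtain ⟨q, rfl⟩ := toA_surjective x y
  exact key _ q (fun h => hy0 (by rw [h, map_zero])) rfl hy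

/-- **RAM** for a chart `K[x]`, from the place-level unramifiedness outside `g = 0`. -/
theorem ram_of_unram [IsAlgClosed K] [CharZero K] (x : F) (hx : Transcendental K x)
    [FiniteDimensional K⟮x⟯ F] (g : K[X]) (hg : g ≠ 0)
    (hU : ∀ a : K, g.eval a ≠ 0 → ∀ v : Place K F, 0 < v.ord (x - algebraMap K F a) →
      v.ord (x - algebraMap K F a) = 1) :
    ∀ ω ∈ Codiff K x, ∃ M : ℕ, 0 < M ∧ ∃ β ∈ chart K x,
      (aeval x g * ω) ^ M = aeval x g * β := by
  intro ω hω
  have hpid := ConstAbs.isPrincipalIdealRing_adjoin hx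
  have hded : IsDedekindDomain (integralClosure (Algebra.adjoin K {x}) F) :=
    integralClosure.isDedekindDomain (Algebra.adjoin K {x}) K⟮x⟯ F
  have hfrac : IsFractionRing (integralClosure (Algebra.adjoin K {x}) F) F :=
    integralClosure.isFractionRing_of_finite_extension K⟮x⟯ F
  have hfin : Module.Finite (Algebra.adjoin K {x}) (integralClosure (Algebra.adjoin K {x}) F) :=
    IsIntegralClosure.finite (Algebra.adjoin K {x}) K⟮x⟯ F _
  let _ : Algebra ℚ (Algebra.adjoin K {x}) :=
    ((algebraMap K (Algebra.adjoin K {x})).comp (algebraMap ℚ K)).toAlgebra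
  have hinjx : Function.Injective (aeval x : K[X] →ₐ[K] F) :=
    transcendental_iff_injective.1 hx
  have hg' : toA x g ≠ 0 := by
    intro h
    apply hg
    apply hinjx
    rw [map_zero, ← coe_toA, h]
    rfl
  have hU' : ∀ Q : Ideal (integralClosure (Algebra.adjoin K {x}) F), Q.IsPrime → Q ≠ ⊥ →
      algebraMap (Algebra.adjoin K {x}) (integralClosure (Algebra.adjoin K {x}) F) (toA x g) ∉ Q →
      ¬ Q ^ 2 ∣ (Q.comap (algebraMap (Algebra.adjoin K {x})
        (integralClosure (Algebra.adjoin K {x}) F))).map (algebraMap (Algebra.adjoin K {x})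
        (integralClosure (Algebra.adjoin K {x}) F)) := by
    intro Q hQp hQ hgQ hdvd
    obtain ⟨v, -, hv2⟩ := UDesc.exists_place_over x hx
      (algebraMap (integralClosure (Algebra.adjoin K {x}) F) F) Subtype.val_injective
      (fun b => (S28.Lam.isIntegral_adjoin_singleton_iff x _).1 b.2)
      (fun e he => by
        have he' : e ∈ integralClosure (Algebra.adjoin K {x}) F :=
          (S28.Lam.isIntegral_adjoin_singleton_iff x e).2 he
        exact (algebraMap (integralClosure (Algebra.adjoin K {x}) F) F).isIntegralElem_map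
          (x := ⟨e, he'⟩)) Q hQ
    obtain ⟨a, ha⟩ := exists_sub_mem x Q hQp hQ
    have hne : toB x (X - C a) ≠ 0 := by
      intro h
      apply X_sub_C_ne_zero a
      apply hinjx
      rw [map_zero, ← coe_toB, h]
      rfl
    have h2 : toB x (X - C a) ∈ Q ^ 2 := by
      apply Ideal.le_of_dvd hdvd
      exact Ideal.mem_map_of_mem _ (show toA x (X - C a) ∈ Q.comap _ from ha)
    have h3 := hv2 2 _ h2 hne
    have h4 : algebraMap (integralClosure (Algebra.adjoin K {x}) F) F (toB x (X - C a))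
        = x - algebraMap K F a := by
      show aeval x (X - C a) = _
      simp
    rw [h4] at h3
    have hga : g.eval a ≠ 0 := by
      intro h0
      obtain ⟨g', rfl⟩ := dvd_iff_isRoot.2 h0
      apply hgQ
      show toB x ((X - C a) * g') ∈ Q
      rw [map_mul]
      exact Q.mul_mem_right _ ha
    have h5 := hU a hga v (by
      have : ((2 : ℕ) : ℤ) = 2 := rfl
      omega)
    rw [h5] at h3
    norm_num at h3
  have hω' : ω ∈ Submodule.traceDual (Algebra.adjoin K {x}) K⟮x⟯
      (1 : Submodule (integralClosure (Algebra.adjoin K {x}) F) F) := by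
    rw [Submodule.mem_traceDual]
    intro b hb
    obtain ⟨b', rfl⟩ := Submodule.mem_one.1 hb
    have h1 := hω (b' : F) b'.2
    refine ⟨⟨_, h1⟩, ?_⟩
    apply Subtype.ext
    show trF K x ((b' : F) * ω) = _
    rw [Algebra.traceForm_apply, mul_comm]
    rfl
  obtain ⟨z, hz, hzω⟩ := Ram.smul_mem_radical (A := Algebra.adjoin K {x}) K⟮x⟯ F
    (B := integralClosure (Algebra.adjoin K {x}) F) (toA x g) hg' hU' ω hω'
  obtain ⟨n, hn⟩ := hz
  have hn1 : z ^ (n + 1) ∈ Ideal.span {algebraMap (Algebra.adjoin K {x})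
      (integralClosure (Algebra.adjoin K {x}) F) (toA x g)} := by
    rw [pow_succ]
    exact Ideal.mul_mem_right _ _ hn
  obtain ⟨β, hβ⟩ := Ideal.mem_span_singleton'.1 hn1
  refine ⟨n + 1, Nat.succ_pos n, (β : F), β.2, ?_⟩
  have h1 : (aeval x g * ω) = (z : F) := hzω.symm
  rw [h1]
  have h2 := congrArg (fun b : integralClosure (Algebra.adjoin K {x}) F => (b : F)) hβ
  simp only [Subalgebra.coe_mul, Subalgebra.coe_pow] at h2
  rw [← h2, mul_comm]
  rfl

end abs

end RamJ

/-- **A-RAMJ**, chart `ℚ̄[j]`. -/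
theorem ram_j (N : ℕ) [NeZero N] : ∀ ω ∈ Codiff Kb (jF N), ∃ M : ℕ, 0 < M ∧
    ∃ β ∈ chart Kb (jF N),
      (aeval (jF N) (X * (X - C 1728) : Kb[X]) * ω) ^ M
        = aeval (jF N) (X * (X - C 1728) : Kb[X]) * β := by
  refine RamJ.ram_of_unram (jF N) (transcendental_jF N) _
    (mul_ne_zero X_ne_zero (X_sub_C_ne_zero _)) ?_
  intro a ha v hv
  have h0 : a ≠ 0 := by
    rintro rfl
    simp at ha
  have h1 : a ≠ 1728 := by
    rintro rfl
    simp at ha
  exact Loc.ord_jF_sub_eq_one N (finrank_FF N) a h0 h1 v hv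

/-- **A-RAMJ**, chart `ℚ̄[1/j]`. -/
theorem ram_j_inv (N : ℕ) [NeZero N] : ∀ ω ∈ Codiff Kb (jF N)⁻¹, ∃ M : ℕ, 0 < M ∧
    ∃ β ∈ chart Kb (jF N)⁻¹,
      (aeval (jF N)⁻¹ (X * (1 - C 1728 * X) : Kb[X]) * ω) ^ M
        = aeval (jF N)⁻¹ (X * (1 - C 1728 * X) : Kb[X]) * β := by
  have hne : (X * (1 - C 1728 * X) : Kb[X]) ≠ 0 := by
    intro h
    have := congrArg (fun p : Kb[X] => p.eval 1) h
    simp at this
    norm_num at this
  refine RamJ.ram_of_unram (jF N)⁻¹ (FF.transcendental_inv (transcendental_jF N)) _ hne ?_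
  intro a ha v hv
  have h0 : a ≠ 0 := by
    rintro rfl
    simp at ha
  have h1 : a⁻¹ ≠ 1728 := by
    intro h
    apply ha
    have : a = 1728⁻¹ := by rw [← h, inv_inv]
    rw [this]
    simp
  have hj0 : jF N ≠ 0 := by
    intro h
    exact transcendental_jF N (h ▸ isAlgebraic_zero)
  have ha0 : algebraMap Kb (FF N) a ≠ 0 := (_root_.map_ne_zero _).2 h0
  have hinv : v.ord (jF N)⁻¹ = 0 := by
    have h2 := Place.ord_add_eq_of_lt v (f := algebraMap Kb (FF N) a)
      (g := (jF N)⁻¹ - algebraMap Kb (FF N) a) ha0 (by rw [Place.ord_algebraMap]; exact hv)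
    rw [add_sub_cancel, Place.ord_algebraMap] at h2
    exact h2
  have hsub : jF N - algebraMap Kb (FF N) a⁻¹ ≠ 0 := by
    intro h
    apply transcendental_jF N
    rw [sub_eq_zero.1 h]
    exact isAlgebraic_algebraMap _
  have e : (jF N)⁻¹ - algebraMap Kb (FF N) a
      = (-(algebraMap Kb (FF N) a) * (jF N - algebraMap Kb (FF N) a⁻¹)) * (jF N)⁻¹ := by
    rw [map_inv₀]
    field_simp
    ring
  have h3 : v.ord ((jF N)⁻¹ - algebraMap Kb (FF N) a)
      = v.ord (jF N - algebraMap Kb (FF N) a⁻¹) := by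
    rw [e, AlgebraicCurve.Place.ord_mul v (mul_ne_zero (neg_ne_zero.2 ha0) hsub)
      (inv_ne_zero hj0), AlgebraicCurve.Place.ord_mul v (neg_ne_zero.2 ha0) hsub, hinv,
      Place.ord_neg, Place.ord_algebraMap]
    ring
  rw [h3] at hv ⊢
  exact Loc.ord_jF_sub_eq_one N (finrank_FF N) a⁻¹ (inv_ne_zero h0) h1 v hv

end Fermat.Agent.ES

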