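import Fermat.Agent.ES.RamPoly
import Fermat.Agent.S24.Degree
import Fermat.Agent.S24.Loc4

/-!
# ES / INJ : (U) at the places of `FF N` for the coordinates `j` and `1/j`
-/

set_option autoImplicit false
set_option linter.unusedSectionVars false

namespace Fermat.Agent.ES.RamJU

open Polynomial AlgebraicCurve IntermediateField Fermat.Agent.S24

noncomputable section

variable (N : ℕ) [NeZero N]

/-- (U) for `x = j`, `g = X (X - 1728)`. -/
theorem hU_j {R : Type*} [CommRing R] (φ : R →+* Kb) (a : Kb)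
    (ha : ((X * (X - C 1728) : R[X]).map φ).eval a ≠ 0) (v : Place Kb (FF N))
    (hv : 0 < v.ord (jF N - algebraMap Kb (FF N) a)) :
    v.ord (jF N - algebraMap Kb (FF N) a) = 1 := by
  have h : a * (a - 1728) ≠ 0 := by simpa [map_ofNat φ 1728] using ha
  exact Loc.ord_jF_sub_eq_one N (finrank_FF N) a (left_ne_zero_of_mul h)
    (sub_ne_zero.1 (right_ne_zero_of_mul h)) v hv

theorem transcendental_jF_inv : Transcendental Kb (jF N)⁻¹ :=
  FF.transcendental_inv (transcendental_jF N)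

instance finiteDimensional_jF_inv : FiniteDimensional Kb⟮(jF N)⁻¹⟯ (FF N) := by
  rw [FF.adjoin_inv]
  infer_instance

/-- (U) for `x = 1/j`, `g = X (1 - 1728 X)`. -/
theorem hU_jinv {R : Type*} [CommRing R] (φ : R →+* Kb) (a : Kb)
    (ha : ((X * (1 - C 1728 * X) : R[X]).map φ).eval a ≠ 0) (v : Place Kb (FF N))
    (hv : 0 < v.ord ((jF N)⁻¹ - algebraMap Kb (FF N) a)) :
    v.ord ((jF N)⁻¹ - algebraMap Kb (FF N) a) = 1 := by
  have h : a * (1 - 1728 * a) ≠ 0 := by simpa [map_ofNat φ 1728] using ha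
  have ha0 : a ≠ 0 := left_ne_zero_of_mul h
  have ha1 : 1 - 1728 * a ≠ 0 := right_ne_zero_of_mul h
  have hj0 : jF N ≠ 0 := fun h0 => transcendental_jF N (h0 ▸ isAlgebraic_zero)
  have hA0 : algebraMap Kb (FF N) a ≠ 0 := by simpa using ha0
  have hne : (jF N)⁻¹ - algebraMap Kb (FF N) a ≠ 0 := by
    intro h0
    rw [h0, Place.ord_zero] at hv
    exact lt_irrefl _ hv
  have hjinv : v.ord (jF N)⁻¹ = 0 := by
    have e : (jF N)⁻¹ = algebraMap Kb (FF N) a + ((jF N)⁻¹ - algebraMap Kb (FF N) a) := by ring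
    rw [e, Place.ord_add_eq_of_lt v hA0 (by rwa [FF.ord_algebraMap]), FF.ord_algebraMap]
  have e2 : (jF N)⁻¹ - algebraMap Kb (FF N) a
      = algebraMap Kb (FF N) (-a) * ((jF N - algebraMap Kb (FF N) a⁻¹) * (jF N)⁻¹) := by
    rw [map_neg, map_inv₀]
    field_simp
    ring
  have hne2 : jF N - algebraMap Kb (FF N) a⁻¹ ≠ 0 := by
    intro h0
    rw [e2, h0] at hne
    simp at hne
  have e3 : v.ord ((jF N)⁻¹ - algebraMap Kb (FF N) a) = v.ord (jF N - algebraMap Kb (FF N) a⁻¹) := by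
    rw [e2, Place.ord_mul v (by simpa using ha0) (mul_ne_zero hne2 (inv_ne_zero hj0)),
      FF.ord_algebraMap, Place.ord_mul v hne2 (inv_ne_zero hj0), hjinv]
    ring
  rw [e3] at hv ⊢
  refine Loc.ord_jF_sub_eq_one N (finrank_FF N) a⁻¹ (inv_ne_zero ha0) ?_ v hv
  intro h1
  apply ha1
  rw [inv_eq_iff_eq_inv] at h1
  rw [h1]
  norm_num

end

end Fermat.Agent.ES.RamJU
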