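import Fermat.Agent.ES.ADefs
import Fermat.Agent.ES.InstPl
import Fermat.Agent.S24.FFMain
import Fermat.Prelude.Def_AlgebraicCurve_Repartitions

/-!
# ES / INJ (route A) / A-RIEM : Riemann's inequality for the degree zero twist

If `dim L(b (x)_∞) ≥ b n + 1 - g` for all `b`, then `dim L(E) ≥ deg E + 1 - g` for every divisor
`E`; applied to `E = b (x)_∞ + div(w) / p`.
-/

set_option autoImplicit false

noncomputable section

namespace Fermat.Agent.ES

open AlgebraicCurve IntermediateField Module Fermat.Agent.S24 Fermat.Agent.ES.AbsInj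
  Fermat.Agent.ES.TC

namespace Riem

variable {K F : Type*} [Field K] [Field F] [Algebra K F]

local notation "LL" => riemannRochSpace

theorem LL_mono {D D' : Divisor K F} (h : D ≤ D') : LL D ≤ LL D' := by
  intro f hf
  rw [mem_riemannRochSpace_iff] at hf ⊢
  intro v
  rcases hf v with h0 | h1
  · exact Or.inl h0
  · have := Finsupp.le_def.mp h v
    exact Or.inr (by omega)

theorem degree_nonneg {E : Divisor K F} (h : 0 ≤ E) : 0 ≤ Divisor.degree E := by
  rw [Divisor.degree, Finsupp.liftAddHom_apply]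
  refine Finsupp.sum_nonneg fun v _ => ?_
  have h1 : 0 ≤ E v := Finsupp.le_def.mp h v
  simp only [AddMonoidHom.coe_mulRight]
  positivity

theorem degree_mono {D D' : Divisor K F} (h : D ≤ D') :
    Divisor.degree D ≤ Divisor.degree D' := by
  have := degree_nonneg (E := D' - D) (sub_nonneg.2 h)
  rw [map_sub] at this
  omega

section AlgClosed

variable [IsAlgClosed K] [FF.IsFF K F]

/-- the value of a regular function at a place -/
theorem exists_const (v : Place K F) {y : F} (hy : y ∈ v.toValuationSubring) :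
    ∃ c : K, y - algebraMap K F c = 0 ∨ 0 < v.ord (y - algebraMap K F c) := by
  obtain ⟨c, hc⟩ := (FF.algebraMap_residue_bijective v).2
    (IsLocalRing.residue v.toValuationSubring ⟨y, hy⟩)
  refine ⟨c, ?_⟩
  have h1 : (⟨y, hy⟩ - algebraMap K v.toValuationSubring c : v.toValuationSubring)
      ∈ IsLocalRing.maximalIdeal v.toValuationSubring := by
    rw [← IsLocalRing.residue_eq_zero_iff, map_sub, ← hc]
    exact sub_eq_zero.mpr rfl
  by_cases h2 : (⟨y, hy⟩ - algebraMap K v.toValuationSubring c : v.toValuationSubring) = 0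
  · exact Or.inl (congrArg Subtype.val h2)
  · exact Or.inr ((FF.mem_maximalIdeal_iff v h2).mp h1)

/-- `L(D) = L(D - v) + K f₂` -/
theorem LL_le_sup (D : Divisor K F) (v : Place K F) {f₂ : F} (h₂ : f₂ ∈ LL D)
    (h₂' : f₂ ∉ LL (D - Finsupp.single v 1)) :
    LL D ≤ LL (D - Finsupp.single v 1) ⊔ Submodule.span K {f₂} := by
  classical
  have hf₂ : f₂ ≠ 0 := fun h0 => h₂' (h0 ▸ zero_mem _)
  rw [mem_riemannRochSpace_iff] at h₂
  have hord₂ : v.ord f₂ = - D v := by
    by_contra hne
    apply h₂'
    rw [mem_riemannRochSpace_iff]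
    intro v'
    right
    have h3 := (h₂ v').resolve_left hf₂
    rw [Finsupp.sub_apply]
    by_cases hv : v' = v
    · subst hv
      rw [Finsupp.single_eq_same]
      omega
    · rw [Finsupp.single_eq_of_ne (by exact hv)]
      omega
  intro f₁ h₁
  have h₁m := h₁
  rw [mem_riemannRochSpace_iff] at h₁
  rcases eq_or_ne f₁ 0 with rfl | hf₁
  · exact zero_mem _
  have hy : f₁ / f₂ ∈ v.toValuationSubring := by
    rw [FF.mem_iff_ord_nonneg v (div_ne_zero hf₁ hf₂), div_eq_mul_inv,
      v.ord_mul hf₁ (inv_ne_zero hf₂), v.ord_inv, hord₂]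
    have := (h₁ v).resolve_left hf₁
    omega
  obtain ⟨c, hc⟩ := exists_const v hy
  have hdecomp : f₁ = (f₁ - c • f₂) + c • f₂ := by ring
  rw [hdecomp]
  refine Submodule.add_mem_sup ?_ (Submodule.smul_mem _ _ (Submodule.mem_span_singleton_self _))
  have heq : f₁ - c • f₂ = (f₁ / f₂ - algebraMap K F c) * f₂ := by
    rw [Algebra.smul_def]
    field_simp
  have hmem : f₁ - c • f₂ ∈ LL D :=
    sub_mem h₁m (Submodule.smul_mem _ _ (mem_riemannRochSpace_iff.2 h₂))
  rw [mem_riemannRochSpace_iff] at hmem ⊢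
  intro v'
  rcases hmem v' with h0 | h3
  · exact Or.inl h0
  by_cases h0 : f₁ - c • f₂ = 0
  · exact Or.inl h0
  right
  rw [Finsupp.sub_apply]
  by_cases hv : v' = v
  · subst hv
    rw [Finsupp.single_eq_same]
    rcases hc with hc | hc
    · rw [heq, hc, zero_mul] at h0
      exact absurd rfl h0
    · have hne : f₁ / f₂ - algebraMap K F c ≠ 0 := by
        intro h4
        rw [heq, h4, zero_mul] at h0
        exact absurd rfl h0
      rw [heq, v'.ord_mul hne hf₂, hord₂]
      omega
  · rw [Finsupp.single_eq_of_ne (by exact hv)]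
    omega

theorem finrank_LL_le (D : Divisor K F) (v : Place K F) [Module.Finite K (LL D)] :
    finrank K (LL D) ≤ finrank K (LL (D - Finsupp.single v 1)) + 1 := by
  have hle : D - Finsupp.single v 1 ≤ D := by
    rw [sub_le_self_iff]
    exact Finsupp.single_nonneg.2 zero_le_one
  have hfin : Module.Finite K (LL (D - Finsupp.single v 1)) :=
    Submodule.finiteDimensional_of_le (LL_mono hle)
  by_cases h : LL D ≤ LL (D - Finsupp.single v 1)
  · exact (Submodule.finrank_mono h).trans (Nat.le_succ _)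
  · obtain ⟨f₂, h₂, h₂'⟩ := SetLike.not_le_iff_exists.1 h
    have h1 := Submodule.finrank_mono (LL_le_sup D v h₂ h₂')
    have h2 := Submodule.finrank_add_le_finrank_add_finrank (LL (D - Finsupp.single v 1))
      (Submodule.span K {f₂})
    have h3 : finrank K (Submodule.span K {f₂}) ≤ 1 := by
      have := finrank_span_le_card (R := K) ({f₂} : Set F)
      simpa using this
    omega

/-- `dim L(D) ≤ dim L(D') + deg (D - D')` for `D' ≤ D` -/
theorem finrank_LL_le_add (n : ℕ) : ∀ (D D' : Divisor K F), D' ≤ D →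
    Divisor.degree D - Divisor.degree D' = n → Module.Finite K (LL D) →
    finrank K (LL D) ≤ finrank K (LL D') + n := by
  classical
  induction n with
  | zero =>
    intro D D' hle hdeg _
    by_cases h : D' = D
    · subst h; simp
    · exfalso
      obtain ⟨v, hv⟩ : ∃ v, D' v < D v := by
        by_contra hcon
        push Not at hcon
        exact h (le_antisymm hle (Finsupp.le_def.2 hcon))
      have h1 : D' + Finsupp.single v 1 ≤ D := by
        rw [Finsupp.le_def]
        intro v'
        rw [Finsupp.add_apply]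
        by_cases hv' : v' = v
        · subst hv'
          rw [Finsupp.single_eq_same]
          omega
        · rw [Finsupp.single_eq_of_ne (by exact hv')]
          have := Finsupp.le_def.1 hle v'
          omega
      have h2 := degree_mono h1
      rw [map_add, Divisor.degree_single, FF.deg_eq_one v] at h2
      push_cast at hdeg h2
      omega
  | succ n ih =>
    intro D D' hle hdeg hfin
    by_cases h : D' = D
    · subst h; omega
    · obtain ⟨v, hv⟩ : ∃ v, D' v < D v := by
        by_contra hcon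
        push Not at hcon
        exact h (le_antisymm hle (Finsupp.le_def.2 hcon))
      have h1 : D' + Finsupp.single v 1 ≤ D := by
        rw [Finsupp.le_def]
        intro v'
        rw [Finsupp.add_apply]
        by_cases hv' : v' = v
        · subst hv'
          rw [Finsupp.single_eq_same]
          omega
        · rw [Finsupp.single_eq_of_ne (by exact hv')]
          have := Finsupp.le_def.1 hle v'
          omega
      have h2 : Divisor.degree D - Divisor.degree (D' + Finsupp.single v 1) = n := by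
        rw [map_add, Divisor.degree_single, FF.deg_eq_one v]
        push_cast at hdeg ⊢
        omega
      have h3 := ih D _ h1 h2 hfin
      have hfin' : Module.Finite K (LL (D' + Finsupp.single v 1)) :=
        Submodule.finiteDimensional_of_le (LL_mono h1)
      have h4 := finrank_LL_le (D' + Finsupp.single v 1) v
      rw [add_sub_cancel_right] at h4
      omega

theorem degree_eq_sum (D : Divisor K F) (s : Finset (Place K F)) (hs : D.support ⊆ s) :
    Divisor.degree D = ∑ v ∈ s, D v := by
  rw [Divisor.degree, Finsupp.liftAddHom_apply, Finsupp.sum_of_support_subset _ hs _ (by simp)]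
  refine Finset.sum_congr rfl fun v _ => ?_
  simp [FF.deg_eq_one v]

end AlgClosed

section Main

variable [IsAlgClosed K] [CharZero K] (x : F) (hx : Transcendental K x) [FiniteDimensional K⟮x⟯ F]

include hx

theorem exists_poleDiv : ∃ P : Divisor K F, (∀ v, P v = max 0 (- v.ord x)) ∧
    Divisor.degree P = (finrank K⟮x⟯ F : ℤ) := by
  classical
  have := isFF x hx
  obtain ⟨s, hs, hsum⟩ := exists_poles x hx
  have hsupp : ∀ v, max 0 (- v.ord x) ≠ 0 → v ∈ s := by
    intro v hv
    rw [hs]
    by_contra h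
    apply hv
    rw [max_eq_left]
    omega
  refine ⟨Finsupp.onFinset s (fun v => max 0 (- v.ord x)) hsupp, fun v => rfl, ?_⟩
  rw [degree_eq_sum _ s Finsupp.support_onFinset_subset, ← hsum]
  refine Finset.sum_congr rfl fun v hv => ?_
  rw [Finsupp.onFinset_apply, max_eq_right]
  have := (hs v).1 hv
  omega

omit [IsAlgClosed K] in
theorem mem_chart_iff (y : F) : y ∈ chart K x ↔ ∀ v : Place K F, 0 ≤ v.ord x → 0 ≤ v.ord y := by
  constructor
  · intro h v hv
    exact Inst.InstPl.ord_nonneg_of_isIntegral h v hv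
  · intro h
    exact Inst.InstPl.isIntegral_of_ord hx y h

theorem mem_chart_inv_iff (y : F) :
    y ∈ chart K x⁻¹ ↔ ∀ v : Place K F, v.ord x ≤ 0 → 0 ≤ v.ord y := by
  have hfd : FiniteDimensional K⟮x⁻¹⟯ F := by
    rw [FF.adjoin_inv x]; infer_instance
  rw [mem_chart_iff x⁻¹ (FF.transcendental_inv hx) y]
  refine forall_congr' fun v => ?_
  rw [v.ord_inv]
  constructor
  · intro h h1
    exact h (by omega)
  · intro h h1
    exact h (by omega)

theorem Lt_eq (P : Divisor K F) (hP : ∀ v, P v = max 0 (- v.ord x)) (b : ℕ) :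
    Lt (chart K x) (chart K x⁻¹) x 0 b = LL (b • P) := by
  have hx0 : x ≠ 0 := fun h => hx (h ▸ isAlgebraic_zero)
  ext y
  rw [mem_Lt, mem_chart_iff x hx, mem_chart_inv_iff x hx, mem_riemannRochSpace_iff, pow_zero,
    one_mul]
  rcases eq_or_ne y 0 with rfl | hy
  · simp
  have hord : ∀ v : Place K F, v.ord (x⁻¹ ^ b * y) = - (b * v.ord x) + v.ord y := by
    intro v
    rw [v.ord_mul (pow_ne_zero _ (inv_ne_zero hx0)) hy, FF.ord_pow, v.ord_inv]
    ring
  constructor
  · rintro ⟨h1, h2⟩ v
    right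
    rw [Finsupp.smul_apply, hP v, nsmul_eq_mul]
    rcases le_total 0 (v.ord x) with h | h
    · rw [max_eq_left (by omega)]
      have := h1 v h
      omega
    · rw [max_eq_right (by omega)]
      have := h2 v h
      rw [hord] at this
      linarith
  · intro h
    refine ⟨fun v hv => ?_, fun v hv => ?_⟩
    · have := (h v).resolve_left hy
      rw [Finsupp.smul_apply, hP v, nsmul_eq_mul, max_eq_left (by omega)] at this
      omega
    · have := (h v).resolve_left hy
      rw [Finsupp.smul_apply, hP v, nsmul_eq_mul, max_eq_right (by omega)] at this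
      rw [hord]
      linarith

theorem mem_LwSet (P : Divisor K F) (hP : ∀ v, P v = max 0 (- v.ord x)) (b : ℕ) (p : ℕ)
    (w : F) (hw : w ≠ 0) (Dw : Divisor K F) (hDw : ∀ v, (p : ℤ) * Dw v = v.ord w) (f : F)
    (hf : f ∈ LL (b • P + Dw)) : f ∈ LwSet (chart K x) (chart K x⁻¹) x w p 0 b := by
  have hx0 : x ≠ 0 := fun h => hx (h ▸ isAlgebraic_zero)
  rw [mem_riemannRochSpace_iff] at hf
  show (x ^ 0 * f) ^ p * w ∈ chart K x ∧ (x⁻¹ ^ b * f) ^ p * w ∈ chart K x⁻¹
  rw [mem_chart_iff x hx, mem_chart_inv_iff x hx, pow_zero, one_mul]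
  rcases eq_or_ne f 0 with rfl | hf0
  · rcases Nat.eq_zero_or_pos p with rfl | hp
    · have h0 : ∀ v : Place K F, v.ord w = 0 := fun v => by rw [← hDw v]; simp
      simp [h0]
    · simp [zero_pow hp.ne']
  have hp0 : (0 : ℤ) ≤ p := Int.natCast_nonneg p
  refine ⟨fun v hv => ?_, fun v hv => ?_⟩
  · have h1 := (hf v).resolve_left hf0
    rw [Finsupp.add_apply, Finsupp.smul_apply, hP v, nsmul_eq_mul, max_eq_left (by omega)] at h1
    rw [v.ord_mul (pow_ne_zero _ hf0) hw, FF.ord_pow, ← hDw v]
    nlinarith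
  · have h1 := (hf v).resolve_left hf0
    rw [Finsupp.add_apply, Finsupp.smul_apply, hP v, nsmul_eq_mul, max_eq_right (by omega)] at h1
    rw [v.ord_mul (pow_ne_zero _ (mul_ne_zero (pow_ne_zero _ (inv_ne_zero hx0)) hf0)) hw,
      FF.ord_pow, v.ord_mul (pow_ne_zero _ (inv_ne_zero hx0)) hf0, FF.ord_pow, v.ord_inv,
      ← hDw v]
    nlinarith

theorem exists_divDiv (p : ℕ) (hp : 0 < p) (w : F) (hw : w ≠ 0)
    (hdiv : ∀ v : Place K F, (p : ℤ) ∣ v.ord w) :
    ∃ Dw : Divisor K F, (∀ v, (p : ℤ) * Dw v = v.ord w) ∧ Divisor.degree Dw = 0 := by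
  obtain ⟨D, hD, hdeg⟩ := (hasPrincipalDivisors x hx).exists_divisor w hw
  refine ⟨D.mapRange (· / (p : ℤ)) (by simp), fun v => ?_, ?_⟩
  · rw [Finsupp.mapRange_apply, hD v]
    exact Int.mul_ediv_cancel' (hdiv v)
  · have h1 : (p : ℤ) • D.mapRange (· / (p : ℤ)) (by simp) = D := by
      ext v
      rw [Finsupp.smul_apply, Finsupp.mapRange_apply, hD v, smul_eq_mul]
      exact Int.mul_ediv_cancel' (hdiv v)
    have h2 := congrArg Divisor.degree h1
    rw [map_zsmul, hdeg, smul_eq_mul] at h2
    rcases mul_eq_zero.1 h2 with h3 | h3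
    · omega
    · exact h3

/-- Riemann's inequality for an arbitrary divisor, from the case of the multiples of `(x)_∞`. -/
theorem riemann_general (g : ℕ) (P : Divisor K F) (hPdeg : Divisor.degree P = (finrank K⟮x⟯ F : ℤ))
    (hfin : ∀ b : ℕ, Module.Finite K (LL (b • P)))
    (hbase : ∀ b : ℕ, b * finrank K⟮x⟯ F + 1 ≤ finrank K (LL (b • P)) + g)
    (E : Divisor K F) (d : ℕ) (hd : Divisor.degree E = d) :
    ∃ v : Fin (d + 1 - g) → F, LinearIndependent K v ∧ ∀ i, v i ∈ LL E := by
  classical
  have hFF := isFF x hx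
  have hn : 0 < finrank K⟮x⟯ F := finrank_pos
  -- the positive part of `E`
  let Ep : Divisor K F := E.mapRange (max · 0) (by simp)
  have hEp : ∀ v, Ep v = max (E v) 0 := fun v => Finsupp.mapRange_apply ..
  have hEp0 : 0 ≤ Ep := Finsupp.le_def.2 fun v => by rw [hEp]; exact le_max_right _ _
  have hdEp := degree_nonneg hEp0
  obtain ⟨e, he⟩ := Int.eq_ofNat_of_zero_le hdEp
  let b2 : ℕ := g + e
  have hfin2 := hfin b2
  -- a nonzero function in `L(b2 P - E₊)`
  have h1 : finrank K (LL (b2 • P)) ≤ finrank K (LL (b2 • P - Ep)) + e := by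
    refine finrank_LL_le_add e _ _ (sub_le_self _ hEp0) ?_ hfin2
    rw [map_sub, he]
    ring
  have h2 : 0 < finrank K (LL (b2 • P - Ep)) := by
    have h3 := hbase b2
    have h4 : b2 ≤ b2 * finrank K⟮x⟯ F := Nat.le_mul_of_pos_right _ hn
    omega
  have hnt : Nontrivial (LL (b2 • P - Ep)) := Module.nontrivial_of_finrank_pos (R := K) h2
  obtain ⟨⟨h, hh⟩, hh0⟩ := exists_ne (0 : LL (b2 • P - Ep))
  have hh0' : h ≠ 0 := fun h0 => hh0 (Subtype.ext h0)
  rw [mem_riemannRochSpace_iff] at hh
  obtain ⟨Dh, hDh, hDhdeg⟩ := (hasPrincipalDivisors x hx).exists_divisor h hh0'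
  have hle : E - Dh ≤ b2 • P := by
    rw [Finsupp.le_def]
    intro v
    have h3 := (hh v).resolve_left hh0'
    rw [Finsupp.sub_apply, hEp] at h3
    rw [Finsupp.sub_apply, hDh]
    have := le_max_left (E v) 0
    omega
  have hfin1 : Module.Finite K (LL (E - Dh)) := Submodule.finiteDimensional_of_le (LL_mono hle)
  have hdle := degree_mono hle
  rw [map_sub, hDhdeg, hd, map_nsmul, hPdeg, sub_zero, nsmul_eq_mul] at hdle
  have hdle' : d ≤ b2 * finrank K⟮x⟯ F := by exact_mod_cast hdle
  have h5 : finrank K (LL (b2 • P)) ≤ finrank K (LL (E - Dh)) + (b2 * finrank K⟮x⟯ F - d) := by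
    refine finrank_LL_le_add _ _ _ hle ?_ hfin2
    rw [map_sub, hDhdeg, hd, map_nsmul, hPdeg, sub_zero, nsmul_eq_mul, Nat.cast_sub hdle']
    push_cast
    ring
  have h6 : d + 1 - g ≤ finrank K (LL (E - Dh)) := by
    have h3 := hbase b2
    omega
  let B := Module.finBasis K (LL (E - Dh))
  refine ⟨fun i => h⁻¹ * (B (Fin.castLE h6 i) : F), ?_, fun i => ?_⟩
  · have hli := (B.linearIndependent.comp _ (Fin.castLE_injective h6)).map'
      ((LinearMap.mulLeft K h⁻¹).comp (LL (E - Dh)).subtype) (by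
        rw [LinearMap.ker_eq_bot]
        intro a b hab
        apply Subtype.ext
        exact mul_left_cancel₀ (inv_ne_zero hh0') hab)
    exact hli
  · have hm := (B (Fin.castLE h6 i)).2
    rw [mem_riemannRochSpace_iff] at hm ⊢
    intro v
    beta_reduce
    rcases hm v with h0 | h3
    · left
      rw [h0, mul_zero]
    · by_cases h0 : (B (Fin.castLE h6 i) : F) = 0
      · left
        rw [h0, mul_zero]
      · right
        rw [v.ord_mul (inv_ne_zero hh0') h0, v.ord_inv]
        rw [Finsupp.sub_apply, hDh] at h3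
        omega

end Main

end Riem

namespace TC

variable {K F : Type*} [Field K] [Field F] [Algebra K F]

/-- **A-RIEM** -/
theorem riemann_twist [IsAlgClosed K] [CharZero K] (x : F) (hx : Transcendental K x)
    [FiniteDimensional K⟮x⟯ F] (g : ℕ)
    (hfin : ∀ b : ℕ, Module.Finite K (Lt (chart K x) (chart K x⁻¹) x 0 b))
    (hbase : ∀ b : ℕ, b * finrank K⟮x⟯ F + 1 ≤
      finrank K (Lt (chart K x) (chart K x⁻¹) x 0 b) + g)
    (p : ℕ) (hp : 0 < p) (w : F) (hw : w ≠ 0) (hdiv : ∀ v : Place K F, (p : ℤ) ∣ v.ord w)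
    (b : ℕ) :
    ∃ v : Fin (b * finrank K⟮x⟯ F + 1 - g) → F, LinearIndependent K v ∧
      ∀ i, v i ∈ LwSet (chart K x) (chart K x⁻¹) x w p 0 b := by
  obtain ⟨P, hP, hPdeg⟩ := Riem.exists_poleDiv x hx
  obtain ⟨Dw, hDw, hDwdeg⟩ := Riem.exists_divDiv x hx p hp w hw hdiv
  have hfin' : ∀ b : ℕ, Module.Finite K (riemannRochSpace (b • P)) := fun b => by
    rw [← Riem.Lt_eq x hx P hP b]; exact hfin b
  have hbase' : ∀ b : ℕ, b * finrank K⟮x⟯ F + 1 ≤ finrank K (riemannRochSpace (b • P)) + g :=
    fun b => by rw [← Riem.Lt_eq x hx P hP b]; exact hbase b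
  obtain ⟨v, hv, hmem⟩ := Riem.riemann_general x hx g P hPdeg hfin' hbase' (b • P + Dw)
    (b * finrank K⟮x⟯ F) (by
      rw [map_add, hDwdeg, map_nsmul, hPdeg, add_zero, nsmul_eq_mul]
      push_cast
      ring)
  exact ⟨v, hv, fun i => Riem.mem_LwSet x hx P hP b p w hw Dw hDw _ (hmem i)⟩

end TC

end Fermat.Agent.ES
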