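import Fermat.Agent.ES.S18Glue
import Fermat.Agent.ES.KInt

/-!
# Project ES: `INJ m N A` (shape of the block KRON) implies `Inj A N m` (shape used for S18)
-/

set_option autoImplicit false
set_option synthInstance.maxHeartbeats 400000
set_option maxHeartbeats 1000000

noncomputable section

namespace Fermat.Agent.ES

open ModularCurve AlgebraicCurve Fermat.Agent.S24

namespace S18Inj

variable (A : ValuationSubring Kb) (N : ℕ)

/-- every function of the reduced field is the reduction of a quotient of integral functions. -/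
theorem exists_lift (s : LaurentSeries (IsLocalRing.ResidueField A))
    (hs : s ∈ modularFunctionFieldFullC (IsLocalRing.ResidueField A) N) :
    ∃ a b : LaurentSeries A, KInt.iota A a ∈ modularFunctionFieldBar N ∧
      KInt.iota A b ∈ modularFunctionFieldBar N ∧ KInt.red A b ≠ 0 ∧
      KInt.red A a = s * KInt.red A b := by
  have hone : KInt.iota A 1 ∈ modularFunctionFieldBar N := by
    rw [map_one]; exact one_mem _
  have hone' : KInt.red A 1 ≠ 0 := by
    rw [map_one]; exact one_ne_zero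
  induction hs using IntermediateField.adjoin_induction with
  | mem x hx =>
    obtain ⟨d, hd, hdN, rfl⟩ := hx
    refine ⟨jqNModC A d, 1, ?_, hone, hone', ?_⟩
    · rw [KInt.iota, coeffMap_jqNModC, ← jdL_eq]
      exact jdL_mem hdN
    · rw [KInt.red, coeffMap_jqNModC, map_one, mul_one]
      rfl
  | algebraMap c =>
    obtain ⟨c', rfl⟩ := IsLocalRing.residue_surjective c
    refine ⟨HahnSeries.single 0 c', 1, ?_, hone, hone', ?_⟩
    · rw [KInt.iota, coeffMap_single, ← algebraMap_laurentSeries_eq_single]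
      exact IntermediateField.algebraMap_mem _ _
    · rw [KInt.red, coeffMap_single, map_one, mul_one, algebraMap_laurentSeries_eq_single]
  | add x y _ _ hx hy =>
    obtain ⟨a₁, b₁, ha₁, hb₁, hn₁, he₁⟩ := hx
    obtain ⟨a₂, b₂, ha₂, hb₂, hn₂, he₂⟩ := hy
    refine ⟨a₁ * b₂ + a₂ * b₁, b₁ * b₂, ?_, ?_, ?_, ?_⟩
    · rw [map_add, map_mul, map_mul]
      exact add_mem (mul_mem ha₁ hb₂) (mul_mem ha₂ hb₁)
    · rw [map_mul]; exact mul_mem hb₁ hb₂
    · rw [map_mul]; exact mul_ne_zero hn₁ hn₂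
    · rw [map_add, map_mul, map_mul, map_mul, he₁, he₂]; ring
  | inv x _ hx =>
    obtain ⟨a₁, b₁, ha₁, hb₁, hn₁, he₁⟩ := hx
    by_cases hx0 : x = 0
    · refine ⟨0, 1, ?_, hone, hone', ?_⟩
      · rw [map_zero]; exact zero_mem _
      · rw [hx0, inv_zero, zero_mul, map_zero]
    · refine ⟨b₁, a₁, hb₁, ha₁, ?_, ?_⟩
      · rw [he₁]; exact mul_ne_zero hx0 hn₁
      · rw [he₁, ← mul_assoc, inv_mul_cancel₀ hx0, one_mul]
  | mul x y _ _ hx hy =>
    obtain ⟨a₁, b₁, ha₁, hb₁, hn₁, he₁⟩ := hx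
    obtain ⟨a₂, b₂, ha₂, hb₂, hn₂, he₂⟩ := hy
    refine ⟨a₁ * a₂, b₁ * b₂, ?_, ?_, ?_, ?_⟩
    · rw [map_mul]; exact mul_mem ha₁ ha₂
    · rw [map_mul]; exact mul_mem hb₁ hb₂
    · rw [map_mul]; exact mul_ne_zero hn₁ hn₂
    · rw [map_mul, map_mul, he₁, he₂]; ring

theorem iota_ne_zero {a : LaurentSeries A} (h : KInt.red A a ≠ 0) : KInt.iota A a ≠ 0 := by
  intro h0
  apply h
  have : a = 0 := KInt.iota_injective (by rw [h0, map_zero])
  rw [this, map_zero]

end S18Inj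

open S18Inj in
theorem inj_of_INJ (A : ValuationSubring Kb) (N m : ℕ) (h : INJ m N A) : Inj A N m := by
  intro y₁ y₂ h₁ h₂ hn₁ hn₂ _ _ hs hdiv
  obtain ⟨s, hs, hys⟩ := hs
  rcases Nat.eq_zero_or_pos m with rfl | hm
  · refine ⟨1, one_ne_zero, fun P => ?_⟩
    have := hdiv P
    simpa using this
  obtain ⟨a, b, ha, hb, hnb, hab⟩ := exists_lift A N s hs
  have hsm : s ^ m ≠ 0 := by
    intro h0
    rw [h0, zero_mul] at hys
    exact hn₁ hys
  have hs0 : s ≠ 0 := fun h0 => hsm (by rw [h0, zero_pow hm.ne'])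
  have hna : KInt.red A a ≠ 0 := by rw [hab]; exact mul_ne_zero hs0 hnb
  -- elements of `FF N`
  set Y₁ : FF N := ⟨_, h₁⟩ with hY₁
  set Y₂ : FF N := ⟨_, h₂⟩ with hY₂
  set a' : FF N := ⟨_, ha⟩ with ha'
  set b' : FF N := ⟨_, hb⟩ with hb'
  have hY₁0 : Y₁ ≠ 0 := fun h0 => iota_ne_zero A hn₁ (congrArg Subtype.val h0)
  have hY₂0 : Y₂ ≠ 0 := fun h0 => iota_ne_zero A hn₂ (congrArg Subtype.val h0)
  have ha0 : a' ≠ 0 := fun h0 => iota_ne_zero A hna (congrArg Subtype.val h0)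
  have hb0 : b' ≠ 0 := fun h0 => iota_ne_zero A hnb (congrArg Subtype.val h0)
  have e₁ : ((Y₁ * b' ^ m : FF N) : LaurentSeries Kb) = KInt.iota A (y₁ * b ^ m) := by
    rw [map_mul, map_pow]; rfl
  have e₂ : ((Y₂ * a' ^ m : FF N) : LaurentSeries Kb) = KInt.iota A (y₂ * a ^ m) := by
    rw [map_mul, map_pow]; rfl
  have hred : KInt.red A (y₁ * b ^ m) = KInt.red A (y₂ * a ^ m) := by
    rw [map_mul, map_mul, map_pow, map_pow, hab, mul_pow]
    change coeffMap (IsLocalRing.residue A) y₁ * _ = coeffMap (IsLocalRing.residue A) y₂ * _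
    rw [hys]; ring
  have hred0 : KInt.red A (y₂ * a ^ m) ≠ 0 := by
    rw [map_mul, map_pow]; exact mul_ne_zero hn₂ (pow_ne_zero _ hna)
  have hden : Y₂ * a' ^ m ≠ 0 := mul_ne_zero hY₂0 (pow_ne_zero _ ha0)
  have hnum : Y₁ * b' ^ m ≠ 0 := mul_ne_zero hY₁0 (pow_ne_zero _ hb0)
  set w : FF N := (Y₁ * b' ^ m) / (Y₂ * a' ^ m) with hw
  have hw0 : w ≠ 0 := div_ne_zero hnum hden
  have hord : ∀ P : Place Kb (FF N),
      P.ord w = P.ord Y₁ - P.ord Y₂ + m * (P.ord b' - P.ord a') := by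
    intro P
    rw [hw, div_eq_mul_inv, Place.ord_mul P hnum (inv_ne_zero hden), Place.ord_inv,
      Place.ord_mul P hY₁0 (pow_ne_zero _ hb0), Place.ord_mul P hY₂0 (pow_ne_zero _ ha0),
      ← zpow_natCast, ← zpow_natCast, Place.ord_zpow, Place.ord_zpow]
    ring
  have hpdiv : IsPDiv m N w := by
    refine ⟨hw0, fun P => ?_⟩
    rw [hord P]
    exact dvd_add (hdiv P) (Dvd.intro _ rfl)
  have hgauss : GaussOne A N w := by
    refine ⟨Y₁ * b' ^ m, Y₂ * a' ^ m, ?_, ?_, ?_, ?_⟩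
    · rw [e₂]; exact (KInt.isPrimA_iota_iff _).mpr hred0
    · rw [e₁]; exact KInt.isIntA_iota _
    · rw [e₁, e₂]; exact (KInt.congA_iota_iff _ _).mpr hred
    · rw [hw, div_mul_cancel₀ _ hden]
  obtain ⟨z, hz⟩ := h w hpdiv hgauss
  have hz0 : z ≠ 0 := by
    rintro rfl
    rw [zero_pow hm.ne'] at hz
    exact hw0 hz
  refine ⟨z * a' / b', div_ne_zero (mul_ne_zero hz0 ha0) hb0, fun P => ?_⟩
  have h3 := hord P
  rw [hz, ← zpow_natCast, Place.ord_zpow] at h3
  rw [div_eq_mul_inv, Place.ord_mul P (mul_ne_zero hz0 ha0) (inv_ne_zero hb0), Place.ord_inv,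
    Place.ord_mul P hz0 ha0]
  linarith

end Fermat.Agent.ES
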