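import Fermat.Agent.ES.T23Laurent
import Fermat.Agent.ES.InstDefs

/-!
# ES : the Hauptmoduln `t₂`, `t₃` as integral coordinate data (`Inst.ZCoord`), all fields except
the membership in the modular function field.
-/

set_option autoImplicit false

namespace Fermat.Agent.ES.T23

open Fermat.Agent.S16 Fermat.Agent.S24 ModularCurve Fermat.Agent.ES.QE Fermat.Agent.ES.Inst

local notation "L" => HahnSeries.ofPowerSeries ℤ ℤ

lemma coeff_L_of_neg (f : PowerSeries ℤ) {n : ℤ} (hn : n < 0) : (L f).coeff n = 0 := by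
  rw [HahnSeries.ofPowerSeries_apply]
  apply HahnSeries.embDomain_of_notMem_range
  rintro ⟨m, hm⟩
  have : (m : ℤ) = n := hm
  omega

lemma coeff_tq (M : ℕ) (n : ℤ) : (tq M).coeff n = (L (bb M * a1inv M)).coeff (n + 1) := by
  have h := HahnSeries.coeff_single_mul_add (r := (1 : ℤ)) (x := L (bb M * a1inv M))
    (a := n + 1) (b := -1)
  rw [one_mul, add_neg_cancel_right] at h
  exact h

theorem coeff_tq_neg_one (M : ℕ) : (tq M).coeff (-1) = 1 := by
  rw [coeff_tq]
  have h : ((-1 : ℤ) + 1) = ((0 : ℕ) : ℤ) := by norm_num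
  rw [h, HahnSeries.ofPowerSeries_apply_coeff, PowerSeries.coeff_zero_eq_constantCoeff_apply,
    map_mul, constantCoeff_bb, a1inv, PowerSeries.constantCoeff_invOfUnit]
  simp

theorem coeff_tq_of_lt (M : ℕ) (n : ℤ) (hn : n < -1) : (tq M).coeff n = 0 := by
  rw [coeff_tq]
  exact coeff_L_of_neg _ (by omega)

theorem zS_tq (S : Type*) [CommRing S] (M : ℕ) : zS S (tq M) = tR S M := rfl

open Polynomial in
theorem rel_t2 : jqModC ℤ * evS (tq 2) (X ^ 2 : ℤ[X]) = evS (tq 2) ((X + C 256) ^ 3 : ℤ[X]) := by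
  rw [map_pow, map_pow, map_add, evS_X, evS_C, jq_mul_tq2_sq]
  congr 2

open Polynomial in
theorem rel_t3 : jqModC ℤ * evS (tq 3) (X ^ 3 : ℤ[X])
    = evS (tq 3) ((X + C 27) * (X + C 243) ^ 3 : ℤ[X]) := by
  rw [map_pow, map_mul, map_pow, map_add, map_add, evS_X, evS_C, evS_C, jq_mul_tq3_cube]
  congr 2

open Polynomial in
/-- the coordinate `t₂` (for `ℓ = 3`) -/
noncomputable def zCoord2 (N : ℕ) (hmem : tR Kb 2 ∈ modularFunctionFieldBar N) : ZCoord N 3 where
  xZ := tq 2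
  yZ := tqInv 2
  mul_eq := tq_mul_tqInv (by norm_num)
  coeff_neg_one := coeff_tq_neg_one 2
  coeff_of_lt := coeff_tq_of_lt 2
  P := (X + C 256) ^ 3
  Q := X ^ 2
  rel := rel_t2
  Q_prim := by
    rw [Polynomial.map_pow, Polynomial.map_X]
    exact pow_ne_zero _ X_ne_zero
  mem := hmem
  a := -64
  a_prim := by norm_num

open Polynomial in
/-- the coordinate `t₃` (for `ℓ = 2`) -/
noncomputable def zCoord3 (N : ℕ) (hmem : tR Kb 3 ∈ modularFunctionFieldBar N) : ZCoord N 2 where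
  xZ := tq 3
  yZ := tqInv 3
  mul_eq := tq_mul_tqInv (by norm_num)
  coeff_neg_one := coeff_tq_neg_one 3
  coeff_of_lt := coeff_tq_of_lt 3
  P := (X + C 27) * (X + C 243) ^ 3
  Q := X ^ 3
  rel := rel_t3
  Q_prim := by
    rw [Polynomial.map_pow, Polynomial.map_X]
    exact pow_ne_zero _ X_ne_zero
  mem := hmem
  a := -27
  a_prim := by norm_num

end Fermat.Agent.ES.T23
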