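import Fermat.Agent.S16.LevelOneSeries

/-!
# ES : the Hauptmoduln `t₂`, `t₃` of `X₀(2)`, `X₀(3)`; formal part

`s = ∑ σ₃(n) qⁿ`, `s' = s(q^M)`, `a = s - s'`,
* `M = 2` : `b = 1 + 16 (16 s' - s)`, identity `b² a = Δ`;
* `M = 3` : `b = 1 + 3 (81 s' - s)`, `c = 1 + 24 (s + 9 s')`, identity `b³ a = c Δ`.

This file: the definitions and the verification of the identities up to the Sturm bound.
-/

set_option autoImplicit false

namespace Fermat.Agent.ES.T23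

open PowerSeries Fermat.Agent.S16

/-- `∑ σ₃(n) qⁿ` -/
noncomputable def s3 : PowerSeries ℤ := PowerSeries.mk fun n => ∑ d ∈ n.divisors, (d : ℤ) ^ 3

/-- `∑ σ₅(n) qⁿ` -/
noncomputable def s5 : PowerSeries ℤ := PowerSeries.mk fun n => ∑ d ∈ n.divisors, (d : ℤ) ^ 5

/-- `∑ σ₃(n) q^{Mn}` -/
noncomputable def s3V (M : ℕ) : PowerSeries ℤ :=
  PowerSeries.mk fun n => if M ∣ n then ∑ d ∈ (n / M).divisors, (d : ℤ) ^ 3 else 0

lemma E4q_eq : E4q = 1 + 240 * s3 := by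
  ext n
  have h240 : (240 : PowerSeries ℤ) = C 240 := by simp
  rw [E4q, ModularCurve.eisenstein4, h240, map_add, coeff_C_mul, s3, coeff_mk, coeff_mk, coeff_one]
  split_ifs with h
  · subst h; simp
  · simp

lemma E6q_eq : E6q = 1 - 504 * s5 := by
  ext n
  have h504 : (504 : PowerSeries ℤ) = C 504 := by simp
  rw [E6q, h504, map_sub, coeff_C_mul, s5, coeff_mk, coeff_mk, coeff_one]
  split_ifs with h
  · subst h; simp
  · simp

/-- `(E₄(q) - E₄(q^M)) / 240` -/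
noncomputable def aa (M : ℕ) : PowerSeries ℤ := s3 - s3V M

/-- `(16 E₄(q²) - E₄(q)) / 15` -/
noncomputable def b2 : PowerSeries ℤ := 1 + 16 * (16 * s3V 2 - s3)

/-- `(81 E₄(q³) - E₄(q)) / 80` -/
noncomputable def b3 : PowerSeries ℤ := 1 + 3 * (81 * s3V 3 - s3)

/-- `(E₄(q) + 9 E₄(q³)) / 10` -/
noncomputable def c3 : PowerSeries ℤ := 1 + 24 * (s3 + 9 * s3V 3)

/-- the defect of the identity at level `2` -/
noncomputable def G2 : PowerSeries ℤ := b2 ^ 2 * aa 2 - Dq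

/-- the defect of the identity at level `3` -/
noncomputable def G3 : PowerSeries ℤ := b3 ^ 3 * aa 3 - c3 * Dq

section trunc

lemma s3_trunc : (X : PowerSeries ℤ) ^ 6 ∣
    s3 - (X + 9 * X ^ 2 + 28 * X ^ 3 + 73 * X ^ 4 + 126 * X ^ 5) := by
  rw [PowerSeries.X_pow_dvd_iff]
  intro m hm
  have h9 : (9 : PowerSeries ℤ) = C 9 := by simp
  have h28 : (28 : PowerSeries ℤ) = C 28 := by simp
  have h73 : (73 : PowerSeries ℤ) = C 73 := by simp
  have h126 : (126 : PowerSeries ℤ) = C 126 := by simp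
  rw [h9, h28, h73, h126]
  simp only [map_sub, map_add, s3, coeff_mk, coeff_C_mul, coeff_X_pow, coeff_X]
  interval_cases m <;> decide +kernel

lemma s5_trunc : (X : PowerSeries ℤ) ^ 6 ∣
    s5 - (X + 33 * X ^ 2 + 244 * X ^ 3 + 1057 * X ^ 4 + 3126 * X ^ 5) := by
  rw [PowerSeries.X_pow_dvd_iff]
  intro m hm
  have h9 : (33 : PowerSeries ℤ) = C 33 := by simp
  have h28 : (244 : PowerSeries ℤ) = C 244 := by simp
  have h73 : (1057 : PowerSeries ℤ) = C 1057 := by simp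
  have h126 : (3126 : PowerSeries ℤ) = C 3126 := by simp
  rw [h9, h28, h73, h126]
  simp only [map_sub, map_add, s5, coeff_mk, coeff_C_mul, coeff_X_pow, coeff_X]
  interval_cases m <;> decide +kernel

lemma s3V2_trunc : (X : PowerSeries ℤ) ^ 6 ∣ s3V 2 - (X ^ 2 + 9 * X ^ 4) := by
  rw [PowerSeries.X_pow_dvd_iff]
  intro m hm
  have h9 : (9 : PowerSeries ℤ) = C 9 := by simp
  rw [h9]
  simp only [map_sub, map_add, s3V, coeff_mk, coeff_C_mul, coeff_X_pow, coeff_X]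
  interval_cases m <;> decide +kernel

lemma s3V3_trunc : (X : PowerSeries ℤ) ^ 6 ∣ s3V 3 - X ^ 3 := by
  rw [PowerSeries.X_pow_dvd_iff]
  intro m hm
  simp only [map_sub, map_add, s3V, coeff_mk, coeff_C_mul, coeff_X_pow, coeff_X]
  interval_cases m <;> decide +kernel

/-- reduction modulo `q⁶` -/
noncomputable abbrev red6 : PowerSeries ℤ →+* PowerSeries ℤ ⧸ Ideal.span {(X : PowerSeries ℤ) ^ 6} :=
  Ideal.Quotient.mk _

lemma red6_eq {f g : PowerSeries ℤ} (h : (X : PowerSeries ℤ) ^ 6 ∣ f - g) : red6 f = red6 g :=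
  (Ideal.Quotient.eq).mpr (Ideal.mem_span_singleton.mpr h)

lemma dvd_of_red6 {f : PowerSeries ℤ} (h : red6 f = 0) : (X : PowerSeries ℤ) ^ 6 ∣ f :=
  Ideal.mem_span_singleton.mp (Ideal.Quotient.eq_zero_iff_mem.mp h)

lemma G2_eq : 1728 * G2 = 1728 * ((1 + 16 * (16 * s3V 2 - s3)) ^ 2 * (s3 - s3V 2))
    - ((1 + 240 * s3) ^ 3 - (1 - 504 * s5) ^ 2) := by
  rw [G2, b2, aa, mul_sub, ← LevelOne.E4q_cube_sub_E6q_sq, E4q_eq, E6q_eq]

lemma G3_eq : 1728 * G3 = 1728 * ((1 + 3 * (81 * s3V 3 - s3)) ^ 3 * (s3 - s3V 3))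
    - (1 + 24 * (s3 + 9 * s3V 3)) * ((1 + 240 * s3) ^ 3 - (1 - 504 * s5) ^ 2) := by
  rw [G3, b3, c3, aa, mul_sub, mul_left_comm (1728 : PowerSeries ℤ) _ Dq,
    ← LevelOne.E4q_cube_sub_E6q_sq, E4q_eq, E6q_eq]

lemma X_pow_dvd_G2 : (X : PowerSeries ℤ) ^ 6 ∣ 1728 * G2 := by
  apply dvd_of_red6
  rw [G2_eq]
  simp only [map_sub, map_mul, map_add, map_pow, red6_eq s3_trunc, red6_eq s5_trunc,
    red6_eq s3V2_trunc]
  simp only [← map_sub, ← map_mul, ← map_add, ← map_pow]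
  rw [Ideal.Quotient.eq_zero_iff_mem, Ideal.mem_span_singleton]
  refine ⟨(7910784) + (-3985438464) * X ^ 1 + (-132204996288) * X ^ 2 + (-1089779947776) * X ^ 3 + (-5289022759680) * X ^ 4 + (-17765387845632) * X ^ 5 + (-32808070656000) * X ^ 6 + (-45917643792384) * X ^ 7 + (-48611688136704) * X ^ 8 + (-26768295493632) * X ^ 9, ?_⟩
  ring

lemma X_pow_dvd_G3 : (X : PowerSeries ℤ) ^ 6 ∣ 1728 * G3 := by
  apply dvd_of_red6
  rw [G3_eq]
  simp only [map_sub, map_mul, map_add, map_pow, red6_eq s3_trunc, red6_eq s5_trunc,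
    red6_eq s3V3_trunc]
  simp only [← map_sub, ← map_mul, ← map_add, ← map_pow]
  rw [Ideal.Quotient.eq_zero_iff_mem, Ideal.mem_span_singleton]
  refine ⟨(7877952) + (-3777667200) * X ^ 1 + (-226331212608) * X ^ 2 + (-5112698832000) * X ^ 3 + (-63547900382592) * X ^ 4 + (-504425275695936) * X ^ 5 + (-2812893877346688) * X ^ 6 + (-11676484653607296) * X ^ 7 + (-36577136930424192) * X ^ 8 + (-87355268261823744) * X ^ 9 + (-163227637241884224) * X ^ 10 + (-228510516809304576) * X ^ 11 + (-248732126125604352) * X ^ 12 + (-193820862577047552) * X ^ 13 + (-83635029742150656) * X ^ 14, ?_⟩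
  ring

lemma coeff_eq_zero_of_dvd {G : PowerSeries ℤ} (h : (X : PowerSeries ℤ) ^ 6 ∣ 1728 * G) {n : ℕ}
    (hn : n < 6) : coeff n G = 0 := by
  have h1 := (PowerSeries.X_pow_dvd_iff.mp h) n hn
  have h1728 : (1728 : PowerSeries ℤ) = C 1728 := by simp
  rw [h1728, coeff_C_mul] at h1
  exact (mul_eq_zero.mp h1).resolve_left (by norm_num)

lemma coeff_G2 {n : ℕ} (hn : n < 6) : coeff n G2 = 0 := coeff_eq_zero_of_dvd X_pow_dvd_G2 hn

lemma coeff_G3 {n : ℕ} (hn : n < 6) : coeff n G3 = 0 := coeff_eq_zero_of_dvd X_pow_dvd_G3 hn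

end trunc

end Fermat.Agent.ES.T23
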