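import Fermat.Agent.ES.T23Modular
import Fermat.Prelude.Def_ModularCurve_X0ModL

/-!
# ES : the Hauptmoduln `t₂`, `t₃` as Laurent series over `ℤ` and over any commutative ring

* `tq M : LaurentSeries ℤ` (`M = 2, 3`), `tqInv M`, `tq_mul_tqInv`;
* `jq_mul_tq2_sq   : j t₂² = (t₂ + 256)³`;
* `jq_mul_tq3_cube : j t₃³ = (t₃ + 27) (t₃ + 243)³`;
* the same over any commutative ring `R` for `tR R M = coeffMap (Int.castRingHom R) (tq M)`.
-/

set_option autoImplicit false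

namespace Fermat.Agent.ES.T23

open PowerSeries Fermat.Agent.S16 ModularCurve

local notation "L" => HahnSeries.ofPowerSeries ℤ ℤ

/-- the numerator `b` of `t_M` (junk for `M ≠ 2, 3`) -/
noncomputable def bb (M : ℕ) : PowerSeries ℤ := if M = 2 then b2 else b3

lemma bb_two : bb 2 = b2 := rfl
lemma bb_three : bb 3 = b3 := rfl

/-- `a / q` -/
noncomputable def a1 (M : ℕ) : PowerSeries ℤ := PowerSeries.mk fun n => coeff (n + 1) (aa M)

lemma coeff_zero_s3 : coeff 0 s3 = 0 := by simp [s3]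
lemma coeff_zero_s3V (M : ℕ) : coeff 0 (s3V M) = 0 := by simp [s3V]
lemma constantCoeff_s3 : constantCoeff s3 = 0 := by
  rw [← coeff_zero_eq_constantCoeff_apply, coeff_zero_s3]
lemma constantCoeff_s3V (M : ℕ) : constantCoeff (s3V M) = 0 := by
  rw [← coeff_zero_eq_constantCoeff_apply, coeff_zero_s3V]
lemma coeff_one_s3 : coeff 1 s3 = 1 := by simp [s3]
lemma coeff_one_s3V {M : ℕ} (hM : 1 < M) : coeff 1 (s3V M) = 0 := by
  rw [s3V, coeff_mk, if_neg]
  exact fun h => absurd (Nat.le_of_dvd one_pos h) (not_le.mpr hM)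

lemma aa_eq (M : ℕ) : aa M = X * a1 M := by
  ext n
  cases n with
  | zero => simp [aa, constantCoeff_s3, constantCoeff_s3V]
  | succ n => rw [coeff_succ_X_mul, a1, coeff_mk]

lemma constantCoeff_a1 {M : ℕ} (hM : 1 < M) : constantCoeff (a1 M) = 1 := by
  rw [← coeff_zero_eq_constantCoeff_apply, a1, coeff_mk, aa, map_sub, coeff_one_s3,
    coeff_one_s3V hM, sub_zero]

lemma constantCoeff_b2 : constantCoeff b2 = 1 := by
  have h1 := constantCoeff_s3
  have h2 := constantCoeff_s3V 2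
  simp [b2, h1, h2]

lemma constantCoeff_b3 : constantCoeff b3 = 1 := by
  have h1 := constantCoeff_s3
  have h2 := constantCoeff_s3V 3
  simp [b3, h1, h2]

lemma constantCoeff_bb (M : ℕ) : constantCoeff (bb M) = 1 := by
  rw [bb]
  split_ifs
  · exact constantCoeff_b2
  · exact constantCoeff_b3

/-- `(a / q)⁻¹` -/
noncomputable def a1inv (M : ℕ) : PowerSeries ℤ := (a1 M).invOfUnit 1

lemma a1_mul_a1inv {M : ℕ} (hM : 1 < M) : a1 M * a1inv M = 1 :=
  PowerSeries.mul_invOfUnit _ _ (by rw [constantCoeff_a1 hM]; rfl)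

/-- `b⁻¹` -/
noncomputable def bbinv (M : ℕ) : PowerSeries ℤ := (bb M).invOfUnit 1

lemma bb_mul_bbinv (M : ℕ) : bb M * bbinv M = 1 :=
  PowerSeries.mul_invOfUnit _ _ (by rw [constantCoeff_bb]; rfl)

/-- **the Hauptmodul** `t_M = b / a = q⁻¹ + ⋯ ∈ ℤ((q))` -/
noncomputable def tq (M : ℕ) : LaurentSeries ℤ :=
  HahnSeries.single (-1 : ℤ) 1 * L (bb M * a1inv M)

/-- `1 / t_M = a / b ∈ ℤ⟦q⟧` -/
noncomputable def tqInv (M : ℕ) : LaurentSeries ℤ := L (aa M * bbinv M)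

lemma single_mul_LX : HahnSeries.single (-1 : ℤ) (1 : ℤ) * L X = 1 := by
  rw [HahnSeries.ofPowerSeries_X, HahnSeries.single_mul_single]
  simp

lemma tq_mul_aa {M : ℕ} (hM : 1 < M) : tq M * L (aa M) = L (bb M) := by
  have h : bb M * a1inv M * (X * a1 M) = X * bb M := by
    calc bb M * a1inv M * (X * a1 M) = X * bb M * (a1 M * a1inv M) := by ring
      _ = X * bb M := by rw [a1_mul_a1inv hM, mul_one]
  rw [tq, aa_eq, mul_assoc, ← map_mul, h, map_mul, ← mul_assoc, single_mul_LX, one_mul]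

theorem tq_mul_tqInv {M : ℕ} (hM : 1 < M) : tq M * tqInv M = 1 := by
  rw [tqInv, map_mul, ← mul_assoc, tq_mul_aa hM, ← map_mul, bb_mul_bbinv, map_one]

/-- `L a` is a unit of `ℤ((q))` -/
lemma isUnit_L_aa {M : ℕ} (hM : 1 < M) : IsUnit (L (aa M)) := by
  refine IsUnit.of_mul_eq_one (HahnSeries.single (-1 : ℤ) 1 * L (a1inv M)) ?_
  calc L (aa M) * (HahnSeries.single (-1 : ℤ) 1 * L (a1inv M))
      = (HahnSeries.single (-1 : ℤ) 1 * L X) * L (a1 M * a1inv M) := by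
        rw [aa_eq, map_mul, map_mul]; ring
    _ = 1 := by rw [single_mul_LX, a1_mul_a1inv hM, map_one, one_mul]

lemma jq_mul_Dq : jqModC ℤ * L Dq = L (E4q ^ 3) := by
  have h1 : jNum.map (Int.castRingHom ℤ) = jNum := by
    ext n; simp
  have h2 : jNum * Dq = X * E4q ^ 3 := by
    rw [jNum, Dq, E4q]
    calc eisenstein4 ^ 3 * dedekindEtaUnitInv * (X * dedekindEtaUnit)
        = X * eisenstein4 ^ 3 * (dedekindEtaUnit * dedekindEtaUnitInv) := by ring
      _ = X * eisenstein4 ^ 3 := by rw [dedekindEtaUnit_mul_inv, mul_one]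
  rw [jqModC, h1, mul_assoc, ← map_mul, h2, map_mul, ← mul_assoc, single_mul_LX, one_mul]

lemma b2_add : b2 + 256 * aa 2 = E4q := by
  rw [b2, aa, E4q_eq]; ring

lemma b3_add : b3 + 243 * aa 3 = E4q := by
  rw [b3, aa, E4q_eq]; ring

lemma b3_add' : b3 + 27 * aa 3 = c3 := by
  rw [b3, aa, c3]; ring

/-- `j t₂² = (t₂ + 256)³` -/
theorem jq_mul_tq2_sq : jqModC ℤ * tq 2 ^ 2 = (tq 2 + 256) ^ 3 := by
  have hM : 1 < 2 := by norm_num
  apply ((isUnit_L_aa hM).pow 3).mul_right_cancel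
  have h1 : (tq 2 + 256) * L (aa 2) = L E4q := by
    rw [add_mul, tq_mul_aa hM, bb_two, ← b2_add, map_add, map_mul, map_ofNat]
  calc jqModC ℤ * tq 2 ^ 2 * L (aa 2) ^ 3
      = jqModC ℤ * ((tq 2 * L (aa 2)) ^ 2 * L (aa 2)) := by ring
    _ = jqModC ℤ * L Dq := by
        rw [tq_mul_aa hM, bb_two, ← map_pow, ← map_mul, b2_sq_mul_aa]
    _ = ((tq 2 + 256) * L (aa 2)) ^ 3 := by rw [jq_mul_Dq, h1, map_pow]
    _ = (tq 2 + 256) ^ 3 * L (aa 2) ^ 3 := by ring

/-- `j t₃³ = (t₃ + 27) (t₃ + 243)³` -/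
theorem jq_mul_tq3_cube : jqModC ℤ * tq 3 ^ 3 = (tq 3 + 27) * (tq 3 + 243) ^ 3 := by
  have hM : 1 < 3 := by norm_num
  apply ((isUnit_L_aa hM).pow 4).mul_right_cancel
  have h1 : (tq 3 + 243) * L (aa 3) = L E4q := by
    rw [add_mul, tq_mul_aa hM, bb_three, ← b3_add, map_add, map_mul, map_ofNat]
  have h2 : (tq 3 + 27) * L (aa 3) = L c3 := by
    rw [add_mul, tq_mul_aa hM, bb_three, ← b3_add', map_add, map_mul, map_ofNat]
  calc jqModC ℤ * tq 3 ^ 3 * L (aa 3) ^ 4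
      = jqModC ℤ * ((tq 3 * L (aa 3)) ^ 3 * L (aa 3)) := by ring
    _ = L c3 * (jqModC ℤ * L Dq) := by
        rw [tq_mul_aa hM, bb_three, ← map_pow, ← map_mul, b3_cube_mul_aa, map_mul]; ring
    _ = ((tq 3 + 27) * L (aa 3)) * ((tq 3 + 243) * L (aa 3)) ^ 3 := by
        rw [jq_mul_Dq, h1, h2, map_pow]
    _ = (tq 3 + 27) * (tq 3 + 243) ^ 3 * L (aa 3) ^ 4 := by ring

/-! ### base change -/

section baseChange

variable (R : Type*) [CommRing R]

/-- `t_M` over `R` -/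
noncomputable def tR (M : ℕ) : LaurentSeries R := coeffMap (Int.castRingHom R) (tq M)

/-- `1 / t_M` over `R` -/
noncomputable def tRInv (M : ℕ) : LaurentSeries R := coeffMap (Int.castRingHom R) (tqInv M)

theorem tR_mul_tRInv {M : ℕ} (hM : 1 < M) : tR R M * tRInv R M = 1 := by
  rw [tR, tRInv, ← map_mul, tq_mul_tqInv hM, map_one]

theorem jq_mul_tR2_sq : jqModC R * tR R 2 ^ 2 = (tR R 2 + 256) ^ 3 := by
  have := congrArg (coeffMap (Int.castRingHom R)) jq_mul_tq2_sq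
  rwa [map_mul, map_pow, map_pow, map_add, map_ofNat, coeffMap_jqModC] at this

theorem jq_mul_tR3_cube : jqModC R * tR R 3 ^ 3 = (tR R 3 + 27) * (tR R 3 + 243) ^ 3 := by
  have := congrArg (coeffMap (Int.castRingHom R)) jq_mul_tq3_cube
  rwa [map_mul, map_pow, map_mul, map_pow, map_add, map_add, map_ofNat, map_ofNat,
    coeffMap_jqModC] at this

variable {R} in
theorem coeffMap_tR {S : Type*} [CommRing S] (f : R →+* S) (M : ℕ) :
    coeffMap f (tR R M) = tR S M := by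
  rw [tR, coeffMap_coeffMap, tR]
  exact coeffMap_congr (RingHom.ext_int _ _) _

variable {R} in
theorem coeffMap_tRInv {S : Type*} [CommRing S] (f : R →+* S) (M : ℕ) :
    coeffMap f (tRInv R M) = tRInv S M := by
  rw [tRInv, coeffMap_coeffMap, tRInv]
  exact coeffMap_congr (RingHom.ext_int _ _) _

end baseChange

end Fermat.Agent.ES.T23
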