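import Fermat.Agent.ES.T23Formal
import Fermat.Agent.S16.Trace
import Fermat.Agent.S20.PartC1
import Fermat.Prelude.Thm_ModularForm_sturm_bound_Gamma0

/-!
# ES : the Hauptmoduln `t₂`, `t₃`; the modular identities `b² a = Δ`, `b³ a = c Δ` (Sturm bound)
-/

set_option autoImplicit false

namespace Fermat.Agent.ES.T23

open UpperHalfPlane ModularForm CongruenceSubgroup Fermat.Agent.S21 Fermat.Agent.S23
  Fermat.Agent.S23.Prim Fermat.Agent.S16
open scoped MatrixGroups Manifold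

local notation "ι" => PowerSeries.map (Int.castRingHom ℂ)

/-- `E₄` -/
noncomputable def Un : niceAlg := ⟨(E₄ : ℍ → ℂ), mem_niceAlg one_mem_strictPeriods_SL E₄⟩

/-- `Δ` -/
noncomputable def Dn : niceAlg :=
  ⟨ModularForm.discriminant, mem_niceAlg one_mem_strictPeriods_SL CuspForm.discriminant⟩

/-- `E₄(Mτ)` -/
noncomputable def Vn (M : ℕ) [NeZero M] : niceAlg :=
  ⟨fun τ => E₄ (Dm M • τ), comp_Dm_mem_niceAlg Un.2⟩

lemma map_ofNat_mul (n : ℕ) [n.AtLeastTwo] (f : PowerSeries ℤ) :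
    ι ((OfNat.ofNat n : PowerSeries ℤ) * f) = (OfNat.ofNat n : ℂ) • ι f := by
  rw [map_mul, map_ofNat, Algebra.smul_def, map_ofNat]

lemma qHom_Un : qHom Un = ι (1 + 240 * s3) := by
  rw [← E4q_eq]
  exact Fermat.Agent.S24.qExpansion_E4

lemma qHom_Dn : qHom Dn = ι Dq := LevelOne.qExpansion_D

lemma qHom_Vn (M : ℕ) [NeZero M] : qHom (Vn M) = ι (1 + 240 * s3V M) := by
  ext n
  have h240 : (240 : PowerSeries ℤ) = PowerSeries.C 240 := by simp
  have h1 : (qHom (Vn M)).coeff n = if M ∣ n then (qHom Un).coeff (n / M) else 0 :=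
    qExpansion_comp_Dm_coeff Un.2 n
  rw [h1, qHom_Un, PowerSeries.coeff_map, PowerSeries.coeff_map, h240, map_add,
    PowerSeries.coeff_C_mul, (PowerSeries.coeff n).map_add, PowerSeries.coeff_C_mul, s3, s3V,
    PowerSeries.coeff_mk, PowerSeries.coeff_mk, PowerSeries.coeff_one, PowerSeries.coeff_one]
  by_cases hM : M ∣ n
  · rw [if_pos hM, if_pos hM]
    have : n / M = 0 ↔ n = 0 := by
      obtain ⟨m, rfl⟩ := hM
      rw [Nat.mul_div_cancel_left _ (Nat.pos_of_ne_zero (NeZero.ne M))]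
      simp [NeZero.ne M]
    simp only [this]
  · rw [if_neg hM, if_neg hM]
    have : n ≠ 0 := by rintro rfl; exact hM (dvd_zero _)
    simp [this]

/-- `(E₄(τ) - E₄(Mτ)) / 240` -/
noncomputable def An (M : ℕ) [NeZero M] : niceAlg := (1 / 240 : ℂ) • (Un - Vn M)

lemma qHom_An (M : ℕ) [NeZero M] : qHom (An M) = ι (aa M) := by
  rw [An, map_smul, map_sub, qHom_Un, qHom_Vn, aa]
  repeat (first | rw [map_ofNat_mul] | rw [map_sub] | rw [map_add] | rw [map_one])
  module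

/-- `(16 E₄(2τ) - E₄(τ)) / 15` -/
noncomputable def B2n : niceAlg := (1 / 15 : ℂ) • ((16 : ℂ) • Vn 2 - Un)

lemma qHom_B2n : qHom B2n = ι b2 := by
  rw [B2n, map_smul, map_sub, map_smul, qHom_Un, qHom_Vn, b2]
  repeat (first | rw [map_ofNat_mul] | rw [map_sub] | rw [map_add] | rw [map_one])
  module

/-- `(81 E₄(3τ) - E₄(τ)) / 80` -/
noncomputable def B3n : niceAlg := (1 / 80 : ℂ) • ((81 : ℂ) • Vn 3 - Un)

lemma qHom_B3n : qHom B3n = ι b3 := by
  rw [B3n, map_smul, map_sub, map_smul, qHom_Un, qHom_Vn, b3]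
  repeat (first | rw [map_ofNat_mul] | rw [map_sub] | rw [map_add] | rw [map_one])
  module

/-- `(E₄(τ) + 9 E₄(3τ)) / 10` -/
noncomputable def C3n : niceAlg := (1 / 10 : ℂ) • (Un + (9 : ℂ) • Vn 3)

lemma qHom_C3n : qHom C3n = ι c3 := by
  rw [C3n, map_smul, map_add, map_smul, qHom_Un, qHom_Vn, c3]
  repeat (first | rw [map_ofNat_mul] | rw [map_sub] | rw [map_add] | rw [map_one])
  module

/-! ### modularity -/

lemma isMF_Un (M : ℕ) : IsMF (Gamma0 M) 4 Un.1 := isMF_E4.of_top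

lemma isMF_Vn (M : ℕ) [NeZero M] : IsMF (Gamma0 M) 4 (Vn M).1 :=
  Fermat.Agent.S24.isMF_comp_Dm M M dvd_rfl isMF_E4

lemma isMF_Dn (M : ℕ) : IsMF (Gamma0 M) 12 Dn.1 := isCF_Delta.isMF.of_top

lemma isMF_An (M : ℕ) [NeZero M] : IsMF (Gamma0 M) 4 (An M).1 :=
  ((isMF_Un M).sub (isMF_Vn M)).smul _

lemma isMF_B2n : IsMF (Gamma0 2) 4 B2n.1 := (((isMF_Vn 2).smul 16).sub (isMF_Un 2)).smul _

lemma isMF_B3n : IsMF (Gamma0 3) 4 B3n.1 := (((isMF_Vn 3).smul 81).sub (isMF_Un 3)).smul _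

lemma isMF_C3n : IsMF (Gamma0 3) 4 C3n.1 := ((isMF_Un 3).add ((isMF_Vn 3).smul 9)).smul _

lemma index_Gamma0_two : (Gamma0 2).index = 3 := by
  rw [Fermat.Agent.S20.index_Gamma0]
  decide +kernel

lemma index_Gamma0_three : (Gamma0 3).index = 4 := by
  rw [Fermat.Agent.S20.index_Gamma0]
  decide +kernel

/-- Sturm's bound for nice functions -/
lemma eq_zero_of_sturm (M : ℕ) [NeZero M] {k : ℤ} (Φ : niceAlg) (hΦ : IsMF (Gamma0 M) k Φ.1)
    (G : PowerSeries ℤ) (hG : qHom Φ = ι G) (hb : (k * (Gamma0 M).index).toNat / 12 < 6)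
    (h : ∀ n < 6, PowerSeries.coeff n G = 0) : G = 0 := by
  have h1 : hΦ.toModularForm = 0 := by
    apply ModularForm.sturm_bound_Gamma0 M
    intro n hn
    have : qExpansion 1 hΦ.toModularForm = ι G := hG
    rw [this, PowerSeries.coeff_map, h n (lt_of_le_of_lt hn hb), map_zero]
  have h2 : Φ = 0 := by
    apply Subtype.ext
    funext τ
    exact congrArg (fun f : ModularForm (Gamma0 M) k => f τ) h1
  rw [h2, map_zero] at hG
  apply PowerSeries.map_injective (Int.castRingHom ℂ) Int.cast_injective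
  rw [← hG, map_zero]

/-- **the identity at level `2`** : `b² a = Δ` -/
theorem b2_sq_mul_aa : b2 ^ 2 * aa 2 = Dq := by
  have h : G2 = 0 := by
    refine eq_zero_of_sturm 2 (k := 12) (B2n ^ 2 * An 2 - Dn) ?_ G2 ?_ ?_ fun n hn => coeff_G2 hn
    · exact (((PartA2.IsMF.pow isMF_B2n 2).mul (isMF_An 2)).congr_wt (by norm_num)).sub (isMF_Dn 2)
    · rw [map_sub, map_mul, map_pow, qHom_B2n, qHom_An, qHom_Dn, G2, map_sub, map_mul, map_pow]
    · rw [index_Gamma0_two]; decide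
  exact sub_eq_zero.mp h

/-- **the identity at level `3`** : `b³ a = c Δ` -/
theorem b3_cube_mul_aa : b3 ^ 3 * aa 3 = c3 * Dq := by
  have h : G3 = 0 := by
    refine eq_zero_of_sturm 3 (k := 16) (B3n ^ 3 * An 3 - C3n * Dn) ?_ G3 ?_ ?_
      fun n hn => coeff_G3 hn
    · exact (((PartA2.IsMF.pow isMF_B3n 3).mul (isMF_An 3)).congr_wt (by norm_num)).sub
        ((isMF_C3n.mul (isMF_Dn 3)).congr_wt (by norm_num))
    · rw [map_sub, map_mul, map_pow, map_mul, qHom_B3n, qHom_An, qHom_Dn, qHom_C3n, G3, map_sub,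
        map_mul, map_pow, map_mul]
    · rw [index_Gamma0_three]; decide
  exact sub_eq_zero.mp h

end Fermat.Agent.ES.T23
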