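import Fermat.Agent.ES.ADefs
import Fermat.Agent.ES.ConstAbs

/-!
# Project ES, block INJ (route A) : integral bases and their trace duals
-/

set_option autoImplicit false

noncomputable section

namespace Fermat.Agent.ES.TC

open IntermediateField Module Polynomial

open scoped IntermediateField.algebraAdjoinAdjoin nonZeroDivisors

variable {K F : Type*} [Field K] [Field F] [Algebra K F]

theorem trF_mul_of_mem (x : F) {a : F} (ha : a ∈ K⟮x⟯) (y : F) :
    trF K x (a * y) = a * trF K x y := by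
  have h : a * y = (⟨a, ha⟩ : K⟮x⟯) • y := rfl
  rw [trF, h, map_smul, trF]
  rfl

theorem coe_trace_congr {E E' : IntermediateField K F} (h : E = E') (y : F) :
    ((Algebra.trace E F y : E) : F) = ((Algebra.trace E' F y : E') : F) := by
  subst h; rfl

theorem trF_inv (x y : F) : trF K x⁻¹ y = trF K x y :=
  coe_trace_congr (ConstAbs.adjoin_inv_eq x) y

theorem finrank_congr_field {E E' : IntermediateField K F} (h : E = E') :
    finrank E F = finrank E' F := by
  subst h; rfl

theorem finrank_adjoin_inv (x : F) : finrank K⟮x⁻¹⟯ F = finrank K⟮x⟯ F :=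
  finrank_congr_field (ConstAbs.adjoin_inv_eq x)

theorem exists_dual_bases (x : F) (hx : Transcendental K x) [FiniteDimensional K⟮x⟯ F]
    [Algebra.IsSeparable K⟮x⟯ F] :
    ∃ e e' : Fin (finrank K⟮x⟯ F) → F,
      (∀ i, e i ∈ chart K x) ∧
      (∀ f ∈ chart K x, ∀ i, trF K x (f * e' i) ∈ Algebra.adjoin K {x}) ∧
      (∀ f, f = ∑ i, trF K x (f * e' i) * e i) ∧
      (∀ f, f = ∑ i, trF K x (f * e i) * e' i) ∧
      (∀ i j, trF K x (e i * e' j) = if i = j then 1 else 0) ∧
      LinearIndependent K⟮x⟯ e ∧ LinearIndependent K⟮x⟯ e' := by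
  classical
  have := ConstAbs.isPrincipalIdealRing_adjoin hx
  have hfree : Module.Free (Algebra.adjoin K {x}) (integralClosure (Algebra.adjoin K {x}) F) :=
    IsIntegralClosure.module_free (Algebra.adjoin K {x}) K⟮x⟯ F _
  have hrank : finrank (Algebra.adjoin K {x}) (integralClosure (Algebra.adjoin K {x}) F)
      = finrank K⟮x⟯ F := IsIntegralClosure.rank (Algebra.adjoin K {x}) K⟮x⟯ F _
  have : IsNoetherian (Algebra.adjoin K {x}) (integralClosure (Algebra.adjoin K {x}) F) :=
    IsIntegralClosure.isNoetherian (Algebra.adjoin K {x}) K⟮x⟯ F _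
  have : IsLocalization (Algebra.algebraMapSubmonoid (integralClosure (Algebra.adjoin K {x}) F)
      (Algebra.adjoin K {x})⁰) F :=
    IsIntegralClosure.isLocalization (Algebra.adjoin K {x}) K⟮x⟯ F _
  let b0 : Basis (Fin (finrank K⟮x⟯ F)) (Algebra.adjoin K {x})
      (integralClosure (Algebra.adjoin K {x}) F) := Module.finBasisOfFinrankEq _ _ hrank
  let b : Basis (Fin (finrank K⟮x⟯ F)) K⟮x⟯ F :=
    Basis.localizationLocalization K⟮x⟯ (Algebra.adjoin K {x})⁰ F b0
  let b' : Basis (Fin (finrank K⟮x⟯ F)) K⟮x⟯ F :=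
    (Algebra.traceForm K⟮x⟯ F).dualBasis (traceForm_nondegenerate K⟮x⟯ F) b
  have hsym : (Algebra.traceForm K⟮x⟯ F).IsSymm := Algebra.traceForm_isSymm K⟮x⟯
  have hbb : (Algebra.traceForm K⟮x⟯ F).dualBasis (traceForm_nondegenerate K⟮x⟯ F) b' = b :=
    LinearMap.BilinForm.dualBasis_dualBasis _ hsym b
  have hrepr : ∀ f i, b.repr f i = Algebra.trace K⟮x⟯ F (f * b' i) := by
    intro f i
    conv_lhs => rw [← hbb]
    rw [LinearMap.BilinForm.dualBasis_repr_apply, Algebra.traceForm_apply]
  have hrepr' : ∀ f i, b'.repr f i = Algebra.trace K⟮x⟯ F (f * b i) := by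
    intro f i
    rw [LinearMap.BilinForm.dualBasis_repr_apply, Algebra.traceForm_apply]
  refine ⟨b, b', ?_, ?_, ?_, ?_, ?_, b.linearIndependent, b'.linearIndependent⟩
  · intro i
    have : b i = algebraMap (integralClosure (Algebra.adjoin K {x}) F) F (b0 i) :=
      Basis.localizationLocalization_apply _ _ _ b0 i
    rw [this]
    exact (b0 i).2
  · intro f hf i
    have h1 := Basis.localizationLocalization_repr_algebraMap K⟮x⟯ (Algebra.adjoin K {x})⁰ F b0
      ⟨f, hf⟩ i
    have h2 : b.repr f i = algebraMap (Algebra.adjoin K {x}) K⟮x⟯ (b0.repr ⟨f, hf⟩ i) := h1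
    rw [trF, ← hrepr, h2]
    exact (b0.repr ⟨f, hf⟩ i).2
  · intro f
    conv_lhs => rw [← b.sum_repr f]
    refine Finset.sum_congr rfl fun i _ => ?_
    rw [hrepr]; rfl
  · intro f
    conv_lhs => rw [← b'.sum_repr f]
    refine Finset.sum_congr rfl fun i _ => ?_
    rw [hrepr']; rfl
  · intro i j
    have := LinearMap.BilinForm.apply_dualBasis_right (traceForm_nondegenerate K⟮x⟯ F) hsym b i j
    rw [Algebra.traceForm_apply] at this
    rw [trF, this]
    split_ifs <;> simp

end Fermat.Agent.ES.TC
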