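import Fermat.Agent.ES.ADefs
import Fermat.Agent.S28.LamGen

/-!
# Project ES, block INJ (route A) : from one chart to the other
-/

set_option autoImplicit false

noncomputable section

namespace Fermat.Agent.ES.TC

open IntermediateField Module Polynomial

variable {K F : Type*} [Field K] [Field F] [Algebra K F]

theorem exists_pow_mul_mem_chart_inv (x : F) (hx0 : x ≠ 0) {f : F} (hf : f ∈ chart K x) :
    ∃ m : ℕ, ∀ m', m ≤ m' → x⁻¹ ^ m' * f ∈ chart K x⁻¹ := by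
  have h1 : (eval₂RingHom (algebraMap K F) x).IsIntegralElem f :=
    (S28.Lam.isIntegral_adjoin_singleton_iff x f).mp hf
  obtain ⟨m, hm⟩ := S28.Lam.exists_pow_mul_isIntegralElem (algebraMap K F)
    (mul_inv_cancel₀ hx0) h1
  have h2 : x⁻¹ ^ m * f ∈ chart K x⁻¹ :=
    (S28.Lam.isIntegral_adjoin_singleton_iff x⁻¹ (x⁻¹ ^ m * f)).mpr hm
  refine ⟨m, fun m' hm' => ?_⟩
  obtain ⟨r, rfl⟩ := Nat.exists_eq_add_of_le hm'
  have h3 : x⁻¹ ∈ chart K x⁻¹ := by
    rw [mem_chart]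
    exact isIntegral_algebraMap (x := (⟨x⁻¹, Algebra.self_mem_adjoin_singleton K _⟩ :
      Algebra.adjoin K {x⁻¹}))
  have : x⁻¹ ^ (m + r) * f = x⁻¹ ^ r * (x⁻¹ ^ m * f) := by ring
  rw [this]
  exact mul_mem (pow_mem h3 r) h2

end Fermat.Agent.ES.TC
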