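import Fermat.Agent.ES.TCSplit
import Fermat.Agent.ES.ConstAbs

/-!
# Project ES, block INJ (route A) : finiteness of the Riemann-Roch spaces `Lt`
-/

set_option autoImplicit false

noncomputable section

namespace Fermat.Agent.ES.TC

open Fermat.Agent.ES.AbsInj IntermediateField Module Polynomial

variable {K F : Type*} [Field K] [Field F] [Algebra K F]

namespace TCFin

theorem transcendental_inv {x : F} (hx : Transcendental K x) : Transcendental K x⁻¹ := by
  intro h1
  apply hx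
  have := h1.inv
  rwa [inv_inv] at this

theorem ne_zero_of_transcendental {x : F} (hx : Transcendental K x) : x ≠ 0 := by
  rintro rfl
  exact hx isAlgebraic_zero

theorem self_mem_chart (x : F) : x ∈ chart K x := by
  rw [mem_chart]
  exact (isIntegral_algebraMap (R := Algebra.adjoin K {x}) (A := F)
    (x := ⟨x, Algebra.self_mem_adjoin_singleton K x⟩))

/-- an element algebraic over the constants lies in every chart. -/
theorem mem_chart_of_isAlgebraic (x : F) {y : F} (hy : IsAlgebraic K y) : y ∈ chart K x := by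
  rw [mem_chart]
  exact (isAlgebraic_iff_isIntegral.mp hy).tower_top

/-- an element of `K(x)` which is integral over `K[x]` lies in `K[x]`. -/
theorem mem_adjoin_of_mem_chart {x : F} (hx : Transcendental K x) {u : F} (hu : u ∈ chart K x)
    (hu' : u ∈ K⟮x⟯) : u ∈ Algebra.adjoin K {x} := by
  have h1 := ConstAbs.coeff_minpoly_mem hx ((mem_chart K).mp hu) 0
  have h2 : minpoly K⟮x⟯ u = X - C (⟨u, hu'⟩ : K⟮x⟯) :=
    minpoly.eq_X_sub_C F (⟨u, hu'⟩ : K⟮x⟯)
  rw [h2] at h1
  simp only [coeff_sub, coeff_X_zero, coeff_C_zero, zero_sub] at h1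
  have h3 : -u ∈ Algebra.adjoin K {x} := h1
  simpa using neg_mem h3

end TCFin

open TCFin

theorem isAlgebraic_of_mem_charts (x : F)
    (hx : Transcendental K x) [FiniteDimensional K⟮x⟯ F] (y : F) (h1 : y ∈ chart K x)
    (h2 : y ∈ chart K x⁻¹) : IsAlgebraic K y := by
  have hx' : Transcendental K x⁻¹ := transcendental_inv hx
  have e := ConstAbs.adjoin_inv_eq (K := K) x
  have hc : ∀ n, ∃ c : K, (((minpoly K⟮x⟯ y).coeff n : K⟮x⟯) : F) = algebraMap K F c := by
    intro n
    refine ConstAbs.mem_range_of_mem_adjoin hx (ConstAbs.coeff_minpoly_mem hx h1 n) ?_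
    rw [← ConstAbs.coe_coeff_minpoly_congr e y n]
    exact ConstAbs.coeff_minpoly_mem hx' h2 n
  choose c hc using hc
  have hint : IsIntegral K⟮x⟯ y := Algebra.IsIntegral.isIntegral y
  set μ := minpoly K⟮x⟯ y with hμ
  refine ⟨∑ n ∈ Finset.range (μ.natDegree + 1), Polynomial.monomial n (c n), ?_, ?_⟩
  · intro h0
    have h3 := congrArg (fun p => Polynomial.coeff p μ.natDegree) h0
    simp only [Polynomial.finsetSum_coeff, Polynomial.coeff_monomial, Polynomial.coeff_zero] at h3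
    rw [Finset.sum_ite_eq' ] at h3
    simp only [Finset.mem_range, Nat.lt_succ_self, if_true] at h3
    have h4 := hc μ.natDegree
    rw [h3, map_zero] at h4
    have h5 : μ.coeff μ.natDegree = 1 := (minpoly.monic hint)
    rw [h5] at h4
    simp at h4
  · rw [map_sum]
    have h3 : aeval y μ = 0 := minpoly.aeval _ _
    rw [aeval_eq_sum_range] at h3
    rw [← h3]
    refine Finset.sum_congr rfl fun n _ => ?_
    rw [aeval_monomial, ← hc n, Algebra.smul_def]
    rfl

theorem eq_zero_of_mem_charts (x : F)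
    (hx : Transcendental K x) [FiniteDimensional K⟮x⟯ F] (y : F) (h1 : y ∈ chart K x)
    (h2 : x * y ∈ chart K x⁻¹) : y = 0 := by
  have hx0 : x ≠ 0 := ne_zero_of_transcendental hx
  have hx' : Transcendental K x⁻¹ := transcendental_inv hx
  by_contra hy0
  have h3 : y ∈ chart K x⁻¹ := by
    have h4 := mul_mem (self_mem_chart (K := K) x⁻¹) h2
    rwa [← mul_assoc, inv_mul_cancel₀ hx0, one_mul] at h4
  have h5 : IsAlgebraic K y := isAlgebraic_of_mem_charts x hx y h1 h3
  have h6 : x ∈ chart K x⁻¹ := by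
    have h7 := mul_mem h2 (mem_chart_of_isAlgebraic (K := K) x⁻¹ h5.inv)
    rwa [mul_assoc, mul_inv_cancel₀ hy0, mul_one] at h7
  have h8 : x ∈ K⟮x⁻¹⟯ := by
    rw [ConstAbs.adjoin_inv_eq]
    exact mem_adjoin_simple_self K x
  have h9 : x ∈ Algebra.adjoin K {x⁻¹} := mem_adjoin_of_mem_chart hx' h6 h8
  obtain ⟨c, hc⟩ := ConstAbs.mem_range_of_mem_adjoin hx (Algebra.self_mem_adjoin_singleton K x) h9
  apply hx
  rw [hc]
  exact isAlgebraic_algebraMap c

namespace TCFin

theorem finite_Lt_zero (x : F) (hx : Transcendental K x) [FiniteDimensional K⟮x⟯ F]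
    [Algebra.IsSeparable K⟮x⟯ F] (c : ℕ) :
    Module.Finite K (Lt (chart K x) (chart K x⁻¹) x 0 c) := by
  have hx0 : x ≠ 0 := ne_zero_of_transcendental hx
  obtain ⟨α, σ, -, -, h3, -⟩ := exists_split x hx (c + 1)
  let φ : Lt (chart K x) (chart K x⁻¹) x 0 c →ₗ[K] (Fin (finrank K⟮x⟯ F) × Fin (c + 1) → K) :=
    (α ∘ₗ LinearMap.mulLeft K x) ∘ₗ (Lt (chart K x) (chart K x⁻¹) x 0 c).subtype
  refine Module.Finite.of_injective φ ?_
  rw [← LinearMap.ker_eq_bot, LinearMap.ker_eq_bot']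
  intro f hf
  have hf' : α (x * (f : F)) = 0 := hf
  obtain ⟨hf1, hf2⟩ := mem_Lt.mp f.2
  rw [pow_zero, one_mul] at hf1
  have h4 : x⁻¹ ^ (c + 1) * (x * (f : F)) ∈ chart K x⁻¹ := by
    have : x⁻¹ ^ (c + 1) * (x * (f : F)) = x⁻¹ ^ c * (f : F) := by
      rw [pow_succ, mul_assoc, ← mul_assoc x⁻¹, inv_mul_cancel₀ hx0, one_mul]
    rwa [this]
  have h5 := h3 _ h4
  rw [hf', map_zero, sub_zero] at h5
  exact Subtype.ext (eq_zero_of_mem_charts x hx _ hf1 h5)

end TCFin

theorem finite_Lt (x : F) (hx : Transcendental K x) [FiniteDimensional K⟮x⟯ F]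
    [Algebra.IsSeparable K⟮x⟯ F] (a b : ℕ) :
    Module.Finite K (Lt (chart K x) (chart K x⁻¹) x a b) := by
  have hx0 : x ≠ 0 := ne_zero_of_transcendental hx
  have := finite_Lt_zero x hx (a + b)
  have hmem : ∀ f ∈ Lt (chart K x) (chart K x⁻¹) x a b,
      LinearMap.mulLeft K (x ^ a) f ∈ Lt (chart K x) (chart K x⁻¹) x 0 (a + b) := by
    intro f hf
    obtain ⟨hf1, hf2⟩ := mem_Lt.mp hf
    refine mem_Lt.mpr ⟨?_, ?_⟩
    · rw [pow_zero, one_mul]
      exact hf1
    · have : x⁻¹ ^ (a + b) * (LinearMap.mulLeft K (x ^ a) f) = x⁻¹ ^ b * f := by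
        rw [LinearMap.mulLeft_apply, pow_add, inv_pow, inv_pow]
        field_simp
      rwa [this]
  let φ : Lt (chart K x) (chart K x⁻¹) x a b →ₗ[K] Lt (chart K x) (chart K x⁻¹) x 0 (a + b) :=
    (LinearMap.mulLeft K (x ^ a)).restrict hmem
  refine Module.Finite.of_injective φ ?_
  intro f g hfg
  have h1 : x ^ a * (f : F) = x ^ a * (g : F) := congrArg Subtype.val hfg
  exact Subtype.ext (mul_left_cancel₀ (pow_ne_zero a hx0) h1)

theorem Lt_swap (x : F) (a b : ℕ) :
    Lt (chart K x⁻¹) (chart K x⁻¹⁻¹) x⁻¹ a b = Lt (chart K x) (chart K x⁻¹) x b a := by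
  ext y
  rw [mem_Lt, mem_Lt, inv_inv, and_comm]

theorem LwSet_swap (x w : F) (p a b : ℕ) :
    LwSet (chart K x⁻¹) (chart K x⁻¹⁻¹) x⁻¹ w p a b = LwSet (chart K x) (chart K x⁻¹) x w p b a := by
  ext y
  simp only [LwSet, Set.mem_ofPred_eq, inv_inv]
  rw [and_comm]

end Fermat.Agent.ES.TC
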