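import Fermat.Agent.ES.TCRho
import Fermat.Agent.ES.TCBasis
import Fermat.Agent.ES.TCCross

/-!
# Project ES, block INJ, two-chart duality : the residue pairing [TC-PAIR]
-/

set_option autoImplicit false

noncomputable section

namespace Fermat.Agent.ES.TC

open Fermat.Agent.ES.AbsInj IntermediateField Module Polynomial

variable {K F : Type*} [Field K] [Field F] [Algebra K F]

namespace TCPair

theorem ne_zero_of_rho {x : F} (ρ : F →ₗ[K] K)
    (hρ : ∀ t : ℤ, ρ (x ^ t) = if t = -1 then 1 else 0) : x ≠ 0 := by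
  rintro rfl
  have := hρ (-1)
  simp at this

theorem zpow_mem_adjoin (x : F) (t : ℤ) : x ^ t ∈ K⟮x⟯ :=
  zpow_mem (mem_adjoin_simple_self K x) t

end TCPair

open TCPair

theorem rho_trF_eq_zero {x : F} (ρ : F →ₗ[K] K)
    (hρ : ∀ t : ℤ, ρ (x ^ t) = if t = -1 then 1 else 0) {f ω : F} (hf : f ∈ chart K x)
    (hω : ω ∈ Codiff K x) : ρ (trF K x (f * ω)) = 0 := by
  obtain ⟨P, hP⟩ := Algebra.adjoin_mem_exists_aeval _ _ (hω f hf)
  have h := rho_zpow_mul_aeval ρ hρ 0 P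
  rw [zpow_zero, one_mul, if_neg (by norm_num)] at h
  rw [← hP, h]

theorem rho_trF_eq_zero_inv {x : F} (ρ : F →ₗ[K] K)
    (hρ : ∀ t : ℤ, ρ (x ^ t) = if t = -1 then 1 else 0) {f ω : F} (hf : f ∈ chart K x⁻¹)
    (hω : x ^ 2 * ω ∈ Codiff K x⁻¹) : ρ (trF K x (f * ω)) = 0 := by
  have hx0 := ne_zero_of_rho ρ hρ
  obtain ⟨P, hP⟩ := Algebra.adjoin_mem_exists_aeval _ _ (hω f hf)
  rw [trF_inv, show f * (x ^ 2 * ω) = x ^ 2 * (f * ω) by ring,
    trF_mul_of_mem x (pow_mem (mem_adjoin_simple_self K x) 2)] at hP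
  have h1 : trF K x (f * ω) = x ^ (-2 : ℤ) * aeval x⁻¹ P := by
    rw [hP, ← mul_assoc, ← zpow_natCast x 2, ← zpow_add₀ hx0]
    simp
  have h := rho_zpow_mul_aeval_inv hx0 ρ hρ (-2) P
  rw [if_neg (by norm_num)] at h
  rw [h1, h]

theorem exists_bound_inj (x : F) (hx : Transcendental K x) [FiniteDimensional K⟮x⟯ F]
    [Algebra.IsSeparable K⟮x⟯ F] (ρ : F →ₗ[K] K)
    (hρ : ∀ t : ℤ, ρ (x ^ t) = if t = -1 then 1 else 0) :
    ∃ b0 : ℕ, ∀ b, b0 ≤ b → ∀ ω ∈ Codiff K x,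
      (∀ f, x⁻¹ ^ b * f ∈ chart K x⁻¹ → ρ (trF K x (f * ω)) = 0) → ω = 0 := by
  have hx0 := ne_zero_of_rho ρ hρ
  obtain ⟨e, e', he, -, -, hexp, -, -, -⟩ := exists_dual_bases x hx
  choose c hc using fun j => exists_pow_mul_mem_chart_inv x hx0 (he j)
  refine ⟨Finset.univ.sup c, fun b hb ω hω h => ?_⟩
  rw [hexp ω]
  refine Finset.sum_eq_zero fun j _ => ?_
  have hcj : c j ≤ b := (Finset.le_sup (Finset.mem_univ j)).trans hb
  obtain ⟨P, hP⟩ := Algebra.adjoin_mem_exists_aeval _ _ (hω (e j) (he j))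
  have hP0 : P = 0 := by
    ext t
    have h1 := rho_zpow_mul_aeval ρ hρ (-1 - (t : ℤ)) P
    rw [if_pos (by omega), show (-1 - (-1 - (t : ℤ))).toNat = t by simp, hP,
      ← trF_mul_of_mem x (zpow_mem_adjoin x _), ← mul_assoc] at h1
    rw [coeff_zero, ← h1]
    apply h
    have h2 : x⁻¹ ^ b * (x ^ (-1 - (t : ℤ)) * e j) = x⁻¹ ^ (b + t + 1) * e j := by
      rw [← mul_assoc]
      congr 1
      rw [inv_pow, inv_pow, ← zpow_natCast x b, ← zpow_natCast x (b + t + 1), ← zpow_neg,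
        ← zpow_neg, ← zpow_add₀ hx0]
      congr 1
      push_cast
      ring
    rw [h2]
    exact hc j _ (by omega)
  rw [mul_comm ω (e j), ← hP, hP0, map_zero, zero_mul]

theorem finrank_Omega_inv (x : F) (hx : x ≠ 0) :
    finrank K (Omega K x⁻¹) = finrank K (Omega K x) := by
  have hinj : Function.Injective (LinearMap.mulLeft K (x ^ 2)) := by
    intro a b hab
    exact mul_left_cancel₀ (pow_ne_zero 2 hx) hab
  have hmap : Omega K x⁻¹ = (Omega K x).map (LinearMap.mulLeft K (x ^ 2)) := by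
    ext ω
    rw [Submodule.mem_map, mem_Omega, inv_inv]
    constructor
    · rintro ⟨h1, h2⟩
      refine ⟨x⁻¹ ^ 2 * ω, (mem_Omega K).2 ⟨h2, ?_⟩, ?_⟩
      · rw [← mul_assoc, ← mul_pow, mul_inv_cancel₀ hx, one_pow, one_mul]
        exact h1
      · rw [LinearMap.mulLeft_apply, ← mul_assoc, ← mul_pow, mul_inv_cancel₀ hx, one_pow, one_mul]
    · rintro ⟨η, hη, rfl⟩
      rw [LinearMap.mulLeft_apply]
      refine ⟨((mem_Omega K).1 hη).2, ?_⟩
      rw [← mul_assoc, ← mul_pow, inv_mul_cancel₀ hx, one_pow, one_mul]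
      exact ((mem_Omega K).1 hη).1
  rw [hmap]
  exact (Submodule.equivMapOfInjective _ hinj (Omega K x)).finrank_eq.symm

end Fermat.Agent.ES.TC
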