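import Fermat.Agent.ES.TCSplit
import Fermat.Agent.ES.TCPair
import Fermat.Agent.ES.TCFin

/-!
# Project ES, block INJ, two-chart duality : the dimension count [TC-MAIN], core

`dim L(0,b) + dim Ω = b n + dim (B₁ ∩ B₂)` for `b` large, `≥` for all `b`; the representability of
functionals by regular differentials (`exists_omega`, [TC-REP]) is a hypothesis here.
-/

set_option autoImplicit false

noncomputable section

namespace Fermat.Agent.ES.TC

open Fermat.Agent.ES.AbsInj IntermediateField Module Polynomial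

variable {K F : Type*} [Field K] [Field F] [Algebra K F]

namespace TCMain

/-- the statement of `exists_omega` ([TC-REP]). -/
def Rep (x : F) (ρ : F →ₗ[K] K) : Prop :=
  ∀ φ : F →ₗ[K] K, (∀ f ∈ chart K x, φ f = 0) → (∀ f ∈ chart K x⁻¹, φ f = 0) →
    ∃ ω ∈ Omega K x, ∀ (c : ℕ) (h : F), x⁻¹ ^ c * h ∈ chart K x⁻¹ →
      φ h = ρ (trF K x (h * ω))

section pairing

variable {V : Type*} [AddCommGroup V] [Module K V]

/-- the residue pairing `(ω, z) ↦ ρ (Tr (σ z * ω))`. -/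
def pairing (x : F) (ρ : F →ₗ[K] K) (σ : V →ₗ[K] F) : F →ₗ[K] Module.Dual K V :=
  LinearMap.mk₂ K (fun ω z => ρ (trF K x (σ z * ω)))
    (fun a b z => by rw [mul_add, trF_add, map_add])
    (fun c a z => by rw [mul_smul_comm, trF_smul, map_smul])
    (fun a z w => by rw [map_add, add_mul, trF_add, map_add])
    (fun c a z => by rw [map_smul, smul_mul_assoc, trF_smul, map_smul])

theorem pairing_apply (x : F) (ρ : F →ₗ[K] K) (σ : V →ₗ[K] F) (ω : F) (z : V) :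
    pairing x ρ σ ω z = ρ (trF K x (σ z * ω)) := rfl

/-- `B₁ + B₂`. -/
def S12 (K : Type*) {F : Type*} [Field K] [Field F] [Algebra K F] (x : F) : Submodule K F :=
  Subalgebra.toSubmodule (chart K x) ⊔ Subalgebra.toSubmodule (chart K x⁻¹)

theorem rho_eq_zero_of_mem_S12 {x : F} (ρ : F →ₗ[K] K)
    (hρ : ∀ t : ℤ, ρ (x ^ t) = if t = -1 then 1 else 0) {f ω : F} (hf : f ∈ S12 K x)
    (hω : ω ∈ Omega K x) : ρ (trF K x (f * ω)) = 0 := by
  obtain ⟨f1, h1, f2, h2, rfl⟩ := Submodule.mem_sup.1 hf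
  rw [add_mul, trF_add, map_add, rho_trF_eq_zero ρ hρ h1 hω.1, rho_trF_eq_zero_inv ρ hρ h2 hω.2,
    add_zero]

/-- the image of `Ω` under the pairing is the annihilator of `σ⁻¹ (B₁ + B₂)`. -/
theorem map_pairing_eq {x : F} (ρ : F →ₗ[K] K)
    (hρ : ∀ t : ℤ, ρ (x ^ t) = if t = -1 then 1 else 0) (hrep : Rep x ρ) (σ : V →ₗ[K] F) (b : ℕ)
    (hσ : ∀ z, x⁻¹ ^ b * σ z ∈ chart K x⁻¹) :
    (Omega K x).map (pairing x ρ σ) = ((S12 K x).comap σ).dualAnnihilator := by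
  apply le_antisymm
  · rintro _ ⟨ω, hω, rfl⟩
    rw [Submodule.mem_dualAnnihilator]
    intro z hz
    rw [pairing_apply]
    exact rho_eq_zero_of_mem_S12 ρ hρ hz hω
  · intro ψ hψ
    have hker : LinearMap.ker ((S12 K x).mkQ ∘ₗ σ) = (S12 K x).comap σ := by
      rw [LinearMap.ker_comp, Submodule.ker_mkQ]
    rw [← hker, ← LinearMap.range_dualMap_eq_dualAnnihilator_ker] at hψ
    obtain ⟨φ', hφ'⟩ := hψ
    obtain ⟨ω, hω, h⟩ := hrep (φ' ∘ₗ (S12 K x).mkQ)
      (fun f hf => by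
        have : (S12 K x).mkQ f = 0 := by
          rw [Submodule.mkQ_apply, Submodule.Quotient.mk_eq_zero]
          exact Submodule.mem_sup_left hf
        rw [LinearMap.comp_apply, this, map_zero])
      (fun f hf => by
        have : (S12 K x).mkQ f = 0 := by
          rw [Submodule.mkQ_apply, Submodule.Quotient.mk_eq_zero]
          exact Submodule.mem_sup_right hf
        rw [LinearMap.comp_apply, this, map_zero])
    refine ⟨ω, hω, ?_⟩
    ext z
    rw [pairing_apply, ← h b (σ z) (hσ z), ← hφ']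
    rfl

end pairing

section count

variable (x : F) (hx : Transcendental K x) [FiniteDimensional K⟮x⟯ F]
  [Algebra.IsSeparable K⟮x⟯ F] (b : ℕ)
  (α : F →ₗ[K] (Fin (finrank K⟮x⟯ F) × Fin b → K))
  (σ : (Fin (finrank K⟮x⟯ F) × Fin b → K) →ₗ[K] F)
  (h1 : ∀ z, x⁻¹ ^ b * σ z ∈ chart K x⁻¹) (h2 : ∀ z, α (σ z) = z)
  (h3 : ∀ f, x⁻¹ ^ b * f ∈ chart K x⁻¹ → f - σ (α f) ∈ chart K x⁻¹)
  (h4 : ∀ f ∈ chart K x⁻¹, α f = 0)

/-- `α` restricted to `L(0,b)`. -/
def resA : Lt (chart K x) (chart K x⁻¹) x 0 b →ₗ[K] (Fin (finrank K⟮x⟯ F) × Fin b → K) :=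
  α.domRestrict _

omit [FiniteDimensional K⟮x⟯ F] [Algebra.IsSeparable K⟮x⟯ F] in
theorem mem_Lt_zero {f : F} :
    f ∈ Lt (chart K x) (chart K x⁻¹) x 0 b ↔ f ∈ chart K x ∧ x⁻¹ ^ b * f ∈ chart K x⁻¹ := by
  rw [mem_Lt, pow_zero, one_mul]

include h1 h2 h3 h4 in
omit [FiniteDimensional K⟮x⟯ F] [Algebra.IsSeparable K⟮x⟯ F] in
theorem range_resA : LinearMap.range (resA x b α) = (S12 K x).comap σ := by
  ext z
  constructor
  · rintro ⟨⟨f, hf⟩, rfl⟩
    have hf' := (mem_Lt_zero x b).1 hf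
    change σ (α f) ∈ S12 K x
    have : σ (α f) = f - (f - σ (α f)) := by ring
    rw [this]
    exact sub_mem (Submodule.mem_sup_left hf'.1) (Submodule.mem_sup_right (h3 f hf'.2))
  · intro hz
    obtain ⟨f1, hf1, f2, hf2, e⟩ := Submodule.mem_sup.1 hz
    have e1 : f1 = σ z - f2 := by rw [← e]; ring
    have hs : x⁻¹ ^ b ∈ chart K x⁻¹ := pow_mem (TCSplit.self_mem_chart x⁻¹) b
    refine ⟨⟨f1, (mem_Lt_zero x b).2 ⟨hf1, ?_⟩⟩, ?_⟩
    · rw [e1, mul_sub]
      exact sub_mem (h1 z) (mul_mem hs hf2)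
    · change α f1 = z
      rw [e1, map_sub, h2, h4 f2 hf2, sub_zero]

include h4 in
omit [FiniteDimensional K⟮x⟯ F] [Algebra.IsSeparable K⟮x⟯ F] in
theorem ker_resA_ne_bot : LinearMap.ker (resA x b α) ≠ ⊥ := by
  intro h
  have hs : x⁻¹ ^ b ∈ chart K x⁻¹ := pow_mem (TCSplit.self_mem_chart x⁻¹) b
  have hmem : (1 : F) ∈ Lt (chart K x) (chart K x⁻¹) x 0 b :=
    (mem_Lt_zero x b).2 ⟨one_mem _, by rw [mul_one]; exact hs⟩
  have h0 : (⟨1, hmem⟩ : Lt (chart K x) (chart K x⁻¹) x 0 b) ∈ LinearMap.ker (resA x b α) :=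
    h4 1 (one_mem _)
  rw [h, Submodule.mem_bot] at h0
  exact one_ne_zero (congrArg Subtype.val h0)

include h3 in
omit [FiniteDimensional K⟮x⟯ F] [Algebra.IsSeparable K⟮x⟯ F] in
theorem finrank_ker_resA_le
    (hC : ∀ y, y ∈ chart K x → y ∈ chart K x⁻¹ → ∃ c : K, y = algebraMap K F c) :
    finrank K (LinearMap.ker (resA x b α)) ≤ 1 := by
  have hs : x⁻¹ ^ b ∈ chart K x⁻¹ := pow_mem (TCSplit.self_mem_chart x⁻¹) b
  by_cases hbot : LinearMap.ker (resA x b α) = ⊥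
  · rw [hbot, finrank_bot]
    exact Nat.zero_le 1
  obtain ⟨v, hv, hv0⟩ := (Submodule.ne_bot_iff _).1 hbot
  have key : ∀ w ∈ LinearMap.ker (resA x b α), ∃ c : K, (w : F) = algebraMap K F c := by
    rintro ⟨f, hf⟩ hw
    have hf' := (mem_Lt_zero x b).1 hf
    have hα : α f = 0 := hw
    have := h3 f hf'.2
    rw [hα, map_zero, sub_zero] at this
    exact hC f hf'.1 this
  obtain ⟨cv, hcv⟩ := key v hv
  have hcv0 : cv ≠ 0 := by
    rintro rfl
    apply hv0
    apply Subtype.ext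
    rw [hcv, map_zero]
    rfl
  refine finrank_le_one (⟨v, hv⟩ : LinearMap.ker (resA x b α)) ?_
  rintro ⟨w, hw⟩
  obtain ⟨cw, hcw⟩ := key w hw
  refine ⟨cw / cv, ?_⟩
  apply Subtype.ext
  apply Subtype.ext
  change (cw / cv) • (v : F) = (w : F)
  rw [hcv, hcw, Algebra.smul_def, ← map_mul, div_mul_cancel₀ _ hcv0]

omit [FiniteDimensional K⟮x⟯ F] [Algebra.IsSeparable K⟮x⟯ F] in
theorem finrank_V : finrank K (Fin (finrank K⟮x⟯ F) × Fin b → K) = b * finrank K⟮x⟯ F := by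
  rw [Module.finrank_fintype_fun_eq_card, Fintype.card_prod, Fintype.card_fin, Fintype.card_fin,
    mul_comm]

include hx h1 h2 h3 h4 in
/-- `dim L(0,b) = dim ker + dim σ⁻¹ (B₁ + B₂)`. -/
theorem finrank_Lt_eq :
    finrank K (Lt (chart K x) (chart K x⁻¹) x 0 b)
      = finrank K ((S12 K x).comap σ) + finrank K (LinearMap.ker (resA x b α)) := by
  have := finite_Lt x hx 0 b
  rw [← LinearMap.finrank_range_add_finrank_ker (resA x b α), range_resA x b α σ h1 h2 h3 h4]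

include h3 in
omit [FiniteDimensional K⟮x⟯ F] [Algebra.IsSeparable K⟮x⟯ F] in
/-- injectivity of the pairing on `Ω` from `exists_bound_inj`. -/
theorem pairing_injOn (ρ : F →ₗ[K] K) (hρ : ∀ t : ℤ, ρ (x ^ t) = if t = -1 then 1 else 0)
    (hinj : ∀ ω ∈ Codiff K x,
      (∀ f, x⁻¹ ^ b * f ∈ chart K x⁻¹ → ρ (trF K x (f * ω)) = 0) → ω = 0)
    (ω : F) (hω : ω ∈ Omega K x) (h0 : pairing x ρ σ ω = 0) : ω = 0 := by
  refine hinj ω hω.1 fun f hf => ?_
  have e : f = σ (α f) + (f - σ (α f)) := by ring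
  rw [e, add_mul, trF_add, map_add, rho_trF_eq_zero_inv ρ hρ (h3 f hf) hω.2, add_zero,
    ← pairing_apply, h0]
  rfl

end count

end TCMain

open TCMain

theorem finite_Omega (x : F) (hx : Transcendental K x) [FiniteDimensional K⟮x⟯ F]
    [Algebra.IsSeparable K⟮x⟯ F] : Module.Finite K (Omega K x) := by
  obtain ⟨ρ, hρ⟩ := exists_rho hx
  obtain ⟨b, hb⟩ := exists_bound_inj x hx ρ hρ
  obtain ⟨α, σ, -, -, h3, -⟩ := exists_split x hx b
  refine Module.Finite.of_injective ((pairing x ρ σ).domRestrict (Omega K x)) ?_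
  rw [← LinearMap.ker_eq_bot, LinearMap.ker_eq_bot']
  rintro ⟨ω, hω⟩ h0
  apply Subtype.ext
  exact pairing_injOn x b α σ h3 ρ hρ (hb b le_rfl) ω hω h0

/-- [TC-MAIN] (2), with `exists_omega` as a hypothesis. -/
theorem le_finrank_Lt_of (x : F) (hx : Transcendental K x) [FiniteDimensional K⟮x⟯ F]
    [Algebra.IsSeparable K⟮x⟯ F]
    (hrep : ∀ ρ : F →ₗ[K] K, (∀ t : ℤ, ρ (x ^ t) = if t = -1 then 1 else 0) → Rep x ρ) (b : ℕ) :
    b * finrank K⟮x⟯ F + 1 ≤
      finrank K (Lt (chart K x) (chart K x⁻¹) x 0 b) + finrank K (Omega K x) := by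
  obtain ⟨ρ, hρ⟩ := exists_rho hx
  obtain ⟨α, σ, h1, h2, h3, h4⟩ := exists_split x hx b
  have := finite_Omega x hx
  have := finite_Lt x hx 0 b
  have e1 := finrank_Lt_eq x hx b α σ h1 h2 h3 h4
  have e2 := Subspace.finrank_add_finrank_dualAnnihilator_eq ((S12 K x).comap σ)
  rw [← map_pairing_eq ρ hρ (hrep ρ hρ) σ b h1, finrank_V] at e2
  have e3 : finrank K ((Omega K x).map (pairing x ρ σ)) ≤ finrank K (Omega K x) :=
    Submodule.finrank_map_le _ _
  have e4 : 1 ≤ finrank K (LinearMap.ker (resA x b α)) :=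
    Submodule.one_le_finrank_iff.2 (ker_resA_ne_bot x b α h4)
  omega

/-- [TC-MAIN] (3), with `exists_omega` as a hypothesis. -/
theorem finrank_Lt_le_of (x : F) (hx : Transcendental K x) [FiniteDimensional K⟮x⟯ F]
    [Algebra.IsSeparable K⟮x⟯ F]
    (hrep : ∀ ρ : F →ₗ[K] K, (∀ t : ℤ, ρ (x ^ t) = if t = -1 then 1 else 0) → Rep x ρ)
    (hC : ∀ y, y ∈ chart K x → y ∈ chart K x⁻¹ → ∃ c : K, y = algebraMap K F c) :
    ∃ b0 : ℕ, ∀ b, b0 ≤ b →
      finrank K (Lt (chart K x) (chart K x⁻¹) x 0 b) + finrank K (Omega K x) ≤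
        b * finrank K⟮x⟯ F + 1 := by
  obtain ⟨ρ, hρ⟩ := exists_rho hx
  obtain ⟨b0, hb0⟩ := exists_bound_inj x hx ρ hρ
  refine ⟨b0, fun b hb => ?_⟩
  obtain ⟨α, σ, h1, h2, h3, h4⟩ := exists_split x hx b
  have := finite_Omega x hx
  have e1 := finrank_Lt_eq x hx b α σ h1 h2 h3 h4
  have e2 := Subspace.finrank_add_finrank_dualAnnihilator_eq ((S12 K x).comap σ)
  rw [← map_pairing_eq ρ hρ (hrep ρ hρ) σ b h1, finrank_V] at e2
  have e3 : finrank K ((Omega K x).map (pairing x ρ σ)) = finrank K (Omega K x) := by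
    have hdisj : Disjoint (Omega K x) (LinearMap.ker (pairing x ρ σ)) := by
      rw [Submodule.disjoint_def]
      intro ω hω h0
      exact pairing_injOn x b α σ h3 ρ hρ (hb0 b hb) ω hω h0
    exact (Submodule.equivMapOfInjective ((pairing x ρ σ).domRestrict (Omega K x)) (by
      rw [← LinearMap.ker_eq_bot, LinearMap.ker_eq_bot']
      rintro ⟨ω, hω⟩ h0
      apply Subtype.ext
      exact pairing_injOn x b α σ h3 ρ hρ (hb0 b hb) ω hω h0) ⊤).finrank_eq.symm.trans (by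
        rw [finrank_top]) |>.symm ▸ (by
        have : (⊤ : Submodule K (Omega K x)).map ((pairing x ρ σ).domRestrict (Omega K x))
            = (Omega K x).map (pairing x ρ σ) := by
          ext ψ
          constructor
          · rintro ⟨⟨ω, hω⟩, -, rfl⟩
            exact ⟨ω, hω, rfl⟩
          · rintro ⟨ω, hω, rfl⟩
            exact ⟨⟨ω, hω⟩, trivial, rfl⟩
        rw [this])
  have e4 := finrank_ker_resA_le x b α σ h3 hC
  omega

end Fermat.Agent.ES.TC
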