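import Fermat.Agent.ES.ADefs

/-!
# Project ES, block INJ (route A) : the functional "coefficient of `x⁻¹`"
-/

set_option autoImplicit false

noncomputable section

namespace Fermat.Agent.ES.TC

open IntermediateField Module Polynomial

variable {K F : Type*} [Field K] [Field F] [Algebra K F]

theorem linearIndependent_zpow {x : F} (hx : Transcendental K x) :
    LinearIndependent K (fun t : ℤ => x ^ t) := by
  have hx0 : x ≠ 0 := by
    rintro rfl
    exact hx (isAlgebraic_zero)
  rw [linearIndependent_iff']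
  intro s g hg i hi
  obtain ⟨N, hN⟩ : ∃ N : ℕ, ∀ t ∈ s, 0 ≤ t + N := by
    refine ⟨∑ t ∈ s, t.natAbs, fun t ht => ?_⟩
    have h1 : t.natAbs ≤ ∑ t ∈ s, t.natAbs :=
      Finset.single_le_sum (f := fun t : ℤ => t.natAbs) (fun _ _ => Nat.zero_le _) ht
    have h2 : (t.natAbs : ℤ) ≤ ((∑ t ∈ s, t.natAbs : ℕ) : ℤ) := by exact_mod_cast h1
    have h3 : -t ≤ (t.natAbs : ℤ) := by
      rw [Int.natCast_natAbs]; exact neg_le_abs t
    linarith
  have hP : aeval x (∑ t ∈ s, monomial (t + N).toNat (g t)) = 0 := by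
    rw [map_sum]
    have : ∀ t ∈ s, aeval x (monomial (t + N).toNat (g t)) = x ^ N * (g t • x ^ t) := by
      intro t ht
      rw [aeval_monomial, ← zpow_natCast x (t + N).toNat, Int.toNat_of_nonneg (hN t ht),
        zpow_add₀ hx0, zpow_natCast, Algebra.smul_def]
      ring
    rw [Finset.sum_congr rfl this, ← Finset.mul_sum, hg, mul_zero]
  have hP0 := (transcendental_iff.mp hx) _ hP
  have hc := congrArg (fun p => p.coeff (i + N).toNat) hP0
  simp only [finsetSum_coeff, coeff_monomial, coeff_zero] at hc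
  rw [Finset.sum_eq_single i] at hc
  · simpa using hc
  · intro t ht hti
    rw [if_neg]
    intro h
    apply hti
    have h1 := congrArg (fun n : ℕ => (n : ℤ)) h
    simp only [Int.toNat_of_nonneg (hN t ht), Int.toNat_of_nonneg (hN i hi)] at h1
    linarith
  · intro h; exact absurd hi h

theorem exists_rho {x : F} (hx : Transcendental K x) :
    ∃ ρ : F →ₗ[K] K, ∀ t : ℤ, ρ (x ^ t) = if t = -1 then 1 else 0 := by
  have hv := linearIndependent_zpow hx
  obtain ⟨ρ, hρ⟩ := LinearMap.exists_extend ((Finsupp.lapply (-1 : ℤ)).comp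
    (hv.repr : Submodule.span K (Set.range fun t : ℤ => x ^ t) →ₗ[K] ℤ →₀ K))
  refine ⟨ρ, fun t => ?_⟩
  have h1 := LinearMap.congr_fun hρ ⟨x ^ t, Submodule.subset_span ⟨t, rfl⟩⟩
  simp only [LinearMap.comp_apply, Submodule.subtype_apply, Finsupp.lapply_apply] at h1
  rw [h1]
  have h2 : hv.repr ⟨x ^ t, Submodule.subset_span ⟨t, rfl⟩⟩ = Finsupp.single t 1 :=
    hv.repr_eq_single t _ rfl
  rw [h2, Finsupp.single_apply]

theorem rho_zpow_mul_aeval {x : F} (ρ : F →ₗ[K] K)
    (hρ : ∀ t : ℤ, ρ (x ^ t) = if t = -1 then 1 else 0) (t : ℤ) (P : K[X]) :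
    ρ (x ^ t * aeval x P) = if t ≤ -1 then P.coeff (-1 - t).toNat else 0 := by
  have hx0 : x ≠ 0 := by
    rintro rfl
    have := hρ (-1)
    simp at this
  rw [aeval_eq_sum_range, Finset.mul_sum, map_sum]
  have h1 : ∀ i ∈ Finset.range (P.natDegree + 1), ρ (x ^ t * (P.coeff i • x ^ i))
      = if t + i = -1 then P.coeff i else 0 := by
    intro i _
    rw [mul_smul_comm, map_smul, ← zpow_natCast x i, ← zpow_add₀ hx0, hρ]
    split_ifs <;> simp
  rw [Finset.sum_congr rfl h1]
  split_ifs with ht
  · by_cases hd : (-1 - t).toNat ∈ Finset.range (P.natDegree + 1)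
    · rw [Finset.sum_eq_single (-1 - t).toNat]
      · rw [if_pos]
        rw [Int.toNat_of_nonneg (by linarith)]; ring
      · intro i _ hi
        rw [if_neg]
        intro h
        apply hi
        have : (i : ℤ) = -1 - t := by linarith
        rw [← this]; simp
      · intro h; exact absurd hd h
    · rw [Finset.sum_eq_zero, coeff_eq_zero_of_natDegree_lt]
      · rw [Finset.mem_range] at hd; omega
      · intro i hi
        rw [if_neg]
        intro h
        apply hd
        have : (i : ℤ) = -1 - t := by linarith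
        rw [← this]; simpa using hi
  · apply Finset.sum_eq_zero
    intro i _
    rw [if_neg]
    intro h
    apply ht
    have : (0 : ℤ) ≤ i := Int.natCast_nonneg i
    linarith

theorem rho_zpow_mul_aeval_inv {x : F} (hx0 : x ≠ 0) (ρ : F →ₗ[K] K)
    (hρ : ∀ t : ℤ, ρ (x ^ t) = if t = -1 then 1 else 0) (t : ℤ) (P : K[X]) :
    ρ (x ^ t * aeval x⁻¹ P) = if -1 ≤ t then P.coeff (t + 1).toNat else 0 := by
  rw [aeval_eq_sum_range, Finset.mul_sum, map_sum]
  have h1 : ∀ i ∈ Finset.range (P.natDegree + 1), ρ (x ^ t * (P.coeff i • x⁻¹ ^ i))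
      = if t - i = -1 then P.coeff i else 0 := by
    intro i _
    rw [mul_smul_comm, map_smul, inv_pow, ← zpow_natCast x i, ← zpow_neg, ← zpow_add₀ hx0,
      ← sub_eq_add_neg, hρ]
    split_ifs <;> simp
  rw [Finset.sum_congr rfl h1]
  split_ifs with ht
  · by_cases hd : (t + 1).toNat ∈ Finset.range (P.natDegree + 1)
    · rw [Finset.sum_eq_single (t + 1).toNat]
      · rw [if_pos]
        rw [Int.toNat_of_nonneg (by linarith)]; ring
      · intro i _ hi
        rw [if_neg]
        intro h
        apply hi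
        have : (i : ℤ) = t + 1 := by linarith
        rw [← this]; simp
      · intro h; exact absurd hd h
    · rw [Finset.sum_eq_zero, coeff_eq_zero_of_natDegree_lt]
      · rw [Finset.mem_range] at hd; omega
      · intro i hi
        rw [if_neg]
        intro h
        apply hd
        have : (i : ℤ) = t + 1 := by linarith
        rw [← this]; simpa using hi
  · apply Finset.sum_eq_zero
    intro i _
    rw [if_neg]
    intro h
    apply ht
    have : (0 : ℤ) ≤ i := Int.natCast_nonneg i
    linarith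

/-- a Laurent polynomial `x ^ c * P(x⁻¹)` all of whose coefficients at negative exponents vanish
is a polynomial. -/
theorem mem_adjoin_of_rho {x : F} (hx0 : x ≠ 0) (ρ : F →ₗ[K] K)
    (hρ : ∀ t : ℤ, ρ (x ^ t) = if t = -1 then 1 else 0) (c : ℕ) (P : K[X])
    (h : ∀ m : ℕ, ρ (x ^ m * (x ^ c * aeval x⁻¹ P)) = 0) :
    x ^ c * aeval x⁻¹ P ∈ Algebra.adjoin K {x} := by
  have hcoef : ∀ j : ℕ, c < j → P.coeff j = 0 := by
    intro j hj
    have h1 := h (j - c - 1)
    rw [← mul_assoc, ← pow_add, ← zpow_natCast x, rho_zpow_mul_aeval_inv hx0 ρ hρ, if_pos] at h1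
    · have : (((j - c - 1 + c : ℕ) : ℤ) + 1).toNat = j := by
        have : j - c - 1 + c + 1 = j := by omega
        rw [← Nat.cast_succ, Int.toNat_natCast]; exact this
      rwa [this] at h1
    · have : (0 : ℤ) ≤ ((j - c - 1 + c : ℕ) : ℤ) := Int.natCast_nonneg _
      linarith
  rw [aeval_eq_sum_range, Finset.mul_sum]
  refine Subalgebra.sum_mem _ fun i _ => ?_
  by_cases hi : c < i
  · rw [hcoef i hi]; simp
  · rw [mul_smul_comm]
    refine Subalgebra.smul_mem _ ?_ _
    have : x ^ c * x⁻¹ ^ i = x ^ (c - i) := by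
      have hc : c = (c - i) + i := by omega
      conv_lhs => rw [hc, pow_add, mul_assoc, ← mul_pow, mul_inv_cancel₀ hx0, one_pow, mul_one]
    rw [this]
    exact Subalgebra.pow_mem _ (Algebra.self_mem_adjoin_singleton K x) _

end Fermat.Agent.ES.TC
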