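import Fermat.Agent.ES.TCRho
import Fermat.Agent.ES.TCBasis
import Fermat.Agent.ES.TCCross

/-!
# Project ES, block INJ, two-chart duality : principal parts at infinity [TC-SPLIT]
-/

set_option autoImplicit false

noncomputable section

namespace Fermat.Agent.ES.TC

open Fermat.Agent.ES.AbsInj IntermediateField Module Polynomial

variable {K F : Type*} [Field K] [Field F] [Algebra K F]

namespace TCSplit

/-- the trace as a `K`-linear map. -/
def trL (K : Type*) {F : Type*} [Field K] [Field F] [Algebra K F] (x : F) : F →ₗ[K] F where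
  toFun := trF K x
  map_add' := trF_add K x
  map_smul' := trF_smul K x

@[simp] theorem trL_apply (x y : F) : trL K x y = trF K x y := rfl

theorem self_mem_chart (x : F) : x ∈ chart K x := by
  rw [mem_chart]
  exact isIntegral_algebraMap (x := (⟨x, Algebra.self_mem_adjoin_singleton K x⟩ : Algebra.adjoin K {x}))

theorem aeval_mem_chart (x : F) (P : K[X]) : aeval x P ∈ chart K x := by
  have h : aeval x P ∈ Algebra.adjoin K {x} := by
    rw [Algebra.adjoin_singleton_eq_range_aeval]
    exact ⟨P, rfl⟩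
  rw [mem_chart]
  exact isIntegral_algebraMap (x := (⟨_, h⟩ : Algebra.adjoin K {x}))

/-- Taylor expansion up to order `b`. -/
theorem exists_aeval_eq (s : F) (P : K[X]) (b : ℕ) :
    ∃ Q : K[X], aeval s P = ∑ l : Fin b, P.coeff l • s ^ (l : ℕ) + s ^ b * aeval s Q := by
  have hdvd : (X : K[X]) ^ b ∣ P - ∑ l : Fin b, monomial (l : ℕ) (P.coeff l) := by
    rw [X_pow_dvd_iff]
    intro d hd
    rw [coeff_sub, finsetSum_coeff, Finset.sum_eq_single (⟨d, hd⟩ : Fin b)]
    · simp
    · intro l _ hl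
      rw [coeff_monomial, if_neg]
      intro h
      exact hl (Fin.ext h)
    · intro h
      exact absurd (Finset.mem_univ _) h
  obtain ⟨Q, hQ⟩ := hdvd
  refine ⟨Q, ?_⟩
  have h := congrArg (aeval s) hQ
  rw [map_sub, map_mul, map_pow, aeval_X, map_sum] at h
  rw [← h]
  simp only [aeval_monomial, Algebra.smul_def]
  ring

end TCSplit

open TCSplit

theorem exists_split (x : F) (hx : Transcendental K x) [FiniteDimensional K⟮x⟯ F]
    [Algebra.IsSeparable K⟮x⟯ F] (b : ℕ) :
    ∃ (α : F →ₗ[K] (Fin (finrank K⟮x⟯ F) × Fin b → K))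
      (σ : (Fin (finrank K⟮x⟯ F) × Fin b → K) →ₗ[K] F),
      (∀ z, x⁻¹ ^ b * σ z ∈ chart K x⁻¹) ∧ (∀ z, α (σ z) = z) ∧
      (∀ f, x⁻¹ ^ b * f ∈ chart K x⁻¹ → f - σ (α f) ∈ chart K x⁻¹) ∧
      (∀ f ∈ chart K x⁻¹, α f = 0) := by
  classical
  have hx0 : x ≠ 0 := by
    rintro rfl
    exact hx isAlgebraic_zero
  have hx' : Transcendental K x⁻¹ := by
    intro h1
    apply hx
    have := h1.inv
    rwa [inv_inv] at this
  have e0 := ConstAbs.adjoin_inv_eq (K := K) x
  have i1 : FiniteDimensional K⟮x⁻¹⟯ F := e0 ▸ inferInstance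
  have i2 : Algebra.IsSeparable K⟮x⁻¹⟯ F := e0 ▸ inferInstance
  have H := exists_dual_bases x⁻¹ hx'
  rw [finrank_adjoin_inv] at H
  obtain ⟨u, u', hu, hint, hexp, -, hdual, -, -⟩ := H
  simp only [trF_inv] at hint hexp hdual
  obtain ⟨ρ, hρ⟩ := exists_rho hx
  set s := x⁻¹ with hs
  have hsx : s ^ b * x ^ b = 1 := by rw [← mul_pow, hs, inv_mul_cancel₀ hx0, one_pow]
  have hsmem : ∀ l : ℕ, s ^ l ∈ K⟮x⟯ := fun l =>
    pow_mem (inv_mem (mem_adjoin_simple_self K x)) l
  have hszpow : ∀ l : ℕ, s ^ l = x ^ (-(l : ℤ)) := by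
    intro l
    rw [hs, inv_pow, zpow_neg, zpow_natCast]
  -- the two maps
  let L : Fin (finrank K⟮x⟯ F) × Fin b → F →ₗ[K] K := fun p =>
    ρ ∘ₗ LinearMap.mulLeft K (x ^ (((p.2 : ℕ) : ℤ) - 1)) ∘ₗ trL K x ∘ₗ
      LinearMap.mulLeft K (s ^ b * u' p.1)
  have hL : ∀ p f, L p f = ρ (x ^ (((p.2 : ℕ) : ℤ) - 1) * trF K x (s ^ b * u' p.1 * f)) :=
    fun _ _ => rfl
  let v : Fin (finrank K⟮x⟯ F) × Fin b → F := fun p => x ^ b * (s ^ (p.2 : ℕ) * u p.1)
  have hLv : ∀ p p', L p' (v p) = if p = p' then 1 else 0 := by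
    rintro ⟨i, l⟩ ⟨j, l'⟩
    rw [hL]
    have h1 : s ^ b * u' j * (x ^ b * (s ^ (l : ℕ) * u i)) = s ^ (l : ℕ) * (u i * u' j) := by
      calc s ^ b * u' j * (x ^ b * (s ^ (l : ℕ) * u i))
          = (s ^ b * x ^ b) * (s ^ (l : ℕ) * (u i * u' j)) := by ring
        _ = _ := by rw [hsx, one_mul]
    simp only [v]
    rw [h1, trF_mul_of_mem x (hsmem l), hdual]
    by_cases hij : i = j
    · subst hij
      rw [if_pos rfl, mul_one, hszpow, ← zpow_add₀ hx0, hρ]
      by_cases hl : l = l'
      · subst hl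
        rw [if_pos (by ring), if_pos rfl]
      · rw [if_neg, if_neg]
        · intro h
          exact hl (Prod.ext_iff.1 h).2
        · intro h
          apply hl
          apply Fin.ext
          omega
    · rw [if_neg hij, mul_zero, mul_zero, map_zero, if_neg]
      intro h
      exact hij (Prod.ext_iff.1 h).1
  refine ⟨LinearMap.pi L, Fintype.linearCombination K v, ?_, ?_, ?_, ?_⟩
  · intro z
    rw [Fintype.linearCombination_apply, Finset.mul_sum]
    refine Subalgebra.sum_mem _ fun p _ => ?_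
    have h1 : s ^ b * z p • v p = z p • (s ^ (p.2 : ℕ) * u p.1) := by
      simp only [v]
      rw [mul_smul_comm, ← mul_assoc, hsx, one_mul]
    rw [h1]
    exact Subalgebra.smul_mem _ (mul_mem (pow_mem (self_mem_chart s) _) (hu p.1)) _
  · intro z
    funext p'
    rw [LinearMap.pi_apply, Fintype.linearCombination_apply, map_sum]
    simp only [map_smul, hLv, smul_eq_mul, mul_ite, mul_one, mul_zero]
    rw [Finset.sum_ite_eq' Finset.univ p' z, if_pos (Finset.mem_univ _)]
  · intro f hf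
    choose P hP using fun i => Algebra.adjoin_mem_exists_aeval _ _ (hint _ hf i)
    choose Q hQ using fun i => exists_aeval_eq s (P i) b
    have hα : ∀ p, L p f = (P p.1).coeff (p.2 : ℕ) := by
      intro p
      rw [hL, show s ^ b * u' p.1 * f = s ^ b * f * u' p.1 by ring, ← hP,
        rho_zpow_mul_aeval_inv hx0 ρ hρ, if_pos (by omega)]
      congr 1
      omega
    have hf1 : f = x ^ b * ∑ i, aeval s (P i) * u i := by
      have h1 := hexp (s ^ b * f)
      simp only [← hP] at h1
      rw [← h1, ← mul_assoc, mul_comm (x ^ b), hsx, one_mul]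
    have hσ : Fintype.linearCombination K v (LinearMap.pi L f)
        = x ^ b * ∑ i, (∑ l : Fin b, (P i).coeff l • s ^ (l : ℕ)) * u i := by
      rw [Fintype.linearCombination_apply, Fintype.sum_prod_type, Finset.mul_sum]
      refine Finset.sum_congr rfl fun i _ => ?_
      rw [Finset.sum_mul, Finset.mul_sum]
      refine Finset.sum_congr rfl fun l _ => ?_
      rw [LinearMap.pi_apply, hα]
      simp only [v]
      rw [smul_mul_assoc, mul_smul_comm]
    have hfin : f - Fintype.linearCombination K v (LinearMap.pi L f)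
        = ∑ i, aeval s (Q i) * u i := by
      rw [hσ]
      conv_lhs => rw [hf1]
      rw [← mul_sub, ← Finset.sum_sub_distrib, Finset.mul_sum]
      refine Finset.sum_congr rfl fun i _ => ?_
      rw [← sub_mul, hQ i, add_sub_cancel_left, ← mul_assoc, ← mul_assoc, mul_comm (x ^ b), hsx,
        one_mul]
    rw [hfin]
    exact Subalgebra.sum_mem _ fun i _ => mul_mem (aeval_mem_chart s _) (hu i)
  · intro f hf
    funext p
    obtain ⟨R, hR⟩ := Algebra.adjoin_mem_exists_aeval _ _ (hint _ hf p.1)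
    rw [LinearMap.pi_apply, hL, show s ^ b * u' p.1 * f = s ^ b * (f * u' p.1) by ring,
      trF_mul_of_mem x (hsmem b), ← hR, ← mul_assoc, hszpow, ← zpow_add₀ hx0,
      rho_zpow_mul_aeval_inv hx0 ρ hρ, if_neg]
    · rfl
    · have := p.2.2
      omega

end Fermat.Agent.ES.TC
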