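import Fermat.Agent.ES.TorsDefs
import Fermat.Agent.ES.DMult
import Fermat.Agent.ES.TOrd
import Fermat.Agent.ES.TRoot
import Fermat.Agent.S16.LevelOneSeries
import Fermat.Agent.S23.Main

/-!
# ES, block TORS, package D-CERT : conjugation of cusp forms with character
-/

set_option autoImplicit false

namespace Fermat.Agent.ES

open UpperHalfPlane ModularForm CongruenceSubgroup Derivative Filter Topology
open Fermat.Agent.S24 Fermat.Agent.S16
open scoped MatrixGroups Manifold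

namespace TCert

/-- Cauchy estimate, quantitative form. -/
lemma norm_normalizedDeriv_le {h : ℍ → ℂ} (hh : MDiff h) {M A : ℝ}
    (hMA : ∀ z : ℍ, A ≤ z.im → ‖h z‖ ≤ M) (z : ℍ) (hz : max A 1 + 1 ≤ z.im) :
    ‖normalizedDerivOfComplex h z‖ ≤ ‖(2 * Real.pi * Complex.I : ℂ)⁻¹‖ * M := by
  have hsub : ∀ w ∈ Metric.closedBall (z : ℂ) 1, max A 1 ≤ w.im := by
    intro w hw
    have h1 : |(w - z).im| ≤ ‖w - z‖ := Complex.abs_im_le_norm _
    have h2 : ‖w - z‖ ≤ 1 := by simpa [dist_eq_norm] using hw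
    have h3 := abs_le.mp (h1.trans h2)
    have h4 : (w - z).im = w.im - z.im := by simp
    have h5 : max A 1 + 1 ≤ z.im := hz
    linarith [h3.1]
  have hpos : ∀ w ∈ Metric.closedBall (z : ℂ) 1, w ∈ upperHalfPlaneSet := by
    intro w hw
    have := hsub w hw
    have h1 : (1 : ℝ) ≤ max A 1 := le_max_right _ _
    show 0 < w.im
    linarith
  have hd : DiffContOnCl ℂ (h ∘ ofComplex) (Metric.ball (z : ℂ) 1) := by
    apply DifferentiableOn.diffContOnCl
    refine (UpperHalfPlane.mdifferentiable_iff.mp hh).mono ?_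
    intro w hw
    exact hpos w (Metric.closure_ball_subset_closedBall hw)
  have hC : ∀ w ∈ Metric.sphere (z : ℂ) 1, ‖(h ∘ ofComplex) w‖ ≤ M := by
    intro w hw
    have hw' := Metric.sphere_subset_closedBall hw
    have := hMA (ofComplex w) (by
      rw [ofComplex_apply_of_im_pos (hpos w hw')]
      exact (le_max_left _ _).trans (hsub w hw'))
    simpa using this
  have := Complex.norm_deriv_le_of_forall_mem_sphere_norm_le one_pos hd hC
  unfold normalizedDerivOfComplex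
  rw [norm_mul]
  gcongr
  simpa using this

lemma isZeroAtImInfty_normalizedDeriv {h : ℍ → ℂ} (hh : MDiff h) (hz : IsZeroAtImInfty h) :
    IsZeroAtImInfty (normalizedDerivOfComplex h) := by
  rw [UpperHalfPlane.isZeroAtImInfty_iff] at hz ⊢
  intro ε hε
  set c : ℝ := ‖(2 * Real.pi * Complex.I : ℂ)⁻¹‖ with hc
  have hc0 : 0 < c := by
    rw [hc, norm_pos_iff]
    apply inv_ne_zero
    simp [Real.pi_ne_zero]
  obtain ⟨A, hA⟩ := hz (ε / c) (by positivity)
  refine ⟨max A 1 + 1, fun z hz' => ?_⟩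
  have := norm_normalizedDeriv_le hh hA z hz'
  rwa [mul_div_cancel₀ _ hc0.ne'] at this

lemma isZeroAtImInfty_serre {h : ℍ → ℂ} (hh : MDiff h) (hz : IsZeroAtImInfty h) (K : ℂ) :
    IsZeroAtImInfty (serreDerivative K h) := by
  have h1 := isZeroAtImInfty_normalizedDeriv hh hz
  have h2' : IsZeroAtImInfty (h * EisensteinSeries.E2) :=
    hz.zero_mul_isBoundedUnder_le EisensteinSeries.isBoundedAtImInfty_E2.isBoundedUnder_le
  have h2 : IsZeroAtImInfty ((K * 12⁻¹) • (h * EisensteinSeries.E2)) := h2'.smul (K * 12⁻¹)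
  have h3 : serreDerivative K h = normalizedDerivOfComplex h -
      (K * 12⁻¹) • (h * EisensteinSeries.E2) := by
    ext z
    simp [serreDerivative]
    ring
  rw [h3]
  rw [sub_eq_add_neg]
  exact h1.add h2.neg

/-- The Serre derivative preserves cusp forms with character. -/
theorem IsCFc.serre {N : ℕ} {k : ℤ} {χ : Gamma0 N →* ℂˣ} {f : ℍ → ℂ} (hf : IsCFc N k χ f) :
    IsCFc N (k + 2) χ (serreDerivative k f) where
  holo := serreDerivative_mdifferentiable _ hf.holo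
  inv γ := by
    rw [serreDerivative_slash_equivariant hf.holo, hf.inv γ, serreDerivative_smul _ _ _ hf.holo]
  zero g := by
    rw [serreDerivative_slash_equivariant hf.holo]
    exact isZeroAtImInfty_serre (DMult.mdiff_slash hf.holo k g) (hf.zero g) _

/-- The `p`-th power of a cusp form with character of order dividing `p`. -/
theorem IsCFc.pow_isCF {N : ℕ} {k : ℤ} {χ : Gamma0 N →* ℂˣ} {f : ℍ → ℂ} (hf : IsCFc N k χ f)
    {p : ℕ} (hp : p ≠ 0) (hχ : ∀ γ, χ γ ^ p = 1) : S21.IsCF (Gamma0 N) ((p : ℤ) * k) (f ^ p) where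
  holo := hf.holo.pow p
  inv γ hγ := by
    rw [EisTw.pow_slash, hf.inv ⟨γ, hγ⟩, smul_pow]
    have := congrArg (fun u : ℂˣ => (u : ℂ)) (hχ ⟨γ, hγ⟩)
    simp only [Units.val_pow_eq_pow_val, Units.val_one] at this
    rw [this, one_smul]
  zero g := by
    rw [EisTw.pow_slash]
    have h := hf.zero g
    rw [IsZeroAtImInfty, ZeroAtFilter] at h ⊢
    have := h.pow p
    rwa [zero_pow hp] at this

/-- Serre derivative of a power. -/
lemma serre_pow (K : ℂ) {F : ℍ → ℂ} (hF : MDiff F) {p : ℕ} (hp : p ≠ 0) :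
    serreDerivative ((p : ℂ) * K) (F ^ p) = (p : ℂ) • (F ^ (p - 1) * serreDerivative K F) := by
  obtain ⟨m, hm⟩ := Nat.exists_eq_add_one_of_ne_zero hp
  subst hm
  ext z
  rw [serreDerivative_apply, congrFun (normalizedDerivOfComplex_pow F (m + 1) hF) z]
  simp only [serreDerivative_apply, Pi.mul_apply, Pi.pow_apply, Pi.smul_apply, smul_eq_mul,
    Nat.add_sub_cancel, pow_succ, Pi.natCast_apply]
  ring

lemma serre_pow_pow (K : ℂ) {F : ℍ → ℂ} (hF : MDiff F) {p : ℕ} (hp : p ≠ 0) :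
    (serreDerivative ((p : ℂ) * K) (F ^ p)) ^ p =
      ((p : ℂ) ^ p) • ((F ^ p) ^ (p - 1) * (serreDerivative K F) ^ p) := by
  rw [serre_pow K hF hp, smul_pow, mul_pow, ← pow_mul, ← pow_mul, mul_comm (p - 1) p]

/-- The chain of iterated Serre derivatives. -/
noncomputable def chain (k : ℤ) (f : ℍ → ℂ) : ℕ → ℍ → ℂ
  | 0 => f
  | n + 1 => serreDerivative ((k + 2 * n : ℤ) : ℂ) (chain k f n)

lemma isCFc_chain {N : ℕ} {k : ℤ} {χ : Gamma0 N →* ℂˣ} {f : ℍ → ℂ} (hf : IsCFc N k χ f) (n : ℕ) :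
    IsCFc N (k + 2 * n) χ (chain k f n) := by
  induction n with
  | zero => simpa [chain] using hf
  | succ n ih =>
    have := IsCFc.serre ih
    have e : k + 2 * (n : ℤ) + 2 = k + 2 * ((n + 1 : ℕ) : ℤ) := by push_cast; ring
    rw [e] at this
    exact this

/-- Conjugation of cusp forms on `Γ₀(N)`. -/
theorem exists_conj_cusp (N : ℕ) [NeZero N] (k : ℤ) (σ : ℂ →+* ℂ) {G : ℍ → ℂ}
    (hG : S21.IsCF (Gamma0 N) k G) :
    ∃ G' : ℍ → ℂ, S21.IsCF (Gamma0 N) k G' ∧ qExpansion 1 G' = (qExpansion 1 G).map σ := by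
  obtain ⟨u, hui, hu⟩ := S23.exists_primitive N
  have h1 := CongruenceSubgroup.one_mem_strictPeriods_Gamma0 N
  have hΓ : (CongruenceSubgroup.Gamma0 N : Subgroup (GL (Fin 2) ℝ)) ≤ 𝒮ℒ := by
    rintro _ ⟨γ, _, rfl⟩
    exact ⟨γ, rfl⟩
  have hu' : ∀ γ ∈ 𝒮ℒ, (⇑u ∣[(4 : ℤ)] γ = ⇑u) →
      γ ∈ (CongruenceSubgroup.Gamma0 N : Subgroup (GL (Fin 2) ℝ)) := by
    rintro _ ⟨γ, rfl⟩ h
    exact ⟨γ, hu γ h, rfl⟩
  obtain ⟨g, hg⟩ := S23.exists_conj h1 hΓ u hu' hui σ hG.toCuspForm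
  exact ⟨g, S21.isCF_coe g, hg⟩

lemma isCF_mem_niceAlg {N : ℕ} [NeZero N] {k : ℤ} {G : ℍ → ℂ} (hG : S21.IsCF (Gamma0 N) k G) :
    G ∈ S23.niceAlg :=
  S23.mem_niceAlg (CongruenceSubgroup.one_mem_strictPeriods_Gamma0 N) hG.toCuspForm

/-- the `q`-expansion of the Serre derivative -/
lemma serre_mem_niceAlg (K : ℂ) {g : ℍ → ℂ} (hg : g ∈ S23.niceAlg) :
    serreDerivative K g ∈ S23.niceAlg ∧
      qExpansion 1 (serreDerivative K g) = LevelOne.theta ℂ (qExpansion 1 g) -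
        PowerSeries.C (K * 12⁻¹) * (cst ℂ E2q * qExpansion 1 g) := by
  obtain ⟨h1, h2⟩ := LevelOne.D_mem_niceAlg hg
  have e : serreDerivative K g = normalizedDerivOfComplex g -
      (algebraMap ℂ (ℍ → ℂ) (K * 12⁻¹)) * (EisensteinSeries.E2 * g) := by
    ext z
    simp [serreDerivative]
    ring
  generalize K * 12⁻¹ = c at e ⊢
  have hm : (algebraMap ℂ (ℍ → ℂ) c) * (EisensteinSeries.E2 * g) ∈ S23.niceAlg :=
    mul_mem (S23.niceAlg.algebraMap_mem _) (mul_mem LevelOne.E2_mem hg)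
  refine ⟨e ▸ sub_mem h1 hm, ?_⟩
  have h3 : S23.qHom ((⟨_, h1⟩ : S23.niceAlg) - algebraMap ℂ S23.niceAlg c *
      (⟨_, LevelOne.E2_mem⟩ * ⟨g, hg⟩)) = LevelOne.theta ℂ (qExpansion 1 g) -
        PowerSeries.C c * (cst ℂ E2q * qExpansion 1 g) := by
    rw [map_sub, map_mul, map_mul, AlgHom.commutes, S23.qHom_apply, S23.qHom_apply,
      S23.qHom_apply, h2, LevelOne.qExpansion_E2]
    rfl
  rw [← h3, S23.qHom_apply, e]
  rfl

lemma cst_map (σ : ℂ →+* ℂ) (x : PowerSeries ℤ) : (cst ℂ x).map σ = cst ℂ x := by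
  ext n
  simp [cst]

/-- transport of the certificate relation to the conjugates -/
lemma rel_conj (σ : ℂ →+* ℂ) {K c : ℂ} (hK : σ (K * 12⁻¹) = K * 12⁻¹) (hc : σ c = c)
    {A B A' B' : ℍ → ℂ} (hA : A ∈ S23.niceAlg) (hB : B ∈ S23.niceAlg) (hA' : A' ∈ S23.niceAlg)
    (hB' : B' ∈ S23.niceAlg) (qA : qExpansion 1 A' = (qExpansion 1 A).map σ)
    (qB : qExpansion 1 B' = (qExpansion 1 B).map σ) (m p : ℕ)
    (h : (serreDerivative K A) ^ p = c • (A ^ m * B)) :
    (serreDerivative K A') ^ p = c • (A' ^ m * B') := by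
  obtain ⟨hS, qS⟩ := serre_mem_niceAlg K hA
  obtain ⟨hS', qS'⟩ := serre_mem_niceAlg K hA'
  generalize K * 12⁻¹ = κ at hK qS qS'
  have h1 : ((⟨_, hS⟩ : S23.niceAlg)) ^ p = c • ((⟨A, hA⟩ : S23.niceAlg) ^ m * ⟨B, hB⟩) :=
    Subtype.ext h
  have h1Q : qExpansion 1 (serreDerivative K A) ^ p =
      PowerSeries.C c * (qExpansion 1 A ^ m * qExpansion 1 B) := by
    have := congrArg S23.qHom h1
    rw [map_pow, map_smul, map_mul, map_pow, PowerSeries.smul_eq_C_mul] at this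
    exact this
  have h2 := congrArg (PowerSeries.map σ) h1Q
  rw [map_pow, map_mul, map_mul, map_pow, PowerSeries.map_C, hc] at h2
  have qSS : qExpansion 1 (serreDerivative K A') = (qExpansion 1 (serreDerivative K A)).map σ := by
    rw [qS, qS', qA, map_sub, map_mul, map_mul, cst_map, LevelOne.theta_map, PowerSeries.map_C, hK]
  have h3 : S23.qHom (((⟨_, hS'⟩ : S23.niceAlg)) ^ p) =
      S23.qHom (c • ((⟨A', hA'⟩ : S23.niceAlg) ^ m * ⟨B', hB'⟩)) := by
    rw [map_pow, map_smul, map_mul, map_pow, PowerSeries.smul_eq_C_mul]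
    show qExpansion 1 (serreDerivative K A') ^ p =
      PowerSeries.C c * (qExpansion 1 A' ^ m * qExpansion 1 B')
    rw [qSS, qA, qB, h2]
  exact congrArg Subtype.val (S23.qHom_injective h3)

end TCert

open TCert in
/-- **D-CERT**: conjugation of forms with character. -/
theorem exists_conj_char (N : ℕ) [NeZero N] (p : ℕ) [NeZero p] (k : ℤ) (χ : Gamma0 N →* ℂˣ)
    (hχ : ∀ γ, χ γ ^ p = 1) (f : ℍ → ℂ) (hf : IsCFc N k χ f) (hn : f ∈ S23.niceAlg) (h0 : f ≠ 0)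
    (σ : ℂ →+* ℂ) :
    ∃ (χ' : Gamma0 N →* ℂˣ) (f' : ℍ → ℂ), (∀ γ, χ' γ ^ p = 1) ∧ IsCFc N k χ' f' ∧
      f' ∈ S23.niceAlg ∧ qExpansion 1 f' = (qExpansion 1 f).map σ := by
  have hp : p ≠ 0 := NeZero.ne p
  have hfs : ∀ n : ℕ, IsCFc N (k + 2 * n) χ (chain k f n) := isCFc_chain hf
  set G : ℕ → ℍ → ℂ := fun n => chain k f n ^ p with hGdef
  have hG : ∀ n : ℕ, S21.IsCF (Gamma0 N) ((p : ℤ) * (k + 2 * n)) (G n) :=
    fun n => TCert.IsCFc.pow_isCF (hfs n) hp hχ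
  set K : ℕ → ℂ := fun n => (p : ℂ) * ((k + 2 * n : ℤ) : ℂ) with hKdef
  have hrel : ∀ n, (serreDerivative (K n) (G n)) ^ p =
      ((p : ℂ) ^ p) • (G n ^ (p - 1) * G (n + 1)) :=
    fun n => serre_pow_pow _ (hfs n).holo hp
  choose G' hG' hq' using fun n : ℕ => exists_conj_cusp N _ σ (hG n)
  have hrel' : ∀ n, (serreDerivative (K n) (G' n)) ^ p =
      ((p : ℂ) ^ p) • (G' n ^ (p - 1) * G' (n + 1)) := by
    intro n
    refine rel_conj σ ?_ ?_ (isCF_mem_niceAlg (hG n)) (isCF_mem_niceAlg (hG (n + 1)))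
      (isCF_mem_niceAlg (hG' n)) (isCF_mem_niceAlg (hG' (n + 1))) (hq' n) (hq' (n + 1)) _ _
      (hrel n)
    · simp [hKdef, map_ofNat]
    · simp
  have hGf : G 0 = f ^ p := rfl
  have hqG0 : qExpansion 1 (G 0) = qExpansion 1 f ^ p := by
    rw [hGf]
    exact map_pow S23.qHom (⟨f, hn⟩ : S23.niceAlg) p
  have hqf0 : qExpansion 1 f ≠ 0 := by
    intro h
    apply h0
    have : S23.qHom (⟨f, hn⟩ : S23.niceAlg) = S23.qHom 0 := by
      rw [map_zero]
      exact h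
    exact congrArg Subtype.val (S23.qHom_injective this)
  have hG'0 : G' 0 ≠ 0 := by
    intro h
    have h1 := hq' 0
    rw [h, qExpansion_zero, hqG0] at h1
    have h2 : (qExpansion 1 f ^ p).map σ = (0 : PowerSeries ℂ).map σ := by
      rw [← h1, map_zero]
    exact pow_ne_zero p hqf0 (PowerSeries.map_injective σ σ.injective h2)
  have hord := dvd_order_of_cert p (Nat.pos_of_ne_zero hp) K G' (fun n => (hG' n).holo) hrel' hG'0
  obtain ⟨f', hf'n, hf'p, hf'q⟩ := exists_root_nice p (Nat.pos_of_ne_zero hp) (G' 0)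
    (isCF_mem_niceAlg (hG' 0)) hG'0 hord ((qExpansion 1 f).map σ) (by
      rw [hq' 0, hqG0, map_pow])
  have hf'0 : f' ≠ 0 := by
    intro h
    apply hG'0
    rw [← hf'p, h, zero_pow hp]
  have hcf : S21.IsCF (Gamma0 N) ((p : ℤ) * k) (f' ^ p) := by
    rw [hf'p]
    have := hG' 0
    simpa using this
  obtain ⟨χ', hχ', hinv⟩ := DMult.exists_character (N := N) (k := k) hp hf'n.2.1 hf'0 hcf.inv
  exact ⟨χ', f', hχ', ⟨hf'n.2.1, hinv, DMult.isZeroAtImInfty_slash_of_pow hp hcf⟩, hf'n, hf'q⟩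

end Fermat.Agent.ES
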