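import Fermat.Agent.ES.C.Degree
import Fermat.Agent.S24.Loc2
import Fermat.Agent.S16.LHecke

/-!
# ES / TORS : shared definitions

`FF N = ℚ̄(X₀(N)) ⊆ ℚ̄((q))` (S24), `C.FF N = ℂ(X₀(N)) ⊆ ℂ((q))`, `Psi`, `C.Psi` their embeddings into
`Mer` (meromorphic functions on `ℍ`), multipliers of `p`-th roots, multiplicative Hecke operators.
-/

set_option autoImplicit false

namespace Fermat.Agent.ES

open UpperHalfPlane CongruenceSubgroup ModularCurve AlgebraicCurve Fermat.Agent.S24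
open Matrix.SpecialLinearGroup
open scoped MatrixGroups
open P2MW.S_ModularForm_heckeT_slash_eq_self_of_mem_Gamma0.ModularForm.HeckeSlashInvariance

/-- constants in `Mer`. -/
noncomputable def cMer : ℂ →+* Mer := (algebraMap Hol Mer).comp (algebraMap ℂ Hol)

lemma cMer_apply (c : ℂ) : cMer c = toMer (algebraMap ℂ Hol c) := rfl

/-- `h ∈ Mer` transforms under `Γ₀(N)` by the character `c`: `h ∘ γ⁻¹ = c(γ) h`. -/
def IsMult (N : ℕ) (h : Mer) (c : Gamma0 N →* ℂˣ) : Prop :=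
  ∀ γ : Gamma0 N, act (γ : SL(2, ℤ)) h = cMer (c γ : ℂ) * h

/-- the order of a meromorphic function at a point of `ℍ`. -/
noncomputable def ordAt (τ : ℍ) (x : Mer) : ℤ := (Loc.germAt τ x).ord

/-- `u ≠ 0` and the divisor of `u` is divisible by `p`. -/
def IsPDiv (p N : ℕ) (u : FF N) : Prop := u ≠ 0 ∧ ∀ v : Place Kb (FF N), (p : ℤ) ∣ v.ord u

/-- `u` has a `p`-th root in `Mer` with multiplier `c`. -/
def HasMult (p N : ℕ) (u : FF N) (c : Gamma0 N →* ℂˣ) : Prop :=
  ∃ h : Mer, h ^ p = Psi N u ∧ IsMult N h c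

/-- the same over `ℂ`. -/
def HasMultC (p N : ℕ) (y : C.FF N) (c : Gamma0 N →* ℂˣ) : Prop :=
  ∃ h : Mer, h ^ p = C.Psi N y ∧ IsMult N h c

/-- `c` kills the parabolic elements. -/
def IsParChar {N : ℕ} (c : Gamma0 N →* ℂˣ) : Prop :=
  ∀ γ : Gamma0 N, ((γ : SL(2, ℤ)) : Matrix (Fin 2) (Fin 2) ℤ).trace ^ 2 = 4 → c γ = 1

lemma det_heckeRep_pos (ℓ : ℕ) [NeZero ℓ] (x : OnePoint (ZMod ℓ)) : 0 < (heckeRep ℓ x).det.val := by
  induction x using OnePoint.rec with
  | infty => exact ModularForm.det_heckeDiagMatrix_pos ℓ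
  | coe j => exact ModularForm.det_heckeMatrix_pos ℓ j.val

/-- the multiplicative Hecke operator `h ↦ h(ℓτ) ∏_b h((τ+b)/ℓ)` on `Mer`. -/
noncomputable def heckeMer (ℓ : ℕ) [NeZero ℓ] : Mer →* Mer where
  toFun h := ∏ x : OnePoint (ZMod ℓ), merMap (heckeRep ℓ x) (det_heckeRep_pos ℓ x) h
  map_one' := by simp
  map_mul' a b := by simp [Finset.prod_mul_distrib]

lemma heckeMer_apply (ℓ : ℕ) [NeZero ℓ] (h : Mer) :
    heckeMer ℓ h = ∏ x : OnePoint (ZMod ℓ), merMap (heckeRep ℓ x) (det_heckeRep_pos ℓ x) h := rfl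

/-- `T : FF N → FF N` is the multiplicative Hecke operator `T_ℓ`. -/
def IsHeckeOp (N ℓ : ℕ) [NeZero ℓ] (T : FF N → FF N) : Prop :=
  ∀ u : FF N, Psi N (T u) = heckeMer ℓ (Psi N u)

/-- the character `γ ↦ exp(2πi Re(∫_z^{γz} f) / p)` of `Γ₀(N)`. -/
noncomputable def chiOf (p N : ℕ) [NeZero N] (f : CuspForm (Gamma0 N) 2) : Gamma0 N →* ℂˣ where
  toFun γ := Units.mk0 (Complex.exp (2 * Real.pi * Complex.I *
    ((S16.Per N f (Additive.ofMul γ)).re : ℂ) / p)) (Complex.exp_ne_zero _)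
  map_one' := by
    apply Units.ext
    simp
  map_mul' a b := by
    apply Units.ext
    simp only [ofMul_mul, map_add, Complex.add_re, Units.val_mk0, Units.val_mul, ← Complex.exp_add]
    congr 1
    push_cast
    ring

lemma coe_chiOf (p N : ℕ) [NeZero N] (f : CuspForm (Gamma0 N) 2) (γ : Gamma0 N) :
    (chiOf p N f γ : ℂ) = Complex.exp (2 * Real.pi * Complex.I *
      ((S16.Per N f (Additive.ofMul γ)).re : ℂ) / p) := rfl

lemma C_eq_algebraMap (c : ℂ) :
    (HahnSeries.C c : LaurentSeries ℂ) = algebraMap ℂ (LaurentSeries ℂ) c := by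
  rw [algebraMap_laurentSeries_eq_single]
  rfl

/-- the coefficientwise inclusion `ℚ̄(X₀(N)) → ℂ(X₀(N))`. -/
noncomputable def inclC (N : ℕ) : FF N →+* C.FF N :=
  (iotaL N).codRestrict (C.mffC N).toSubfield (by
    intro x
    refine FF_map_mem N (iotaL N) (C.mffC N).toSubfield ?_ ?_ x
    · intro a
      rw [iotaL_const, C_eq_algebraMap]
      exact (C.mffC N).algebraMap_mem (iotaC a)
    · intro d _ hd
      rw [iotaL_jd, ← C.jdL_eq]
      exact C.jdL_mem hd)

lemma coe_inclC (N : ℕ) (x : FF N) :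
    ((inclC N x : C.FF N) : LaurentSeries ℂ) = coeffMap iotaC (x : LaurentSeries Kb) := rfl

lemma inclC_const (N : ℕ) (a : Kb) :
    inclC N (algebraMap Kb (FF N) a) = algebraMap ℂ (C.FF N) (iotaC a) := by
  apply Subtype.ext
  exact (iotaL_const N a).trans (C_eq_algebraMap _)

lemma inclC_jd (N d : ℕ) [NeZero d] (hd : d ∣ N) : inclC N (jd N d hd) = C.jd N d hd := by
  apply Subtype.ext
  change iotaL N (jd N d hd) = C.jdL d
  rw [iotaL_jd, C.jdL_eq]

theorem PsiC_inclC (N : ℕ) (x : FF N) : C.Psi N (inclC N x) = Psi N x := by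
  have : (C.Psi N).comp (inclC N) = Psi N := by
    apply FF_ringHom_ext
    · intro a
      rw [RingHom.comp_apply, inclC_const, C.Psi_const, Psi_const]
      rfl
    · intro d _ hd
      rw [RingHom.comp_apply, inclC_jd, C.Psi_jd, Psi_jd]
  exact congrArg (fun φ : FF N →+* Mer => φ x) this

end Fermat.Agent.ES
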