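import Fermat.Agent.ES.TorsDefs
import Fermat.Agent.ES.EisTw

/-!
# ES, block TORS, package D-MULT : forms with a character of `Γ₀(N)`

* basic API of `IsCFc` (`zero`, `add`, `smul`, `neg`, `sub`, `mul`, `mul_isMF`, `pow`, `pow_isCF`,
  `serre`, `mem_niceAlg`, `iff_one`),
* `IsCFc.char_unique` : a nonzero function has at most one character,
* `exists_char_of_pow` : a holomorphic `p`-th root of a cusp form on `Γ₀(N)` has a character.
-/

set_option autoImplicit false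

namespace Fermat.Agent.ES

open UpperHalfPlane ModularForm CongruenceSubgroup Fermat.Agent.S24 Fermat.Agent.S16 Derivative
open scoped MatrixGroups Manifold

namespace TMult

/-- Cauchy estimate, quantitative form. -/
lemma norm_normalizedDeriv_le {h : ℍ → ℂ} (hh : MDiff h) {M A : ℝ}
    (hMA : ∀ z : ℍ, A ≤ im z → ‖h z‖ ≤ M) (z : ℍ) (hz : max A 1 + 1 ≤ im z) :
    ‖normalizedDerivOfComplex h z‖ ≤ ‖(2 * Real.pi * Complex.I : ℂ)⁻¹‖ * M := by
  have hsub : ∀ w ∈ Metric.closedBall (z : ℂ) 1, max A 1 ≤ w.im := by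
    intro w hw
    have h1 : |(w - z).im| ≤ ‖w - z‖ := Complex.abs_im_le_norm _
    have h2 : ‖w - z‖ ≤ 1 := by simpa [dist_eq_norm] using hw
    have h3 := abs_le.mp (h1.trans h2)
    have h4 : (w - z).im = w.im - z.im := by simp
    have h5 : max A 1 + 1 ≤ z.im := hz
    linarith [h3.1]
  have hpos : ∀ w ∈ Metric.closedBall (z : ℂ) 1, w ∈ upperHalfPlaneSet := by
    intro w hw
    have := hsub w hw
    have h1 : (1 : ℝ) ≤ max A 1 := le_max_right _ _
    show 0 < w.im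
    linarith
  have hd : DiffContOnCl ℂ (h ∘ ofComplex) (Metric.ball (z : ℂ) 1) := by
    apply DifferentiableOn.diffContOnCl
    refine (UpperHalfPlane.mdifferentiable_iff.mp hh).mono ?_
    intro w hw
    exact hpos w (Metric.closure_ball_subset_closedBall hw)
  have hC : ∀ w ∈ Metric.sphere (z : ℂ) 1, ‖(h ∘ ofComplex) w‖ ≤ M := by
    intro w hw
    have hw' := Metric.sphere_subset_closedBall hw
    have := hMA (ofComplex w) (by
      rw [ofComplex_apply_of_im_pos (hpos w hw')]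
      exact (le_max_left _ _).trans (hsub w hw'))
    simpa using this
  have := Complex.norm_deriv_le_of_forall_mem_sphere_norm_le one_pos hd hC
  unfold normalizedDerivOfComplex
  rw [norm_mul]
  gcongr
  simpa using this

/-- The derivative of a holomorphic function vanishing at `i∞` vanishes at `i∞`. -/
lemma isZeroAtImInfty_normalizedDeriv {h : ℍ → ℂ} (hh : MDiff h)
    (hb : IsZeroAtImInfty h) : IsZeroAtImInfty (normalizedDerivOfComplex h) := by
  rw [UpperHalfPlane.isZeroAtImInfty_iff] at hb ⊢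
  intro ε hε
  have hc : 0 < ‖(2 * Real.pi * Complex.I : ℂ)⁻¹‖ := by
    rw [norm_pos_iff]
    exact inv_ne_zero Complex.two_pi_I_ne_zero
  obtain ⟨A, hA⟩ := hb (ε / ‖(2 * Real.pi * Complex.I : ℂ)⁻¹‖) (div_pos hε hc)
  refine ⟨max A 1 + 1, fun z hz => ?_⟩
  have := norm_normalizedDeriv_le hh hA z hz
  rwa [mul_div_cancel₀ _ hc.ne'] at this

/-- The Serre derivative of a holomorphic function vanishing at `i∞` vanishes at `i∞`. -/
lemma isZeroAtImInfty_serreDerivative {h : ℍ → ℂ} (c : ℂ) (hh : MDiff h)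
    (hb : IsZeroAtImInfty h) : IsZeroAtImInfty (serreDerivative c h) := by
  have h1 := isZeroAtImInfty_normalizedDeriv hh hb
  have h2' : IsZeroAtImInfty (h * EisensteinSeries.E2) :=
    hb.zero_mul_isBoundedUnder_le EisensteinSeries.isBoundedAtImInfty_E2.isBoundedUnder_le
  have h2 : IsZeroAtImInfty ((c * 12⁻¹) • (h * EisensteinSeries.E2)) :=
    Filter.ZeroAtFilter.smul _ h2'
  have h3 : serreDerivative c h = normalizedDerivOfComplex h -
      (c * 12⁻¹) • (h * EisensteinSeries.E2) := by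
    ext z
    simp [serreDerivative]
    ring
  rw [h3, sub_eq_add_neg]
  exact Filter.ZeroAtFilter.add h1 (Filter.ZeroAtFilter.neg h2)

lemma isZeroAtImInfty_of_pow {h : ℍ → ℂ} {n : ℕ} (hn : n ≠ 0) (hb : IsZeroAtImInfty (h ^ n)) :
    IsZeroAtImInfty h := by
  rw [UpperHalfPlane.isZeroAtImInfty_iff] at hb ⊢
  intro ε hε
  obtain ⟨A, hA⟩ := hb (ε ^ n) (pow_pos hε n)
  refine ⟨A, fun z hz => ?_⟩
  have := hA z hz
  rw [Pi.pow_apply, norm_pow] at this
  exact le_of_pow_le_pow_left₀ hn hε.le this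

lemma isZeroAtImInfty_pow {h : ℍ → ℂ} {n : ℕ} (hn : n ≠ 0) (hb : IsZeroAtImInfty h) :
    IsZeroAtImInfty (h ^ n) := by
  have := Filter.Tendsto.pow hb n
  rw [zero_pow hn] at this
  exact this

lemma smul_eq_smul_iff {f : ℍ → ℂ} (h0 : f ≠ 0) {a b : ℂ} : a • f = b • f ↔ a = b := by
  refine ⟨fun h => ?_, fun h => by rw [h]⟩
  obtain ⟨z, hz⟩ : ∃ z, f z ≠ 0 := by
    by_contra hh
    push Not at hh
    exact h0 (funext hh)
  have := congrFun h z
  simpa [hz] using this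

lemma mdiff_slash {f : ℍ → ℂ} (hf : MDiff f) (k : ℤ) (g : SL(2, ℤ)) : MDiff (f ∣[k] g) := by
  rw [SL_slash]
  exact hf.slash _ _

/-- In the domain of holomorphic functions, `a ^ p = b ^ p` forces `a = ζ b` with `ζ ^ p = 1`. -/
lemma exists_root_of_pow_eq {a b : ℍ → ℂ} (ha : MDiff a) (hb : MDiff b) {p : ℕ} (hp : 0 < p)
    (hab : a ^ p = b ^ p) : ∃ ζ : ℂ, ζ ^ p = 1 ∧ a = ζ • b := by
  have hp0 : p ≠ 0 := hp.ne'
  have : NeZero p := ⟨hp0⟩
  let A : Hol := ⟨a, ha⟩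
  let B : Hol := ⟨b, hb⟩
  obtain ⟨ζ, hζ0⟩ : ∃ ζ : ℂ, IsPrimitiveRoot ζ p := ⟨_, Complex.isPrimitiveRoot_exp p hp0⟩
  have hζ1 : IsPrimitiveRoot (algebraMap ℂ Hol ζ) p :=
    hζ0.map_of_injective (FaithfulSMul.algebraMap_injective ℂ Hol)
  have hAB : A ^ p - B ^ p = 0 := by
    rw [sub_eq_zero]
    exact Subtype.ext hab
  rw [hζ1.pow_sub_pow_eq_prod_sub_mul A B hp, Finset.prod_eq_zero_iff] at hAB
  obtain ⟨ξ, hξ, hξ0⟩ := hAB
  have hξ1 : ξ ^ p = 1 := (Polynomial.mem_nthRootsFinset hp 1).mp hξ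
  obtain ⟨i, -, hi⟩ := hζ1.eq_pow_of_pow_eq_one hξ1
  refine ⟨ζ ^ i, ?_, ?_⟩
  · rw [← pow_mul, mul_comm, pow_mul, hζ0.pow_eq_one, one_pow]
  · rw [sub_eq_zero, ← hi, ← map_pow] at hξ0
    have := congrArg Subtype.val hξ0
    rw [← Algebra.smul_def] at this
    exact this

end TMult

open TMult

namespace IsCFc

variable {N : ℕ} {k l : ℤ} {χ χ' : Gamma0 N →* ℂˣ} {f g : ℍ → ℂ}

theorem zero_fun : IsCFc N k χ 0 :=
  ⟨mdifferentiable_const, fun _ => by rw [SlashAction.zero_slash, smul_zero], fun g => by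
    rw [SlashAction.zero_slash]; exact Filter.zero_zeroAtFilter _⟩

theorem add (hf : IsCFc N k χ f) (hg : IsCFc N k χ g) : IsCFc N k χ (f + g) :=
  ⟨hf.holo.add hg.holo, fun γ => by rw [SlashAction.add_slash, hf.inv γ, hg.inv γ, smul_add],
    fun a => by rw [SlashAction.add_slash]; exact (hf.zero a).add (hg.zero a)⟩

theorem smul (c : ℂ) (hf : IsCFc N k χ f) : IsCFc N k χ (c • f) :=
  ⟨hf.holo.const_smul c, fun γ => by rw [SL_smul_slash, hf.inv γ, smul_comm],
    fun a => by rw [SL_smul_slash]; exact (hf.zero a).smul c⟩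

theorem neg (hf : IsCFc N k χ f) : IsCFc N k χ (-f) := by
  simpa using hf.smul (-1)

theorem sub (hf : IsCFc N k χ f) (hg : IsCFc N k χ g) : IsCFc N k χ (f - g) := by
  simpa [sub_eq_add_neg] using hf.add hg.neg

theorem congr_wt (hk : k = l) (h : IsCFc N k χ f) : IsCFc N l χ f := hk ▸ h

theorem mul (hf : IsCFc N k χ f) (hg : IsCFc N l χ' g) : IsCFc N (k + l) (χ * χ') (f * g) :=
  ⟨hf.holo.mul hg.holo, fun γ => by
      rw [mul_slash_SL2, hf.inv γ, hg.inv γ, smul_mul_smul_comm, MonoidHom.mul_apply,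
        Units.val_mul],
    fun a => by
      rw [mul_slash_SL2]
      exact (hf.zero a).zero_mul_isBoundedUnder_le (hg.zero a).boundedAtFilter.isBoundedUnder_le⟩

theorem mul_isMF (hf : IsCFc N k χ f) (hg : S21.IsMF (Gamma0 N) l g) :
    IsCFc N (k + l) χ (f * g) :=
  ⟨hf.holo.mul hg.holo, fun γ => by
      rw [mul_slash_SL2, hf.inv γ, hg.inv γ γ.2, smul_mul_assoc],
    fun a => by
      rw [mul_slash_SL2]
      exact (hf.zero a).zero_mul_isBoundedUnder_le (hg.bdd a).isBoundedUnder_le⟩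

theorem iff_one : IsCFc N k 1 f ↔ S21.IsCF (Gamma0 N) k f :=
  ⟨fun h => ⟨h.holo, fun γ hγ => by simpa using h.inv ⟨γ, hγ⟩, h.zero⟩,
    fun h => ⟨h.holo, fun γ => by simpa using h.inv γ γ.2, h.zero⟩⟩

theorem pow (hf : IsCFc N k χ f) {n : ℕ} (hn : n ≠ 0) : IsCFc N (n * k) (χ ^ n) (f ^ n) :=
  ⟨hf.holo.pow n, fun γ => by
      rw [EisTw.pow_slash, hf.inv γ, smul_pow, MonoidHom.pow_apply, Units.val_pow_eq_pow_val],
    fun a => by
      rw [EisTw.pow_slash]
      exact isZeroAtImInfty_pow hn (hf.zero a)⟩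

theorem pow_isCF (hf : IsCFc N k χ f) {p : ℕ} (hp : p ≠ 0) (hχ : ∀ γ, χ γ ^ p = 1) :
    S21.IsCF (Gamma0 N) (p * k) (f ^ p) := by
  rw [← iff_one]
  have h1 : χ ^ p = 1 := by
    ext γ
    rw [MonoidHom.pow_apply, hχ γ, MonoidHom.one_apply]
  exact h1 ▸ hf.pow hp

theorem serre (hf : IsCFc N k χ f) : IsCFc N (k + 2) χ (serreDerivative k f) :=
  ⟨serreDerivative_mdifferentiable _ hf.holo, fun γ => by
      rw [serreDerivative_slash_equivariant hf.holo, hf.inv γ,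
        serreDerivative_smul _ _ _ hf.holo],
    fun a => by
      rw [serreDerivative_slash_equivariant hf.holo]
      exact isZeroAtImInfty_serreDerivative _ (mdiff_slash hf.holo k a) (hf.zero a)⟩

/-- a nonzero function has at most one character -/
theorem char_unique (h : IsCFc N k χ f) (h' : IsCFc N k χ' f) (h0 : f ≠ 0) : χ = χ' := by
  ext γ
  exact (smul_eq_smul_iff h0).mp ((h.inv γ).symm.trans (h'.inv γ))

theorem isZeroAtImInfty (hf : IsCFc N k χ f) : IsZeroAtImInfty f := by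
  have := hf.zero 1
  rwa [SlashAction.slash_one] at this

theorem T_mem_Gamma0 (N : ℕ) : ModularGroup.T ∈ Gamma0 N := by
  rw [Gamma0_mem, ModularGroup.coe_T]
  simp

/-- If `χ T = 1` then `f` is `1`-periodic, so it lies in `S23.niceAlg`. -/
theorem mem_niceAlg (hf : IsCFc N k χ f) (hT : χ ⟨ModularGroup.T, T_mem_Gamma0 N⟩ = 1) :
    f ∈ S23.niceAlg := by
  refine ⟨?_, hf.holo, hf.isZeroAtImInfty.boundedAtFilter⟩
  have h1 : f ∣[k] ModularGroup.T = f := by
    have := hf.inv ⟨ModularGroup.T, T_mem_Gamma0 N⟩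
    rw [hT] at this
    simpa using this
  have h2 : ∀ z : ℍ, f ((1 : ℝ) +ᵥ z) = f z := by
    intro z
    have h3 := congrFun h1 z
    rw [SL_slash_apply, ModularGroup.denom_apply, ModularGroup.coe_T, modular_T_smul] at h3
    simpa using h3
  intro w
  by_cases! hw : 0 < Complex.im w
  · have hw1 : 0 < Complex.im (w + 1) := by simp [hw]
    simp only [Function.comp_apply, ofComplex_apply_of_im_pos hw1, ofComplex_apply_of_im_pos hw]
    rw [← h2 ⟨w, hw⟩]
    congr 1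
    ext
    simp [add_comm]
  · have hw1 : Complex.im (w + 1) ≤ 0 := by simpa using hw
    simp [ofComplex_apply_of_im_nonpos hw1, ofComplex_apply_of_im_nonpos hw]

theorem mem_niceAlg_of_par (hf : IsCFc N k χ f)
    (hpar : ∀ g : Gamma0 N, (g : SL(2, ℤ)) 1 0 = 0 → χ g = 1) : f ∈ S23.niceAlg :=
  hf.mem_niceAlg (hpar _ (by simp [ModularGroup.coe_T]))

theorem mem_niceAlg_of_isPEc (hf : IsCFc N k χ f) (hχ : IsPEc N χ) : f ∈ S23.niceAlg :=
  hf.mem_niceAlg (hχ.1 _ (by simp [ModularGroup.coe_T, Matrix.trace_fin_two]))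

end IsCFc

/-- **D-MULT** : a holomorphic `p`-th root of a nonzero cusp form on `Γ₀(N)` is a cusp form with a
character of order dividing `p`. -/
theorem exists_char_of_pow (N : ℕ) [NeZero N] (p : ℕ) [NeZero p] (k : ℤ) (f : ℍ → ℂ)
    (hf : MDiff f) (hG : S21.IsCF (Gamma0 N) (p * k) (f ^ p)) (h0 : f ≠ 0) :
    ∃ χ : Gamma0 N →* ℂˣ, (∀ γ, χ γ ^ p = 1) ∧ IsCFc N k χ f := by
  have hp : 0 < p := Nat.pos_of_ne_zero (NeZero.ne p)
  have key : ∀ γ : Gamma0 N, ∃ ζ : ℂˣ, ζ ^ p = 1 ∧ f ∣[k] (γ : SL(2, ℤ)) = (ζ : ℂ) • f := by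
    intro γ
    have h1 : (f ∣[k] (γ : SL(2, ℤ))) ^ p = f ^ p := by
      rw [← EisTw.pow_slash, hG.inv γ γ.2]
    obtain ⟨ζ, hζ, hζf⟩ := exists_root_of_pow_eq (mdiff_slash hf k γ) hf hp h1
    have hζ0 : ζ ≠ 0 := by
      rintro rfl
      rw [zero_pow hp.ne'] at hζ
      exact zero_ne_one hζ
    refine ⟨Units.mk0 ζ hζ0, ?_, hζf⟩
    ext
    simpa using hζ
  choose c hc1 hc2 using key
  let χ : Gamma0 N →* ℂˣ := MonoidHom.mk' c (fun a b => by
    ext
    apply (smul_eq_smul_iff h0).mp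
    rw [← hc2, Subgroup.coe_mul, SlashAction.slash_mul, hc2, SL_smul_slash, hc2, smul_smul,
      Units.val_mul])
  refine ⟨χ, hc1, hf, hc2, fun g => ?_⟩
  apply isZeroAtImInfty_of_pow hp.ne'
  rw [← EisTw.pow_slash]
  exact hG.zero g

end Fermat.Agent.ES
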