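import Fermat.Agent.ES.TMult
import Fermat.Agent.ES.EisTw
import Fermat.Prelude.Thm_ModularForm_sturm_bound_Gamma0

/-!
# ES, block TORS, package D-ORBIT (first half)

`exists_max_order` : among the cusp forms of weight `16` on `Γ₀(N)` with character `χ` (of exponent
`p`, trivial on the parabolic elements fixing `∞`) there is one of maximal vanishing order at `∞`,
normalised with leading coefficient `1`; a form of the same type vanishing to higher order is `0`.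
-/

set_option autoImplicit false

noncomputable section

namespace Fermat.Agent.ES.TOrbit

open UpperHalfPlane ModularForm CongruenceSubgroup Fermat.Agent.S24 Fermat.Agent.S16
  Fermat.Agent.ES
open scoped MatrixGroups Manifold

variable {N : ℕ} {χ : Gamma0 N →* ℂˣ}

/-- The seed form `E_{4,χ} Δ`. -/
theorem isCFc_seed {p : ℕ} (hp : p ≠ 0) (hχ : ∀ γ, χ γ ^ p = 1)
    (hpar : ∀ g : Gamma0 N, (g : SL(2, ℤ)) 1 0 = 0 → χ g = 1) :
    IsCFc N 16 χ (EisTw.twEis N χ 4 * ModularForm.discriminant) := by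
  have hn := EisTw.norm_eq_one_of_pow hp hχ
  have h16 : (16 : ℤ) = 4 + 12 := by norm_num
  refine ⟨(EisTw.mdifferentiable_twEis hn (by norm_num)).mul S21.isCF_Delta.holo, fun γ => ?_,
    fun g => ?_⟩
  · rw [h16, mul_slash_SL2, EisTw.twEis_slash hpar, S21.isCF_Delta.inv _ trivial, smul_mul_assoc]
  · rw [h16, mul_slash_SL2, mul_comm]
    exact (S21.isCF_Delta.zero g).zero_mul_isBoundedUnder_le
      (EisTw.isBoundedAtImInfty_twEis_slash hn (by norm_num) g).isBoundedUnder_le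

theorem seed_ne_zero {p : ℕ} (hp : p ≠ 0) (hχ : ∀ γ, χ γ ^ p = 1)
    (hpar : ∀ g : Gamma0 N, (g : SL(2, ℤ)) 1 0 = 0 → χ g = 1) :
    EisTw.twEis N χ 4 * ModularForm.discriminant ≠ 0 := by
  have hn := EisTw.norm_eq_one_of_pow hp hχ
  intro h
  apply EisTw.twEis_ne_zero hn hpar (k := 4) (by norm_num) (by decide)
  funext z
  have hz := congrFun h z
  simp only [Pi.mul_apply, Pi.zero_apply, mul_eq_zero] at hz
  exact hz.resolve_right (discriminant_ne_zero z)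

/-- `q`-expansion of a power. -/
theorem qExpansion_pow_of_nice {f : ℍ → ℂ} (hf : f ∈ S23.niceAlg) (n : ℕ) :
    qExpansion 1 (f ^ n) = (qExpansion 1 f) ^ n :=
  map_pow S23.qHom (⟨f, hf⟩ : S23.niceAlg) n

/-- `q`-expansion of a scalar multiple. -/
theorem qExpansion_smul_of_nice {f : ℍ → ℂ} (hf : f ∈ S23.niceAlg) (c : ℂ) :
    qExpansion 1 (c • f) = c • qExpansion 1 f :=
  map_smul S23.qHom c (⟨f, hf⟩ : S23.niceAlg)

/-- **Sturm bound with character.** -/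
theorem eq_zero_of_sturm [NeZero N] {p : ℕ} (hp : p ≠ 0) (hχ : ∀ γ, χ γ ^ p = 1)
    (hpar : ∀ g : Gamma0 N, (g : SL(2, ℤ)) 1 0 = 0 → χ g = 1) {k : ℤ} {F : ℍ → ℂ}
    (hF : IsCFc N k χ F) {m : ℕ} (hm : (((p : ℤ) * k) * (Gamma0 N).index).toNat / 12 < m)
    (h0 : ∀ n < m, (qExpansion 1 F).coeff n = 0) : F = 0 := by
  have hnice := hF.mem_niceAlg_of_par hpar
  have hG := (hF.pow_isCF hp hχ).isMF
  have hdvd : (PowerSeries.X : PowerSeries ℂ) ^ m ∣ qExpansion 1 (F ^ p) := by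
    rw [qExpansion_pow_of_nice hnice]
    exact dvd_pow (PowerSeries.X_pow_dvd_iff.2 h0) hp
  have hz : hG.toModularForm = 0 := by
    apply ModularForm.sturm_bound_Gamma0 N
    intro n hn
    exact PowerSeries.X_pow_dvd_iff.1 hdvd n (lt_of_le_of_lt hn hm)
  funext z
  have h1 : (F ^ p) z = 0 := by
    have := congrArg (fun G : ModularForm (Gamma0 N) ((p : ℤ) * k) => (G : ℍ → ℂ) z) hz
    simpa using this
  exact pow_eq_zero_iff hp |>.1 h1

/-- **D-ORBIT, first half.** -/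
theorem exists_max_order (N : ℕ) [NeZero N] (p : ℕ) [NeZero p] (χ : Gamma0 N →* ℂˣ)
    (hχ : ∀ γ, χ γ ^ p = 1) (hpar : ∀ g : Gamma0 N, (g : SL(2, ℤ)) 1 0 = 0 → χ g = 1) :
    ∃ (m₀ : ℕ) (F : ℍ → ℂ), IsCFc N 16 χ F ∧ (∀ n < m₀, (qExpansion 1 F).coeff n = 0) ∧
      (qExpansion 1 F).coeff m₀ = 1 ∧
      ∀ F' : ℍ → ℂ, IsCFc N 16 χ F' → (∀ n ≤ m₀, (qExpansion 1 F').coeff n = 0) → F' = 0 := by
  classical
  have hp : p ≠ 0 := NeZero.ne p
  set B : ℕ := (((p : ℤ) * 16) * (Gamma0 N).index).toNat / 12 with hB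
  let P : ℕ → Prop := fun m =>
    ∃ F : ℍ → ℂ, IsCFc N 16 χ F ∧ F ≠ 0 ∧ ∀ n < m, (qExpansion 1 F).coeff n = 0
  have hP0 : P 0 := ⟨_, isCFc_seed hp hχ hpar, seed_ne_zero hp hχ hpar, fun n hn => by omega⟩
  have hPB : ∀ m, B < m → ¬ P m := by
    rintro m hm ⟨F, hF, hF0, h⟩
    exact hF0 (eq_zero_of_sturm hp hχ hpar hF hm h)
  set m₀ := Nat.findGreatest P B with hm₀
  have hPm : P m₀ := Nat.findGreatest_spec (Nat.zero_le B) hP0
  have hPs : ¬ P (m₀ + 1) := by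
    by_cases h : m₀ + 1 ≤ B
    · exact Nat.findGreatest_is_greatest (Nat.lt_succ_self _) h
    · exact hPB _ (by omega)
  obtain ⟨F₀, hF₀, hne, hlow⟩ := hPm
  have hnice := hF₀.mem_niceAlg_of_par hpar
  have hc : (qExpansion 1 F₀).coeff m₀ ≠ 0 := by
    intro hc
    refine hPs ⟨F₀, hF₀, hne, fun n hn => ?_⟩
    rcases Nat.lt_succ_iff_lt_or_eq.1 hn with h | rfl
    · exact hlow n h
    · exact hc
  refine ⟨m₀, ((qExpansion 1 F₀).coeff m₀)⁻¹ • F₀, hF₀.smul _, fun n hn => ?_, ?_,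
    fun F' hF' h => ?_⟩
  · rw [qExpansion_smul_of_nice hnice, map_smul, hlow n hn, smul_zero]
  · rw [qExpansion_smul_of_nice hnice, map_smul, smul_eq_mul, inv_mul_cancel₀ hc]
  · by_contra hne'
    exact hPs ⟨F', hF', hne', fun n hn => h n (Nat.lt_succ_iff.1 hn)⟩

end Fermat.Agent.ES.TOrbit
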