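import Fermat.Agent.ES.TCert
import Fermat.Agent.ES.TMult
import Fermat.Agent.S22alt.Cocycle
import Fermat.Agent.S23.FixedField
import Fermat.Agent.ES.TOrbitMax

/-!
# ES, block TORS, package D-ORBIT : descent `ℂ → ℚ̄` of cusp forms with character
-/

set_option autoImplicit false

namespace Fermat.Agent.ES

open UpperHalfPlane ModularForm CongruenceSubgroup Filter Topology
open Fermat.Agent.S24 Fermat.Agent.S16
open scoped MatrixGroups Manifold

namespace TOrbit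

/-! ### A. finitely many characters of exponent `p` -/

theorem finite_chars (N : ℕ) [NeZero N] (p : ℕ) [NeZero p] :
    Finite {χ : Gamma0 N →* ℂˣ // ∀ g, χ g ^ p = 1} := by
  classical
  have hfg : Group.FG (Gamma0 N) := (Group.fg_iff_subgroup_fg _).mpr (S22alt.Gamma0_fg N)
  obtain ⟨S, hS⟩ := Group.fg_def.mp hfg
  let Φ : {χ : Gamma0 N →* ℂˣ // ∀ g, χ g ^ p = 1} → (S → rootsOfUnity p ℂ) :=
    fun χ s => ⟨χ.1 s, (mem_rootsOfUnity _ _).mpr (χ.2 s)⟩
  refine Finite.of_injective Φ ?_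
  intro χ χ' h
  apply Subtype.ext
  refine MonoidHom.eq_of_eqOn_dense hS ?_
  intro s hs
  have := congrFun h ⟨s, hs⟩
  exact congrArg (fun u : rootsOfUnity p ℂ => (u : ℂˣ)) this

/-! ### B. transcendental numbers have infinite orbits -/

open MvPolynomial in
theorem exists_ringEquiv_add (c : ℂ) (hc : Transcendental ℚ c) (m : ℕ) :
    ∃ s : ℂ ≃+* ℂ, s c = c + m := by
  have hind : AlgebraicIndepOn ℚ id ({c} : Set ℂ) := by
    exact (algebraicIndependent_singleton_iff (⟨c, rfl⟩ : ({c} : Set ℂ))).mpr hc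
  obtain ⟨t, hxt, ht⟩ := exists_isTranscendenceBasis_superset hind
  have hxmem : c ∈ t := hxt rfl
  let θ : MvPolynomial t ℚ ≃ₐ[ℚ] MvPolynomial t ℚ :=
    AlgEquiv.ofAlgHom (aeval fun i => X i + C (m : ℚ)) (aeval fun i => X i - C (m : ℚ))
      (by ext i; simp) (by ext i; simp)
  obtain ⟨σ, hσ⟩ := S23.exists_ringEquiv_extending _ ht θ.toRingEquiv
  refine ⟨σ, ?_⟩
  have := hσ (X ⟨c, hxmem⟩)
  simp only [aeval_X, θ] at this
  simpa using this

/-! ### C. algebraic numbers are in the range of `iotaC` -/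

theorem mem_range_iotaC (c : ℂ) (hc : IsAlgebraic ℚ c) : ∃ a : Kb, iotaC a = c := by
  have hint : IsIntegral ℚ c := hc.isIntegral
  have hsplit : ((minpoly ℚ c).map (algebraMap ℚ Kb)).Splits :=
    IsAlgClosed.splits _
  have hroot : ((minpoly ℚ c).map (algebraMap ℚ Kb)).map iotaC = (minpoly ℚ c).map (algebraMap ℚ ℂ) := by
    rw [Polynomial.map_map]
    congr 1
    exact Subsingleton.elim _ _
  have h0 : (((minpoly ℚ c).map (algebraMap ℚ Kb)).map iotaC).eval c = 0 := by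
    rw [hroot, Polynomial.eval_map_algebraMap, minpoly.aeval]
  have hne : (minpoly ℚ c).map (algebraMap ℚ Kb) ≠ 0 :=
    (Polynomial.map_ne_zero_iff (algebraMap ℚ Kb).injective).mpr (minpoly.ne_zero hint)
  rw [hsplit.eq_prod_roots, Polynomial.map_mul, Polynomial.map_C, Polynomial.map_multiset_prod,
    Polynomial.eval_mul, Polynomial.eval_C, Polynomial.eval_multiset_prod, mul_eq_zero] at h0
  rcases h0 with h0 | h0
  · exfalso
    rw [map_eq_zero, Polynomial.leadingCoeff_eq_zero] at h0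
    exact hne h0
  · rw [Multiset.prod_eq_zero_iff] at h0
    simp only [Multiset.map_map, Multiset.mem_map, Function.comp_apply] at h0
    obtain ⟨a, -, ha⟩ := h0
    refine ⟨a, ?_⟩
    simp only [Polynomial.map_sub, Polynomial.map_X, Polynomial.map_C, Polynomial.eval_sub,
      Polynomial.eval_X, Polynomial.eval_C] at ha
    exact (sub_eq_zero.mp ha).symm

/-! ### E. conjugates of forms with the same character have the same character -/

lemma eq_of_qExp_eq {a b : ℍ → ℂ} (ha : a ∈ S23.niceAlg) (hb : b ∈ S23.niceAlg)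
    (h : qExpansion 1 a = qExpansion 1 b) : a = b :=
  congrArg Subtype.val
    (S23.qHom_injective (a₁ := (⟨a, ha⟩ : S23.niceAlg)) (a₂ := (⟨b, hb⟩ : S23.niceAlg)) h)

lemma qExp_ne_zero {a : ℍ → ℂ} (ha : a ∈ S23.niceAlg) (h0 : a ≠ 0) : qExpansion 1 a ≠ 0 := by
  intro h
  apply h0
  refine eq_of_qExp_eq ha (zero_mem _) ?_
  rw [h, qExpansion_zero]

lemma qExp_mul {a b : ℍ → ℂ} (ha : a ∈ S23.niceAlg) (hb : b ∈ S23.niceAlg) :
    qExpansion 1 (a * b) = qExpansion 1 a * qExpansion 1 b :=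
  map_mul S23.qHom (⟨a, ha⟩ : S23.niceAlg) (⟨b, hb⟩ : S23.niceAlg)

lemma qExp_pow {a : ℍ → ℂ} (ha : a ∈ S23.niceAlg) (n : ℕ) :
    qExpansion 1 (a ^ n) = qExpansion 1 a ^ n :=
  map_pow S23.qHom (⟨a, ha⟩ : S23.niceAlg) n

lemma qExp_sub {a b : ℍ → ℂ} (ha : a ∈ S23.niceAlg) (hb : b ∈ S23.niceAlg) :
    qExpansion 1 (a - b) = qExpansion 1 a - qExpansion 1 b :=
  map_sub S23.qHom (⟨a, ha⟩ : S23.niceAlg) (⟨b, hb⟩ : S23.niceAlg)

theorem same_char (N : ℕ) [NeZero N] (p : ℕ) [NeZero p] (k : ℤ) (τ : ℂ →+* ℂ)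
    {ψ ψA ψB : Gamma0 N →* ℂˣ} (hψ : ∀ γ, ψ γ ^ p = 1) (hψA : ∀ γ, ψA γ ^ p = 1)
    {A B A' B' : ℍ → ℂ} (hA : IsCFc N k ψ A) (hB : IsCFc N k ψ B)
    (hAn : A ∈ S23.niceAlg) (hBn : B ∈ S23.niceAlg)
    (hA' : IsCFc N k ψA A') (hB' : IsCFc N k ψB B')
    (hAn' : A' ∈ S23.niceAlg) (hBn' : B' ∈ S23.niceAlg)
    (hA0 : A' ≠ 0) (hB0 : B' ≠ 0)
    (hqA : qExpansion 1 A' = (qExpansion 1 A).map τ)
    (hqB : qExpansion 1 B' = (qExpansion 1 B).map τ) : ψA = ψB := by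
  have hp0 : p ≠ 0 := NeZero.ne p
  obtain ⟨n, hn⟩ : ∃ n : ℕ, n = 2 * p - 1 := ⟨_, rfl⟩
  have hp1 : n ≠ 0 := by omega
  have hpp : n + 1 = p * 2 := by omega
  -- the product `A ^ n * B` is a cusp form on `Γ₀(N)`
  have h1 : IsCFc N ((n : ℤ) * k + k) (ψ ^ n * ψ) (A ^ n * B) :=
    (hA.pow hp1).mul hB
  have hψ1 : ψ ^ n * ψ = 1 := by
    refine MonoidHom.ext fun γ => ?_
    rw [MonoidHom.mul_apply, MonoidHom.pow_apply, MonoidHom.one_apply, ← pow_succ, hpp, pow_mul,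
      hψ γ, one_pow]
  rw [hψ1] at h1
  obtain ⟨G', hG', hqG'⟩ := TCert.exists_conj_cusp N _ τ (IsCFc.iff_one.mp h1)
  have hmem : A' ^ n * B' ∈ S23.niceAlg := mul_mem (pow_mem hAn' _) hBn'
  have hG'eq : G' = A' ^ n * B' := by
    refine eq_of_qExp_eq (TCert.isCF_mem_niceAlg hG') hmem ?_
    rw [hqG', qExp_mul (pow_mem hAn _) hBn, qExp_pow hAn, qExp_mul (pow_mem hAn' _) hBn',
      qExp_pow hAn', hqA, hqB, map_mul, map_pow]
  have h2 : IsCFc N ((n : ℤ) * k + k) 1 (A' ^ n * B') := by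
    rw [← hG'eq]
    exact IsCFc.iff_one.mpr hG'
  have h3 : IsCFc N ((n : ℤ) * k + k) (ψA ^ n * ψB) (A' ^ n * B') :=
    (hA'.pow hp1).mul hB'
  have hne : A' ^ n * B' ≠ 0 := by
    intro h
    have h4 : qExpansion 1 (A' ^ n * B') = 0 := by rw [h, qExpansion_zero]
    rw [qExp_mul (pow_mem hAn' _) hBn', qExp_pow hAn'] at h4
    exact mul_ne_zero (pow_ne_zero _ (qExp_ne_zero hAn' hA0)) (qExp_ne_zero hBn' hB0) h4
  have h5 : ψA ^ n * ψB = 1 := IsCFc.char_unique h3 h2 hne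
  refine MonoidHom.ext fun γ => ?_
  have h6 : ψA γ ^ n * ψB γ = 1 := by
    have := DFunLike.congr_fun h5 γ
    rwa [MonoidHom.mul_apply, MonoidHom.pow_apply, MonoidHom.one_apply] at this
  calc ψA γ = ψA γ * (ψA γ ^ n * ψB γ) := by rw [h6, mul_one]
    _ = ψA γ ^ (n + 1) * ψB γ := by rw [pow_succ, mul_comm (ψA γ ^ n) (ψA γ), mul_assoc]
    _ = ψB γ := by rw [hpp, pow_mul, hψA γ, one_pow, one_mul]

/-! ### F. the main argument -/

theorem exists_algQ_of (N : ℕ) [NeZero N] (p : ℕ) [NeZero p] (χ : Gamma0 N →* ℂˣ)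
    (hχ : ∀ γ, χ γ ^ p = 1) (hpar : ∀ g : Gamma0 N, (g : SL(2, ℤ)) 1 0 = 0 → χ g = 1)
    (hmaxord : ∃ (m₀ : ℕ) (F : ℍ → ℂ), IsCFc N 16 χ F ∧
      (∀ n < m₀, (qExpansion 1 F).coeff n = 0) ∧ (qExpansion 1 F).coeff m₀ = 1 ∧
      ∀ F' : ℍ → ℂ, IsCFc N 16 χ F' → (∀ n ≤ m₀, (qExpansion 1 F').coeff n = 0) → F' = 0) :
    ∃ F : ℍ → ℂ, IsCFc N 16 χ F ∧ F ≠ 0 ∧ AlgQ F := by
  classical
  obtain ⟨m₀, F, hF, hlow, hm₀, hmax⟩ := hmaxord
  have hF0 : F ≠ 0 := by
    intro h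
    rw [h, qExpansion_zero] at hm₀
    simp at hm₀
  have hFn : F ∈ S23.niceAlg := hF.mem_niceAlg_of_par hpar
  refine ⟨F, hF, hF0, ?_⟩
  have halg : ∀ n, IsAlgebraic ℚ ((qExpansion 1 F).coeff n) := by
    intro n
    by_contra hc
    set c := (qExpansion 1 F).coeff n with hcdef
    choose s hs using exists_ringEquiv_add c hc
    choose χ' F' hχ' hF' hFn' hq' using fun m : ℕ =>
      exists_conj_char N p 16 χ hχ F hF hFn hF0 (s m : ℂ →+* ℂ)
    have : Finite {χ : Gamma0 N →* ℂˣ // ∀ g, χ g ^ p = 1} := finite_chars N p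
    obtain ⟨m, m', hmm, hEq⟩ := Finite.exists_ne_map_eq_of_infinite
      (fun m : ℕ => (⟨χ' m, hχ' m⟩ : {χ : Gamma0 N →* ℂˣ // ∀ g, χ g ^ p = 1}))
    have hEq' : χ' m = χ' m' := congrArg Subtype.val hEq
    set d : ℍ → ℂ := F' m - F' m' with hd
    have hdC : IsCFc N 16 (χ' m) d := (hF' m).sub (hEq' ▸ hF' m')
    have hdn : d ∈ S23.niceAlg := sub_mem (hFn' m) (hFn' m')
    have hqd : qExpansion 1 d = (qExpansion 1 F).map (s m : ℂ →+* ℂ) -
        (qExpansion 1 F).map (s m' : ℂ →+* ℂ) := by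
      rw [hd, qExp_sub (hFn' m) (hFn' m'), hq', hq']
    have hdlow : ∀ j ≤ m₀, (qExpansion 1 d).coeff j = 0 := by
      intro j hj
      rw [hqd, map_sub, PowerSeries.coeff_map, PowerSeries.coeff_map]
      rcases hj.lt_or_eq with hj | rfl
      · rw [hlow j hj, map_zero, map_zero, sub_zero]
      · rw [hm₀, map_one, map_one, sub_self]
    by_cases hd0 : d = 0
    · -- then `c + m = c + m'`
      have h1 : (qExpansion 1 d).coeff n = 0 := by rw [hd0, qExpansion_zero, map_zero]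
      rw [hqd, map_sub, PowerSeries.coeff_map, PowerSeries.coeff_map] at h1
      have h2 : s m c = s m' c := sub_eq_zero.mp h1
      rw [hs, hs] at h2
      exact hmm (by exact_mod_cast add_left_cancel h2)
    · obtain ⟨ψ, d', hψ, hd', hdn', hqd'⟩ := exists_conj_char N p 16 (χ' m) (hχ' m) d hdC hdn hd0
        ((s m).symm : ℂ →+* ℂ)
      have hd'0 : d' ≠ 0 := by
        intro h
        rw [h, qExpansion_zero] at hqd'
        have h2 : (qExpansion 1 d).map ((s m).symm : ℂ →+* ℂ) =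
            (0 : PowerSeries ℂ).map ((s m).symm : ℂ →+* ℂ) := by
          rw [← hqd', map_zero]
        exact qExp_ne_zero hdn hd0
          (PowerSeries.map_injective _ ((s m).symm : ℂ →+* ℂ).injective h2)
      have hqF : qExpansion 1 F = (qExpansion 1 (F' m)).map ((s m).symm : ℂ →+* ℂ) := by
        rw [hq']
        ext j
        simp [PowerSeries.coeff_map]
      have hsame : χ = ψ := same_char N p 16 ((s m).symm : ℂ →+* ℂ) (hχ' m) hχ (hF' m) hdC
        (hFn' m) hdn hF hd' hFn hdn' hF0 hd'0 hqF hqd'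
      refine hd'0 (hmax d' (hsame ▸ hd') ?_)
      intro j hj
      rw [hqd', PowerSeries.coeff_map, hdlow j hj, map_zero]
  choose a ha using fun n => mem_range_iotaC _ (halg n)
  refine ⟨PowerSeries.mk a, ?_⟩
  ext n
  rw [PowerSeries.coeff_map, PowerSeries.coeff_mk, ha]

end TOrbit

/-- **D-ORBIT** : there is a nonzero cusp form of weight `16` and character `χ` with
`q`-expansion coefficients in `ℚ̄`. -/
theorem exists_algQ (N : ℕ) [NeZero N] (p : ℕ) [NeZero p] (χ : Gamma0 N →* ℂˣ)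
    (hχ : ∀ γ, χ γ ^ p = 1) (hpar : ∀ g : Gamma0 N, (g : SL(2, ℤ)) 1 0 = 0 → χ g = 1) :
    ∃ F : ℍ → ℂ, IsCFc N 16 χ F ∧ F ≠ 0 ∧ AlgQ F :=
  TOrbit.exists_algQ_of N p χ hχ hpar (TOrbit.exists_max_order N p χ hχ hpar)

end Fermat.Agent.ES
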