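import Fermat.Agent.ES.TExistCore
import Fermat.Agent.ES.TOrbit
import Fermat.Agent.ES.TRatio
import Fermat.Agent.ES.TUnram
import Fermat.Agent.ES.TRel

/-!
# ES, block TORS, package M1 : existence of a function with multiplier `chiPer p N f`
-/

set_option autoImplicit false

namespace Fermat.Agent.ES

open UpperHalfPlane ModularForm CongruenceSubgroup ModularCurve AlgebraicCurve
open Fermat.Agent.S24 Fermat.Agent.S16 Fermat.Agent.ES
open scoped MatrixGroups Manifold

/-- **M1**: assembly of EisTw, D-ORBIT, RATIO, UNRAM. -/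
theorem exists_TRel (N : ℕ) [NeZero N] (p : ℕ) [NeZero p] (f : CuspForm (Gamma0 N) 2)
    (hf : f ∈ Lam N) : ∃ w : FF N, IsPDiv p N w ∧ TRel p N (chiPer p N f) w :=
  exists_TRel_of N p (chiPer p N f) (chiPer_pow p N f hf) (isPEc_chiPer p N f)
    (exists_algQ N p (chiPer p N f) (chiPer_pow p N f hf)
      (fun g hg => TExist.IsPEc.of_upper (isPEc_chiPer p N f) g hg))
    (fun k A B hA hB hB0 hAq hBq => exists_Psi_mul_eq N k A B hA hB hB0 hAq hBq)
    (fun F E hF hE hF0 hE0 w hw v =>
      dvd_ord_of_char N p 16 (chiPer p N f) (isPEc_chiPer p N f) F E hF hE hF0 hE0 w hw v)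

end Fermat.Agent.ES
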