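import Fermat.Agent.ES.TorsDefs
import Fermat.Agent.ES.EisTw
import Fermat.Agent.S24.Degree

/-!
# ES, block TORS, package M1 (core): existence of a function with a prescribed multiplier

`exists_TRel_of` : assembly, the outputs of the packages D-ORBIT, RATIO, UNRAM being hypotheses.
-/

set_option autoImplicit false

namespace Fermat.Agent.ES

open UpperHalfPlane ModularForm CongruenceSubgroup ModularCurve AlgebraicCurve
open Fermat.Agent.S24 Fermat.Agent.S16 Fermat.Agent.ES Fermat.Agent.S21 Fermat.Agent.S23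
open scoped MatrixGroups Manifold

namespace TExist

variable {N : ℕ} {k : ℤ} {χ : Gamma0 N →* ℂˣ} {F : ℍ → ℂ}

lemma T_mem_Gamma0 (N : ℕ) : ModularGroup.T ∈ Gamma0 N := by
  rw [Gamma0_mem]
  simp [ModularGroup.T]

/-- a parabolic-killing character is trivial on upper triangular matrices -/
lemma IsPEc.of_upper (hχ : IsPEc N χ) (g : Gamma0 N) (hg : (g : SL(2, ℤ)) 1 0 = 0) : χ g = 1 := by
  apply hχ.1
  have hdet := Matrix.det_fin_two (g : SL(2, ℤ)).1
  rw [(g : SL(2, ℤ)).2] at hdet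
  have h10 : (g : SL(2, ℤ)).1 1 0 = 0 := hg
  rw [h10, mul_zero, sub_zero] at hdet
  rw [Matrix.trace_fin_two]
  rcases Int.eq_one_or_neg_one_of_mul_eq_one hdet.symm with h | h
  · have h' : (g : SL(2, ℤ)).1 1 1 = 1 := by rw [h, one_mul] at hdet; exact hdet.symm
    rw [h, h']; norm_num
  · have h' : (g : SL(2, ℤ)).1 1 1 = -1 := by rw [h] at hdet; linarith
    rw [h, h']; norm_num

lemma mem_niceAlg_of_isCFc (hF : IsCFc N k χ F) (hT : χ ⟨ModularGroup.T, T_mem_Gamma0 N⟩ = 1) :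
    F ∈ niceAlg := by
  refine ⟨?_, hF.holo, ?_⟩
  · have h1 : F ∣[k] ModularGroup.T = F := by
      have := hF.inv ⟨ModularGroup.T, T_mem_Gamma0 N⟩
      rw [hT] at this
      simpa using this
    have h2 := periodic_of_forall (g := F) (h := 1) (fun τ τ' hτ => by
      have h3 := congrFun h1 τ
      rw [SL_slash_apply, ModularGroup.denom_apply] at h3
      simp only [ModularGroup.T, Matrix.SpecialLinearGroup.coe_mk, Matrix.of_apply,
        Matrix.cons_val_one, Matrix.cons_val_zero, Int.cast_zero, zero_mul, Int.cast_one, zero_add,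
        one_zpow, mul_one, Matrix.cons_val_fin_one] at h3
      rw [← h3]
      congr 1
      apply UpperHalfPlane.ext
      rw [hτ]
      have := UpperHalfPlane.modular_T_smul τ
      rw [show (⟨!![1, 1; 0, 1], by norm_num [Matrix.det_fin_two_of]⟩ : SL(2, ℤ))
        = ModularGroup.T from rfl, this]
      simp [add_comm])
    simpa using h2
  · have := (hF.zero 1).isBoundedAtImInfty
    simpa using this

lemma isMF_pow_of_isCFc {p : ℕ} (hF : IsCFc N k χ F) (hχ : ∀ γ, χ γ ^ p = 1) :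
    IsMF (Gamma0 N) (p * k) (F ^ p) where
  holo := hF.holo.pow p
  inv γ hγ := by
    rw [EisTw.pow_slash, hF.inv ⟨γ, hγ⟩, smul_pow]
    have := congrArg (fun u : ℂˣ => (u : ℂ)) (hχ ⟨γ, hγ⟩)
    simp only [Units.val_pow_eq_pow_val, Units.val_one] at this
    rw [this, one_smul]
  bdd g := by
    rw [EisTw.pow_slash]
    have h : (F ∣[k] g) ∈ Filter.boundedFilterSubalgebra ℂ atImInfty :=
      (hF.zero g).isBoundedAtImInfty
    exact pow_mem h p

/-- algebraicity of `q`-expansions is stable under products and powers -/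
lemma AlgQ.mul {f g : ℍ → ℂ} (hf : f ∈ niceAlg) (hg : g ∈ niceAlg) (h : AlgQ f) (h' : AlgQ g) :
    AlgQ (f * g) := by
  obtain ⟨s, hs⟩ := h
  obtain ⟨t, ht⟩ := h'
  exact ⟨s * t, by
    rw [map_mul, hs, ht,
      qExpansion_mul (analyticAt_of_mem_niceAlg hf) (analyticAt_of_mem_niceAlg hg)]⟩

lemma AlgQ.pow {f : ℍ → ℂ} (hf : f ∈ niceAlg) (h : AlgQ f) (n : ℕ) : AlgQ (f ^ n) := by
  induction n with
  | zero => exact ⟨1, by rw [map_one, pow_zero, qExpansion_one]⟩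
  | succ n ih =>
    rw [pow_succ]
    exact AlgQ.mul (pow_mem hf n) hf ih h

lemma algQ_of_int {f : ℍ → ℂ} (s : PowerSeries ℤ)
    (hs : s.map (Int.castRingHom ℂ) = qExpansion 1 f) : AlgQ f :=
  ⟨s.map (Int.castRingHom Kb), by
    rw [← hs]
    ext n
    simp⟩

/-- the level one form `E₄ Δ` of weight `16` -/
noncomputable def E16 : ℍ → ℂ := (E₄ : ℍ → ℂ) * discriminant

lemma isMF_E16 : IsMF ⊤ 16 E16 := (isMF_E4.mul isCF_Delta.isMF).congr_wt (by norm_num)

lemma E4_mem : (E₄ : ℍ → ℂ) ∈ niceAlg := mem_niceAlg one_mem_strictPeriods_SL E₄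

lemma D_mem : (discriminant : ℍ → ℂ) ∈ niceAlg :=
  mem_niceAlg one_mem_strictPeriods_SL CuspForm.discriminant

lemma E16_mem : E16 ∈ niceAlg := mul_mem E4_mem D_mem

lemma algQ_E16 : AlgQ E16 := by
  refine AlgQ.mul E4_mem D_mem (algQ_of_int _ qExpansion_E4.symm)
    (algQ_of_int (PowerSeries.X * ModularCurve.dedekindEtaUnit) ?_)
  rw [qExpansion_discriminant, map_mul, PowerSeries.map_X]

lemma E16_ne_zero : E16 ≠ 0 := by
  intro h
  have h1 : qExpansion 1 E16 = 0 := by rw [h, qExpansion_zero]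
  rw [E16, qExpansion_mul (analyticAt_of_mem_niceAlg E4_mem) (analyticAt_of_mem_niceAlg D_mem)]
    at h1
  rcases mul_eq_zero.mp h1 with h2 | h2
  · have := congrArg (PowerSeries.coeff 0) h2
    rw [EisensteinSeries.E_qExpansion_coeff_zero (k := 4) (by norm_num) ⟨2, rfl⟩] at this
    simp at this
  · have h3 : (⟨discriminant, D_mem⟩ : niceAlg) = 0 := qHom_injective (by rw [map_zero]; exact h2)
    exact discriminant_ne_zero UpperHalfPlane.I
      (congrFun (congrArg Subtype.val h3) UpperHalfPlane.I)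

/-- the multiplier of a quotient `F / E` -/
lemma hasMult_div {F E : Hol} (hF : IsCFc N k χ F.1) (hE : IsMF (Gamma0 N) k E.1) (hE0 : E ≠ 0) :
    HasMult N χ (toMer F / toMer E) := by
  intro γ
  have hE1 : toMer E ≠ 0 := Degree.toMer_ne_zero hE0
  have hE2 : toMer (actHol ((γ : SL(2, ℤ))⁻¹) E) ≠ 0 := by
    rw [← act_toMer]
    exact fun h => hE1 ((map_eq_zero _).mp h)
  rw [map_div₀, act_toMer, act_toMer, cMer, div_eq_iff hE2, mul_div_assoc', div_mul_eq_mul_div,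
    eq_div_iff hE1, ← Degree.toMer_mul, ← Degree.toMer_mul, ← Degree.toMer_mul]
  apply congrArg toMer
  apply Subtype.ext
  funext τ
  have h1 := congrFun (hF.inv γ) τ
  have h2 := congrFun (hE.inv γ γ.2) τ
  rw [SL_slash_apply] at h1 h2
  have hd : denom ((γ : SL(2, ℤ)) : SL(2, ℤ)) τ ^ (-k) ≠ 0 := zpow_ne_zero _ (denom_ne_zero _ τ)
  simp only [Subalgebra.coe_mul, Pi.mul_apply, actHol_apply, inv_inv, Pi.smul_apply, smul_eq_mul,
    Subalgebra.coe_algebraMap, Pi.algebraMap_apply, Algebra.algebraMap_self, RingHom.id_apply]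
    at h1 h2 ⊢
  apply mul_right_cancel₀ hd
  calc F.1 ((γ : SL(2, ℤ)) • τ) * E.1 τ * denom ((γ : SL(2, ℤ)) : SL(2, ℤ)) τ ^ (-k)
      = (F.1 ((γ : SL(2, ℤ)) • τ) * denom ((γ : SL(2, ℤ)) : SL(2, ℤ)) τ ^ (-k)) * E.1 τ := by ring
    _ = ((χ γ : ℂˣ) : ℂ) * F.1 τ
        * (E.1 ((γ : SL(2, ℤ)) • τ) * denom ((γ : SL(2, ℤ)) : SL(2, ℤ)) τ ^ (-k)) := by
        rw [h1, h2]
    _ = _ := by ring

end TExist

open TExist in
/-- **M1**, the outputs of D-ORBIT, RATIO and UNRAM being hypotheses. -/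
theorem exists_TRel_of (N : ℕ) [NeZero N] (p : ℕ) (χ : Gamma0 N →* ℂˣ)
    (hχ : ∀ γ, χ γ ^ p = 1) (hPE : IsPEc N χ)
    (hORB : ∃ F : ℍ → ℂ, IsCFc N 16 χ F ∧ F ≠ 0 ∧ AlgQ F)
    (hRAT : ∀ (k : ℤ) (A B : Hol), S21.IsMF (Gamma0 N) k A.1 → S21.IsMF (Gamma0 N) k B.1 → B ≠ 0 →
      AlgQ A.1 → AlgQ B.1 → ∃ x : FF N, Psi N x * toMer B = toMer A)
    (hUNR : ∀ (F E : Hol), IsCFc N 16 χ F.1 → S21.IsMF (Gamma0 N) 16 E.1 → F ≠ 0 → E ≠ 0 →
      ∀ w : FF N, Psi N w * toMer E ^ p = toMer F ^ p → ∀ v : Place Kb (FF N), (p : ℤ) ∣ v.ord w) :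
    ∃ w : FF N, IsPDiv p N w ∧ TRel p N χ w := by
  obtain ⟨F, hF, hF0, hFq⟩ := hORB
  have hFn : F ∈ niceAlg := mem_niceAlg_of_isCFc hF (IsPEc.of_upper hPE _ (by simp [ModularGroup.T]))
  let FH : Hol := ⟨F, hF.holo⟩
  let EH : Hol := ⟨E16, isMF_E16.holo⟩
  have hFH0 : FH ≠ 0 := fun h => hF0 (congrArg Subtype.val h)
  have hEH0 : EH ≠ 0 := fun h => E16_ne_zero (congrArg Subtype.val h)
  have hE : IsMF (Gamma0 N) 16 EH.1 := isMF_E16.of_top
  obtain ⟨w, hw⟩ := hRAT (p * 16) (FH ^ p) (EH ^ p) (isMF_pow_of_isCFc hF hχ)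
    (PartA2.IsMF.pow hE p) (pow_ne_zero p hEH0) (AlgQ.pow hFn hFq p) (AlgQ.pow E16_mem algQ_E16 p)
  rw [Degree.toMer_pow, Degree.toMer_pow] at hw
  have hE1 : toMer EH ≠ 0 := Degree.toMer_ne_zero hEH0
  have hF1 : toMer FH ≠ 0 := Degree.toMer_ne_zero hFH0
  refine ⟨w, ⟨?_, hUNR FH EH hF hE hFH0 hEH0 w hw⟩, toMer FH / toMer EH, ?_, hasMult_div hF hE hEH0⟩
  · rintro rfl
    rw [map_zero, zero_mul] at hw
    exact pow_ne_zero p hF1 hw.symm
  · rw [div_pow, div_eq_iff (pow_ne_zero p hE1), hw]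

end Fermat.Agent.ES
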