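import Fermat.Agent.ES.TIota
import Fermat.Agent.ES.TExist
import Fermat.Agent.ES.TMerInv
import Fermat.Agent.ES.KEmb
import Fermat.Agent.ES.KDiv

/-!
# ES, block TORS : the hypotheses package `Supp.Hyp N p` holds for every exponent `p ≠ 0`
-/

set_option autoImplicit false

namespace Fermat.Agent.ES

open UpperHalfPlane ModularForm CongruenceSubgroup ModularCurve AlgebraicCurve CuspForm
open Fermat.Agent.S24 Fermat.Agent.S16
open scoped TensorProduct

theorem Supp.hyp (N : ℕ) [NeZero N] (p : ℕ) [NeZero p] : Supp.Hyp N p where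
  exists_TRel := fun f hf => exists_TRel N p f hf
  merinv := fun w hw => exists_pow_eq_of_invariant N p w hw
  hecke := fun ℓ _ hℓ hℓN _ _ h =>
    TRel.hecke hℓ hℓN (heckeRep_det_pos ℓ) (fun u => Psi_heckeMul N ℓ hℓN u) h
  heckeU_mem := fun ℓ _ u hu => heckeU_mem p N ℓ u hu

end Fermat.Agent.ES
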