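import Fermat.Agent.ES.TRel
import Fermat.Agent.ES.Lat

/-!
# ES, block TORS : the map `iota : Λ → KV m N` for an arbitrary exponent `m ≠ 0`
(the outputs of the other packages are hypotheses, bundled in `Supp.Hyp`).

* `Supp.iota H : LamM N 1 →+ KV p N`,
* `Supp.iota_eq_zero_iff` : the kernel is `LamM N p`,
* `Supp.lift_iota` : Hecke equivariance.
-/

set_option autoImplicit false

noncomputable section

namespace Fermat.Agent.ES.Supp

open UpperHalfPlane ModularForm CongruenceSubgroup ModularCurve AlgebraicCurve CuspForm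
open Fermat.Agent.S24 Fermat.Agent.S16 Fermat.Agent.ES
open scoped MatrixGroups

/-- the inputs from the other packages of the blocks TORS / KRON -/
structure Hyp (N : ℕ) [NeZero N] (p : ℕ) : Prop where
  exists_TRel : ∀ f ∈ Lam N, ∃ w : FF N, IsPDiv p N w ∧ TRel p N (chiPer p N f) w
  merinv : ∀ w : FF N, TRel p N 1 w → ∃ b : FF N, w = b ^ p
  hecke : ∀ (ℓ : ℕ) [Fact ℓ.Prime] (hℓ : ℓ.Prime) (hℓN : ¬ ℓ ∣ N) (f : CuspForm (Gamma0 N) 2)
    (w : FF N), TRel p N (chiPer p N f) w →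
      TRel p N (chiPer p N (CuspForm.heckeTLin 2 hℓ hℓN f)) (heckeMul N ℓ w)
  heckeU_mem : ∀ (ℓ : ℕ) [NeZero ℓ] (u : (FF N)ˣ), u ∈ pdivUnits p N → heckeU N ℓ u ∈ pdivUnits p N

variable {N : ℕ} [NeZero N] {p : ℕ} [NeZero p] (H : Hyp N p)

/-- a function attached to `f` -/
def wOf (f : LamM N 1) : pdivUnits p N :=
  ⟨Units.mk0 (H.exists_TRel f.1 ((Lat.mem_LamM_one_iff N).mp f.2)).choose
      (H.exists_TRel f.1 ((Lat.mem_LamM_one_iff N).mp f.2)).choose_spec.1.1,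
    (H.exists_TRel f.1 ((Lat.mem_LamM_one_iff N).mp f.2)).choose_spec.1.2⟩

theorem wOf_spec (f : LamM N 1) : TRel p N (chiPer p N f.1) ((wOf H f : (FF N)ˣ) : FF N) :=
  (H.exists_TRel f.1 ((Lat.mem_LamM_one_iff N).mp f.2)).choose_spec.2

include H in
theorem mk_eq_of_TRel {χ : Gamma0 N →* ℂˣ} (u u' : pdivUnits p N)
    (h : TRel p N χ ((u : (FF N)ˣ) : FF N)) (h' : TRel p N χ ((u' : (FF N)ˣ) : FF N)) :
    KV.mk u = KV.mk u' := by
  have h1 := h.mul h'.inv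
  have e1 : χ * χ⁻¹ = 1 := by
    ext γ
    simp
  rw [e1] at h1
  obtain ⟨b, hb⟩ := H.merinv _ h1
  have hp : p ≠ 0 := NeZero.ne p
  have hb0 : b ≠ 0 := by
    rintro rfl
    rw [zero_pow hp] at hb
    exact mul_ne_zero (Units.ne_zero _) (inv_ne_zero (Units.ne_zero _)) hb
  rw [KV.mk_eq_iff]
  refine ⟨Units.mk0 b hb0, Units.ext ?_⟩
  rw [Units.val_mul, Units.val_pow_eq_pow_val, Units.val_mk0, ← hb]
  have : (((u' : (FF N)ˣ) : FF N)) ≠ 0 := Units.ne_zero _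
  field_simp

/-- `Λ → KV p N` -/
def iota : LamM N 1 →+ KV p N :=
  AddMonoidHom.mk' (fun f => KV.mk (wOf H f)) (by
    intro f g
    rw [← KV.mk_mul]
    refine mk_eq_of_TRel H _ _ (wOf_spec H (f + g)) ?_
    have := (wOf_spec H f).mul (wOf_spec H g)
    rw [← chiPer_add] at this
    exact this)

theorem iota_apply (f : LamM N 1) : iota H f = KV.mk (wOf H f) := rfl

theorem mem_of_iota_eq_zero (f : LamM N 1) (h : iota H f = 0) : f.1 ∈ LamM N p := by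
  rw [iota_apply, KV.mk_eq_zero_iff] at h
  obtain ⟨z, hz⟩ := h
  have h1 := wOf_spec H f
  rw [← hz, Units.val_pow_eq_pow_val] at h1
  exact (chiPer_eq_one_iff p N f.1).mp (h1.eq_one_of_pow z.ne_zero)

/-- the Hecke operator on the lattice -/
def heckeL {ℓ : ℕ} (hℓ : ℓ.Prime) (hℓN : ¬ ℓ ∣ N) (f : LamM N 1) : LamM N 1 :=
  ⟨CuspForm.heckeTLin 2 hℓ hℓN f.1,
    hecke_mem_LamM 1 (S := ∅) (heckeTLin_mem_heckeAlgebra hℓ hℓN (Set.notMem_empty _)) f.1 f.2⟩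

theorem iota_eq_zero_iff (f : LamM N 1) : iota H f = 0 ↔ f.1 ∈ LamM N p := by
  refine ⟨mem_of_iota_eq_zero H f, fun h => ?_⟩
  have h1 := wOf_spec H f
  rw [(chiPer_eq_one_iff p N f.1).mpr h] at h1
  obtain ⟨b, hb⟩ := H.merinv _ h1
  have hb0 : b ≠ 0 := by
    rintro rfl
    rw [zero_pow (NeZero.ne p)] at hb
    exact Units.ne_zero _ hb
  rw [iota_apply, KV.mk_eq_zero_iff]
  exact ⟨Units.mk0 b hb0, Units.ext (by rw [Units.val_pow_eq_pow_val, Units.val_mk0, hb])⟩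

/-- characterisation of `iota` -/
theorem iota_eq_mk (f : LamM N 1) (u : pdivUnits p N)
    (h : TRel p N (chiPer p N f.1) ((u : (FF N)ˣ) : FF N)) : iota H f = KV.mk u :=
  mk_eq_of_TRel H _ _ (wOf_spec H f) h

theorem lift_iota (ℓ : ℕ) [Fact ℓ.Prime] (hℓ : ℓ.Prime) (hℓN : ¬ ℓ ∣ N) (f : LamM N 1) :
    KV.lift (heckeU N ℓ) (H.heckeU_mem ℓ) (iota H f) = iota H (heckeL hℓ hℓN f) := by
  rw [iota_apply, iota_apply, KV.lift_mk]
  have h1 : TRel p N (chiPer p N (CuspForm.heckeTLin 2 hℓ hℓN f.1))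
      (heckeMul N ℓ ((wOf H f : (FF N)ˣ) : FF N)) := H.hecke ℓ hℓ hℓN _ _ (wOf_spec H f)
  have h2 : TRel p N (chiPer p N (CuspForm.heckeTLin 2 hℓ hℓN f.1))
      ((wOf H (heckeL hℓ hℓN f) : (FF N)ˣ) : FF N) := wOf_spec H (heckeL hℓ hℓN f)
  exact mk_eq_of_TRel H (χ := chiPer p N (CuspForm.heckeTLin 2 hℓ hℓN f.1))
    ⟨heckeU N ℓ (wOf H f), H.heckeU_mem ℓ _ (wOf H f).2⟩ (wOf H (heckeL hℓ hℓN f)) h1 h2

end Fermat.Agent.ES.Supp
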