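import Fermat.Agent.ES.TIota

/-!
# ES, block TORS : complements on `iota` (surjectivity from MULT, change of exponent)
-/

set_option autoImplicit false

namespace Fermat.Agent.ES

open UpperHalfPlane ModularForm CongruenceSubgroup ModularCurve AlgebraicCurve CuspForm
open Fermat.Agent.S24 Fermat.Agent.S16
open scoped MatrixGroups

theorem chiPer_mul_pow (m m₂ N : ℕ) [NeZero N] [NeZero m₂] (f : CuspForm (Gamma0 N) 2)
    (γ : Gamma0 N) : chiPer (m * m₂) N f γ ^ m₂ = chiPer m N f γ := by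
  ext
  rw [Units.val_pow_eq_pow_val, coe_chiPer, coe_chiPer, ← Complex.exp_nat_mul]
  congr 1
  have h2 : (m₂ : ℂ) ≠ 0 := Nat.cast_ne_zero.mpr (NeZero.ne m₂)
  by_cases hm : (m : ℂ) = 0
  · push_cast
    rw [hm]
    simp
  · push_cast
    field_simp

theorem chiPer_mul_nsmul (m m₂ N : ℕ) [NeZero N] [NeZero m₂] (f : CuspForm (Gamma0 N) 2) :
    chiPer (m * m₂) N (m₂ • f) = chiPer m N f := by
  ext γ
  rw [coe_chiPer, coe_chiPer]
  congr 1
  rw [map_nsmul, AddMonoidHom.nsmul_apply, nsmul_eq_mul]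
  have h2 : (m₂ : ℂ) ≠ 0 := Nat.cast_ne_zero.mpr (NeZero.ne m₂)
  have e : ((m₂ : ℂ) * Per N f (Additive.ofMul γ)).re = m₂ * (Per N f (Additive.ofMul γ)).re := by
    simp
  rw [e]
  by_cases hm : (m : ℂ) = 0
  · push_cast
    rw [hm]
    simp
  · push_cast
    field_simp

/-- `u ↦ u : KV (m m₂) → KV m` -/
theorem TRel.of_mul {m m₂ N : ℕ} [NeZero N] [NeZero m₂] {f : CuspForm (Gamma0 N) 2} {w : FF N}
    (h : TRel (m * m₂) N (chiPer (m * m₂) N f) w) : TRel m N (chiPer m N f) w := by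
  obtain ⟨a, ha, ha'⟩ := h
  refine ⟨a ^ m₂, by rw [← _root_.pow_mul, mul_comm m₂ m, ha], fun γ => ?_⟩
  rw [map_pow, ha' γ, mul_pow, ← Rel.cMer_pow, ← Units.val_pow_eq_pow_val, chiPer_mul_pow]

/-- `u ↦ u ^ m₂ : KV m → KV (m m₂)` -/
theorem TRel.pow_mul {m N : ℕ} (m₂ : ℕ) [NeZero N] [NeZero m₂] {f : CuspForm (Gamma0 N) 2}
    {w : FF N} (h : TRel m N (chiPer m N f) w) :
    TRel (m * m₂) N (chiPer (m * m₂) N (m₂ • f)) (w ^ m₂) := by
  obtain ⟨a, ha, ha'⟩ := h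
  refine ⟨a, by rw [_root_.pow_mul, ha, map_pow], ?_⟩
  rw [chiPer_mul_nsmul]
  exact ha'

namespace Supp

variable {N : ℕ} [NeZero N] {p : ℕ} [NeZero p] (H : Hyp N p)

/-- **MU-SURJ**: with MULT, `iota` is onto. -/
theorem iota_surjective
    (hMULT : ∀ u : FF N, IsPDiv p N u → ∃ f ∈ Lam N, TRel p N (chiPer p N f) u) :
    Function.Surjective (iota H) := by
  intro x
  obtain ⟨u, rfl⟩ := KV.mk_surjective x
  obtain ⟨f, hf, h⟩ := hMULT _ (mem_pdivUnits_iff.mp u.2)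
  exact ⟨⟨f, (Lat.mem_LamM_one_iff N).mpr hf⟩, iota_eq_mk H _ u h⟩

/-- compatibility of the `iota`s: a representative of `iota_{m m₂} f` represents `iota_m f`. -/
theorem iota_eq_mk_of_mul {m₂ : ℕ} [NeZero m₂] (H' : Hyp N (p * m₂)) (f : LamM N 1)
    (u : pdivUnits p N) (u' : pdivUnits (p * m₂) N) (hu : (u : (FF N)ˣ) = u')
    (h : iota H' f = KV.mk u') : iota H f = KV.mk u := by
  have h1 : TRel (p * m₂) N (chiPer (p * m₂) N f.1) ((wOf H' f : (FF N)ˣ) : FF N) := wOf_spec H' f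
  rw [iota_apply, KV.mk_eq_iff] at h
  obtain ⟨z, hz⟩ := h
  -- `u' = wOf * z^{-(p m₂)}`
  have h2 : TRel (p * m₂) N (chiPer (p * m₂) N f.1) (((u' : (FF N)ˣ) : FF N)) := by
    have h3 := h1.mul (TRel.pow_self (p * m₂) N ((z : FF N)⁻¹))
    have e1 : chiPer (p * m₂) N f.1 * 1 = chiPer (p * m₂) N f.1 := by
      ext γ
      simp
    rw [e1] at h3
    have e : (((wOf H' f : (FF N)ˣ) : FF N)) * ((z : FF N)⁻¹) ^ (p * m₂) = ((u' : (FF N)ˣ) : FF N) := by
      rw [hz, Units.val_mul, Units.val_pow_eq_pow_val, inv_pow]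
      have : ((z : FF N)) ^ (p * m₂) ≠ 0 := pow_ne_zero _ z.ne_zero
      field_simp
    rwa [e] at h3
  refine iota_eq_mk H f u ?_
  rw [hu]
  exact h2.of_mul

end Supp

end Fermat.Agent.ES
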