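import Fermat.Agent.ES.TSuppCore
import Fermat.Agent.ES.THyp

/-!
# ES, block TORS, package SUPP : output of the block TORS
-/

set_option autoImplicit false

namespace Fermat.Agent.ES

open UpperHalfPlane ModularForm CongruenceSubgroup ModularCurve AlgebraicCurve CuspForm
open Fermat.Agent.S24 Fermat.Agent.S16
open scoped TensorProduct

/-- **SUPP**: OUTPUT OF THE BLOCK TORS. -/
theorem exists_eigenvector (N : ℕ) [NeZero N] (p : ℕ) [Fact p.Prime]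
    (g : CuspForm (Gamma0 N) 2) (hg : g ≠ 0) (a : ℕ → integralClosure ℤ ℂ)
    (ha : ∀ (ℓ : ℕ) (hℓ : ℓ.Prime) (hℓN : ¬ ℓ ∣ N), CuspForm.heckeTLin 2 hℓ hℓN g = (a ℓ : ℂ) • g)
    (k : Type) [Field k] [Algebra (ZMod p) k] (φ : integralClosure ℤ ℂ →+* k) :
    ∃ x : k ⊗[ZMod p] KV p N, x ≠ 0 ∧
      ∀ (ℓ : ℕ) [Fact ℓ.Prime], ¬ ℓ ∣ N → (heckeV p N ℓ).baseChange k x = φ (a ℓ) • x :=
  Supp.exists_eigenvector_of (Supp.hyp N p) g hg a ha φ

end Fermat.Agent.ES
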