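import Mathlib

/-!
# ES, block TORS, package SUPP : the algebraic lemma

A finite commutative `𝔽_p`-algebra `P` acting on an `𝔽_p`-vector space `V`, a character `ψ : P → k`
which vanishes on the elements acting by `0`.  Then `k ⊗ V` contains an eigenvector with
eigencharacter `ψ`.
-/

set_option autoImplicit false

namespace Fermat.Agent.ES.Supp

open scoped TensorProduct

variable {p : ℕ} [Fact p.Prime] {P : Type*} [CommRing P] [Algebra (ZMod p) P] [Finite P]
  {V : Type*} [AddCommGroup V] [Module (ZMod p) V]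
  {k : Type*} [Field k] [Algebra (ZMod p) k]

theorem exists_pow_eq (a : P) : ∃ i j : ℕ, i < j ∧ a ^ i = a ^ j := by
  obtain ⟨i, j, hij, h⟩ := Finite.exists_ne_map_eq_of_infinite (fun n : ℕ => a ^ n)
  rcases lt_or_gt_of_ne hij with hlt | hlt
  · exact ⟨i, j, hlt, h⟩
  · exact ⟨j, i, hlt, h.symm⟩

theorem exists_pow_mul_eq_zero (ψ : P →ₐ[ZMod p] k) (a : P) (ha : ψ a = 0) :
    ∃ (n : ℕ) (u : P), ψ u = 1 ∧ a ^ n * u = 0 := by
  obtain ⟨i, j, hlt, h⟩ := exists_pow_eq a
  refine ⟨i, 1 - a ^ (j - i), ?_, ?_⟩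
  · rw [map_sub, map_one, map_pow, ha, zero_pow (by omega), sub_zero]
  · rw [mul_sub, mul_one, ← pow_add, Nat.add_sub_cancel' hlt.le, h, sub_self]

theorem exists_inv (ψ : P →ₐ[ZMod p] k) (a : P) (ha : ψ a ≠ 0) : ∃ b : P, ψ b = (ψ a)⁻¹ := by
  obtain ⟨i, j, hlt, h⟩ := exists_pow_eq a
  refine ⟨a ^ (j - i - 1), ?_⟩
  have h1 : ψ a ^ i = ψ a ^ j := by rw [← map_pow, ← map_pow, h]
  have h2 : ψ a ^ (j - i - 1) * ψ a = 1 := by
    rw [← pow_succ, show j - i - 1 + 1 = j - i by omega]
    have h3 : ψ a ^ i * ψ a ^ (j - i) = ψ a ^ i * 1 := by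
      rw [← pow_add, Nat.add_sub_cancel' hlt.le, mul_one, h1]
    exact mul_left_cancel₀ (pow_ne_zero i ha) h3
  rw [map_pow]
  exact eq_inv_of_mul_eq_one_left h2

/-- Step 1: a nonzero vector killed by the kernel of `ψ`. -/
theorem exists_killed (ρ : P →ₐ[ZMod p] Module.End (ZMod p) V) (ψ : P →ₐ[ZMod p] k)
    (h : ∀ a, ρ a = 0 → ψ a = 0) :
    ∃ v : V, v ≠ 0 ∧ ∀ a, ψ a = 0 → ρ a v = 0 := by
  classical
  haveI := Fintype.ofFinite P
  choose! n u hu hnu using exists_pow_mul_eq_zero ψ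
  set K : Finset P := Finset.univ.filter (fun a => ψ a = 0) with hK
  have memK : ∀ a, a ∈ K ↔ ψ a = 0 := fun a => by simp [hK]
  set U : P := ∏ a ∈ K, u a with hUdef
  have hU : ψ U = 1 := by
    rw [hUdef, map_prod]
    exact Finset.prod_eq_one fun a ha => hu a ((memK a).mp ha)
  have hρU : ρ U ≠ 0 := fun h0 => by
    have := h U h0
    rw [hU] at this
    exact one_ne_zero this
  obtain ⟨v₀, hv₀⟩ : ∃ v₀, ρ U v₀ ≠ 0 := by
    by_contra hcon
    push_neg at hcon
    exact hρU (LinearMap.ext hcon)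
  have hnil : ∀ a, ψ a = 0 → ∃ m, ρ (a ^ m) (ρ U v₀) = 0 := by
    intro a ha
    refine ⟨n a, ?_⟩
    rw [← Module.End.mul_apply, ← map_mul]
    have : a ^ n a * U = 0 := by
      rw [hUdef, ← Finset.mul_prod_erase K u ((memK a).mpr ha), ← mul_assoc, hnu a ha, zero_mul]
    rw [this, map_zero, LinearMap.zero_apply]
  have key : ∀ s : Finset P, (∀ a ∈ s, ψ a = 0) → ∃ v : V, v ≠ 0 ∧
      (∀ a, ψ a = 0 → ∃ m, ρ (a ^ m) v = 0) ∧ ∀ a ∈ s, ρ a v = 0 := by
    intro s
    induction s using Finset.induction_on with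
    | empty => intro _; exact ⟨ρ U v₀, hv₀, hnil, by simp⟩
    | insert b s hb ih =>
      intro hs
      obtain ⟨v, hv, hvn, hvs⟩ := ih fun a ha => hs a (Finset.mem_insert_of_mem ha)
      have hb0 : ψ b = 0 := hs b (Finset.mem_insert_self b s)
      have hex := hvn b hb0
      have hm : ρ (b ^ Nat.find hex) v = 0 := Nat.find_spec hex
      have hm0 : Nat.find hex ≠ 0 := by
        intro h0
        rw [h0, pow_zero, map_one] at hm
        exact hv hm
      have hm1 : ρ (b ^ (Nat.find hex - 1)) v ≠ 0 := Nat.find_min hex (by omega)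
      refine ⟨ρ (b ^ (Nat.find hex - 1)) v, hm1, ?_, ?_⟩
      · intro a ha
        obtain ⟨r, hr⟩ := hvn a ha
        refine ⟨r, ?_⟩
        rw [← Module.End.mul_apply, ← map_mul, mul_comm, map_mul, Module.End.mul_apply, hr, map_zero]
      · intro a ha
        rcases Finset.mem_insert.mp ha with rfl | ha
        · rw [← Module.End.mul_apply, ← map_mul, ← pow_succ', Nat.sub_add_cancel (by omega)]
          exact hm
        · rw [← Module.End.mul_apply, ← map_mul, mul_comm, map_mul, Module.End.mul_apply, hvs a ha,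
            map_zero]
  obtain ⟨v, hv, -, hvK⟩ := key K fun a ha => (memK a).mp ha
  exact ⟨v, hv, fun a ha => hvK a ((memK a).mpr ha)⟩

/-- factorisation of linear maps over a field -/
theorem exists_comp_eq {F V₁ V₂ V₃ : Type*} [Field F] [AddCommGroup V₁] [Module F V₁]
    [AddCommGroup V₂] [Module F V₂] [AddCommGroup V₃] [Module F V₃] (f : V₁ →ₗ[F] V₂)
    (g : V₁ →ₗ[F] V₃) (h : LinearMap.ker f ≤ LinearMap.ker g) : ∃ μ : V₂ →ₗ[F] V₃, ∀ x, μ (f x) = g x := by
  set q : (V₁ ⧸ LinearMap.ker f) →ₗ[F] V₂ := (LinearMap.ker f).liftQ f le_rfl with hq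
  have hqk : LinearMap.ker q = ⊥ := Submodule.ker_liftQ_eq_bot _ _ _ le_rfl
  obtain ⟨r, hr⟩ := q.exists_leftInverse_of_injective hqk
  refine ⟨((LinearMap.ker f).liftQ g h) ∘ₗ r, fun x => ?_⟩
  have h1 : f x = q (Submodule.Quotient.mk x) := by rw [hq, Submodule.liftQ_apply]
  have h2 : r (q (Submodule.Quotient.mk x)) = Submodule.Quotient.mk x := by
    have := LinearMap.congr_fun hr (Submodule.Quotient.mk x)
    simpa using this
  rw [LinearMap.comp_apply, h1, h2, Submodule.liftQ_apply]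

/-- the number of elements of the range of `ψ` is `0` in `k`. -/
theorem card_image_eq_zero [Fintype P] [DecidableEq k] (ψ : P →ₐ[ZMod p] k) :
    (((Finset.univ.image ψ).card : ℕ) : k) = 0 := by
  haveI : CharP k p := by
    haveI : Nontrivial k := inferInstance
    exact (Algebra.charP_iff (ZMod p) k p).mp inferInstance
  set G : AddSubgroup k := (ψ : P →+ k).range with hG
  have hGs : (G : Set k) = ((Finset.univ.image ψ : Finset k) : Set k) := by
    ext y
    simp [hG]
  haveI : Finite G := by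
    rw [← SetLike.coe_sort_coe, hGs]
    exact Finset.finite_toSet _ |>.to_subtype
  have hcard : Nat.card G = (Finset.univ.image ψ).card := by
    rw [← SetLike.coe_sort_coe, hGs, Nat.card_coe_set_eq, Set.ncard_coe_finset]
  have h1 : (1 : k) ∈ G := ⟨1, map_one ψ⟩
  have h2 : addOrderOf (⟨1, h1⟩ : G) ∣ Nat.card G := addOrderOf_dvd_natCard _
  have h3 : addOrderOf (⟨1, h1⟩ : G) = p := by
    rw [← AddSubgroup.addOrderOf_coe]
    exact CharP.eq k (CharP.addOrderOf_one k) inferInstance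
  rw [h3, hcard] at h2
  exact (CharP.cast_eq_zero_iff k p _).mpr h2

/-- **The algebraic lemma.** -/
theorem exists_eigen (ρ : P →ₐ[ZMod p] Module.End (ZMod p) V) (ψ : P →ₐ[ZMod p] k)
    (h : ∀ a, ρ a = 0 → ψ a = 0) :
    ∃ x : k ⊗[ZMod p] V, x ≠ 0 ∧ ∀ a, (ρ a).baseChange k x = ψ a • x := by
  classical
  haveI := Fintype.ofFinite P
  obtain ⟨v, hv, hkill⟩ := exists_killed ρ ψ h
  have hK : ∀ a b, ψ a = ψ b → ρ a v = ρ b v := by
    intro a b hab
    have := hkill (a - b) (by rw [map_sub, hab, sub_self])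
    rw [map_sub, LinearMap.sub_apply, sub_eq_zero] at this
    exact this
  set R : Finset k := Finset.univ.image ψ with hR
  have memR : ∀ y, y ∈ R ↔ ∃ a, ψ a = y := fun y => by simp [hR]
  have hs' : ∀ y : k, ∃ a : P, y ∈ R → ψ a = y := by
    intro y
    by_cases hy : y ∈ R
    · obtain ⟨a, ha⟩ := (memR y).mp hy
      exact ⟨a, fun _ => ha⟩
    · exact ⟨0, fun h => absurd h hy⟩
  choose s hs using hs'
  refine ⟨∑ y ∈ R, y⁻¹ ⊗ₜ[ZMod p] (ρ (s y) v), ?_, ?_⟩
  · -- non vanishing
    have hker : LinearMap.ker ((LinearMap.applyₗ v : _ →ₗ[ZMod p] V) ∘ₗ ρ.toLinearMap) ≤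
        LinearMap.ker ψ.toLinearMap := by
      intro a ha
      rw [LinearMap.mem_ker] at ha ⊢
      have ha' : ρ a v = 0 := ha
      by_contra hne
      have hne' : ψ a ≠ 0 := hne
      obtain ⟨b, hb⟩ := exists_inv ψ a hne'
      have h1 : ρ (b * a) v = ρ 1 v := hK _ _ (by rw [map_mul, hb, inv_mul_cancel₀ hne', map_one])
      rw [map_mul, Module.End.mul_apply, ha', map_zero, map_one, Module.End.one_apply] at h1
      exact hv h1.symm
    obtain ⟨μ, hμ⟩ := exists_comp_eq _ _ hker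
    have hμ' : ∀ a, μ (ρ a v) = ψ a := hμ
    set Λ : k ⊗[ZMod p] V →ₗ[ZMod p] k :=
      TensorProduct.lift ((LinearMap.mul (ZMod p) k).compl₂ μ) with hΛ
    intro hx
    have h1 := congrArg Λ hx
    rw [map_sum, map_zero] at h1
    have h2 : ∀ y ∈ R, Λ (y⁻¹ ⊗ₜ[ZMod p] (ρ (s y) v)) = if y = 0 then 0 else 1 := by
      intro y hy
      rw [hΛ, TensorProduct.lift.tmul]
      simp only [LinearMap.compl₂_apply, LinearMap.mul_apply']
      rw [hμ', hs y hy]
      split_ifs with h0
      · rw [h0, mul_zero]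
      · exact inv_mul_cancel₀ h0
    rw [Finset.sum_congr rfl h2, Finset.sum_ite, Finset.sum_const_zero, zero_add, Finset.sum_const,
      nsmul_eq_mul, mul_one] at h1
    have h0R : (0 : k) ∈ R := (memR 0).mpr ⟨0, map_zero ψ⟩
    have h3 : (R.filter fun y => ¬ y = 0).card + 1 = R.card := by
      have : R.filter (fun y => ¬ y = 0) = R.erase 0 := by
        ext y
        simp [and_comm]
      rw [this, Finset.card_erase_add_one h0R]
    have h4 : ((R.card : ℕ) : k) = 0 := card_image_eq_zero ψ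
    rw [← h3] at h4
    push_cast at h4
    rw [h1, zero_add] at h4
    exact one_ne_zero h4
  · intro a
    rw [map_sum, Finset.smul_sum]
    simp only [LinearMap.baseChange_tmul]
    by_cases hz : ψ a = 0
    · rw [hz]
      simp only [zero_smul, Finset.sum_const_zero]
      refine Finset.sum_eq_zero fun y _ => ?_
      rw [← Module.End.mul_apply, ← map_mul, hkill _ (by rw [map_mul, hz, zero_mul]),
        TensorProduct.tmul_zero]
    · obtain ⟨b, hb⟩ := exists_inv ψ a hz
      refine Finset.sum_nbij' (fun y => ψ a * y) (fun y => (ψ a)⁻¹ * y) ?_ ?_ ?_ ?_ ?_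
      · intro y hy
        obtain ⟨c, hc⟩ := (memR y).mp hy
        exact (memR _).mpr ⟨a * c, by rw [map_mul, hc]⟩
      · intro y hy
        obtain ⟨c, hc⟩ := (memR y).mp hy
        exact (memR _).mpr ⟨b * c, by rw [map_mul, hc, hb]⟩
      · intro y _
        exact inv_mul_cancel_left₀ hz y
      · intro y _
        exact mul_inv_cancel_left₀ hz y
      · intro y hy
        have hy' : ψ a * y ∈ R := by
          obtain ⟨c, hc⟩ := (memR y).mp hy
          exact (memR _).mpr ⟨a * c, by rw [map_mul, hc]⟩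
        rw [TensorProduct.smul_tmul', smul_eq_mul, mul_inv, mul_inv_cancel_left₀ hz,
          ← Module.End.mul_apply, ← map_mul]
        congr 1
        exact hK _ _ (by rw [map_mul, hs y hy, hs _ hy'])

end Fermat.Agent.ES.Supp
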