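import Fermat.Agent.ES.TIota
import Fermat.Agent.ES.TSuppAlg

/-!
# ES, block TORS, package SUPP : the eigenvector in `k ⊗ KV p N`, from the other packages
(taken as hypotheses, bundled in `Supp.Hyp`).
-/

set_option autoImplicit false

noncomputable section

namespace Fermat.Agent.ES.Supp

open UpperHalfPlane ModularForm CongruenceSubgroup ModularCurve AlgebraicCurve CuspForm
open Fermat.Agent.S24 Fermat.Agent.S16 Fermat.Agent.ES
open scoped MatrixGroups TensorProduct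

variable {N : ℕ} [NeZero N] {p : ℕ} [Fact p.Prime] (H : Hyp N p)

theorem heckeV_iota (ℓ : ℕ) [Fact ℓ.Prime] (hℓ : ℓ.Prime) (hℓN : ¬ ℓ ∣ N) (f : LamM N 1) :
    heckeV p N ℓ (iota H f) = iota H (heckeL hℓ hℓN f) := by
  rw [← lift_iota H ℓ hℓ hℓN f, iota_apply, heckeV_mk p N ℓ (H.heckeU_mem ℓ), KV.lift_mk]

/-- the image of the lattice -/
def Vs : Submodule (ZMod p) (KV p N) := AddSubgroup.toZModSubmodule p (iota H).range

theorem finite_Vs : Finite (Vs H) := by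
  haveI : AddGroup.FG (LamM N 1) := Module.Finite.iff_addGroup_fg.mp (Lat.finite_LamM_one N)
  haveI : AddGroup.FG (iota H).range := AddGroup.fg_range _
  have htors : IsAddTorsion (iota H).range := by
    intro x
    rw [isOfFinAddOrder_iff_nsmul_eq_zero]
    refine ⟨p, (Fact.out : p.Prime).pos, Subtype.ext ?_⟩
    exact KV.nsmul_eq_zero x.1
  haveI : Finite (iota H).range := AddCommGroup.finite_of_fg_isAddTorsion _ htors
  exact Finite.of_injective (fun x : Vs H => (⟨x.1, x.2⟩ : (iota H).range))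
    (fun x y h => Subtype.ext (congrArg Subtype.val h))

/-- `iota` with values in `Vs` -/
def iotaV (f : LamM N 1) : Vs H := ⟨iota H f, ⟨f, rfl⟩⟩

theorem exists_iotaV (x : Vs H) : ∃ f, iotaV H f = x := by
  obtain ⟨f, hf⟩ := x.2
  exact ⟨f, Subtype.ext hf⟩

theorem iotaV_add (f g : LamM N 1) : iotaV H (f + g) = iotaV H f + iotaV H g :=
  Subtype.ext (map_add (iota H) f g)

theorem iotaV_nsmul (n : ℕ) (f : LamM N 1) : iotaV H (n • f) = n • iotaV H f :=
  Subtype.ext (map_nsmul (iota H) n f)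

theorem heckeV_mem (ℓ : ℕ) [Fact ℓ.Prime] (hℓN : ¬ ℓ ∣ N) :
    ∀ x ∈ Vs H, heckeV p N ℓ x ∈ Vs H := by
  rintro _ ⟨f, rfl⟩
  exact ⟨heckeL Fact.out hℓN f, (heckeV_iota H ℓ Fact.out hℓN f).symm⟩

/-- the primes not dividing `N` -/
abbrev Idx (N : ℕ) : Type := {ℓ : ℕ // ℓ.Prime ∧ ¬ ℓ ∣ N}

/-- the Hecke operators on `Vs` -/
def Hop (i : Idx N) : Module.End (ZMod p) (Vs H) :=
  haveI : Fact i.1.Prime := ⟨i.2.1⟩
  (heckeV p N i.1).restrict (heckeV_mem H i.1 i.2.2)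

theorem Hop_iotaV (i : Idx N) (f : LamM N 1) :
    Hop H i (iotaV H f) = iotaV H (heckeL i.2.1 i.2.2 f) := by
  haveI : Fact i.1.Prime := ⟨i.2.1⟩
  exact Subtype.ext (heckeV_iota H i.1 i.2.1 i.2.2 f)

theorem Hop_comm (i j : Idx N) : Hop H i * Hop H j = Hop H j * Hop H i := by
  refine LinearMap.ext fun x => ?_
  obtain ⟨f, rfl⟩ := exists_iotaV H x
  rw [Module.End.mul_apply, Module.End.mul_apply, Hop_iotaV, Hop_iotaV, Hop_iotaV, Hop_iotaV]
  congr 1
  apply Subtype.ext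
  exact LinearMap.congr_fun (heckeTLin_comm 2 i.2.1 i.2.2 j.2.1 j.2.2).eq f.1

variable {k : Type} [Field k] [Algebra (ZMod p) k]

/-- the algebra generated by the pairs (Hecke operator, eigenvalue) -/
def PP (c : Idx N → k) : Subalgebra (ZMod p) (Module.End (ZMod p) (Vs H) × k) :=
  Algebra.adjoin (ZMod p) (Set.range fun i : Idx N => (Hop H i, c i))

theorem inv_of_mem (g : CuspForm (Gamma0 N) 2) (a : ℕ → integralClosure ℤ ℂ)
    (ha : ∀ (ℓ : ℕ) (hℓ : ℓ.Prime) (hℓN : ¬ ℓ ∣ N), CuspForm.heckeTLin 2 hℓ hℓN g = (a ℓ : ℂ) • g)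
    (φ : integralClosure ℤ ℂ →+* k) (x : Module.End (ZMod p) (Vs H) × k)
    (hx : x ∈ PP H (fun i => φ (a i.1))) :
    ∃ (t : Module.End ℂ (CuspForm (Gamma0 N) 2)) (β : integralClosure ℤ ℂ),
      (∀ f : LamM N 1, ∃ f' : LamM N 1, (f' : CuspForm (Gamma0 N) 2) = t f.1 ∧
        x.1 (iotaV H f) = iotaV H f') ∧ t g = (β : ℂ) • g ∧ φ β = x.2 := by
  haveI : NeZero p := ⟨(Fact.out : p.Prime).ne_zero⟩
  induction hx using Algebra.adjoin_induction with
  | mem x hx =>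
    obtain ⟨i, rfl⟩ := hx
    exact ⟨CuspForm.heckeTLin 2 i.2.1 i.2.2, a i.1,
      fun f => ⟨heckeL i.2.1 i.2.2 f, rfl, Hop_iotaV H i f⟩, ha _ _ _, rfl⟩
  | algebraMap r =>
    obtain ⟨n, rfl⟩ := ZMod.natCast_zmod_surjective r
    refine ⟨(n : Module.End ℂ (CuspForm (Gamma0 N) 2)), (n : integralClosure ℤ ℂ),
      fun f => ⟨n • f, ?_, ?_⟩, ?_, ?_⟩
    · rw [Module.End.natCast_apply]; rfl
    · rw [map_natCast, Prod.fst_natCast, Module.End.natCast_apply, iotaV_nsmul]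
    · rw [Module.End.natCast_apply]
      push_cast
      rw [Nat.cast_smul_eq_nsmul]
    · rw [map_natCast, map_natCast, Prod.snd_natCast]
  | add x y _ _ hx hy =>
    obtain ⟨t, β, h1, h2, h3⟩ := hx
    obtain ⟨t', β', h1', h2', h3'⟩ := hy
    refine ⟨t + t', β + β', fun f => ?_, ?_, ?_⟩
    · obtain ⟨f1, e1, e2⟩ := h1 f
      obtain ⟨f2, e1', e2'⟩ := h1' f
      refine ⟨f1 + f2, ?_, ?_⟩
      · rw [LinearMap.add_apply, ← e1, ← e1']; rfl
      · rw [Prod.fst_add, LinearMap.add_apply, e2, e2', iotaV_add]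
    · rw [LinearMap.add_apply, h2, h2']
      push_cast
      rw [add_smul]
    · rw [map_add, h3, h3', Prod.snd_add]
  | mul x y _ _ hx hy =>
    obtain ⟨t, β, h1, h2, h3⟩ := hx
    obtain ⟨t', β', h1', h2', h3'⟩ := hy
    refine ⟨t * t', β * β', fun f => ?_, ?_, ?_⟩
    · obtain ⟨f2, e1', e2'⟩ := h1' f
      obtain ⟨f1, e1, e2⟩ := h1 f2
      refine ⟨f1, ?_, ?_⟩
      · rw [Module.End.mul_apply, ← e1', ← e1]
      · rw [Prod.fst_mul, Module.End.mul_apply, e2', e2]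
    · rw [Module.End.mul_apply, h2', map_smul, h2, smul_smul]
      push_cast
      rw [mul_comm]
    · rw [map_mul, h3, h3', Prod.snd_mul]

theorem snd_eq_zero (g : CuspForm (Gamma0 N) 2) (hg : g ≠ 0) (a : ℕ → integralClosure ℤ ℂ)
    (ha : ∀ (ℓ : ℕ) (hℓ : ℓ.Prime) (hℓN : ¬ ℓ ∣ N), CuspForm.heckeTLin 2 hℓ hℓN g = (a ℓ : ℂ) • g)
    (φ : integralClosure ℤ ℂ →+* k) (x : Module.End (ZMod p) (Vs H) × k)
    (hx : x ∈ PP H (fun i => φ (a i.1))) (h0 : x.1 = 0) : x.2 = 0 := by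
  obtain ⟨t, β, h1, h2, h3⟩ := inv_of_mem H g a ha φ x hx
  have hp : p ≠ 0 := (Fact.out : p.Prime).ne_zero
  have hpc : (p : ℂ) ≠ 0 := Nat.cast_ne_zero.mpr hp
  have ht : ∀ f ∈ LamM N 1, t f ∈ LamM N p := by
    intro f hf
    obtain ⟨f', e1, e2⟩ := h1 ⟨f, hf⟩
    rw [h0, LinearMap.zero_apply] at e2
    have e3 : iota H f' = 0 := (congrArg Subtype.val e2).symm
    have := mem_of_iota_eq_zero H f' e3
    rwa [e1] at this
  have hint := Lat.isIntegral_div N p hp t ht g hg β h2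
  have hβ : β = (p : integralClosure ℤ ℂ) * ⟨(β : ℂ) / p, hint⟩ := by
    apply Subtype.ext
    push_cast
    field_simp
  rw [← h3, hβ, map_mul, map_natCast]
  have : ((p : ℕ) : k) = 0 := by
    rw [← map_natCast (algebraMap (ZMod p) k), ZMod.natCast_self, map_zero]
  rw [this, zero_mul]

include H in
open scoped IsMulCommutative in
/-- **SUPP**, from the hypotheses. -/
theorem exists_eigenvector_of (g : CuspForm (Gamma0 N) 2) (hg : g ≠ 0)
    (a : ℕ → integralClosure ℤ ℂ)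
    (ha : ∀ (ℓ : ℕ) (hℓ : ℓ.Prime) (hℓN : ¬ ℓ ∣ N), CuspForm.heckeTLin 2 hℓ hℓN g = (a ℓ : ℂ) • g)
    (φ : integralClosure ℤ ℂ →+* k) :
    ∃ x : k ⊗[ZMod p] KV p N, x ≠ 0 ∧
      ∀ (ℓ : ℕ) [Fact ℓ.Prime], ¬ ℓ ∣ N → (heckeV p N ℓ).baseChange k x = φ (a ℓ) • x := by
  have key := snd_eq_zero H g hg a ha φ
  haveI : IsMulCommutative (PP H (fun i => φ (a i.1))) :=
    Algebra.isMulCommutative_adjoin _ (by
      rintro _ ⟨i, rfl⟩ _ ⟨j, rfl⟩
      exact Prod.ext (Hop_comm H i j) (mul_comm _ _))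
  haveI : Finite (Vs H) := finite_Vs H
  haveI : Finite (Module.End (ZMod p) (Vs H)) :=
    Finite.of_injective (fun f : Module.End (ZMod p) (Vs H) => (f : Vs H → Vs H))
      DFunLike.coe_injective
  haveI : Finite (PP H (fun i => φ (a i.1))) :=
    Finite.of_injective (fun x : PP H (fun i => φ (a i.1)) => x.1.1) (by
      intro x y hxy
      have h1 := key (x - y).1 (x - y).2 (sub_eq_zero.mpr hxy)
      exact Subtype.ext (Prod.ext hxy (sub_eq_zero.mp h1)))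
  obtain ⟨x, hx0, hx⟩ := exists_eigen (P := PP H (fun i => φ (a i.1)))
    ((AlgHom.fst (ZMod p) _ _).comp (PP H (fun i => φ (a i.1))).val)
    ((AlgHom.snd (ZMod p) _ _).comp (PP H (fun i => φ (a i.1))).val)
    (fun y h => key y.1 y.2 h)
  refine ⟨(Vs H).subtype.baseChange k x, ?_, ?_⟩
  · intro h
    apply hx0
    have hinj : Function.Injective ((Vs H).subtype.baseChange k) := by
      rw [LinearMap.baseChange_eq_ltensor]
      exact Module.Flat.lTensor_preserves_injective_linearMap _ (Vs H).injective_subtype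
    exact hinj (by rw [h, map_zero])
  · intro ℓ _ hℓN
    have h1 := hx ⟨(Hop H ⟨ℓ, Fact.out, hℓN⟩, φ (a ℓ)),
      Algebra.subset_adjoin ⟨⟨ℓ, Fact.out, hℓN⟩, rfl⟩⟩
    have h2 : (Hop H ⟨ℓ, Fact.out, hℓN⟩).baseChange k x = φ (a ℓ) • x := h1
    have h3 : (heckeV p N ℓ) ∘ₗ (Vs H).subtype = (Vs H).subtype ∘ₗ (Hop H ⟨ℓ, Fact.out, hℓN⟩) := by
      refine LinearMap.ext fun y => ?_
      rfl
    rw [← LinearMap.comp_apply, ← LinearMap.baseChange_comp, h3, LinearMap.baseChange_comp,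
      LinearMap.comp_apply, h2, map_smul]

end Fermat.Agent.ES.Supp
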