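import Fermat.Agent.ES.KDefs
import Fermat.Agent.S16.LowerCore
import Fermat.Agent.S23.Nice

/-!
# ES, block TORS : shared definitions

* `IsCFc N k χ f` : `f` is a cusp form of weight `k` on `Γ₀(N)` with character `χ : Γ₀(N) →* ℂˣ`
  (function level; `χ` is an arbitrary character of the group, not a Dirichlet character),
* `AlgQ f`        : the `q`-expansion of `f` has coefficients in `ℚ̄`,
* `IsPEc N χ`     : `χ` kills the parabolic elements and the elements of finite order,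
* `chiPer p N f`  : the character `γ ↦ exp (2 π i Re (∫_γ f) / p)`,
* `HasMult N χ h` : `h ∈ Mer` satisfies `h ∘ γ = χ γ • h`,
* `TRel p N χ w`  : `Psi N w` has a `p`-th root in `Mer` with multiplier `χ`.
-/

set_option autoImplicit false

noncomputable section

namespace Fermat.Agent.ES

open UpperHalfPlane ModularForm CongruenceSubgroup Fermat.Agent.S24 Fermat.Agent.S16
open scoped MatrixGroups Manifold

/-- `f` is a cusp form of weight `k` on `Γ₀(N)` with character `χ`. -/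
structure IsCFc (N : ℕ) (k : ℤ) (χ : Gamma0 N →* ℂˣ) (f : ℍ → ℂ) : Prop where
  holo : MDiff f
  inv : ∀ γ : Gamma0 N, f ∣[k] (γ : SL(2, ℤ)) = ((χ γ : ℂˣ) : ℂ) • f
  zero : ∀ g : SL(2, ℤ), IsZeroAtImInfty (f ∣[k] g)

/-- The `q`-expansion of `f` has coefficients in `ℚ̄`. -/
def AlgQ (f : ℍ → ℂ) : Prop := ∃ s : PowerSeries Kb, s.map iotaC = qExpansion 1 f

/-- `χ` kills the parabolic elements and the elements of finite order. -/
def IsPEc (N : ℕ) (χ : Gamma0 N →* ℂˣ) : Prop :=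
  (∀ γ : Gamma0 N, ((γ : SL(2, ℤ)) : Matrix (Fin 2) (Fin 2) ℤ).trace ^ 2 = 4 → χ γ = 1) ∧
    ∀ γ : Gamma0 N, γ ^ 12 = 1 → χ γ = 1

/-- The character `γ ↦ exp (2 π i Re (∫_γ f) / p)`. -/
def chiPer (p N : ℕ) [NeZero N] (f : CuspForm (Gamma0 N) 2) : Gamma0 N →* ℂˣ where
  toFun γ := Units.mk0
    (Complex.exp (2 * Real.pi * Complex.I * (((Per N f (Additive.ofMul γ)).re / p : ℝ) : ℂ)))
    (Complex.exp_ne_zero _)
  map_one' := by
    apply Units.ext
    simp
  map_mul' a b := by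
    apply Units.ext
    simp only [ofMul_mul, map_add, Complex.add_re, Units.val_mk0, Units.val_mul]
    rw [← Complex.exp_add]
    congr 1
    push_cast
    ring

theorem coe_chiPer (p N : ℕ) [NeZero N] (f : CuspForm (Gamma0 N) 2) (γ : Gamma0 N) :
    ((chiPer p N f γ : ℂˣ) : ℂ) =
      Complex.exp (2 * Real.pi * Complex.I * (((Per N f (Additive.ofMul γ)).re / p : ℝ) : ℂ)) := rfl

/-- constants in `Mer` -/
def cMer (c : ℂ) : Mer := toMer (algebraMap ℂ Hol c)

/-- `h ∘ γ = χ γ • h` for all `γ ∈ Γ₀(N)`. -/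
def HasMult (N : ℕ) (χ : Gamma0 N →* ℂˣ) (h : Mer) : Prop :=
  ∀ γ : Gamma0 N, act ((γ : SL(2, ℤ))⁻¹) h = cMer ((χ γ : ℂˣ) : ℂ) * h

/-- `Psi N w` has a `p`-th root in `Mer` with multiplier `χ`. -/
def TRel (p N : ℕ) (χ : Gamma0 N →* ℂˣ) (w : FF N) : Prop :=
  ∃ h : Mer, h ^ p = Psi N w ∧ HasMult N χ h

end Fermat.Agent.ES
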