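import Fermat.Agent.S24.Count
import Fermat.Agent.S24.Loc3

set_option autoImplicit false

/-!
# ES / TORS / UNRAM : the ramification index of a place is the size of the corresponding orbit
-/

namespace Fermat.Agent.ES

open AlgebraicCurve IntermediateField Fermat.Agent.S24 Fermat.Agent.S24.Count

namespace UnramCount

section main

variable {K F M X : Type*} [Field K] [CharZero K] [Field F] [Algebra K F] [Field M] [Fintype X]
  (u : F) (hu0 : u ≠ 0) [FiniteDimensional K⟮u⟯ F]
  (w : M → ℤ) (w_mul : ∀ a b : M, a ≠ 0 → b ≠ 0 → w (a * b) = w a + w b)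
  (w_add : ∀ a b : M, a ≠ 0 → b ≠ 0 → a + b ≠ 0 → min (w a) (w b) ≤ w (a + b))
  (σ : X → (F →+* M)) (σ_inj : Function.Injective σ)
  (σ_K : ∀ i i' (c : K), σ i (algebraMap K F c) = σ i' (algebraMap K F c))
  (σ_u : ∀ i i', σ i u = σ i' u)
  (hcard : Fintype.card X = Module.finrank K⟮u⟯ F)
  (w_K : ∀ i (c : K), c ≠ 0 → w (σ i (algebraMap K F c)) = 0)
  (e : ℤ) (e_pos : 0 < e) (w_u : ∀ i, w (σ i u) = e)
  (hA5 : ∀ v : Place K F, 0 < v.ord u → ∀ s : Finset (Place K F), (∀ v' ∈ s, 0 < v'.ord u) →
    v ∉ s → ∃ f : F, f ≠ 0 ∧ 0 < v.ord f ∧ (∀ v' ∈ s, v'.ord f = 0) ∧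
      ∀ v' : Place K F, 0 < v'.ord u →
        0 < v'.ord (algebraMap K⟮u⟯ F (Algebra.norm K⟮u⟯ f)))
  (ε : Equiv.Perm X) (w_ε : ∀ i f, w (σ (ε i) f) = w (σ i f))
  (hdvd : ∀ i (f : F), f ≠ 0 → e ∣ w (σ i f) * (Function.minimalPeriod ε i : ℤ))
  (hfin : Finite {v : Place K F // 0 < v.ord u})
  (hsum : ∑ᶠ v : {v : Place K F // 0 < v.ord u}, v.1.ord u = (Module.finrank K⟮u⟯ F : ℤ))

include hu0 w_mul w_add σ_inj σ_K σ_u hcard w_K e_pos w_u hA5 w_ε hdvd hfin hsum in
/-- the order of `u` at the place attached to the index `i` is the size of the orbit of `i` -/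
theorem ord_eq_minimalPeriod (i₀ : X) (v₀ : Place K F) (m₀ : ℤ) (hm₀ : 0 < m₀)
    (h₀ : ∀ f : F, f ≠ 0 → w (σ i₀ f) = m₀ * v₀.ord f) :
    v₀.ord u = (Function.minimalPeriod ε i₀ : ℤ) := by
  classical
  choose κ m hm hκu hκ using exists_place_of_index (K := K) u hu0 w w_mul w_add σ w_K e e_pos w_u
  let P := {v : Place K F // 0 < v.ord u}
  let Q := MulAction.orbitRel.Quotient (Subgroup.zpowers ε) X
  have : Fintype P := Fintype.ofFinite P
  have : Fintype Q := Fintype.ofFinite Q
  -- `κ` only depends on the order function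
  have hκext : ∀ i i', (∀ f, w (σ i f) = w (σ i' f)) → κ i = κ i' := by
    intro i i' h
    apply place_ext
    intro f hf
    have h1 := hκ i f hf
    have h2 := hκ i' f hf
    rw [h f] at h1
    constructor
    · intro h3
      by_contra h4
      push Not at h4
      have h5 := mul_nonneg (hm i).le h3
      have h6 := mul_neg_of_pos_of_neg (hm i') h4
      omega
    · intro h3
      by_contra h4
      push Not at h4
      have h5 := mul_nonneg (hm i').le h3
      have h6 := mul_neg_of_pos_of_neg (hm i) h4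
      omega
  have hstab : Subgroup.zpowers ε ≤ stabFun (fun i => fun f => w (σ i f)) := by
    rw [Subgroup.zpowers_le]
    intro i
    funext f
    exact w_ε i f
  let κP : X → P := fun i => ⟨κ i, hκu i⟩
  have hκorb : ∀ i i' : X, (MulAction.orbitRel (Subgroup.zpowers ε) X) i i' → κP i = κP i' := by
    intro i i' h
    rw [MulAction.orbitRel_apply] at h
    obtain ⟨g, rfl⟩ := h
    apply Subtype.ext
    apply hκext
    intro f
    exact congrFun (hstab g.2 i') f
  let κQ : Q → P := Quotient.lift κP hκorb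
  have hsurj : Function.Surjective κQ := by
    rintro ⟨v, hv⟩
    obtain ⟨i, m', hm', hi⟩ := exists_index_of_place u hu0 w w_mul w_add σ σ_inj σ_K σ_u hcard w_K
      e e_pos w_u hA5 v hv
    refine ⟨Quotient.mk _ i, ?_⟩
    apply Subtype.ext
    change κ i = v
    apply place_ext
    intro f hf
    have h1 := hκ i f hf
    have h2 := hi f hf
    constructor
    · intro h3
      by_contra h4
      push Not at h4
      have h5 := mul_nonneg (hm i).le h3
      have h6 := mul_neg_of_pos_of_neg hm' h4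
      omega
    · intro h3
      by_contra h4
      push Not at h4
      have h5 := mul_nonneg hm'.le h3
      have h6 := mul_neg_of_pos_of_neg (hm i) h4
      omega
  -- sizes of the orbits
  let size : Q → ℕ := fun O => Fintype.card {i : X // (Quotient.mk _ i : Q) = O}
  have hsize_sum : ∑ O, size O = Fintype.card X := by
    rw [← Fintype.card_sigma]
    exact Fintype.card_congr (Equiv.sigmaFiberEquiv (fun i : X => (Quotient.mk _ i : Q)))
  have hsize : ∀ i : X, size (Quotient.mk _ i) = Function.minimalPeriod ε i := by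
    intro i
    have h1 := MulAction.minimalPeriod_eq_card (a := ε) (b := i)
    have h2 : Function.minimalPeriod (ε • ·) i = Function.minimalPeriod ε i := rfl
    rw [← h2, h1]
    apply Fintype.card_congr
    refine Equiv.subtypeEquivRight fun i' => ?_
    rw [Quotient.eq]
    exact MulAction.orbitRel_apply
  have hle : ∀ i : X, (κ i).ord u ≤ size (Quotient.mk _ i) := by
    intro i
    rw [hsize]
    obtain ⟨π, -, hπ⟩ := exists_uniformizer (κ i)
    have hπ0 : (π : F) ≠ 0 := by
      intro h0
      rw [h0, Place.ord_zero] at hπ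
      exact zero_ne_one hπ
    have h1 := hdvd i π hπ0
    rw [hκ i π hπ0, hπ, mul_one] at h1
    have h2 := hκ i u hu0
    rw [w_u] at h2
    have hper : 0 < Function.minimalPeriod ε i :=
      Function.IsPeriodicPt.minimalPeriod_pos (orderOf_pos ε) (by
        rw [Function.IsPeriodicPt, Function.IsFixedPt, ← Equiv.Perm.coe_pow, pow_orderOf_eq_one]
        rfl)
    have h3 : e ≤ m i * (Function.minimalPeriod ε i : ℤ) :=
      Int.le_of_dvd (mul_pos (hm i) (by exact_mod_cast hper)) h1
    rw [h2] at h3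
    exact le_of_mul_le_mul_left h3 (hm i)
  -- `κQ` is a bijection
  have hcardPQ : Fintype.card P = Fintype.card Q := by
    have := Count.card_places u hu0 w w_mul w_add σ σ_inj σ_K σ_u hcard w_K e e_pos w_u hA5 ε w_ε
      hdvd hfin hsum
    rwa [Nat.card_eq_fintype_card, Nat.card_eq_fintype_card] at this
  have hbij : Function.Bijective κQ :=
    (Fintype.bijective_iff_surjective_and_card κQ).2 ⟨hsurj, hcardPQ.symm⟩
  have hleQ : ∀ O : Q, (κQ O).1.ord u ≤ size O := by
    intro O
    obtain ⟨i, rfl⟩ := Quotient.exists_rep O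
    exact hle i
  have hsum' : ∑ v : P, v.1.ord u = (Module.finrank K⟮u⟯ F : ℤ) := by
    rw [← hsum, finsum_eq_sum_of_fintype]
  have hsumQ : ∑ O : Q, (κQ O).1.ord u = ∑ O : Q, (size O : ℤ) := by
    have h1 := (Equiv.ofBijective κQ hbij).sum_comp (fun v : P => v.1.ord u)
    have h2 : ∑ O : Q, (κQ O).1.ord u = ∑ v : P, v.1.ord u := h1
    rw [h2, hsum', ← hcard]
    exact_mod_cast hsize_sum.symm
  have heq : ∀ O : Q, (κQ O).1.ord u = size O := by
    intro O
    have := (Finset.sum_eq_sum_iff_of_le (fun O _ => hleQ O)).1 hsumQ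
    exact this O (Finset.mem_univ O)
  have hv : κ i₀ = v₀ := by
    apply place_ext
    intro f hf
    have h1 := hκ i₀ f hf
    have h2 := h₀ f hf
    constructor
    · intro h3
      by_contra h4
      push Not at h4
      have h5 := mul_nonneg (hm i₀).le h3
      have h6 := mul_neg_of_pos_of_neg hm₀ h4
      omega
    · intro h3
      by_contra h4
      push Not at h4
      have h5 := mul_nonneg hm₀.le h3
      have h6 := mul_neg_of_pos_of_neg (hm i₀) h4
      omega
  have := heq (Quotient.mk _ i₀)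
  rw [hsize] at this
  rw [← hv]
  exact this

end main

section loc

variable {K F : Type*} [Field K] [IsAlgClosed K] [CharZero K] [Field F] [Algebra K F]
  (u : F) (hu : Transcendental K u) [FiniteDimensional K⟮u⟯ F]
  {p : ℂ} {X : Type*} [Fintype X] (σ : X → (F →+* MerGerm p)) (σ_inj : Function.Injective σ)
  (ι : K →+* ℂ) (σ_K : ∀ i c, σ i (algebraMap K F c) = MerGerm.const p (ι c))
  (σ_u : ∀ i i', σ i u = σ i' u) (hcard : Fintype.card X = Module.finrank K⟮u⟯ F)
  (e : ℕ) (he : 0 < e) (w_u : ∀ i, (σ i u).ord = e)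
  (ψ : ℂ → ℂ) (hψ : AnalyticAt ℂ ψ p) (hd : deriv ψ p ≠ 0) (hp : ψ p = p)
  (hμ : IsPrimitiveRoot (deriv ψ p) e)
  (ε : Equiv.Perm X)
  (hε : ∀ i f, σ (ε i) f
    = MerGerm.comp ψ hψ (MerGerm.not_eventuallyConst_of_deriv_ne_zero hd) hp (σ i f))

include hu σ_inj σ_K σ_u hcard he w_u hμ hε

/-- the order of `u` at the place attached to `i` is the size of the orbit of `i` -/
theorem ord_eq_minimalPeriod' (i : X) (v : Place K F) (m : ℤ) (hm : 0 < m)
    (h : ∀ f : F, f ≠ 0 → (σ i f).ord = m * v.ord f) :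
    v.ord u = (Function.minimalPeriod ε i : ℤ) := by
  classical
  obtain ⟨s, hs, hsum⟩ := FF.exists_zeros hu
  have hfin : Finite {v : Place K F // 0 < v.ord u} :=
    Finite.of_equiv s (Equiv.subtypeEquivRight hs)
  set R := MerGerm.comp ψ hψ (MerGerm.not_eventuallyConst_of_deriv_ne_zero hd) hp with hR
  refine ord_eq_minimalPeriod (K := K) u (Loc.ne_zero_of_transcendental hu) MerGerm.ord
    (fun _ _ ha hb => MerGerm.ord_mul ha hb) (fun _ _ ha hb hab => MerGerm.ord_add ha hb hab)
    σ σ_inj (fun i i' c => by rw [σ_K, σ_K]) σ_u hcard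
    (fun i c _ => by rw [σ_K]; exact MerGerm.ord_const) e (by exact_mod_cast he) w_u
    (fun v hv s hs hvs => exists_avoid u hu v hv s hs hvs) ε ?_ ?_ hfin ?_ i v m hm h
  · intro i f
    rw [hε]
    exact MerGerm.ord_comp_of_deriv_ne_zero hψ hd hp _
  · intro i f hf
    have hiter : ∀ n : ℕ, σ (ε^[n] i) f = R^[n] (σ i f) := by
      intro n
      induction n with
      | zero => rfl
      | succ n ih => rw [Function.iterate_succ_apply', Function.iterate_succ_apply', hε, ih]
    have h1 := hiter (Function.minimalPeriod ε i)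
    rw [Function.iterate_minimalPeriod] at h1
    have h2 := MerGerm.zpow_eq_one_of_iterate hψ hd hp ((map_ne_zero (σ i)).2 hf) _ h1.symm
    rw [hμ.zpow_eq_one_iff_dvd] at h2
    rwa [mul_comm]
  · rw [← hsum, finsum_subtype_eq_finsum_cond (f := fun v : Place K F => v.ord u)
      (fun v : Place K F => 0 < v.ord u)]
    change ∑ᶠ v ∈ {v : Place K F | 0 < v.ord u}, v.ord u = _
    have e1 : {v : Place K F | 0 < v.ord u} = ↑s := by
      ext v
      simp [hs]
    rw [e1, finsum_mem_coe_finset]

/-- **abstract UNRAM**: if all the conjugates of `f` have `P`-th roots which are invariant under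
the stabilisers, then `P` divides the order of `f` at all the places above `u = 0`. -/
theorem dvd_ord_of_root (P : ℕ) (hP : 0 < P) (f : F) (hf : f ≠ 0) (W : X → MerGerm p)
    (hW : ∀ i, W i ^ P = σ i f)
    (hinv : ∀ i, (MerGerm.comp ψ hψ (MerGerm.not_eventuallyConst_of_deriv_ne_zero hd)
      hp)^[Function.minimalPeriod ε i] (W i) = W i)
    (v : Place K F) (hv : 0 < v.ord u) : (P : ℤ) ∣ v.ord f := by
  obtain ⟨i, m, hm, h⟩ := Loc.exists_index u hu σ σ_inj ι σ_K σ_u hcard e he w_u v hv
  have h1 := ord_eq_minimalPeriod' u hu σ σ_inj ι σ_K σ_u hcard e he w_u ψ hψ hd hp hμ ε hε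
    i v m hm h
  have h2 := h u (Loc.ne_zero_of_transcendental hu)
  rw [w_u, h1] at h2
  have hW0 : W i ≠ 0 := by
    intro h0
    have := hW i
    rw [h0, zero_pow hP.ne'] at this
    exact (map_ne_zero (σ i)).2 hf this.symm
  have h3 := MerGerm.zpow_eq_one_of_iterate hψ hd hp hW0 _ (hinv i)
  rw [hμ.zpow_eq_one_iff_dvd, h2] at h3
  have hper : (0 : ℤ) < (Function.minimalPeriod ε i : ℤ) := by
    rw [← h1]
    exact hv
  have h4 : m ∣ (W i).ord := by
    rw [mul_comm m] at h3
    exact (mul_dvd_mul_iff_left hper.ne').1 h3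
  obtain ⟨k, hk⟩ := h4
  have hpow : ∀ n : ℕ, (W i ^ n).ord = n * (W i).ord := by
    intro n
    induction n with
    | zero => simp
    | succ n ih =>
      rw [pow_succ, MerGerm.ord_mul (pow_ne_zero n hW0) hW0, ih]
      push_cast
      ring
  have h5 := h f hf
  rw [← hW i, hpow, hk] at h5
  refine ⟨k, ?_⟩
  have h6 : m * v.ord f = m * (P * k) := by rw [← h5]; ring
  exact mul_left_cancel₀ hm.ne' h6

end loc

end UnramCount

end Fermat.Agent.ES
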